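import Mathlib
import Fermat.Prelude.Def_AlgebraicCurve_Repartitions
import Fermat.Agent.S24.helper82_FFBasic

/-!
# Abstract Riemann theorem for function fields (helper74, P2)

Setting (`RiemannSetting K F`): `F/K` a field extension with the Prelude's places such that
principal divisors exist (finite support, degree `0`), every place has degree one and constant
residues, and there is at least one place.  No hypothesis on the characteristic.

Main results: finite-dimensionality of `L(D)`, `ℓ(D + P) ≤ ℓ(D) + 1`, monotonicity,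
invariance under linear equivalence, the criterion `riemann_inequality_of_family` and
Riemann's theorem `exists_riemann_genus`.
-/

set_option autoImplicit false

noncomputable section

namespace Fermat.Agent.P2.helper74

open AlgebraicCurve

variable {K F : Type*} [Field K] [Field F] [Algebra K F]

/-- `ℓ(D) = dim_K L(D)`. -/
def ell (D : Divisor K F) : ℕ := Module.finrank K (riemannRochSpace D)

/-- The hypotheses of the abstract Riemann theorem. -/
structure RiemannSetting (K F : Type*) [Field K] [Field F] [Algebra K F] : Prop where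
  principal : HasPrincipalDivisors K F
  deg_one : ∀ v : Place K F, v.deg = 1
  residue : ∀ (v : Place K F) (f : F), 0 ≤ v.ord f →
    ∃ a : K, f = algebraMap K F a ∨ 0 < v.ord (f - algebraMap K F a)
  nonempty : Nonempty (Place K F)

/-- A function field of one variable over an algebraically closed field (given by a
transcendental `x` with `[F : K(x)] < ∞`) with principal divisors and at least one place is a
`RiemannSetting`. -/
theorem RiemannSetting.of_ff [IsAlgClosed K] (x : F) (hx : Transcendental K x)
    [FiniteDimensional (IntermediateField.adjoin K {x}) F] [h : HasPrincipalDivisors K F]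
    [hne : Nonempty (Place K F)] : RiemannSetting K F where
  principal := h
  deg_one := fun v => Fermat.Agent.S24.helper82.ff_deg_eq_one x hx v
  residue := fun v f hf => Fermat.Agent.S24.helper82.ff_exists_residue x hx v f hf
  nonempty := hne

section Degree

theorem degree_eq_sum (D : Divisor K F) :
    Divisor.degree D = D.sum fun v n => n * (v.deg : ℤ) := by
  classical
  induction D using Finsupp.induction with
  | zero => simp
  | single_add v n D hv hn ih =>
    rw [map_add, ih, Divisor.degree_single, Finsupp.sum_add_index' (by simp)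
      (by intro a b c; ring)]
    rw [Finsupp.sum_single_index (by simp)]

theorem degree_nonneg {D : Divisor K F} (hD : ∀ v, 0 ≤ D v) : 0 ≤ Divisor.degree D := by
  rw [degree_eq_sum]
  exact Finset.sum_nonneg fun v _ => mul_nonneg (hD v) (Int.natCast_nonneg _)

theorem degree_le_degree {D D' : Divisor K F} (h : ∀ v, D v ≤ D' v) :
    Divisor.degree D ≤ Divisor.degree D' := by
  have h0 : 0 ≤ Divisor.degree (D' - D) :=
    degree_nonneg fun v => by rw [Finsupp.sub_apply]; linarith [h v]
  rw [map_sub] at h0
  linarith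

theorem degree_pos_of_pos (hdeg : ∀ v : Place K F, v.deg = 1) {D : Divisor K F}
    (hD : ∀ v, 0 ≤ D v) {v₀ : Place K F} (hv₀ : 0 < D v₀) : 0 < Divisor.degree D := by
  classical
  have h1 : Divisor.degree (Finsupp.single v₀ (1 : ℤ)) ≤ Divisor.degree D := by
    apply degree_le_degree
    intro v
    rw [Finsupp.single_apply]
    split_ifs with h
    · subst h; omega
    · exact hD v
  rw [Divisor.degree_single, hdeg] at h1
  have : (1 : ℤ) ≤ Divisor.degree D := by simpa using h1
  omega

end Degree

section Basic

theorem mem_L_iff {D : Divisor K F} {f : F} :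
    f ∈ riemannRochSpace D ↔ ∀ v : Place K F, f = 0 ∨ -D v ≤ v.ord f :=
  mem_riemannRochSpace_iff

theorem mem_L_iff' {D : Divisor K F} {f : F} (hf : f ≠ 0) :
    f ∈ riemannRochSpace D ↔ ∀ v : Place K F, -D v ≤ v.ord f := by
  rw [mem_L_iff]
  exact forall_congr' fun v => or_iff_right hf

theorem L_mono {D D' : Divisor K F} (h : ∀ v, D v ≤ D' v) :
    riemannRochSpace D ≤ riemannRochSpace D' := by
  intro f hf
  rw [mem_L_iff] at hf ⊢
  intro v
  rcases hf v with h0 | h1
  · exact Or.inl h0
  · exact Or.inr (by linarith [h v])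

theorem ord_add_ge (v : Place K F) {f g : F} (hfg : f + g ≠ 0) :
    min (v.ord f) (v.ord g) ≤ v.ord (f + g) := by
  rcases eq_or_ne f 0 with rfl | hf
  · simp
  rcases eq_or_ne g 0 with rfl | hg
  · simp
  have h := Valuation.map_add v.adicValuation f g
  rw [v.adicValuation_eq_exp_neg_ord hfg, v.adicValuation_eq_exp_neg_ord hf,
    v.adicValuation_eq_exp_neg_ord hg, le_max_iff, WithZero.exp_le_exp, WithZero.exp_le_exp] at h
  rcases h with h | h
  · exact le_trans (min_le_left _ _) (by omega)
  · exact le_trans (min_le_right _ _) (by omega)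

theorem ord_sub_algebraMap_nonneg (v : Place K F) {f : F} (hf : 0 ≤ v.ord f) (a : K) :
    0 ≤ v.ord (f - algebraMap K F a) := by
  rw [← Fermat.Agent.S24.helper82.mem_iff_ord_nonneg] at hf ⊢
  exact sub_mem hf (v.algebraMap_mem' a)

theorem ne_zero_of_ord_ne_zero (v : Place K F) {f : F} (h : v.ord f ≠ 0) : f ≠ 0 := by
  rintro rfl
  simp at h

end Basic

section Setting

variable (hS : RiemannSetting K F)

include hS

/-- A function without poles is constant. -/
theorem exists_eq_algebraMap_of_forall_ord_nonneg {f : F}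
    (hf : ∀ v : Place K F, 0 ≤ v.ord f) : ∃ a : K, f = algebraMap K F a := by
  obtain ⟨v₀⟩ := hS.nonempty
  obtain ⟨a, ha | ha⟩ := hS.residue v₀ f (hf v₀)
  · exact ⟨a, ha⟩
  · exfalso
    have hg : f - algebraMap K F a ≠ 0 := ne_zero_of_ord_ne_zero v₀ ha.ne'
    obtain ⟨E, hE, hdeg⟩ := hS.principal.exists_divisor _ hg
    have hnn : ∀ v, 0 ≤ E v := fun v => by
      rw [hE]
      exact ord_sub_algebraMap_nonneg v (hf v) a
    have := degree_pos_of_pos hS.deg_one hnn (v₀ := v₀) (by rw [hE]; exact ha)
    omega

/-- **(R1)** `L(D) = 0` if `deg D < 0`. -/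
theorem L_eq_bot_of_degree_neg {D : Divisor K F} (hD : Divisor.degree D < 0) :
    riemannRochSpace D = ⊥ := by
  rw [eq_bot_iff]
  intro f hf
  rw [Submodule.mem_bot]
  by_contra hf0
  obtain ⟨E, hE, hdeg⟩ := hS.principal.exists_divisor f hf0
  have h0 : 0 ≤ Divisor.degree (D + E) := degree_nonneg fun v => by
    rw [Finsupp.add_apply, hE]
    have := (mem_L_iff' hf0).mp hf v
    linarith
  rw [map_add, hdeg] at h0
  omega

/-- **(R2)** `L(0) = K`. -/
theorem L_zero : riemannRochSpace (0 : Divisor K F) = LinearMap.range (Algebra.linearMap K F) := by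
  apply le_antisymm
  · intro f hf
    rw [mem_L_iff] at hf
    have hf' : ∀ v : Place K F, 0 ≤ v.ord f := fun v => by
      rcases hf v with h | h
      · rw [h]; simp
      · simpa using h
    obtain ⟨a, ha⟩ := exists_eq_algebraMap_of_forall_ord_nonneg hS hf'
    exact ⟨a, ha.symm⟩
  · rintro _ ⟨a, rfl⟩
    rw [mem_L_iff]
    intro v
    right
    rw [Algebra.linearMap_apply, Fermat.Agent.S24.helper82.ord_algebraMap]
    simp

theorem finiteDimensional_L_zero : FiniteDimensional K (riemannRochSpace (0 : Divisor K F)) := by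
  rw [L_zero hS]
  infer_instance

theorem ell_zero : ell (0 : Divisor K F) = 1 := by
  unfold ell
  rw [L_zero hS, LinearMap.finrank_range_of_inj (FaithfulSMul.algebraMap_injective K F),
    Module.finrank_self]

/-- **(R3), set form**: `L(D + P) ≤ L(D) + K g`. -/
theorem exists_L_add_single_le (D : Divisor K F) (v : Place K F) :
    ∃ g : F, riemannRochSpace (D + Finsupp.single v 1) ≤
      riemannRochSpace D ⊔ Submodule.span K {g} := by
  classical
  by_cases hle : riemannRochSpace (D + Finsupp.single v 1) ≤ riemannRochSpace D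
  · exact ⟨0, hle.trans le_sup_left⟩
  obtain ⟨g, hg, hgD⟩ := SetLike.not_le_iff_exists.mp hle
  have hg0 : g ≠ 0 := fun h => hgD (h ▸ Submodule.zero_mem _)
  have hg' := (mem_L_iff' hg0).mp hg
  have happ : ∀ w : Place K F,
      (D + Finsupp.single v (1 : ℤ) : Divisor K F) w = D w + if w = v then 1 else 0 := by
    intro w
    rw [Finsupp.add_apply, Finsupp.single_apply]
    by_cases h : v = w
    · subst h; simp
    · rw [if_neg h, if_neg (Ne.symm h)]
  have hne : ∀ w : Place K F, w ≠ v →
      (D + Finsupp.single v (1 : ℤ) : Divisor K F) w = D w := by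
    intro w hw
    rw [happ, if_neg hw, add_zero]
  have heq : (D + Finsupp.single v (1 : ℤ) : Divisor K F) v = D v + 1 := by
    rw [happ, if_pos rfl]
  -- the order of `g` at `v` is exactly `-(D v + 1)`
  have hgv : v.ord g = -(D v + 1) := by
    by_contra hcon
    apply hgD
    rw [mem_L_iff' hg0]
    intro w
    by_cases hw : w = v
    · subst hw
      have := hg' w
      rw [heq] at this
      omega
    · have := hg' w
      rw [hne w hw] at this
      exact this
  refine ⟨g, fun f hf => ?_⟩
  rcases eq_or_ne f 0 with rfl | hf0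
  · exact Submodule.zero_mem _
  have hf' := (mem_L_iff' hf0).mp hf
  have hfv : -(D v + 1) ≤ v.ord f := by
    have := hf' v
    rw [heq] at this
    exact this
  have hh : 0 ≤ v.ord (f * g⁻¹) := by
    rw [v.ord_mul hf0 (inv_ne_zero hg0), v.ord_inv, hgv]
    omega
  obtain ⟨a, ha⟩ := hS.residue v (f * g⁻¹) hh
  have hdecomp : f = (f - algebraMap K F a * g) + a • g := by
    rw [Algebra.smul_def]
    ring
  have hmemD : f - algebraMap K F a * g ∈ riemannRochSpace D := by
    rcases eq_or_ne (f - algebraMap K F a * g) 0 with h0 | h0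
    · rw [h0]
      exact Submodule.zero_mem _
    rw [mem_L_iff' h0]
    intro w
    by_cases hw : w = v
    · subst hw
      rcases ha with ha | ha
      · exfalso
        apply h0
        rw [← ha]
        field_simp
        ring
      · have hfac : f - algebraMap K F a * g = g * (f * g⁻¹ - algebraMap K F a) := by
          field_simp
        have hne0 : f * g⁻¹ - algebraMap K F a ≠ 0 := ne_zero_of_ord_ne_zero w ha.ne'
        rw [hfac, w.ord_mul hg0 hne0, hgv]
        omega
    · have hmem : f - algebraMap K F a * g ∈ riemannRochSpace (D + Finsupp.single v 1) := by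
        have : algebraMap K F a * g = a • g := by rw [Algebra.smul_def]
        rw [this]
        exact Submodule.sub_mem _ hf (Submodule.smul_mem _ a hg)
      have := (mem_L_iff' h0).mp hmem w
      rw [hne w hw] at this
      exact this
  rw [hdecomp]
  exact Submodule.add_mem _ (Submodule.mem_sup_left hmemD)
    (Submodule.mem_sup_right (Submodule.smul_mem _ a (Submodule.mem_span_singleton_self g)))

/-- **(R3)** one-point step. -/
theorem step (D : Divisor K F) (v : Place K F)
    (hD : FiniteDimensional K (riemannRochSpace D)) :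
    FiniteDimensional K (riemannRochSpace (D + Finsupp.single v 1)) ∧
      ell (D + Finsupp.single v 1) ≤ ell D + 1 := by
  obtain ⟨g, hg⟩ := exists_L_add_single_le hS D v
  have hfd : FiniteDimensional K ↥(riemannRochSpace D ⊔ Submodule.span K {g}) := inferInstance
  have hfd' : FiniteDimensional K (riemannRochSpace (D + Finsupp.single v 1)) :=
    Submodule.finiteDimensional_of_le hg
  refine ⟨hfd', ?_⟩
  unfold ell
  calc Module.finrank K (riemannRochSpace (D + Finsupp.single v 1))
      ≤ Module.finrank K ↥(riemannRochSpace D ⊔ Submodule.span K {g}) :=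
        Submodule.finrank_mono hg
    _ ≤ Module.finrank K (riemannRochSpace D) + Module.finrank K (Submodule.span K {g}) :=
        Submodule.finrank_add_le_finrank_add_finrank _ _
    _ ≤ Module.finrank K (riemannRochSpace D) + 1 := by
        gcongr
        rcases eq_or_ne g 0 with rfl | hg0
        · rw [Submodule.span_zero_singleton, finrank_bot]
          exact Nat.zero_le _
        · exact (finrank_span_singleton hg0).le

/-- The divisor attached to an `ℕ`-valued finitely supported function. -/
def toDiv (E : Place K F →₀ ℕ) : Divisor K F :=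
  E.mapRange (Nat.cast : ℕ → ℤ) Nat.cast_zero

omit hS in
@[simp] theorem toDiv_apply (E : Place K F →₀ ℕ) (v : Place K F) : toDiv E v = (E v : ℤ) :=
  Finsupp.mapRange_apply (hf := Nat.cast_zero)

omit hS in
theorem toDiv_add (E E' : Place K F →₀ ℕ) : toDiv (E + E') = toDiv E + toDiv E' := by
  ext v
  simp

omit hS in
theorem toDiv_zero : toDiv (0 : Place K F →₀ ℕ) = 0 := by
  ext v
  simp

omit hS in
theorem toDiv_single (v : Place K F) (n : ℕ) :
    toDiv (Finsupp.single v n) = Finsupp.single v (n : ℤ) := by
  classical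
  ext w
  simp [Finsupp.single_apply]

omit hS in
theorem exists_toDiv_eq {D : Divisor K F} (h : ∀ v, 0 ≤ D v) : ∃ E, toDiv E = D := by
  refine ⟨D.mapRange Int.toNat Int.toNat_zero, ?_⟩
  ext v
  rw [toDiv_apply, Finsupp.mapRange_apply (hf := Int.toNat_zero)]
  exact Int.toNat_of_nonneg (h v)

theorem step_nat (v : Place K F) (n : ℕ) : ∀ D : Divisor K F,
    FiniteDimensional K (riemannRochSpace D) →
    FiniteDimensional K (riemannRochSpace (D + Finsupp.single v (n : ℤ))) ∧
      ell (D + Finsupp.single v (n : ℤ)) ≤ ell D + n := by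
  induction n with
  | zero =>
    intro D hD
    have h0 : D + Finsupp.single v (((0 : ℕ) : ℤ)) = D := by simp
    rw [h0]
    exact ⟨hD, le_rfl⟩
  | succ n ih =>
    intro D hD
    obtain ⟨h1, h2⟩ := ih D hD
    obtain ⟨h3, h4⟩ := step hS (D + Finsupp.single v (n : ℤ)) v h1
    have heq : D + Finsupp.single v ((n + 1 : ℕ) : ℤ) =
        D + Finsupp.single v (n : ℤ) + Finsupp.single v 1 := by
      rw [add_assoc, ← Finsupp.single_add]
      push_cast
      rfl
    rw [heq]
    exact ⟨h3, by omega⟩

theorem add_toDiv (E : Place K F →₀ ℕ) : ∀ D : Divisor K F,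
    FiniteDimensional K (riemannRochSpace D) →
    FiniteDimensional K (riemannRochSpace (D + toDiv E)) ∧
      (ell (D + toDiv E) : ℤ) ≤ ell D + Divisor.degree (toDiv E) := by
  induction E using Finsupp.induction_linear with
  | zero =>
    intro D hD
    rw [toDiv_zero, add_zero, map_zero, add_zero]
    exact ⟨hD, le_rfl⟩
  | add E E' hE hE' =>
    intro D hD
    obtain ⟨h1, h2⟩ := hE D hD
    obtain ⟨h3, h4⟩ := hE' (D + toDiv E) h1
    rw [toDiv_add, ← add_assoc, map_add]
    exact ⟨h3, by linarith⟩
  | single v n =>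
    intro D hD
    obtain ⟨h1, h2⟩ := step_nat hS v n D hD
    rw [toDiv_single, Divisor.degree_single, hS.deg_one]
    refine ⟨h1, ?_⟩
    push_cast
    have : (ell (D + Finsupp.single v (n : ℤ)) : ℤ) ≤ (ell D + n : ℕ) := by exact_mod_cast h2
    push_cast at this
    linarith

/-- **(R3)** `L(D)` is finite-dimensional. -/
theorem finiteDimensional_L (D : Divisor K F) : FiniteDimensional K (riemannRochSpace D) := by
  obtain ⟨E, hE⟩ := exists_toDiv_eq (D := D.mapRange (fun n : ℤ => ((n.toNat : ℕ) : ℤ)) (by simp))
    (fun v => by rw [Finsupp.mapRange_apply (hf := by simp)]; exact Int.natCast_nonneg _)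
  have hle : ∀ v, D v ≤ (0 + toDiv E : Divisor K F) v := by
    intro v
    rw [hE, zero_add, Finsupp.mapRange_apply (hf := by simp)]
    exact Int.self_le_toNat _
  have hfd := (add_toDiv hS E 0 (finiteDimensional_L_zero hS)).1
  exact Submodule.finiteDimensional_of_le (L_mono hle)

/-- **(R4)** monotonicity. -/
theorem ell_le_of_le {D D' : Divisor K F} (h : ∀ v, D v ≤ D' v) :
    (ell D' : ℤ) ≤ ell D + (Divisor.degree D' - Divisor.degree D) := by
  obtain ⟨E, hE⟩ := exists_toDiv_eq (D := D' - D)
    (fun v => by rw [Finsupp.sub_apply]; linarith [h v])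
  have h2 := (add_toDiv hS E D (finiteDimensional_L hS D)).2
  rw [hE, add_sub_cancel, map_sub] at h2
  exact h2

theorem ell_mono {D D' : Divisor K F} (h : ∀ v, D v ≤ D' v) : ell D ≤ ell D' := by
  have := finiteDimensional_L hS D'
  exact Submodule.finrank_mono (L_mono h)

omit hS in
/-- **(R5)** invariance under linear equivalence. -/
theorem ell_add_principal (D : Divisor K F) {z : F} (hz : z ≠ 0) {Z : Divisor K F}
    (hZ : ∀ v, Z v = v.ord z) : ell (D + Z) = ell D := by
  have hinj : Function.Injective (LinearMap.mulLeft K z) := fun a b hab =>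
    mul_left_cancel₀ hz hab
  have hmap : (riemannRochSpace (D + Z)).map (LinearMap.mulLeft K z) = riemannRochSpace D := by
    ext f
    rw [Submodule.mem_map]
    constructor
    · rintro ⟨h, hh, rfl⟩
      rw [LinearMap.mulLeft_apply]
      rcases eq_or_ne h 0 with rfl | h0
      · rw [mul_zero]; exact Submodule.zero_mem _
      rw [mem_L_iff' (mul_ne_zero hz h0)]
      intro v
      have := (mem_L_iff' h0).mp hh v
      rw [Finsupp.add_apply, hZ] at this
      rw [v.ord_mul hz h0]
      omega
    · intro hf
      refine ⟨z⁻¹ * f, ?_, by rw [LinearMap.mulLeft_apply, mul_inv_cancel_left₀ hz]⟩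
      rcases eq_or_ne f 0 with rfl | f0
      · rw [mul_zero]; exact Submodule.zero_mem _
      rw [mem_L_iff' (mul_ne_zero (inv_ne_zero hz) f0)]
      intro v
      have := (mem_L_iff' f0).mp hf v
      rw [Finsupp.add_apply, hZ, v.ord_mul (inv_ne_zero hz) f0, v.ord_inv]
      omega
  unfold ell
  rw [← hmap]
  exact (Submodule.equivMapOfInjective _ hinj _).finrank_eq

omit hS in
theorem exists_ne_zero_of_ell_pos {D : Divisor K F} (h : 0 < ell D) :
    ∃ z : F, z ≠ 0 ∧ z ∈ riemannRochSpace D := by
  have hne : riemannRochSpace D ≠ ⊥ := by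
    intro hbot
    unfold ell at h
    rw [hbot, finrank_bot] at h
    exact lt_irrefl _ h
  obtain ⟨z, hz, hz0⟩ := Submodule.exists_mem_ne_zero_of_ne_bot hne
  exact ⟨z, hz0, hz⟩

theorem ell_le_degree_add_one (D : Divisor K F) (hD : 0 < ell D) :
    (ell D : ℤ) ≤ Divisor.degree D + 1 := by
  obtain ⟨z, hz0, hz⟩ := exists_ne_zero_of_ell_pos hD
  obtain ⟨Z, hZ, hZdeg⟩ := hS.principal.exists_divisor z hz0
  have h1 := ell_add_principal D hz0 hZ
  have h2 := ell_le_of_le hS (D := 0) (D' := D + Z) (fun v => by
    rw [Finsupp.add_apply, hZ, Finsupp.zero_apply]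
    have := (mem_L_iff' hz0).mp hz v
    omega)
  rw [h1, ell_zero hS, map_add, hZdeg, map_zero] at h2
  push_cast at h2
  linarith

/-- **(R6)** the criterion: a bound of Riemann type for divisors of arbitrarily large degree
implies Riemann's inequality for all divisors. -/
theorem riemann_inequality_of_family (g : ℤ)
    (hE : ∀ n : ℤ, ∃ E : Divisor K F, n ≤ Divisor.degree E ∧
      Divisor.degree E + 1 - g ≤ ell E) :
    ∀ D : Divisor K F, Divisor.degree D + 1 - g ≤ ell D := by
  intro D
  -- the positive part of `D`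
  obtain ⟨P, hP⟩ := exists_toDiv_eq
    (D := D.mapRange (fun n : ℤ => ((n.toNat : ℕ) : ℤ)) (by simp))
    (fun v => by rw [Finsupp.mapRange_apply (hf := by simp)]; exact Int.natCast_nonneg _)
  have hDP : ∀ v, D v ≤ toDiv P v := by
    intro v
    rw [hP, Finsupp.mapRange_apply (hf := by simp)]
    exact Int.self_le_toNat _
  have hP0 : ∀ v, 0 ≤ toDiv P v := fun v => by rw [toDiv_apply]; exact Int.natCast_nonneg _
  obtain ⟨E, hEdeg, hEell⟩ := hE (g + Divisor.degree (toDiv P))
  -- `ℓ(E - P) ≥ 1`
  have h1 := ell_le_of_le hS (D := E - toDiv P) (D' := E) (fun v => by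
    rw [Finsupp.sub_apply]; linarith [hP0 v])
  rw [map_sub] at h1
  have hpos : 0 < ell (E - toDiv P) := by
    have : (0 : ℤ) < ell (E - toDiv P) := by linarith
    exact_mod_cast this
  obtain ⟨z, hz0, hz⟩ := exists_ne_zero_of_ell_pos hpos
  obtain ⟨Z, hZ, hZdeg⟩ := hS.principal.exists_divisor z⁻¹ (inv_ne_zero hz0)
  have h2 := ell_add_principal D (inv_ne_zero hz0) hZ
  have h3 := ell_le_of_le hS (D := D + Z) (D' := E) (fun v => by
    rw [Finsupp.add_apply, hZ, v.ord_inv]
    have := (mem_L_iff' hz0).mp hz v
    rw [Finsupp.sub_apply] at this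
    linarith [hDP v])
  rw [h2, map_add, hZdeg] at h3
  linarith

/-- **(R7)** Riemann's theorem. -/
theorem exists_riemann_genus (g₀ : ℤ)
    (h : ∀ D : Divisor K F, Divisor.degree D + 1 - g₀ ≤ ell D) :
    ∃ g : ℕ, (∀ D : Divisor K F, Divisor.degree D + 1 ≤ (ell D : ℤ) + g) ∧
      (g : ℤ) ≤ g₀ ∧
      ∃ c : ℤ, ∀ D : Divisor K F, c ≤ Divisor.degree D →
        (ell D : ℤ) + g = Divisor.degree D + 1 := by
  classical
  -- the greatest value of `deg D + 1 - ℓ(D)`
  obtain ⟨gm, ⟨D₀, hD₀⟩, hmax⟩ := Int.exists_greatest_of_bdd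
    (P := fun n : ℤ => ∃ D : Divisor K F, n = Divisor.degree D + 1 - ell D)
    ⟨g₀, fun n ⟨D, hD⟩ => by rw [hD]; linarith [h D]⟩
    ⟨0, 0, by rw [map_zero, ell_zero hS]; simp⟩
  have hgm0 : 0 ≤ gm := hmax 0 ⟨0, by rw [map_zero, ell_zero hS]; simp⟩
  have hgmle : gm ≤ g₀ := by rw [hD₀]; linarith [h D₀]
  have hall : ∀ D : Divisor K F, Divisor.degree D + 1 - ell D ≤ gm := fun D => hmax _ ⟨D, rfl⟩
  refine ⟨gm.toNat, ?_, ?_, Divisor.degree D₀ + gm, ?_⟩
  · intro D
    rw [Int.toNat_of_nonneg hgm0]
    linarith [hall D]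
  · rw [Int.toNat_of_nonneg hgm0]
    exact hgmle
  · intro D hD
    rw [Int.toNat_of_nonneg hgm0]
    have h1 := hall (D - D₀)
    rw [map_sub] at h1
    have hpos : 0 < ell (D - D₀) := by
      have : (0 : ℤ) < ell (D - D₀) := by linarith
      exact_mod_cast this
    obtain ⟨z, hz0, hz⟩ := exists_ne_zero_of_ell_pos hpos
    obtain ⟨Z, hZ, hZdeg⟩ := hS.principal.exists_divisor z hz0
    have h2 := ell_add_principal D hz0 hZ
    have h3 := ell_le_of_le hS (D := D₀) (D' := D + Z) (fun v => by
      rw [Finsupp.add_apply, hZ]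
      have := (mem_L_iff' hz0).mp hz v
      rw [Finsupp.sub_apply] at this
      linarith)
    rw [h2, map_add, hZdeg] at h3
    linarith [hall D]

end Setting

end Fermat.Agent.P2.helper74
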