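import Mathlib
import Fermat.Prelude.Def_AlgebraicCurve_Repartitions
import Fermat.Agent.P2.helper74_Riemann

/-!
# P2-RR, part 3 (helper74): consequences of Riemann's theorem

Abstract over a `RiemannSetting K F` with a Riemann genus `g`
(`hR : deg D + 1 ≤ ℓ(D) + g` for all `D`, `hc : ℓ(D) + g = deg D + 1` for `deg D ≥ c`):

* no base points in large degree, functions with exact pole order;
* functions with prescribed orders at finitely many places (one auxiliary pole);
* infinitely many places;
* non-special effective divisors `Q₁ + ⋯ + Q_g` with distinct points off a finite set;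
* every divisor of degree `≥ g` is linearly equivalent to an effective one.

No canonical divisor and no differentials are used.
-/

namespace Fermat.Agent.P2.helper74

open AlgebraicCurve

variable {K F : Type*} [Field K] [Field F] [Algebra K F]

/-- The divisor `∑_{P ∈ Q} P`. -/
noncomputable def sumSingle (Q : Finset (Place K F)) : Divisor K F :=
  ∑ P ∈ Q, Finsupp.single P (1 : ℤ)

theorem sumSingle_apply (Q : Finset (Place K F)) (v : Place K F) [Decidable (v ∈ Q)] :
    sumSingle Q v = if v ∈ Q then 1 else 0 := by
  classical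
  rw [sumSingle, Finsupp.finsetSum_apply]
  simp only [Finsupp.single_apply]
  rw [Finset.sum_ite_eq' Q v]
  congr

theorem sumSingle_empty : sumSingle (∅ : Finset (Place K F)) = 0 := by
  rw [sumSingle, Finset.sum_empty]

theorem sumSingle_insert [DecidableEq (Place K F)] {Q : Finset (Place K F)} {P : Place K F}
    (hP : P ∉ Q) : sumSingle (insert P Q) = sumSingle Q + Finsupp.single P 1 := by
  rw [sumSingle, Finset.sum_insert hP, add_comm]
  rfl

theorem sumSingle_nonneg (Q : Finset (Place K F)) (v : Place K F) : 0 ≤ sumSingle Q v := by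
  classical
  rw [sumSingle_apply]
  split_ifs <;> omega

section Consequences

variable (hS : RiemannSetting K F)

include hS

theorem degree_sub_single (D : Divisor K F) (P : Place K F) :
    Divisor.degree (D - Finsupp.single P 1) = Divisor.degree D - 1 := by
  rw [map_sub, Divisor.degree_single, hS.deg_one]
  simp

theorem degree_add_single (D : Divisor K F) (P : Place K F) :
    Divisor.degree (D + Finsupp.single P 1) = Divisor.degree D + 1 := by
  rw [map_add, Divisor.degree_single, hS.deg_one]
  simp

omit hS in
/-- `L(D - P)` consists of the elements of `L(D)` whose order at `P` is larger than `-D P`. -/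
theorem mem_L_sub_single_iff {D : Divisor K F} {P : Place K F} {f : F} (hf : f ≠ 0) :
    f ∈ riemannRochSpace (D - Finsupp.single P 1) ↔
      f ∈ riemannRochSpace D ∧ -D P < P.ord f := by
  classical
  rw [mem_L_iff' hf, mem_L_iff' hf]
  constructor
  · intro h
    refine ⟨fun v => ?_, ?_⟩
    · have := h v
      rw [Finsupp.sub_apply, Finsupp.single_apply] at this
      split_ifs at this <;> omega
    · have := h P
      rw [Finsupp.sub_apply, Finsupp.single_apply, if_pos rfl] at this
      omega
  · rintro ⟨h1, h2⟩ v
    rw [Finsupp.sub_apply, Finsupp.single_apply]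
    split_ifs with hv
    · subst hv; omega
    · have := h1 v
      omega

variable {g : ℕ} {c : ℤ}
  (hc : ∀ D : Divisor K F, c ≤ Divisor.degree D → (ell D : ℤ) + g = Divisor.degree D + 1)

include hc

/-- **No base points in large degree.** -/
theorem ell_sub_single {D : Divisor K F} (hD : c + 1 ≤ Divisor.degree D) (P : Place K F) :
    ell (D - Finsupp.single P 1) + 1 = ell D := by
  have h1 := hc D (by linarith)
  have h2 := hc (D - Finsupp.single P 1) (by rw [degree_sub_single hS]; linarith)
  rw [degree_sub_single hS] at h2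
  have : ((ell (D - Finsupp.single P 1) + 1 : ℕ) : ℤ) = ell D := by
    push_cast
    linarith
  exact_mod_cast this

/-- **Exact pole order.** For `deg D ≥ c + 1` there is `f ∈ L(D)` with `ord_P f = - D P`. -/
theorem exists_mem_L_ord_eq {D : Divisor K F} (hD : c + 1 ≤ Divisor.degree D)
    (P : Place K F) :
    ∃ f : F, f ≠ 0 ∧ f ∈ riemannRochSpace D ∧ P.ord f = -D P := by
  have h1 := ell_sub_single hS hc hD P
  have hle : riemannRochSpace (D - Finsupp.single P 1) ≤ riemannRochSpace D := by
    classical
    refine L_mono fun v => ?_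
    rw [Finsupp.sub_apply, Finsupp.single_apply]
    split_ifs <;> omega
  have hne : ¬ riemannRochSpace D ≤ riemannRochSpace (D - Finsupp.single P 1) := by
    intro h
    have := finiteDimensional_L hS (D - Finsupp.single P 1)
    have h2 : ell D ≤ ell (D - Finsupp.single P 1) := Submodule.finrank_mono h
    omega
  obtain ⟨f, hfD, hfn⟩ := Set.not_subset.mp hne
  have hf0 : f ≠ 0 := by
    rintro rfl
    exact hfn (zero_mem _)
  refine ⟨f, hf0, hfD, ?_⟩
  have h3 := (mem_L_iff' hf0).mp hfD P
  have h4 : ¬ (-D P < P.ord f) := fun h => hfn ((mem_L_sub_single_iff hf0).mpr ⟨hfD, h⟩)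
  omega

/-- **Prescribed orders.** For a finite set `T` of places, integers `n P` and an auxiliary
place `Q₁ ∉ T` there is a function with `ord_P t = n P` on `T` and no pole outside
`T ∪ {Q₁}`. -/
theorem exists_prescribed_ord [Infinite K] (T : Finset (Place K F)) (n : Place K F → ℤ)
    (Q₁ : Place K F) (hQ₁ : Q₁ ∉ T) :
    ∃ t : F, t ≠ 0 ∧ (∀ P ∈ T, P.ord t = n P) ∧ ∀ P, P ∉ T → P ≠ Q₁ → 0 ≤ P.ord t := by
  classical
  rcases T.eq_empty_or_nonempty with hT | ⟨P₀, hP₀⟩
  · subst hT
    exact ⟨1, one_ne_zero, fun P hP => absurd hP (Finset.notMem_empty P),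
      fun P _ _ => by rw [Place.ord_one]⟩
  -- the divisor `D = m Q₁ - ∑ n_P P`
  set D₀ : Divisor K F := ∑ P ∈ T, Finsupp.single P (n P) with hD₀
  have hD₀v : ∀ v, D₀ v = if v ∈ T then n v else 0 := by
    intro v
    rw [hD₀, Finsupp.finsetSum_apply]
    simp only [Finsupp.single_apply]
    rw [Finset.sum_ite_eq' T v]
  set m : ℕ := (c + 1 + Divisor.degree D₀).toNat with hm
  have hm' : c + 1 + Divisor.degree D₀ ≤ m := Int.self_le_toNat _
  set D : Divisor K F := Finsupp.single Q₁ (m : ℤ) - D₀ with hD
  have hDv : ∀ v, D v = (if v = Q₁ then (m : ℤ) else 0) - if v ∈ T then n v else 0 := by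
    intro v
    rw [hD, Finsupp.sub_apply, hD₀v, Finsupp.single_apply]
    simp only [eq_comm]
  have hDdeg : c + 1 ≤ Divisor.degree D := by
    rw [hD, map_sub, Divisor.degree_single, hS.deg_one]
    simp only [Nat.cast_one, mul_one]
    linarith
  -- the proper subspaces `L(D - P)`, `P ∈ T`, of `L(D)`
  let p : T → Submodule K (riemannRochSpace D) := fun P =>
    (riemannRochSpace (D - Finsupp.single (P : Place K F) 1)).comap (riemannRochSpace D).subtype
  have hp : ∀ P : T, p P ≠ ⊤ := by
    intro P hP
    obtain ⟨f, hf0, hfD, hford⟩ := exists_mem_L_ord_eq hS hc hDdeg (P : Place K F)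
    have hmem : (⟨f, hfD⟩ : riemannRochSpace D) ∈ p P := by
      rw [hP]
      exact Submodule.mem_top
    have hmem' : f ∈ riemannRochSpace (D - Finsupp.single (P : Place K F) 1) := hmem
    have := ((mem_L_sub_single_iff hf0).mp hmem').2
    omega
  obtain ⟨⟨t, htD⟩, ht⟩ := Submodule.exists_forall_notMem_of_forall_ne_top p hp
  have ht0 : t ≠ 0 := by
    rintro rfl
    exact ht ⟨P₀, hP₀⟩ (zero_mem _)
  refine ⟨t, ht0, fun P hPT => ?_, fun P hPT hPQ => ?_⟩
  · have h1 := (mem_L_iff' ht0).mp htD P
    have h2 : ¬ (-D P < P.ord t) := fun h =>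
      ht ⟨P, hPT⟩ ((mem_L_sub_single_iff ht0).mpr ⟨htD, h⟩)
    have h3 : D P = -n P := by
      rw [hDv, if_pos hPT, if_neg (fun h : P = Q₁ => hQ₁ (h ▸ hPT))]
      ring
    omega
  · have h1 := (mem_L_iff' ht0).mp htD P
    rw [hDv, if_neg hPT, if_neg hPQ] at h1
    simpa using h1

omit hc in
theorem degree_sumSingle (Q : Finset (Place K F)) :
    Divisor.degree (sumSingle Q) = Q.card := by
  classical
  induction Q using Finset.induction_on with
  | empty => simp [sumSingle_empty]
  | insert P Q hP ih =>
    rw [sumSingle_insert hP, degree_add_single hS, ih, Finset.card_insert_of_notMem hP]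
    push_cast
    ring

/-- Riemann's inequality follows from the equality in large degree. -/
theorem riemann_ineq_of_eq (D : Divisor K F) : Divisor.degree D + 1 ≤ (ell D : ℤ) + g := by
  obtain ⟨P₀⟩ := hS.nonempty
  set m : ℕ := (c - Divisor.degree D).toNat with hm
  have hm' : c - Divisor.degree D ≤ m := Int.self_le_toNat _
  have hle : ∀ v, D v ≤ (D + Finsupp.single P₀ (m : ℤ)) v := by
    classical
    intro v
    rw [Finsupp.add_apply, Finsupp.single_apply]
    split_ifs <;> omega
  have h1 := ell_le_of_le hS hle
  have hdeg : Divisor.degree (D + Finsupp.single P₀ (m : ℤ)) = Divisor.degree D + m := by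
    rw [map_add, Divisor.degree_single, hS.deg_one]
    simp
  have h2 := hc (D + Finsupp.single P₀ (m : ℤ)) (by rw [hdeg]; linarith)
  rw [hdeg] at h1 h2
  linarith

/-- The Riemann genus is unique. -/
theorem genus_unique {g' : ℕ} {c' : ℤ}
    (hc' : ∀ D : Divisor K F, c' ≤ Divisor.degree D →
      (ell D : ℤ) + g' = Divisor.degree D + 1) : g = g' := by
  obtain ⟨P₀⟩ := hS.nonempty
  set m : ℕ := (max c c').toNat with hm
  have hm' : max c c' ≤ m := Int.self_le_toNat _
  have hdeg : Divisor.degree (Finsupp.single P₀ (m : ℤ)) = m := by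
    rw [Divisor.degree_single, hS.deg_one]
    simp
  have h1 := hc (Finsupp.single P₀ (m : ℤ)) (by rw [hdeg]; exact le_trans (le_max_left _ _) hm')
  have h2 := hc' (Finsupp.single P₀ (m : ℤ)) (by rw [hdeg]; exact le_trans (le_max_right _ _) hm')
  have : (g : ℤ) = g' := by linarith
  exact_mod_cast this

/-- Every divisor of degree at least `g` is linearly equivalent to an effective divisor. -/
theorem exists_effective_of_degree_ge {D : Divisor K F} (hD : (g : ℤ) ≤ Divisor.degree D) :
    ∃ f : F, f ≠ 0 ∧ ∀ v : Place K F, 0 ≤ D v + v.ord f := by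
  have h1 := riemann_ineq_of_eq hS hc D
  have hpos : 0 < ell D := by
    have : (0 : ℤ) < ell D := by linarith
    exact_mod_cast this
  obtain ⟨f, hf0, hf⟩ := exists_ne_zero_of_ell_pos hpos
  refine ⟨f, hf0, fun v => ?_⟩
  have := (mem_L_iff' hf0).mp hf v
  linarith

omit hc in
/-- A non-constant function has a zero. -/
theorem exists_zero_of_nonconstant {x : F} (hx : x ∉ Set.range (algebraMap K F)) :
    ∃ P : Place K F, 0 < P.ord x := by
  by_contra hcon
  push Not at hcon
  have h1 : ∀ v : Place K F, 0 ≤ v.ord x⁻¹ := fun v => by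
    rw [Place.ord_inv]
    linarith [hcon v]
  obtain ⟨a, ha⟩ := exists_eq_algebraMap_of_forall_ord_nonneg hS h1
  apply hx
  refine ⟨a⁻¹, ?_⟩
  rw [map_inv₀, ← ha, inv_inv]

/-- There is a non-constant function. -/
theorem exists_nonconstant : ∃ x : F, x ∉ Set.range (algebraMap K F) := by
  obtain ⟨P₀⟩ := hS.nonempty
  set m : ℕ := (max c (g + 1)).toNat with hm
  have hm' : max c (g + 1) ≤ m := Int.self_le_toNat _
  have hdeg : Divisor.degree (Finsupp.single P₀ (m : ℤ)) = m := by
    rw [Divisor.degree_single, hS.deg_one]
    simp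
  have h1 := hc (Finsupp.single P₀ (m : ℤ)) (by rw [hdeg]; exact le_trans (le_max_left _ _) hm')
  rw [hdeg] at h1
  have h2 : (g : ℤ) + 1 ≤ m := le_trans (le_max_right _ _) hm'
  have h3 : 2 ≤ ell (Finsupp.single P₀ (m : ℤ)) := by
    have : (2 : ℤ) ≤ ell (Finsupp.single P₀ (m : ℤ)) := by linarith
    exact_mod_cast this
  by_contra hcon
  push Not at hcon
  have hle : riemannRochSpace (Finsupp.single P₀ (m : ℤ)) ≤
      LinearMap.range (Algebra.linearMap K F) := by
    intro f _
    obtain ⟨a, ha⟩ := hcon f
    exact ⟨a, ha⟩
  have h4 : ell (Finsupp.single P₀ (m : ℤ)) ≤ 1 := by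
    have h5 := Submodule.finrank_mono hle
    rw [LinearMap.finrank_range_of_inj (FaithfulSMul.algebraMap_injective K F),
      Module.finrank_self] at h5
    exact h5
  omega

/-- **Infinitely many places.** -/
theorem infinite_place [Infinite K] : Infinite (Place K F) := by
  obtain ⟨x, hx⟩ := exists_nonconstant hS hc
  have hxa : ∀ a : K, x - algebraMap K F a ∉ Set.range (algebraMap K F) := by
    rintro a ⟨b, hb⟩
    apply hx
    refine ⟨b + a, ?_⟩
    rw [map_add, hb]
    ring
  choose P hP using fun a => exists_zero_of_nonconstant hS (hxa a)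
  refine Infinite.of_injective P fun a b hab => ?_
  by_contra hne
  have h1 := hP a
  have h2 := hP b
  rw [hab] at h1
  have h3 : (x - algebraMap K F a) + -(x - algebraMap K F b) = algebraMap K F (b - a) := by
    rw [map_sub]
    ring
  have hba : algebraMap K F (b - a) ≠ 0 := by
    rw [Ne, map_eq_zero, sub_eq_zero]
    exact fun h => hne h.symm
  have h4 := ord_add_ge (P b) (f := x - algebraMap K F a) (g := -(x - algebraMap K F b))
    (by rw [h3]; exact hba)
  rw [h3, Fermat.Agent.S24.helper82.ord_algebraMap] at h4
  have h5 : (P b).ord (-(x - algebraMap K F b)) = (P b).ord (x - algebraMap K F b) := by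
    have hx0 : x - algebraMap K F b ≠ 0 := ne_zero_of_ord_ne_zero (P b) h2.ne'
    have : -(x - algebraMap K F b) = algebraMap K F (-1) * (x - algebraMap K F b) := by
      rw [map_neg, map_one]
      ring
    rw [this, Place.ord_mul _ (by rw [map_neg, map_one]; exact neg_ne_zero.mpr one_ne_zero) hx0,
      Fermat.Agent.S24.helper82.ord_algebraMap, zero_add]
  rw [h5] at h4
  have := lt_min h1 h2
  omega

omit hc in
/-- Adding "bad" points (points `P` with `ℓ(E + P) > ℓ(E)`) off the support of `E`
increases `ℓ` each time. -/
theorem ell_add_sumSingle_ge [DecidableEq (Place K F)] {E : Divisor K F}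
    (S : Finset (Place K F))
    (hS0 : ∀ P ∈ S, E P = 0)
    (hbad : ∀ P ∈ S, ell E < ell (E + Finsupp.single P 1)) :
    ell E + S.card ≤ ell (E + sumSingle S) := by
  induction S using Finset.induction_on with
  | empty => simp [sumSingle_empty]
  | insert P S hP ih =>
    have ih' := ih (fun Q hQ => hS0 Q (Finset.mem_insert_of_mem hQ))
      (fun Q hQ => hbad Q (Finset.mem_insert_of_mem hQ))
    rw [Finset.card_insert_of_notMem hP, sumSingle_insert hP, ← add_assoc (ell E),
      ← add_assoc E]
    -- a function in `L(E + P)` not in `L(E)`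
    have hb := hbad P (Finset.mem_insert_self P S)
    have hne : ¬ riemannRochSpace (E + Finsupp.single P 1) ≤ riemannRochSpace E := by
      intro h
      have := finiteDimensional_L hS E
      have h2 : ell (E + Finsupp.single P 1) ≤ ell E := Submodule.finrank_mono h
      omega
    obtain ⟨f, hfD, hfn⟩ := Set.not_subset.mp hne
    have hf0 : f ≠ 0 := by
      rintro rfl
      exact hfn (zero_mem _)
    have hford : P.ord f < 0 := by
      have h3 : ¬ (-((E + Finsupp.single P 1 : Divisor K F) P) < P.ord f) := by
        intro h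
        have := (mem_L_sub_single_iff (D := E + Finsupp.single P 1) (P := P) hf0).mpr ⟨hfD, h⟩
        rw [add_sub_cancel_right] at this
        exact hfn this
      rw [Finsupp.add_apply, Finsupp.single_apply, if_pos rfl,
        hS0 P (Finset.mem_insert_self P S)] at h3
      omega
    -- strict inclusion
    have hlt : riemannRochSpace (E + sumSingle S) <
        riemannRochSpace (E + sumSingle S + Finsupp.single P 1) := by
      refine lt_of_le_of_ne (L_mono fun v => ?_) ?_
      · rw [Finsupp.add_apply (g₂ := Finsupp.single P 1), Finsupp.single_apply]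
        split_ifs <;> omega
      · intro heq
        have hf1 : f ∈ riemannRochSpace (E + sumSingle S + Finsupp.single P 1) := by
          refine L_mono (fun v => ?_) hfD
          simp only [Finsupp.add_apply]
          linarith [sumSingle_nonneg S v]
        rw [← heq] at hf1
        have h4 := (mem_L_iff' hf0).mp hf1 P
        rw [Finsupp.add_apply, hS0 P (Finset.mem_insert_self P S), sumSingle_apply,
          if_neg hP] at h4
        omega
    have := finiteDimensional_L hS (E + sumSingle S + Finsupp.single P 1)
    have h5 : ell (E + sumSingle S) < ell (E + sumSingle S + Finsupp.single P 1) :=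
      Submodule.finrank_lt_finrank_of_lt hlt
    omega

/-- **Non-special divisors.** For every finite set `T` of places there are `g` distinct places
`Q₁, …, Q_g` outside `T` with `ℓ(Q₁ + ⋯ + Q_g) = 1`. -/
theorem exists_nonspecial [Infinite K] (T : Finset (Place K F)) :
    ∃ Q : Finset (Place K F), Q.card = g ∧ Disjoint Q T ∧ ell (sumSingle Q) = 1 := by
  classical
  have hinf := infinite_place hS hc
  suffices h : ∀ k : ℕ, k ≤ g →
      ∃ Q : Finset (Place K F), Q.card = k ∧ Disjoint Q T ∧ ell (sumSingle Q) = 1 from
    h g le_rfl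
  intro k
  induction k with
  | zero =>
    intro _
    exact ⟨∅, rfl, Finset.disjoint_empty_left T, by rw [sumSingle_empty]; exact ell_zero hS⟩
  | succ k ih =>
    intro hk
    obtain ⟨Q, hQcard, hQT, hQell⟩ := ih (by omega)
    -- a good point
    have hgood : ∃ P : Place K F, P ∉ T ∧ P ∉ Q ∧
        ell (sumSingle Q + Finsupp.single P 1) = 1 := by
      by_contra hcon
      push Not at hcon
      -- many bad points
      set N : ℕ := (c - k).toNat with hN
      have hN' : c - k ≤ N := Int.self_le_toNat _
      have hinfset : ((↑(T ∪ Q) : Set (Place K F))ᶜ).Infinite :=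
        (Finset.finite_toSet (T ∪ Q)).infinite_compl
      obtain ⟨S, hSsub, hScard⟩ := hinfset.exists_subset_card_eq N
      have hSmem : ∀ P ∈ S, P ∉ T ∧ P ∉ Q := by
        intro P hP
        have := hSsub hP
        rw [Set.mem_compl_iff, Finset.mem_coe, Finset.mem_union, not_or] at this
        exact this
      have h1 := ell_add_sumSingle_ge hS (E := sumSingle Q) S
        (fun P hP => by rw [sumSingle_apply, if_neg (hSmem P hP).2])
        (fun P hP => by
          have h2 := hcon P (hSmem P hP).1 (hSmem P hP).2
          have h3 : ell (sumSingle Q) ≤ ell (sumSingle Q + Finsupp.single P 1) :=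
            ell_mono hS fun v => by
              rw [Finsupp.add_apply, Finsupp.single_apply]
              split_ifs <;> omega
          omega)
      have hdeg : Divisor.degree (sumSingle Q + sumSingle S) = k + N := by
        rw [map_add, degree_sumSingle hS, degree_sumSingle hS, hQcard, hScard]
      have h4 := hc (sumSingle Q + sumSingle S) (by rw [hdeg]; linarith)
      rw [hdeg] at h4
      rw [hQell, hScard] at h1
      have h5 : ((1 + N : ℕ) : ℤ) ≤ ell (sumSingle Q + sumSingle S) := by exact_mod_cast h1
      push_cast at h5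
      have h6 : (k : ℤ) + 1 ≤ g := by exact_mod_cast hk
      linarith
    obtain ⟨P, hPT, hPQ, hPell⟩ := hgood
    refine ⟨insert P Q, ?_, ?_, ?_⟩
    · rw [Finset.card_insert_of_notMem hPQ, hQcard]
    · rw [Finset.disjoint_insert_left]
      exact ⟨hPT, hQT⟩
    · rw [sumSingle_insert hPQ]
      exact hPell

omit hc in
/-- A non-special effective divisor has only constant functions in its `L`-space. -/
theorem exists_eq_algebraMap_of_ell_eq_one {E : Divisor K F} (hE0 : ∀ v, 0 ≤ E v)
    (hE : ell E = 1) {f : F} (hf : f ∈ riemannRochSpace E) : ∃ a : K, f = algebraMap K F a := by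
  have hle : LinearMap.range (Algebra.linearMap K F) ≤ riemannRochSpace E := by
    rw [← L_zero hS]
    exact L_mono hE0
  have := finiteDimensional_L hS E
  have heq : LinearMap.range (Algebra.linearMap K F) = riemannRochSpace E := by
    apply Submodule.eq_of_le_of_finrank_eq hle
    rw [LinearMap.finrank_range_of_inj (FaithfulSMul.algebraMap_injective K F),
      Module.finrank_self]
    exact hE.symm
  rw [← heq] at hf
  obtain ⟨a, ha⟩ := hf
  exact ⟨a, ha.symm⟩

end Consequences

end Fermat.Agent.P2.helper74
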