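import Mathlib
import Fermat.Prelude.Def_AlgebraicCurve_Repartitions
import Fermat.Agent.P2.helper74_Riemann

/-!
# P2-RR, part 2 (helper74): Riemann's theorem from one non-constant function

For a `RiemannSetting K F` and a transcendental `x : F` with `[F : K(x)] = n < ∞`, whose pole
divisor `B` has degree at most `n`, we prove Riemann's theorem:
there are `g : ℕ` and `c : ℤ` with `deg D + 1 ≤ ℓ(D) + g` for all divisors `D` and
`ℓ(D) + g = deg D + 1` whenever `deg D ≥ c`.

The proof is the classical one: for a basis `u_j` of `F / K(x)` and an effective divisor `C`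
bounding the poles of the `u_j`, the `(l + 1) n` functions `x ^ i u_j` (`i ≤ l`) lie in
`L(l B + C)` and are linearly independent over `K`.
-/

namespace Fermat.Agent.P2.helper74

open AlgebraicCurve IntermediateField

variable {K F : Type*} [Field K] [Field F] [Algebra K F]

/-- The powers of a transcendental element are linearly independent. -/
theorem linearIndependent_pow_of_transcendental {x : F} (hx : Transcendental K x) :
    LinearIndependent K (fun i : ℕ => x ^ i) := by
  have hinj : Function.Injective (Polynomial.aeval (R := K) x) :=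
    transcendental_iff_injective.mp hx
  have h : LinearIndependent K
      ((Polynomial.aeval (R := K) x).toLinearMap ∘ (Polynomial.basisMonomials K)) :=
    (Polynomial.basisMonomials K).linearIndependent.map'
      (Polynomial.aeval (R := K) x).toLinearMap (LinearMap.ker_eq_bot.mpr hinj)
  have heq : ((Polynomial.aeval (R := K) x).toLinearMap ∘ (Polynomial.basisMonomials K))
      = fun i : ℕ => x ^ i := by
    funext i
    simp [Polynomial.coe_basisMonomials]
  rwa [heq] at h

/-- `ord_v x ≥ - B v` for `x ∈ L(B)`, `B ≥ 0` (also for `x = 0`). -/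
theorem neg_le_ord_of_mem_L {x : F} {B : Divisor K F} (hB : ∀ v, 0 ≤ B v)
    (hx : x ∈ riemannRochSpace B) (v : Place K F) : -B v ≤ v.ord x := by
  rcases (mem_L_iff.mp hx) v with h | h
  · rw [h, Place.ord_zero]
    linarith [hB v]
  · exact h

/-- `x ^ i u ∈ L(l B + C)` for `x ∈ L(B)`, `u ∈ L(C)`, `i ≤ l`, `B ≥ 0`. -/
theorem pow_mul_mem_L {x u : F} {B C : Divisor K F} (hB : ∀ v, 0 ≤ B v)
    (hx : x ∈ riemannRochSpace B) (hu : u ∈ riemannRochSpace C) {i l : ℕ} (hil : i ≤ l) :
    x ^ i * u ∈ riemannRochSpace (l • B + C) := by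
  rw [mem_L_iff]
  intro v
  by_cases h0 : x ^ i * u = 0
  · exact Or.inl h0
  right
  have hxi : x ^ i ≠ 0 := left_ne_zero_of_mul h0
  have hu0 : u ≠ 0 := right_ne_zero_of_mul h0
  rw [Place.ord_mul v hxi hu0, ← zpow_natCast, Place.ord_zpow, Finsupp.add_apply,
    Finsupp.smul_apply, nsmul_eq_mul]
  have h1 := neg_le_ord_of_mem_L hB hx v
  have h2 := (mem_L_iff' hu0).mp hu v
  have h3 : (i : ℤ) ≤ l := by exact_mod_cast hil
  have h4 : -((l : ℤ) * B v) ≤ (i : ℤ) * v.ord x := by
    have h5 : (i : ℤ) * (-B v) ≤ (i : ℤ) * v.ord x :=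
      mul_le_mul_of_nonneg_left h1 (Int.natCast_nonneg i)
    have h6 : (i : ℤ) * B v ≤ (l : ℤ) * B v := mul_le_mul_of_nonneg_right h3 (hB v)
    linarith
  linarith

section Bound

variable (hS : RiemannSetting K F)

include hS

/-- Every function lies in `L(C)` for some effective divisor `C`. -/
theorem exists_effective_mem_L (f : F) :
    ∃ C : Divisor K F, (∀ v, 0 ≤ C v) ∧ f ∈ riemannRochSpace C := by
  by_cases hf : f = 0
  · exact ⟨0, fun v => le_rfl, by rw [hf]; exact zero_mem _⟩
  obtain ⟨D, hD, -⟩ := hS.principal.exists_divisor f hf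
  refine ⟨(-D).mapRange (fun n : ℤ => ((n.toNat : ℕ) : ℤ)) (by simp), fun v => ?_, ?_⟩
  · rw [Finsupp.mapRange_apply (hf := by simp)]
    exact Int.natCast_nonneg _
  · rw [mem_L_iff' hf]
    intro v
    rw [Finsupp.mapRange_apply (hf := by simp), Finsupp.neg_apply, hD]
    omega

/-- Finitely many functions lie in `L(C)` for a common effective divisor `C`. -/
theorem exists_effective_forall_mem_L {ι : Type*} [Finite ι] (u : ι → F) :
    ∃ C : Divisor K F, (∀ v, 0 ≤ C v) ∧ ∀ j, u j ∈ riemannRochSpace C := by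
  classical
  have := Fintype.ofFinite ι
  choose C hC0 hC using fun j => exists_effective_mem_L hS (u j)
  refine ⟨∑ j, C j, fun v => ?_, fun j => ?_⟩
  · rw [Finsupp.finsetSum_apply]
    exact Finset.sum_nonneg fun j _ => hC0 j v
  · refine L_mono (fun v => ?_) (hC j)
    rw [Finsupp.finsetSum_apply]
    exact Finset.single_le_sum (f := fun j => C j v) (fun j _ => hC0 j v) (Finset.mem_univ j)

/-- **The family bound.** -/
theorem family_bound (x : F) (hx : Transcendental K x) [FiniteDimensional K⟮x⟯ F]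
    {B : Divisor K F} (hB : ∀ v, 0 ≤ B v) (hxB : x ∈ riemannRochSpace B) :
    ∃ C : Divisor K F, (∀ v, 0 ≤ C v) ∧
      ∀ l : ℕ, (l + 1) * Module.finrank K⟮x⟯ F ≤ ell (l • B + C) := by
  classical
  set n := Module.finrank K⟮x⟯ F with hn
  let b : Module.Basis (Fin n) K⟮x⟯ F := Module.finBasis K⟮x⟯ F
  obtain ⟨C, hC0, hC⟩ := exists_effective_forall_mem_L hS (fun j => b j)
  refine ⟨C, hC0, fun l => ?_⟩
  -- the powers of the generator
  have hpow : LinearIndependent K (fun i : Fin (l + 1) => (AdjoinSimple.gen K x) ^ (i : ℕ)) := by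
    have h1 : LinearIndependent K (fun i : ℕ => (AdjoinSimple.gen K x) ^ i) := by
      apply LinearIndependent.of_comp (K⟮x⟯.val.toLinearMap)
      have h2 := linearIndependent_pow_of_transcendental hx
      have heq : (K⟮x⟯.val.toLinearMap ∘ fun i : ℕ => (AdjoinSimple.gen K x) ^ i)
          = fun i : ℕ => x ^ i := by
        funext i
        simp
      rwa [heq]
    exact h1.comp _ Fin.val_injective
  have hli := linearIndependent_smul hpow b.linearIndependent
  have hmem : ∀ p : Fin (l + 1) × Fin n,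
      (AdjoinSimple.gen K x) ^ (p.1 : ℕ) • b p.2 ∈ riemannRochSpace (l • B + C) := by
    intro p
    have : (AdjoinSimple.gen K x) ^ (p.1 : ℕ) • b p.2 = x ^ (p.1 : ℕ) * b p.2 := by
      rw [IntermediateField.smul_def]
      simp
    rw [this]
    exact pow_mul_mem_L hB hxB (hC p.2) (Nat.lt_succ_iff.mp p.1.2)
  have hli' : LinearIndependent K (fun p : Fin (l + 1) × Fin n =>
      (⟨(AdjoinSimple.gen K x) ^ (p.1 : ℕ) • b p.2, hmem p⟩ : riemannRochSpace (l • B + C))) := by
    apply LinearIndependent.of_comp (riemannRochSpace (l • B + C)).subtype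
    exact hli
  have := finiteDimensional_L hS (l • B + C)
  have := hli'.fintype_card_le_finrank
  simpa [ell] using this

/-- The pole divisor of a non-constant function has degree at least `[F : K(x)]`. -/
theorem finrank_le_degree (x : F) (hx : Transcendental K x) [FiniteDimensional K⟮x⟯ F]
    {B : Divisor K F} (hB : ∀ v, 0 ≤ B v) (hxB : x ∈ riemannRochSpace B) :
    (Module.finrank K⟮x⟯ F : ℤ) ≤ Divisor.degree B := by
  obtain ⟨C, hC0, hC⟩ := family_bound hS x hx hB hxB
  have hn : 0 < Module.finrank K⟮x⟯ F := Module.finrank_pos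
  have hCdeg : 0 ≤ Divisor.degree C := degree_nonneg hC0
  by_contra hlt
  rw [not_le] at hlt
  -- take `l = deg C + 1`
  set l : ℕ := (Divisor.degree C + 1).toNat with hl
  have hl' : (l : ℤ) = Divisor.degree C + 1 := Int.toNat_of_nonneg (by linarith)
  have h1 := hC l
  have hpos : 0 < ell (l • B + C) := lt_of_lt_of_le (Nat.mul_pos (Nat.succ_pos l) hn) h1
  have h2 := ell_le_degree_add_one hS _ hpos
  rw [map_add, map_nsmul, nsmul_eq_mul] at h2
  have h3 : (((l + 1) * Module.finrank K⟮x⟯ F : ℕ) : ℤ) ≤ ell (l • B + C) := by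
    exact_mod_cast h1
  push_cast at h3
  have h4 : (l : ℤ) * Divisor.degree B ≤ (l : ℤ) * ((Module.finrank K⟮x⟯ F : ℤ) - 1) :=
    mul_le_mul_of_nonneg_left (by linarith) (Int.natCast_nonneg l)
  have h5 : (0 : ℤ) < Module.finrank K⟮x⟯ F := by exact_mod_cast hn
  nlinarith

/-- **Riemann's theorem from one function**: if the pole divisor `B` of a transcendental `x`
has degree at most `[F : K(x)]`, then `F` has a genus in the sense of Riemann. -/
theorem exists_genus_of_degree_le (x : F) (hx : Transcendental K x) [FiniteDimensional K⟮x⟯ F]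
    {B : Divisor K F} (hB : ∀ v, 0 ≤ B v) (hxB : x ∈ riemannRochSpace B)
    (hdeg : Divisor.degree B ≤ Module.finrank K⟮x⟯ F) :
    ∃ g : ℕ, (∀ D : Divisor K F, Divisor.degree D + 1 ≤ (ell D : ℤ) + g) ∧
      ∃ c : ℤ, ∀ D : Divisor K F, c ≤ Divisor.degree D →
        (ell D : ℤ) + g = Divisor.degree D + 1 := by
  obtain ⟨C, hC0, hC⟩ := family_bound hS x hx hB hxB
  have hn : 0 < Module.finrank K⟮x⟯ F := Module.finrank_pos
  have hn' : (0 : ℤ) < Module.finrank K⟮x⟯ F := by exact_mod_cast hn
  have hCdeg : 0 ≤ Divisor.degree C := degree_nonneg hC0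
  have hBdeg : Divisor.degree B = Module.finrank K⟮x⟯ F :=
    le_antisymm hdeg (finrank_le_degree hS x hx hB hxB)
  have hfam : ∀ m : ℤ, ∃ E : Divisor K F, m ≤ Divisor.degree E ∧
      Divisor.degree E + 1 - (Divisor.degree C + 1 - Module.finrank K⟮x⟯ F) ≤ ell E := by
    intro m
    refine ⟨m.toNat • B + C, ?_, ?_⟩
    · rw [map_add, map_nsmul, nsmul_eq_mul, hBdeg]
      have h1 : m ≤ (m.toNat : ℤ) := Int.self_le_toNat m
      have h2 : (m.toNat : ℤ) * 1 ≤ (m.toNat : ℤ) * (Module.finrank K⟮x⟯ F : ℤ) :=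
        mul_le_mul_of_nonneg_left (by linarith) (Int.natCast_nonneg _)
      linarith
    · rw [map_add, map_nsmul, nsmul_eq_mul, hBdeg]
      have h3 : (((m.toNat + 1) * Module.finrank K⟮x⟯ F : ℕ) : ℤ) ≤ ell (m.toNat • B + C) := by
        exact_mod_cast hC m.toNat
      push_cast at h3
      linarith
  obtain ⟨g, h1, -, h2⟩ :=
    exists_riemann_genus hS _ (riemann_inequality_of_family hS _ hfam)
  exact ⟨g, h1, h2⟩

/-- The pole divisor of a nonzero function. -/
theorem exists_poleDivisor {x : F} (hx0 : x ≠ 0) :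
    ∃ B : Divisor K F, (∀ v, B v = max 0 (-(v.ord x))) ∧ (∀ v, 0 ≤ B v) ∧
      x ∈ riemannRochSpace B := by
  obtain ⟨D, hD, -⟩ := hS.principal.exists_divisor x hx0
  have hBv : ∀ v, ((-D).mapRange (fun n : ℤ => ((n.toNat : ℕ) : ℤ)) (by simp)) v
      = max 0 (-(v.ord x)) := by
    intro v
    rw [Finsupp.mapRange_apply (hf := by simp), Finsupp.neg_apply, hD]
    omega
  refine ⟨(-D).mapRange (fun n : ℤ => ((n.toNat : ℕ) : ℤ)) (by simp), hBv, fun v => ?_, ?_⟩
  · rw [hBv]
    exact le_max_left _ _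
  · rw [mem_L_iff' hx0]
    intro v
    rw [hBv]
    have := le_max_right 0 (-(v.ord x))
    linarith

/-- **Riemann's theorem**, in terms of the sum of the pole orders of `x`. -/
theorem exists_genus_of_sum_poles (x : F) (hx : Transcendental K x) [FiniteDimensional K⟮x⟯ F]
    (hfin : {w : Place K F | w.ord x < 0}.Finite)
    (hsum : -(Module.finrank K⟮x⟯ F : ℤ) ≤ ∑ w ∈ hfin.toFinset, w.ord x) :
    ∃ g : ℕ, (∀ D : Divisor K F, Divisor.degree D + 1 ≤ (ell D : ℤ) + g) ∧
      ∃ c : ℤ, ∀ D : Divisor K F, c ≤ Divisor.degree D →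
        (ell D : ℤ) + g = Divisor.degree D + 1 := by
  classical
  have hx0 : x ≠ 0 := by
    rintro rfl
    exact hx (isAlgebraic_zero)
  obtain ⟨B, hBv, hB0, hxB⟩ := exists_poleDivisor hS hx0
  refine exists_genus_of_degree_le hS x hx hB0 hxB ?_
  rw [degree_eq_sum, Finsupp.sum]
  have hsub : B.support ⊆ hfin.toFinset := by
    intro v hv
    rw [Finsupp.mem_support_iff, hBv] at hv
    rw [Set.Finite.mem_toFinset, Set.mem_ofPred_eq]
    by_contra h
    apply hv
    rw [max_eq_left]
    linarith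
  rw [Finset.sum_subset hsub (fun v _ hv => by
    rw [Finsupp.notMem_support_iff.mp hv, zero_mul])]
  have : ∑ v ∈ hfin.toFinset, B v * (v.deg : ℤ) = ∑ v ∈ hfin.toFinset, -(v.ord x) := by
    refine Finset.sum_congr rfl fun v hv => ?_
    rw [Set.Finite.mem_toFinset, Set.mem_ofPred_eq] at hv
    rw [hS.deg_one v, hBv, max_eq_right (by linarith)]
    simp
  rw [this, Finset.sum_neg_distrib]
  linarith

end Bound

end Fermat.Agent.P2.helper74
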