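import Mathlib
import Fermat.Agent.P2.helper95_FFl
import Fermat.Agent.S24.helper82_FFBasic
import Fermat.Agent.S24.helper82_PrincipalDiv
import Fermat.Agent.S24.helper55_RH

/-!
# P2-[FFl]: char-free function-field core (part 2)

Setting: `K` algebraically closed of ANY characteristic, `F / K` a field with ONE separating
element `x` (`x` transcendental, `F / K(x)` finite separable).

* `ffl_span_D`, `ffl_D_ne_zero`: `dx` spans `Ω[F⁄K]` and is nonzero.
* `ffl_isSeparating_of_D_ne_zero`: every `y` with `dy ≠ 0` is again separating.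
* zero / pole counts for every `y` with `dy ≠ 0`.
* `ffl_hasPrincipalDivisors : HasPrincipalDivisors K F`.  For `f` with `df = 0` (e.g. `p`-th
  powers in characteristic `p`) we write `f = (f x) / x`, a quotient of two separating elements.
-/

set_option autoImplicit false
set_option linter.unusedSectionVars false
set_option linter.style.haveILetI false
set_option linter.deprecated false

namespace Fermat.Agent.P2.helper95

open AlgebraicCurve KaehlerDifferential IntermediateField
open scoped IntermediateField.algebraAdjoinAdjoin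

noncomputable section

variable {K F : Type*} [Field K] [Field F] [Algebra K F]

section Kaehler

/-- If `F / K(t)` is separable (algebraic), then `dt` spans `Ω[F⁄K]`. -/
theorem span_D_eq_top_of_isSeparable (t : F) [Algebra.IsSeparable K⟮t⟯ F] :
    Submodule.span F {D K F t} = ⊤ := by
  have : Algebra.FormallyUnramified K⟮t⟯ F := Algebra.FormallyUnramified.of_isSeparable K⟮t⟯ F
  have hrange : LinearMap.range (mapBaseChange K K⟮t⟯ F) = ⊤ := by
    rw [KaehlerDifferential.range_mapBaseChange, LinearMap.ker_eq_top]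
    exact Subsingleton.elim _ _
  rw [eq_top_iff, ← hrange]
  rintro _ ⟨z, rfl⟩
  induction z using TensorProduct.induction_on with
  | zero => simp
  | tmul x y =>
    rw [mapBaseChange_tmul]
    refine Submodule.smul_mem _ _ ?_
    have hy : y ∈ Submodule.span K⟮t⟯ (Set.range (D K K⟮t⟯)) := by
      rw [span_range_derivation]; trivial
    induction hy using Submodule.span_induction with
    | mem y hy =>
      obtain ⟨l, rfl⟩ := hy
      rw [map_D]
      exact Fermat.Agent.S24.helper82.D_mem_span_of_mem_adjoin t l.2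
    | zero => simp
    | add y z _ _ hy hz => rw [map_add]; exact Submodule.add_mem _ hy hz
    | smul a y _ hy =>
      rw [map_smul, ← algebraMap_smul F a]
      exact Submodule.smul_mem _ _ hy
  | add x y hx hy => rw [map_add]; exact Submodule.add_mem _ hx hy

/-- Conversely, if `dt` spans `Ω[F⁄K]` and `F / K(t)` is finite, then `F / K(t)` is separable. -/
theorem isSeparable_of_span_D_eq_top (t : F) [FiniteDimensional K⟮t⟯ F]
    (h : Submodule.span F {D K F t} = ⊤) : Algebra.IsSeparable K⟮t⟯ F := by
  have hsub : Subsingleton Ω[F⁄K⟮t⟯] := by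
    have hsurj := KaehlerDifferential.map_surjective K K⟮t⟯ F
    have hker : ∀ z : Ω[F⁄K], KaehlerDifferential.map K K⟮t⟯ F F z = 0 := by
      intro z
      have hz : z ∈ Submodule.span F {D K F t} := h ▸ Submodule.mem_top
      obtain ⟨c, rfl⟩ := Submodule.mem_span_singleton.mp hz
      have h1 : KaehlerDifferential.map K K⟮t⟯ F F (D K F t) = 0 := by
        rw [KaehlerDifferential.map_D]
        have : (algebraMap F F) t = algebraMap K⟮t⟯ F ⟨t, mem_adjoin_simple_self K t⟩ := rfl
        rw [this]
        exact Derivation.map_algebraMap _ _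
      rw [map_smul, h1, smul_zero]
    refine ⟨fun a b => ?_⟩
    obtain ⟨a', rfl⟩ := hsurj a
    obtain ⟨b', rfl⟩ := hsurj b
    rw [hker a', hker b']
  have hun : Algebra.FormallyUnramified K⟮t⟯ F := ⟨hsub⟩
  exact (Algebra.FormallyUnramified.iff_isSeparable K⟮t⟯ F).mp hun

variable [IsAlgClosed K]

/-- `dx ≠ 0` for a separating transcendental element. -/
theorem ffl_D_ne_zero (x : F) (hx : Transcendental K x) [FiniteDimensional K⟮x⟯ F]
    [Algebra.IsSeparable K⟮x⟯ F] : D K F x ≠ 0 := by
  intro h0
  have hspan := span_D_eq_top_of_isSeparable (K := K) x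
  rw [h0, Submodule.span_zero_singleton] at hspan
  have hsub : Subsingleton Ω[F⁄K] := by
    refine ⟨fun a b => ?_⟩
    have ha : a ∈ (⊥ : Submodule F Ω[F⁄K]) := hspan ▸ Submodule.mem_top
    have hb : b ∈ (⊥ : Submodule F Ω[F⁄K]) := hspan ▸ Submodule.mem_top
    rw [Submodule.mem_bot] at ha hb
    rw [ha, hb]
  have hun : Algebra.FormallyUnramified K F := ⟨hsub⟩
  have := Fermat.Agent.S24.helper82.essFiniteType_of_finite_adjoin (K := K) x
  have hsep : Algebra.IsSeparable K F := (Algebra.FormallyUnramified.iff_isSeparable K F).mp hun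
  have halg : IsAlgebraic K x := (Algebra.IsSeparable.isIntegral K x).isAlgebraic
  exact hx halg

/-- In a function field with a separating element `x`, every `y` with `dy ≠ 0` is separating. -/
theorem ffl_isSeparating_of_D_ne_zero (x : F) (hx : Transcendental K x)
    [FiniteDimensional K⟮x⟯ F] [Algebra.IsSeparable K⟮x⟯ F] (y : F) (hy : D K F y ≠ 0) :
    Transcendental K y ∧ FiniteDimensional K⟮y⟯ F ∧ Algebra.IsSeparable K⟮y⟯ F := by
  have hyr : y ∉ Set.range (algebraMap K F) := by
    rintro ⟨c, rfl⟩
    exact hy (Derivation.map_algebraMap _ c)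
  obtain ⟨hyt, hyfd⟩ := Fermat.Agent.S24.helper82.ff_transcendental x hx y hyr
  refine ⟨hyt, hyfd, ?_⟩
  haveI := hyfd
  apply isSeparable_of_span_D_eq_top
  have hspan := span_D_eq_top_of_isSeparable (K := K) x
  have hmem : D K F y ∈ Submodule.span F {D K F x} := hspan ▸ Submodule.mem_top
  obtain ⟨c, hc⟩ := Submodule.mem_span_singleton.mp hmem
  have hc0 : c ≠ 0 := by
    rintro rfl
    rw [zero_smul] at hc
    exact hy hc.symm
  rw [eq_top_iff, ← hspan, Submodule.span_le, Set.singleton_subset_iff, SetLike.mem_coe]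
  refine Submodule.mem_span_singleton.mpr ⟨c⁻¹, ?_⟩
  rw [← hc, smul_smul, inv_mul_cancel₀ hc0, one_smul]

/-- The differential of `f⁻¹`. -/
theorem D_inv_ne_zero {f : F} (hf : D K F f ≠ 0) : D K F f⁻¹ ≠ 0 := by
  have hf0 : f ≠ 0 := by
    rintro rfl
    exact hf (map_zero _)
  rw [Derivation.leibniz_inv]
  intro h
  apply hf
  have h2 : (f ^ 2)⁻¹ • D K F f = 0 := by
    have := congrArg Neg.neg h
    simpa using this
  rcases smul_eq_zero.mp h2 with h3 | h3
  · exact absurd h3 (inv_ne_zero (pow_ne_zero 2 hf0))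
  · exact h3

/-- If `df = 0` and `f ≠ 0` then `d(f x) ≠ 0`. -/
theorem D_mul_ne_zero_of_D_eq_zero {f x : F} (hf0 : f ≠ 0) (hf : D K F f = 0)
    (hx : D K F x ≠ 0) : D K F (f * x) ≠ 0 := by
  rw [Derivation.leibniz, hf, smul_zero, add_zero]
  intro h
  rcases smul_eq_zero.mp h with h3 | h3
  · exact hf0 h3
  · exact hx h3

end Kaehler

section Counts

variable [IsAlgClosed K]

/-- Zeros of an element with nonzero differential are finite in number. -/
theorem ffl_finite_zeros' (x : F) (hx : Transcendental K x) [FiniteDimensional K⟮x⟯ F]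
    [Algebra.IsSeparable K⟮x⟯ F] (y : F) (hy : D K F y ≠ 0) :
    {w : Place K F | 0 < w.ord y}.Finite := by
  obtain ⟨hyt, hyfd, hys⟩ := ffl_isSeparating_of_D_ne_zero x hx y hy
  exact ffl_finite_zeros y hyt

/-- The zeros of an element `y` with `dy ≠ 0`, counted with multiplicity, number `[F : K(y)]`. -/
theorem ffl_sum_ord_zeros' (x : F) (hx : Transcendental K x) [FiniteDimensional K⟮x⟯ F]
    [Algebra.IsSeparable K⟮x⟯ F] (y : F) (hy : D K F y ≠ 0) :
    ∑ w ∈ (ffl_finite_zeros' x hx y hy).toFinset, w.ord y = (Module.finrank K⟮y⟯ F : ℤ) := by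
  obtain ⟨hyt, hyfd, hys⟩ := ffl_isSeparating_of_D_ne_zero x hx y hy
  have h := ffl_sum_ord_zeros y hyt
  exact h

theorem ffl_poles_eq_zeros_inv (y : F) :
    {w : Place K F | w.ord y < 0} = {w : Place K F | 0 < w.ord y⁻¹} := by
  ext w
  show w.ord y < 0 ↔ 0 < w.ord y⁻¹
  rw [Place.ord_inv]
  omega

/-- Poles of an element with nonzero differential are finite in number. -/
theorem ffl_finite_poles' (x : F) (hx : Transcendental K x) [FiniteDimensional K⟮x⟯ F]
    [Algebra.IsSeparable K⟮x⟯ F] (y : F) (hy : D K F y ≠ 0) :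
    {w : Place K F | w.ord y < 0}.Finite := by
  rw [ffl_poles_eq_zeros_inv]
  exact ffl_finite_zeros' x hx y⁻¹ (D_inv_ne_zero hy)

theorem ffl_finrank_adjoin_inv (y : F) :
    Module.finrank K⟮y⁻¹⟯ F = Module.finrank K⟮y⟯ F := by
  have h : K⟮y⁻¹⟯ = K⟮y⟯ := Fermat.Agent.S24.helper55.adjoin_inv_eq (K := K) y
  rw [h]

/-- The poles of an element `y` with `dy ≠ 0`, counted with multiplicity, number `[F : K(y)]`. -/
theorem ffl_sum_ord_poles' (x : F) (hx : Transcendental K x) [FiniteDimensional K⟮x⟯ F]
    [Algebra.IsSeparable K⟮x⟯ F] (y : F) (hy : D K F y ≠ 0) :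
    ∑ w ∈ (ffl_finite_poles' x hx y hy).toFinset, w.ord y = -(Module.finrank K⟮y⟯ F : ℤ) := by
  have h := ffl_sum_ord_zeros' x hx y⁻¹ (D_inv_ne_zero hy)
  rw [ffl_finrank_adjoin_inv] at h
  have hfs : (ffl_finite_poles' x hx y hy).toFinset
      = (ffl_finite_zeros' x hx y⁻¹ (D_inv_ne_zero hy)).toFinset := by
    ext w
    simp only [Set.Finite.mem_toFinset]
    rw [ffl_poles_eq_zeros_inv]
  rw [hfs, ← h, ← Finset.sum_neg_distrib]
  exact Finset.sum_congr rfl fun w _ => by rw [Place.ord_inv, neg_neg]

/-- Interface form for the separating element itself. -/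
theorem ffl_finite_poles (x : F) (hx : Transcendental K x) [FiniteDimensional K⟮x⟯ F]
    [Algebra.IsSeparable K⟮x⟯ F] : {w : Place K F | w.ord x < 0}.Finite :=
  ffl_finite_poles' x hx x (ffl_D_ne_zero x hx)

/-- Interface form for the separating element itself. -/
theorem ffl_sum_ord_poles (x : F) (hx : Transcendental K x) [FiniteDimensional K⟮x⟯ F]
    [Algebra.IsSeparable K⟮x⟯ F] :
    ∑ w ∈ (ffl_finite_poles x hx).toFinset, w.ord x = -(Module.finrank K⟮x⟯ F : ℤ) :=
  ffl_sum_ord_poles' x hx x (ffl_D_ne_zero x hx)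

end Counts

section PrincipalDivisors

variable [IsAlgClosed K]

/-- Every place of a function field over an algebraically closed field has degree one
(char-free; re-export of the S24 lemma). -/
theorem ffl_deg_eq_one (x : F) (hx : Transcendental K x) [FiniteDimensional K⟮x⟯ F]
    (v : Place K F) : v.deg = 1 :=
  Fermat.Agent.S24.helper82.ff_deg_eq_one x hx v

/-- Residue fields are finite over `K` (in fact equal to `K`). -/
theorem ffl_finite_residueField (x : F) (hx : Transcendental K x) [FiniteDimensional K⟮x⟯ F]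
    (v : Place K F) : Module.Finite K v.ResidueField := by
  have h := ffl_deg_eq_one x hx v
  unfold Place.deg at h
  exact Module.finite_of_finrank_pos (by rw [h]; exact one_pos)

/-- The divisor of a separating element exists and has degree zero. -/
theorem exists_divisor_of_D_ne_zero (x : F) (hx : Transcendental K x)
    [FiniteDimensional K⟮x⟯ F] [Algebra.IsSeparable K⟮x⟯ F] (f : F) (hf : D K F f ≠ 0) :
    ∃ E : Divisor K F, (∀ v : Place K F, E v = v.ord f) ∧ Divisor.degree E = 0 := by
  classical
  have hsupp : ∀ v : Place K F, v.ord f ≠ 0 →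
      v ∈ (ffl_finite_zeros' x hx f hf).toFinset ∪ (ffl_finite_poles' x hx f hf).toFinset := by
    intro v hv
    rw [Finset.mem_union, Set.Finite.mem_toFinset, Set.Finite.mem_toFinset]
    rcases lt_or_gt_of_ne hv with h | h
    · exact Or.inr h
    · exact Or.inl h
  refine ⟨Finsupp.onFinset _ (fun v => v.ord f) hsupp, fun v => rfl, ?_⟩
  have hdisj : Disjoint (ffl_finite_zeros' x hx f hf).toFinset
      (ffl_finite_poles' x hx f hf).toFinset := by
    rw [Finset.disjoint_left]
    intro v hz hp
    rw [Set.Finite.mem_toFinset] at hz hp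
    have hz' : 0 < v.ord f := hz
    have hp' : v.ord f < 0 := hp
    omega
  have hdeg : Divisor.degree (Finsupp.onFinset _ (fun v : Place K F => v.ord f) hsupp)
      = ∑ v ∈ (ffl_finite_zeros' x hx f hf).toFinset ∪ (ffl_finite_poles' x hx f hf).toFinset,
          v.ord f := by
    show (Finsupp.liftAddHom fun v : Place K F => AddMonoidHom.mulRight (v.deg : ℤ))
      (Finsupp.onFinset _ (fun v : Place K F => v.ord f) hsupp) = _
    rw [Finsupp.liftAddHom_apply, Finsupp.onFinset_sum hsupp (fun a => by simp)]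
    refine Finset.sum_congr rfl fun v _ => ?_
    rw [AddMonoidHom.mulRight_apply, ffl_deg_eq_one x hx v, Nat.cast_one, mul_one]
  rw [hdeg, Finset.sum_union hdisj, ffl_sum_ord_zeros' x hx f hf, ffl_sum_ord_poles' x hx f hf]
  ring

/-- **Principal divisors in any characteristic.** In a function field of one variable over an
algebraically closed field with a separating element, every nonzero function has a divisor, and
it has degree zero. -/
theorem ffl_hasPrincipalDivisors (x : F) (hx : Transcendental K x) [FiniteDimensional K⟮x⟯ F]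
    [Algebra.IsSeparable K⟮x⟯ F] : HasPrincipalDivisors K F := by
  classical
  refine ⟨fun f hf0 => ?_⟩
  by_cases hf : D K F f = 0
  · have hx0 : x ≠ 0 := fun h => hx (h ▸ isAlgebraic_zero)
    have hDx := ffl_D_ne_zero x hx
    obtain ⟨E₁, hE₁, hd₁⟩ := exists_divisor_of_D_ne_zero x hx (f * x)
      (D_mul_ne_zero_of_D_eq_zero hf0 hf hDx)
    obtain ⟨E₂, hE₂, hd₂⟩ := exists_divisor_of_D_ne_zero x hx x hDx
    refine ⟨E₁ - E₂, fun v => ?_, ?_⟩
    · rw [Finsupp.sub_apply, hE₁ v, hE₂ v, v.ord_mul hf0 hx0]
      ring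
    · rw [map_sub, hd₁, hd₂, sub_zero]
  · exact exists_divisor_of_D_ne_zero x hx f hf

end PrincipalDivisors

end

end Fermat.Agent.P2.helper95
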