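import Mathlib
import Fermat.Prelude.Def_AlgebraicCurve_Repartitions
import Fermat.Agent.P2.helper95_FFl2
import Fermat.Agent.P2.helper74_RiemannBound
import Fermat.Agent.P2.helper74_NonSpecial

/-!
# P2-RR (helper74): Riemann's theorem for function fields with a separating element

Unconditional, characteristic-free instance of the abstract package: for `K` algebraically closed
and `F / K(x)` finite separable (`x` transcendental), `F` is a `RiemannSetting` and has a
Riemann genus.  Inputs: the landed function-field core `helper95_FFl` / `helper95_FFl2`.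
-/

namespace Fermat.Agent.P2.helper74

open AlgebraicCurve IntermediateField

variable {K F : Type*} [Field K] [Field F] [Algebra K F]

/-- `g` is the Riemann genus of `F / K`: `ℓ(D) + g = deg D + 1` for all divisors of large
degree. -/
def HasRiemannGenus (K F : Type*) [Field K] [Field F] [Algebra K F] (g : ℕ) : Prop :=
  ∃ c : ℤ, ∀ D : Divisor K F, c ≤ Divisor.degree D → (ell D : ℤ) + g = Divisor.degree D + 1

theorem HasRiemannGenus.unique (hS : RiemannSetting K F) {g g' : ℕ}
    (h : HasRiemannGenus K F g) (h' : HasRiemannGenus K F g') : g = g' := by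
  obtain ⟨c, hc⟩ := h
  obtain ⟨c', hc'⟩ := h'
  exact genus_unique hS hc hc'

theorem HasRiemannGenus.ineq (hS : RiemannSetting K F) {g : ℕ} (h : HasRiemannGenus K F g)
    (D : Divisor K F) : Divisor.degree D + 1 ≤ (ell D : ℤ) + g := by
  obtain ⟨c, hc⟩ := h
  exact riemann_ineq_of_eq hS hc D

variable [IsAlgClosed K]

/-- A function field with a separating element has a place. -/
theorem nonempty_place_of_separating (x : F) (hx : Transcendental K x)
    [FiniteDimensional K⟮x⟯ F] [Algebra.IsSeparable K⟮x⟯ F] : Nonempty (Place K F) := by
  by_contra h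
  rw [not_nonempty_iff] at h
  have h1 := Fermat.Agent.P2.helper95.ffl_sum_ord_poles x hx
  have h2 : (Fermat.Agent.P2.helper95.ffl_finite_poles x hx).toFinset = ∅ :=
    Finset.eq_empty_of_isEmpty _
  rw [h2, Finset.sum_empty] at h1
  have hn : 0 < Module.finrank K⟮x⟯ F := Module.finrank_pos
  omega

/-- The `RiemannSetting` of a function field with a separating element. -/
theorem riemannSetting_of_separating (x : F) (hx : Transcendental K x)
    [FiniteDimensional K⟮x⟯ F] [Algebra.IsSeparable K⟮x⟯ F] : RiemannSetting K F :=
  haveI := Fermat.Agent.P2.helper95.ffl_hasPrincipalDivisors x hx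
  haveI := nonempty_place_of_separating x hx
  RiemannSetting.of_ff x hx

/-- **Riemann's theorem** for a function field with a separating element, any
characteristic. -/
theorem exists_hasRiemannGenus (x : F) (hx : Transcendental K x)
    [FiniteDimensional K⟮x⟯ F] [Algebra.IsSeparable K⟮x⟯ F] :
    ∃ g : ℕ, HasRiemannGenus K F g := by
  obtain ⟨g, -, c, hc⟩ := exists_genus_of_sum_poles (riemannSetting_of_separating x hx) x hx
    (Fermat.Agent.P2.helper95.ffl_finite_poles x hx)
    (Fermat.Agent.P2.helper95.ffl_sum_ord_poles x hx).ge
  exact ⟨g, c, hc⟩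

end Fermat.Agent.P2.helper74
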