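/-
P2 / S18, package [DISC-E1] (helper13, task 761): a prime of `R⟦X⟧` (`R` a PID) dividing a
nonzero constant does not divide a power series with a unit coefficient.
-/
import Mathlib

set_option autoImplicit false

namespace Fermat.Agent.P2.helper13

open PowerSeries

/-- A prime of `R⟦X⟧` dividing `C π`, `π` a prime of the domain `R`, reduces to zero modulo `π`. -/
theorem map_eq_zero_of_dvd_C_prime {R : Type*} [CommRing R] [IsDomain R]
    {P : PowerSeries R} (hP : Prime P) {π : R} (hπ : Prime π) (hPπ : P ∣ PowerSeries.C π) :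
    PowerSeries.map (Ideal.Quotient.mk (Ideal.span {π})) P = 0 := by
  classical
  have hI : (Ideal.span {π} : Ideal R).IsPrime :=
    (Ideal.span_singleton_prime hπ.ne_zero).2 hπ
  set ρ := PowerSeries.map (Ideal.Quotient.mk (Ideal.span {π} : Ideal R)) with hρ
  obtain ⟨Q, hQ⟩ := hPπ
  have h0 : ρ P * ρ Q = 0 := by
    rw [← map_mul, ← hQ, hρ, PowerSeries.map_C]
    have : (Ideal.Quotient.mk (Ideal.span {π} : Ideal R)) π = 0 :=
      Ideal.Quotient.eq_zero_iff_mem.2 (Ideal.mem_span_singleton_self π)
    rw [this, map_zero]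
  rcases mul_eq_zero.1 h0 with h | h
  · exact h
  · exfalso
    -- all coefficients of `Q` are divisible by `π`
    have hcoef : ∀ n, π ∣ PowerSeries.coeff n Q := by
      intro n
      have h1 : PowerSeries.coeff n (ρ Q) = 0 := by rw [h]; simp
      rw [hρ, PowerSeries.coeff_map] at h1
      exact Ideal.mem_span_singleton.1 (Ideal.Quotient.eq_zero_iff_mem.1 h1)
    choose c hc using hcoef
    have hQ' : Q = PowerSeries.C π * PowerSeries.mk c := by
      ext n
      rw [PowerSeries.coeff_C_mul, PowerSeries.coeff_mk]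
      exact hc n
    have hCπ : (PowerSeries.C π : PowerSeries R) ≠ 0 := by
      intro h2
      apply hπ.ne_zero
      have := congrArg (PowerSeries.coeff 0) h2
      simpa using this
    have h3 : PowerSeries.C π * 1 = PowerSeries.C π * (P * PowerSeries.mk c) := by
      rw [mul_one]
      conv_lhs => rw [hQ, hQ']
      ring
    have h4 : (1 : PowerSeries R) = P * PowerSeries.mk c := mul_left_cancel₀ hCπ h3
    exact hP.not_isUnit (IsUnit.of_mul_eq_one _ h4.symm)

/-- A prime of `R⟦X⟧` dividing a nonzero constant divides `C π` for a prime `π` of `R`. -/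
theorem exists_prime_dvd_C {R : Type*} [CommRing R] [IsDomain R] [IsPrincipalIdealRing R]
    {P : PowerSeries R} (hP : Prime P) {r : R} (hr : r ≠ 0) (hPr : P ∣ PowerSeries.C r) :
    ∃ π : R, Prime π ∧ P ∣ PowerSeries.C π := by
  revert hr hPr
  refine UniqueFactorizationMonoid.induction_on_prime
    (P := fun r : R => r ≠ 0 → P ∣ PowerSeries.C r → ∃ π : R, Prime π ∧ P ∣ PowerSeries.C π)
    r ?_ ?_ ?_
  · intro h
    exact absurd rfl h
  · intro x hx _ hPx
    exfalso
    have hu : IsUnit (PowerSeries.C x : PowerSeries R) := hx.map (PowerSeries.C (R := R))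
    exact hP.not_isUnit (isUnit_of_dvd_unit hPx hu)
  · intro a π ha hπ ih _ hPa
    rw [map_mul] at hPa
    rcases hP.dvd_or_dvd hPa with h | h
    · exact ⟨π, hπ, h⟩
    · exact ih ha h

/-- **[DISC-E1]** a prime of `R⟦X⟧` (`R` a PID) dividing a nonzero constant does not divide a
power series with a unit coefficient. -/
theorem not_dvd_of_dvd_C {R : Type*} [CommRing R] [IsDomain R] [IsPrincipalIdealRing R]
    {P : PowerSeries R} (hP : Prime P) {r : R} (hr : r ≠ 0) (hPr : P ∣ PowerSeries.C r)
    {G : PowerSeries R} {n : ℕ} (hG : IsUnit (PowerSeries.coeff n G)) : ¬ P ∣ G := by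
  intro hPG
  obtain ⟨π, hπ, hPπ⟩ := exists_prime_dvd_C hP hr hPr
  have h1 := map_eq_zero_of_dvd_C_prime hP hπ hPπ
  have h2 : PowerSeries.map (Ideal.Quotient.mk (Ideal.span {π} : Ideal R)) G = 0 := by
    obtain ⟨Q, rfl⟩ := hPG
    rw [map_mul, h1, zero_mul]
  have h3 : PowerSeries.coeff n
      (PowerSeries.map (Ideal.Quotient.mk (Ideal.span {π} : Ideal R)) G) = 0 := by
    rw [h2]; simp
  rw [PowerSeries.coeff_map] at h3
  have h4 : π ∣ PowerSeries.coeff n G :=
    Ideal.mem_span_singleton.1 (Ideal.Quotient.eq_zero_iff_mem.1 h3)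
  exact hπ.not_isUnit (isUnit_of_dvd_unit h4 hG)

end Fermat.Agent.P2.helper13
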