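import Mathlib

/-!
# P2-[RH-D] (helper18): Dedekind's discriminant inequality

Sub-package (D) of the Riemann–Hurwitz package `P2-[RH-DW]` (helper39, task 407).

* `pow_dvd_det_traceMatrix_of_nilpotent` (D0): for a finite free commutative `R`-algebra `S` with
  basis `b`, an element `π : R` generating a maximal ideal and `r` elements of `S` which are
  nilpotent modulo `π` and linearly independent modulo `π`, `π ^ r` divides the discriminant
  `det (Algebra.traceMatrix R b)`.
-/

set_option autoImplicit false

namespace Fermat.Agent.P2.helper18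

open Matrix Module

section Det

variable {R : Type*} [CommRing R]

/-- If all entries of the rows in `s` are divisible by `π`, then `π ^ #s ∣ det M`. -/
theorem pow_card_dvd_det_of_rows {n : Type*} [Fintype n] [DecidableEq n] (M : Matrix n n R)
    (π : R) (s : Finset n) (h : ∀ i ∈ s, ∀ j, π ∣ M i j) : π ^ s.card ∣ M.det := by
  classical
  have h' : ∀ i j, ∃ q : R, i ∈ s → M i j = π * q := by
    intro i j
    by_cases hi : i ∈ s
    · obtain ⟨q, hq⟩ := h i hi j
      exact ⟨q, fun _ => hq⟩
    · exact ⟨0, fun hi' => absurd hi' hi⟩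
  choose q hq using h'
  let M' : Matrix n n R := fun i j => if i ∈ s then q i j else M i j
  let d : n → R := fun i => if i ∈ s then π else 1
  have hM : M = Matrix.diagonal d * M' := by
    ext i j
    rw [Matrix.diagonal_mul]
    by_cases hi : i ∈ s
    · simp only [d, M', if_pos hi]
      exact hq i j hi
    · simp only [d, M', if_neg hi, one_mul]
  have hd : ∏ i, d i = π ^ s.card := by
    simp only [d]
    rw [Finset.prod_ite_mem, Finset.univ_inter, Finset.prod_const]
  rw [hM, Matrix.det_mul, Matrix.det_diagonal, hd]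
  exact dvd_mul_right _ _

end Det

section Trace

variable {R S : Type*} [CommRing R] [CommRing S] [Algebra R S]
variable {ι : Type*} [Fintype ι] [DecidableEq ι]

omit [DecidableEq ι] in
/-- An element all of whose coordinates are divisible by `π` lies in `π S`. -/
theorem mem_span_of_repr_mem (b : Basis ι R S) (π : R) (x : S)
    (h : ∀ j, b.repr x j ∈ Ideal.span {π}) : x ∈ Ideal.span {algebraMap R S π} := by
  rw [← b.sum_repr x]
  refine Ideal.sum_mem _ fun j _ => ?_
  obtain ⟨q, hq⟩ := Ideal.mem_span_singleton'.1 (h j)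
  rw [← hq, Algebra.smul_def, map_mul]
  exact Ideal.mem_span_singleton'.2 ⟨algebraMap R S q * b j, by ring⟩

omit [Fintype ι] [DecidableEq ι] in
/-- The coordinates of an element of `π S` are divisible by `π`. -/
theorem repr_mem_span_of_mem (b : Basis ι R S) (π : R) (x : S)
    (h : x ∈ Ideal.span {algebraMap R S π}) (j : ι) : b.repr x j ∈ Ideal.span {π} := by
  obtain ⟨s, hs⟩ := Ideal.mem_span_singleton'.1 h
  rw [← hs, mul_comm, ← Algebra.smul_def, map_smul, Finsupp.smul_apply, smul_eq_mul]
  exact Ideal.mul_mem_right _ _ (Ideal.subset_span rfl)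

/-- The trace of an element which is nilpotent modulo `π` lies in `(π)`, if `(π)` is prime. -/
theorem trace_mem_span_of_pow_mem (b : Basis ι R S) (π : R) (hπ : (Ideal.span {π}).IsPrime)
    (z : S) (E : ℕ) (hz : z ^ E ∈ Ideal.span {algebraMap R S π}) :
    Algebra.trace R S z ∈ Ideal.span {π} := by
  obtain ⟨s, hs⟩ := Ideal.mem_span_singleton'.1 hz
  set A := Algebra.leftMulMatrix b z with hA
  have hAE : A ^ E = π • Algebra.leftMulMatrix b s := by
    rw [hA, ← map_pow, ← hs, mul_comm, ← Algebra.smul_def, map_smul]
  let f : R →+* R ⧸ Ideal.span {π} := Ideal.Quotient.mk _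
  have hnil : IsNilpotent (A.map f) := by
    refine ⟨E, ?_⟩
    have h1 : (A.map f) ^ E = (A ^ E).map f := by
      rw [← RingHom.mapMatrix_apply, ← map_pow, RingHom.mapMatrix_apply]
    rw [h1, hAE]
    ext i j
    simp only [Matrix.map_apply, Matrix.smul_apply, smul_eq_mul, Matrix.zero_apply, f]
    rw [Ideal.Quotient.eq_zero_iff_mem]
    exact Ideal.mul_mem_right _ _ (Ideal.subset_span rfl)
  have htr := Matrix.isNilpotent_trace_of_isNilpotent hnil
  have : IsDomain (R ⧸ Ideal.span {π}) := Ideal.Quotient.isDomain _
  have h0 : (A.map f).trace = 0 := htr.eq_zero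
  rw [Algebra.trace_eq_matrix_trace b, ← Ideal.Quotient.eq_zero_iff_mem, ← h0]
  simp only [Matrix.trace, Matrix.diag_apply, Matrix.map_apply, map_sum, f, ← hA]

/-- The basis produced by `Basis.sumExtend` restricts to the given family on the left summand. -/
theorem sumExtend_inl {K V : Type*} [DivisionRing K] [AddCommGroup V] [Module K V] {ι₀ : Type*}
    {v : ι₀ → V} (hs : LinearIndependent K v) (i : ι₀) :
    Basis.sumExtend hs (Sum.inl i) = v i := by
  classical
  simp only [Basis.sumExtend, Basis.reindex_apply, Basis.coe_extend]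
  rfl

/-- **Dedekind's discriminant inequality, core form (D0).**  Let `S` be a finite free commutative
`R`-algebra with basis `b` and let `π : R` generate a maximal ideal.  If `z 1, …, z r ∈ S` are
nilpotent modulo `π S` and linearly independent modulo `π`, then `π ^ r` divides the discriminant
of `b`. -/
theorem pow_dvd_det_traceMatrix_of_nilpotent (b : Basis ι R S) (π : R)
    (hπ : (Ideal.span {π}).IsMaximal) {r : ℕ} (z : Fin r → S)
    (hnil : ∀ i, ∃ E : ℕ, z i ^ E ∈ Ideal.span {algebraMap R S π})
    (hli : ∀ c : Fin r → R, (∑ i, c i • z i) ∈ Ideal.span {algebraMap R S π} →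
      ∀ i, c i ∈ Ideal.span {π}) :
    π ^ r ∣ (Algebra.traceMatrix R b).det := by
  classical
  let _ : Field (R ⧸ Ideal.span {π}) := Ideal.Quotient.field _
  let f : R →+* R ⧸ Ideal.span {π} := Ideal.Quotient.mk _
  have hf : Function.Surjective f := Ideal.Quotient.mk_surjective
  -- coordinates modulo `π`
  let zbar : Fin r → (ι → R ⧸ Ideal.span {π}) := fun i j => f (b.repr (z i) j)
  have hzli : LinearIndependent (R ⧸ Ideal.span {π}) zbar := by
    rw [Fintype.linearIndependent_iff]
    intro g hg i
    choose c hc using fun i => hf (g i)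
    have hmem : (∑ i, c i • z i) ∈ Ideal.span {algebraMap R S π} := by
      refine mem_span_of_repr_mem b π _ fun j => ?_
      rw [← Ideal.Quotient.eq_zero_iff_mem]
      have := congrFun hg j
      simp only [Finset.sum_apply, Pi.smul_apply, smul_eq_mul, Pi.zero_apply, zbar] at this
      rw [map_sum, Finsupp.coe_finsetSum, Finset.sum_apply, map_sum, ← this]
      refine Finset.sum_congr rfl fun i _ => ?_
      rw [map_smul, Finsupp.smul_apply, smul_eq_mul, map_mul, ← hc i]
    have := hli c hmem i
    rw [← hc i]
    exact Ideal.Quotient.eq_zero_iff_mem.2 this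
  -- extend to a basis of `κ ^ ι`
  let Bbar := Basis.sumExtend hzli
  have hBinl : ∀ i, Bbar (Sum.inl i) = zbar i := fun i => sumExtend_inl hzli i
  have : Finite (Fin r ⊕ Basis.sumExtendIndex hzli) := Module.Finite.finite_basis Bbar
  let _ : Fintype (Fin r ⊕ Basis.sumExtendIndex hzli) := Fintype.ofFinite _
  have hcard : Fintype.card (Fin r ⊕ Basis.sumExtendIndex hzli) = Fintype.card ι := by
    rw [← Module.finrank_eq_card_basis Bbar, Module.finrank_fintype_fun_eq_card]
  let e : (Fin r ⊕ Basis.sumExtendIndex hzli) ≃ ι := Fintype.equivOfCardEq hcard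
  -- lift the basis vectors coordinatewise
  let P : Matrix (Fin r ⊕ Basis.sumExtendIndex hzli) ι R := fun i' j =>
    Sum.elim (fun i => b.repr (z i) j) (fun k => Function.surjInv hf (Bbar (Sum.inr k) j)) i'
  have hP : ∀ i' j, f (P i' j) = Bbar i' j := by
    rintro (i | k) j
    · simp only [P, Sum.elim_inl]
      rw [hBinl]
    · simp only [P, Sum.elim_inr]
      exact Function.surjInv_eq hf _
  let P' : Matrix (Fin r ⊕ Basis.sumExtendIndex hzli) (Fin r ⊕ Basis.sumExtendIndex hzli) R :=
    P.submatrix id e
  let w : (Fin r ⊕ Basis.sumExtendIndex hzli) → S := (P'.map (algebraMap R S)) *ᵥ (b ∘ e)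
  have hw : ∀ i', w i' = ∑ j, P i' j • b j := by
    intro i'
    simp only [w, Matrix.mulVec, dotProduct, P', Matrix.map_apply, Matrix.submatrix_apply, id,
      Function.comp_apply]
    rw [← Equiv.sum_comp e (fun j => P i' j • b j)]
    exact Finset.sum_congr rfl fun j _ => (Algebra.smul_def _ _).symm
  have hwinl : ∀ i, w (Sum.inl i) = z i := by
    intro i
    rw [hw]
    simp only [P, Sum.elim_inl]
    exact b.sum_repr (z i)
  -- the discriminant of `w`
  have hdiscr : Algebra.discr R w = P'.det ^ 2 * Algebra.discr R b := by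
    have h1 := Algebra.discr_of_matrix_mulVec (A := R) (b ∘ e) P'
    have h2 : Algebra.discr R (b ∘ e) = Algebra.discr R b := by
      have := Algebra.discr_reindex R b e.symm
      simpa using this
    rw [← h2]
    exact h1
  -- `π ^ r` divides the discriminant of `w`
  have hdvd : π ^ r ∣ Algebra.discr R w := by
    have h1 := pow_card_dvd_det_of_rows (Algebra.traceMatrix R w) π
      (Finset.univ.map ⟨Sum.inl, Sum.inl_injective⟩) (by
        intro i' hi' j
        obtain ⟨i, -, rfl⟩ := Finset.mem_map.1 hi'
        simp only [Function.Embedding.coeFn_mk]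
        rw [Algebra.traceMatrix_apply, Algebra.traceForm_apply, hwinl, ← Ideal.mem_span_singleton]
        obtain ⟨E, hE⟩ := hnil i
        refine trace_mem_span_of_pow_mem b π hπ.isPrime _ E ?_
        rw [mul_pow]
        exact Ideal.mul_mem_right _ _ hE)
    rwa [Finset.card_map, Finset.card_univ, Fintype.card_fin] at h1
  -- the determinant of `P'` is a unit modulo `π`
  have hdet : P'.det ∉ Ideal.span {π} := by
    rw [← Ideal.Quotient.eq_zero_iff_mem]
    have h1 : (Ideal.Quotient.mk (Ideal.span {π})) P'.det = (P'.map f).det :=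
      RingHom.map_det f P'
    rw [h1]
    have hrows : LinearIndependent (R ⧸ Ideal.span {π}) (P'.map f).row := by
      have h2 : (P'.map f).row = fun i' => LinearEquiv.funCongrLeft (R ⧸ Ideal.span {π})
          (R ⧸ Ideal.span {π}) e (Bbar i') := by
        funext i' j'
        simp only [Matrix.row, Matrix.map_apply, P', Matrix.submatrix_apply, id,
          LinearEquiv.funCongrLeft_apply, LinearMap.funLeft_apply]
        exact hP _ _
      rw [h2]
      exact Bbar.linearIndependent.map' _ (LinearEquiv.ker _)
    have hunit := Matrix.linearIndependent_rows_iff_isUnit.1 hrows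
    exact ((Matrix.isUnit_iff_isUnit_det _).1 hunit).ne_zero
  -- conclusion
  obtain ⟨y, i, hi, hyi⟩ := hπ.exists_inv hdet
  obtain ⟨a, ha⟩ := Ideal.mem_span_singleton'.1 hi
  have hcop : IsCoprime π P'.det := ⟨a, y, by rw [ha]; rw [add_comm]; exact hyi⟩
  have hcop' : IsCoprime (π ^ r) (P'.det ^ 2) := hcop.pow
  rw [hdiscr] at hdvd
  exact hcop'.dvd_of_dvd_mul_left hdvd

/-- **Dedekind's discriminant inequality, counting form (D1).**  Let `S` be a finite free
commutative `R`-algebra with basis `b`, let `π : R` generate a maximal ideal, and let `T` be a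
finite set of ideals of `S` containing all primes above `π`, such that the residue extension at
every `Q ∈ T` is trivial.  Then `π ^ (n - #T)` divides the discriminant of `b`, `n = rank S`. -/
theorem pow_dvd_det_traceMatrix_of_primes (b : Basis ι R S) (π : R)
    (hπ : (Ideal.span {π}).IsMaximal) (T : Finset (Ideal S))
    (hT : ∀ Q : Ideal S, Q.IsPrime → algebraMap R S π ∈ Q → Q ∈ T)
    (hres : ∀ Q ∈ T, ∀ x : S, ∃ a : R, x - algebraMap R S a ∈ Q) :
    π ^ (Fintype.card ι - T.card) ∣ (Algebra.traceMatrix R b).det := by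
  classical
  let _ : Field (R ⧸ Ideal.span {π}) := Ideal.Quotient.field _
  let f : R →+* R ⧸ Ideal.span {π} := Ideal.Quotient.mk _
  have hf : Function.Surjective f := Ideal.Quotient.mk_surjective
  have hres' : ∀ (Q : Ideal S) (j : ι), ∃ a : R, Q ∈ T → b j - algebraMap R S a ∈ Q := by
    intro Q j
    by_cases hQ : Q ∈ T
    · obtain ⟨a, ha⟩ := hres Q hQ (b j)
      exact ⟨a, fun _ => ha⟩
    · exact ⟨0, fun h => absurd h hQ⟩
  choose a ha using hres'
  -- the evaluation map in coordinates
  let Φ : (ι → R ⧸ Ideal.span {π}) →ₗ[R ⧸ Ideal.span {π}] (T → R ⧸ Ideal.span {π}) :=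
    { toFun := fun v Q => ∑ j, v j * f (a Q.1 j)
      map_add' := by
        intro v w
        funext Q
        simp only [Pi.add_apply, add_mul, Finset.sum_add_distrib]
      map_smul' := by
        intro t v
        funext Q
        simp only [Pi.smul_apply, smul_eq_mul, RingHom.id_apply, Finset.mul_sum, mul_assoc] }
  have hΦ : ∀ v Q, Φ v Q = ∑ j, v j * f (a Q.1 j) := fun _ _ => rfl
  have hker : Fintype.card ι - T.card ≤ Module.finrank (R ⧸ Ideal.span {π}) (LinearMap.ker Φ) := by
    have h1 := LinearMap.finrank_range_add_finrank_ker Φ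
    have h2 : Module.finrank (R ⧸ Ideal.span {π}) (LinearMap.range Φ) ≤ T.card := by
      calc Module.finrank (R ⧸ Ideal.span {π}) (LinearMap.range Φ)
          ≤ Module.finrank (R ⧸ Ideal.span {π}) (T → R ⧸ Ideal.span {π}) :=
            Submodule.finrank_le _
        _ = T.card := by rw [Module.finrank_fintype_fun_eq_card, Fintype.card_coe]
    rw [Module.finrank_fintype_fun_eq_card] at h1
    omega
  -- a linearly independent family in the kernel
  let B := Module.finBasis (R ⧸ Ideal.span {π}) (LinearMap.ker Φ)
  let v : Fin (Fintype.card ι - T.card) → (ι → R ⧸ Ideal.span {π}) :=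
    fun i => (B (Fin.castLE hker i) : ι → R ⧸ Ideal.span {π})
  have hv : LinearIndependent (R ⧸ Ideal.span {π}) v := by
    have h1 := B.linearIndependent.comp (Fin.castLE hker) (Fin.castLE_injective hker)
    exact h1.map' (LinearMap.ker Φ).subtype (Submodule.ker_subtype _)
  have hvker : ∀ i, Φ (v i) = 0 := fun i => LinearMap.mem_ker.1 (B (Fin.castLE hker i)).2
  -- lift to `S`
  choose c hc using fun (i : Fin (Fintype.card ι - T.card)) (j : ι) => hf (v i j)
  let z : Fin (Fintype.card ι - T.card) → S := fun i => ∑ j, c i j • b j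
  have hrepr : ∀ i j, b.repr (z i) j = c i j := by
    intro i j
    simp only [z, map_sum, map_smul, Basis.repr_self, Finsupp.coe_finsetSum, Finset.sum_apply,
      Finsupp.smul_apply, Finsupp.single_apply, smul_eq_mul, mul_ite, mul_one, mul_zero,
      Finset.sum_ite_eq', Finset.mem_univ, if_true]
  refine pow_dvd_det_traceMatrix_of_nilpotent b π hπ z ?_ ?_
  · -- the `z i` are nilpotent modulo `π`
    intro i
    have hmem : z i ∈ (Ideal.span {algebraMap R S π}).radical := by
      rw [Ideal.radical_eq_sInf, Ideal.mem_sInf]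
      rintro Q ⟨hQle, hQprime⟩
      have hπQ : algebraMap R S π ∈ Q := hQle (Ideal.subset_span rfl)
      have hQT : Q ∈ T := hT Q hQprime hπQ
      have h1 : z i - algebraMap R S (∑ j, c i j * a Q j) ∈ Q := by
        have h : z i - algebraMap R S (∑ j, c i j * a Q j)
            = ∑ j, algebraMap R S (c i j) * (b j - algebraMap R S (a Q j)) := by
          simp only [z, map_sum, map_mul, Algebra.smul_def, mul_sub, Finset.sum_sub_distrib]
        rw [h]
        exact Ideal.sum_mem _ fun j _ => Ideal.mul_mem_left _ _ (ha Q j hQT)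
      have h2 : (∑ j, c i j * a Q j) ∈ Ideal.span {π} := by
        rw [← Ideal.Quotient.eq_zero_iff_mem]
        have h : Φ (v i) ⟨Q, hQT⟩ = 0 := by rw [hvker i]; rfl
        rw [hΦ] at h
        rw [map_sum, ← h]
        refine Finset.sum_congr rfl fun j _ => ?_
        rw [map_mul, ← hc i j]
      have h3 : algebraMap R S (∑ j, c i j * a Q j) ∈ Q := by
        obtain ⟨q, hq⟩ := Ideal.mem_span_singleton'.1 h2
        rw [← hq, map_mul]
        exact Ideal.mul_mem_left _ _ hπQ
      have h4 := Ideal.add_mem _ h1 h3
      rwa [sub_add_cancel] at h4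
    exact hmem
  · -- the `z i` are linearly independent modulo `π`
    intro g hg i
    have hzero : ∑ i, f (g i) • v i = 0 := by
      funext j
      have h1 := repr_mem_span_of_mem b π _ hg j
      rw [← Ideal.Quotient.eq_zero_iff_mem] at h1
      simp only [Finset.sum_apply, Pi.smul_apply, smul_eq_mul, Pi.zero_apply]
      rw [← h1, map_sum, Finsupp.coe_finsetSum, Finset.sum_apply, map_sum]
      refine Finset.sum_congr rfl fun i _ => ?_
      rw [map_smul, Finsupp.smul_apply, smul_eq_mul, hrepr, map_mul, ← hc i j]
    have h2 := Fintype.linearIndependent_iff.1 hv (fun i => f (g i)) hzero i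
    exact Ideal.Quotient.eq_zero_iff_mem.1 h2

end Trace

end Fermat.Agent.P2.helper18
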