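import Mathlib
import Fermat.Agent.P2.helper18_DedekindDisc

/-!
# P2-[RH-D2] (helper18): exactness of Dedekind's discriminant exponent in the tame case

For a finite free extension `S / R` with `S` a Dedekind domain, `π : R` generating a maximal
ideal, trivial residue extensions above `π` and residue characteristic `0` or `> n`, the
discriminant of any basis is divisible by `π ^ (n - #primes above π)` (file
`helper18_DedekindDisc`) and by no higher power (this file).
-/

set_option autoImplicit false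
set_option linter.unusedSectionVars false

namespace Fermat.Agent.P2.helper18

open Matrix Module

section MatrixTrace

/-- The sum of a multiset all of whose elements are `0` or `c`. -/
theorem multiset_sum_eq_count_mul {κ : Type*} [Field κ] [DecidableEq κ] (s : Multiset κ) (c : κ)
    (h : ∀ x ∈ s, x = 0 ∨ x = c) : s.sum = (s.count c : κ) * c := by
  induction s using Multiset.induction_on with
  | empty => simp
  | cons a s ih =>
    have ih' := ih (fun x hx => h x (Multiset.mem_cons_of_mem hx))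
    rw [Multiset.sum_cons, ih', Multiset.count_cons]
    rcases h a (Multiset.mem_cons_self a s) with ha | ha
    · by_cases hc : c = 0
      · subst hc
        simp [ha]
      · have hca : ¬ c = a := by rw [ha]; exact hc
        rw [if_neg hca, ha]
        simp
    · subst ha
      simp only [if_true, Nat.cast_add, Nat.cast_one]
      ring

/-- Over a field, a non-nilpotent matrix `M` with `M (M - c)` nilpotent has trace `m * c` for
some `1 ≤ m ≤ n`. -/
theorem exists_trace_eq_natCast_mul {κ : Type*} [Field κ] {n : Type*} [Fintype n]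
    [DecidableEq n] (M : Matrix n n κ) (c : κ) (E : ℕ)
    (h : (M * (M - c • (1 : Matrix n n κ))) ^ E = 0) (hnil : ¬ IsNilpotent M) :
    ∃ m : ℕ, 0 < m ∧ m ≤ Fintype.card n ∧ M.trace = (m : κ) * c := by
  classical
  let φ : κ →+* AlgebraicClosure κ := algebraMap κ (AlgebraicClosure κ)
  have hφ : Function.Injective φ := φ.injective
  have hsplit : (M.map φ).charpoly.Splits := IsAlgClosed.splits _
  -- the image of `h`
  have hN : (M.map φ * (M.map φ - φ c • (1 : Matrix n n (AlgebraicClosure κ)))) ^ E = 0 := by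
    have h1 : M.map φ * (M.map φ - φ c • (1 : Matrix n n (AlgebraicClosure κ)))
        = φ.mapMatrix (M * (M - c • (1 : Matrix n n κ))) := by
      have h2 : φ.mapMatrix (c • (1 : Matrix n n κ))
          = φ c • (1 : Matrix n n (AlgebraicClosure κ)) := by
        ext i j
        simp only [RingHom.mapMatrix_apply, Matrix.map_apply, Matrix.smul_apply,
          Matrix.one_apply, smul_eq_mul]
        split_ifs <;> simp
      rw [map_mul, map_sub, h2]
      rfl
    rw [h1, ← map_pow, h, map_zero]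
  have hroots : ∀ x ∈ (M.map φ).charpoly.roots, x = 0 ∨ x = φ c := by
    intro x hx
    have hx' : Polynomial.IsRoot (M.map φ).charpoly x := (Polynomial.mem_roots'.1 hx).2
    have hspec := Matrix.mem_spectrum_of_isRoot_charpoly hx'
    rw [spectrum.mem_iff, Matrix.isUnit_iff_isUnit_det, isUnit_iff_ne_zero, not_not] at hspec
    obtain ⟨v, hv0, hv⟩ := Matrix.exists_mulVec_eq_zero_iff.2 hspec
    have hMv : (M.map φ) *ᵥ v = x • v := by
      rw [Matrix.sub_mulVec, sub_eq_zero] at hv
      rw [← hv, Matrix.algebraMap_eq_diagonal]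
      ext i
      simp [Matrix.mulVec_diagonal]
    have hNv : (M.map φ * (M.map φ - φ c • (1 : Matrix n n (AlgebraicClosure κ)))) *ᵥ v
        = (x * (x - φ c)) • v := by
      rw [← Matrix.mulVec_mulVec, Matrix.sub_mulVec, Matrix.smul_mulVec, Matrix.one_mulVec, hMv,
        ← sub_smul, Matrix.mulVec_smul, hMv, smul_smul, mul_comm]
    have hpow : ∀ k : ℕ,
        ((M.map φ * (M.map φ - φ c • (1 : Matrix n n (AlgebraicClosure κ)))) ^ k) *ᵥ v
          = (x * (x - φ c)) ^ k • v := by
      intro k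
      induction k with
      | zero => simp
      | succ k ih =>
        rw [pow_succ, ← Matrix.mulVec_mulVec, hNv, Matrix.mulVec_smul, ih, smul_smul, pow_succ,
          mul_comm]
    have h0 := hpow E
    rw [hN, Matrix.zero_mulVec] at h0
    have h1 : (x * (x - φ c)) ^ E = 0 := by
      by_contra hne
      exact hv0 ((smul_eq_zero.1 h0.symm).resolve_left hne)
    rcases mul_eq_zero.1 (eq_zero_of_pow_eq_zero h1) with h2 | h2
    · exact Or.inl h2
    · exact Or.inr (sub_eq_zero.1 h2)
  have htrace : (M.map φ).trace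
      = (((M.map φ).charpoly.roots.count (φ c) : ℕ) : AlgebraicClosure κ) * φ c := by
    rw [Matrix.trace_eq_sum_roots_charpoly, multiset_sum_eq_count_mul _ _ hroots]
  have htrace' : (M.map φ).trace = φ M.trace := by
    simp [Matrix.trace, map_sum]
  have hcard : (M.map φ).charpoly.roots.card = Fintype.card n := by
    rw [← hsplit.natDegree_eq_card_roots, Matrix.charpoly_natDegree_eq_dim]
  refine ⟨(M.map φ).charpoly.roots.count (φ c), ?_, ?_, ?_⟩
  · by_contra hm0
    apply hnil
    have hall : ∀ x ∈ (M.map φ).charpoly.roots, x = 0 := by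
      intro x hx
      rcases hroots x hx with h | h
      · exact h
      · exfalso
        rw [h] at hx
        exact hm0 (Multiset.count_pos.2 hx)
    have hcp : (M.map φ).charpoly = Polynomial.X ^ Fintype.card n := by
      conv_lhs => rw [hsplit.eq_prod_roots_of_monic (Matrix.charpoly_monic _)]
      have h5 : Multiset.map (fun a => Polynomial.X - Polynomial.C a) (M.map φ).charpoly.roots
          = Multiset.map (fun _ => (Polynomial.X : Polynomial (AlgebraicClosure κ)))
              (M.map φ).charpoly.roots :=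
        Multiset.map_congr rfl (fun x hx => by rw [hall x hx, map_zero, sub_zero])
      rw [h5, Multiset.map_const', Multiset.prod_replicate, hcard]
    have hpow : (M.map φ) ^ Fintype.card n = 0 := by
      have h3 := Matrix.aeval_self_charpoly (M.map φ)
      rw [hcp] at h3
      simpa using h3
    refine ⟨Fintype.card n, ?_⟩
    apply Matrix.map_injective hφ
    have h4 : (M ^ Fintype.card n).map φ = (M.map φ) ^ Fintype.card n := by
      rw [← RingHom.mapMatrix_apply, map_pow, RingHom.mapMatrix_apply]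
    show (M ^ Fintype.card n).map φ = (0 : Matrix n n κ).map φ
    rw [h4, hpow]
    ext i j
    simp
  · rw [← hcard]
    exact Multiset.count_le_card _ _
  · apply hφ
    rw [← htrace', htrace, map_mul, map_natCast]

end MatrixTrace

section TraceLocal

variable {R S : Type*} [CommRing R] [CommRing S] [Algebra R S]
variable {ι : Type*} [Fintype ι] [DecidableEq ι]

/-- If all entries of the multiplication matrix of `x` are divisible by `π` then `x ∈ π S`. -/
theorem mem_span_of_leftMulMatrix_mem (b : Basis ι R S) (π : R) (x : S)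
    (h : ∀ i j, Algebra.leftMulMatrix b x i j ∈ Ideal.span {π}) :
    x ∈ Ideal.span {algebraMap R S π} := by
  have h1 : ∀ j, x * b j ∈ Ideal.span {algebraMap R S π} := by
    intro j
    refine mem_span_of_repr_mem b π _ fun i => ?_
    have := h i j
    rwa [Algebra.leftMulMatrix_eq_repr_mul] at this
  have h2 : x = ∑ j, algebraMap R S (b.repr 1 j) * (x * b j) := by
    conv_lhs => rw [← mul_one x, ← b.sum_repr 1, Finset.mul_sum]
    refine Finset.sum_congr rfl fun j _ => ?_
    rw [Algebra.smul_def]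
    ring
  rw [h2]
  exact Ideal.sum_mem _ fun j _ => Ideal.mul_mem_left _ _ (h1 j)

/-- **Key trace lemma.**  Let `y ∈ S` be not nilpotent modulo `π`, with `y (y - c)` nilpotent
modulo `π` for some `c : R` which is a unit modulo `π`.  If the residue characteristic is `0`
or `> n`, then `Tr y` is a unit modulo `π`. -/
theorem trace_notMem_span_of_local (b : Basis ι R S) (π : R) (hπ : (Ideal.span {π}).IsMaximal)
    (hchar : ∀ m : ℕ, 0 < m → m ≤ Fintype.card ι → (m : R) ∉ Ideal.span {π})
    (y : S) (c : R) (hc : c ∉ Ideal.span {π}) (E : ℕ)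
    (hy : (y * (y - algebraMap R S c)) ^ E ∈ Ideal.span {algebraMap R S π})
    (hynil : ∀ E' : ℕ, y ^ E' ∉ Ideal.span {algebraMap R S π}) :
    Algebra.trace R S y ∉ Ideal.span {π} := by
  classical
  let _ : Field (R ⧸ Ideal.span {π}) := Ideal.Quotient.field _
  let f : R →+* R ⧸ Ideal.span {π} := Ideal.Quotient.mk _
  have hmap0 : ∀ x : S, x ∈ Ideal.span {algebraMap R S π} →
      (Algebra.leftMulMatrix b x).map f = 0 := by
    intro x hx
    obtain ⟨s, hs⟩ := Ideal.mem_span_singleton'.1 hx
    rw [← hs, mul_comm, ← Algebra.smul_def, map_smul]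
    ext i j
    simp only [Matrix.map_apply, Matrix.smul_apply, smul_eq_mul, Matrix.zero_apply, f]
    rw [Ideal.Quotient.eq_zero_iff_mem]
    exact Ideal.mul_mem_right _ _ (Ideal.subset_span rfl)
  have hpowmap : ∀ (x : S) (k : ℕ),
      ((Algebra.leftMulMatrix b x).map f) ^ k = (Algebra.leftMulMatrix b (x ^ k)).map f := by
    intro x k
    rw [map_pow, ← RingHom.mapMatrix_apply, ← map_pow, RingHom.mapMatrix_apply]
  have h1 : ((Algebra.leftMulMatrix b y).map f *
      ((Algebra.leftMulMatrix b y).map f - f c • (1 : Matrix ι ι (R ⧸ Ideal.span {π})))) ^ E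
        = 0 := by
    have h2 : (Algebra.leftMulMatrix b y).map f *
        ((Algebra.leftMulMatrix b y).map f - f c • (1 : Matrix ι ι (R ⧸ Ideal.span {π})))
        = f.mapMatrix (Algebra.leftMulMatrix b (y * (y - algebraMap R S c))) := by
      have h3 : f.mapMatrix (c • (1 : Matrix ι ι R))
          = f c • (1 : Matrix ι ι (R ⧸ Ideal.span {π})) := by
        ext i j
        simp only [RingHom.mapMatrix_apply, Matrix.map_apply, Matrix.smul_apply,
          Matrix.one_apply, smul_eq_mul]
        split_ifs <;> simp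
      rw [map_mul (Algebra.leftMulMatrix b), map_sub, Algebra.algebraMap_eq_smul_one c, map_smul,
        map_one, map_mul f.mapMatrix, map_sub, h3]
      rfl
    rw [h2, RingHom.mapMatrix_apply, hpowmap]
    exact hmap0 _ hy
  have hnil : ¬ IsNilpotent ((Algebra.leftMulMatrix b y).map f) := by
    rintro ⟨k, hk⟩
    rw [hpowmap] at hk
    refine hynil k (mem_span_of_leftMulMatrix_mem b π _ fun i j => ?_)
    have := congrFun (congrFun hk i) j
    simp only [Matrix.map_apply, Matrix.zero_apply, f] at this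
    exact Ideal.Quotient.eq_zero_iff_mem.1 this
  obtain ⟨m, hm0, hmn, hm⟩ := exists_trace_eq_natCast_mul _ (f c) E h1 hnil
  intro hmem
  have h4 : ((Algebra.leftMulMatrix b y).map f).trace = f (Algebra.trace R S y) := by
    rw [Algebra.trace_eq_matrix_trace b]
    simp only [Matrix.trace, Matrix.diag_apply, Matrix.map_apply, map_sum]
  rw [h4, Ideal.Quotient.eq_zero_iff_mem.2 hmem] at hm
  have h5 : f (m : R) ≠ 0 := fun h => hchar m hm0 hmn (Ideal.Quotient.eq_zero_iff_mem.1 h)
  have h6 : f c ≠ 0 := fun h => hc (Ideal.Quotient.eq_zero_iff_mem.1 h)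
  rw [map_natCast] at h5
  exact mul_ne_zero h5 h6 hm.symm

end TraceLocal

section Dedekind

open IsDedekindDomain WithZero

variable {S : Type*} [CommRing S] [IsDedekindDomain S]

/-- A nonzero element of a Dedekind domain has valuation `exp (-e)` for some `e : ℕ`. -/
theorem exists_intValuation_eq_exp (v : HeightOneSpectrum S) {p : S} (hp : p ≠ 0) :
    ∃ e : ℕ, v.intValuation p = exp (-(e : ℤ)) :=
  ⟨_, v.intValuation_if_neg hp⟩

/-- If `x ∉ (p)` in a Dedekind domain, some prime containing `p` divides `x` strictly less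
than it divides `p`. -/
theorem exists_heightOne_lt_of_notMem_span (p : S) (hp : p ≠ 0) (x : S)
    (hx : x ∉ Ideal.span {p}) :
    ∃ v : HeightOneSpectrum S, p ∈ v.asIdeal ∧ v.intValuation p < v.intValuation x := by
  have hJ : ∀ s, s ∈ (Ideal.span {p}).colon ({x} : Set S) ↔ s * x ∈ Ideal.span {p} := by
    intro s
    rw [Submodule.mem_colon_singleton, smul_eq_mul]
  have hJne : (Ideal.span {p}).colon ({x} : Set S) ≠ ⊤ := by
    intro h
    have h1 : (1 : S) ∈ (Ideal.span {p}).colon ({x} : Set S) := h ▸ Submodule.mem_top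
    rw [hJ, one_mul] at h1
    exact hx h1
  obtain ⟨M, hMmax, hJM⟩ := Ideal.exists_le_maximal _ hJne
  have hpM : p ∈ M := hJM ((hJ p).2 (Ideal.mul_mem_right _ _ (Ideal.subset_span rfl)))
  have hM0 : M ≠ ⊥ := by
    rintro rfl
    exact hp ((Submodule.mem_bot _).1 hpM)
  refine ⟨⟨M, hMmax.isPrime, hM0⟩, hpM, ?_⟩
  by_contra hle
  have hle' := not_lt.1 hle
  obtain ⟨e, he⟩ := exists_intValuation_eq_exp (⟨M, hMmax.isPrime, hM0⟩ : HeightOneSpectrum S) hp
  have hxe : x ∈ M ^ e :=
    ((⟨M, hMmax.isPrime, hM0⟩ : HeightOneSpectrum S).intValuation_le_pow_iff_mem x e).1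
      (he ▸ hle')
  have hpe : p ∈ M ^ e :=
    ((⟨M, hMmax.isPrime, hM0⟩ : HeightOneSpectrum S).intValuation_le_pow_iff_mem p e).1 he.le
  have hdvd : M ^ e ∣ Ideal.span {p} :=
    Ideal.dvd_iff_le.2 ((Ideal.span_singleton_le_iff_mem _).2 hpe)
  obtain ⟨I₀, hI₀⟩ := hdvd
  have hI₀M : ¬ I₀ ≤ M := by
    intro h
    have h1 : Ideal.span {p} ≤ M ^ (e + 1) := by
      rw [hI₀, pow_succ]
      exact Ideal.mul_mono_right h
    have hp' : p ∈ M ^ (e + 1) := h1 (Ideal.subset_span rfl)
    have h2 := ((⟨M, hMmax.isPrime, hM0⟩ : HeightOneSpectrum S).intValuation_le_pow_iff_mem p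
      (e + 1)).2 hp'
    rw [he, exp_le_exp] at h2
    push_cast at h2
    omega
  obtain ⟨s, hsI, hsM⟩ := SetLike.not_le_iff_exists.1 hI₀M
  have h3 : s * x ∈ Ideal.span {p} := by
    rw [hI₀, mul_comm s x]
    exact Ideal.mul_mem_mul hxe hsI
  exact hsM (hJM ((hJ s).2 h3))

/-- Chinese remainder elements: `y ≡ 1` at `v₀` and `y ≡ 0` at the other primes of `T`. -/
theorem exists_crt_one (T : Finset (HeightOneSpectrum S)) (v₀ : HeightOneSpectrum S)
    (hv₀ : v₀ ∈ T) :
    ∃ y : S, y - 1 ∈ v₀.asIdeal ∧ ∀ v ∈ T, v ≠ v₀ → y ∈ v.asIdeal := by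
  classical
  obtain ⟨y, hy⟩ := IsDedekindDomain.exists_forall_sub_mem_ideal (s := T)
    (fun v : HeightOneSpectrum S => v.asIdeal) (fun _ => 1) (fun v _ => v.prime)
    (fun v _ v' _ h hvv' => h (HeightOneSpectrum.ext hvv'))
    (fun v => if v.1 = v₀ then 1 else 0)
  refine ⟨y, ?_, ?_⟩
  · have := hy v₀ hv₀
    simpa using this
  · intro v hv hne
    have := hy v hv
    simpa [hne] using this

/-- Elements with prescribed valuation at `v₀` and high divisibility at the other primes
of `T`. -/
theorem exists_crt_val (T : Finset (HeightOneSpectrum S)) (v₀ : HeightOneSpectrum S)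
    (hv₀ : v₀ ∈ T) (a : ℕ) (E : HeightOneSpectrum S → ℕ) :
    ∃ z : S, v₀.intValuation z = exp (-(a : ℤ)) ∧ ∀ v ∈ T, v ≠ v₀ → z ∈ v.asIdeal ^ E v := by
  classical
  obtain ⟨ϖ, hϖ⟩ := v₀.intValuation_exists_uniformizer
  obtain ⟨z, hz⟩ := IsDedekindDomain.exists_forall_sub_mem_ideal (s := T)
    (fun v : HeightOneSpectrum S => v.asIdeal) (fun v => if v = v₀ then a + 1 else E v)
    (fun v _ => v.prime)
    (fun v _ v' _ h hvv' => h (HeightOneSpectrum.ext hvv'))
    (fun v => if v.1 = v₀ then ϖ ^ a else 0)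
  refine ⟨z, ?_, ?_⟩
  · have h1 := hz v₀ hv₀
    simp only [if_true] at h1
    have h2 : v₀.intValuation (z - ϖ ^ a) ≤ exp (-((a + 1 : ℕ) : ℤ)) :=
      (v₀.intValuation_le_pow_iff_mem _ _).2 h1
    have h3 : v₀.intValuation (ϖ ^ a) = exp (-(a : ℤ)) := by
      rw [map_pow, hϖ, ← WithZero.exp_nsmul]
      simp
    have h4 : v₀.intValuation (z - ϖ ^ a) < v₀.intValuation (ϖ ^ a) := by
      rw [h3]
      refine lt_of_le_of_lt h2 ?_
      rw [exp_lt_exp]
      push_cast
      omega
    have h5 : z = ϖ ^ a + (z - ϖ ^ a) := by ring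
    rw [h5, Valuation.map_add_eq_of_lt_left _ h4, h3]
  · intro v hv hne
    have h1 := hz v hv
    simpa [hne] using h1

end Dedekind

section Tame

open IsDedekindDomain WithZero

variable {R S : Type*} [CommRing R] [IsDomain R] [CommRing S] [IsDedekindDomain S] [Algebra R S]
variable {ι : Type*} [Fintype ι] [DecidableEq ι]

/-- An element of `R` whose image lies in a proper ideal containing `π` is divisible by `π`. -/
theorem mem_span_of_algebraMap_mem (π : R) (hπ : (Ideal.span {π}).IsMaximal) (Q : Ideal S)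
    (hQ : Q ≠ ⊤) (hπQ : algebraMap R S π ∈ Q) {r : R} (hr : algebraMap R S r ∈ Q) :
    r ∈ Ideal.span {π} := by
  by_contra hr'
  obtain ⟨y, i, hi, hyi⟩ := hπ.exists_inv hr'
  obtain ⟨a, ha⟩ := Ideal.mem_span_singleton'.1 hi
  apply hQ
  rw [Ideal.eq_top_iff_one]
  have h1 : (1 : S) = algebraMap R S y * algebraMap R S r + algebraMap R S a * algebraMap R S π := by
    rw [← map_mul, ← map_mul, ← map_add, ha, hyi, map_one]
  rw [h1]
  exact Ideal.add_mem _ (Ideal.mul_mem_left _ _ hr) (Ideal.mul_mem_left _ _ hπQ)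

/-- **Key trace lemma in the Dedekind setting.**  If `y` is a unit at the prime `v₀` above `π`
and vanishes at all other primes above `π`, then `Tr y` is a unit modulo `π` (residue
characteristic `0` or `> n`, trivial residue extension at `v₀`). -/
theorem trace_notMem_of_unit_at (b : Basis ι R S) (π : R) (hπ0 : π ≠ 0)
    (hπ : (Ideal.span {π}).IsMaximal) (T : Finset (HeightOneSpectrum S))
    (hT : ∀ v : HeightOneSpectrum S, algebraMap R S π ∈ v.asIdeal ↔ v ∈ T)
    (hchar : ∀ m : ℕ, 0 < m → m ≤ Fintype.card ι → (m : R) ∉ Ideal.span {π})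
    (v₀ : HeightOneSpectrum S) (hv₀ : v₀ ∈ T)
    (hres : ∀ x : S, ∃ a : R, x - algebraMap R S a ∈ v₀.asIdeal)
    (y : S) (hy₀ : y ∉ v₀.asIdeal) (hy : ∀ v ∈ T, v ≠ v₀ → y ∈ v.asIdeal) :
    Algebra.trace R S y ∉ Ideal.span {π} := by
  have hπS : algebraMap R S π ≠ 0 := by
    intro h0
    exact hπ0 (b.algebraMap_injective (by rw [h0, map_zero]))
  have hπv₀ : algebraMap R S π ∈ v₀.asIdeal := (hT v₀).2 hv₀
  obtain ⟨c, hc⟩ := hres y
  have hcπ : c ∉ Ideal.span {π} := by
    intro hmem
    obtain ⟨a, ha⟩ := Ideal.mem_span_singleton'.1 hmem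
    apply hy₀
    have h1 : algebraMap R S c ∈ v₀.asIdeal := by
      rw [← ha, map_mul]
      exact Ideal.mul_mem_left _ _ hπv₀
    have h2 := Ideal.add_mem _ hc h1
    rwa [sub_add_cancel] at h2
  have hrad : y * (y - algebraMap R S c) ∈ (Ideal.span {algebraMap R S π}).radical := by
    rw [Ideal.radical_eq_sInf, Ideal.mem_sInf]
    rintro Q ⟨hQle, hQprime⟩
    have hπQ : algebraMap R S π ∈ Q := hQle (Ideal.subset_span rfl)
    have hQ0 : Q ≠ ⊥ := by
      rintro rfl
      exact hπS ((Submodule.mem_bot _).1 hπQ)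
    have hvT : (⟨Q, hQprime, hQ0⟩ : HeightOneSpectrum S) ∈ T := (hT ⟨Q, hQprime, hQ0⟩).1 hπQ
    by_cases hv : (⟨Q, hQprime, hQ0⟩ : HeightOneSpectrum S) = v₀
    · have hQv : Q = v₀.asIdeal := congrArg HeightOneSpectrum.asIdeal hv
      rw [hQv]
      exact Ideal.mul_mem_left _ _ hc
    · exact Ideal.mul_mem_right _ _ (hy _ hvT hv)
  obtain ⟨E, hE⟩ := hrad
  refine trace_notMem_span_of_local b π hπ hchar y c hcπ E hE ?_
  intro E' hE'
  have h1 : y ^ E' ∈ v₀.asIdeal :=
    (Ideal.span_singleton_le_iff_mem _).2 hπv₀ hE'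
  exact hy₀ (v₀.isPrime.mem_of_pow_mem E' h1)

/-- Elements lying in all primes above `π` are nilpotent modulo `π`. -/
theorem exists_pow_mem_span_of_forall_mem (b : Basis ι R S) (π : R) (hπ0 : π ≠ 0)
    (T : Finset (HeightOneSpectrum S))
    (hT : ∀ v : HeightOneSpectrum S, algebraMap R S π ∈ v.asIdeal ↔ v ∈ T)
    (x : S) (hx : ∀ v ∈ T, x ∈ v.asIdeal) :
    ∃ E : ℕ, x ^ E ∈ Ideal.span {algebraMap R S π} := by
  have hπS : algebraMap R S π ≠ 0 := by
    intro h0
    exact hπ0 (b.algebraMap_injective (by rw [h0, map_zero]))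
  have hrad : x ∈ (Ideal.span {algebraMap R S π}).radical := by
    rw [Ideal.radical_eq_sInf, Ideal.mem_sInf]
    rintro Q ⟨hQle, hQprime⟩
    have hπQ : algebraMap R S π ∈ Q := hQle (Ideal.subset_span rfl)
    have hQ0 : Q ≠ ⊥ := by
      rintro rfl
      exact hπS ((Submodule.mem_bot _).1 hπQ)
    exact hx ⟨Q, hQprime, hQ0⟩ ((hT ⟨Q, hQprime, hQ0⟩).1 hπQ)
  exact hrad

/-- The trace of an element lying in all primes above `π` is divisible by `π`. -/
theorem trace_mem_span_of_forall_mem (b : Basis ι R S) (π : R) (hπ0 : π ≠ 0)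
    (hπ : (Ideal.span {π}).IsMaximal) (T : Finset (HeightOneSpectrum S))
    (hT : ∀ v : HeightOneSpectrum S, algebraMap R S π ∈ v.asIdeal ↔ v ∈ T)
    (x : S) (hx : ∀ v ∈ T, x ∈ v.asIdeal) :
    Algebra.trace R S x ∈ Ideal.span {π} := by
  obtain ⟨E, hE⟩ := exists_pow_mem_span_of_forall_mem b π hπ0 T hT x hx
  exact trace_mem_span_of_pow_mem b π hπ.isPrime x E hE

/-- **Nondegeneracy of the trace form on the radical (tame case).**  If `z` lies in all primes
above `π` and `Tr (z z') ∈ (π²)` for all `z'` in all primes above `π`, then `z ∈ π S`. -/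
theorem mem_span_of_trace_mul_mem (b : Basis ι R S) (π : R) (hπ0 : π ≠ 0)
    (hπ : (Ideal.span {π}).IsMaximal) (T : Finset (HeightOneSpectrum S))
    (hT : ∀ v : HeightOneSpectrum S, algebraMap R S π ∈ v.asIdeal ↔ v ∈ T)
    (hchar : ∀ m : ℕ, 0 < m → m ≤ Fintype.card ι → (m : R) ∉ Ideal.span {π})
    (hres : ∀ v ∈ T, ∀ x : S, ∃ a : R, x - algebraMap R S a ∈ v.asIdeal)
    (z : S) (hz : ∀ v ∈ T, z ∈ v.asIdeal)
    (htr : ∀ z' : S, (∀ v ∈ T, z' ∈ v.asIdeal) →
      Algebra.trace R S (z * z') ∈ Ideal.span {π ^ 2}) :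
    z ∈ Ideal.span {algebraMap R S π} := by
  classical
  by_contra hzn
  have hπS : algebraMap R S π ≠ 0 := by
    intro h0
    exact hπ0 (b.algebraMap_injective (by rw [h0, map_zero]))
  obtain ⟨v₀, hπv₀, hlt⟩ := exists_heightOne_lt_of_notMem_span _ hπS z hzn
  have hv₀ : v₀ ∈ T := (hT v₀).1 hπv₀
  have hz0 : z ≠ 0 := by
    rintro rfl
    exact hzn (Ideal.zero_mem _)
  choose e he using fun v : HeightOneSpectrum S => exists_intValuation_eq_exp v hπS
  obtain ⟨a, ha⟩ := exists_intValuation_eq_exp v₀ hz0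
  have hae : a < e v₀ := by
    rw [he v₀, ha, exp_lt_exp] at hlt
    omega
  have ha1 : 1 ≤ a := by
    have h1 := (v₀.intValuation_lt_one_iff_mem z).2 (hz v₀ hv₀)
    rw [ha, ← exp_zero, exp_lt_exp] at h1
    omega
  have he1 : ∀ v ∈ T, 1 ≤ e v := by
    intro v hv
    have h1 := (v.intValuation_lt_one_iff_mem _).2 ((hT v).2 hv)
    rw [he v, ← exp_zero, exp_lt_exp] at h1
    omega
  obtain ⟨z', hz'₀, hz'⟩ := exists_crt_val T v₀ hv₀ (e v₀ - a) e
  have hz'N : ∀ v ∈ T, z' ∈ v.asIdeal := by
    intro v hv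
    by_cases hvv : v = v₀
    · subst hvv
      rw [← HeightOneSpectrum.intValuation_lt_one_iff_mem, hz'₀, ← exp_zero, exp_lt_exp]
      omega
    · exact Ideal.pow_le_self (by have := he1 v hv; omega) (hz' v hv hvv)
  -- `z z' ∈ π S`
  have hzz' : z * z' ∈ Ideal.span {algebraMap R S π} := by
    by_contra hn
    obtain ⟨v, hπv, hlt'⟩ := exists_heightOne_lt_of_notMem_span _ hπS _ hn
    have hv : v ∈ T := (hT v).1 hπv
    by_cases hvv : v = v₀
    · subst hvv
      rw [map_mul, ha, hz'₀, he, ← exp_add, exp_lt_exp] at hlt'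
      omega
    · have h1 : v.intValuation z' ≤ exp (-(e v : ℤ)) :=
        (v.intValuation_le_pow_iff_mem _ _).2 (hz' v hv hvv)
      have h2 : v.intValuation (z * z') ≤ v.intValuation (algebraMap R S π) := by
        rw [map_mul, he v]
        calc v.intValuation z * v.intValuation z' ≤ 1 * exp (-(e v : ℤ)) :=
              mul_le_mul' (v.intValuation_le_one z) h1
          _ = exp (-(e v : ℤ)) := one_mul _
      exact absurd hlt' (not_lt.2 h2)
  obtain ⟨y, hy⟩ := Ideal.mem_span_singleton'.1 hzz'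
  -- `y` is a unit at `v₀`
  have hy₀ : y ∉ v₀.asIdeal := by
    rw [← HeightOneSpectrum.intValuation_eq_one_iff]
    have h1 : v₀.intValuation (y * algebraMap R S π) = v₀.intValuation (z * z') := by rw [hy]
    rw [map_mul, map_mul, ha, hz'₀, he, ← exp_add] at h1
    have h2 : (-(a : ℤ) + -((e v₀ - a : ℕ) : ℤ)) = -(e v₀ : ℤ) := by omega
    rw [h2] at h1
    exact mul_right_cancel₀ exp_ne_zero (h1.trans (one_mul _).symm)
  have hyv : ∀ v ∈ T, v ≠ v₀ → y ∈ v.asIdeal := by
    intro v hv hvv
    rw [← HeightOneSpectrum.intValuation_lt_one_iff_mem]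
    have h1 : v.intValuation (y * algebraMap R S π) = v.intValuation (z * z') := by rw [hy]
    rw [map_mul, map_mul] at h1
    have h2 : v.intValuation z' ≤ v.intValuation (algebraMap R S π) := by
      rw [he v]
      exact (v.intValuation_le_pow_iff_mem _ _).2 (hz' v hv hvv)
    have h3 : v.intValuation z < 1 := (v.intValuation_lt_one_iff_mem z).2 (hz v hv)
    have h4 : v.intValuation (algebraMap R S π) ≠ 0 := v.intValuation_ne_zero _ hπS
    have h5 : v.intValuation y * v.intValuation (algebraMap R S π)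
        ≤ v.intValuation z * v.intValuation (algebraMap R S π) := by
      rw [h1]
      exact mul_le_mul' le_rfl h2
    have h6 : v.intValuation y ≤ v.intValuation z :=
      le_of_mul_le_mul_right h5 (zero_lt_iff.2 h4)
    exact lt_of_le_of_lt h6 h3
  have hTry := trace_notMem_of_unit_at b π hπ0 hπ T hT hchar v₀ hv₀ (hres v₀ hv₀) y hy₀ hyv
  apply hTry
  have h1 := htr z' hz'N
  rw [← hy, mul_comm y, ← Algebra.smul_def, map_smul, smul_eq_mul] at h1
  obtain ⟨s, hs⟩ := Ideal.mem_span_singleton'.1 h1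
  refine Ideal.mem_span_singleton'.2 ⟨s, ?_⟩
  apply mul_left_cancel₀ hπ0
  rw [← hs]
  ring

/-- **Adapted family.**  A family `z` of `n - #T` elements of the radical of `π S` which is a
basis of the radical modulo `π S`. -/
theorem exists_adapted_family (b : Basis ι R S) (π : R)
    (hπ : (Ideal.span {π}).IsMaximal) (T : Finset (HeightOneSpectrum S))
    (hT : ∀ v ∈ T, algebraMap R S π ∈ v.asIdeal)
    (hres : ∀ v ∈ T, ∀ x : S, ∃ a : R, x - algebraMap R S a ∈ v.asIdeal) :
    ∃ (r : ℕ) (z : Fin r → S), T.card + r = Fintype.card ι ∧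
      (∀ i, ∀ v ∈ T, z i ∈ v.asIdeal) ∧
      (∀ c : Fin r → R, (∑ i, c i • z i) ∈ Ideal.span {algebraMap R S π} →
        ∀ i, c i ∈ Ideal.span {π}) ∧
      (∀ x : S, (∀ v ∈ T, x ∈ v.asIdeal) →
        ∃ d : Fin r → R, x - ∑ i, d i • z i ∈ Ideal.span {algebraMap R S π}) := by
  classical
  let _ : Field (R ⧸ Ideal.span {π}) := Ideal.Quotient.field _
  let f : R →+* R ⧸ Ideal.span {π} := Ideal.Quotient.mk _
  have hf : Function.Surjective f := Ideal.Quotient.mk_surjective
  have hf0 : ∀ x : R, f x = 0 ↔ x ∈ Ideal.span {π} := fun x => Ideal.Quotient.eq_zero_iff_mem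
  have hres' : ∀ (v : HeightOneSpectrum S) (j : ι),
      ∃ a : R, v ∈ T → b j - algebraMap R S a ∈ v.asIdeal := by
    intro v j
    by_cases hv : v ∈ T
    · obtain ⟨a, ha⟩ := hres v hv (b j)
      exact ⟨a, fun _ => ha⟩
    · exact ⟨0, fun h => absurd h hv⟩
  choose a ha using hres'
  -- the residue of `x` at `v`
  let A : HeightOneSpectrum S → S → R := fun v x => ∑ j, b.repr x j * a v j
  have hA : ∀ v ∈ T, ∀ x : S, x - algebraMap R S (A v x) ∈ v.asIdeal := by
    intro v hv x
    have h1 : x = ∑ j, algebraMap R S (b.repr x j) * b j := by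
      conv_lhs => rw [← b.sum_repr x]
      exact Finset.sum_congr rfl fun j _ => Algebra.smul_def _ _
    have h2 : algebraMap R S (A v x)
        = ∑ j, algebraMap R S (b.repr x j) * algebraMap R S (a v j) := by
      simp only [A, map_sum, map_mul]
    have h3 : x - algebraMap R S (A v x)
        = ∑ j, algebraMap R S (b.repr x j) * (b j - algebraMap R S (a v j)) := by
      rw [h2]
      simp only [mul_sub, Finset.sum_sub_distrib]
      rw [← h1]
    rw [h3]
    exact Ideal.sum_mem _ fun j _ => Ideal.mul_mem_left _ _ (ha v j hv)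
  have hmem : ∀ v ∈ T, ∀ x : S, x ∈ v.asIdeal ↔ A v x ∈ Ideal.span {π} := by
    intro v hv x
    constructor
    · intro hx
      refine mem_span_of_algebraMap_mem π hπ v.asIdeal v.isPrime.ne_top (hT v hv) ?_
      have h1 := Ideal.sub_mem _ hx (hA v hv x)
      rwa [sub_sub_cancel] at h1
    · intro hx
      obtain ⟨q, hq⟩ := Ideal.mem_span_singleton'.1 hx
      have h1 : algebraMap R S (A v x) ∈ v.asIdeal := by
        rw [← hq, map_mul]
        exact Ideal.mul_mem_left _ _ (hT v hv)
      have h2 := Ideal.add_mem _ (hA v hv x) h1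
      rwa [sub_add_cancel] at h2
  -- the evaluation map in coordinates
  let Φ : (ι → R ⧸ Ideal.span {π}) →ₗ[R ⧸ Ideal.span {π}] (T → R ⧸ Ideal.span {π}) :=
    { toFun := fun c v => ∑ j, c j * f (a v.1 j)
      map_add' := by
        intro c c'
        funext v
        simp only [Pi.add_apply, add_mul, Finset.sum_add_distrib]
      map_smul' := by
        intro t c
        funext v
        simp only [Pi.smul_apply, smul_eq_mul, RingHom.id_apply, Finset.mul_sum, mul_assoc] }
  have hΦ : ∀ c v, Φ c v = ∑ j, c j * f (a v.1 j) := fun _ _ => rfl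
  have hΦA : ∀ (x : S) (v : T), Φ (fun j => f (b.repr x j)) v = f (A v.1 x) := by
    intro x v
    rw [hΦ]
    simp only [A, map_sum, map_mul]
  -- surjectivity
  have hy : ∀ v₀ : T, ∃ y : S, Φ (fun j => f (b.repr y j)) = Pi.single v₀ 1 := by
    intro v₀
    obtain ⟨y, hy1, hy2⟩ := exists_crt_one T v₀.1 v₀.2
    refine ⟨y, ?_⟩
    funext v
    rw [hΦA]
    by_cases hv : v = v₀
    · subst hv
      rw [Pi.single_eq_same]
      have h1 : algebraMap R S (A v.1 y - 1) ∈ v.1.asIdeal := by
        have h2 := Ideal.sub_mem _ hy1 (hA v.1 v.2 y)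
        have h3 : y - 1 - (y - algebraMap R S (A v.1 y)) = algebraMap R S (A v.1 y - 1) := by
          rw [map_sub, map_one]
          ring
        rwa [h3] at h2
      have h4 := mem_span_of_algebraMap_mem π hπ v.1.asIdeal v.1.isPrime.ne_top
        (hT v.1 v.2) h1
      rw [← hf0, map_sub, map_one, sub_eq_zero] at h4
      exact h4
    · rw [Pi.single_eq_of_ne hv]
      rw [hf0, ← hmem v.1 v.2]
      exact hy2 v.1 v.2 (fun h => hv (Subtype.ext h))
  choose ybar hybar using hy
  have hsurj : Function.Surjective Φ := by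
    intro g
    refine ⟨∑ v : T, g v • (fun j => f (b.repr (ybar v) j)), ?_⟩
    rw [map_sum]
    simp only [map_smul, hybar]
    funext v
    simp [Finset.sum_apply, Pi.single_apply]
  have hrank : T.card + Module.finrank (R ⧸ Ideal.span {π}) (LinearMap.ker Φ)
      = Fintype.card ι := by
    have h1 := LinearMap.finrank_range_add_finrank_ker Φ
    rw [LinearMap.range_eq_top.2 hsurj, finrank_top, Module.finrank_fintype_fun_eq_card,
      Module.finrank_fintype_fun_eq_card, Fintype.card_coe] at h1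
    exact h1
  -- a basis of the kernel
  let B := Module.finBasis (R ⧸ Ideal.span {π}) (LinearMap.ker Φ)
  have hBker : ∀ i, Φ (B i : ι → R ⧸ Ideal.span {π}) = 0 := fun i => LinearMap.mem_ker.1 (B i).2
  choose c hc using fun (i : Fin (Module.finrank (R ⧸ Ideal.span {π}) (LinearMap.ker Φ)))
    (j : ι) => hf ((B i : ι → R ⧸ Ideal.span {π}) j)
  let z : Fin (Module.finrank (R ⧸ Ideal.span {π}) (LinearMap.ker Φ)) → S :=
    fun i => ∑ j, c i j • b j
  have hrepr : ∀ i j, b.repr (z i) j = c i j := by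
    intro i j
    simp only [z, map_sum, map_smul, Basis.repr_self, Finsupp.coe_finsetSum, Finset.sum_apply,
      Finsupp.smul_apply, Finsupp.single_apply, smul_eq_mul, mul_ite, mul_one, mul_zero,
      Finset.sum_ite_eq', Finset.mem_univ, if_true]
  have hzbar : ∀ i, (fun j => f (b.repr (z i) j)) = (B i : ι → R ⧸ Ideal.span {π}) := by
    intro i
    funext j
    rw [hrepr, hc]
  refine ⟨_, z, hrank, ?_, ?_, ?_⟩
  · intro i v hv
    rw [hmem v hv, ← hf0, ← hΦA (z i) ⟨v, hv⟩, hzbar, hBker]
    rfl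
  · intro g hg i
    have hzero : ∑ i, f (g i) • B i = 0 := by
      apply Subtype.ext
      rw [Submodule.coe_sum]
      funext j
      have h1 := repr_mem_span_of_mem b π _ hg j
      rw [← hf0] at h1
      simp only [Submodule.coe_smul, Finset.sum_apply, Pi.smul_apply, smul_eq_mul,
        Submodule.coe_zero, Pi.zero_apply]
      rw [← h1, map_sum, Finsupp.coe_finsetSum, Finset.sum_apply, map_sum]
      refine Finset.sum_congr rfl fun i _ => ?_
      rw [map_smul, Finsupp.smul_apply, smul_eq_mul, hrepr, map_mul, ← hc i j]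
    have h2 := Fintype.linearIndependent_iff.1 B.linearIndependent (fun i => f (g i)) hzero i
    exact (hf0 _).1 h2
  · intro x hx
    have hxker : (fun j => f (b.repr x j)) ∈ LinearMap.ker Φ := by
      rw [LinearMap.mem_ker]
      funext v
      rw [hΦA, Pi.zero_apply, hf0, ← hmem v.1 v.2]
      exact hx v.1 v.2
    choose d hd using fun i => hf (B.repr ⟨_, hxker⟩ i)
    refine ⟨d, mem_span_of_repr_mem b π _ fun j => ?_⟩
    rw [← hf0]
    have h1 : (⟨_, hxker⟩ : LinearMap.ker Φ) = ∑ i, B.repr ⟨_, hxker⟩ i • B i :=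
      (B.sum_repr _).symm
    have h2 := congrArg (fun u : LinearMap.ker Φ => (u : ι → R ⧸ Ideal.span {π}) j) h1
    simp only [Submodule.coe_sum, Submodule.coe_smul, Finset.sum_apply, Pi.smul_apply,
      smul_eq_mul] at h2
    rw [map_sub, Finsupp.sub_apply, map_sub, h2, sub_eq_zero, map_sum, Finsupp.coe_finsetSum,
      Finset.sum_apply, map_sum]
    refine Finset.sum_congr rfl fun i _ => ?_
    rw [map_smul, Finsupp.smul_apply, smul_eq_mul, hrepr, map_mul, hd, hc]

/-- The discriminant of a basis divides the discriminant of any family of the same size. -/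
theorem det_traceMatrix_dvd_of_equiv {ι' : Type*} [Fintype ι'] [DecidableEq ι']
    (b : Basis ι R S) (e : ι' ≃ ι) (w : ι' → S) :
    (Algebra.traceMatrix R b).det ∣ (Algebra.traceMatrix R w).det := by
  let P' : Matrix ι' ι' R := Matrix.of fun i' j' => b.repr (w i') (e j')
  have hP' : ∀ i' j', P' i' j' = b.repr (w i') (e j') := fun _ _ => rfl
  have hw : (P'.map (algebraMap R S)) *ᵥ (b ∘ e) = w := by
    funext i'
    simp only [Matrix.mulVec, dotProduct, Matrix.map_apply, hP', Function.comp_apply]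
    rw [Equiv.sum_comp e (fun j => algebraMap R S (b.repr (w i') j) * b j)]
    conv_rhs => rw [← b.sum_repr (w i')]
    exact Finset.sum_congr rfl fun j _ => (Algebra.smul_def _ _).symm
  have h1 := Algebra.discr_of_matrix_mulVec (A := R) (b ∘ e) P'
  have h2 : Algebra.discr R (b ∘ e) = Algebra.discr R b := by
    have := Algebra.discr_reindex R b e.symm
    simpa using this
  rw [hw, h2] at h1
  rw [← Algebra.discr_def, ← Algebra.discr_def, h1]
  exact dvd_mul_left _ _

/-- **Exactness of Dedekind's discriminant exponent in the tame case (D2).**  Let `S` be a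
Dedekind domain, free of rank `n` over the domain `R` with basis `b`, let `π ≠ 0` generate a
maximal ideal of `R`, let `T` be the set of primes of `S` above `π`, with trivial residue
extensions, and assume that the residue characteristic is `0` or `> n`.  Then
`π ^ (n - #T + 1)` does not divide the discriminant of `b`. -/
theorem not_pow_succ_dvd_det_traceMatrix (b : Basis ι R S) (π : R) (hπ0 : π ≠ 0)
    (hπ : (Ideal.span {π}).IsMaximal) (T : Finset (HeightOneSpectrum S))
    (hT : ∀ v : HeightOneSpectrum S, algebraMap R S π ∈ v.asIdeal ↔ v ∈ T)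
    (hres : ∀ v ∈ T, ∀ x : S, ∃ a : R, x - algebraMap R S a ∈ v.asIdeal)
    (hchar : ∀ m : ℕ, 0 < m → m ≤ Fintype.card ι → (m : R) ∉ Ideal.span {π}) :
    ¬ π ^ (Fintype.card ι - T.card + 1) ∣ (Algebra.traceMatrix R b).det := by
  classical
  intro hdvd
  let _ : Field (R ⧸ Ideal.span {π}) := Ideal.Quotient.field _
  let f : R →+* R ⧸ Ideal.span {π} := Ideal.Quotient.mk _
  have hf : Function.Surjective f := Ideal.Quotient.mk_surjective
  have hf0 : ∀ x : R, f x = 0 ↔ x ∈ Ideal.span {π} := fun x => Ideal.Quotient.eq_zero_iff_mem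
  obtain ⟨r, z, hcard, hzN, hli, hspan⟩ :=
    exists_adapted_family b π hπ T (fun v hv => (hT v).2 hv) hres
  have hr : Fintype.card ι - T.card = r := by omega
  rw [hr] at hdvd
  -- CRT elements
  have hy : ∀ v₀ : T, ∃ y : S, y - 1 ∈ v₀.1.asIdeal ∧ ∀ v ∈ T, v ≠ v₀.1 → y ∈ v.asIdeal :=
    fun v₀ => exists_crt_one T v₀.1 v₀.2
  choose y hy1 hy2 using hy
  have hy0 : ∀ v₀ : T, y v₀ ∉ v₀.1.asIdeal := by
    intro v₀ h
    have h1 := Ideal.sub_mem _ h (hy1 v₀)
    rw [sub_sub_cancel] at h1
    exact v₀.1.isPrime.ne_top ((Ideal.eq_top_iff_one _).2 h1)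
  -- the adapted family
  let w : T ⊕ Fin r → S := Sum.elim y z
  have hcard' : Fintype.card (T ⊕ Fin r) = Fintype.card ι := by
    rw [Fintype.card_sum, Fintype.card_coe, Fintype.card_fin, hcard]
  let e : (T ⊕ Fin r) ≃ ι := Fintype.equivOfCardEq hcard'
  have hdvd2 : π ^ (r + 1) ∣ (Algebra.traceMatrix R w).det :=
    hdvd.trans (det_traceMatrix_dvd_of_equiv b e w)
  have htrN : ∀ x : S, (∀ v ∈ T, x ∈ v.asIdeal) → Algebra.trace R S x ∈ Ideal.span {π} :=
    fun x hx => trace_mem_span_of_forall_mem b π hπ0 hπ T hT x hx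
  -- the rows `inr` of the trace matrix are divisible by `π`
  have hq : ∀ (i : Fin r) (j' : T ⊕ Fin r), ∃ q : R,
      Algebra.trace R S (z i * w j') = π * q := by
    intro i j'
    have h1 := htrN (z i * w j') (fun v hv => Ideal.mul_mem_right _ _ (hzN i v hv))
    obtain ⟨q, hq⟩ := Ideal.mem_span_singleton'.1 h1
    exact ⟨q, by rw [← hq, mul_comm]⟩
  choose q hq using hq
  let G' : Matrix (T ⊕ Fin r) (T ⊕ Fin r) R := fun i' j' =>
    Sum.elim (fun v => Algebra.trace R S (y v * w j')) (fun i => q i j') i'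
  let d : T ⊕ Fin r → R := Sum.elim (fun _ => 1) (fun _ => π)
  have hG : Algebra.traceMatrix R w = Matrix.diagonal d * G' := by
    ext i' j'
    rw [Matrix.diagonal_mul, Algebra.traceMatrix_apply, Algebra.traceForm_apply]
    rcases i' with v | i
    · simp only [d, G', w, Sum.elim_inl, one_mul]
    · simp only [d, G', w, Sum.elim_inr]
      exact hq i j'
  have hd : ∏ i', d i' = π ^ r := by
    rw [Fintype.prod_sum_type]
    simp [d]
  have hdet : (Algebra.traceMatrix R w).det = π ^ r * G'.det := by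
    rw [hG, Matrix.det_mul, Matrix.det_diagonal, hd]
  have hπG : G'.det ∈ Ideal.span {π} := by
    rw [hdet, pow_succ] at hdvd2
    obtain ⟨s, hs⟩ := hdvd2
    rw [mul_assoc] at hs
    have h1 := mul_left_cancel₀ (pow_ne_zero r hπ0) hs
    exact Ideal.mem_span_singleton'.2 ⟨s, by rw [h1, mul_comm]⟩
  -- the reduction of `G'` is nondegenerate
  have hdet0 : (G'.map f).det = 0 := by
    rw [← RingHom.mapMatrix_apply, ← RingHom.map_det, hf0]
    exact hπG
  obtain ⟨vbar, hvbar0, hvbar⟩ := Matrix.exists_vecMul_eq_zero_iff.2 hdet0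
  apply hvbar0
  choose c hc using fun i' => hf (vbar i')
  have hcol : ∀ j', ∑ i', c i' * G' i' j' ∈ Ideal.span {π} := by
    intro j'
    rw [← hf0, map_sum]
    have h1 := congrFun hvbar j'
    simp only [Matrix.vecMul, dotProduct, Matrix.map_apply, Pi.zero_apply] at h1
    rw [← h1]
    exact Finset.sum_congr rfl fun i' _ => by rw [map_mul, hc]
  set xN : S := ∑ i, c (Sum.inr i) • z i with hxN
  have hxNmem : ∀ v ∈ T, xN ∈ v.asIdeal := fun v hv =>
    Ideal.sum_mem _ fun i _ => by
      rw [Algebra.smul_def]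
      exact Ideal.mul_mem_left _ _ (hzN i v hv)
  have hxz : ∀ i₀, Algebra.trace R S (xN * z i₀) ∈ Ideal.span {π ^ 2} := by
    intro i₀
    have h1 := hcol (Sum.inr i₀)
    rw [Fintype.sum_sum_type] at h1
    simp only [G', Sum.elim_inl, Sum.elim_inr] at h1
    have h2 : ∑ v : T, c (Sum.inl v) * Algebra.trace R S (y v * w (Sum.inr i₀))
        ∈ Ideal.span {π} :=
      Ideal.sum_mem _ fun v _ => Ideal.mul_mem_left _ _
        (htrN _ (fun v' hv' => Ideal.mul_mem_left _ _ (hzN i₀ v' hv')))
    have h3 : ∑ i, c (Sum.inr i) * q i (Sum.inr i₀) ∈ Ideal.span {π} := by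
      have h4 := Ideal.sub_mem _ h1 h2
      rwa [add_sub_cancel_left] at h4
    obtain ⟨s, hs⟩ := Ideal.mem_span_singleton'.1 h3
    refine Ideal.mem_span_singleton'.2 ⟨s, ?_⟩
    rw [hxN, Finset.sum_mul, map_sum]
    have h5 : ∀ i, Algebra.trace R S (c (Sum.inr i) • z i * z i₀)
        = π * (c (Sum.inr i) * q i (Sum.inr i₀)) := by
      intro i
      rw [smul_mul_assoc, map_smul, smul_eq_mul]
      have h6 := hq i (Sum.inr i₀)
      simp only [w, Sum.elim_inr] at h6
      rw [h6]
      ring
    simp only [h5]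
    rw [← Finset.mul_sum, ← hs]
    ring
  have hxall : ∀ z' : S, (∀ v ∈ T, z' ∈ v.asIdeal) →
      Algebra.trace R S (xN * z') ∈ Ideal.span {π ^ 2} := by
    intro z' hz'
    obtain ⟨dd, hdd⟩ := hspan z' hz'
    obtain ⟨s, hs⟩ := Ideal.mem_span_singleton'.1 hdd
    have h1 : z' = ∑ i, dd i • z i + algebraMap R S π * s := by
      rw [mul_comm, hs]
      ring
    rw [h1, mul_add, map_add]
    refine Ideal.add_mem _ ?_ ?_
    · rw [Finset.mul_sum, map_sum]
      refine Ideal.sum_mem _ fun i _ => ?_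
      rw [mul_smul_comm, map_smul, smul_eq_mul]
      exact Ideal.mul_mem_left _ _ (hxz i)
    · rw [mul_left_comm, ← Algebra.smul_def, map_smul, smul_eq_mul]
      have h2 := htrN (xN * s) (fun v hv => Ideal.mul_mem_right _ _ (hxNmem v hv))
      obtain ⟨u, hu⟩ := Ideal.mem_span_singleton'.1 h2
      exact Ideal.mem_span_singleton'.2 ⟨u, by rw [← hu]; ring⟩
  have hxNπ := mem_span_of_trace_mul_mem b π hπ0 hπ T hT hchar hres xN hxNmem hxall
  have hcN : ∀ i, c (Sum.inr i) ∈ Ideal.span {π} := hli _ hxNπ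
  have hcE : ∀ v₀ : T, c (Sum.inl v₀) ∈ Ideal.span {π} := by
    intro v₀
    have h1 := hcol (Sum.inl v₀)
    rw [Fintype.sum_sum_type] at h1
    simp only [G', Sum.elim_inl, Sum.elim_inr, w] at h1
    have h2 : ∑ i, c (Sum.inr i) * q i (Sum.inl v₀) ∈ Ideal.span {π} :=
      Ideal.sum_mem _ fun i _ => Ideal.mul_mem_right _ _ (hcN i)
    have h3 : ∑ v : T, c (Sum.inl v) * Algebra.trace R S (y v * y v₀) ∈ Ideal.span {π} := by
      have h4 := Ideal.sub_mem _ h1 h2
      rwa [add_sub_cancel_right] at h4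
    rw [← Finset.add_sum_erase Finset.univ _ (Finset.mem_univ v₀)] at h3
    have h4 : ∑ v ∈ Finset.univ.erase v₀, c (Sum.inl v) * Algebra.trace R S (y v * y v₀)
        ∈ Ideal.span {π} := by
      refine Ideal.sum_mem _ fun v hv => Ideal.mul_mem_left _ _ (htrN _ ?_)
      intro v' hv'
      have hne : v ≠ v₀ := Finset.ne_of_mem_erase hv
      by_cases h : v' = v.1
      · rw [h]
        exact Ideal.mul_mem_left _ _ (hy2 v₀ v.1 v.2 (fun h' => hne (Subtype.ext h')))
      · exact Ideal.mul_mem_right _ _ (hy2 v v' hv' h)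
    have h5 : c (Sum.inl v₀) * Algebra.trace R S (y v₀ * y v₀) ∈ Ideal.span {π} := by
      have h6 := Ideal.sub_mem _ h3 h4
      rwa [add_sub_cancel_right] at h6
    have h6 : Algebra.trace R S (y v₀ * y v₀) ∉ Ideal.span {π} := by
      refine trace_notMem_of_unit_at b π hπ0 hπ T hT hchar v₀.1 v₀.2 (hres v₀.1 v₀.2) _ ?_ ?_
      · intro h
        rcases v₀.1.isPrime.mem_or_mem h with h | h <;> exact hy0 v₀ h
      · intro v hv hne
        exact Ideal.mul_mem_left _ _ (hy2 v₀ v hv hne)
    exact (hπ.isPrime.mem_or_mem h5).resolve_right h6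
  funext i'
  rw [← hc i', Pi.zero_apply, hf0]
  rcases i' with v | i
  · exact hcE v
  · exact hcN i

end Tame

end Fermat.Agent.P2.helper18
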