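import Mathlib
import Fermat.Agent.P2.helper95_FFl2
import Fermat.Agent.P2.helper18_DedekindDisc

/-!
# P2-[RH-DS] (helper18): the discriminant side of Riemann–Hurwitz

For bases `w` of the integral closure of `k[t]` and `u` of the integral closure of `k[t⁻¹]`
in `F` related by `u i = t ^ (-d i) * w i`, the ramification of `t` is bounded by `2 ∑ d i`
(`disc_side`).  Statement fixed by helper39 (finding #903).
-/

set_option autoImplicit false
set_option linter.unusedSectionVars false
set_option linter.style.haveILetI false

namespace Fermat.Agent.P2.helper18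

open AlgebraicCurve IntermediateField
open scoped IntermediateField.algebraAdjoinAdjoin

noncomputable section

variable {k F : Type*} [Field k] [Field F] [Algebra k F]

section SubC

variable (x : F)

/-- `x - c` as an element of `k[x]`. -/
def subC (c : k) : helper95.polyRing (K := k) x :=
  helper95.xR x - algebraMap k (helper95.polyRing (K := k) x) c

@[simp] theorem coe_subC (c : k) :
    ((subC x c : helper95.polyRing (K := k) x) : F) = x - algebraMap k F c := rfl

variable {x}

theorem irreducible_subC (hx : Transcendental k x) (c : k) : Irreducible (subC x c) := by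
  let e := Polynomial.algEquivOfTranscendental k x hx
  have h : e (Polynomial.X - Polynomial.C c) = subC x c := by
    apply Subtype.ext
    simp [e, Polynomial.algEquivOfTranscendental]
  rw [← h]
  exact (MulEquiv.irreducible_iff e.toMulEquiv).mpr (Polynomial.irreducible_X_sub_C c)

theorem span_subC_isMaximal (hx : Transcendental k x) (c : k) :
    (Ideal.span {subC x c}).IsMaximal :=
  PrincipalIdealRing.isMaximal_of_irreducible (irreducible_subC hx c)

theorem subC_ne_zero (hx : Transcendental k x) (c : k) : subC x c ≠ 0 :=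
  (irreducible_subC hx c).ne_zero

theorem isCoprime_subC {c c' : k} (h : c ≠ c') : IsCoprime (subC x c) (subC x c') := by
  have hne : c' - c ≠ 0 := sub_ne_zero.2 (Ne.symm h)
  refine ⟨algebraMap k _ (c' - c)⁻¹, -algebraMap k _ (c' - c)⁻¹, ?_⟩
  have h1 : subC x c - subC x c' = algebraMap k (helper95.polyRing (K := k) x) (c' - c) := by
    simp only [subC, map_sub]
    ring
  calc algebraMap k (helper95.polyRing (K := k) x) (c' - c)⁻¹ * subC x c
        + -algebraMap k (helper95.polyRing (K := k) x) (c' - c)⁻¹ * subC x c'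
      = algebraMap k (helper95.polyRing (K := k) x) (c' - c)⁻¹ * (subC x c - subC x c') := by ring
    _ = 1 := by rw [h1, ← map_mul, inv_mul_cancel₀ hne, map_one]

end SubC

section ApplyD1

variable [IsAlgClosed k] (x : F) [FiniteDimensional k⟮x⟯ F] [Algebra.IsSeparable k⟮x⟯ F]

open Classical in
/-- The prime of the integral closure of `k[x]` attached to a place (junk value `⊤` at the
poles of `x`). -/
def primeOfPlaceT (P : Place k F) : Ideal (helper95.intClosure (K := k) x) :=
  if h : x ∈ P.toValuationSubring then helper95.primeOfPlace x P h else ⊤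

variable {x}
variable {ι : Type*} [Fintype ι] [DecidableEq ι]

/-- Dedekind's discriminant inequality at the value `c` of `x`, in the language of places. -/
theorem exists_pow_dvd_discr (hx : Transcendental k x)
    (w : Module.Basis ι (helper95.polyRing (K := k) x) (helper95.intClosure (K := k) x))
    (c : k) (Z : Finset (Place k F))
    (hZ : ∀ P : Place k F, 0 < P.ord (x - algebraMap k F c) → P ∈ Z) :
    ∃ m : ℕ, (Fintype.card ι : ℤ) - Z.card ≤ m ∧
      subC x c ^ m ∣ (Algebra.traceMatrix (helper95.polyRing (K := k) x) w).det := by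
  classical
  let T : Finset (Ideal (helper95.intClosure (K := k) x)) := Z.image (primeOfPlaceT x)
  refine ⟨Fintype.card ι - T.card, ?_, ?_⟩
  · have h1 := Finset.card_image_le (s := Z) (f := primeOfPlaceT x)
    have h2 : T.card ≤ Z.card := h1
    omega
  · refine pow_dvd_det_traceMatrix_of_primes w (subC x c) (span_subC_isMaximal hx c) T ?_ ?_
    · intro Q hQ hmem
      have hne : algebraMap (helper95.polyRing (K := k) x) (helper95.intClosure (K := k) x)
          (subC x c) ≠ 0 := by
        intro h0
        apply subC_ne_zero hx c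
        exact FaithfulSMul.algebraMap_injective _ _ (by rw [h0, map_zero])
      have hQ0 : Q ≠ ⊥ := by
        rintro rfl
        exact hne ((Submodule.mem_bot _).1 hmem)
      let v : IsDedekindDomain.HeightOneSpectrum (helper95.intClosure (K := k) x) := ⟨Q, hQ, hQ0⟩
      have hxP : x ∈ (Place.ofHeightOneSpectrum (K := k) (F := F) v).toValuationSubring := by
        rw [Place.ofHeightOneSpectrum_toValuationSubring]
        exact (Valuation.mem_valuationSubring_iff _ _).2 (v.valuation_le_one (helper95.xS x))
      have hprime : helper95.primeOfPlace x (Place.ofHeightOneSpectrum (K := k) v) hxP = Q :=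
        helper95.primeOfPlace_ofHeightOneSpectrum x v hxP
      have hord : 0 < (Place.ofHeightOneSpectrum (K := k) (F := F) v).ord
          (x - algebraMap k F c) := by
        rw [← hprime, helper95.mem_primeOfPlace] at hmem
        rcases hmem with h0 | h0
        · exact absurd h0 hne
        · exact h0
      refine Finset.mem_image.2 ⟨Place.ofHeightOneSpectrum (K := k) v, hZ _ hord, ?_⟩
      rw [primeOfPlaceT, dif_pos hxP, hprime]
    · intro Q hQ s
      obtain ⟨P, -, rfl⟩ := Finset.mem_image.1 hQ
      by_cases h : x ∈ P.toValuationSubring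
      · rw [primeOfPlaceT, dif_pos h]
        have hs := helper95.intClosure_mem x P h s
        have hord := helper95.place_ord_nonneg_of_mem P hs
        obtain ⟨a, ha⟩ := Fermat.Agent.S24.helper82.ff_exists_residue x hx P (s : F) hord
        refine ⟨algebraMap k (helper95.polyRing (K := k) x) a, ?_⟩
        rw [helper95.mem_primeOfPlace]
        rcases ha with ha | ha
        · left
          apply Subtype.ext
          show (s : F) - algebraMap k F a = 0
          rw [ha, sub_self]
        · right
          exact ha
      · rw [primeOfPlaceT, dif_neg h]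
        exact ⟨0, Submodule.mem_top⟩

end ApplyD1

section TraceF

variable (x : F) [FiniteDimensional k⟮x⟯ F] [Algebra.IsSeparable k⟮x⟯ F]
variable {ι : Type*} [Fintype ι] [DecidableEq ι]

/-- The Gram matrix of the trace form of `F / k(x)` on a family, with values in `F`. -/
def gramF (E : IntermediateField k F) [FiniteDimensional E F] (b : ι → F) : Matrix ι ι F :=
  fun i j => ((Algebra.trace E F (b i * b j) : E) : F)

theorem gramF_congr {E₁ E₂ : IntermediateField k F} [FiniteDimensional E₁ F]
    [FiniteDimensional E₂ F] (h : E₁ = E₂) (b : ι → F) : gramF E₁ b = gramF E₂ b := by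
  subst h
  rfl

/-- Scaling the family by elements of the base field scales the Gram matrix. -/
theorem gramF_smul (E : IntermediateField k F) [FiniteDimensional E F] (b : ι → F)
    (a : ι → E) :
    gramF E (fun i => (a i : F) * b i)
      = Matrix.diagonal (fun i => (a i : F)) * gramF E b * Matrix.diagonal (fun i => (a i : F)) := by
  ext i j
  rw [Matrix.mul_diagonal, Matrix.diagonal_mul]
  simp only [gramF]
  have h1 : (a i : F) * b i * ((a j : F) * b j) = (a i * a j) • (b i * b j) := by
    rw [Algebra.smul_def]
    show _ = ((a i * a j : E) : F) * _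
    push_cast
    ring
  rw [h1, map_smul, smul_eq_mul]
  push_cast
  ring

variable {x}

/-- The discriminant of a basis of the integral closure, computed in `F`. -/
theorem coe_discr_eq_det_gramF
    (w : Module.Basis ι (helper95.polyRing (K := k) x) (helper95.intClosure (K := k) x)) :
    (((Algebra.traceMatrix (helper95.polyRing (K := k) x) w).det :
        helper95.polyRing (K := k) x) : F)
      = (gramF k⟮x⟯ (fun i => ((w i : helper95.intClosure (K := k) x) : F))).det := by
  haveI : IsLocalization (Algebra.algebraMapSubmonoid (helper95.intClosure (K := k) x)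
      (nonZeroDivisors (helper95.polyRing (K := k) x))) F :=
    IsIntegralClosure.isLocalization (helper95.polyRing (K := k) x) k⟮x⟯ F
      (helper95.intClosure (K := k) x)
  have h1 := Algebra.traceMatrix_localizationLocalization (helper95.polyRing (K := k) x)
    (Rₘ := k⟮x⟯) (nonZeroDivisors (helper95.polyRing (K := k) x)) F w
  have h2 : gramF k⟮x⟯ (fun i => ((w i : helper95.intClosure (K := k) x) : F))
      = (algebraMap k⟮x⟯ F).mapMatrix ((algebraMap (helper95.polyRing (K := k) x) k⟮x⟯).mapMatrix
          (Algebra.traceMatrix (helper95.polyRing (K := k) x) w)) := by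
    rw [← h1]
    ext i j
    simp only [gramF, RingHom.mapMatrix_apply, Matrix.map_apply, Algebra.traceMatrix_apply,
      Algebra.traceForm_apply, Module.Basis.localizationLocalization_apply]
    rfl
  rw [h2, ← RingHom.map_det, ← RingHom.map_det]
  rfl

/-- The discriminant of a basis of the integral closure is nonzero. -/
theorem discr_ne_zero
    (w : Module.Basis ι (helper95.polyRing (K := k) x) (helper95.intClosure (K := k) x)) :
    (Algebra.traceMatrix (helper95.polyRing (K := k) x) w).det ≠ 0 := by
  haveI : IsLocalization (Algebra.algebraMapSubmonoid (helper95.intClosure (K := k) x)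
      (nonZeroDivisors (helper95.polyRing (K := k) x))) F :=
    IsIntegralClosure.isLocalization (helper95.polyRing (K := k) x) k⟮x⟯ F
      (helper95.intClosure (K := k) x)
  have h1 := Algebra.discr_localizationLocalization (helper95.polyRing (K := k) x)
    (Rₘ := k⟮x⟯) (nonZeroDivisors (helper95.polyRing (K := k) x)) F w
  have h2 := Algebra.discr_not_zero_of_basis k⟮x⟯
    (w.localizationLocalization k⟮x⟯ (nonZeroDivisors (helper95.polyRing (K := k) x)) F)
  intro h0
  apply h2
  rw [h1, Algebra.discr_def, h0, map_zero]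

end TraceF

section Orders

open Polynomial

variable (P : Place k F)

/-- The order of a finite product of nonzero functions. -/
theorem ord_prod {ι : Type*} (s : Finset ι) (f : ι → F) (hf : ∀ i ∈ s, f i ≠ 0) :
    P.ord (∏ i ∈ s, f i) = ∑ i ∈ s, P.ord (f i) := by
  classical
  induction s using Finset.induction_on with
  | empty => simp
  | insert a s ha ih =>
    rw [Finset.prod_insert ha, Finset.sum_insert ha,
      P.ord_mul (hf a (Finset.mem_insert_self a s))
        (Finset.prod_ne_zero_iff.2 fun i hi => hf i (Finset.mem_insert_of_mem hi)),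
      ih fun i hi => hf i (Finset.mem_insert_of_mem hi)]

theorem ord_pow (f : F) (m : ℕ) : P.ord (f ^ m) = m * P.ord f := by
  rw [← zpow_natCast, P.ord_zpow]

/-- Polynomials in an element of the valuation ring lie in the valuation ring. -/
theorem aeval_mem_of_mem {y : F} (hy : y ∈ P.toValuationSubring) (p : k[X]) :
    aeval y p ∈ P.toValuationSubring := by
  let Ow : Subalgebra k F :=
    { P.toValuationSubring.toSubring with
      algebraMap_mem' := P.algebraMap_mem' }
  have h : Algebra.adjoin k {y} ≤ Ow := Algebra.adjoin_le (by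
    rintro z (rfl : z = y)
    exact hy)
  exact h (aeval_mem_adjoin_singleton k y)

/-- A polynomial in `t⁻¹` with nonzero constant term is a unit at a pole of `t`. -/
theorem adicValuation_aeval_inv_eq_one {t : F} (ht : P.ord t < 0) (r : k[X])
    (hr : r.coeff 0 ≠ 0) : P.adicValuation (aeval t⁻¹ r) = 1 := by
  have ht0 : t ≠ 0 := Fermat.Agent.S24.helper55.ne_zero_of_ord_neg P ht
  have hs : 0 < P.ord t⁻¹ := by rw [P.ord_inv]; omega
  have hsmem : t⁻¹ ∈ P.toValuationSubring := helper95.place_mem_of_ord_nonneg P hs.le
  have hv : P.adicValuation (aeval t⁻¹ r) = 1 := by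
    conv_lhs => rw [← divX_mul_X_add r]
    rw [map_add, map_mul, aeval_X, aeval_C]
    have h1 : P.adicValuation (algebraMap k F (r.coeff 0)) = 1 :=
      Fermat.Agent.S24.helper55.adicValuation_algebraMap P hr
    have h2 : P.adicValuation (aeval t⁻¹ r.divX * t⁻¹) < 1 := by
      rw [map_mul]
      have h3 : P.adicValuation (aeval t⁻¹ r.divX) ≤ 1 := by
        exact P.adicValuation_le_one_of_mem (aeval_mem_of_mem P hsmem _)
      have h4 : P.adicValuation t⁻¹ < 1 :=
        (Fermat.Agent.S24.helper55.ord_pos_iff P (inv_ne_zero ht0)).1 hs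
      calc P.adicValuation (aeval t⁻¹ r.divX) * P.adicValuation t⁻¹
          ≤ 1 * P.adicValuation t⁻¹ := by gcongr
        _ = P.adicValuation t⁻¹ := one_mul _
        _ < 1 := h4
    rw [Valuation.map_add_eq_of_lt_right _ (by rw [h1]; exact h2), h1]
  exact hv

/-- The order of a nonzero polynomial in `t` at a pole of `t`. -/
theorem ord_aeval_of_pole {t : F} (ht : P.ord t < 0) (q : k[X]) (hq : q ≠ 0) :
    P.ord (aeval t q) = q.natDegree * P.ord t := by
  have ht0 : t ≠ 0 := Fermat.Agent.S24.helper55.ne_zero_of_ord_neg P ht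
  letI : Invertible t := invertibleOfNonzero ht0
  have h1 := eval₂_reverse_mul_pow (algebraMap k F) t q
  rw [invOf_eq_inv] at h1
  have hv : P.adicValuation (aeval t⁻¹ q.reverse) = 1 :=
    adicValuation_aeval_inv_eq_one P ht q.reverse (by
      rw [coeff_zero_reverse]
      exact leadingCoeff_ne_zero.2 hq)
  have h2 : P.ord (aeval t⁻¹ q.reverse) = 0 := by
    simp [Place.ord, hv]
  have h3 : aeval t⁻¹ q.reverse ≠ 0 := by
    intro h0
    rw [h0, map_zero] at hv
    exact zero_ne_one hv
  rw [aeval_def, ← h1, ← aeval_def, P.ord_mul h3 (pow_ne_zero _ ht0), h2, zero_add, ord_pow]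

end Orders

section PolySide

open Polynomial

/-- If pairwise distinct linear factors divide `q ≠ 0` with multiplicities `m c`, then
`∑ m c ≤ deg q`. -/
theorem sum_le_natDegree_of_pow_dvd (q : k[X]) (hq : q ≠ 0) (C : Finset k) (m : k → ℕ)
    (h : ∀ c ∈ C, (X - Polynomial.C c) ^ m c ∣ q) : ∑ c ∈ C, m c ≤ q.natDegree := by
  have h1 : ∏ c ∈ C, (X - Polynomial.C c) ^ m c ∣ q := by
    refine Finset.prod_dvd_of_coprime ?_ h
    intro a _ b _ hab
    exact (isCoprime_X_sub_C_of_isUnit_sub (sub_ne_zero.2 hab).isUnit).pow
  have h2 := natDegree_le_of_dvd h1 hq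
  rw [natDegree_prod_of_monic _ _ (fun c _ => (monic_X_sub_C c).pow (m c))] at h2
  simpa [natDegree_pow, natDegree_X_sub_C] using h2

variable {x : F}

theorem algEquiv_X_sub_C (hx : Transcendental k x) (c : k) :
    Polynomial.algEquivOfTranscendental k x hx (X - Polynomial.C c) = subC x c := by
  apply Subtype.ext
  simp [Polynomial.algEquivOfTranscendental]

theorem coe_algEquiv (hx : Transcendental k x) (q : k[X]) :
    ((Polynomial.algEquivOfTranscendental k x hx q : Algebra.adjoin k {x}) : F) = aeval x q := by
  simp [Polynomial.algEquivOfTranscendental, Polynomial.aeval_subalgebra_coe]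

/-- Every nonzero element `G` of `k[x]` divisible by `(x - c) ^ m c` for `c ∈ C` is `q(x)` for a
polynomial of degree at least `∑ m c`. -/
theorem exists_poly_of_pow_dvd (hx : Transcendental k x) (G : helper95.polyRing (K := k) x)
    (hG : G ≠ 0) (C : Finset k) (m : k → ℕ) (h : ∀ c ∈ C, subC x c ^ m c ∣ G) :
    ∃ q : k[X], q ≠ 0 ∧ aeval x q = (G : F) ∧ ∑ c ∈ C, m c ≤ q.natDegree := by
  let e := Polynomial.algEquivOfTranscendental k x hx
  refine ⟨e.symm G, ?_, ?_, ?_⟩
  · intro h0
    apply hG
    have := congrArg e h0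
    rwa [AlgEquiv.apply_symm_apply, map_zero] at this
  · rw [← coe_algEquiv hx, AlgEquiv.apply_symm_apply]
  · refine sum_le_natDegree_of_pow_dvd _ ?_ C m ?_
    · intro h0
      apply hG
      have := congrArg e h0
      rwa [AlgEquiv.apply_symm_apply, map_zero] at this
    · intro c hc
      have h1 := map_dvd e.symm (h c hc)
      rwa [map_pow, ← algEquiv_X_sub_C hx c, AlgEquiv.symm_apply_apply] at h1

end PolySide

section Main

variable [IsAlgClosed k]

/-- A separating element has a pole. -/
theorem exists_pole (t : F) (ht : Transcendental k t) [FiniteDimensional k⟮t⟯ F]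
    [Algebra.IsSeparable k⟮t⟯ F] : ∃ P : Place k F, P.ord t < 0 := by
  have hsum := helper95.ffl_sum_ord_poles t ht
  have hpos : 0 < Module.finrank k⟮t⟯ F := Module.finrank_pos
  by_contra hcon
  have hempty : (helper95.ffl_finite_poles t ht).toFinset = ∅ := by
    rw [Finset.eq_empty_iff_forall_notMem]
    intro P hP
    rw [Set.Finite.mem_toFinset] at hP
    exact hcon ⟨P, hP⟩
  rw [hempty, Finset.sum_empty] at hsum
  omega

/-- **The discriminant side of Riemann–Hurwitz** (statement of helper39, finding #903). -/
theorem disc_side (t : F) (ht : Transcendental k t) [FiniteDimensional k⟮t⟯ F]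
    [Algebra.IsSeparable k⟮t⟯ F] (hs : Transcendental k t⁻¹) [FiniteDimensional k⟮t⁻¹⟯ F]
    [Algebra.IsSeparable k⟮t⁻¹⟯ F] {ι : Type*} [Fintype ι] [DecidableEq ι]
    (w : Module.Basis ι (helper95.polyRing (K := k) t) (helper95.intClosure (K := k) t))
    (u : Module.Basis ι (helper95.polyRing (K := k) t⁻¹) (helper95.intClosure (K := k) t⁻¹))
    (d : ι → ℤ)
    (huw : ∀ i, ((u i : helper95.intClosure (K := k) t⁻¹) : F)
      = t ^ (-d i) * ((w i : helper95.intClosure (K := k) t) : F))
    (C : Finset k) (Z : k → Finset (Place k F))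
    (hZ : ∀ c ∈ C, ∀ P : Place k F, 0 < P.ord (t - algebraMap k F c) → P ∈ Z c)
    (Zinf : Finset (Place k F)) (hZinf : ∀ P : Place k F, P.ord t < 0 → P ∈ Zinf) :
    ∑ c ∈ C, ((Fintype.card ι : ℤ) - (Z c).card) + ((Fintype.card ι : ℤ) - Zinf.card)
      ≤ 2 * ∑ i, d i := by
  classical
  have ht0 : t ≠ 0 := fun h => ht (h ▸ isAlgebraic_zero)
  -- the finite side
  have hfin : ∀ c : k, ∃ m : ℕ, c ∈ C → ((Fintype.card ι : ℤ) - (Z c).card ≤ m ∧
      subC t c ^ m ∣ (Algebra.traceMatrix (helper95.polyRing (K := k) t) w).det) := by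
    intro c
    by_cases hc : c ∈ C
    · obtain ⟨m, hm1, hm2⟩ := exists_pow_dvd_discr ht w c (Z c) (hZ c hc)
      exact ⟨m, fun _ => ⟨hm1, hm2⟩⟩
    · exact ⟨0, fun h => absurd h hc⟩
  choose m hm using hfin
  obtain ⟨q, hq0, hqG, hqdeg⟩ := exists_poly_of_pow_dvd ht
    (Algebra.traceMatrix (helper95.polyRing (K := k) t) w).det (discr_ne_zero w) C m
    (fun c hc => (hm c hc).2)
  -- the infinite side
  obtain ⟨minf, hminf1, hminf2⟩ := exists_pow_dvd_discr hs u 0 Zinf (by
    intro P hP
    apply hZinf
    rw [map_zero, sub_zero, P.ord_inv] at hP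
    omega)
  obtain ⟨H1, hH1⟩ := hminf2
  have hH0 := discr_ne_zero u
  have hH1ne : H1 ≠ 0 := by
    rintro rfl
    rw [mul_zero] at hH1
    exact hH0 hH1
  -- a pole of `t`
  obtain ⟨P, hP⟩ := exists_pole t ht
  have hsord : 0 < P.ord t⁻¹ := by rw [P.ord_inv]; omega
  have hsmem : t⁻¹ ∈ P.toValuationSubring := helper95.place_mem_of_ord_nonneg P hsord.le
  -- the order of the discriminant of `w` at `P`
  have hordG : P.ord (((Algebra.traceMatrix (helper95.polyRing (K := k) t) w).det :
      helper95.polyRing (K := k) t) : F) = q.natDegree * P.ord t := by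
    rw [← hqG]
    exact ord_aeval_of_pole P hP q hq0
  -- the order of the discriminant of `u` at `P`
  have hordH : (minf : ℤ) * P.ord t⁻¹ ≤
      P.ord (((Algebra.traceMatrix (helper95.polyRing (K := k) t⁻¹) u).det :
        helper95.polyRing (K := k) t⁻¹) : F) := by
    rw [hH1]
    have h1 : ((subC (k := k) t⁻¹ 0 ^ minf * H1 : helper95.polyRing (K := k) t⁻¹) : F)
        = t⁻¹ ^ minf * (H1 : F) := by
      push_cast
      simp
    rw [h1, P.ord_mul (pow_ne_zero _ (inv_ne_zero ht0)) (by
      intro h0
      apply hH1ne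
      exact Subtype.ext h0), ord_pow]
    have h2 : 0 ≤ P.ord (H1 : F) :=
      helper95.place_ord_nonneg_of_mem P (helper95.polyRing_mem t⁻¹ P hsmem H1)
    linarith
  -- the relation between the two discriminants
  have hE : k⟮t⁻¹⟯ = k⟮t⟯ := Fermat.Agent.S24.helper55.adjoin_inv_eq t
  have hTR : (((Algebra.traceMatrix (helper95.polyRing (K := k) t⁻¹) u).det :
        helper95.polyRing (K := k) t⁻¹) : F)
      = (∏ i, t ^ (-d i)) ^ 2 *
        (((Algebra.traceMatrix (helper95.polyRing (K := k) t) w).det :
          helper95.polyRing (K := k) t) : F) := by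
    rw [coe_discr_eq_det_gramF u, coe_discr_eq_det_gramF w, gramF_congr hE]
    have hcoe : ∀ n : ℤ, (((IntermediateField.AdjoinSimple.gen k t) ^ n : k⟮t⟯) : F) = t ^ n := by
      intro n
      have h : (((IntermediateField.AdjoinSimple.gen k t) ^ n : k⟮t⟯) : F)
          = ((IntermediateField.AdjoinSimple.gen k t : k⟮t⟯) : F) ^ n :=
        map_zpow₀ (k⟮t⟯.val) (IntermediateField.AdjoinSimple.gen k t) n
      rw [h, IntermediateField.AdjoinSimple.coe_gen]
    have h1 : (fun i => ((u i : helper95.intClosure (K := k) t⁻¹) : F))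
        = fun i => (((IntermediateField.AdjoinSimple.gen k t) ^ (-d i) : k⟮t⟯) : F)
            * ((w i : helper95.intClosure (K := k) t) : F) := by
      funext i
      rw [huw i, hcoe]
    rw [h1, gramF_smul, Matrix.det_mul, Matrix.det_mul, Matrix.det_diagonal]
    simp only [hcoe]
    ring
  -- orders
  have hordprod : P.ord ((∏ i, t ^ (-d i)) ^ 2) = 2 * ∑ i, (-d i) * P.ord t := by
    rw [ord_pow, ord_prod P _ _ (fun i _ => zpow_ne_zero _ ht0)]
    simp only [P.ord_zpow]
    push_cast
    ring
  have hGne : (((Algebra.traceMatrix (helper95.polyRing (K := k) t) w).det :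
      helper95.polyRing (K := k) t) : F) ≠ 0 := by
    intro h0
    exact discr_ne_zero w (Subtype.ext h0)
  have hkey : (minf : ℤ) * P.ord t⁻¹ ≤ 2 * ∑ i, (-d i) * P.ord t + q.natDegree * P.ord t := by
    have h1 := hordH
    rw [hTR, P.ord_mul (pow_ne_zero _ (Finset.prod_ne_zero_iff.2
      fun i _ => zpow_ne_zero _ ht0)) hGne, hordprod, hordG] at h1
    exact h1
  rw [P.ord_inv] at hkey
  -- arithmetic
  have hsumd : ∑ i, (-d i) * P.ord t = -(∑ i, d i) * P.ord t := by
    rw [← Finset.sum_neg_distrib, Finset.sum_mul]
  rw [hsumd] at hkey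
  have hfinal : (minf : ℤ) + q.natDegree ≤ 2 * ∑ i, d i := by
    by_contra hcon
    have hcon' := not_le.1 hcon
    nlinarith
  have hC : ∑ c ∈ C, ((Fintype.card ι : ℤ) - (Z c).card) ≤ ∑ c ∈ C, (m c : ℤ) :=
    Finset.sum_le_sum fun c hc => (hm c hc).1
  have hqdeg' : ∑ c ∈ C, (m c : ℤ) ≤ (q.natDegree : ℤ) := by
    exact_mod_cast hqdeg
  linarith

end Main

end

end Fermat.Agent.P2.helper18
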