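import Mathlib
import Fermat.Agent.P2.helper95_FFl2
import Fermat.Agent.P2.helper18_DedekindDisc
import Fermat.Agent.P2.helper18_DedekindTame
import Fermat.Agent.P2.helper18_DiscSide

/-!
# P2-[RH-D2] (helper18): the discriminant side of Riemann–Hurwitz, equality in characteristic 0

`disc_side_eq`: in the situation of `disc_side`, if `k` has characteristic `0`, `Z c` is exactly
the set of zeros of `t - c` for `c ∈ C`, `Zinf` is exactly the set of poles of `t`, and `t` is
unramified outside `C ∪ {∞}`, then `∑ c ∈ C, (n - #Z c) + (n - #Zinf) = 2 ∑ d i`.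
-/

set_option autoImplicit false
set_option linter.unusedSectionVars false
set_option linter.style.haveILetI false

namespace Fermat.Agent.P2.helper18

open Matrix Module

section Unramified

open IsDedekindDomain WithZero

variable {R S : Type*} [CommRing R] [IsDomain R] [CommRing S] [IsDedekindDomain S] [Algebra R S]
variable {ι : Type*} [Fintype ι] [DecidableEq ι]

/-- There are at most `n` primes above `π` (trivial residue extensions). -/
theorem card_primes_le_card (b : Basis ι R S) (π : R)
    (hπ : (Ideal.span {π}).IsMaximal) (T : Finset (HeightOneSpectrum S))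
    (hT : ∀ v ∈ T, algebraMap R S π ∈ v.asIdeal)
    (hres : ∀ v ∈ T, ∀ x : S, ∃ a : R, x - algebraMap R S a ∈ v.asIdeal) :
    T.card ≤ Fintype.card ι := by
  obtain ⟨r, z, hcard, -⟩ := exists_adapted_family b π hπ T hT hres
  omega

/-- If all primes above `π` are unramified with trivial residue extension, there are exactly `n`
of them. -/
theorem card_primes_eq_card_of_unramified (b : Basis ι R S) (π : R) (hπ0 : π ≠ 0)
    (hπ : (Ideal.span {π}).IsMaximal) (T : Finset (HeightOneSpectrum S))
    (hT : ∀ v : HeightOneSpectrum S, algebraMap R S π ∈ v.asIdeal ↔ v ∈ T)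
    (hres : ∀ v ∈ T, ∀ x : S, ∃ a : R, x - algebraMap R S a ∈ v.asIdeal)
    (hunr : ∀ v ∈ T, v.intValuation (algebraMap R S π) = exp (-1 : ℤ)) :
    T.card = Fintype.card ι := by
  classical
  obtain ⟨r, z, hcard, hzN, hli, -⟩ :=
    exists_adapted_family b π hπ T (fun v hv => (hT v).2 hv) hres
  have hπS : algebraMap R S π ≠ 0 := by
    intro h0
    exact hπ0 (b.algebraMap_injective (by rw [h0, map_zero]))
  have hr : r = 0 := by
    by_contra hr0
    have hrpos : 0 < r := Nat.pos_of_ne_zero hr0
    let i₀ : Fin r := ⟨0, hrpos⟩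
    have hz : z i₀ ∈ Ideal.span {algebraMap R S π} := by
      by_contra hn
      obtain ⟨v, hπv, hlt⟩ := exists_heightOne_lt_of_notMem_span _ hπS _ hn
      have hv : v ∈ T := (hT v).1 hπv
      have h1 : v.intValuation (z i₀) ≤ exp (-((1 : ℕ) : ℤ)) := by
        rw [v.intValuation_le_pow_iff_mem, pow_one]
        exact hzN i₀ v hv
      rw [hunr v hv] at hlt
      exact absurd hlt (not_lt.2 (by simpa using h1))
    have h2 := hli (fun i => if i = i₀ then 1 else 0) (by
      simpa using hz) i₀
    rw [if_pos rfl] at h2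
    exact hπ.ne_top ((Ideal.eq_top_iff_one _).2 h2)
  omega

/-- If all primes above `π` are unramified with trivial residue extension (and the residue
characteristic is `0` or `> n`), then `π` does not divide the discriminant. -/
theorem not_dvd_det_traceMatrix_of_unramified (b : Basis ι R S) (π : R) (hπ0 : π ≠ 0)
    (hπ : (Ideal.span {π}).IsMaximal)
    (hres : ∀ v : HeightOneSpectrum S, algebraMap R S π ∈ v.asIdeal →
      ∀ x : S, ∃ a : R, x - algebraMap R S a ∈ v.asIdeal)
    (hchar : ∀ m : ℕ, 0 < m → m ≤ Fintype.card ι → (m : R) ∉ Ideal.span {π})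
    (hunr : ∀ v : HeightOneSpectrum S, algebraMap R S π ∈ v.asIdeal →
      v.intValuation (algebraMap R S π) = exp (-1 : ℤ)) :
    ¬ π ∣ (Algebra.traceMatrix R b).det := by
  classical
  have hπS : algebraMap R S π ≠ 0 := by
    intro h0
    exact hπ0 (b.algebraMap_injective (by rw [h0, map_zero]))
  have hI : (Ideal.span {algebraMap R S π} : Ideal S) ≠ 0 := by
    rw [Ne, Ideal.zero_eq_bot, Ideal.span_singleton_eq_bot]
    exact hπS
  have hfin := Ideal.finite_factors hI
  let T : Finset (HeightOneSpectrum S) := hfin.toFinset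
  have hT : ∀ v : HeightOneSpectrum S, algebraMap R S π ∈ v.asIdeal ↔ v ∈ T := by
    intro v
    simp only [T, Set.Finite.mem_toFinset, Set.mem_ofPred_eq, Ideal.dvd_span_singleton]
  have hcard := card_primes_eq_card_of_unramified b π hπ0 hπ T hT
    (fun v hv => hres v ((hT v).2 hv)) (fun v hv => hunr v ((hT v).2 hv))
  have h := not_pow_succ_dvd_det_traceMatrix b π hπ0 hπ T hT
    (fun v hv => hres v ((hT v).2 hv)) hchar
  rw [hcard, Nat.sub_self, zero_add, pow_one] at h
  exact h

end Unramified

open AlgebraicCurve IntermediateField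
open scoped IntermediateField.algebraAdjoinAdjoin

noncomputable section

variable {k F : Type*} [Field k] [Field F] [Algebra k F]

section Places

open IsDedekindDomain WithZero

variable [IsAlgClosed k] {x : F} [FiniteDimensional k⟮x⟯ F] [Algebra.IsSeparable k⟮x⟯ F]
variable {ι : Type*} [Fintype ι] [DecidableEq ι]

/-- `x` is integral at the place of a prime of the integral closure of `k[x]`. -/
theorem mem_ofHeightOneSpectrum (v : HeightOneSpectrum (helper95.intClosure (K := k) x)) :
    x ∈ (Place.ofHeightOneSpectrum (K := k) (F := F) v).toValuationSubring := by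
  rw [Place.ofHeightOneSpectrum_toValuationSubring]
  exact (Valuation.mem_valuationSubring_iff _ _).2 (v.valuation_le_one (helper95.xS x))

theorem algebraMap_subC_ne_zero (hx : Transcendental k x) (c : k) :
    algebraMap (helper95.polyRing (K := k) x) (helper95.intClosure (K := k) x) (subC x c) ≠ 0 := by
  intro h0
  apply subC_ne_zero hx c
  exact FaithfulSMul.algebraMap_injective _ _ (by rw [h0, map_zero])

/-- `x - c` lies in a prime iff it has positive order at the corresponding place. -/
theorem subC_mem_iff (hx : Transcendental k x) (c : k)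
    (v : HeightOneSpectrum (helper95.intClosure (K := k) x)) :
    algebraMap (helper95.polyRing (K := k) x) (helper95.intClosure (K := k) x) (subC x c)
        ∈ v.asIdeal
      ↔ 0 < (Place.ofHeightOneSpectrum (K := k) (F := F) v).ord (x - algebraMap k F c) := by
  rw [← helper95.primeOfPlace_ofHeightOneSpectrum x v (mem_ofHeightOneSpectrum v),
    helper95.mem_primeOfPlace]
  constructor
  · rintro (h | h)
    · exact absurd h (algebraMap_subC_ne_zero hx c)
    · exact h
  · intro h
    exact Or.inr h

/-- The residue extensions of the integral closure of `k[x]` are trivial. -/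
theorem exists_residue_heightOne (hx : Transcendental k x)
    (v : HeightOneSpectrum (helper95.intClosure (K := k) x))
    (s : helper95.intClosure (K := k) x) :
    ∃ a : helper95.polyRing (K := k) x,
      s - algebraMap (helper95.polyRing (K := k) x) (helper95.intClosure (K := k) x) a
        ∈ v.asIdeal := by
  have hxP := mem_ofHeightOneSpectrum (k := k) v
  have hs := helper95.intClosure_mem x _ hxP s
  have hord := helper95.place_ord_nonneg_of_mem _ hs
  obtain ⟨a, ha⟩ := Fermat.Agent.S24.helper82.ff_exists_residue x hx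
    (Place.ofHeightOneSpectrum (K := k) (F := F) v) (s : F) hord
  refine ⟨algebraMap k (helper95.polyRing (K := k) x) a, ?_⟩
  rw [← helper95.primeOfPlace_ofHeightOneSpectrum x v hxP, helper95.mem_primeOfPlace]
  rcases ha with ha | ha
  · left
    apply Subtype.ext
    show (s : F) - algebraMap k F a = 0
    rw [ha, sub_self]
  · right
    exact ha

/-- The valuation of `x - c` at a prime of the integral closure. -/
theorem intValuation_subC (hx : Transcendental k x) (c : k)
    (v : HeightOneSpectrum (helper95.intClosure (K := k) x)) :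
    v.intValuation
        (algebraMap (helper95.polyRing (K := k) x) (helper95.intClosure (K := k) x) (subC x c))
      = exp (-(Place.ofHeightOneSpectrum (K := k) (F := F) v).ord (x - algebraMap k F c)) := by
  have hne : x - algebraMap k F c ≠ 0 := by
    intro h0
    apply algebraMap_subC_ne_zero hx c
    apply Subtype.ext
    exact h0
  rw [← helper95.ofHeightOneSpectrum_valuation (K := k) v _ hne,
    ← HeightOneSpectrum.valuation_of_algebraMap (K := F)]
  rfl

/-- In characteristic zero positive integers are units modulo `x - c`. -/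
theorem natCast_notMem_span_subC [CharZero k] (hx : Transcendental k x) (c : k) (m : ℕ)
    (hm : 0 < m) : (m : helper95.polyRing (K := k) x) ∉ Ideal.span {subC x c} := by
  intro hmem
  have hm0 : (m : k) ≠ 0 := Nat.cast_ne_zero.2 hm.ne'
  apply (span_subC_isMaximal hx c).ne_top
  rw [Ideal.eq_top_iff_one]
  have h1 : (1 : helper95.polyRing (K := k) x)
      = algebraMap k (helper95.polyRing (K := k) x) (m : k)⁻¹ * (m : helper95.polyRing (K := k) x) := by
    rw [← map_natCast (algebraMap k (helper95.polyRing (K := k) x)), ← map_mul,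
      inv_mul_cancel₀ hm0, map_one]
  rw [h1]
  exact Ideal.mul_mem_left _ _ hmem

/-- **Exact exponent of `x - c` in the discriminant** (characteristic `0`): it is `n` minus the
number of zeros of `x - c`. -/
theorem exact_pow_discr [CharZero k] (hx : Transcendental k x)
    (w : Module.Basis ι (helper95.polyRing (K := k) x) (helper95.intClosure (K := k) x))
    (c : k) (Z : Finset (Place k F))
    (hZ : ∀ P : Place k F, P ∈ Z ↔ 0 < P.ord (x - algebraMap k F c)) :
    Z.card ≤ Fintype.card ι ∧
      subC x c ^ (Fintype.card ι - Z.card)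
        ∣ (Algebra.traceMatrix (helper95.polyRing (K := k) x) w).det ∧
      ¬ subC x c ^ (Fintype.card ι - Z.card + 1)
        ∣ (Algebra.traceMatrix (helper95.polyRing (K := k) x) w).det := by
  classical
  have hmem : ∀ P ∈ Z, x ∈ P.toValuationSubring := by
    intro P hP
    have h1 := (hZ P).1 hP
    have h2 : x - algebraMap k F c ∈ P.toValuationSubring :=
      helper95.place_mem_of_ord_nonneg P h1.le
    have h3 : algebraMap k F c ∈ P.toValuationSubring := P.algebraMap_mem' c
    have h4 := P.toValuationSubring.add_mem _ _ h2 h3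
    rwa [sub_add_cancel] at h4
  let g : {P // P ∈ Z} → HeightOneSpectrum (helper95.intClosure (K := k) x) :=
    fun P => helper95.heightOneOfPlace x P.1 (hmem P.1 P.2)
  have hg : Function.Injective g := by
    intro P P' h
    apply Subtype.ext
    have h1 := helper95.ofHeightOneSpectrum_heightOneOfPlace x P.1 (hmem P.1 P.2)
    have h2 := helper95.ofHeightOneSpectrum_heightOneOfPlace x P'.1 (hmem P'.1 P'.2)
    rw [← h1, ← h2]
    exact congrArg (Place.ofHeightOneSpectrum (K := k) (F := F)) h
  let T : Finset (HeightOneSpectrum (helper95.intClosure (K := k) x)) := Z.attach.image g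
  have hTcard : T.card = Z.card := by
    rw [Finset.card_image_of_injective _ hg, Finset.card_attach]
  have hT : ∀ v : HeightOneSpectrum (helper95.intClosure (K := k) x),
      algebraMap (helper95.polyRing (K := k) x) (helper95.intClosure (K := k) x) (subC x c)
        ∈ v.asIdeal ↔ v ∈ T := by
    intro v
    rw [subC_mem_iff hx c v]
    constructor
    · intro h
      have hP : Place.ofHeightOneSpectrum (K := k) (F := F) v ∈ Z := (hZ _).2 h
      refine Finset.mem_image.2 ⟨⟨_, hP⟩, Finset.mem_attach _ _, ?_⟩
      apply HeightOneSpectrum.ext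
      exact helper95.primeOfPlace_ofHeightOneSpectrum x v _
    · intro h
      obtain ⟨P, -, rfl⟩ := Finset.mem_image.1 h
      have h1 : Place.ofHeightOneSpectrum (K := k) (F := F) (g P) = P.1 :=
        helper95.ofHeightOneSpectrum_heightOneOfPlace x P.1 (hmem P.1 P.2)
      rw [h1]
      exact (hZ P.1).1 P.2
  have hres : ∀ v ∈ T, ∀ s : helper95.intClosure (K := k) x,
      ∃ a : helper95.polyRing (K := k) x,
        s - algebraMap (helper95.polyRing (K := k) x) (helper95.intClosure (K := k) x) a
          ∈ v.asIdeal := fun v _ s => exists_residue_heightOne hx v s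
  have hchar : ∀ m : ℕ, 0 < m → m ≤ Fintype.card ι →
      (m : helper95.polyRing (K := k) x) ∉ Ideal.span {subC x c} :=
    fun m hm _ => natCast_notMem_span_subC hx c m hm
  refine ⟨?_, ?_, ?_⟩
  · rw [← hTcard]
    exact card_primes_le_card w (subC x c) (span_subC_isMaximal hx c) T
      (fun v hv => (hT v).2 hv) hres
  · have h1 := pow_dvd_det_traceMatrix_of_primes w (subC x c) (span_subC_isMaximal hx c)
      (T.image (fun v => v.asIdeal)) (by
        intro Q hQ hmemQ
        have hQ0 : Q ≠ ⊥ := by
          rintro rfl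
          exact algebraMap_subC_ne_zero hx c ((Submodule.mem_bot _).1 hmemQ)
        exact Finset.mem_image.2 ⟨⟨Q, hQ, hQ0⟩, (hT ⟨Q, hQ, hQ0⟩).1 hmemQ, rfl⟩) (by
        intro Q hQ s
        obtain ⟨v, hv, rfl⟩ := Finset.mem_image.1 hQ
        exact hres v hv s)
    rwa [Finset.card_image_of_injective _ (fun v v' h => HeightOneSpectrum.ext h), hTcard] at h1
  · have h1 := not_pow_succ_dvd_det_traceMatrix w (subC x c) (subC_ne_zero hx c)
      (span_subC_isMaximal hx c) T hT hres hchar
    rwa [hTcard] at h1

/-- If `x - c` has only simple zeros, it does not divide the discriminant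
(characteristic `0`). -/
theorem not_subC_dvd_discr [CharZero k] (hx : Transcendental k x)
    (w : Module.Basis ι (helper95.polyRing (K := k) x) (helper95.intClosure (K := k) x))
    (c : k)
    (hunr : ∀ P : Place k F, 0 < P.ord (x - algebraMap k F c) →
      P.ord (x - algebraMap k F c) = 1) :
    ¬ subC x c ∣ (Algebra.traceMatrix (helper95.polyRing (K := k) x) w).det := by
  refine not_dvd_det_traceMatrix_of_unramified w (subC x c) (subC_ne_zero hx c)
    (span_subC_isMaximal hx c) (fun v _ s => exists_residue_heightOne hx v s)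
    (fun m hm _ => natCast_notMem_span_subC hx c m hm) ?_
  intro v hv
  rw [intValuation_subC hx c v, hunr _ ((subC_mem_iff hx c v).1 hv)]

end Places

section PolySideEq

open Polynomial

/-- For a nonzero polynomial over an algebraically closed field all of whose roots lie in `C`,
the degree is the sum of the root multiplicities over `C`. -/
theorem natDegree_eq_sum_rootMultiplicity [IsAlgClosed k] (q : k[X]) (hq : q ≠ 0)
    (C : Finset k) (hC : ∀ c : k, c ∉ C → ¬ (X - Polynomial.C c) ∣ q) :
    q.natDegree = ∑ c ∈ C, q.rootMultiplicity c := by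
  classical
  have hsplit : q.Splits := IsAlgClosed.splits q
  rw [hsplit.natDegree_eq_card_roots, ← Multiset.toFinset_sum_count_eq]
  have hsub : q.roots.toFinset ⊆ C := by
    intro a ha
    rw [Multiset.mem_toFinset, mem_roots hq] at ha
    by_contra haC
    exact hC a haC (dvd_iff_isRoot.2 ha)
  rw [Finset.sum_subset hsub]
  · exact Finset.sum_congr rfl fun c _ => count_roots q
  · intro c _ hc
    rw [Multiset.mem_toFinset] at hc
    exact Multiset.count_eq_zero_of_notMem hc

theorem rootMultiplicity_eq_of_exact (q : k[X]) (hq : q ≠ 0) (c : k) (m : ℕ)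
    (h1 : (X - Polynomial.C c) ^ m ∣ q) (h2 : ¬ (X - Polynomial.C c) ^ (m + 1) ∣ q) :
    q.rootMultiplicity c = m := by
  apply le_antisymm
  · rw [rootMultiplicity_le_iff hq]
    exact h2
  · rw [le_rootMultiplicity_iff hq]
    exact h1

variable {x : F}

/-- Divisibility by powers of `x - c` in `k[x]` and in `k[X]`. -/
theorem pow_dvd_symm_iff (hx : Transcendental k x) (G : helper95.polyRing (K := k) x) (c : k)
    (m : ℕ) :
    (X - Polynomial.C c) ^ m ∣ (Polynomial.algEquivOfTranscendental k x hx).symm G
      ↔ subC x c ^ m ∣ G := by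
  constructor
  · intro h
    have h1 := map_dvd (Polynomial.algEquivOfTranscendental k x hx) h
    rwa [map_pow, algEquiv_X_sub_C hx c, AlgEquiv.apply_symm_apply] at h1
  · intro h
    have h1 := map_dvd (Polynomial.algEquivOfTranscendental k x hx).symm h
    rwa [map_pow, ← algEquiv_X_sub_C hx c, AlgEquiv.symm_apply_apply] at h1

end PolySideEq

section MainEq

variable [IsAlgClosed k]

/-- The discriminants of the bases `w` (over `k[t]`) and `u` (over `k[t⁻¹]`) with
`u i = t ^ (-d i) * w i` differ by the factor `(∏ t ^ (-d i)) ^ 2`. -/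
theorem coe_discr_inv_eq (t : F) [FiniteDimensional k⟮t⟯ F]
    [Algebra.IsSeparable k⟮t⟯ F] [FiniteDimensional k⟮t⁻¹⟯ F]
    [Algebra.IsSeparable k⟮t⁻¹⟯ F] {ι : Type*} [Fintype ι] [DecidableEq ι]
    (w : Module.Basis ι (helper95.polyRing (K := k) t) (helper95.intClosure (K := k) t))
    (u : Module.Basis ι (helper95.polyRing (K := k) t⁻¹) (helper95.intClosure (K := k) t⁻¹))
    (d : ι → ℤ)
    (huw : ∀ i, ((u i : helper95.intClosure (K := k) t⁻¹) : F)
      = t ^ (-d i) * ((w i : helper95.intClosure (K := k) t) : F)) :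
    (((Algebra.traceMatrix (helper95.polyRing (K := k) t⁻¹) u).det :
        helper95.polyRing (K := k) t⁻¹) : F)
      = (∏ i, t ^ (-d i)) ^ 2 *
        (((Algebra.traceMatrix (helper95.polyRing (K := k) t) w).det :
          helper95.polyRing (K := k) t) : F) := by
  have hE : k⟮t⁻¹⟯ = k⟮t⟯ := Fermat.Agent.S24.helper55.adjoin_inv_eq t
  rw [coe_discr_eq_det_gramF u, coe_discr_eq_det_gramF w, gramF_congr hE]
  have hcoe : ∀ n : ℤ, (((IntermediateField.AdjoinSimple.gen k t) ^ n : k⟮t⟯) : F) = t ^ n := by
    intro n
    have h : (((IntermediateField.AdjoinSimple.gen k t) ^ n : k⟮t⟯) : F)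
        = ((IntermediateField.AdjoinSimple.gen k t : k⟮t⟯) : F) ^ n :=
      map_zpow₀ (k⟮t⟯.val) (IntermediateField.AdjoinSimple.gen k t) n
    rw [h, IntermediateField.AdjoinSimple.coe_gen]
  have h1 : (fun i => ((u i : helper95.intClosure (K := k) t⁻¹) : F))
      = fun i => (((IntermediateField.AdjoinSimple.gen k t) ^ (-d i) : k⟮t⟯) : F)
          * ((w i : helper95.intClosure (K := k) t) : F) := by
    funext i
    rw [huw i, hcoe]
  rw [h1, gramF_smul, Matrix.det_mul, Matrix.det_mul, Matrix.det_diagonal]
  simp only [hcoe]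
  ring

/-- **The discriminant side of Riemann–Hurwitz, equality in characteristic `0`.**  In the
situation of `disc_side`, if `Z c` is exactly the set of zeros of `t - c` (`c ∈ C`), `Zinf` is
exactly the set of poles of `t`, and all zeros of `t - c` are simple for `c ∉ C`, then
`∑ c ∈ C, (n - #Z c) + (n - #Zinf) = 2 ∑ d i`. -/
theorem disc_side_eq [CharZero k] (t : F) (ht : Transcendental k t) [FiniteDimensional k⟮t⟯ F]
    [Algebra.IsSeparable k⟮t⟯ F] (hs : Transcendental k t⁻¹) [FiniteDimensional k⟮t⁻¹⟯ F]
    [Algebra.IsSeparable k⟮t⁻¹⟯ F] {ι : Type*} [Fintype ι] [DecidableEq ι]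
    (w : Module.Basis ι (helper95.polyRing (K := k) t) (helper95.intClosure (K := k) t))
    (u : Module.Basis ι (helper95.polyRing (K := k) t⁻¹) (helper95.intClosure (K := k) t⁻¹))
    (d : ι → ℤ)
    (huw : ∀ i, ((u i : helper95.intClosure (K := k) t⁻¹) : F)
      = t ^ (-d i) * ((w i : helper95.intClosure (K := k) t) : F))
    (C : Finset k) (Z : k → Finset (Place k F))
    (hZ : ∀ c ∈ C, ∀ P : Place k F, P ∈ Z c ↔ 0 < P.ord (t - algebraMap k F c))
    (Zinf : Finset (Place k F)) (hZinf : ∀ P : Place k F, P ∈ Zinf ↔ P.ord t < 0)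
    (hunr : ∀ c : k, c ∉ C → ∀ P : Place k F, 0 < P.ord (t - algebraMap k F c) →
      P.ord (t - algebraMap k F c) = 1) :
    ∑ c ∈ C, ((Fintype.card ι : ℤ) - (Z c).card) + ((Fintype.card ι : ℤ) - Zinf.card)
      = 2 * ∑ i, d i := by
  classical
  have ht0 : t ≠ 0 := fun h => ht (h ▸ isAlgebraic_zero)
  have hG0 := discr_ne_zero w
  have hH0 := discr_ne_zero u
  -- the finite side
  have hq0 : (Polynomial.algEquivOfTranscendental k t ht).symm
      (Algebra.traceMatrix (helper95.polyRing (K := k) t) w).det ≠ 0 := by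
    intro h0
    apply hG0
    have h1 := congrArg (Polynomial.algEquivOfTranscendental k t ht) h0
    rwa [AlgEquiv.apply_symm_apply, map_zero] at h1
  have hqG : Polynomial.aeval t ((Polynomial.algEquivOfTranscendental k t ht).symm
      (Algebra.traceMatrix (helper95.polyRing (K := k) t) w).det)
      = (((Algebra.traceMatrix (helper95.polyRing (K := k) t) w).det :
          helper95.polyRing (K := k) t) : F) := by
    rw [← coe_algEquiv ht, AlgEquiv.apply_symm_apply]
  have hmult : ∀ c ∈ C, (Z c).card ≤ Fintype.card ι ∧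
      ((Polynomial.algEquivOfTranscendental k t ht).symm
        (Algebra.traceMatrix (helper95.polyRing (K := k) t) w).det).rootMultiplicity c
        = Fintype.card ι - (Z c).card := by
    intro c hc
    obtain ⟨h1, h2, h3⟩ := exact_pow_discr ht w c (Z c) (hZ c hc)
    exact ⟨h1, rootMultiplicity_eq_of_exact _ hq0 c _ ((pow_dvd_symm_iff ht _ c _).2 h2)
      (fun h => h3 ((pow_dvd_symm_iff ht _ c _).1 h))⟩
  have hunrC : ∀ c : k, c ∉ C → ¬ (Polynomial.X - Polynomial.C c) ∣
      (Polynomial.algEquivOfTranscendental k t ht).symm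
        (Algebra.traceMatrix (helper95.polyRing (K := k) t) w).det := by
    intro c hc h
    apply not_subC_dvd_discr ht w c (hunr c hc)
    have h' := (pow_dvd_symm_iff ht _ c 1).1 (by rwa [pow_one])
    rwa [pow_one] at h'
  have hdeg : ((((Polynomial.algEquivOfTranscendental k t ht).symm
      (Algebra.traceMatrix (helper95.polyRing (K := k) t) w).det).natDegree : ℕ) : ℤ)
      = ∑ c ∈ C, ((Fintype.card ι : ℤ) - (Z c).card) := by
    rw [natDegree_eq_sum_rootMultiplicity _ hq0 C hunrC]
    push_cast
    refine Finset.sum_congr rfl fun c hc => ?_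
    obtain ⟨h1, h2⟩ := hmult c hc
    rw [h2, Nat.cast_sub h1]
  -- the infinite side
  obtain ⟨hi1, hi2, hi3⟩ := exact_pow_discr hs u 0 Zinf (by
    intro P
    rw [hZinf, map_zero, sub_zero, P.ord_inv]
    omega)
  obtain ⟨H1, hH1⟩ := hi2
  have hH1ne : H1 ≠ 0 := by
    rintro rfl
    rw [mul_zero] at hH1
    exact hH0 hH1
  have hH1s : ¬ subC (k := k) t⁻¹ 0 ∣ H1 := by
    rintro ⟨H2, hH2⟩
    apply hi3
    rw [hH1, hH2, pow_succ]
    exact ⟨H2, (mul_assoc _ _ _).symm⟩
  have hr1 : Polynomial.aeval t⁻¹ ((Polynomial.algEquivOfTranscendental k t⁻¹ hs).symm H1)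
      = (H1 : F) := by
    rw [← coe_algEquiv hs, AlgEquiv.apply_symm_apply]
  have hr1c : ((Polynomial.algEquivOfTranscendental k t⁻¹ hs).symm H1).coeff 0 ≠ 0 := by
    intro h0
    apply hH1s
    have h1 : (Polynomial.X - Polynomial.C (0 : k)) ^ 1 ∣
        (Polynomial.algEquivOfTranscendental k t⁻¹ hs).symm H1 := by
      rw [pow_one, map_zero, sub_zero]
      exact Polynomial.X_dvd_iff.2 h0
    have h2 := (pow_dvd_symm_iff hs H1 0 1).1 h1
    rwa [pow_one] at h2
  -- a pole of `t`
  obtain ⟨P, hP⟩ := exists_pole t ht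
  have hordH1 : P.ord (H1 : F) = 0 := by
    rw [← hr1]
    have hv := adicValuation_aeval_inv_eq_one P hP _ hr1c
    simp [Place.ord, hv]
  have hH1F : (H1 : F) ≠ 0 := fun h0 => hH1ne (Subtype.ext h0)
  have hordG : P.ord (((Algebra.traceMatrix (helper95.polyRing (K := k) t) w).det :
      helper95.polyRing (K := k) t) : F)
      = ((Polynomial.algEquivOfTranscendental k t ht).symm
          (Algebra.traceMatrix (helper95.polyRing (K := k) t) w).det).natDegree * P.ord t := by
    rw [← hqG]
    exact ord_aeval_of_pole P hP _ hq0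
  have hordH : P.ord (((Algebra.traceMatrix (helper95.polyRing (K := k) t⁻¹) u).det :
        helper95.polyRing (K := k) t⁻¹) : F)
      = ((Fintype.card ι - Zinf.card : ℕ) : ℤ) * P.ord t⁻¹ := by
    rw [hH1]
    have h1 : ((subC (k := k) t⁻¹ 0 ^ (Fintype.card ι - Zinf.card) * H1 :
        helper95.polyRing (K := k) t⁻¹) : F)
        = t⁻¹ ^ (Fintype.card ι - Zinf.card) * (H1 : F) := by
      push_cast
      simp
    rw [h1, P.ord_mul (pow_ne_zero _ (inv_ne_zero ht0)) hH1F, ord_pow, hordH1, add_zero]
  have hTR := coe_discr_inv_eq t w u d huw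
  have hordprod : P.ord ((∏ i, t ^ (-d i)) ^ 2) = 2 * ∑ i, (-d i) * P.ord t := by
    rw [ord_pow, ord_prod P _ _ (fun i _ => zpow_ne_zero _ ht0)]
    simp only [P.ord_zpow]
    push_cast
    ring
  have hGne : (((Algebra.traceMatrix (helper95.polyRing (K := k) t) w).det :
      helper95.polyRing (K := k) t) : F) ≠ 0 := by
    intro h0
    exact hG0 (Subtype.ext h0)
  have hkey := hordH
  rw [hTR, P.ord_mul (pow_ne_zero _ (Finset.prod_ne_zero_iff.2
    fun i _ => zpow_ne_zero _ ht0)) hGne, hordprod, hordG, P.ord_inv] at hkey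
  have hsumd : ∑ i, (-d i) * P.ord t = -(∑ i, d i) * P.ord t := by
    rw [← Finset.sum_neg_distrib, Finset.sum_mul]
  rw [hsumd, Nat.cast_sub hi1] at hkey
  have hne : P.ord t ≠ 0 := ne_of_lt hP
  have hfinal : ((Fintype.card ι : ℤ) - Zinf.card) + ((((Polynomial.algEquivOfTranscendental k t
      ht).symm (Algebra.traceMatrix (helper95.polyRing (K := k) t) w).det).natDegree : ℕ) : ℤ)
      = 2 * ∑ i, d i := by
    apply mul_right_cancel₀ hne
    linear_combination hkey
  rw [← hfinal, hdeg]
  ring

end MainEq

end

end Fermat.Agent.P2.helper18
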