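/-
helper39, P2-[RH-DW] part (N): reduced bases of `k[X]^ι` for an abstract "norm at infinity"
(Dedekind-Weber / Birkhoff-Grothendieck in norm form).
-/
import Mathlib

set_option autoImplicit false
set_option linter.unusedSectionVars false

namespace Fermat.Agent.P2.helper39

open Polynomial

/-- Axioms for the predicate `NL x d` ("the norm at infinity of `x` is at most `d`") on the free
module `ι → k[X]`. -/
structure NormData (k : Type*) [Field k] (ι : Type*) (NL : (ι → k[X]) → ℤ → Prop) : Prop where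
  zero : ∀ d, NL 0 d
  add : ∀ x y d, NL x d → NL y d → NL (x + y) d
  mono : ∀ x d d', NL x d → d ≤ d' → NL x d'
  smulC : ∀ (c : k) x d, NL x d → NL (C c • x) d
  smulX : ∀ x d, NL ((X : k[X]) • x) (d + 1) ↔ NL x d
  bdd : ∀ x, x ≠ 0 → ∀ d, NL x d → 0 ≤ d
  ex : ∀ x, ∃ d, NL x d

section Basic

variable {k : Type*} [Field k] {ι : Type*} {NL : (ι → k[X]) → ℤ → Prop}

theorem NormData.neg (h : NormData k ι NL) {x : ι → k[X]} {d : ℤ} (hx : NL x d) : NL (-x) d := by
  have := h.smulC (-1) x d hx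
  simpa using this

theorem NormData.sub (h : NormData k ι NL) {x y : ι → k[X]} {d : ℤ} (hx : NL x d)
    (hy : NL y d) : NL (x - y) d := by
  rw [sub_eq_add_neg]
  exact h.add _ _ _ hx (h.neg hy)

theorem NormData.sum (h : NormData k ι NL) {α : Type*} (s : Finset α) (f : α → ι → k[X])
    (d : ℤ) (hf : ∀ i ∈ s, NL (f i) d) : NL (∑ i ∈ s, f i) d := by
  classical
  induction s using Finset.induction_on with
  | empty => simpa using h.zero d
  | insert a s ha ih =>
    rw [Finset.sum_insert ha]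
    exact h.add _ _ _ (hf a (Finset.mem_insert_self _ _))
      (ih fun i hi => hf i (Finset.mem_insert_of_mem hi))

theorem NormData.smulXpow (h : NormData k ι NL) (x : ι → k[X]) (d : ℤ) (m : ℕ) :
    NL ((X : k[X]) ^ m • x) (d + m) ↔ NL x d := by
  induction m generalizing d with
  | zero => simp
  | succ m ih =>
    rw [pow_succ', mul_smul, Nat.cast_succ, ← add_assoc, h.smulX, ih]

theorem NormData.smul_monomial (h : NormData k ι NL) {x : ι → k[X]} {d : ℤ} (hx : NL x d)
    (c : k) (m : ℕ) : NL ((C c * X ^ m) • x) (d + m) := by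
  rw [mul_smul]
  exact h.smulC _ _ _ ((h.smulXpow x d m).mpr hx)

theorem NormData.smul_poly (h : NormData k ι NL) {x : ι → k[X]} {d : ℤ} (hx : NL x d)
    (p : k[X]) : NL (p • x) (d + p.natDegree) := by
  conv_lhs => rw [p.as_sum_range_C_mul_X_pow]
  rw [Finset.sum_smul]
  apply h.sum
  intro j hj
  have hj' : j ≤ p.natDegree := by
    have := Finset.mem_range.mp hj
    omega
  exact h.mono _ _ _ (h.smul_monomial hx _ _) (by omega)

end Basic

section Nu

variable {k : Type*} [Field k] {ι : Type*} {NL : (ι → k[X]) → ℤ → Prop}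

theorem NormData.exists_least (h : NormData k ι NL) (x : ι → k[X]) (hx : x ≠ 0) :
    ∃ d : ℤ, NL x d ∧ ∀ d', NL x d' → d ≤ d' := by
  classical
  obtain ⟨d, hd, hmin⟩ := Int.exists_least_of_bdd (P := fun d => NL x d)
    ⟨0, fun d hd => h.bdd x hx d hd⟩ (h.ex x)
  exact ⟨d, hd, hmin⟩

open Classical in
/-- The norm of a vector (`0` for the zero vector). -/
noncomputable def NormData.nu (h : NormData k ι NL) (x : ι → k[X]) : ℤ :=
  if hx : x ≠ 0 then (h.exists_least x hx).choose else 0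

theorem NormData.nu_spec (h : NormData k ι NL) {x : ι → k[X]} (hx : x ≠ 0) :
    NL x (h.nu x) ∧ ∀ d', NL x d' → h.nu x ≤ d' := by
  rw [NormData.nu, dif_pos hx]
  exact (h.exists_least x hx).choose_spec

theorem NormData.NL_nu (h : NormData k ι NL) (x : ι → k[X]) : NL x (h.nu x) := by
  by_cases hx : x = 0
  · rw [hx]
    exact h.zero _
  · exact (h.nu_spec hx).1

theorem NormData.nu_le (h : NormData k ι NL) {x : ι → k[X]} (hx : x ≠ 0) {d : ℤ}
    (hd : NL x d) : h.nu x ≤ d :=
  (h.nu_spec hx).2 d hd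

theorem NormData.nu_nonneg (h : NormData k ι NL) (x : ι → k[X]) : 0 ≤ h.nu x := by
  by_cases hx : x = 0
  · rw [NormData.nu, dif_neg (not_not.mpr hx)]
  · exact h.bdd x hx _ (h.NL_nu x)

end Nu


section Reduce

variable {k : Type*} [Field k] {ι : Type*} [Fintype ι] [DecidableEq ι]
  {NL : (ι → k[X]) → ℤ → Prop}

/-- The leading combination attached to constants `c` and a level `D`. -/
noncomputable def leadComb (h : NormData k ι NL) (U : Matrix ι ι k[X]) (c : ι → k) (D : ℤ) :
    ι → k[X] :=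
  ∑ i, (C (c i) * X ^ (D - h.nu (U i)).toNat) • U i

/-- A matrix is reduced if no leading combination of its rows drops in norm. -/
def IsReduced (h : NormData k ι NL) (U : Matrix ι ι k[X]) : Prop :=
  ∀ (c : ι → k) (D : ℤ), (∀ i, c i ≠ 0 → h.nu (U i) ≤ D) → (∃ i, c i ≠ 0 ∧ h.nu (U i) = D) →
    ¬ NL (leadComb h U c D) (D - 1)

theorem row_ne_zero {U : Matrix ι ι k[X]} (hU : IsUnit U.det) (i : ι) : U i ≠ 0 := by
  intro h0
  have : U.det = 0 := Matrix.det_eq_zero_of_row_eq_zero i (fun j => by rw [h0]; rfl)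
  rw [this] at hU
  exact not_isUnit_zero hU

/-- One reduction step. -/
theorem exists_smaller (h : NormData k ι NL) (U : Matrix ι ι k[X]) (hU : IsUnit U.det)
    (hred : ¬ IsReduced h U) :
    ∃ U' : Matrix ι ι k[X], IsUnit U'.det ∧ ∑ i, h.nu (U' i) ≤ ∑ i, h.nu (U i) - 1 := by
  classical
  simp only [IsReduced, not_forall, not_not] at hred
  obtain ⟨c, D, hle, ⟨j₀, hcj₀, hj₀⟩, hNL⟩ := hred
  let a : ι → k[X] := fun i => C (c i) * X ^ (D - h.nu (U i)).toNat
  have hy : leadComb h U c D = ∑ i, a i • U i := rfl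
  let U' : Matrix ι ι k[X] := U.updateRow j₀ (leadComb h U c D)
  have hdet : U'.det = C (c j₀) * U.det := by
    show (U.updateRow j₀ (leadComb h U c D)).det = _
    rw [hy, Matrix.det_updateRow_sum, smul_eq_mul]
    simp only [a, hj₀, sub_self, Int.toNat_zero, pow_zero, mul_one]
  have hU' : IsUnit U'.det := by
    rw [hdet]
    exact (Polynomial.isUnit_C.mpr (isUnit_iff_ne_zero.mpr hcj₀)).mul hU
  refine ⟨U', hU', ?_⟩
  have hne : ∀ i, i ≠ j₀ → h.nu (U' i) = h.nu (U i) := by
    intro i hi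
    show h.nu (U.updateRow j₀ (leadComb h U c D) i) = _
    rw [Matrix.updateRow_ne hi]
  have hj : h.nu (U' j₀) ≤ h.nu (U j₀) - 1 := by
    have hrow : U' j₀ = leadComb h U c D := Matrix.updateRow_self
    have hne0 : U' j₀ ≠ 0 := row_ne_zero hU' j₀
    rw [hj₀]
    apply h.nu_le hne0
    rw [hrow]
    exact hNL
  rw [← Finset.add_sum_erase _ _ (Finset.mem_univ j₀),
    ← Finset.add_sum_erase _ (fun i => h.nu (U i)) (Finset.mem_univ j₀)]
  have hrest : ∑ i ∈ Finset.univ.erase j₀, h.nu (U' i) =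
      ∑ i ∈ Finset.univ.erase j₀, h.nu (U i) :=
    Finset.sum_congr rfl fun i hi => hne i (Finset.ne_of_mem_erase hi)
  rw [hrest]
  omega

theorem exists_isReduced_aux (h : NormData k ι NL) (N : ℕ) :
    ∀ U : Matrix ι ι k[X], IsUnit U.det → ∑ i, h.nu (U i) ≤ N →
      ∃ U' : Matrix ι ι k[X], IsUnit U'.det ∧ IsReduced h U' := by
  induction N with
  | zero =>
    intro U hU hN
    by_cases hred : IsReduced h U
    · exact ⟨U, hU, hred⟩
    · obtain ⟨U', hU', hsum⟩ := exists_smaller h U hU hred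
      have h0 : 0 ≤ ∑ i, h.nu (U' i) := Finset.sum_nonneg fun i _ => h.nu_nonneg _
      simp only [Nat.cast_zero] at hN
      omega
  | succ N ih =>
    intro U hU hN
    by_cases hred : IsReduced h U
    · exact ⟨U, hU, hred⟩
    · obtain ⟨U', hU', hsum⟩ := exists_smaller h U hU hred
      apply ih U' hU'
      push_cast at hN
      omega

theorem exists_isReduced (h : NormData k ι NL) :
    ∃ U : Matrix ι ι k[X], IsUnit U.det ∧ IsReduced h U := by
  have h0 : 0 ≤ ∑ i, h.nu ((1 : Matrix ι ι k[X]) i) := Finset.sum_nonneg fun i _ => h.nu_nonneg _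
  refine exists_isReduced_aux h (∑ i, h.nu ((1 : Matrix ι ι k[X]) i)).toNat 1 (by simp) ?_
  rw [Int.toNat_of_nonneg h0]

end Reduce


section Orthogonal

variable {k : Type*} [Field k] {ι : Type*} [Fintype ι] [DecidableEq ι]
  {NL : (ι → k[X]) → ℤ → Prop}

/-- **Orthogonality** of a reduced matrix: the norm of a combination of the rows is the maximum
of the norms of the terms. -/
theorem IsReduced.orthogonal (h : NormData k ι NL) {U : Matrix ι ι k[X]}
    (hred : IsReduced h U) (a : ι → k[X]) (D : ℤ) (hD : NL (∑ i, a i • U i) D) :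
    ∀ i, a i ≠ 0 → ((a i).natDegree : ℤ) + h.nu (U i) ≤ D := by
  classical
  by_contra hcon
  push Not at hcon
  obtain ⟨i₀, hi₀, hlt⟩ := hcon
  let S : Finset ι := Finset.univ.filter fun i => a i ≠ 0
  have hS : S.Nonempty := ⟨i₀, by simp [S, hi₀]⟩
  let φ : ι → ℤ := fun i => ((a i).natDegree : ℤ) + h.nu (U i)
  obtain ⟨i₁, hi₁S, hmax⟩ := Finset.exists_max_image S φ hS
  have hi₁ : a i₁ ≠ 0 := by simpa [S] using hi₁S
  have hD₀gt : D < φ i₁ := lt_of_lt_of_le hlt (hmax i₀ (by simp [S, hi₀]))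
  have hNL₀ : NL (∑ i, a i • U i) (φ i₁ - 1) := h.mono _ _ _ hD (by omega)
  let c : ι → k := fun i => if a i ≠ 0 ∧ φ i = φ i₁ then (a i).leadingCoeff else 0
  have hc_ne : ∀ i, c i ≠ 0 → (a i ≠ 0 ∧ φ i = φ i₁) := by
    intro i hci
    by_contra hcon
    exact hci (if_neg hcon)
  have hc_ne' : ∀ i, a i ≠ 0 → φ i = φ i₁ → c i ≠ 0 := by
    intro i hai hφ
    simp only [c, if_pos (And.intro hai hφ)]
    exact Polynomial.leadingCoeff_ne_zero.mpr hai
  let a' : ι → k[X] := fun i => a i - C (c i) * X ^ (a i).natDegree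
  have ha' : ∀ i, NL (a' i • U i) (φ i₁ - 1) := by
    intro i
    by_cases hi : a i ≠ 0 ∧ φ i = φ i₁
    · have hci : c i = (a i).leadingCoeff := if_pos hi
      have hae : a' i = (a i).eraseLead := by
        simp only [a', hci]
        exact Polynomial.self_sub_C_mul_X_pow _
      rw [hae]
      rcases Polynomial.eraseLead_natDegree_lt_or_eraseLead_eq_zero (a i) with hdeg | h0
      · refine h.mono _ _ _ (h.smul_poly (h.NL_nu _) _) ?_
        have := hi.2
        simp only [φ] at this ⊢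
        omega
      · rw [h0, zero_smul]
        exact h.zero _
    · have hci : c i = 0 := if_neg hi
      have hae : a' i = a i := by simp [a', hci]
      rw [hae]
      by_cases h0 : a i = 0
      · rw [h0, zero_smul]
        exact h.zero _
      · have h1 : φ i ≤ φ i₁ := hmax i (by simp [S, h0])
        have h2 : φ i ≠ φ i₁ := fun e => hi ⟨h0, e⟩
        refine h.mono _ _ _ (h.smul_poly (h.NL_nu _) _) ?_
        simp only [φ] at h1 h2 ⊢
        omega
  have hy : NL (∑ i, (C (c i) * X ^ (a i).natDegree) • U i) (φ i₁ - 1) := by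
    have hsum : ∑ i, (C (c i) * X ^ (a i).natDegree) • U i =
        ∑ i, a i • U i - ∑ i, a' i • U i := by
      rw [← Finset.sum_sub_distrib]
      refine Finset.sum_congr rfl fun i _ => ?_
      simp only [a']
      rw [← sub_smul]
      congr 1
      ring
    rw [hsum]
    exact h.sub hNL₀ (h.sum _ _ _ fun i _ => ha' i)
  let I : Finset ι := Finset.univ.filter fun i => c i ≠ 0
  have hI : I.Nonempty := ⟨i₁, by simpa [I] using hc_ne' i₁ hi₁ rfl⟩
  obtain ⟨i₂, hi₂I, hmax'⟩ := Finset.exists_max_image I (fun i => h.nu (U i)) hI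
  have hci₂ : c i₂ ≠ 0 := by simpa [I] using hi₂I
  have hD'le : h.nu (U i₂) ≤ φ i₁ := by
    have := (hc_ne i₂ hci₂).2
    simp only [φ] at this ⊢
    omega
  have hyz : ∑ i, (C (c i) * X ^ (a i).natDegree) • U i =
      (X : k[X]) ^ (φ i₁ - h.nu (U i₂)).toNat • leadComb h U c (h.nu (U i₂)) := by
    rw [leadComb, Finset.smul_sum]
    refine Finset.sum_congr rfl fun i _ => ?_
    by_cases hci : c i = 0
    · simp [hci]
    · have hφ := (hc_ne i hci).2
      have hnu : h.nu (U i) ≤ h.nu (U i₂) := hmax' i (by simp [I, hci])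
      rw [smul_smul]
      congr 1
      have hexp : (a i).natDegree =
          (φ i₁ - h.nu (U i₂)).toNat + (h.nu (U i₂) - h.nu (U i)).toNat := by
        simp only [φ] at hφ hD'le ⊢
        omega
      rw [hexp, pow_add]
      ring
  rw [hyz] at hy
  have hz : NL (leadComb h U c (h.nu (U i₂))) (h.nu (U i₂) - 1) := by
    refine (h.smulXpow (leadComb h U c (h.nu (U i₂))) (h.nu (U i₂) - 1)
      (φ i₁ - h.nu (U i₂)).toNat).mp ?_
    have he : h.nu (U i₂) - 1 + ((φ i₁ - h.nu (U i₂)).toNat : ℤ) = φ i₁ - 1 := by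
      rw [Int.toNat_of_nonneg (by omega)]
      ring
    rw [he]
    exact hy
  exact hred c (h.nu (U i₂)) (fun i hci => hmax' i (by simp [I, hci])) ⟨i₂, hci₂, rfl⟩ hz

/-- **Reduced basis theorem** (Dedekind-Weber / Birkhoff-Grothendieck, norm form). -/
theorem exists_reduced (h : NormData k ι NL) :
    ∃ (U : Matrix ι ι k[X]) (d : ι → ℤ), IsUnit U.det ∧ (∀ i, 0 ≤ d i) ∧
      (∀ i, NL (U i) (d i)) ∧
      ∀ (a : ι → k[X]) (D : ℤ), NL (∑ i, a i • U i) D →
        ∀ i, a i ≠ 0 → ((a i).natDegree : ℤ) + d i ≤ D := by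
  obtain ⟨U, hU, hred⟩ := exists_isReduced h
  exact ⟨U, fun i => h.nu (U i), hU, fun i => h.nu_nonneg _, fun i => h.NL_nu _,
    hred.orthogonal h⟩

end Orthogonal

end Fermat.Agent.P2.helper39
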