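/-
helper39, P2-[RH-DW] part (A1): the norm at infinity attached to a separating element `t` of a
function field, reduced bases of the integral closure of `k[t]`, and the dimension of
`L(r (t)_∞)`.
-/
import Mathlib
import Fermat.Agent.P2.helper95_FFl2
import Fermat.Agent.P2.helper74_RiemannSep
import Fermat.Agent.P2.helper39_NormReduce

set_option autoImplicit false
set_option linter.unusedSectionVars false
set_option linter.unusedVariables false

namespace Fermat.Agent.P2.helper39

open AlgebraicCurve IntermediateField Polynomial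
open Fermat.Agent.P2.helper95

noncomputable section

section NormLe

variable {k F : Type*} [Field k] [Field F] [Algebra k F]

/-- `NormLe t f d`: at every pole `P` of `t`, `ord_P f ≥ d * ord_P t` (or `f = 0`), i.e.
`t^{-d} f` is regular at the poles of `t`. -/
def NormLe (k : Type*) {F : Type*} [Field k] [Field F] [Algebra k F] (t f : F) (d : ℤ) : Prop :=
  f = 0 ∨ ∀ P : Place k F, P.ord t < 0 → d * P.ord t ≤ P.ord f

theorem normLe_zero (t : F) (d : ℤ) : NormLe k t 0 d := Or.inl rfl

theorem NormLe.add {t f g : F} {d : ℤ} (hf : NormLe k t f d) (hg : NormLe k t g d) :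
    NormLe k t (f + g) d := by
  rcases hf with rfl | hf
  · rwa [zero_add]
  rcases hg with rfl | hg
  · rw [add_zero]
    exact Or.inr hf
  by_cases h0 : f + g = 0
  · exact Or.inl h0
  refine Or.inr fun P hP => ?_
  have := place_ord_add_ge P h0
  have h1 := hf P hP
  have h2 := hg P hP
  exact le_trans (le_min h1 h2) this

theorem NormLe.mono {t f : F} {d d' : ℤ} (hf : NormLe k t f d) (hd : d ≤ d') :
    NormLe k t f d' := by
  rcases hf with rfl | hf
  · exact Or.inl rfl
  refine Or.inr fun P hP => ?_
  have h1 := hf P hP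
  have : d' * P.ord t ≤ d * P.ord t := by nlinarith
  linarith

theorem NormLe.const_mul {t f : F} {d : ℤ} (hf : NormLe k t f d) (c : k) :
    NormLe k t (algebraMap k F c * f) d := by
  rcases hf with rfl | hf
  · rw [mul_zero]
    exact Or.inl rfl
  rcases eq_or_ne c 0 with rfl | hc
  · rw [map_zero, zero_mul]
    exact Or.inl rfl
  by_cases hf0 : f = 0
  · rw [hf0, mul_zero]
    exact Or.inl rfl
  refine Or.inr fun P hP => ?_
  have hc' : algebraMap k F c ≠ 0 := by simpa using hc
  rw [P.ord_mul hc' hf0, place_ord_algebraMap, zero_add]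
  exact hf P hP

theorem normLe_t_mul_iff {t f : F} (ht : t ≠ 0) {d : ℤ} :
    NormLe k t (t * f) (d + 1) ↔ NormLe k t f d := by
  by_cases hf0 : f = 0
  · rw [hf0, mul_zero]
    exact ⟨fun _ => Or.inl rfl, fun _ => Or.inl rfl⟩
  have htf : t * f ≠ 0 := mul_ne_zero ht hf0
  constructor
  · rintro (h | h)
    · exact absurd h htf
    · refine Or.inr fun P hP => ?_
      have := h P hP
      rw [P.ord_mul ht hf0] at this
      linarith
  · rintro (h | h)
    · exact absurd h hf0
    · refine Or.inr fun P hP => ?_
      have := h P hP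
      rw [P.ord_mul ht hf0]
      linarith

end NormLe

section Phi

variable {k F : Type*} [Field k] [Field F] [Algebra k F] {ι : Type*} [Fintype ι]

/-- The element of `F` with polynomial coordinates `a` with respect to the family `b`. -/
def phi (t : F) (b : ι → F) (a : ι → k[X]) : F := ∑ i, aeval t (a i) * b i

theorem phi_zero (t : F) (b : ι → F) : phi t b (0 : ι → k[X]) = 0 := by
  simp [phi]

theorem phi_add (t : F) (b : ι → F) (x y : ι → k[X]) :
    phi t b (x + y) = phi t b x + phi t b y := by
  simp only [phi, Pi.add_apply, map_add, add_mul, Finset.sum_add_distrib]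

theorem phi_smul (t : F) (b : ι → F) (p : k[X]) (x : ι → k[X]) :
    phi t b (p • x) = aeval t p * phi t b x := by
  simp only [phi, Pi.smul_apply, smul_eq_mul, map_mul, Finset.mul_sum, mul_assoc]

theorem phi_sum (t : F) (b : ι → F) {α : Type*} (s : Finset α) (f : α → ι → k[X]) :
    phi t b (∑ j ∈ s, f j) = ∑ j ∈ s, phi t b (f j) := by
  classical
  induction s using Finset.induction_on with
  | empty => simp [phi_zero]
  | insert a s ha ih => rw [Finset.sum_insert ha, Finset.sum_insert ha, phi_add, ih]

/-- The norm predicate on coordinate vectors. -/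
def NLphi (k : Type*) {F : Type*} [Field k] [Field F] [Algebra k F] {ι : Type*} [Fintype ι]
    (t : F) (b : ι → F) (a : ι → k[X]) (d : ℤ) : Prop :=
  NormLe k t (phi t b a) d

theorem normData_phi (hS : Fermat.Agent.P2.helper74.RiemannSetting k F) (t : F) (ht0 : t ≠ 0)
    (hpoles : {P : Place k F | P.ord t < 0}.Finite) (hpole : ∃ P : Place k F, P.ord t < 0)
    (b : ι → F) (hinj : ∀ a : ι → k[X], phi t b a = 0 → a = 0)
    (hreg : ∀ (a : ι → k[X]) (P : Place k F), 0 ≤ P.ord t → 0 ≤ P.ord (phi t b a)) :
    NormData k ι (NLphi k t b) where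
  zero d := by
    show NormLe k t (phi t b 0) d
    rw [phi_zero]
    exact normLe_zero t d
  add x y d hx hy := by
    show NormLe k t (phi t b (x + y)) d
    rw [phi_add]
    exact NormLe.add hx hy
  mono x d d' hx hd := NormLe.mono hx hd
  smulC c x d hx := by
    show NormLe k t (phi t b (C c • x)) d
    rw [phi_smul, aeval_C]
    exact NormLe.const_mul hx c
  smulX x d := by
    show NormLe k t (phi t b (X • x)) (d + 1) ↔ NormLe k t (phi t b x) d
    rw [phi_smul, aeval_X]
    exact normLe_t_mul_iff ht0
  bdd x hx d hd := by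
    by_contra hneg
    push Not at hneg
    have hf0 : phi t b x ≠ 0 := fun h => hx (hinj x h)
    rcases hd with h | h
    · exact hf0 h
    obtain ⟨D, hD, hdeg⟩ := hS.principal.exists_divisor (phi t b x) hf0
    obtain ⟨P₀, hP₀⟩ := hpole
    have hnonneg : ∀ v, 0 ≤ D v := by
      intro v
      rw [hD]
      by_cases hv : v.ord t < 0
      · have := h v hv
        nlinarith
      · exact hreg x v (not_lt.mp hv)
    have hpos : 0 < D P₀ := by
      rw [hD]
      have := h P₀ hP₀
      nlinarith
    have := Fermat.Agent.P2.helper74.degree_pos_of_pos hS.deg_one hnonneg hpos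
    omega
  ex x := by
    classical
    refine ⟨∑ P ∈ hpoles.toFinset, |P.ord (phi t b x)|, Or.inr fun P hP => ?_⟩
    have hmem : P ∈ hpoles.toFinset := by
      rw [Set.Finite.mem_toFinset]
      exact hP
    have h1 : |P.ord (phi t b x)| ≤ ∑ P ∈ hpoles.toFinset, |P.ord (phi t b x)| :=
      Finset.single_le_sum (f := fun P => |P.ord (phi t b x)|) (fun _ _ => abs_nonneg _) hmem
    have h2 : -|P.ord (phi t b x)| ≤ P.ord (phi t b x) := neg_abs_le _
    have h3 : 0 ≤ ∑ P ∈ hpoles.toFinset, |P.ord (phi t b x)| :=
      Finset.sum_nonneg fun _ _ => abs_nonneg _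
    nlinarith

end Phi

end

end Fermat.Agent.P2.helper39
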