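/-
helper39, P2-[RH-DW] part (A2): the dictionary "regular where `x` is regular => integral over
`k[x]`", and bases of the integral closure of `k[x]` in elementary (polynomial-coordinate) form.
-/
import Mathlib
import Fermat.Agent.P2.helper95_FFl2
import Fermat.Agent.P2.helper74_RiemannSep
import Fermat.Agent.P2.helper39_NormReduce
import Fermat.Agent.P2.helper39_Lattice

set_option autoImplicit false
set_option linter.unusedSectionVars false
set_option linter.unusedVariables false

namespace Fermat.Agent.P2.helper39

open AlgebraicCurve IntermediateField Polynomial IsDedekindDomain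
open Fermat.Agent.P2.helper95

noncomputable section

section Dict

variable {k F : Type*} [Field k] [Field F] [Algebra k F]

set_option synthInstance.maxHeartbeats 400000 in
/-- Dictionary, converse direction: a function regular at every place where `x` is regular is
integral over `k[x]`. -/
theorem mem_intClosure_of_forall_ord_nonneg (x : F) [FiniteDimensional k⟮x⟯ F]
    [Algebra.IsSeparable k⟮x⟯ F] (f : F)
    (h : ∀ P : Place k F, 0 ≤ P.ord x → 0 ≤ P.ord f) : f ∈ intClosure (K := k) x := by
  have key : f ∈ (algebraMap (intClosure (K := k) x) F).range := by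
    apply IsDedekindDomain.HeightOneSpectrum.mem_integers_of_valuation_le_one
    intro v
    have hx : 0 ≤ (Place.ofHeightOneSpectrum (K := k) (F := F) v).ord x := by
      apply place_ord_nonneg_of_mem
      rw [Place.ofHeightOneSpectrum_toValuationSubring, Valuation.mem_valuationSubring_iff]
      exact v.valuation_le_one (xS x)
    have hf := h _ hx
    rw [ofHeightOneSpectrum_ord] at hf
    by_cases hf0 : f = 0
    · simp [hf0]
    have hne : v.valuation F f ≠ 0 := (Valuation.ne_zero_iff _).mpr hf0
    rw [← WithZero.exp_log hne, ← WithZero.exp_zero, WithZero.exp_le_exp]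
    omega
  obtain ⟨s, hs⟩ := key
  rw [← hs]
  exact s.2

end Dict

section PhiBasis

variable {k F : Type*} [Field k] [Field F] [Algebra k F] {ι : Type*} [Fintype ι]

/-- `v` is a basis of the integral closure of `k[x]` in `F` over `k[x]`, in elementary
(polynomial-coordinate) form. -/
structure IsPhiBasis (k : Type*) {F : Type*} [Field k] [Field F] [Algebra k F] {ι : Type*}
    [Fintype ι] (x : F) [FiniteDimensional k⟮x⟯ F] [Algebra.IsSeparable k⟮x⟯ F] (v : ι → F) :
    Prop where
  mem : ∀ i, v i ∈ intClosure (K := k) x
  inj : ∀ a : ι → k[X], phi x v a = 0 → a = 0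
  surj : ∀ f : F, f ∈ intClosure (K := k) x → ∃ a : ι → k[X], phi x v a = f

variable (x : F) [FiniteDimensional k⟮x⟯ F] [Algebra.IsSeparable k⟮x⟯ F]

/-- The element of `k[x]` given by a polynomial. -/
def polyElt (p : k[X]) : polyRing (K := k) x := ⟨aeval x p, aeval_mem_polyRing p⟩

@[simp] theorem coe_polyElt (p : k[X]) : ((polyElt x p : polyRing (K := k) x) : F) = aeval x p := rfl

theorem coe_sum_smul (r : ι → polyRing (K := k) x) (s : ι → intClosure (K := k) x) :
    ((∑ i, r i • s i : intClosure (K := k) x) : F) = ∑ i, (r i : F) * (s i : F) := by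
  rw [AddSubmonoidClass.coe_finsetSum]
  rfl

theorem isPhiBasis_of_basis (hx : Transcendental k x)
    (b : Module.Basis ι (polyRing (K := k) x) (intClosure (K := k) x)) :
    IsPhiBasis k x (fun i => ((b i : intClosure (K := k) x) : F)) where
  mem i := (b i).2
  inj a ha := by
    have h1 : (∑ i, polyElt x (a i) • b i : intClosure (K := k) x) = 0 := by
      apply Subtype.ext
      rw [coe_sum_smul]
      exact ha
    have h2 := Fintype.linearIndependent_iff.mp b.linearIndependent _ h1
    funext i
    have h3 := congrArg (fun r : polyRing (K := k) x => (r : F)) (h2 i)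
    simp only [coe_polyElt, ZeroMemClass.coe_zero] at h3
    have hinj : Function.Injective (aeval (R := k) x) := transcendental_iff_injective.mp hx
    exact hinj (by rw [h3, Pi.zero_apply, map_zero])
  surj f hf := by
    have h1 := b.sum_repr ⟨f, hf⟩
    choose p hp using fun i => exists_aeval_eq (K := k) (x := x) (b.repr ⟨f, hf⟩ i)
    refine ⟨p, ?_⟩
    have h2 := congrArg (fun s : intClosure (K := k) x => (s : F)) h1
    simp only at h2
    rw [coe_sum_smul] at h2
    rw [← h2]
    exact Finset.sum_congr rfl fun i _ => by rw [hp i]

set_option synthInstance.maxHeartbeats 400000 in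
theorem exists_isPhiBasis (hx : Transcendental k x) :
    ∃ (m : ℕ) (v : Fin m → F), IsPhiBasis k x v := by
  have : Module.Free (polyRing (K := k) x) (intClosure (K := k) x) :=
    Module.free_of_finite_type_torsion_free'
  exact ⟨_, _, isPhiBasis_of_basis x hx (Module.finBasis (polyRing (K := k) x) (intClosure (K := k) x))⟩

variable {x}

theorem IsPhiBasis.exists_basis {v : ι → F} (h : IsPhiBasis k x v) :
    ∃ B : Module.Basis ι (polyRing (K := k) x) (intClosure (K := k) x),
      ∀ i, ((B i : intClosure (K := k) x) : F) = v i := by
  classical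
  let vS : ι → intClosure (K := k) x := fun i => ⟨v i, h.mem i⟩
  have hli : LinearIndependent (polyRing (K := k) x) vS := by
    rw [Fintype.linearIndependent_iff]
    intro g hg i
    choose p hp using fun i => exists_aeval_eq (K := k) (x := x) (g i)
    have h1 : phi x v p = 0 := by
      have h2 := congrArg (fun s : intClosure (K := k) x => (s : F)) hg
      simp only [ZeroMemClass.coe_zero] at h2
      rw [coe_sum_smul] at h2
      rw [← h2]
      exact Finset.sum_congr rfl fun i _ => by rw [hp i]
    have h3 := h.inj p h1
    apply Subtype.ext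
    rw [← hp i, h3]
    simp
  have hsp : ⊤ ≤ Submodule.span (polyRing (K := k) x) (Set.range vS) := by
    intro s _
    obtain ⟨a, ha⟩ := h.surj (s : F) s.2
    have h1 : s = ∑ i, polyElt x (a i) • vS i := by
      apply Subtype.ext
      rw [coe_sum_smul]
      exact ha.symm
    rw [h1]
    exact Submodule.sum_mem _ fun i _ => Submodule.smul_mem _ _ (Submodule.subset_span ⟨i, rfl⟩)
  refine ⟨Module.Basis.mk hli hsp, fun i => ?_⟩
  rw [Module.Basis.mk_apply]

end PhiBasis

end

end Fermat.Agent.P2.helper39
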