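/-
helper39, P2-[RH-DW] part (A3): existence of a reduced (Dedekind-Weber normal) basis of the
integral closure of `k[t]` in a function field `F` with separating element `t`.
-/
import Mathlib
import Fermat.Agent.P2.helper95_FFl2
import Fermat.Agent.P2.helper74_RiemannSep
import Fermat.Agent.P2.helper39_NormReduce
import Fermat.Agent.P2.helper39_Lattice
import Fermat.Agent.P2.helper39_PhiBasis

set_option autoImplicit false
set_option linter.unusedSectionVars false
set_option linter.unusedVariables false

namespace Fermat.Agent.P2.helper39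

open AlgebraicCurve IntermediateField Polynomial IsDedekindDomain
open Fermat.Agent.P2.helper95

noncomputable section

section Reduced

variable {k F : Type*} [Field k] [Field F] [Algebra k F] {ι : Type*} [Fintype ι]

theorem phi_comp (t : F) (v : ι → F) (U : Matrix ι ι k[X]) (a : ι → k[X]) :
    phi t (fun i => phi t v (U i)) a = phi t v (∑ i, a i • U i) := by
  rw [phi_sum]
  simp only [phi_smul]
  rfl

theorem sum_smul_row_eq_vecMul (U : Matrix ι ι k[X]) (a : ι → k[X]) :
    ∑ i, a i • U i = Matrix.vecMul a U := by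
  funext j
  simp [Matrix.vecMul, dotProduct, Finset.sum_apply, smul_eq_mul]

variable (t : F) [FiniteDimensional k⟮t⟯ F] [Algebra.IsSeparable k⟮t⟯ F]

theorem IsPhiBasis.phi_mem {v : ι → F} (h : IsPhiBasis k t v) (a : ι → k[X]) :
    phi t v a ∈ intClosure (K := k) t := by
  refine Subalgebra.sum_mem _ fun i _ => Subalgebra.mul_mem _ ?_ (h.mem i)
  exact Subalgebra.algebraMap_mem (intClosure (K := k) t) (polyElt t (a i))

theorem IsPhiBasis.ord_nonneg {v : ι → F} (h : IsPhiBasis k t v) (a : ι → k[X])
    (P : Place k F) (hP : 0 ≤ P.ord t) : 0 ≤ P.ord (phi t v a) :=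
  place_ord_nonneg_of_mem P
    (intClosure_mem t P (place_mem_of_ord_nonneg P hP) ⟨_, h.phi_mem t a⟩)

/-- A reduced basis of the integral closure of `k[t]`: a basis `w` together with exponents `d`
such that the norm at infinity of `∑ aᵢ(t) wᵢ` is `max (deg aᵢ + dᵢ)`. -/
structure IsReducedBasis (k : Type*) {F : Type*} [Field k] [Field F] [Algebra k F] {ι : Type*}
    [Fintype ι] (t : F) [FiniteDimensional k⟮t⟯ F] [Algebra.IsSeparable k⟮t⟯ F] (w : ι → F)
    (d : ι → ℤ) : Prop where
  basis : IsPhiBasis k t w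
  nonneg : ∀ i, 0 ≤ d i
  norm : ∀ i, NormLe k t (w i) (d i)
  orth : ∀ (a : ι → k[X]) (D : ℤ), NormLe k t (phi t w a) D →
    ∀ i, a i ≠ 0 → ((a i).natDegree : ℤ) + d i ≤ D

variable [IsAlgClosed k]

theorem exists_pole (ht : Transcendental k t) : ∃ P : Place k F, P.ord t < 0 := by
  by_contra h
  push Not at h
  have h1 := ffl_sum_ord_poles t ht
  have h2 : (ffl_finite_poles t ht).toFinset = ∅ := by
    rw [Finset.eq_empty_iff_forall_notMem]
    intro P hP
    rw [Set.Finite.mem_toFinset] at hP
    exact absurd hP (not_lt.mpr (h P))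
  rw [h2, Finset.sum_empty] at h1
  have hn : 0 < Module.finrank k⟮t⟯ F := Module.finrank_pos
  omega

theorem ne_zero_of_transcendental {t : F} (ht : Transcendental k t) : t ≠ 0 := by
  rintro rfl
  exact ht isAlgebraic_zero

theorem exists_isReducedBasis (ht : Transcendental k t) :
    ∃ (m : ℕ) (w : Fin m → F) (d : Fin m → ℤ), IsReducedBasis k t w d := by
  classical
  obtain ⟨m, v, hv⟩ := exists_isPhiBasis (k := k) t ht
  have hS := Fermat.Agent.P2.helper74.riemannSetting_of_separating t ht
  have hN : NormData k (Fin m) (NLphi k t v) :=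
    normData_phi hS t (ne_zero_of_transcendental ht) (ffl_finite_poles t ht) (exists_pole t ht) v
      hv.inj (fun a P hP => hv.ord_nonneg t a P hP)
  obtain ⟨U, d, hU, hd, hNL, horth⟩ := exists_reduced hN
  have hUunit : IsUnit U := (Matrix.isUnit_iff_isUnit_det U).mpr hU
  refine ⟨m, fun i => phi t v (U i), d, ⟨⟨fun i => hv.phi_mem t _, ?_, ?_⟩, hd, hNL, ?_⟩⟩
  · intro a ha
    rw [phi_comp] at ha
    have h1 := hv.inj _ ha
    rw [sum_smul_row_eq_vecMul] at h1
    have h2 : Matrix.vecMul a U = Matrix.vecMul 0 U := by rw [h1, Matrix.zero_vecMul]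
    exact Matrix.vecMul_injective_of_isUnit hUunit h2
  · intro f hf
    obtain ⟨p, hp⟩ := hv.surj f hf
    refine ⟨Matrix.vecMul p U⁻¹, ?_⟩
    rw [phi_comp, sum_smul_row_eq_vecMul, Matrix.vecMul_vecMul, Matrix.nonsing_inv_mul U hU,
      Matrix.vecMul_one]
    exact hp
  · intro a D hD i hi
    refine horth a D ?_ i hi
    show NormLe k t (phi t v (∑ i, a i • U i)) D
    rw [← phi_comp]
    exact hD

end Reduced

end

end Fermat.Agent.P2.helper39
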