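/-
helper39, P2-[RH-DW] part (A5): symmetric Birkhoff-Grothendieck: if `(w, d)` is a reduced basis of
the integral closure of `k[t]`, then `t ^ (-dᵢ) wᵢ` is a basis of the integral closure of
`k[t⁻¹]`.
-/
import Mathlib
import Fermat.Agent.P2.helper95_FFl2
import Fermat.Agent.P2.helper74_RiemannSep
import Fermat.Agent.P2.helper39_NormReduce
import Fermat.Agent.P2.helper39_Lattice
import Fermat.Agent.P2.helper39_PhiBasis
import Fermat.Agent.P2.helper39_Reduced
import Fermat.Agent.P2.helper39_Dim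

set_option autoImplicit false
set_option linter.unusedSectionVars false
set_option linter.unusedVariables false

namespace Fermat.Agent.P2.helper39

open AlgebraicCurve IntermediateField Polynomial IsDedekindDomain
open Fermat.Agent.P2.helper95 Fermat.Agent.P2.helper74

noncomputable section

section Reflect

variable {k F : Type*} [Field k] [Field F] [Algebra k F]

theorem aeval_reflect {x : F} (hx : x ≠ 0) (p : k[X]) (N : ℕ) (hN : p.natDegree ≤ N) :
    aeval x (reflect N p) = x ^ N * aeval x⁻¹ p := by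
  let _ : Invertible (x⁻¹) := invertibleOfNonzero (inv_ne_zero hx)
  have h := eval₂_reflect_mul_pow (algebraMap k F) x⁻¹ N p hN
  rw [invOf_eq_inv, inv_inv] at h
  rw [aeval_def, aeval_def, ← h, inv_pow]
  field_simp

end Reflect

section Inv

variable {k F : Type*} [Field k] [Field F] [Algebra k F] {ι : Type*} [Fintype ι]
variable [IsAlgClosed k]
variable {t : F} [FiniteDimensional k⟮t⟯ F] [Algebra.IsSeparable k⟮t⟯ F]

theorem IsReducedBasis.inv_mem {w : ι → F} {d : ι → ℤ} (h : IsReducedBasis k t w d)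
    (ht : Transcendental k t) [FiniteDimensional k⟮t⁻¹⟯ F] [Algebra.IsSeparable k⟮t⁻¹⟯ F]
    (i : ι) : t ^ (-d i) * w i ∈ intClosure (K := k) t⁻¹ := by
  have ht0 : t ≠ 0 := ne_zero_of_transcendental ht
  apply mem_intClosure_of_forall_ord_nonneg
  intro P hP
  rw [Place.ord_inv] at hP
  by_cases hw : w i = 0
  · rw [hw, mul_zero, Place.ord_zero]
  rw [P.ord_mul (zpow_ne_zero _ ht0) hw, Place.ord_zpow]
  rcases lt_or_eq_of_le (by omega : P.ord t ≤ 0) with hlt | heq
  · rcases h.norm i with h0 | hn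
    · exact absurd h0 hw
    · have := hn P hlt
      linarith
  · rw [heq, mul_zero, zero_add]
    exact place_ord_nonneg_of_mem P
      (intClosure_mem t P (place_mem_of_ord_nonneg P (by omega)) ⟨_, h.basis.mem i⟩)

theorem zpow_neg_eq {d : ℤ} (hd : 0 ≤ d) (t : F) : t ^ (-d) = (t ^ d.toNat)⁻¹ := by
  conv_lhs => rw [← Int.toNat_of_nonneg hd]
  rw [zpow_neg, zpow_natCast]

theorem IsReducedBasis.inv_inj {w : ι → F} {d : ι → ℤ} (h : IsReducedBasis k t w d)
    (ht : Transcendental k t) (a : ι → k[X])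
    (ha : phi t⁻¹ (fun i => t ^ (-d i) * w i) a = 0) : a = 0 := by
  classical
  have ht0 : t ≠ 0 := ne_zero_of_transcendental ht
  set e : ι → ℕ := fun i => (d i).toNat with he
  set M : ℕ := ∑ i, ((a i).natDegree + e i) with hM
  have hle : ∀ i, (a i).natDegree + e i ≤ M := fun i =>
    Finset.single_le_sum (f := fun i => (a i).natDegree + e i) (fun _ _ => Nat.zero_le _)
      (Finset.mem_univ i)
  have key : phi t w (fun i => reflect (M - e i) (a i)) = t ^ M * phi t⁻¹ (fun i => t ^ (-d i) * w i) a := by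
    simp only [phi, Finset.mul_sum]
    refine Finset.sum_congr rfl fun i _ => ?_
    have h1 := hle i
    rw [aeval_reflect ht0 (a i) (M - e i) (by omega), zpow_neg_eq (h.nonneg i)]
    have h2 : t ^ M = t ^ (M - e i) * t ^ e i := by
      rw [← pow_add]
      congr 1
      omega
    rw [h2]
    have h3 : t ^ e i ≠ 0 := pow_ne_zero _ ht0
    field_simp
    rfl
  rw [ha, mul_zero] at key
  have h4 := h.basis.inj _ key
  funext i
  have h5 := congrFun h4 i
  simp only [Pi.zero_apply] at h5
  exact reflect_eq_zero_iff.mp h5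

theorem IsReducedBasis.inv_surj {w : ι → F} {d : ι → ℤ} (h : IsReducedBasis k t w d)
    (ht : Transcendental k t) [FiniteDimensional k⟮t⁻¹⟯ F] [Algebra.IsSeparable k⟮t⁻¹⟯ F]
    (f : F) (hf : f ∈ intClosure (K := k) t⁻¹) :
    ∃ a : ι → k[X], phi t⁻¹ (fun i => t ^ (-d i) * w i) a = f := by
  classical
  have ht0 : t ≠ 0 := ne_zero_of_transcendental ht
  by_cases hf0 : f = 0
  · exact ⟨0, by rw [phi_zero, hf0]⟩
  -- regularity of `f` away from the zeros of `t`
  have hfreg : ∀ P : Place k F, P.ord t ≤ 0 → 0 ≤ P.ord f := by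
    intro P hP
    have hs : 0 ≤ P.ord t⁻¹ := by
      rw [Place.ord_inv]
      omega
    exact place_ord_nonneg_of_mem P
      (intClosure_mem t⁻¹ P (place_mem_of_ord_nonneg P hs) ⟨f, hf⟩)
  set Z : Finset (Place k F) := (ffl_finite_zeros t ht).toFinset with hZ
  set m : ℕ := ∑ P ∈ Z, (P.ord f).natAbs with hm
  have hmZ : ∀ P : Place k F, 0 < P.ord t → -(m : ℤ) ≤ P.ord f := by
    intro P hP
    have hPZ : P ∈ Z := by
      rw [hZ, Set.Finite.mem_toFinset]
      exact hP
    have h1 : (P.ord f).natAbs ≤ m :=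
      Finset.single_le_sum (f := fun P : Place k F => (P.ord f).natAbs)
        (fun _ _ => Nat.zero_le _) hPZ
    omega
  have hg0 : t ^ m * f ≠ 0 := mul_ne_zero (pow_ne_zero _ ht0) hf0
  have hord : ∀ P : Place k F, P.ord (t ^ m * f) = m * P.ord t + P.ord f := by
    intro P
    rw [P.ord_mul (pow_ne_zero _ ht0) hf0, ← zpow_natCast, Place.ord_zpow]
  have hgreg : ∀ P : Place k F, 0 ≤ P.ord t → 0 ≤ P.ord (t ^ m * f) := by
    intro P hP
    rw [hord]
    rcases lt_or_eq_of_le hP with hlt | heq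
    · have := hmZ P hlt
      nlinarith
    · rw [← heq, mul_zero, zero_add]
      exact hfreg P (by omega)
  obtain ⟨a, ha⟩ := h.basis.surj _ (mem_intClosure_of_forall_ord_nonneg t _ hgreg)
  have hNL : NormLe k t (phi t w a) m := by
    rw [ha]
    refine Or.inr fun P hP => ?_
    rw [hord]
    have := hfreg P (by omega)
    linarith
  have horth := h.orth a m hNL
  set e : ι → ℕ := fun i => (d i).toNat with he
  refine ⟨fun i => reflect (m - e i) (a i), ?_⟩
  have hfm : f = (t ^ m)⁻¹ * phi t w a := by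
    rw [ha]
    field_simp
  rw [hfm]
  simp only [phi, Finset.mul_sum]
  refine Finset.sum_congr rfl fun i _ => ?_
  by_cases hai : a i = 0
  · rw [hai, reflect_zero, map_zero, map_zero, zero_mul, zero_mul, mul_zero]
  have h1 := horth i hai
  have h2 := h.nonneg i
  have h3 : (a i).natDegree + e i ≤ m := by
    have : ((e i : ℕ) : ℤ) = d i := Int.toNat_of_nonneg h2
    omega
  rw [aeval_reflect (inv_ne_zero ht0) (a i) (m - e i) (by omega), inv_inv,
    zpow_neg_eq h2]
  have h4 : t ^ m = t ^ (m - e i) * t ^ e i := by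
    rw [← pow_add]
    congr 1
    omega
  rw [h4, inv_pow]
  have h5 : t ^ e i ≠ 0 := pow_ne_zero _ ht0
  have h6 : t ^ (m - e i) ≠ 0 := pow_ne_zero _ ht0
  field_simp
  simp only [he]
  ring

/-- **Symmetric Birkhoff-Grothendieck / Dedekind-Weber**: if `(w, d)` is a reduced basis for
`t`, then `t ^ (-dᵢ) wᵢ` is a basis of the integral closure of `k[t⁻¹]`. -/
theorem IsReducedBasis.inv {w : ι → F} {d : ι → ℤ} (h : IsReducedBasis k t w d)
    (ht : Transcendental k t) [FiniteDimensional k⟮t⁻¹⟯ F] [Algebra.IsSeparable k⟮t⁻¹⟯ F] :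
    IsPhiBasis k t⁻¹ (fun i => t ^ (-d i) * w i) where
  mem := h.inv_mem ht
  inj := h.inv_inj ht
  surj := h.inv_surj ht

end Inv

end

end Fermat.Agent.P2.helper39
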