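/-
helper39, P2-[RH-DW] part (A6): the symmetric pair of bases and the Riemann-Hurwitz inequality in
Riemann-genus form, conditional on the discriminant side (`DiscSideAt`, = helper18's `disc_side`).
-/
import Mathlib
import Fermat.Agent.P2.helper95_FFl2
import Fermat.Agent.P2.helper74_RiemannSep
import Fermat.Agent.P2.helper39_NormReduce
import Fermat.Agent.P2.helper39_Lattice
import Fermat.Agent.P2.helper39_PhiBasis
import Fermat.Agent.P2.helper39_Reduced
import Fermat.Agent.P2.helper39_Dim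
import Fermat.Agent.P2.helper39_InvBasis

set_option autoImplicit false
set_option linter.unusedSectionVars false
set_option linter.unusedVariables false

namespace Fermat.Agent.P2.helper39

open AlgebraicCurve IntermediateField Polynomial IsDedekindDomain KaehlerDifferential
open Fermat.Agent.P2.helper95 Fermat.Agent.P2.helper74

noncomputable section

section Assembly

variable {k F : Type*} [Field k] [Field F] [Algebra k F]
variable [IsAlgClosed k]

/-- The pair of bases `(w, u)` with `uᵢ = t ^ (-dᵢ) wᵢ`, `#ι = [F : k(t)]` and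
`∑ dᵢ = g + n - 1`. -/
theorem exists_symmetric_bases (t : F) (ht : Transcendental k t) [FiniteDimensional k⟮t⟯ F]
    [Algebra.IsSeparable k⟮t⟯ F] [FiniteDimensional k⟮t⁻¹⟯ F] [Algebra.IsSeparable k⟮t⁻¹⟯ F]
    {g : ℕ} (hg : HasRiemannGenus k F g) :
    ∃ (m : ℕ) (w : Module.Basis (Fin m) (polyRing (K := k) t) (intClosure (K := k) t))
      (u : Module.Basis (Fin m) (polyRing (K := k) t⁻¹) (intClosure (K := k) t⁻¹))
      (d : Fin m → ℤ),
      (∀ i, ((u i : intClosure (K := k) t⁻¹) : F)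
        = t ^ (-d i) * ((w i : intClosure (K := k) t) : F)) ∧
      (m : ℤ) = (Module.finrank k⟮t⟯ F : ℤ) ∧
      ∑ i, d i = (g : ℤ) + (Module.finrank k⟮t⟯ F : ℤ) - 1 := by
  obtain ⟨m, w, d, h⟩ := exists_isReducedBasis (k := k) t ht
  obtain ⟨W, hW⟩ := h.basis.exists_basis
  obtain ⟨U, hU⟩ := (h.inv ht).exists_basis
  obtain ⟨h1, h2⟩ := h.card_and_sum ht hg
  rw [Fintype.card_fin] at h1
  exact ⟨m, W, U, d, fun i => by rw [hU i, hW i], h1, h2⟩

/-- The discriminant side of the Riemann-Hurwitz inequality (helper18's `disc_side`), as a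
statement about one separating element `t`. -/
def DiscSideAt (k : Type*) {F : Type*} [Field k] [Field F] [Algebra k F] (t : F)
    [FiniteDimensional k⟮t⟯ F] [Algebra.IsSeparable k⟮t⟯ F] [FiniteDimensional k⟮t⁻¹⟯ F]
    [Algebra.IsSeparable k⟮t⁻¹⟯ F] : Prop :=
  ∀ (m : ℕ) (w : Module.Basis (Fin m) (polyRing (K := k) t) (intClosure (K := k) t))
    (u : Module.Basis (Fin m) (polyRing (K := k) t⁻¹) (intClosure (K := k) t⁻¹))
    (d : Fin m → ℤ),
    (∀ i, ((u i : intClosure (K := k) t⁻¹) : F)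
      = t ^ (-d i) * ((w i : intClosure (K := k) t) : F)) →
    ∀ (C : Finset k) (Z : k → Finset (Place k F)),
      (∀ c ∈ C, ∀ P : Place k F, 0 < P.ord (t - algebraMap k F c) → P ∈ Z c) →
      ∀ (Zinf : Finset (Place k F)), (∀ P : Place k F, P.ord t < 0 → P ∈ Zinf) →
        ∑ c ∈ C, ((m : ℤ) - (Z c).card) + ((m : ℤ) - Zinf.card) ≤ 2 * ∑ i, d i

theorem D_sub_const_ne_zero (t : F) (ht : Transcendental k t) [FiniteDimensional k⟮t⟯ F]
    [Algebra.IsSeparable k⟮t⟯ F] (c : k) : D k F (t - algebraMap k F c) ≠ 0 := by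
  rw [map_sub, Derivation.map_algebraMap, sub_zero]
  exact ffl_D_ne_zero t ht

theorem adjoin_sub_const (t : F) (c : k) : k⟮t - algebraMap k F c⟯ = k⟮t⟯ := by
  apply le_antisymm
  · rw [adjoin_simple_le_iff]
    exact sub_mem (mem_adjoin_simple_self k t) (IntermediateField.algebraMap_mem _ c)
  · rw [adjoin_simple_le_iff]
    have h : (t - algebraMap k F c) + algebraMap k F c ∈ k⟮t - algebraMap k F c⟯ :=
      add_mem (mem_adjoin_simple_self k _) (IntermediateField.algebraMap_mem _ c)
    simpa using h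

theorem finrank_adjoin_sub_const (t : F) (c : k) :
    Module.finrank k⟮t - algebraMap k F c⟯ F = Module.finrank k⟮t⟯ F := by
  rw [adjoin_sub_const]

/-- **Riemann-Hurwitz inequality**, assuming the discriminant side. -/
theorem hurwitz_of_discSide (t : F) (ht : Transcendental k t) [FiniteDimensional k⟮t⟯ F]
    [Algebra.IsSeparable k⟮t⟯ F] [FiniteDimensional k⟮t⁻¹⟯ F] [Algebra.IsSeparable k⟮t⁻¹⟯ F]
    (hD : DiscSideAt k t) {g : ℕ} (hg : HasRiemannGenus k F g)
    (T : Finset (Place k F)) (e : Place k F → ℤ)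
    (he : ∀ Q ∈ T, (Q.ord t < 0 ∧ e Q = -Q.ord t) ∨
      ∃ a : k, 0 < Q.ord (t - algebraMap k F a) ∧ e Q = Q.ord (t - algebraMap k F a)) :
    ∑ Q ∈ T, (e Q - 1) ≤ 2 * (g : ℤ) - 2 + 2 * (Module.finrank k⟮t⟯ F : ℤ) := by
  classical
  obtain ⟨m, w, u, d, huw, hm, hsum⟩ := exists_symmetric_bases t ht hg
  set n : ℤ := (Module.finrank k⟮t⟯ F : ℤ) with hn
  -- the fibres
  set Zinf : Finset (Place k F) := (ffl_finite_poles t ht).toFinset with hZinf
  set Z : k → Finset (Place k F) := fun c =>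
    (ffl_finite_zeros' t ht (t - algebraMap k F c) (D_sub_const_ne_zero t ht c)).toFinset with hZ
  have hmemZ : ∀ c (P : Place k F), P ∈ Z c ↔ 0 < P.ord (t - algebraMap k F c) := by
    intro c P
    rw [hZ]
    simp only [Set.Finite.mem_toFinset]
    rfl
  have hmemZinf : ∀ P : Place k F, P ∈ Zinf ↔ P.ord t < 0 := by
    intro P
    rw [hZinf, Set.Finite.mem_toFinset]
    rfl
  -- the value of `t` at a place
  set val : Place k F → k := fun Q =>
    if h : ∃ a : k, 0 < Q.ord (t - algebraMap k F a) then h.choose else 0 with hval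
  have hval_spec : ∀ (Q : Place k F) (a : k), 0 < Q.ord (t - algebraMap k F a) → val Q = a := by
    intro Q a ha
    have hex : ∃ a : k, 0 < Q.ord (t - algebraMap k F a) := ⟨a, ha⟩
    have h1 : val Q = hex.choose := by
      rw [hval]
      simp only [dif_pos hex]
    rw [h1]
    exact Fermat.Agent.S24.helper55.eq_of_ord_sub_pos Q hex.choose_spec ha
  set C : Finset k := T.image val with hC
  have hdisc := hD m w u d huw C Z (fun c _ P hP => (hmemZ c P).mpr hP) Zinf
    (fun P hP => (hmemZinf P).mpr hP)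
  rw [hm, hsum] at hdisc
  -- sums over the fibres
  have hfibre : ∀ c : k, ∑ Q ∈ Z c, (Q.ord (t - algebraMap k F c) - 1) = n - (Z c).card := by
    intro c
    rw [Finset.sum_sub_distrib, Finset.sum_const, nsmul_eq_mul, mul_one]
    have := ffl_sum_ord_zeros' t ht (t - algebraMap k F c) (D_sub_const_ne_zero t ht c)
    rw [finrank_adjoin_sub_const] at this
    rw [this]
  have hfibre_inf : ∑ Q ∈ Zinf, (-Q.ord t - 1) = n - Zinf.card := by
    rw [Finset.sum_sub_distrib, Finset.sum_const, nsmul_eq_mul, mul_one, Finset.sum_neg_distrib,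
      ffl_sum_ord_poles t ht, neg_neg]
  -- split `T`
  rw [← Finset.sum_filter_add_sum_filter_not T (fun Q => Q.ord t < 0)]
  have hpart1 : ∑ Q ∈ T with Q.ord t < 0, (e Q - 1) ≤ n - Zinf.card := by
    rw [← hfibre_inf]
    have h1 : ∑ Q ∈ T with Q.ord t < 0, (e Q - 1) = ∑ Q ∈ T with Q.ord t < 0, (-Q.ord t - 1) := by
      refine Finset.sum_congr rfl fun Q hQ => ?_
      rw [Finset.mem_filter] at hQ
      rcases he Q hQ.1 with ⟨-, h2⟩ | ⟨a, ha, -⟩
      · rw [h2]
      · exact absurd ha (Fermat.Agent.S24.helper55.not_ord_sub_pos_of_ord_neg Q a hQ.2)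
    rw [h1]
    refine Finset.sum_le_sum_of_subset_of_nonneg ?_ ?_
    · intro Q hQ
      rw [Finset.mem_filter] at hQ
      exact (hmemZinf Q).mpr hQ.2
    · intro Q hQ _
      have := (hmemZinf Q).mp hQ
      omega
  have hpart2 : ∑ Q ∈ T with ¬ Q.ord t < 0, (e Q - 1) ≤ ∑ c ∈ C, (n - (Z c).card) := by
    have hmaps : ∀ Q ∈ T.filter (fun Q => ¬ Q.ord t < 0), val Q ∈ C := by
      intro Q hQ
      rw [Finset.mem_filter] at hQ
      exact Finset.mem_image_of_mem val hQ.1
    rw [← Finset.sum_fiberwise_of_maps_to hmaps]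
    refine Finset.sum_le_sum fun c _ => ?_
    rw [← hfibre c]
    have h1 : ∑ Q ∈ (T.filter (fun Q => ¬ Q.ord t < 0)).filter (fun Q => val Q = c), (e Q - 1)
        = ∑ Q ∈ (T.filter (fun Q => ¬ Q.ord t < 0)).filter (fun Q => val Q = c),
          (Q.ord (t - algebraMap k F c) - 1) := by
      refine Finset.sum_congr rfl fun Q hQ => ?_
      rw [Finset.mem_filter, Finset.mem_filter] at hQ
      rcases he Q hQ.1.1 with ⟨h2, -⟩ | ⟨a, ha, h2⟩
      · exact absurd h2 hQ.1.2
      · have := hval_spec Q a ha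
        rw [hQ.2] at this
        rw [h2, this]
    rw [h1]
    refine Finset.sum_le_sum_of_subset_of_nonneg ?_ ?_
    · intro Q hQ
      rw [Finset.mem_filter, Finset.mem_filter] at hQ
      rcases he Q hQ.1.1 with ⟨h2, -⟩ | ⟨a, ha, h2⟩
      · exact absurd h2 hQ.1.2
      · have := hval_spec Q a ha
        rw [hQ.2] at this
        rw [hmemZ, this]
        exact ha
    · intro Q hQ _
      have := (hmemZ c Q).mp hQ
      omega
  linarith


end Assembly

end

end Fermat.Agent.P2.helper39
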