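/-
helper39, P2-[RH-DW]: the Riemann-Hurwitz inequality in Riemann-genus form, in any characteristic
and without differentials (Dedekind-Weber): lattice side (helper39) + discriminant side
(helper18).
-/
import Mathlib
import Fermat.Agent.P2.helper39_HurwitzAsm
import Fermat.Agent.P2.helper18_DiscSide

set_option autoImplicit false
set_option linter.unusedSectionVars false
set_option linter.unusedVariables false

namespace Fermat.Agent.P2.helper39

open AlgebraicCurve IntermediateField Polynomial IsDedekindDomain KaehlerDifferential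
open Fermat.Agent.P2.helper95 Fermat.Agent.P2.helper74

noncomputable section

section Hurwitz

variable {k F : Type*} [Field k] [Field F] [Algebra k F]
variable [IsAlgClosed k]

/-- The discriminant side holds (helper18). -/
theorem discSideAt (t : F) (ht : Transcendental k t) [FiniteDimensional k⟮t⟯ F]
    [Algebra.IsSeparable k⟮t⟯ F] [FiniteDimensional k⟮t⁻¹⟯ F] [Algebra.IsSeparable k⟮t⁻¹⟯ F] :
    DiscSideAt k t := by
  intro m w u d huw C Z hZ Zinf hZinf
  have hs : Transcendental k t⁻¹ :=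
    (ffl_isSeparating_of_D_ne_zero t ht t⁻¹ (D_inv_ne_zero (ffl_D_ne_zero t ht))).1
  have h := Fermat.Agent.P2.helper18.disc_side t ht hs w u d huw C Z hZ Zinf hZinf
  rwa [Fintype.card_fin] at h

/-- **Riemann-Hurwitz inequality** (Riemann-genus form, any characteristic): for a separating
element `t` of a function field `F / k` (`k` algebraically closed) of Riemann genus `g`, and any
finite set `T` of places with ramification indices `e Q` over the `t`-line,
`∑_{Q ∈ T} (e_Q - 1) ≤ 2 g - 2 + 2 [F : k(t)]`. -/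
theorem hurwitz_inequality (t : F) (ht : Transcendental k t) [FiniteDimensional k⟮t⟯ F]
    [Algebra.IsSeparable k⟮t⟯ F] {g : ℕ} (hg : HasRiemannGenus k F g)
    (T : Finset (Place k F)) (e : Place k F → ℤ)
    (he : ∀ Q ∈ T, (Q.ord t < 0 ∧ e Q = -Q.ord t) ∨
      ∃ a : k, 0 < Q.ord (t - algebraMap k F a) ∧ e Q = Q.ord (t - algebraMap k F a)) :
    ∑ Q ∈ T, (e Q - 1) ≤ 2 * (g : ℤ) - 2 + 2 * (Module.finrank k⟮t⟯ F : ℤ) := by
  obtain ⟨hs, hfd, hsep⟩ :=
    ffl_isSeparating_of_D_ne_zero t ht t⁻¹ (D_inv_ne_zero (ffl_D_ne_zero t ht))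
  exact hurwitz_of_discSide t ht (discSideAt t ht) hg T e he

/-- The same inequality in "fibre-counting" form: for finitely many values `c ∈ C`,
`∑_{c ∈ C} (n - #{zeros of t - c}) + (n - #{poles of t}) ≤ 2 g - 2 + 2 n`. -/
theorem hurwitz_inequality_fibres (t : F) (ht : Transcendental k t) [FiniteDimensional k⟮t⟯ F]
    [Algebra.IsSeparable k⟮t⟯ F] {g : ℕ} (hg : HasRiemannGenus k F g)
    (C : Finset k) (Z : k → Finset (Place k F))
    (hZ : ∀ c ∈ C, ∀ P : Place k F, 0 < P.ord (t - algebraMap k F c) → P ∈ Z c)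
    (Zinf : Finset (Place k F)) (hZinf : ∀ P : Place k F, P.ord t < 0 → P ∈ Zinf) :
    ∑ c ∈ C, ((Module.finrank k⟮t⟯ F : ℤ) - (Z c).card)
      + ((Module.finrank k⟮t⟯ F : ℤ) - Zinf.card)
      ≤ 2 * (g : ℤ) - 2 + 2 * (Module.finrank k⟮t⟯ F : ℤ) := by
  obtain ⟨hs, hfd, hsep⟩ :=
    ffl_isSeparating_of_D_ne_zero t ht t⁻¹ (D_inv_ne_zero (ffl_D_ne_zero t ht))
  obtain ⟨m, w, u, d, huw, hm, hsum⟩ := exists_symmetric_bases t ht hg
  have h := discSideAt t ht m w u d huw C Z hZ Zinf hZinf
  rw [hm, hsum] at h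
  linarith

end Hurwitz

end

end Fermat.Agent.P2.helper39
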