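/-
P2-CORE (helper29, sub-coordinator): INTERFACE of program P2-CORE (BLUEPRINT P2 v1).

Targets: `InjStatement M A m` (helper19, consumed by S18) at good levels and
`P2CoreStatement M p` (P3/Defs, consumed by P3) at good levels.

Everything in this file is a definition or a `Prop`; the packages of the blueprint prove the
`...Statement`s (for the pairs `(M, A)` listed in the blueprint).  Vocabulary:

* `Kb`, `kA A`, `FF M`, `FFb A M`, `IsGood`, `InjStatement`, `ConstBarStatement` : helper19_Wiring.
* `incl A`, `red A` : coefficientwise inclusion / reduction of integral Laurent series.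
* `IsRedOne A M f` : `f` is a quotient of two good series with the SAME reduction.
* `IsWInt A M f`   : `f` is a quotient (integral series in `F`) / (good series).
* `IsInfty P`      : the place `P` is the place at infinity (its order is the `q`-order).
* `InL E n f`      : `f ∈ E` is regular at all places except infinity and has pole order
                     at most `n` at infinity.
-/
import Mathlib
import Fermat.Agent.S18.helper19_Wiring
import Fermat.Agent.P2.helper74_Riemann
import Fermat.Agent.P3.Defs

set_option autoImplicit false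

noncomputable section

open HahnSeries IntermediateField AlgebraicCurve ModularCurve
open Fermat.Agent.S18.helper19

namespace Fermat.Agent.P2.helper29

/-! ### Vocabulary -/

/-- `A` lies over a prime not dividing the level `M`. -/
def PrimeToLevel (M : ℕ) (A : ValuationSubring Kb) : Prop :=
  ∃ ℓ : ℕ, ℓ.Prime ∧ ¬ ℓ ∣ M ∧ A.LiesOverPrime ℓ

/-- good pairs: the level is divisible by `4` or by `9` and `A` lies over a prime not dividing
the level. -/
def GoodPair (M : ℕ) (A : ValuationSubring Kb) : Prop :=
  (4 ∣ M ∨ 9 ∣ M) ∧ PrimeToLevel M A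

/-- coefficientwise inclusion `A((q)) → ℚ̄((q))` -/
abbrev incl (A : ValuationSubring Kb) : LaurentSeries A →+* LaurentSeries Kb :=
  coeffMap A.subtype

/-- coefficientwise reduction `A((q)) → k((q))` -/
abbrev red (A : ValuationSubring Kb) : LaurentSeries A →+* LaurentSeries (kA A) :=
  coeffMap (IsLocalRing.residue A)

/-- `f` is a quotient of two good integral series with the same reduction
(`f` is a unit for the Gauss valuation `w` and its reduction is `1`). -/
def IsRedOne (A : ValuationSubring Kb) (M : ℕ) (f : LaurentSeries Kb) : Prop :=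
  ∃ Y₁ Y₂ : LaurentSeries A, IsGood A M Y₁ ∧ IsGood A M Y₂ ∧
    incl A Y₁ = f * incl A Y₂ ∧ red A Y₁ = red A Y₂

/-- `w(f) ≥ 0`: `f` is a quotient of an integral series of `F` by a good series. -/
def IsWInt (A : ValuationSubring Kb) (M : ℕ) (f : LaurentSeries Kb) : Prop :=
  ∃ Y₁ Y₂ : LaurentSeries A, incl A Y₁ ∈ FF M ∧ IsGood A M Y₂ ∧ incl A Y₁ = f * incl A Y₂

/-- the place at infinity: its order function is the `q`-order -/
def IsInfty {K : Type*} [Field K] {E : IntermediateField K (LaurentSeries K)}
    (P : Place K E) : Prop :=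
  ∀ f : E, f ≠ 0 → P.ord f = (f : LaurentSeries K).order

/-- `f ∈ L(n ∞)`: `f` lies in `E`, is regular at every place different from the place at
infinity, and its `q`-expansion has pole order at most `n`. -/
def InL {K : Type*} [Field K] (E : IntermediateField K (LaurentSeries K)) (n : ℤ)
    (f : LaurentSeries K) : Prop :=
  ∃ hf : f ∈ E, (∀ P : Place K E, ¬ IsInfty P → 0 ≤ P.ord (⟨f, hf⟩ : E)) ∧
    ∀ k : ℤ, k < -n → f.coeff k = 0

/-- `m` divides the divisor of `f ∈ F_M`. -/
def DivDvd (M : ℕ) (m : ℕ) (f : LaurentSeries Kb) : Prop :=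
  ∀ (hf : f ∈ FF M) (P : Place Kb (FF M)), (m : ℤ) ∣ P.ord (⟨f, hf⟩ : FF M)

/-- Riemann's theorem with genus `g` for the function field `F / K`. -/
def HasRiemannGenus (K F : Type*) [Field K] [Field F] [Algebra K F] (g : ℕ) : Prop :=
  (∀ D : Divisor K F, Divisor.degree D + 1 ≤ (helper74.ell D : ℤ) + g) ∧
    ∃ c : ℤ, ∀ D : Divisor K F, c ≤ Divisor.degree D →
      (helper74.ell D : ℤ) + g = Divisor.degree D + 1

/-- the reduction of `j` as an element of the special fibre field -/
def jBar (A : ValuationSubring Kb) (M : ℕ) [NeZero M] : FFb A M :=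
  ⟨jqModC (kA A), jqModC_mem_full (kA A) M⟩

/-! ### Module [INF]: the places at infinity -/

/-- **[INF]** both function fields have a place at infinity. -/
def InftyStatement (M : ℕ) [NeZero M] (A : ValuationSubring Kb) : Prop :=
  (∃ P : Place Kb (FF M), IsInfty P) ∧ ∃ Q : Place (kA A) (FFb A M), IsInfty Q

/-! ### Module [VAL]: valuation dictionary (all levels `M`, `PrimeToLevel M A`) -/

/-- **[VAL-SC]** every nonzero function can be scaled to a `w`-unit. -/
def ScaleStatement (M : ℕ) [NeZero M] (A : ValuationSubring Kb) : Prop :=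
  ∀ f : LaurentSeries Kb, f ∈ FF M → f ≠ 0 →
    ∃ (c : Kb) (Y₁ Y₂ : LaurentSeries A), c ≠ 0 ∧ IsGood A M Y₁ ∧ IsGood A M Y₂ ∧
      algebraMap Kb (LaurentSeries Kb) c * incl A Y₁ = f * incl A Y₂

/-- **[VAL-INT]** a `w`-integral function which is regular off infinity has an integral
`q`-expansion. -/
def IntegralityStatement (M : ℕ) [NeZero M] (A : ValuationSubring Kb) : Prop :=
  ∀ (n : ℤ) (f : LaurentSeries Kb), InL (FF M) n f → IsWInt A M f →
    ∃ Y : LaurentSeries A, incl A Y = f

/-- **[VAL-UE]** the reduction of an integral function regular off infinity is regular off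
infinity (with the same bound for the pole order). -/
def RegRedStatement (M : ℕ) [NeZero M] (A : ValuationSubring Kb) : Prop :=
  ∀ (n : ℤ) (Y : LaurentSeries A), InL (FF M) n (incl A Y) → InL (FFb A M) n (red A Y)

/-- **[CUSP-BAR]** the reduction of `j` has at most `cuspCount M` poles. -/
def CuspBarStatement (M : ℕ) [NeZero M] (A : ValuationSubring Kb) : Prop :=
  ∃ T : Finset (Place (kA A) (FFb A M)),
    (∀ Q : Place (kA A) (FFb A M), Q.ord (jBar A M) < 0 → Q ∈ T) ∧ T.card ≤ cuspCount M

/-! ### Module [RIE] / [GEN]: Riemann's theorem and genus equality -/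

/-- **[RIE-0]** Riemann's theorem in characteristic `0`. -/
def RiemannStatement (M : ℕ) : Prop :=
  ∃ g : ℕ, HasRiemannGenus Kb (FF M) g

/-- **[RIE-ℓ]** Riemann's theorem for the special fibre field. -/
def RiemannBarStatement (M : ℕ) [NeZero M] (A : ValuationSubring Kb) : Prop :=
  ∃ g : ℕ, HasRiemannGenus (kA A) (FFb A M) g

/-- **[RH-EQ0]** in characteristic `0` the Riemann genus is given by the genus formula. -/
def GenusFormulaStatement (M : ℕ) : Prop :=
  ∀ g : ℕ, HasRiemannGenus Kb (FF M) g → (g : ℚ) = genusFormula M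

/-- **[TAME-BASE]** the tame base function `t` on the special fibre (reduction of the
Hauptmodul of level `4` or `9`): the poles of `j̄` are the poles of `t` and the zeros of the
`t - a`, `a ∈ V` (`V` = the finite cusp values), and `6 (|V| - 1) [F̃ : k(t)] = ψ(M)`. -/
def TameBaseStatement (M : ℕ) [NeZero M] (A : ValuationSubring Kb) : Prop :=
  ∃ (t : FFb A M) (V : Finset (kA A)),
    Transcendental (kA A) t ∧
    ∃ (_ : FiniteDimensional (kA A)⟮t⟯ (FFb A M)) (_ : Algebra.IsSeparable (kA A)⟮t⟯ (FFb A M)),
      (∀ Q : Place (kA A) (FFb A M), Q.ord (jBar A M) < 0 ↔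
        (Q.ord t < 0 ∨ ∃ a ∈ V, 0 < Q.ord (t - algebraMap (kA A) (FFb A M) a))) ∧
      6 * ((V.card : ℤ) - 1) * (Module.finrank (kA A)⟮t⟯ (FFb A M) : ℤ) = (dedekindPsi M : ℤ)

/-- **[GEN]** genus equality: Riemann's theorem holds for `F_M` and for the special fibre field
with the SAME genus. -/
def GenusEqStatement (M : ℕ) [NeZero M] (A : ValuationSubring Kb) : Prop :=
  ∃ g : ℕ, HasRiemannGenus Kb (FF M) g ∧ HasRiemannGenus (kA A) (FFb A M) g

/-- **[SURJ]** for large `n` every element of `L(n ∞̃)` is the reduction of an integral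
element of `L(n ∞)`. -/
def SurjRedStatement (M : ℕ) [NeZero M] (A : ValuationSubring Kb) : Prop :=
  ∃ c : ℤ, ∀ n : ℤ, c ≤ n → ∀ y : LaurentSeries (kA A), InL (FFb A M) n y →
    ∃ Y : LaurentSeries A, InL (FF M) n (incl A Y) ∧ red A Y = y

/-! ### Module [I]: injectivity -/

/-- **[I1]** ideal step: a function `h ≡ 1` whose divisor is divisible by `m` can be changed by
an `m`-th power `g ^ m`, `g ≡ 1`, into a function regular off infinity. -/
def IdealStepStatement (M : ℕ) [NeZero M] (A : ValuationSubring Kb) (m : ℕ) : Prop :=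
  ∀ h : LaurentSeries Kb, h ∈ FF M → h ≠ 0 → DivDvd M m h → IsRedOne A M h →
    ∃ g : LaurentSeries Kb, g ∈ FF M ∧ g ≠ 0 ∧ IsRedOne A M g ∧
      ∃ n : ℤ, InL (FF M) n (g ^ m * h⁻¹)

/-- **[ROOT]** an integral function `H ≡ 1`, regular off infinity, whose divisor is divisible
by `m`, has an INTEGRAL formal `m`-th root with constant nonzero reduction. -/
def RootStatement (M : ℕ) [NeZero M] (A : ValuationSubring Kb) (m : ℕ) : Prop :=
  ∀ (H : LaurentSeries A) (n : ℤ), InL (FF M) n (incl A H) → red A H = 1 →
    DivDvd M m (incl A H) →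
    ∃ (W : LaurentSeries A) (z : kA A), W ^ m = H ∧ z ≠ 0 ∧
      red A W = algebraMap (kA A) (LaurentSeries (kA A)) z

/-- **[PIVOT]** an integral formal `m`-th root (with constant nonzero reduction) of a function
regular off infinity lies in the function field. -/
def PivotStatement (M : ℕ) [NeZero M] (A : ValuationSubring Kb) (m : ℕ) : Prop :=
  ∀ (H W : LaurentSeries A) (n : ℤ) (z : kA A), InL (FF M) n (incl A H) → W ^ m = H →
    z ≠ 0 → red A W = algebraMap (kA A) (LaurentSeries (kA A)) z → incl A W ∈ FF M

/-- **[REG]** (INJ) for integral functions regular off infinity. -/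
def InjRegStatement (M : ℕ) [NeZero M] (A : ValuationSubring Kb) (m : ℕ) : Prop :=
  ∀ (H : LaurentSeries A) (n : ℤ), InL (FF M) n (incl A H) → red A H = 1 →
    DivDvd M m (incl A H) →
    ∃ (c : Kb) (u : LaurentSeries Kb), u ∈ FF M ∧
      incl A H = algebraMap Kb (LaurentSeries Kb) c * u ^ m

/-! ### Module [K]: Kummer wiring -/

/-- **[K]** the operator form of P2-CORE follows from (INJ) at the same level. -/
def KummerWiringStatement (M p : ℕ) [NeZero M] : Prop :=
  (∀ (ℓ : ℕ), ℓ.Prime → ¬ ℓ ∣ M * p → ∀ A : ValuationSubring Kb, A.LiesOverPrime ℓ →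
      ∀ n : ℕ, InjStatement M A (p ^ n)) →
    Fermat.Agent.P3.P2CoreStatement M p

end Fermat.Agent.P2.helper29

end
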