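import Mathlib
import Fermat.Agent.S24.helper77_Degree
import Fermat.Agent.S24.helper80_DegreeLB
import Fermat.Agent.S24.helper24_Interior
import Fermat.Agent.S24.helper24_Cusp
import Fermat.Agent.S24.helper37_IndexGamma0
import Fermat.Agent.S24.helper27_FixedPoints
import Fermat.Agent.S24.helper83_CuspCount

/-!
# P2-[RH-EQ0-ASM], layer 2 (helper77): the genus formula from a Hurwitz equality over the `j`-line

For `F = F_M` over `ℚ̄` and `t = j`: if a natural number `g` satisfies the Hurwitz equality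

`2 g - 2 + 2 n = ∑_{a ∈ {0, 1728}} (n - #{places over a}) + (n - #{poles of j})`,  `n = [F : ℚ̄(j)]`,

then `g = genusFormula M`.  Inputs: the landed S24 fibre counts.
-/

set_option autoImplicit false

namespace Fermat.Agent.P2.helper77

open AlgebraicCurve IntermediateField ModularCurve
open Fermat.Agent.S24
open scoped MatrixGroups
open CongruenceSubgroup

/-- The right-hand side of Riemann–Hurwitz for `t` with branch set `B`. -/
noncomputable def hurwitzRHS {k F : Type*} [Field k] [Field F] [Algebra k F] (t : F) (B : Finset k) :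
    ℤ :=
  ∑ a ∈ B, ((Module.finrank k⟮t⟯ F : ℤ)
      - (Nat.card {w : Place k F // 0 < w.ord (t - algebraMap k F a)} : ℤ))
    + ((Module.finrank k⟮t⟯ F : ℤ) - (Nat.card {w : Place k F // w.ord t < 0} : ℤ))

/-- pure arithmetic -/
theorem genus_arith' (g n c0 c1 cinf nu2 nu3 : ℕ)
    (hH : 2 * (g : ℤ) - 2 + 2 * n = (n - c0) + (n - c1) + (n - cinf))
    (h2 : 2 * c1 = n + nu2) (h3 : 3 * c0 = n + 2 * nu3) :
    (g : ℚ) = 1 + (n : ℚ) / 12 - (nu2 : ℚ) / 4 - (nu3 : ℚ) / 3 - (cinf : ℚ) / 2 := by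
  have hH' : 2 * (g : ℚ) - 2 + 2 * n = (n - c0) + (n - c1) + (n - cinf) := by exact_mod_cast hH
  have h2' : 2 * (c1 : ℚ) = n + nu2 := by exact_mod_cast h2
  have h3' : 3 * (c0 : ℚ) = n + 2 * nu3 := by exact_mod_cast h3
  linarith

/-- **Layer 2**: the genus formula from the Hurwitz equality over the `j`-line. -/
theorem genus_eq_genusFormula_of_hurwitz (M : ℕ) [NeZero M] (g : ℕ)
    (hH : 2 * (g : ℤ) - 2 + 2 * (Module.finrank Kbar⟮xJ M⟯ (FN M) : ℤ)
      = ((Module.finrank Kbar⟮xJ M⟯ (FN M) : ℤ)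
          - (Nat.card {w : Place Kbar (FN M) // 0 < w.ord (xJ M - algebraMap Kbar (FN M) 0)} : ℤ))
        + ((Module.finrank Kbar⟮xJ M⟯ (FN M) : ℤ)
          - (Nat.card {w : Place Kbar (FN M) //
              0 < w.ord (xJ M - algebraMap Kbar (FN M) 1728)} : ℤ))
        + ((Module.finrank Kbar⟮xJ M⟯ (FN M) : ℤ)
          - (Nat.card {w : Place Kbar (FN M) // w.ord (xJ M) < 0} : ℤ))) :
    (g : ℚ) = genusFormula M := by
  have hfd := helper77.an_finiteDimensional M
  have hfinrank : Module.finrank Kbar⟮xJ M⟯ (FN M) = Nat.card (SL(2, ℤ) ⧸ Gamma0 M) :=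
    le_antisymm (helper77.an_finrank_le M) (helper80.an_finrank_ge M)
  have hc1728 := helper24.an_count_1728_of M hfd hfinrank
  have hc0 := helper24.an_count_0_of M hfd hfinrank
  have hcinf := helper24.an_count_infty_of M hfd hfinrank
  have hC1 := helper37.card_quotient_Gamma0 M
  have hC2 := helper27.two_mul_card_orbits_S M
  have hC2' := helper27.three_mul_card_orbits_ST M
  have hC3 := helper83.card_orbits_T M
  rw [hc1728, hc0, hcinf, hfinrank] at hH
  rw [genusFormula, ← hC1, ← hC3]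
  exact genus_arith' g _ _ _ _ _ _ hH hC2 hC2'

/-- unramifiedness of `j` outside `{0, 1728}`, in the shape used by the Hurwitz equality -/
theorem unramified_outside (M : ℕ) [NeZero M] (w : Place Kbar (FN M)) (a : Kbar)
    (h0 : a ≠ 0) (h1 : a ≠ 1728)
    (hw : 0 < w.ord (xJ M - algebraMap Kbar (FN M) a)) :
    w.ord (xJ M - algebraMap Kbar (FN M) a) = 1 := by
  have hfd := helper77.an_finiteDimensional M
  have hfinrank : Module.finrank Kbar⟮xJ M⟯ (FN M) = Nat.card (SL(2, ℤ) ⧸ Gamma0 M) :=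
    le_antisymm (helper77.an_finrank_le M) (helper80.an_finrank_ge M)
  exact helper24.an_unramified_of M hfd hfinrank a h0 h1 w hw

end Fermat.Agent.P2.helper77
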