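/-
helper39, P2-[RH-DW] part (A4): the dimension of `L(r (t)_∞)` in terms of a reduced basis, and the
relations `#ι = [F : k(t)]`, `∑ dᵢ = g + n - 1` with the Riemann genus.
-/
import Mathlib
import Fermat.Agent.P2.helper95_FFl2
import Fermat.Agent.P2.helper74_RiemannSep
import Fermat.Agent.P2.helper39_NormReduce
import Fermat.Agent.P2.helper39_Lattice
import Fermat.Agent.P2.helper39_PhiBasis
import Fermat.Agent.P2.helper39_Reduced

set_option autoImplicit false
set_option linter.unusedSectionVars false
set_option linter.unusedVariables false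

namespace Fermat.Agent.P2.helper39

open AlgebraicCurve IntermediateField Polynomial IsDedekindDomain
open Fermat.Agent.P2.helper95 Fermat.Agent.P2.helper74

noncomputable section

section NormLeMore

variable {k F : Type*} [Field k] [Field F] [Algebra k F]

theorem NormLe.pow_mul {t f : F} (ht : t ≠ 0) {d : ℤ} (hf : NormLe k t f d) (j : ℕ) :
    NormLe k t (t ^ j * f) (d + j) := by
  induction j with
  | zero => simpa using hf
  | succ j ih =>
    rw [pow_succ', mul_assoc, Nat.cast_succ, ← add_assoc]
    exact (normLe_t_mul_iff ht).mpr ih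

theorem NormLe.sum {t : F} {α : Type*} (s : Finset α) (f : α → F) (d : ℤ)
    (h : ∀ i ∈ s, NormLe k t (f i) d) : NormLe k t (∑ i ∈ s, f i) d := by
  classical
  induction s using Finset.induction_on with
  | empty => simpa using normLe_zero (k := k) t d
  | insert a s ha ih =>
    rw [Finset.sum_insert ha]
    exact NormLe.add (h a (Finset.mem_insert_self _ _))
      (ih fun i hi => h i (Finset.mem_insert_of_mem hi))

theorem NormLe.aeval_mul {t f : F} (ht : t ≠ 0) {d : ℤ} (hf : NormLe k t f d) (p : k[X]) :
    NormLe k t (aeval t p * f) (d + p.natDegree) := by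
  conv_lhs => rw [p.as_sum_range_C_mul_X_pow]
  rw [map_sum, Finset.sum_mul]
  apply NormLe.sum
  intro j hj
  have hj' : j ≤ p.natDegree := by
    have := Finset.mem_range.mp hj
    omega
  rw [map_mul, aeval_C, map_pow, aeval_X, mul_assoc]
  exact ((hf.pow_mul ht j).const_mul _).mono (by omega)

end NormLeMore

section Dim

variable {k F : Type*} [Field k] [Field F] [Algebra k F] {ι : Type*} [Fintype ι]
variable [IsAlgClosed k]
variable (t : F) [FiniteDimensional k⟮t⟯ F] [Algebra.IsSeparable k⟮t⟯ F]

theorem degree_poleDivisor (ht : Transcendental k t) (B : Divisor k F)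
    (hBv : ∀ v, B v = max 0 (-(v.ord t))) :
    Divisor.degree B = (Module.finrank k⟮t⟯ F : ℤ) := by
  classical
  rw [degree_eq_sum, Finsupp.sum]
  have hsub : B.support ⊆ (ffl_finite_poles t ht).toFinset := by
    intro v hv
    rw [Finsupp.mem_support_iff, hBv] at hv
    rw [Set.Finite.mem_toFinset, Set.mem_ofPred_eq]
    by_contra h
    apply hv
    rw [max_eq_left]
    linarith
  rw [Finset.sum_subset hsub (fun v _ hv => by
    rw [Finsupp.notMem_support_iff.mp hv, zero_mul])]
  have : ∑ v ∈ (ffl_finite_poles t ht).toFinset, B v * (v.deg : ℤ)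
      = ∑ v ∈ (ffl_finite_poles t ht).toFinset, -(v.ord t) := by
    refine Finset.sum_congr rfl fun v hv => ?_
    have hv' : v.ord t < 0 := by
      rw [Set.Finite.mem_toFinset] at hv
      exact hv
    rw [ffl_deg_eq_one t ht v, hBv, Nat.cast_one, mul_one, max_eq_right (by omega)]
  rw [this, Finset.sum_neg_distrib, ffl_sum_ord_poles t ht, neg_neg]

/-- The coordinate map as a `k`-linear map on tuples of polynomials of bounded degree. -/
def psi (w : ι → F) (N : ι → ℕ) : (∀ i, degreeLT k (N i)) →ₗ[k] F where
  toFun a := phi t w (fun i => (a i : k[X]))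
  map_add' a b := by
    rw [← phi_add]
    rfl
  map_smul' c a := by
    have h : (fun i => (((c • a) i : degreeLT k (N i)) : k[X]))
        = (C c : k[X]) • (fun i => (a i : k[X])) := by
      funext i
      simp [Polynomial.smul_eq_C_mul]
    rw [h, phi_smul, aeval_C, Algebra.smul_def]
    rfl

theorem psi_apply (w : ι → F) (N : ι → ℕ) (a : ∀ i, degreeLT k (N i)) :
    psi t w N a = phi t w (fun i => (a i : k[X])) := rfl

variable {t}

theorem IsReducedBasis.psi_injective {w : ι → F} {d : ι → ℤ} (h : IsReducedBasis k t w d)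
    (N : ι → ℕ) : Function.Injective (psi (k := k) t w N) := by
  rw [← LinearMap.ker_eq_bot, LinearMap.ker_eq_bot']
  intro a ha
  rw [psi_apply] at ha
  have := h.basis.inj _ ha
  funext i
  apply Subtype.ext
  exact congrFun this i

theorem IsReducedBasis.range_psi {w : ι → F} {d : ι → ℤ} (h : IsReducedBasis k t w d)
    (ht : Transcendental k t) (B : Divisor k F) (hBv : ∀ v, B v = max 0 (-(v.ord t)))
    (r : ℕ) :
    LinearMap.range (psi (k := k) t w (fun i => ((r : ℤ) + 1 - d i).toNat))
      = riemannRochSpace (r • B) := by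
  have ht0 : t ≠ 0 := ne_zero_of_transcendental ht
  have hrB : ∀ v : Place k F, (r • B) v = r * max 0 (-(v.ord t)) := by
    intro v
    rw [Finsupp.smul_apply, nsmul_eq_mul, hBv]
  ext f
  constructor
  · rintro ⟨a, rfl⟩
    rw [psi_apply]
    set a' : ι → k[X] := fun i => (a i : k[X]) with ha'
    have hNL : NormLe k t (phi t w a') r := by
      apply NormLe.sum
      intro i _
      by_cases hai : a' i = 0
      · rw [hai, map_zero, zero_mul]
        exact normLe_zero t _
      have hdeg : (a' i).degree < (((r : ℤ) + 1 - d i).toNat : ℕ) := mem_degreeLT.mp (a i).2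
      rw [← natDegree_lt_iff_degree_lt hai] at hdeg
      refine ((h.norm i).aeval_mul ht0 (a' i)).mono ?_
      omega
    rw [mem_L_iff]
    intro v
    by_cases hf0 : phi t w a' = 0
    · exact Or.inl hf0
    right
    rw [hrB]
    by_cases hv : v.ord t < 0
    · rw [max_eq_right (by omega)]
      rcases hNL with h0 | hNL
      · exact absurd h0 hf0
      · have := hNL v hv
        linarith
    · rw [max_eq_left (by omega), mul_zero, neg_zero]
      exact h.basis.ord_nonneg t a' v (by omega)
  · intro hf
    by_cases hf0 : f = 0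
    · rw [hf0]
      exact Submodule.zero_mem _
    rw [mem_L_iff' hf0] at hf
    have hreg : ∀ P : Place k F, 0 ≤ P.ord t → 0 ≤ P.ord f := by
      intro P hP
      have := hf P
      rw [hrB, max_eq_left (by omega), mul_zero, neg_zero] at this
      exact this
    obtain ⟨a, ha⟩ := h.basis.surj f (mem_intClosure_of_forall_ord_nonneg t f hreg)
    have hNL : NormLe k t (phi t w a) r := by
      rw [ha]
      refine Or.inr fun P hP => ?_
      have := hf P
      rw [hrB, max_eq_right (by omega)] at this
      linarith
    have hmem : ∀ i, a i ∈ degreeLT k ((r : ℤ) + 1 - d i).toNat := by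
      intro i
      rw [mem_degreeLT]
      by_cases hai : a i = 0
      · rw [hai, degree_zero]
        exact WithBot.bot_lt_coe _
      rw [← natDegree_lt_iff_degree_lt hai]
      have := h.orth a r hNL i hai
      omega
    exact ⟨fun i => ⟨a i, hmem i⟩, ha⟩

theorem finrank_degreeLT_eq (N : ℕ) : Module.finrank k (degreeLT k N) = N := by
  rw [(degreeLTEquiv k N).finrank_eq, Module.finrank_fin_fun]

instance degreeLT_finite' (N : ℕ) : Module.Finite k (degreeLT k N) :=
  Module.Finite.equiv (degreeLTEquiv k N).symm

theorem IsReducedBasis.ell_eq {w : ι → F} {d : ι → ℤ} (h : IsReducedBasis k t w d)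
    (ht : Transcendental k t) (B : Divisor k F) (hBv : ∀ v, B v = max 0 (-(v.ord t)))
    (r : ℕ) : ell (r • B) = ∑ i, ((r : ℤ) + 1 - d i).toNat := by
  rw [ell, ← h.range_psi ht B hBv r, LinearMap.finrank_range_of_inj (h.psi_injective _),
    Module.finrank_pi_fintype]
  exact Finset.sum_congr rfl fun i _ => finrank_degreeLT_eq _

/-- The number of elements of a reduced basis is `[F : k(t)]`, and the sum of its exponents is
`g + n - 1` (`g` the Riemann genus). -/
theorem IsReducedBasis.card_and_sum {w : ι → F} {d : ι → ℤ} (h : IsReducedBasis k t w d)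
    (ht : Transcendental k t) {g : ℕ} (hg : HasRiemannGenus k F g) :
    (Fintype.card ι : ℤ) = (Module.finrank k⟮t⟯ F : ℤ) ∧
      ∑ i, d i = (g : ℤ) + (Module.finrank k⟮t⟯ F : ℤ) - 1 := by
  classical
  have hS := riemannSetting_of_separating t ht
  obtain ⟨B, hBv, -, -⟩ := exists_poleDivisor hS (ne_zero_of_transcendental ht)
  have hdegB := degree_poleDivisor t ht B hBv
  obtain ⟨c, hc⟩ := hg
  have hn : 0 < Module.finrank k⟮t⟯ F := Module.finrank_pos
  set n : ℤ := (Module.finrank k⟮t⟯ F : ℤ) with hn_def
  have hn1 : 1 ≤ n := by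
    rw [hn_def]
    exact_mod_cast hn
  -- a large `r`
  set r : ℕ := c.toNat + ∑ i, (d i).toNat with hr_def
  have hrd : ∀ i, d i ≤ r := by
    intro i
    have h1 : (d i).toNat ≤ ∑ i, (d i).toNat :=
      Finset.single_le_sum (f := fun i => (d i).toNat) (fun _ _ => Nat.zero_le _)
        (Finset.mem_univ i)
    have h2 : d i ≤ (d i).toNat := Int.self_le_toNat _
    have h3 : ((d i).toNat : ℤ) ≤ r := by
      rw [hr_def]
      push_cast
      have : ((d i).toNat : ℤ) ≤ ((∑ i, (d i).toNat : ℕ) : ℤ) := by exact_mod_cast h1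
      push_cast at this
      omega
    omega
  have hrc : c ≤ r := by
    have h2 : c ≤ c.toNat := Int.self_le_toNat _
    rw [hr_def]
    push_cast
    have : (0 : ℤ) ≤ ∑ i, ((d i).toNat : ℤ) := Finset.sum_nonneg fun _ _ => Int.natCast_nonneg _
    omega
  have key : ∀ r' : ℕ, r ≤ r' →
      (∑ i, ((r' : ℤ) + 1 - d i)) + g = r' * n + 1 := by
    intro r' hr'
    have hdeg : Divisor.degree (r' • B) = r' * n := by
      rw [map_nsmul, hdegB, nsmul_eq_mul]
    have hcr : c ≤ Divisor.degree (r' • B) := by
      rw [hdeg]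
      have : (r : ℤ) ≤ r' := by exact_mod_cast hr'
      nlinarith
    have h1 := hc (r' • B) hcr
    rw [h.ell_eq ht B hBv r', hdeg] at h1
    rw [← h1]
    push_cast
    congr 1
    refine Finset.sum_congr rfl fun i _ => ?_
    have := hrd i
    have : (r : ℤ) ≤ r' := by exact_mod_cast hr'
    rw [Int.toNat_of_nonneg (by omega)]
  have k1 := key r le_rfl
  have k2 := key (r + 1) (Nat.le_succ r)
  simp only [Finset.sum_sub_distrib, Finset.sum_add_distrib, Finset.sum_const, Finset.card_univ,
    nsmul_eq_mul, mul_one, Nat.cast_add, Nat.cast_one] at k1 k2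
  constructor
  · nlinarith
  · nlinarith

end Dim

end

end Fermat.Agent.P2.helper39
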