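import Mathlib
import Fermat.Agent.P2.helper39_Dim
import Fermat.Agent.P2.helper18_DiscSide
import Fermat.Agent.S24.helper55_RH

/-!
# P2-[RH-EQ0-ASM], layer 1 (helper77): Hurwitz EQUALITY in Riemann-genus form, characteristic 0

For `k` algebraically closed of characteristic `0`, `t ∈ F` transcendental with `F / k(t)` finite,
`g` the Riemann genus of `F` and `B` a finite set of values outside of which `t` is unramified:

`2 g - 2 + 2 n = ∑_{a ∈ B} (n - #{places over a}) + (n - #{poles of t})`,  `n = [F : k(t)]`.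

Inputs (explicit hypotheses, to be wired when landed):
* `SSideStatement`      : helper39, step (5) — the `t⁻¹`-side of a reduced basis;
* `DiscSideEqStatement` : helper18, `disc_side_eq` — tame equality of the discriminant side.
Landed inputs: `helper39.exists_isReducedBasis`, `helper39.IsReducedBasis.card_and_sum`.
-/

set_option autoImplicit false

namespace Fermat.Agent.P2.helper77

open AlgebraicCurve IntermediateField Polynomial
open Fermat.Agent.P2

/-- **(H39)** the `t⁻¹`-side of a reduced basis (helper39, step (5)). -/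
def SSideStatement (k F : Type*) [Field k] [Field F] [Algebra k F] : Prop :=
  ∀ (t : F) (_ : Transcendental k t) [FiniteDimensional k⟮t⟯ F] [Algebra.IsSeparable k⟮t⟯ F]
    [FiniteDimensional k⟮t⁻¹⟯ F] [Algebra.IsSeparable k⟮t⁻¹⟯ F]
    (m : ℕ) (w : Fin m → F) (d : Fin m → ℤ),
    helper39.IsReducedBasis k t w d → helper39.IsPhiBasis k t⁻¹ (fun i => t ^ (-d i) * w i)

/-- **(H18)** the tame equality of the discriminant side (helper18, `disc_side_eq`). -/
def DiscSideEqStatement (k F : Type*) [Field k] [Field F] [Algebra k F] : Prop :=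
  ∀ (t : F) (_ : Transcendental k t) [FiniteDimensional k⟮t⟯ F] [Algebra.IsSeparable k⟮t⟯ F]
    (_ : Transcendental k t⁻¹) [FiniteDimensional k⟮t⁻¹⟯ F] [Algebra.IsSeparable k⟮t⁻¹⟯ F]
    (m : ℕ)
    (w : Module.Basis (Fin m) (helper95.polyRing (K := k) t) (helper95.intClosure (K := k) t))
    (u : Module.Basis (Fin m) (helper95.polyRing (K := k) t⁻¹)
      (helper95.intClosure (K := k) t⁻¹))
    (d : Fin m → ℤ)
    (_ : ∀ i, ((u i : helper95.intClosure (K := k) t⁻¹) : F)
      = t ^ (-d i) * ((w i : helper95.intClosure (K := k) t) : F))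
    (C : Finset k) (Z : k → Finset (Place k F))
    (_ : ∀ c ∈ C, ∀ P : Place k F, P ∈ Z c ↔ 0 < P.ord (t - algebraMap k F c))
    (Zinf : Finset (Place k F)) (_ : ∀ P : Place k F, P ∈ Zinf ↔ P.ord t < 0)
    (_ : ∀ c, c ∉ C → ∀ P : Place k F, 0 < P.ord (t - algebraMap k F c) →
      P.ord (t - algebraMap k F c) = 1),
    ∑ c ∈ C, ((m : ℤ) - (Z c).card) + ((m : ℤ) - Zinf.card) = 2 * ∑ i, d i

section Abstract

variable {k F : Type*} [Field k] [Field F] [Algebra k F]

/-- cardinality of a finite set of places as `Nat.card` of the subtype -/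
theorem card_toFinset_eq_natCard {α : Type*} {p : α → Prop} (h : {x | p x}.Finite) :
    h.toFinset.card = Nat.card {x // p x} := by
  have h1 : Nat.card {x // p x} = Nat.card ↥{x | p x} := rfl
  rw [h1, Nat.card_coe_set_eq, Set.ncard_eq_toFinset_card _ h]

variable [IsAlgClosed k] [CharZero k]

/-- **Layer 1**: the Hurwitz equality in Riemann-genus form (characteristic `0`). -/
theorem hurwitz_eq (hSS : SSideStatement k F) (hDS : DiscSideEqStatement k F)
    (t : F) (ht : Transcendental k t) [FiniteDimensional k⟮t⟯ F]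
    (g : ℕ) (hg : helper74.HasRiemannGenus k F g)
    (B : Finset k)
    (hunr : ∀ (w : Place k F) (a : k), a ∉ B → 0 < w.ord (t - algebraMap k F a) →
      w.ord (t - algebraMap k F a) = 1) :
    2 * (g : ℤ) - 2 + 2 * (Module.finrank k⟮t⟯ F : ℤ)
      = ∑ a ∈ B, ((Module.finrank k⟮t⟯ F : ℤ)
            - (Nat.card {w : Place k F // 0 < w.ord (t - algebraMap k F a)} : ℤ))
        + ((Module.finrank k⟮t⟯ F : ℤ) - (Nat.card {w : Place k F // w.ord t < 0} : ℤ)) := by
  classical
  haveI : CharZero F := charZero_of_injective_algebraMap (algebraMap k F).injective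
  haveI hcz : ∀ E : IntermediateField k F, CharZero E := fun E =>
    charZero_of_injective_algebraMap (algebraMap k E).injective
  -- the `t⁻¹`-side
  have hs : Transcendental k t⁻¹ := Fermat.Agent.S24.helper55.transcendental_inv ht
  have hadj : k⟮t⁻¹⟯ = k⟮t⟯ := Fermat.Agent.S24.helper55.adjoin_inv_eq t
  haveI hfds : FiniteDimensional k⟮t⁻¹⟯ F := by
    rw [hadj]; infer_instance
  -- the fibres
  have hfdc : ∀ c : k, FiniteDimensional k⟮t - algebraMap k F c⟯ F := fun c => by
    rw [Fermat.Agent.S24.helper55.adjoin_sub_algebraMap_eq]; infer_instance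
  have hfinZ : ∀ c : k, {P : Place k F | 0 < P.ord (t - algebraMap k F c)}.Finite := fun c =>
    haveI := hfdc c
    helper95.ffl_finite_zeros _ (Fermat.Agent.S24.helper55.transcendental_sub_algebraMap ht c)
  have hfinP : {P : Place k F | P.ord t < 0}.Finite := helper95.ffl_finite_poles t ht
  -- reduced basis and its invariants
  obtain ⟨m, w, d, hred⟩ := helper39.exists_isReducedBasis (k := k) t ht
  obtain ⟨hcard, hsum⟩ := hred.card_and_sum ht hg
  rw [Fintype.card_fin] at hcard
  have hu := hSS t ht m w d hred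
  obtain ⟨W, hW⟩ := hred.basis.exists_basis
  obtain ⟨U, hU⟩ := hu.exists_basis
  have huw : ∀ i, ((U i : helper95.intClosure (K := k) t⁻¹) : F)
      = t ^ (-d i) * ((W i : helper95.intClosure (K := k) t) : F) := fun i => by
    rw [hU i, hW i]
  have key := hDS t ht hs m W U d huw B (fun c => (hfinZ c).toFinset)
    (fun c _ P => by rw [Set.Finite.mem_toFinset]; rfl)
    hfinP.toFinset (fun P => by rw [Set.Finite.mem_toFinset]; rfl)
    (fun c hc P hP => hunr P c hc hP)
  rw [card_toFinset_eq_natCard hfinP] at key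
  have key' : ∑ c ∈ B, ((m : ℤ) - (Nat.card {P : Place k F //
      0 < P.ord (t - algebraMap k F c)} : ℤ))
      + ((m : ℤ) - (Nat.card {P : Place k F // P.ord t < 0} : ℤ)) = 2 * ∑ i, d i := by
    rw [← key]
    congr 1
    refine Finset.sum_congr rfl fun c _ => ?_
    rw [card_toFinset_eq_natCard (hfinZ c)]
  rw [← hcard] at hsum ⊢
  rw [key', hsum]
  ring

end Abstract

end Fermat.Agent.P2.helper77
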