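import Mathlib
import Fermat.Agent.P2.helper29_Interface
import Fermat.Agent.P2.helper77_HurwitzEq
import Fermat.Agent.P2.helper77_GenusCount

/-!
# P2-[RH-EQ0-ASM] (helper77): the Riemann genus of `F_M` is given by the genus formula

`genusFormulaStatement_of` : `helper29.GenusFormulaStatement M` for `M ≠ 0`, from

* layer 1 (`hurwitz_eq`): Hurwitz equality in Riemann-genus form (helper39 lattice side +
  helper18 tame discriminant equality, the two pending inputs as explicit hypotheses),
* layer 2 (`genus_eq_genusFormula_of_hurwitz`): the S24 fibre counts over `j = 0, 1728, ∞`.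
-/

set_option autoImplicit false

namespace Fermat.Agent.P2.helper77

open AlgebraicCurve IntermediateField ModularCurve
open Fermat.Agent.S24 Fermat.Agent.S18.helper19

/-- **[RH-EQ0]** from the two pending inputs. -/
theorem genusFormulaStatement_of (M : ℕ) [NeZero M]
    (hSS : SSideStatement Kb (FF M)) (hDS : DiscSideEqStatement Kb (FF M)) :
    helper29.GenusFormulaStatement M := by
  intro g hg
  classical
  haveI := helper77.an_finiteDimensional M
  have h1728 : (0 : Kbar) ≠ 1728 := by norm_num
  have h := hurwitz_eq (k := Kbar) (F := FN M) hSS hDS (xJ M) (helper77.an_transcendental M) g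
    hg.2 {0, 1728} (fun w a ha hw => unramified_outside M w a
      (fun h => ha (by simp [h])) (fun h => ha (by simp [h])) hw)
  rw [Finset.sum_pair h1728] at h
  exact genus_eq_genusFormula_of_hurwitz M g h

end Fermat.Agent.P2.helper77
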