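import Mathlib
import Fermat.Agent.P2.helper77_GenusFormula
import Fermat.Agent.P2.helper39_Hurwitz

/-!
# P2-[RH-EQ0-ASM] (helper77), wiring stage 1: the `t⁻¹`-side input is discharged

`helper39.IsReducedBasis.inv` (landed) is exactly `SSideStatement`; the only remaining input of
`genusFormulaStatement_of` is helper18's `disc_side_eq` (`DiscSideEqStatement`).
-/

set_option autoImplicit false

namespace Fermat.Agent.P2.helper77

open AlgebraicCurve IntermediateField ModularCurve
open Fermat.Agent.S24 Fermat.Agent.S18.helper19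

/-- **(H39)** is `helper39.IsReducedBasis.inv`. -/
theorem sSideStatement (k F : Type*) [Field k] [Field F] [Algebra k F] [IsAlgClosed k] :
    SSideStatement k F :=
  fun _ ht _ _ _ _ _ _ _ h => h.inv ht

/-- Hurwitz equality in Riemann-genus form, characteristic `0`, from `disc_side_eq` only. -/
theorem hurwitz_eq_of_discSideEq {k F : Type*} [Field k] [Field F] [Algebra k F] [IsAlgClosed k]
    [CharZero k] (hDS : DiscSideEqStatement k F)
    (t : F) (ht : Transcendental k t) [FiniteDimensional k⟮t⟯ F]
    (g : ℕ) (hg : helper74.HasRiemannGenus k F g) (B : Finset k)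
    (hunr : ∀ (w : Place k F) (a : k), a ∉ B → 0 < w.ord (t - algebraMap k F a) →
      w.ord (t - algebraMap k F a) = 1) :
    2 * (g : ℤ) - 2 + 2 * (Module.finrank k⟮t⟯ F : ℤ)
      = ∑ a ∈ B, ((Module.finrank k⟮t⟯ F : ℤ)
            - (Nat.card {w : Place k F // 0 < w.ord (t - algebraMap k F a)} : ℤ))
        + ((Module.finrank k⟮t⟯ F : ℤ) - (Nat.card {w : Place k F // w.ord t < 0} : ℤ)) :=
  hurwitz_eq (sSideStatement k F) hDS t ht g hg B hunr

/-- **[RH-EQ0]** from `disc_side_eq` only. -/
theorem genusFormulaStatement_of_discSideEq (M : ℕ) [NeZero M]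
    (hDS : DiscSideEqStatement Kb (FF M)) : helper29.GenusFormulaStatement M :=
  genusFormulaStatement_of M (sSideStatement Kb (FF M)) hDS

end Fermat.Agent.P2.helper77
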