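import Mathlib
import Fermat.Agent.P2.helper18_DiscSideEq
import Fermat.Agent.P2.helper77_GenusFormula2

/-!
# P2-[RH-EQ0] (helper18): wiring of `disc_side_eq` into helper77's assembly

`disc_side_eq` is helper77's `DiscSideEqStatement`; hence the Riemann genus of the modular
function field `FF M` over `Kb` is given by the genus formula (`helper29.GenusFormulaStatement`),
and the Hurwitz equality in Riemann-genus form holds for every separating element in
characteristic `0`.
-/

set_option autoImplicit false

namespace Fermat.Agent.P2.helper18

open AlgebraicCurve IntermediateField ModularCurve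
open Fermat.Agent.S24 Fermat.Agent.S18.helper19

/-- **(H18)** `disc_side_eq` in the shape consumed by helper77. -/
theorem discSideEqStatement (k F : Type*) [Field k] [Field F] [Algebra k F] [IsAlgClosed k]
    [CharZero k] : helper77.DiscSideEqStatement k F := by
  intro t ht _ _ hs _ _ m w u d huw C Z hZ Zinf hZinf hunr
  have h := disc_side_eq t ht hs w u d huw C Z hZ Zinf hZinf hunr
  simpa using h

/-- **Riemann–Hurwitz equality in Riemann-genus form**, characteristic `0`, unconditional. -/
theorem hurwitz_eq_riemannGenus {k F : Type*} [Field k] [Field F] [Algebra k F] [IsAlgClosed k]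
    [CharZero k] (t : F) (ht : Transcendental k t) [FiniteDimensional k⟮t⟯ F]
    (g : ℕ) (hg : helper74.HasRiemannGenus k F g) (B : Finset k)
    (hunr : ∀ (w : Place k F) (a : k), a ∉ B → 0 < w.ord (t - algebraMap k F a) →
      w.ord (t - algebraMap k F a) = 1) :
    2 * (g : ℤ) - 2 + 2 * (Module.finrank k⟮t⟯ F : ℤ)
      = ∑ a ∈ B, ((Module.finrank k⟮t⟯ F : ℤ)
            - (Nat.card {w : Place k F // 0 < w.ord (t - algebraMap k F a)} : ℤ))
        + ((Module.finrank k⟮t⟯ F : ℤ) - (Nat.card {w : Place k F // w.ord t < 0} : ℤ)) :=
  helper77.hurwitz_eq_of_discSideEq (discSideEqStatement k F) t ht g hg B hunr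

/-- **[RH-EQ0]**: the Riemann genus of `FF M` is given by the genus formula, unconditional. -/
theorem genusFormulaStatement (M : ℕ) [NeZero M] : helper29.GenusFormulaStatement M :=
  helper77.genusFormulaStatement_of_discSideEq M (discSideEqStatement Kb (FF M))

end Fermat.Agent.P2.helper18
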