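import Mathlib

/-!
# P2 (helper74): the pivot lemma over a valuation ring

Let `A` be a valuation subring of a field `L` (not necessarily discrete), `E` an `L`-vector space
with a family of coordinate functionals `κ m : E →ₗ[L] L` and a set `Λ ⊆ E` of "integral"
vectors on which all `κ m` take values in `A`.  Let `V ⊆ E` be a finite-dimensional subspace such
that every nonzero `u ∈ V` has a multiple `c • u ∈ Λ` one of whose coordinates is a unit of `A`
("the Gauss norm is attained").  Then `V` has a basis `b i ∈ V ∩ Λ` with a dual family of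
functionals `φ i`, each an `A`-linear combination of the coordinates.  Consequently `V ∩ Λ` is the
free `A`-module on the `b i`, and the reductions of the `b i` are linearly independent.
-/

namespace Fermat.Agent.P2.helper74

open scoped BigOperators

variable {L E : Type*} [Field L] [AddCommGroup E] [Module L E]

/-- `φ` is an `A`-linear combination of the coordinate functionals `κ`. -/
def IsIntegralCombo (A : ValuationSubring L) {ι : Type*} (κ : ι → (E →ₗ[L] L))
    (φ : E →ₗ[L] L) : Prop :=
  ∃ (s : Finset ι) (a : ι → A), ∀ z : E, φ z = ∑ m ∈ s, (a m : L) * κ m z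

section Combo

variable (A : ValuationSubring L) {ι : Type*} (κ : ι → (E →ₗ[L] L))

theorem IsIntegralCombo.coord (m : ι) : IsIntegralCombo A κ (κ m) := by
  classical
  refine ⟨{m}, fun _ => 1, fun z => ?_⟩
  simp

variable {A κ}

theorem IsIntegralCombo.smul {φ : E →ₗ[L] L} (h : IsIntegralCombo A κ φ) (c : A) :
    IsIntegralCombo A κ ((c : L) • φ) := by
  obtain ⟨s, a, ha⟩ := h
  refine ⟨s, fun m => c * a m, fun z => ?_⟩
  rw [LinearMap.smul_apply, ha, smul_eq_mul, Finset.mul_sum]
  refine Finset.sum_congr rfl fun m _ => ?_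
  push_cast
  ring

theorem IsIntegralCombo.sub {φ ψ : E →ₗ[L] L} (h : IsIntegralCombo A κ φ)
    (h' : IsIntegralCombo A κ ψ) : IsIntegralCombo A κ (φ - ψ) := by
  classical
  obtain ⟨s, a, ha⟩ := h
  obtain ⟨s', a', ha'⟩ := h'
  refine ⟨s ∪ s', fun m => (if m ∈ s then a m else 0) - (if m ∈ s' then a' m else 0),
    fun z => ?_⟩
  rw [LinearMap.sub_apply, ha, ha']
  have h1 : ∑ m ∈ s, (a m : L) * κ m z
      = ∑ m ∈ s ∪ s', ((if m ∈ s then a m else 0 : A) : L) * κ m z := by
    rw [← Finset.sum_subset (Finset.subset_union_left (s₁ := s) (s₂ := s'))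
      (f := fun m => ((if m ∈ s then a m else 0 : A) : L) * κ m z)]
    · refine Finset.sum_congr rfl fun m hm => ?_
      rw [if_pos hm]
    · intro m _ hm
      rw [if_neg hm]
      simp
  have h2 : ∑ m ∈ s', (a' m : L) * κ m z
      = ∑ m ∈ s ∪ s', ((if m ∈ s' then a' m else 0 : A) : L) * κ m z := by
    rw [← Finset.sum_subset (Finset.subset_union_right (s₁ := s) (s₂ := s'))
      (f := fun m => ((if m ∈ s' then a' m else 0 : A) : L) * κ m z)]
    · refine Finset.sum_congr rfl fun m hm => ?_
      rw [if_pos hm]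
    · intro m _ hm
      rw [if_neg hm]
      simp
  rw [h1, h2, ← Finset.sum_sub_distrib]
  refine Finset.sum_congr rfl fun m _ => ?_
  push_cast
  ring

/-- An integral combination of coordinates takes values in `A` on integral vectors. -/
theorem IsIntegralCombo.mem {φ : E →ₗ[L] L} (h : IsIntegralCombo A κ φ) {z : E}
    (hz : ∀ m, κ m z ∈ A) : φ z ∈ A := by
  obtain ⟨s, a, ha⟩ := h
  rw [ha]
  exact sum_mem fun m _ => A.mul_mem _ _ (a m).2 (hz m)

end Combo

section Pivot

variable (A : ValuationSubring L) {ι : Type*} (κ : ι → (E →ₗ[L] L)) (Λ : Set E)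

/-- **The pivot lemma.** -/
theorem exists_pivot_basis (hΛ : ∀ z ∈ Λ, ∀ m, κ m z ∈ A) :
    ∀ (n : ℕ) (V : Submodule L E), Module.finrank L V = n → FiniteDimensional L V →
    (∀ u ∈ V, u ≠ 0 → ∃ c : L, c ≠ 0 ∧ c • u ∈ Λ ∧ ∃ m : ι, ∃ a : A, (a : L) * κ m (c • u) = 1) →
    ∃ (b : Fin n → E) (φ : Fin n → (E →ₗ[L] L)),
      (∀ i, b i ∈ V) ∧ (∀ i, b i ∈ Λ) ∧ (∀ i, IsIntegralCombo A κ (φ i)) ∧
      (∀ i j, φ i (b j) = if i = j then 1 else 0) ∧ ∀ u ∈ V, u = ∑ i, φ i u • b i := by
  intro n
  induction n with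
  | zero =>
    intro V hV hfd _
    refine ⟨Fin.elim0, Fin.elim0, fun i => i.elim0, fun i => i.elim0, fun i => i.elim0,
      fun i => i.elim0, fun u hu => ?_⟩
    have : V = ⊥ := Submodule.finrank_eq_zero.mp hV
    rw [this, Submodule.mem_bot] at hu
    simp [hu]
  | succ n ih =>
    intro V hV hfd H
    -- a nonzero vector
    have hne : V ≠ ⊥ := by
      intro h
      rw [h, finrank_bot] at hV
      omega
    obtain ⟨u, huV, hu0⟩ := Submodule.exists_mem_ne_zero_of_ne_bot hne
    obtain ⟨c, hc0, hcΛ, m, a, ham⟩ := H u huV hu0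
    have hyV : c • u ∈ V := V.smul_mem c huV
    generalize c • u = y at hcΛ ham hyV
    set φ₀ : E →ₗ[L] L := (a : L) • κ m with hφ₀
    have hφ₀y : φ₀ y = 1 := by
      rw [hφ₀, LinearMap.smul_apply, smul_eq_mul]
      exact ham
    have hφ₀int : IsIntegralCombo A κ φ₀ := (IsIntegralCombo.coord A κ m).smul a
    -- the hyperplane
    set V' : Submodule L E := V ⊓ LinearMap.ker φ₀ with hV'
    have hV'le : V' ≤ V := inf_le_left
    have hfd' : FiniteDimensional L V' := Submodule.finiteDimensional_of_le hV'le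
    have hdecomp : ∀ v ∈ V, v - φ₀ v • y ∈ V' := by
      intro v hv
      refine ⟨V.sub_mem hv (V.smul_mem _ hyV), ?_⟩
      show φ₀ (v - φ₀ v • y) = 0
      rw [map_sub, map_smul, hφ₀y, smul_eq_mul, mul_one, sub_self]
    have hfin' : Module.finrank L V' = n := by
      have h1 := LinearMap.finrank_range_add_finrank_ker (φ₀.domRestrict V)
      have h2 : LinearMap.range (φ₀.domRestrict V) = ⊤ := by
        rw [LinearMap.range_eq_top]
        intro t
        refine ⟨⟨t • y, V.smul_mem t hyV⟩, ?_⟩
        rw [LinearMap.domRestrict_apply]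
        show φ₀ (t • y) = t
        rw [map_smul, hφ₀y, smul_eq_mul, mul_one]
      have h3 : Module.finrank L (LinearMap.ker (φ₀.domRestrict V)) = Module.finrank L V' := by
        rw [← Submodule.finrank_map_subtype_eq V (LinearMap.ker (φ₀.domRestrict V)),
          LinearMap.ker_domRestrict, Submodule.map_comap_subtype]
      rw [h2, finrank_top, Module.finrank_self, h3, hV] at h1
      omega
    obtain ⟨b', φ', hb'V, hb'Λ, hφ'int, hdual, hrec⟩ := ih V' hfin' hfd'
      (fun v hv hv0 => H v (hV'le hv) hv0)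
    refine ⟨Fin.cons y b', Fin.cons φ₀ (fun j => φ' j - (φ' j y) • φ₀), ?_, ?_, ?_, ?_, ?_⟩
    · intro i
      refine Fin.cases ?_ (fun j => ?_) i
      · simpa using hyV
      · simpa using hV'le (hb'V j)
    · intro i
      refine Fin.cases ?_ (fun j => ?_) i
      · simpa using hcΛ
      · simpa using hb'Λ j
    · intro i
      refine Fin.cases ?_ (fun j => ?_) i
      · simpa using hφ₀int
      · simp only [Fin.cons_succ]
        have hmem : φ' j y ∈ A := (hφ'int j).mem (hΛ y hcΛ)
        exact (hφ'int j).sub (hφ₀int.smul ⟨φ' j y, hmem⟩)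
    · intro i j
      refine Fin.cases ?_ (fun i' => ?_) i <;> refine Fin.cases ?_ (fun j' => ?_) j
      · simpa using hφ₀y
      · have : φ₀ (b' j') = 0 := (hb'V j').2
        simpa [Fin.succ_ne_zero, eq_comm] using this
      · simp [Fin.succ_ne_zero, hφ₀y]
      · have : φ₀ (b' j') = 0 := (hb'V j').2
        simp [this, hdual, Fin.succ_inj]
    · intro v hv
      rw [Fin.sum_univ_succ]
      simp only [Fin.cons_zero, Fin.cons_succ]
      have h1 := hrec _ (hdecomp v hv)
      have h2 : ∀ j, (φ' j - (φ' j y) • φ₀) v = φ' j (v - φ₀ v • y) := by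
        intro j
        rw [LinearMap.sub_apply, LinearMap.smul_apply, map_sub, map_smul, smul_eq_mul,
          smul_eq_mul]
        ring
      simp only [h2]
      rw [← h1]
      abel

end Pivot

end Fermat.Agent.P2.helper74
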