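import Mathlib
import Fermat.Prelude.Def_ModularCurve_LaurentCoeff
import Fermat.Agent.P2.helper74_Pivot

/-!
# P2 (helper74): integral bases of finite-dimensional spaces of Laurent series

For a valuation subring `A` of `L` with reduction `π : A →+* k`, and a finite-dimensional
`L`-subspace `V` of `LaurentSeries L` in which every nonzero element has a scalar multiple with
`A`-integral coefficients and nonzero reduction, the `A`-module `V_A = {Z : A((q)) | Z ∈ V}` is
free of rank `dim V`, and reduction modulo the maximal ideal is injective on `V_A / m V_A`.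
-/

namespace Fermat.Agent.P2.helper74

open ModularCurve HahnSeries

variable {L : Type*} [Field L]

/-- The `m`-th coefficient as a linear functional on Laurent series. -/
def coeffLin (m : ℤ) : LaurentSeries L →ₗ[L] L where
  toFun x := x.coeff m
  map_add' x y := by simp
  map_smul' c x := by simp

@[simp] theorem coeffLin_apply (m : ℤ) (x : LaurentSeries L) : coeffLin m x = x.coeff m := rfl

theorem coeffMap_subtype_injective (A : ValuationSubring L) :
    Function.Injective (coeffMap A.subtype) := by
  intro x y h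
  ext m
  have := congrArg (fun z => z.coeff m) h
  simpa using this

theorem coeffMap_subtype_smul (A : ValuationSubring L) (a : A) (Y : LaurentSeries A) :
    coeffMap A.subtype (a • Y) = (a : L) • coeffMap A.subtype Y := by
  ext m
  simp

theorem coeffMap_subtype_sum (A : ValuationSubring L) {n : ℕ} (a : Fin n → A)
    (Y : Fin n → LaurentSeries A) :
    coeffMap A.subtype (∑ i, a i • Y i) = ∑ i, (a i : L) • coeffMap A.subtype (Y i) := by
  rw [map_sum]
  exact Finset.sum_congr rfl fun i _ => coeffMap_subtype_smul A (a i) (Y i)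

/-- **Integral bases.** -/
theorem exists_integral_basis (A : ValuationSubring L) {k : Type*} [Field k] (π : A →+* k)
    (hπ : ∀ x : A, π x ≠ 0 → IsUnit x)
    (V : Submodule L (LaurentSeries L)) [FiniteDimensional L V]
    (H : ∀ u ∈ V, u ≠ 0 → ∃ c : L, c ≠ 0 ∧ ∃ Y : LaurentSeries A,
      coeffMap A.subtype Y = c • u ∧ coeffMap π Y ≠ 0) :
    ∃ Y : Fin (Module.finrank L V) → LaurentSeries A,
      (∀ i, coeffMap A.subtype (Y i) ∈ V) ∧
      LinearIndependent L (fun i => coeffMap A.subtype (Y i)) ∧
      (∀ Z : LaurentSeries A, coeffMap A.subtype Z ∈ V →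
        ∃ a : Fin (Module.finrank L V) → A, Z = ∑ i, a i • Y i) ∧
      (∀ a : Fin (Module.finrank L V) → A,
        coeffMap π (∑ i, a i • Y i) = 0 → ∀ i, π (a i) = 0) := by
  classical
  have hΛ : ∀ z ∈ Set.range (coeffMap A.subtype : LaurentSeries A → LaurentSeries L),
      ∀ m, coeffLin m z ∈ A := by
    rintro _ ⟨Z, rfl⟩ m
    rw [coeffLin_apply, coeffMap_coeff]
    exact (Z.coeff m).2
  obtain ⟨b, φ, hbV, hbΛ, hφint, hdual, hrec⟩ := exists_pivot_basis A coeffLin
    (Set.range (coeffMap A.subtype : LaurentSeries A → LaurentSeries L)) hΛ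
    (Module.finrank L V) V rfl inferInstance (by
      intro u hu hu0
      obtain ⟨c, hc0, Y, hY, hYπ⟩ := H u hu hu0
      refine ⟨c, hc0, ⟨Y, hY⟩, ?_⟩
      have : ∃ m, π (Y.coeff m) ≠ 0 := by
        by_contra hcon
        push Not at hcon
        apply hYπ
        ext m
        simpa using hcon m
      obtain ⟨m, hm⟩ := this
      obtain ⟨w, hw⟩ := hπ _ hm
      refine ⟨m, ⟨((w⁻¹ : Aˣ) : A), ?_⟩⟩
      rw [← hY, coeffLin_apply, coeffMap_coeff, ← hw]
      have h1 : ((w⁻¹ : Aˣ) : A) * (w : A) = 1 := Units.inv_mul w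
      have h2 : (((w⁻¹ : Aˣ) : A) : L) * ((w : A) : L) = ((1 : A) : L) := by
        rw [← h1]
        rfl
      exact h2)
  choose Y hY using hbΛ
  have hbY : ∀ i, coeffMap A.subtype (Y i) = b i := hY
  refine ⟨Y, fun i => by rw [hbY]; exact hbV i, ?_, ?_, ?_⟩
  · rw [linearIndependent_iff']
    intro s c hc j hj
    have h1 := congrArg (φ j) hc
    rw [map_sum, map_zero] at h1
    simp only [map_smul, hbY, hdual, smul_eq_mul, mul_ite, mul_one, mul_zero] at h1
    rw [Finset.sum_ite_eq s j, if_pos hj] at h1
    exact h1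
  · intro Z hZ
    have hmem : ∀ i, φ i (coeffMap A.subtype Z) ∈ A := fun i =>
      (hφint i).mem (hΛ _ ⟨Z, rfl⟩)
    refine ⟨fun i => ⟨φ i (coeffMap A.subtype Z), hmem i⟩, ?_⟩
    apply coeffMap_subtype_injective A
    rw [coeffMap_subtype_sum]
    simp only [hbY]
    exact hrec _ hZ
  · intro a ha j
    obtain ⟨s, α, hα⟩ := hφint j
    have h1 : φ j (coeffMap A.subtype (∑ i, a i • Y i)) = (a j : L) := by
      rw [coeffMap_subtype_sum, map_sum]
      simp only [map_smul, hbY, hdual, smul_eq_mul, mul_ite, mul_one, mul_zero]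
      rw [Finset.sum_ite_eq Finset.univ j, if_pos (Finset.mem_univ j)]
    rw [hα] at h1
    have h2 : a j = ∑ m ∈ s, α m * (∑ i, a i • Y i).coeff m := by
      apply Subtype.ext
      rw [← h1]
      push_cast
      refine Finset.sum_congr rfl fun m _ => ?_
      rw [coeffLin_apply, coeffMap_coeff]
      rfl
    rw [h2, map_sum]
    refine Finset.sum_eq_zero fun m _ => ?_
    rw [map_mul]
    have h3 : π ((∑ i, a i • Y i).coeff m) = (coeffMap π (∑ i, a i • Y i)).coeff m := by
      rw [coeffMap_coeff]
    rw [h3, ha]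
    simp

/-- The reductions of an integral basis are linearly independent over the residue field. -/
theorem linearIndependent_coeffMap_of_forall (A : ValuationSubring L) {k : Type*} [Field k]
    (π : A →+* k) (hπs : Function.Surjective π) {n : ℕ} (Y : Fin n → LaurentSeries A)
    (h : ∀ a : Fin n → A, coeffMap π (∑ i, a i • Y i) = 0 → ∀ i, π (a i) = 0) :
    LinearIndependent k (fun i => coeffMap π (Y i)) := by
  rw [Fintype.linearIndependent_iff]
  intro c hc i
  choose a ha using fun i => hπs (c i)
  have h1 : coeffMap π (∑ i, a i • Y i) = ∑ i, c i • coeffMap π (Y i) := by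
    rw [map_sum]
    refine Finset.sum_congr rfl fun i _ => ?_
    ext m
    simp [ha]
  rw [← ha i]
  exact h a (by rw [h1, hc]) i

end Fermat.Agent.P2.helper74
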