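import Mathlib
import Fermat.Prelude.Def_AlgebraicCurve_Repartitions
import Fermat.Agent.S24.helper75_FFCore2
import Fermat.Agent.P2.helper74_RiemannBound

/-!
# P2-RR (helper74): Riemann's theorem for function fields in characteristic zero

Unconditional instance of `exists_genus_of_sum_poles` using the landed S24 function-field core.
-/

namespace Fermat.Agent.P2.helper74

open AlgebraicCurve IntermediateField

variable {K F : Type*} [Field K] [Field F] [Algebra K F] [IsAlgClosed K] [CharZero K]

/-- A function field of one variable over an algebraically closed field of characteristic zero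
has a place. -/
theorem nonempty_place_charZero (x : F) (hx : Transcendental K x) [FiniteDimensional K⟮x⟯ F] :
    Nonempty (Place K F) := by
  by_contra h
  rw [not_nonempty_iff] at h
  have h1 := Fermat.Agent.S24.helper75.ff_sum_ord_poles x hx
  have h2 : (Fermat.Agent.S24.helper75.ff_finite_poles x hx).toFinset = ∅ :=
    Finset.eq_empty_of_isEmpty _
  rw [h2, Finset.sum_empty] at h1
  have hn : 0 < Module.finrank K⟮x⟯ F := Module.finrank_pos
  omega

/-- The `RiemannSetting` of a function field in characteristic zero. -/
theorem riemannSetting_charZero (x : F) (hx : Transcendental K x) [FiniteDimensional K⟮x⟯ F] :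
    RiemannSetting K F :=
  haveI := Fermat.Agent.S24.helper75.ff_hasPrincipalDivisors x hx
  haveI := nonempty_place_charZero x hx
  RiemannSetting.of_ff x hx

/-- **Riemann's theorem in characteristic zero.** -/
theorem exists_genus_charZero (x : F) (hx : Transcendental K x) [FiniteDimensional K⟮x⟯ F] :
    ∃ g : ℕ, (∀ D : Divisor K F, Divisor.degree D + 1 ≤ (ell D : ℤ) + g) ∧
      ∃ c : ℤ, ∀ D : Divisor K F, c ≤ Divisor.degree D →
        (ell D : ℤ) + g = Divisor.degree D + 1 :=
  exists_genus_of_sum_poles (riemannSetting_charZero x hx) x hx
    (Fermat.Agent.S24.helper75.ff_finite_poles x hx)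
    (Fermat.Agent.S24.helper75.ff_sum_ord_poles x hx).ge

end Fermat.Agent.P2.helper74
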