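import Mathlib
import Fermat.Agent.P2.helper29_Interface
import Fermat.Agent.P2.helper74_RiemannChar0
import Fermat.Agent.P2.helper74_PivotLaurent

/-!
# P2 [INJ-1] (helper22): dictionary `InL` ↔ Riemann-Roch spaces, scaled good representatives

* `isInfty_iff_eq` : the place at infinity is unique.
* `inL_iff_mem` : `InL E n f ↔ f ∈ L(n ∞)`.
* `exists_scaled_good` : every nonzero function regular off infinity has a scalar multiple with
  a GOOD integral `q`-expansion (from [VAL-SC], [VAL-INT], [VAL-UE]).
-/

set_option autoImplicit false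

noncomputable section

namespace Fermat.Agent.P2.helper22

open HahnSeries IntermediateField AlgebraicCurve ModularCurve
open Fermat.Agent.S18.helper19 Fermat.Agent.P2.helper29
open Fermat.Agent.S24

section Generic

variable {K : Type*} [Field K] {E : IntermediateField K (LaurentSeries K)}

/-- the place at infinity is unique -/
theorem isInfty_iff_eq {Pinf : Place K E} (h : IsInfty Pinf) (P : Place K E) :
    IsInfty P ↔ P = Pinf := by
  constructor
  · intro hP
    apply Place.ext
    ext f
    rw [helper82.mem_iff_ord_nonneg, helper82.mem_iff_ord_nonneg]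
    rcases eq_or_ne f 0 with rfl | hf
    · simp
    · rw [hP f hf, h f hf]
  · rintro rfl
    exact h

theorem forall_coeff_eq_zero_iff {f : LaurentSeries K} (hf : f ≠ 0) (n : ℤ) :
    (∀ k : ℤ, k < -n → f.coeff k = 0) ↔ -n ≤ f.order := by
  constructor
  · intro h
    by_contra hlt
    push Not at hlt
    exact hf (HahnSeries.coeff_order_eq_zero.1 (h _ hlt))
  · intro h k hk
    exact HahnSeries.coeff_eq_zero_of_lt_order (lt_of_lt_of_le hk h)

/-- `InL E n f` means `f ∈ L(n ∞)`. -/
theorem inL_iff_mem {Pinf : Place K E} (h : IsInfty Pinf) (n : ℤ) (f : LaurentSeries K) :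
    InL E n f ↔ ∃ hf : f ∈ E, (⟨f, hf⟩ : E) ∈ riemannRochSpace (Finsupp.single Pinf n) := by
  classical
  constructor
  · rintro ⟨hf, hreg, hco⟩
    refine ⟨hf, ?_⟩
    rw [helper74.mem_L_iff]
    intro v
    by_cases hf0 : (⟨f, hf⟩ : E) = 0
    · exact Or.inl hf0
    right
    have hf0' : f ≠ 0 := fun h0 => hf0 (Subtype.ext h0)
    by_cases hv : v = Pinf
    · subst hv
      rw [Finsupp.single_eq_same, h _ hf0]
      exact (forall_coeff_eq_zero_iff hf0' n).1 hco
    · rw [Finsupp.single_eq_of_ne hv, neg_zero]
      exact hreg v (fun hI => hv ((isInfty_iff_eq h v).1 hI))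
  · rintro ⟨hf, hmem⟩
    rw [helper74.mem_L_iff] at hmem
    refine ⟨hf, ?_, ?_⟩
    · intro P hP
      have hne : P ≠ Pinf := fun he => hP ((isInfty_iff_eq h P).2 he)
      rcases hmem P with h0 | h1
      · rw [h0]; simp
      · rwa [Finsupp.single_eq_of_ne hne, neg_zero] at h1
    · by_cases hf0 : f = 0
      · intro k _
        rw [hf0]; simp
      · rw [forall_coeff_eq_zero_iff hf0]
        rcases hmem Pinf with h0 | h1
        · exact absurd (congrArg Subtype.val h0) hf0
        · rw [Finsupp.single_eq_same, h _ (fun h0 => hf0 (congrArg Subtype.val h0))] at h1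
          exact h1

/-- the two scalar actions of `K` on `K((q))` agree -/
theorem algebraMap_mul_eq_smul (c : K) (f : LaurentSeries K) :
    algebraMap K (LaurentSeries K) c * f = c • f := by
  rw [algebraMap_laurentSeries_eq_single]
  exact HahnSeries.C_mul_eq_smul

theorem coe_smul_eq (c : K) (x : E) :
    ((c • x : E) : LaurentSeries K) = c • (x : LaurentSeries K) := by
  rw [Algebra.smul_def]
  exact algebraMap_mul_eq_smul c x

theorem inL_mem {n : ℤ} {f : LaurentSeries K} (h : InL E n f) : f ∈ E := h.1

/-- `InL` is stable under scalar multiplication -/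
theorem inL_smul {Pinf : Place K E} (h : IsInfty Pinf) {n : ℤ} {f : LaurentSeries K}
    (hf : InL E n f) (c : K) : InL E n (c • f) := by
  rw [inL_iff_mem h] at hf ⊢
  obtain ⟨hfE, hmem⟩ := hf
  have h1 := Submodule.smul_mem _ c hmem
  have h3 : ((c • (⟨f, hfE⟩ : E) : E) : LaurentSeries K) = c • f := coe_smul_eq c _
  have h2 : c • f ∈ E := h3 ▸ (c • (⟨f, hfE⟩ : E)).2
  have h4 : (⟨c • f, h2⟩ : E) = c • (⟨f, hfE⟩ : E) := Subtype.ext h3.symm
  exact ⟨h2, h4 ▸ h1⟩

/-- every element of `E` which is regular off infinity satisfies `InL E n` for some `n` -/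
theorem exists_inL_of_regular {f : LaurentSeries K} (hf : f ∈ E)
    (hreg : ∀ P : Place K E, ¬ IsInfty P → 0 ≤ P.ord (⟨f, hf⟩ : E)) :
    InL E (-f.order) f := by
  refine ⟨hf, hreg, fun k hk => ?_⟩
  rw [neg_neg] at hk
  exact HahnSeries.coeff_eq_zero_of_lt_order hk

/-- the inclusion `E → K((q))` as a `K`-linear map for the coefficientwise module structure -/
def valLin (E : IntermediateField K (LaurentSeries K)) : E →ₗ[K] LaurentSeries K where
  toFun x := x
  map_add' _ _ := rfl
  map_smul' c x := coe_smul_eq c x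

@[simp] theorem valLin_apply (x : E) : valLin E x = (x : LaurentSeries K) := rfl

theorem valLin_injective : Function.Injective (valLin E) := fun _ _ h => Subtype.ext h

/-- multiplication by a fixed series, restricted to `E` -/
def mulLin (E : IntermediateField K (LaurentSeries K)) (Q : LaurentSeries K) :
    E →ₗ[K] LaurentSeries K where
  toFun x := Q * x
  map_add' _ _ := mul_add _ _ _
  map_smul' c x := by
    simp only [RingHom.id_apply]
    rw [coe_smul_eq, ← algebraMap_mul_eq_smul, ← algebraMap_mul_eq_smul]
    ring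

@[simp] theorem mulLin_apply (Q : LaurentSeries K) (x : E) :
    mulLin E Q x = Q * (x : LaurentSeries K) := rfl

theorem mulLin_injective {Q : LaurentSeries K} (hQ : Q ≠ 0) :
    Function.Injective (mulLin E Q) := fun x y h => by
  apply Subtype.ext
  exact mul_left_cancel₀ hQ h

theorem ord_npow (v : Place K E) (f : E) (m : ℕ) : v.ord (f ^ m) = m * v.ord f := by
  have := v.ord_zpow f (m : ℤ)
  rwa [zpow_natCast] at this

theorem ord_div (v : Place K E) {f g : E} (hf : f ≠ 0) (hg : g ≠ 0) :
    v.ord (f / g) = v.ord f - v.ord g := by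
  rw [div_eq_mul_inv, v.ord_mul hf (inv_ne_zero hg), v.ord_inv]
  ring

/-- the order of a scalar multiple -/
theorem ord_smul_eq (v : Place K E) {c : K} (hc : c ≠ 0) (f : E) :
    v.ord (c • f) = v.ord f := by
  rcases eq_or_ne f 0 with rfl | hf
  · simp
  rw [Algebra.smul_def, v.ord_mul (by simpa using hc) hf, helper82.ord_algebraMap,
    zero_add]

end Generic

end Fermat.Agent.P2.helper22
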