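import Mathlib
import Fermat.Prelude.Def_ModularCurve_LaurentCoeff
import Fermat.Agent.P2.helper74_PivotLaurent

/-!
# P2 [INJ-1] (helper22): the lattice count

`A` a valuation subring of `L` with reduction `π : A →+* k`.  Let `V` be a finite-dimensional
`L`-subspace of `L((q))` in which every nonzero element has a scalar multiple with integral
coefficients and nonzero reduction, and let `W` be a finite-dimensional `k`-subspace of `k((q))`
containing the reductions of all integral elements of `V`.  Then `dim V ≤ dim W`
(`finrank_le_of_reduction`), and if `dim W ≤ dim V` then every element of `W` is the reduction of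
an integral element of `V` (`exists_lift_of_finrank_le`).
-/

set_option autoImplicit false

namespace Fermat.Agent.P2.helper22

open ModularCurve HahnSeries

variable {L : Type*} [Field L]

/-- the reductions of the integral elements of `V` contain `dim V` linearly independent
elements of `W`, together with the lifting property of an integral basis. -/
theorem exists_integral_basis_in (A : ValuationSubring L) {k : Type*} [Field k] (π : A →+* k)
    (hπ : ∀ x : A, π x ≠ 0 → IsUnit x) (hπs : Function.Surjective π)
    (V : Submodule L (LaurentSeries L)) [FiniteDimensional L V]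
    (H : ∀ u ∈ V, u ≠ 0 → ∃ c : L, c ≠ 0 ∧ ∃ Y : LaurentSeries A,
      coeffMap A.subtype Y = c • u ∧ coeffMap π Y ≠ 0)
    (W : Submodule k (LaurentSeries k))
    (hVW : ∀ Z : LaurentSeries A, coeffMap A.subtype Z ∈ V → coeffMap π Z ∈ W) :
    ∃ (Y : Fin (Module.finrank L V) → LaurentSeries A) (y : Fin (Module.finrank L V) → W),
      (∀ i, coeffMap A.subtype (Y i) ∈ V) ∧ (∀ i, (y i : LaurentSeries k) = coeffMap π (Y i)) ∧
      LinearIndependent k y := by
  obtain ⟨Y, hYV, -, -, hred⟩ := helper74.exists_integral_basis A π hπ V H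
  have hli := helper74.linearIndependent_coeffMap_of_forall A π hπs Y hred
  refine ⟨Y, fun i => ⟨coeffMap π (Y i), hVW _ (hYV i)⟩, hYV, fun i => rfl, ?_⟩
  exact LinearIndependent.of_comp W.subtype hli

/-- **Lattice count, inequality.** -/
theorem finrank_le_of_reduction (A : ValuationSubring L) {k : Type*} [Field k] (π : A →+* k)
    (hπ : ∀ x : A, π x ≠ 0 → IsUnit x) (hπs : Function.Surjective π)
    (V : Submodule L (LaurentSeries L)) [FiniteDimensional L V]
    (H : ∀ u ∈ V, u ≠ 0 → ∃ c : L, c ≠ 0 ∧ ∃ Y : LaurentSeries A,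
      coeffMap A.subtype Y = c • u ∧ coeffMap π Y ≠ 0)
    (W : Submodule k (LaurentSeries k)) [FiniteDimensional k W]
    (hVW : ∀ Z : LaurentSeries A, coeffMap A.subtype Z ∈ V → coeffMap π Z ∈ W) :
    Module.finrank L V ≤ Module.finrank k W := by
  obtain ⟨Y, y, -, -, hli⟩ := exists_integral_basis_in A π hπ hπs V H W hVW
  simpa using hli.fintype_card_le_finrank

/-- **Lattice count, surjectivity.** -/
theorem exists_lift_of_finrank_le (A : ValuationSubring L) {k : Type*} [Field k] (π : A →+* k)
    (hπ : ∀ x : A, π x ≠ 0 → IsUnit x) (hπs : Function.Surjective π)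
    (V : Submodule L (LaurentSeries L)) [FiniteDimensional L V]
    (H : ∀ u ∈ V, u ≠ 0 → ∃ c : L, c ≠ 0 ∧ ∃ Y : LaurentSeries A,
      coeffMap A.subtype Y = c • u ∧ coeffMap π Y ≠ 0)
    (W : Submodule k (LaurentSeries k)) [FiniteDimensional k W]
    (hVW : ∀ Z : LaurentSeries A, coeffMap A.subtype Z ∈ V → coeffMap π Z ∈ W)
    (hle : Module.finrank k W ≤ Module.finrank L V) :
    ∀ w ∈ W, ∃ Z : LaurentSeries A, coeffMap A.subtype Z ∈ V ∧ coeffMap π Z = w := by
  classical
  obtain ⟨Y, y, hYV, hy, hli⟩ := exists_integral_basis_in A π hπ hπs V H W hVW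
  have hcard : Fintype.card (Fin (Module.finrank L V)) = Module.finrank k W := by
    apply le_antisymm hli.fintype_card_le_finrank
    simpa using hle
  have hspan := hli.span_eq_top_of_card_eq_finrank' hcard
  intro w hw
  have hmem : (⟨w, hw⟩ : W) ∈ Submodule.span k (Set.range y) := by
    rw [hspan]; exact Submodule.mem_top
  obtain ⟨c, hc⟩ := (Submodule.mem_span_range_iff_exists_fun k).1 hmem
  choose a ha using fun i => hπs (c i)
  refine ⟨∑ i, a i • Y i, ?_, ?_⟩
  · rw [helper74.coeffMap_subtype_sum]
    exact Submodule.sum_mem _ fun i _ => Submodule.smul_mem _ _ (hYV i)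
  · have h1 : coeffMap π (∑ i, a i • Y i) = ∑ i, c i • coeffMap π (Y i) := by
      rw [map_sum]
      refine Finset.sum_congr rfl fun i _ => ?_
      ext n
      simp [ha]
    rw [h1]
    have h2 : ((∑ i, c i • y i : W) : LaurentSeries k) = w := by rw [hc]
    rw [← h2]
    simp [hy]

end Fermat.Agent.P2.helper22
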