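import Mathlib
import Fermat.Agent.P2.helper22_InL
import Fermat.Agent.P2.helper22_LatCount

/-!
# P2 [INJ-1] (helper22): the ideal step (lattice step) of (INJ)

Main results (namespace `Fermat.Agent.P2.helper22`), for hypotheses in the shape of
`helper29_Interface`:

* `genus_le`   : `[GEN-a]` the genus of the special fibre is at most the genus in
  characteristic `0`.
* `surjRed`    : `GenusEqStatement → SurjRedStatement`.
* `idealStep`  : `IdealStepStatement M A m`.
-/

set_option autoImplicit false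

noncomputable section

namespace Fermat.Agent.P2.helper22

open HahnSeries IntermediateField AlgebraicCurve ModularCurve
open Fermat.Agent.S18.helper19 Fermat.Agent.P2.helper29
open Fermat.Agent.S24

section Generic

variable {K : Type*} [Field K] {E : IntermediateField K (LaurentSeries K)}

/-- a multiplier: a nonzero function, regular off infinity, vanishing to order at least `-D v`
at every place `v ≠ ∞`. -/
theorem exists_multiplier (hS : helper74.RiemannSetting K E) {g : ℕ}
    (hineq : ∀ D : Divisor K E, Divisor.degree D + 1 ≤ (helper74.ell D : ℤ) + g)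
    (Pinf : Place K E) (D : Divisor K E) :
    ∃ q : E, q ≠ 0 ∧ ∀ v : Place K E, v ≠ Pinf → 0 ≤ v.ord q ∧ -D v ≤ v.ord q := by
  classical
  set Dneg : Divisor K E := D.mapRange (fun x => max 0 (-x)) (by simp) with hDneg
  set E₀ : Divisor K E := Finsupp.single Pinf (Divisor.degree Dneg + g) - Dneg with hE₀
  have hdeg : Divisor.degree E₀ = g := by
    rw [hE₀, map_sub, Divisor.degree_single, hS.deg_one]
    push_cast
    ring
  have hpos : 0 < helper74.ell E₀ := by
    have := hineq E₀
    rw [hdeg] at this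
    omega
  obtain ⟨q, hq0, hq⟩ := helper74.exists_ne_zero_of_ell_pos hpos
  refine ⟨q, hq0, fun v hv => ?_⟩
  have h1 := (helper74.mem_L_iff' hq0).1 hq v
  rw [hE₀, Finsupp.sub_apply, Finsupp.single_eq_of_ne hv, hDneg, Finsupp.mapRange_apply] at h1
  constructor
  · have := le_max_left 0 (-D v)
    omega
  · have := le_max_right 0 (-D v)
    omega

/-- divisor bookkeeping of the ideal step -/
theorem mem_L_pow_mul_inv {Pinf : Place K E} {m : ℕ} (D DQ : Divisor K E) (n : ℤ)
    {hF QF u : E} (hh0 : hF ≠ 0) (hQ0 : QF ≠ 0) (hu0 : u ≠ 0)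
    (hD : ∀ v : Place K E, (m : ℤ) * D v = v.ord hF) (hDQ : ∀ v : Place K E, DQ v = v.ord QF)
    (hu : u ∈ riemannRochSpace (Finsupp.single Pinf n - (D + DQ))) :
    (u / QF) ^ m * hF⁻¹ ∈ riemannRochSpace (Finsupp.single Pinf ((m : ℤ) * n)) := by
  classical
  have hg0 : u / QF ≠ 0 := div_ne_zero hu0 hQ0
  have hne : (u / QF) ^ m * hF⁻¹ ≠ 0 := mul_ne_zero (pow_ne_zero _ hg0) (inv_ne_zero hh0)
  rw [helper74.mem_L_iff' hne]
  intro v
  have h1 := (helper74.mem_L_iff' hu0).1 hu v
  rw [Finsupp.sub_apply, Finsupp.add_apply, hDQ] at h1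
  rw [v.ord_mul (pow_ne_zero _ hg0) (inv_ne_zero hh0), ord_npow, ord_div v hu0 hQ0, v.ord_inv,
    ← hD v]
  have hm : (0 : ℤ) ≤ m := Int.natCast_nonneg m
  by_cases hv : v = Pinf
  · subst hv
    rw [Finsupp.single_eq_same] at h1 ⊢
    nlinarith
  · rw [Finsupp.single_eq_of_ne hv] at h1 ⊢
    nlinarith

theorem mem_map_valLin_iff {Pinf : Place K E} (hPinf : IsInfty Pinf) (n : ℤ)
    (u : LaurentSeries K) :
    u ∈ (riemannRochSpace (Finsupp.single Pinf n)).map (valLin E) ↔ InL E n u := by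
  rw [inL_iff_mem hPinf, Submodule.mem_map]
  constructor
  · rintro ⟨x, hx, rfl⟩
    exact ⟨x.2, hx⟩
  · rintro ⟨hu, hx⟩
    exact ⟨⟨u, hu⟩, hx, rfl⟩

theorem finrank_map_valLin (V : Submodule K E) :
    Module.finrank K (V.map (valLin E)) = Module.finrank K V :=
  (Submodule.equivMapOfInjective (valLin E) valLin_injective V).finrank_eq.symm

theorem finrank_map_mulLin {Q : LaurentSeries K} (hQ : Q ≠ 0) (V : Submodule K E) :
    Module.finrank K (V.map (mulLin E Q)) = Module.finrank K V :=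
  (Submodule.equivMapOfInjective (mulLin E Q) (mulLin_injective hQ) V).finrank_eq.symm

theorem one_mem_L {Pinf : Place K E} {n : ℤ} (hn : 0 ≤ n) :
    (1 : E) ∈ riemannRochSpace (Finsupp.single Pinf n) := by
  classical
  rw [helper74.mem_L_iff' one_ne_zero]
  intro v
  rw [Place.ord_one]
  by_cases hv : v = Pinf
  · subst hv
    rw [Finsupp.single_eq_same]
    omega
  · rw [Finsupp.single_eq_of_ne hv]
    omega

theorem degree_single_of (hS : helper74.RiemannSetting K E) (P : Place K E) (n : ℤ) :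
    Divisor.degree (Finsupp.single P n) = n := by
  rw [Divisor.degree_single, hS.deg_one]
  simp

end Generic

section Modular

variable {M : ℕ} [NeZero M] {A : ValuationSubring Kb}

theorem incl_injective : Function.Injective (incl A) := helper74.coeffMap_subtype_injective A

theorem isUnit_of_residue_ne_zero (x : A) (hx : IsLocalRing.residue A x ≠ 0) : IsUnit x := by
  by_contra h
  exact hx ((IsLocalRing.residue_eq_zero_iff x).2 ((IsLocalRing.mem_maximalIdeal x).2 h))

omit [NeZero M] in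
theorem isGood_incl_ne_zero {Y : LaurentSeries A} (hY : IsGood A M Y) : incl A Y ≠ 0 := by
  intro h0
  have : Y = 0 := incl_injective (by rw [h0, map_zero])
  exact hY.2.2 (by rw [this, map_zero])

omit [NeZero M] in
theorem isGood_pow {Y : LaurentSeries A} (hY : IsGood A M Y) (m : ℕ) : IsGood A M (Y ^ m) := by
  induction m with
  | zero => rw [pow_zero]; exact isGood_one
  | succ k ih => rw [pow_succ]; exact ih.mul hY

/-- the characteristic `0` function field is a `RiemannSetting` -/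
theorem riemannSetting_FF (M : ℕ) [NeZero M] : helper74.RiemannSetting Kb (FF M) :=
  haveI := helper77.an_finiteDimensional M
  helper74.riemannSetting_charZero (xJ M) (helper77.an_transcendental M)

/-- **scaled good representatives**: a nonzero function regular off infinity has a scalar
multiple with a good integral `q`-expansion. -/
theorem exists_scaled_good {Pinf : Place Kb (FF M)} (hPinf : IsInfty Pinf)
    (hSc : ScaleStatement M A) (hInt : IntegralityStatement M A) (hReg : RegRedStatement M A)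
    {n : ℤ} {f : LaurentSeries Kb} (hf : InL (FF M) n f) (hf0 : f ≠ 0) :
    ∃ (c : Kb) (Y : LaurentSeries A), c ≠ 0 ∧ incl A Y = c • f ∧ IsGood A M Y ∧
      InL (FFb A M) n (red A Y) := by
  obtain ⟨c, Y₁, Y₂, hc, hY₁, hY₂, he⟩ := hSc f (inL_mem hf) hf0
  have hf' : InL (FF M) n (c⁻¹ • f) := inL_smul hPinf hf c⁻¹
  have he' : incl A Y₁ = (c⁻¹ • f) * incl A Y₂ := by
    rw [← algebraMap_mul_eq_smul, mul_assoc, ← he, ← mul_assoc, ← map_mul, inv_mul_cancel₀ hc,
      map_one, one_mul]
  have hw : IsWInt A M (c⁻¹ • f) := ⟨Y₁, Y₂, hY₁.1, hY₂, he'⟩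
  obtain ⟨Y, hY⟩ := hInt n _ hf' hw
  have hmul : Y * Y₂ = Y₁ := incl_injective (by rw [map_mul, hY, he'])
  have hred : red A Y * red A Y₂ = red A Y₁ := by rw [← map_mul, hmul]
  have hne : red A Y ≠ 0 := fun h0 => hY₁.2.2 (by rw [← hred, h0, zero_mul])
  have hfY : InL (FF M) n (incl A Y) := by rw [hY]; exact hf'
  have hL : InL (FFb A M) n (red A Y) := hReg n Y hfY
  exact ⟨c⁻¹, Y, inv_ne_zero hc, hY, ⟨inL_mem hfY, inL_mem hL, hne⟩, hL⟩

/-- hypothesis `H` of the lattice count for subspaces of functions regular off infinity -/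
theorem scaled_of_regular {Pinf : Place Kb (FF M)} (hPinf : IsInfty Pinf)
    (hSc : ScaleStatement M A) (hInt : IntegralityStatement M A) (hReg : RegRedStatement M A)
    (V : Submodule Kb (LaurentSeries Kb)) (hV : ∀ u ∈ V, ∃ n : ℤ, InL (FF M) n u) :
    ∀ u ∈ V, u ≠ 0 → ∃ c : Kb, c ≠ 0 ∧ ∃ Y : LaurentSeries A,
      coeffMap A.subtype Y = c • u ∧ coeffMap (IsLocalRing.residue A) Y ≠ 0 := by
  intro u hu hu0
  obtain ⟨n, hn⟩ := hV u hu
  obtain ⟨c, Y, hc, hY, hgood, -⟩ := exists_scaled_good hPinf hSc hInt hReg hn hu0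
  exact ⟨c, hc, Y, hY, hgood.2.2⟩

/-- shortcut instance (the instance found by synthesis, which is slow to find) -/
local instance algebraFFb : Algebra (kA A) (FFb A M) := SubalgebraClass.toAlgebra (FFb A M)

/-- **the reduction step**: if `g = Z / Y_Q` (`Z` integral in `F`, `Y_Q` good) satisfies
`g ^ m / h ∈ L(m n ∞)` for a function `h ≡ 1`, then the reduction of `Z` is `red Y_Q` times an
element of `L̄(n ∞̄)`. -/
theorem red_mem_of_pow {Qinf : Place (kA A) (FFb A M)} (hQinf : IsInfty Qinf)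
    (hInt : IntegralityStatement M A) (hReg : RegRedStatement M A) {m : ℕ} (hm : 0 < m)
    {h : LaurentSeries Kb} (hred1 : IsRedOne A M h) {YQ Z : LaurentSeries A}
    (hYQ : IsGood A M YQ) {N n : ℤ} (hZ : InL (FF M) N (incl A Z))
    (hH : InL (FF M) ((m : ℤ) * n) ((incl A Z / incl A YQ) ^ m * h⁻¹)) :
    ∃ y : FFb A M, y ∈ riemannRochSpace (Finsupp.single Qinf n) ∧
      red A Z = red A YQ * (y : LaurentSeries (kA A)) := by
  classical
  obtain ⟨Y₁, Y₂, hY₁, hY₂, he, hr⟩ := hred1
  have hQ0 : incl A YQ ≠ 0 := isGood_incl_ne_zero hYQ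
  have hY₁0 : incl A Y₁ ≠ 0 := isGood_incl_ne_zero hY₁
  have hh0 : h ≠ 0 := by
    rintro rfl
    rw [zero_mul] at he
    exact hY₁0 he
  -- the function `H` is `w`-integral
  have heq : incl A (Z ^ m * Y₂) =
      ((incl A Z / incl A YQ) ^ m * h⁻¹) * incl A (YQ ^ m * Y₁) := by
    rw [map_mul, map_mul, map_pow, map_pow, he, div_pow]
    field_simp
  have hW : IsWInt A M ((incl A Z / incl A YQ) ^ m * h⁻¹) := by
    refine ⟨Z ^ m * Y₂, YQ ^ m * Y₁, ?_, (isGood_pow hYQ m).mul hY₁, heq⟩
    rw [map_mul, map_pow]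
    exact mul_mem (pow_mem (inL_mem hZ) m) hY₂.1
  obtain ⟨YH, hYH⟩ := hInt _ _ hH hW
  have hLH : InL (FFb A M) ((m : ℤ) * n) (red A YH) := hReg _ YH (by rw [hYH]; exact hH)
  have hmul : YH * (YQ ^ m * Y₁) = Z ^ m * Y₂ := incl_injective (by rw [map_mul, hYH, ← heq])
  have hredmul : red A YH * red A YQ ^ m = red A Z ^ m := by
    have h1 : red A YH * (red A YQ ^ m * red A Y₁) = red A Z ^ m * red A Y₂ := by
      rw [← map_pow, ← map_pow, ← map_mul, ← map_mul, ← map_mul, hmul]
    rw [hr, ← mul_assoc] at h1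
    exact mul_right_cancel₀ hY₂.2.2 h1
  have hLZ : InL (FFb A M) N (red A Z) := hReg N Z hZ
  -- work in the field `FFb A M`
  set zF : FFb A M := ⟨red A Z, inL_mem hLZ⟩ with hzF
  set qF : FFb A M := ⟨red A YQ, hYQ.2.1⟩ with hqF
  have hqF0 : qF ≠ 0 := fun h0 => hYQ.2.2 (congrArg Subtype.val h0)
  obtain ⟨hHmem, hHL⟩ := (inL_iff_mem hQinf _ _).1 hLH
  set HF : FFb A M := ⟨red A YH, hHmem⟩ with hHF
  have hpow : (zF / qF) ^ m = HF := by
    rw [div_pow, div_eq_iff (pow_ne_zero _ hqF0)]
    apply Subtype.ext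
    exact hredmul.symm
  refine ⟨zF / qF, ?_, ?_⟩
  · by_cases hy0 : zF / qF = 0
    · rw [hy0]; exact Submodule.zero_mem _
    rw [helper74.mem_L_iff' hy0]
    intro v
    have hHF0 : HF ≠ 0 := by rw [← hpow]; exact pow_ne_zero _ hy0
    have h1 := (helper74.mem_L_iff' hHF0).1 hHL v
    rw [← hpow, ord_npow] at h1
    have hm' : (0 : ℤ) < m := by exact_mod_cast hm
    by_cases hv : v = Qinf
    · subst hv
      rw [Finsupp.single_eq_same] at h1 ⊢
      nlinarith
    · rw [Finsupp.single_eq_of_ne hv] at h1 ⊢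
      nlinarith
  · have h2 : qF * (zF / qF) = zF := mul_div_cancel₀ _ hqF0
    exact (congrArg Subtype.val h2).symm

/-- the two spaces `L(n ∞)` and `L̄(n ∞̄)` inside the Laurent series, with the hypotheses of the
lattice count -/
theorem lattice_setup {Pinf : Place Kb (FF M)} (hPinf : IsInfty Pinf)
    {Qinf : Place (kA A) (FFb A M)} (hQinf : IsInfty Qinf)
    (hSc : ScaleStatement M A) (hInt : IntegralityStatement M A) (hReg : RegRedStatement M A)
    (n : ℤ) :
    (∀ u ∈ (riemannRochSpace (Finsupp.single Pinf n)).map (valLin (FF M)), u ≠ 0 →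
      ∃ c : Kb, c ≠ 0 ∧ ∃ Y : LaurentSeries A,
        coeffMap A.subtype Y = c • u ∧ coeffMap (IsLocalRing.residue A) Y ≠ 0) ∧
    ∀ Z : LaurentSeries A,
      coeffMap A.subtype Z ∈ (riemannRochSpace (Finsupp.single Pinf n)).map (valLin (FF M)) →
      coeffMap (IsLocalRing.residue A) Z ∈
        (riemannRochSpace (Finsupp.single Qinf n)).map (valLin (FFb A M)) := by
  constructor
  · exact scaled_of_regular hPinf hSc hInt hReg _
      (fun u hu => ⟨n, (mem_map_valLin_iff hPinf n u).1 hu⟩)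
  · intro Z hZ
    rw [mem_map_valLin_iff hPinf] at hZ
    rw [mem_map_valLin_iff hQinf]
    exact hReg n Z hZ

/-- **[GEN-a]** the genus of the special fibre is at most the genus in characteristic `0`. -/
theorem genus_le (hSb : helper74.RiemannSetting (kA A) (FFb A M)) (hInf : InftyStatement M A)
    (hSc : ScaleStatement M A) (hInt : IntegralityStatement M A) (hReg : RegRedStatement M A)
    {g g' : ℕ} (hg : HasRiemannGenus Kb (FF M) g)
    (hg' : HasRiemannGenus (kA A) (FFb A M) g') : g' ≤ g := by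
  classical
  obtain ⟨⟨Pinf, hPinf⟩, ⟨Qinf, hQinf⟩⟩ := hInf
  have hS := riemannSetting_FF M
  obtain ⟨-, c, hc⟩ := hg
  obtain ⟨-, c', hc'⟩ := hg'
  set n : ℤ := max c c' with hn
  have : FiniteDimensional Kb (riemannRochSpace (Finsupp.single Pinf n)) :=
    helper74.finiteDimensional_L hS _
  have : FiniteDimensional (kA A) (riemannRochSpace (Finsupp.single Qinf n)) :=
    helper74.finiteDimensional_L hSb _
  obtain ⟨hH, hVW⟩ := lattice_setup hPinf hQinf hSc hInt hReg n
  have h1 := finrank_le_of_reduction A (IsLocalRing.residue A) isUnit_of_residue_ne_zero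
    IsLocalRing.residue_surjective _ hH _ hVW
  rw [finrank_map_valLin, finrank_map_valLin] at h1
  have h2 := hc (Finsupp.single Pinf n) (by rw [degree_single_of hS]; exact le_max_left _ _)
  have h3 := hc' (Finsupp.single Qinf n) (by rw [degree_single_of hSb]; exact le_max_right _ _)
  rw [degree_single_of hS] at h2
  rw [degree_single_of hSb] at h3
  unfold helper74.ell at h2 h3
  have h1' : (Module.finrank Kb (riemannRochSpace (Finsupp.single Pinf n)) : ℤ) ≤
      (Module.finrank (kA A) (riemannRochSpace (Finsupp.single Qinf n)) : ℤ) := by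
    exact_mod_cast h1
  have h4 : (g' : ℤ) ≤ g := by linarith
  exact_mod_cast h4

/-- **[SURJ]** from genus equality: for large `n` every element of `L̄(n ∞̄)` is the reduction
of an integral element of `L(n ∞)`. -/
theorem surjRed (hSb : helper74.RiemannSetting (kA A) (FFb A M)) (hInf : InftyStatement M A)
    (hSc : ScaleStatement M A) (hInt : IntegralityStatement M A) (hReg : RegRedStatement M A)
    (hGen : GenusEqStatement M A) : SurjRedStatement M A := by
  classical
  obtain ⟨⟨Pinf, hPinf⟩, ⟨Qinf, hQinf⟩⟩ := hInf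
  have hS := riemannSetting_FF M
  obtain ⟨g, ⟨hineq, -⟩, ⟨-, c', hc'⟩⟩ := hGen
  refine ⟨c', fun n hn y hy => ?_⟩
  have : FiniteDimensional Kb (riemannRochSpace (Finsupp.single Pinf n)) :=
    helper74.finiteDimensional_L hS _
  have : FiniteDimensional (kA A) (riemannRochSpace (Finsupp.single Qinf n)) :=
    helper74.finiteDimensional_L hSb _
  obtain ⟨hH, hVW⟩ := lattice_setup hPinf hQinf hSc hInt hReg n
  have hle : Module.finrank (kA A)
      ((riemannRochSpace (Finsupp.single Qinf n)).map (valLin (FFb A M))) ≤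
      Module.finrank Kb ((riemannRochSpace (Finsupp.single Pinf n)).map (valLin (FF M))) := by
    rw [finrank_map_valLin, finrank_map_valLin]
    have h2 := hineq (Finsupp.single Pinf n)
    have h3 := hc' (Finsupp.single Qinf n) (by rw [degree_single_of hSb]; exact hn)
    rw [degree_single_of hS] at h2
    rw [degree_single_of hSb] at h3
    unfold helper74.ell at h2 h3
    have h4 : (Module.finrank (kA A) (riemannRochSpace (Finsupp.single Qinf n)) : ℤ) ≤
        (Module.finrank Kb (riemannRochSpace (Finsupp.single Pinf n)) : ℤ) := by linarith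
    exact_mod_cast h4
  obtain ⟨Z, hZV, hZred⟩ := exists_lift_of_finrank_le A (IsLocalRing.residue A)
    isUnit_of_residue_ne_zero IsLocalRing.residue_surjective _ hH _ hVW hle y
    ((mem_map_valLin_iff hQinf n y).2 hy)
  exact ⟨Z, (mem_map_valLin_iff hPinf n _).1 hZV, hZred⟩

/-- **[I1] the ideal step.** -/
theorem idealStep (m : ℕ) (hSb : helper74.RiemannSetting (kA A) (FFb A M))
    (hInf : InftyStatement M A) (hSc : ScaleStatement M A) (hInt : IntegralityStatement M A)
    (hReg : RegRedStatement M A) (hGen : GenusEqStatement M A) :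
    IdealStepStatement M A m := by
  classical
  intro h hh hh0 hdiv hred1
  obtain ⟨⟨Pinf, hPinf⟩, ⟨Qinf, hQinf⟩⟩ := hInf
  rcases Nat.eq_zero_or_pos m with rfl | hm
  · -- `m = 0`: `h` has no zeros and poles
    refine ⟨1, one_mem _, one_ne_zero, ⟨1, 1, isGood_one, isGood_one, by simp, rfl⟩,
      -(h⁻¹).order, ?_⟩
    rw [pow_zero, one_mul]
    refine exists_inL_of_regular (inv_mem hh) (fun P _ => ?_)
    have h1 := hdiv hh P
    rw [Nat.cast_zero, zero_dvd_iff] at h1
    have h2 : (⟨h⁻¹, inv_mem hh⟩ : FF M) = (⟨h, hh⟩ : FF M)⁻¹ := rfl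
    rw [h2, P.ord_inv, h1]
    simp
  have hS := riemannSetting_FF M
  obtain ⟨g, ⟨hineq, -⟩, ⟨-, c', hc'⟩⟩ := hGen
  obtain ⟨hF, hhF⟩ : ∃ hF : FF M, (hF : LaurentSeries Kb) = h := ⟨⟨h, hh⟩, rfl⟩
  have hF0 : hF ≠ 0 := fun h0 => hh0 (by rw [← hhF, h0]; rfl)
  obtain ⟨Dh, hDh, hDhdeg⟩ := hS.principal.exists_divisor hF hF0
  have hdiv' : ∀ v : Place Kb (FF M), (m : ℤ) ∣ v.ord hF := by
    intro v
    have := hdiv hh v
    have e : (⟨h, hh⟩ : FF M) = hF := Subtype.ext hhF.symm
    rwa [e] at this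
  -- the divisor `D = div(h) / m`
  obtain ⟨D, hDdef⟩ : ∃ D : Divisor Kb (FF M), D = Dh.mapRange (fun x => x / (m : ℤ)) (by simp) :=
    ⟨_, rfl⟩
  have hD : ∀ v : Place Kb (FF M), (m : ℤ) * D v = v.ord hF := by
    intro v
    rw [hDdef, Finsupp.mapRange_apply, hDh]
    exact Int.mul_ediv_cancel' (hdiv' v)
  have hmD : (m : ℤ) • D = Dh := by
    ext v
    rw [Finsupp.smul_apply, smul_eq_mul, hD, hDh]
  have hDdeg : Divisor.degree D = 0 := by
    have := congrArg Divisor.degree hmD
    rw [map_zsmul, hDhdeg, smul_eq_mul] at this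
    rcases mul_eq_zero.1 this with h0 | h0
    · exact absurd (by exact_mod_cast h0) hm.ne'
    · exact h0
  -- the multiplier
  obtain ⟨q, hq0, hq⟩ := exists_multiplier hS hineq Pinf D
  have hqL : InL (FF M) (-(q : LaurentSeries Kb).order) q :=
    exists_inL_of_regular q.2
      (fun P hP => (hq P (fun he => hP ((isInfty_iff_eq hPinf P).2 he))).1)
  have hq0' : (q : LaurentSeries Kb) ≠ 0 := fun h0 => hq0 (Subtype.ext h0)
  obtain ⟨c, YQ, hc, hYQ, hYQgood, -⟩ := exists_scaled_good hPinf hSc hInt hReg hqL hq0'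
  obtain ⟨QF, hQF⟩ : ∃ QF : FF M, (QF : LaurentSeries Kb) = incl A YQ := ⟨⟨_, hYQgood.1⟩, rfl⟩
  have hQFq : QF = c • q := Subtype.ext (by rw [coe_smul_eq, hQF]; exact hYQ)
  have hQF0 : QF ≠ 0 := fun h0 => isGood_incl_ne_zero hYQgood (by rw [← hQF, h0]; rfl)
  have hQFord : ∀ v : Place Kb (FF M), v.ord QF = v.ord q := fun v => by
    rw [hQFq, ord_smul_eq v hc]
  obtain ⟨DQ, hDQ, hDQdeg⟩ := hS.principal.exists_divisor QF hQF0
  -- the degree `n` and the divisor `E = n ∞ - (D + div Q)`
  obtain ⟨n, hn⟩ : ∃ n : ℤ, n = max c' 0 := ⟨_, rfl⟩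
  have hnc : c' ≤ n := hn ▸ le_max_left _ _
  have hn0 : 0 ≤ n := hn ▸ le_max_right _ _
  obtain ⟨En, hEn⟩ : ∃ En : Divisor Kb (FF M), En = Finsupp.single Pinf n - (D + DQ) :=
    ⟨_, rfl⟩
  have hEndeg : Divisor.degree En = n := by
    rw [hEn, map_sub, map_add, hDdeg, hDQdeg, degree_single_of hS]
    simp
  have : FiniteDimensional Kb (riemannRochSpace En) := helper74.finiteDimensional_L hS En
  have : FiniteDimensional (kA A) (riemannRochSpace (Finsupp.single Qinf n)) :=
    helper74.finiteDimensional_L hSb _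
  have hYQ0 : red A YQ ≠ 0 := hYQgood.2.2
  -- regularity of the elements of `L(E)`
  have hVreg : ∀ u : FF M, u ∈ riemannRochSpace En → u ≠ 0 →
      ∀ P : Place Kb (FF M), ¬ IsInfty P → 0 ≤ P.ord u := by
    intro u hu hu0 P hP
    have hne : P ≠ Pinf := fun he => hP ((isInfty_iff_eq hPinf P).2 he)
    have h1 := (helper74.mem_L_iff' hu0).1 hu P
    rw [hEn, Finsupp.sub_apply, Finsupp.add_apply, Finsupp.single_eq_of_ne hne, hDQ,
      hQFord] at h1
    have h2 := (hq P hne).2
    linarith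
  have hVL : ∀ u ∈ (riemannRochSpace En).map (valLin (FF M)), ∃ N : ℤ, InL (FF M) N u := by
    rintro _ ⟨u, hu, rfl⟩
    refine ⟨-(u : LaurentSeries Kb).order, exists_inL_of_regular u.2 ?_⟩
    intro P hP
    by_cases hu0 : u = 0
    · subst hu0
      exact (Place.ord_zero P).ge
    · exact hVreg u hu hu0 P hP
  have hH := scaled_of_regular hPinf hSc hInt hReg _ hVL
  -- the key membership
  have hkey : ∀ Z : LaurentSeries A, incl A Z ∈ (riemannRochSpace En).map (valLin (FF M)) →
      Z ≠ 0 → InL (FF M) ((m : ℤ) * n) ((incl A Z / incl A YQ) ^ m * h⁻¹) := by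
    intro Z hZ hZ0
    obtain ⟨u, hu, hue⟩ := hZ
    rw [valLin_apply] at hue
    have hu0 : u ≠ 0 := by
      rintro rfl
      exact hZ0 (incl_injective (by rw [← hue, map_zero]; rfl))
    have h1 := mem_L_pow_mul_inv D DQ n hF0 hQF0 hu0 hD hDQ (by rw [← hEn]; exact hu)
    rw [inL_iff_mem hPinf]
    have e : (((u / QF) ^ m * hF⁻¹ : FF M) : LaurentSeries Kb) =
        (incl A Z / incl A YQ) ^ m * h⁻¹ := by
      rw [← hue, ← hQF, ← hhF]
      rfl
    have hmem : (incl A Z / incl A YQ) ^ m * h⁻¹ ∈ FF M := e ▸ ((u / QF) ^ m * hF⁻¹).2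
    refine ⟨hmem, ?_⟩
    have e' : (⟨_, hmem⟩ : FF M) = (u / QF) ^ m * hF⁻¹ := Subtype.ext e.symm
    rw [e']
    exact h1
  have hVW : ∀ Z : LaurentSeries A, incl A Z ∈ (riemannRochSpace En).map (valLin (FF M)) →
      red A Z ∈ (riemannRochSpace (Finsupp.single Qinf n)).map
        (mulLin (FFb A M) (red A YQ)) := by
    intro Z hZ
    by_cases hZ0 : Z = 0
    · rw [hZ0, map_zero]
      exact Submodule.zero_mem _
    obtain ⟨N, hN⟩ := hVL _ hZ
    obtain ⟨y, hy, hyeq⟩ := red_mem_of_pow hQinf hInt hReg hm hred1 hYQgood hN (hkey Z hZ hZ0)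
    exact ⟨y, hy, hyeq.symm⟩
  -- the count
  have hle : Module.finrank (kA A) ((riemannRochSpace (Finsupp.single Qinf n)).map
      (mulLin (FFb A M) (red A YQ))) ≤
      Module.finrank Kb ((riemannRochSpace En).map (valLin (FF M))) := by
    rw [finrank_map_valLin, finrank_map_mulLin hYQ0]
    have h2 := hineq En
    have h3 := hc' (Finsupp.single Qinf n) (by rw [degree_single_of hSb]; exact hnc)
    rw [hEndeg] at h2
    rw [degree_single_of hSb] at h3
    unfold helper74.ell at h2 h3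
    have h4 : (Module.finrank (kA A) (riemannRochSpace (Finsupp.single Qinf n)) : ℤ) ≤
        (Module.finrank Kb (riemannRochSpace En) : ℤ) := by linarith
    exact_mod_cast h4
  -- lift `red Y_Q`
  have h1W : red A YQ ∈ (riemannRochSpace (Finsupp.single Qinf n)).map
      (mulLin (FFb A M) (red A YQ)) :=
    ⟨1, one_mem_L hn0, by rw [mulLin_apply]; exact mul_one _⟩
  obtain ⟨Z, hZV, hZred⟩ := exists_lift_of_finrank_le A (IsLocalRing.residue A)
    isUnit_of_residue_ne_zero IsLocalRing.residue_surjective _ hH _ hVW hle _ h1W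
  have hZ0 : Z ≠ 0 := by
    rintro rfl
    rw [map_zero] at hZred
    exact hYQ0 hZred.symm
  have hZF : incl A Z ∈ FF M := by
    obtain ⟨u, -, hue⟩ := hZV
    rw [← hue]
    exact u.2
  have hZr : coeffMap (IsLocalRing.residue A) Z = red A YQ := hZred
  have hZgood : IsGood A M Z := by
    refine ⟨hZF, ?_, ?_⟩
    · rw [hZr]
      exact hYQgood.2.1
    · rw [hZr]
      exact hYQ0
  have hYQ0' : incl A YQ ≠ 0 := isGood_incl_ne_zero hYQgood
  refine ⟨incl A Z / incl A YQ, div_mem hZF hYQgood.1, div_ne_zero ?_ hYQ0',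
    ⟨Z, YQ, hZgood, hYQgood, ?_, hZred⟩, (m : ℤ) * n, hkey Z hZV hZ0⟩
  · exact fun h0 => hZ0 (incl_injective (by rw [h0, map_zero]))
  · rw [div_mul_cancel₀ _ hYQ0']

end Modular

end Fermat.Agent.P2.helper22
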