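import Mathlib
import Fermat.Prelude.Def_ModularCurve_LaurentCoeff
import Fermat.Agent.P2.helper74_Pivot

/-!
# P2 / tier 2 (helper22): the lattice count for FINITE FAMILIES of expansions

The same statements as `helper74.exists_integral_basis` and `helper22.exists_lift_of_finrank_le`,
for finite-dimensional subspaces `V` of `ι → L((q))` (e.g. pairs of expansions at two cusps):
integrality means that ALL components have coefficients in the valuation subring `A`, the
reduction is componentwise, and "the Gauss norm is attained" means that SOME component of the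
scaled vector has nonzero reduction.
-/

set_option autoImplicit false

noncomputable section

namespace Fermat.Agent.P2.helper22

open ModularCurve HahnSeries

variable {L : Type*} [Field L] {ι : Type*}

/-- componentwise coefficient map -/
def famMap {R S : Type*} [CommRing R] [CommRing S] (f : R →+* S) (Y : ι → LaurentSeries R) :
    ι → LaurentSeries S := fun i => coeffMap f (Y i)

@[simp] theorem famMap_apply {R S : Type*} [CommRing R] [CommRing S] (f : R →+* S)
    (Y : ι → LaurentSeries R) (i : ι) : famMap f Y i = coeffMap f (Y i) := rfl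

/-- the `(i, m)`-th coefficient as a linear functional -/
def coeffLinFam (p : ι × ℤ) : (ι → LaurentSeries L) →ₗ[L] L where
  toFun x := (x p.1).coeff p.2
  map_add' x y := by simp
  map_smul' c x := by simp

@[simp] theorem coeffLinFam_apply (p : ι × ℤ) (x : ι → LaurentSeries L) :
    coeffLinFam p x = (x p.1).coeff p.2 := rfl

theorem famMap_subtype_injective (A : ValuationSubring L) :
    Function.Injective (famMap (ι := ι) A.subtype) := by
  intro x y h
  funext i
  ext m
  have := congrArg (fun z : ι → LaurentSeries L => (z i).coeff m) h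
  simpa using this

theorem famMap_subtype_sum (A : ValuationSubring L) {n : ℕ} (a : Fin n → A)
    (Y : Fin n → ι → LaurentSeries A) :
    famMap A.subtype (∑ j, a j • Y j) = ∑ j, (a j : L) • famMap A.subtype (Y j) := by
  funext i
  ext m
  simp [famMap, Finset.sum_apply]

theorem famMap_sum {k : Type*} [Field k] (A : ValuationSubring L) (π : A →+* k) {n : ℕ}
    (a : Fin n → A) (Y : Fin n → ι → LaurentSeries A) :
    famMap π (∑ j, a j • Y j) = ∑ j, π (a j) • famMap π (Y j) := by
  funext i
  ext m
  simp [famMap, Finset.sum_apply]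

/-- **Integral bases for finite families of expansions.** -/
theorem exists_integral_basis_fam (A : ValuationSubring L) {k : Type*} [Field k] (π : A →+* k)
    (hπ : ∀ x : A, π x ≠ 0 → IsUnit x)
    (V : Submodule L (ι → LaurentSeries L)) [FiniteDimensional L V]
    (H : ∀ u ∈ V, u ≠ 0 → ∃ c : L, c ≠ 0 ∧ ∃ Y : ι → LaurentSeries A,
      famMap A.subtype Y = c • u ∧ famMap π Y ≠ 0) :
    ∃ Y : Fin (Module.finrank L V) → ι → LaurentSeries A,
      (∀ j, famMap A.subtype (Y j) ∈ V) ∧
      LinearIndependent L (fun j => famMap A.subtype (Y j)) ∧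
      (∀ Z : ι → LaurentSeries A, famMap A.subtype Z ∈ V →
        ∃ a : Fin (Module.finrank L V) → A, Z = ∑ j, a j • Y j) ∧
      (∀ a : Fin (Module.finrank L V) → A,
        famMap π (∑ j, a j • Y j) = 0 → ∀ j, π (a j) = 0) := by
  classical
  have hΛ : ∀ z ∈ Set.range (famMap (ι := ι) A.subtype), ∀ p, coeffLinFam p z ∈ A := by
    rintro _ ⟨Z, rfl⟩ p
    rw [coeffLinFam_apply, famMap_apply, coeffMap_coeff]
    exact ((Z p.1).coeff p.2).2
  obtain ⟨b, φ, hbV, hbΛ, hφint, hdual, hrec⟩ := helper74.exists_pivot_basis A coeffLinFam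
    (Set.range (famMap (ι := ι) A.subtype)) hΛ (Module.finrank L V) V rfl inferInstance (by
      intro u hu hu0
      obtain ⟨c, hc0, Y, hY, hYπ⟩ := H u hu hu0
      refine ⟨c, hc0, ⟨Y, hY⟩, ?_⟩
      have : ∃ p : ι × ℤ, π ((Y p.1).coeff p.2) ≠ 0 := by
        by_contra hcon
        push Not at hcon
        apply hYπ
        funext i
        ext m
        simpa using hcon (i, m)
      obtain ⟨p, hp⟩ := this
      obtain ⟨w, hw⟩ := hπ _ hp
      refine ⟨p, ⟨((w⁻¹ : Aˣ) : A), ?_⟩⟩
      rw [← hY, coeffLinFam_apply, famMap_apply, coeffMap_coeff, ← hw]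
      have h1 : ((w⁻¹ : Aˣ) : A) * (w : A) = 1 := Units.inv_mul w
      have h2 : (((w⁻¹ : Aˣ) : A) : L) * ((w : A) : L) = ((1 : A) : L) := by
        rw [← h1]
        rfl
      exact h2)
  choose Y hY using hbΛ
  have hbY : ∀ j, famMap A.subtype (Y j) = b j := hY
  refine ⟨Y, fun j => by rw [hbY]; exact hbV j, ?_, ?_, ?_⟩
  · rw [linearIndependent_iff']
    intro s c hc j hj
    have h1 := congrArg (φ j) hc
    rw [map_sum, map_zero] at h1
    simp only [map_smul, hbY, hdual, smul_eq_mul, mul_ite, mul_one, mul_zero] at h1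
    rw [Finset.sum_ite_eq s j, if_pos hj] at h1
    exact h1
  · intro Z hZ
    have hmem : ∀ j, φ j (famMap A.subtype Z) ∈ A := fun j =>
      (hφint j).mem (hΛ _ ⟨Z, rfl⟩)
    refine ⟨fun j => ⟨φ j (famMap A.subtype Z), hmem j⟩, ?_⟩
    apply famMap_subtype_injective A
    rw [famMap_subtype_sum]
    simp only [hbY]
    exact hrec _ hZ
  · intro a ha j
    obtain ⟨s, α, hα⟩ := hφint j
    have h1 : φ j (famMap A.subtype (∑ i, a i • Y i)) = (a j : L) := by
      rw [famMap_subtype_sum, map_sum]
      simp only [map_smul, hbY, hdual, smul_eq_mul, mul_ite, mul_one, mul_zero]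
      rw [Finset.sum_ite_eq Finset.univ j, if_pos (Finset.mem_univ j)]
    rw [hα] at h1
    have h2 : a j = ∑ p ∈ s, α p * ((∑ i, a i • Y i) p.1).coeff p.2 := by
      apply Subtype.ext
      rw [← h1]
      push_cast
      refine Finset.sum_congr rfl fun p _ => ?_
      rw [coeffLinFam_apply, famMap_apply, coeffMap_coeff]
      rfl
    rw [h2, map_sum]
    refine Finset.sum_eq_zero fun p _ => ?_
    rw [map_mul]
    have h3 : π (((∑ i, a i • Y i) p.1).coeff p.2) =
        (famMap π (∑ i, a i • Y i) p.1).coeff p.2 := by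
      rw [famMap_apply, coeffMap_coeff]
    rw [h3, ha]
    simp

/-- The reductions of an integral basis are linearly independent over the residue field. -/
theorem linearIndependent_famMap_of_forall (A : ValuationSubring L) {k : Type*} [Field k]
    (π : A →+* k) (hπs : Function.Surjective π) {n : ℕ} (Y : Fin n → ι → LaurentSeries A)
    (h : ∀ a : Fin n → A, famMap π (∑ j, a j • Y j) = 0 → ∀ j, π (a j) = 0) :
    LinearIndependent k (fun j => famMap π (Y j)) := by
  rw [Fintype.linearIndependent_iff]
  intro c hc j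
  choose a ha using fun j => hπs (c j)
  have h1 : famMap π (∑ j, a j • Y j) = ∑ j, c j • famMap π (Y j) := by
    rw [famMap_sum]
    exact Finset.sum_congr rfl fun j _ => by rw [ha]
  rw [← ha j]
  exact h a (by rw [h1, hc]) j

/-- **Lattice count for families, inequality.** -/
theorem finrank_le_of_reduction_fam (A : ValuationSubring L) {k : Type*} [Field k]
    (π : A →+* k) (hπ : ∀ x : A, π x ≠ 0 → IsUnit x) (hπs : Function.Surjective π)
    (V : Submodule L (ι → LaurentSeries L)) [FiniteDimensional L V]
    (H : ∀ u ∈ V, u ≠ 0 → ∃ c : L, c ≠ 0 ∧ ∃ Y : ι → LaurentSeries A,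
      famMap A.subtype Y = c • u ∧ famMap π Y ≠ 0)
    (W : Submodule k (ι → LaurentSeries k)) [FiniteDimensional k W]
    (hVW : ∀ Z : ι → LaurentSeries A, famMap A.subtype Z ∈ V → famMap π Z ∈ W) :
    Module.finrank L V ≤ Module.finrank k W := by
  obtain ⟨Y, hYV, -, -, hred⟩ := exists_integral_basis_fam A π hπ V H
  have hli := linearIndependent_famMap_of_forall A π hπs Y hred
  have hli' : LinearIndependent k (fun j => (⟨famMap π (Y j), hVW _ (hYV j)⟩ : W)) :=
    LinearIndependent.of_comp W.subtype hli
  simpa using hli'.fintype_card_le_finrank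

/-- **Lattice count for families, surjectivity.** -/
theorem exists_lift_of_finrank_le_fam (A : ValuationSubring L) {k : Type*} [Field k]
    (π : A →+* k) (hπ : ∀ x : A, π x ≠ 0 → IsUnit x) (hπs : Function.Surjective π)
    (V : Submodule L (ι → LaurentSeries L)) [FiniteDimensional L V]
    (H : ∀ u ∈ V, u ≠ 0 → ∃ c : L, c ≠ 0 ∧ ∃ Y : ι → LaurentSeries A,
      famMap A.subtype Y = c • u ∧ famMap π Y ≠ 0)
    (W : Submodule k (ι → LaurentSeries k)) [FiniteDimensional k W]
    (hVW : ∀ Z : ι → LaurentSeries A, famMap A.subtype Z ∈ V → famMap π Z ∈ W)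
    (hle : Module.finrank k W ≤ Module.finrank L V) :
    ∀ w ∈ W, ∃ Z : ι → LaurentSeries A, famMap A.subtype Z ∈ V ∧ famMap π Z = w := by
  classical
  obtain ⟨Y, hYV, -, -, hred⟩ := exists_integral_basis_fam A π hπ V H
  have hli := linearIndependent_famMap_of_forall A π hπs Y hred
  have hli' : LinearIndependent k (fun j => (⟨famMap π (Y j), hVW _ (hYV j)⟩ : W)) :=
    LinearIndependent.of_comp W.subtype hli
  have hcard : Fintype.card (Fin (Module.finrank L V)) = Module.finrank k W := by
    apply le_antisymm hli'.fintype_card_le_finrank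
    simpa using hle
  have hspan := hli'.span_eq_top_of_card_eq_finrank' hcard
  intro w hw
  have hmem : (⟨w, hw⟩ : W) ∈ Submodule.span k
      (Set.range fun j => (⟨famMap π (Y j), hVW _ (hYV j)⟩ : W)) := by
    rw [hspan]; exact Submodule.mem_top
  obtain ⟨c, hc⟩ := (Submodule.mem_span_range_iff_exists_fun k).1 hmem
  choose a ha using fun j => hπs (c j)
  refine ⟨∑ j, a j • Y j, ?_, ?_⟩
  · rw [famMap_subtype_sum]
    exact Submodule.sum_mem _ fun j _ => Submodule.smul_mem _ _ (hYV j)
  · rw [famMap_sum]
    have h2 : ((∑ j, c j • (⟨famMap π (Y j), hVW _ (hYV j)⟩ : W) : W) :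
        ι → LaurentSeries k) = w := by rw [hc]
    rw [← h2]
    simp [ha]

end Fermat.Agent.P2.helper22
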