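import Mathlib
import Fermat.Prelude.Def_ModularCurve_ReductionModL

/-!
# P2 [INJ-2] DISC step (helper23, task 591): shared definitions

* `capSubring A K₀` : the subring `A ∩ K₀` of `ℚ̄`;
* `phi R₀` : power series over a subring `R₀ ⊆ ℚ̄` as Laurent series over `ℚ̄`;
* `IsRatio R₀ f` : the Laurent series `f` is a quotient of two power series with coefficients
  in `R₀`.
-/

set_option autoImplicit false

noncomputable section

open HahnSeries IntermediateField AlgebraicCurve ModularCurve

namespace Fermat.Agent.P2.helper23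

/-- the base field `ℚ̄` -/
abbrev Kb : Type := AlgebraicClosure ℚ

/-- the function field of `X₀(N)` over `ℚ̄`, inside `ℚ̄((q))` -/
abbrev FF (N : ℕ) : IntermediateField Kb (LaurentSeries Kb) := modularFunctionFieldBar N

/-- `A ∩ K₀` as a subring of `ℚ̄`. -/
def capSubring (A : ValuationSubring Kb) (K₀ : IntermediateField ℚ Kb) : Subring Kb :=
  A.toSubring ⊓ K₀.toSubring

theorem mem_capSubring {A : ValuationSubring Kb} {K₀ : IntermediateField ℚ Kb} {x : Kb} :
    x ∈ capSubring A K₀ ↔ x ∈ A ∧ x ∈ K₀ := Iff.rfl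

/-- power series over a subring of `ℚ̄` as Laurent series over `ℚ̄` -/
def phi (R₀ : Subring Kb) : PowerSeries R₀ →+* LaurentSeries Kb :=
  (HahnSeries.ofPowerSeries ℤ Kb).comp (PowerSeries.map R₀.subtype)

theorem phi_apply (R₀ : Subring Kb) (G : PowerSeries R₀) :
    phi R₀ G = HahnSeries.ofPowerSeries ℤ Kb (PowerSeries.map R₀.subtype G) := rfl

theorem phi_coeff_natCast (R₀ : Subring Kb) (G : PowerSeries R₀) (n : ℕ) :
    (phi R₀ G).coeff (n : ℤ) = ((PowerSeries.coeff n G : R₀) : Kb) := by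
  rw [phi_apply, HahnSeries.ofPowerSeries_apply_coeff, PowerSeries.coeff_map]
  rfl

theorem phi_injective (R₀ : Subring Kb) : Function.Injective (phi R₀) := by
  intro G G' h
  ext n
  have h1 := congrArg (fun Y : LaurentSeries Kb => Y.coeff (n : ℤ)) h
  simp only [phi_coeff_natCast] at h1
  exact_mod_cast h1

theorem phi_ne_zero (R₀ : Subring Kb) {G : PowerSeries R₀} (hG : G ≠ 0) : phi R₀ G ≠ 0 :=
  (map_ne_zero_iff _ (phi_injective R₀)).mpr hG

/-- `f` is a quotient of two power series with coefficients in `R₀`. -/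
def IsRatio (R₀ : Subring Kb) (f : LaurentSeries Kb) : Prop :=
  ∃ G₁ G₂ : PowerSeries R₀, G₂ ≠ 0 ∧ f * phi R₀ G₂ = phi R₀ G₁

end Fermat.Agent.P2.helper23
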