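import Mathlib
import Fermat.Agent.P2.helper23_DiscDefs

/-!
# P2 [INJ-2] DISC step (helper23, task 591): the local ring of a prime of `R₀⟦X⟧`

For a prime element `P` of `R₀⟦X⟧` (`R₀` a principal ideal subring of `ℚ̄`) and an intermediate
field `F` of `ℚ̄((q)) / ℚ̄`, the elements of `F` that are quotients `G₁ / G₂` of power series over
`R₀` with `mult_P G₂ ≤ mult_P G₁` form a local subring `intSubring` of `F`.
-/

set_option autoImplicit false
set_option linter.unusedSectionVars false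

noncomputable section

open HahnSeries IntermediateField AlgebraicCurve ModularCurve

namespace Fermat.Agent.P2.helper23

variable {R₀ : Subring Kb} (F : IntermediateField Kb (LaurentSeries Kb)) {P : PowerSeries R₀}

/-- `f` is a quotient `G₁ / G₂` with `mult_P G₂ ≤ mult_P G₁`. -/
def IsIntAt (P : PowerSeries R₀) (f : LaurentSeries Kb) : Prop :=
  ∃ G₁ G₂ : PowerSeries R₀, G₂ ≠ 0 ∧ f * phi R₀ G₂ = phi R₀ G₁ ∧
    emultiplicity P G₂ ≤ emultiplicity P G₁

/-- `f` is a quotient `G₁ / G₂` with `mult_P G₂ < mult_P G₁`. -/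
def IsPosAt (P : PowerSeries R₀) (f : LaurentSeries Kb) : Prop :=
  ∃ G₁ G₂ : PowerSeries R₀, G₂ ≠ 0 ∧ f * phi R₀ G₂ = phi R₀ G₁ ∧
    emultiplicity P G₂ < emultiplicity P G₁

theorem IsPosAt.isIntAt {f : LaurentSeries Kb} (h : IsPosAt P f) : IsIntAt P f := by
  obtain ⟨G₁, G₂, h2, h12, hlt⟩ := h
  exact ⟨G₁, G₂, h2, h12, hlt.le⟩

theorem isIntAt_zero : IsIntAt P (0 : LaurentSeries Kb) :=
  ⟨0, 1, one_ne_zero, by simp, by simp [emultiplicity_zero]⟩

theorem isIntAt_one : IsIntAt P (1 : LaurentSeries Kb) :=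
  ⟨1, 1, one_ne_zero, by simp, le_rfl⟩

theorem IsIntAt.neg {f : LaurentSeries Kb} (h : IsIntAt P f) : IsIntAt P (-f) := by
  obtain ⟨G₁, G₂, h2, h12, hle⟩ := h
  refine ⟨-G₁, G₂, h2, ?_, ?_⟩
  · rw [map_neg, neg_mul, h12]
  · rwa [emultiplicity_neg]

theorem IsIntAt.mul (hP : Prime P) {f g : LaurentSeries Kb} (hf : IsIntAt P f)
    (hg : IsIntAt P g) : IsIntAt P (f * g) := by
  obtain ⟨G₁, G₂, h2, h12, hle⟩ := hf
  obtain ⟨G₁', G₂', h2', h12', hle'⟩ := hg
  refine ⟨G₁ * G₁', G₂ * G₂', mul_ne_zero h2 h2', ?_, ?_⟩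
  · rw [map_mul, map_mul, ← h12, ← h12']
    ring
  · rw [emultiplicity_mul hP, emultiplicity_mul hP]
    exact add_le_add hle hle'

theorem IsIntAt.add (hP : Prime P) {f g : LaurentSeries Kb} (hf : IsIntAt P f)
    (hg : IsIntAt P g) : IsIntAt P (f + g) := by
  obtain ⟨G₁, G₂, h2, h12, hle⟩ := hf
  obtain ⟨G₁', G₂', h2', h12', hle'⟩ := hg
  refine ⟨G₁ * G₂' + G₁' * G₂, G₂ * G₂', mul_ne_zero h2 h2', ?_, ?_⟩
  · rw [map_mul, map_add, map_mul, map_mul, ← h12, ← h12']
    ring
  · refine le_trans ?_ min_le_emultiplicity_add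
    rw [emultiplicity_mul hP, emultiplicity_mul hP, emultiplicity_mul hP]
    refine le_min (add_le_add hle le_rfl) ?_
    rw [add_comm]
    exact add_le_add hle' le_rfl

/-- the subring of `F` of quotients that are integral at `P` -/
def intSubring (hP : Prime P) : Subring F where
  carrier := {g | IsIntAt P (g : LaurentSeries Kb)}
  mul_mem' := fun ha hb => by
    simpa using IsIntAt.mul hP ha hb
  one_mem' := by simpa using isIntAt_one
  add_mem' := fun ha hb => by
    simpa using IsIntAt.add hP ha hb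
  zero_mem' := by simpa using isIntAt_zero
  neg_mem' := fun ha => by
    simpa using IsIntAt.neg ha

theorem mem_intSubring (hP : Prime P) {g : F} :
    g ∈ intSubring F hP ↔ IsIntAt P (g : LaurentSeries Kb) := Iff.rfl

theorem isIntAt_inv_of_le {f : LaurentSeries Kb} (hf : f ≠ 0) {G₁ G₂ : PowerSeries R₀}
    (h2 : G₂ ≠ 0) (h12 : f * phi R₀ G₂ = phi R₀ G₁)
    (hle : emultiplicity P G₁ ≤ emultiplicity P G₂) : IsIntAt P f⁻¹ := by
  have h1 : G₁ ≠ 0 := by
    rintro rfl
    rw [map_zero] at h12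
    exact (mul_ne_zero hf (phi_ne_zero R₀ h2)) h12
  refine ⟨G₂, G₁, h1, ?_, hle⟩
  rw [← h12]
  field_simp

theorem isUnit_of_mem_of_inv_mem (hP : Prime P) {g : F} (hg : g ∈ intSubring F hP)
    (hg' : g⁻¹ ∈ intSubring F hP) (hg0 : g ≠ 0) :
    IsUnit (⟨g, hg⟩ : intSubring F hP) := by
  refine isUnit_iff_exists_inv.mpr ⟨⟨g⁻¹, hg'⟩, ?_⟩
  apply Subtype.ext
  simp [hg0]

instance isLocalRing_intSubring (hP : Prime P) : IsLocalRing (intSubring F hP) := by
  refine IsLocalRing.of_isUnit_or_isUnit_one_sub_self fun a => ?_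
  obtain ⟨g, hg⟩ := a
  by_cases hg0 : g = 0
  · right
    subst hg0
    have : (1 : intSubring F hP) - ⟨0, hg⟩ = 1 := by
      apply Subtype.ext
      simp
    rw [this]
    exact isUnit_one
  obtain ⟨G₁, G₂, h2, h12, hle⟩ := hg
  have hg0' : (g : LaurentSeries Kb) ≠ 0 := by
    simpa using hg0
  rcases le_or_gt (emultiplicity P G₁) (emultiplicity P G₂) with h | h
  · left
    refine isUnit_of_mem_of_inv_mem F hP _ ?_ hg0
    rw [mem_intSubring]
    simpa using isIntAt_inv_of_le hg0' h2 h12 h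
  · right
    have h1g : (1 : F) - g ≠ 0 := by
      intro h0
      have hg1 : g = 1 := (sub_eq_zero.mp h0).symm
      rw [hg1] at h12
      simp only [OneMemClass.coe_one, one_mul] at h12
      have := phi_injective R₀ h12
      rw [this] at h
      exact lt_irrefl _ h
    have hmem : (1 : F) - g ∈ intSubring F hP :=
      sub_mem (one_mem _) ⟨G₁, G₂, h2, h12, hle⟩
    have hinv : ((1 : F) - g)⁻¹ ∈ intSubring F hP := by
      rw [mem_intSubring]
      have hrep : (((1 : F) - g : F) : LaurentSeries Kb) * phi R₀ G₂ = phi R₀ (G₂ - G₁) := by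
        rw [map_sub, ← h12]
        push_cast
        ring
      have hcoe : (((1 : F) - g : F) : LaurentSeries Kb) ≠ 0 := by
        intro h0
        exact h1g (Subtype.ext h0)
      have hle' : emultiplicity P (G₂ - G₁) ≤ emultiplicity P G₂ := by
        rw [← emultiplicity_neg, neg_sub, emultiplicity_sub_of_gt h]
      have := isIntAt_inv_of_le hcoe h2 hrep hle'
      simpa using this
    have hu := isUnit_of_mem_of_inv_mem F hP hmem hinv h1g
    have he : (1 : intSubring F hP) - ⟨g, ⟨G₁, G₂, h2, h12, hle⟩⟩ = ⟨(1 : F) - g, hmem⟩ := by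
      apply Subtype.ext
      simp
    rw [he]
    exact hu

end Fermat.Agent.P2.helper23

namespace Fermat.Agent.P2.helper23

/-! ### Integer values of quotients -/

section HasVal

variable {R₀ : Subring Kb} [IsPrincipalIdealRing R₀] {P : PowerSeries R₀}

theorem finiteMultiplicity_of_prime (hP : Prime P) {G : PowerSeries R₀} (hG : G ≠ 0) :
    FiniteMultiplicity P G :=
  FiniteMultiplicity.of_not_isUnit hP.not_isUnit hG

theorem emultiplicity_eq_coe (hP : Prime P) {G : PowerSeries R₀} (hG : G ≠ 0) :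
    emultiplicity P G = (multiplicity P G : ℕ∞) :=
  (finiteMultiplicity_of_prime hP hG).emultiplicity_eq_multiplicity

theorem multiplicity_mul' (hP : Prime P) {G G' : PowerSeries R₀} (hG : G ≠ 0) (hG' : G' ≠ 0) :
    multiplicity P (G * G') = multiplicity P G + multiplicity P G' :=
  multiplicity_mul hP (finiteMultiplicity_of_prime hP (mul_ne_zero hG hG'))

/-- `f` is a quotient `G₁ / G₂` of nonzero power series with `mult_P G₁ - mult_P G₂ = k`. -/
def HasVal (P : PowerSeries R₀) (f : LaurentSeries Kb) (k : ℤ) : Prop :=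
  ∃ G₁ G₂ : PowerSeries R₀, G₁ ≠ 0 ∧ G₂ ≠ 0 ∧ f * phi R₀ G₂ = phi R₀ G₁ ∧
    (multiplicity P G₁ : ℤ) - multiplicity P G₂ = k

theorem HasVal.ne_zero {f : LaurentSeries Kb} {k : ℤ} (h : HasVal P f k) : f ≠ 0 := by
  obtain ⟨G₁, G₂, h1, h2, h12, -⟩ := h
  rintro rfl
  rw [zero_mul] at h12
  exact phi_ne_zero R₀ h1 h12.symm

theorem hasVal_one (P : PowerSeries R₀) : HasVal P 1 0 :=
  ⟨1, 1, one_ne_zero, one_ne_zero, by simp, by simp⟩

theorem HasVal.mul (hP : Prime P) {f g : LaurentSeries Kb} {k l : ℤ} (hf : HasVal P f k)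
    (hg : HasVal P g l) : HasVal P (f * g) (k + l) := by
  obtain ⟨G₁, G₂, h1, h2, h12, hk⟩ := hf
  obtain ⟨G₁', G₂', h1', h2', h12', hl⟩ := hg
  refine ⟨G₁ * G₁', G₂ * G₂', mul_ne_zero h1 h1', mul_ne_zero h2 h2', ?_, ?_⟩
  · rw [map_mul, map_mul, ← h12, ← h12']
    ring
  · rw [multiplicity_mul' hP h1 h1', multiplicity_mul' hP h2 h2', ← hk, ← hl]
    push_cast
    ring

theorem HasVal.inv {f : LaurentSeries Kb} {k : ℤ} (hf : HasVal P f k) : HasVal P f⁻¹ (-k) := by
  have hf0 := hf.ne_zero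
  obtain ⟨G₁, G₂, h1, h2, h12, hk⟩ := hf
  refine ⟨G₂, G₁, h2, h1, ?_, ?_⟩
  · rw [← h12]
    field_simp
  · rw [← hk]
    ring

theorem HasVal.pow (hP : Prime P) {f : LaurentSeries Kb} {k : ℤ} (hf : HasVal P f k) (n : ℕ) :
    HasVal P (f ^ n) (n * k) := by
  induction n with
  | zero => simpa using hasVal_one P
  | succ n ih =>
    have := ih.mul hP hf
    rw [pow_succ]
    convert this using 1
    push_cast
    ring

theorem HasVal.zpow (hP : Prime P) {f : LaurentSeries Kb} {k : ℤ} (hf : HasVal P f k) (n : ℤ) :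
    HasVal P (f ^ n) (n * k) := by
  obtain ⟨n, rfl | rfl⟩ := n.eq_nat_or_neg
  · simpa using hf.pow hP n
  · have := (hf.pow hP n).inv
    rw [zpow_neg, zpow_natCast]
    convert this using 1
    ring

theorem HasVal.unique (hP : Prime P) {f : LaurentSeries Kb} {k l : ℤ} (hf : HasVal P f k)
    (hg : HasVal P f l) : k = l := by
  obtain ⟨G₁, G₂, h1, h2, h12, hk⟩ := hf
  obtain ⟨G₁', G₂', h1', h2', h12', hl⟩ := hg
  have h : G₁ * G₂' = G₁' * G₂ := by
    apply phi_injective R₀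
    rw [map_mul, map_mul, ← h12, ← h12']
    ring
  have hm := congrArg (multiplicity P) h
  rw [multiplicity_mul' hP h1 h2', multiplicity_mul' hP h1' h2] at hm
  rw [← hk, ← hl]
  have : (multiplicity P G₁ : ℤ) + multiplicity P G₂' = multiplicity P G₁' + multiplicity P G₂ := by
    exact_mod_cast hm
  linarith

theorem HasVal.isIntAt (hP : Prime P) {f : LaurentSeries Kb} {k : ℤ} (hf : HasVal P f k)
    (hk : 0 ≤ k) : IsIntAt P f := by
  obtain ⟨G₁, G₂, h1, h2, h12, hk'⟩ := hf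
  refine ⟨G₁, G₂, h2, h12, ?_⟩
  rw [emultiplicity_eq_coe hP h1, emultiplicity_eq_coe hP h2]
  have : multiplicity P G₂ ≤ multiplicity P G₁ := by
    have : (multiplicity P G₂ : ℤ) ≤ multiplicity P G₁ := by linarith
    exact_mod_cast this
  exact_mod_cast this

theorem IsIntAt.exists_hasVal (hP : Prime P) {f : LaurentSeries Kb} (hf : IsIntAt P f)
    (hf0 : f ≠ 0) : ∃ k : ℤ, 0 ≤ k ∧ HasVal P f k := by
  obtain ⟨G₁, G₂, h2, h12, hle⟩ := hf
  have h1 : G₁ ≠ 0 := by
    rintro rfl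
    rw [map_zero] at h12
    exact (mul_ne_zero hf0 (phi_ne_zero R₀ h2)) h12
  refine ⟨(multiplicity P G₁ : ℤ) - multiplicity P G₂, ?_, G₁, G₂, h1, h2, h12, rfl⟩
  rw [emultiplicity_eq_coe hP h1, emultiplicity_eq_coe hP h2] at hle
  have : multiplicity P G₂ ≤ multiplicity P G₁ := by exact_mod_cast hle
  have : (multiplicity P G₂ : ℤ) ≤ multiplicity P G₁ := by exact_mod_cast this
  linarith

end HasVal

end Fermat.Agent.P2.helper23
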