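import Mathlib
import Fermat.Agent.P2.helper23_DiscLocal
import Fermat.Agent.S24.helper82_FFBasic

/-!
# P2 [INJ-2] DISC step (helper23, task 591): the dictionary prime of `R₀⟦X⟧` ↦ place of `F`

A prime `P` of `R₀⟦X⟧` that divides no nonzero integer constant and at which some element of `F`
has nonzero value yields a place `𝔓` of `F / ℚ̄` such that the `P`-adic value is proportional to
`ord_𝔓` on all quotients of power series lying in `F`.
-/

set_option autoImplicit false
set_option linter.unusedSectionVars false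

noncomputable section

open HahnSeries IntermediateField AlgebraicCurve ModularCurve

namespace Fermat.Agent.P2.helper23

/-- a valuation subring of a field of characteristic `0` containing the inverses of the nonzero
integers contains every element algebraic over `ℤ` -/
theorem mem_valuationSubring_of_isAlgebraic {E : Type*} [Field E] [CharZero E]
    (V : ValuationSubring E) (hV : ∀ y : ℤ, y ≠ 0 → ((y : E))⁻¹ ∈ V) (z : E)
    (hz : IsAlgebraic ℤ z) : z ∈ V := by
  obtain ⟨y, hy, hint⟩ := hz.exists_integral_multiple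
  have hintV : IsIntegral V (y • z) := hint.tower_top
  obtain ⟨w, hw⟩ := IsIntegrallyClosed.isIntegral_iff.mp hintV
  have hyinv : ((y : E))⁻¹ ∈ V := hV y hy
  have hy0 : (y : E) ≠ 0 := by exact_mod_cast hy
  have : z = ((y : E))⁻¹ * (w : E) := by
    have hw' : (w : E) = y • z := hw
    rw [hw', zsmul_eq_mul]
    field_simp
  rw [this]
  exact V.mul_mem _ _ hyinv w.2

variable {R₀ : Subring Kb} [IsPrincipalIdealRing R₀] {P : PowerSeries R₀}
  (F : IntermediateField Kb (LaurentSeries Kb))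

/-- a nonzero natural number has value `0` at a prime that does not divide it -/
theorem hasVal_natCast (hP : Prime P) {n : ℕ}
    (hn : ¬ P ∣ PowerSeries.C ((n : ℕ) : R₀)) :
    HasVal P ((n : ℕ) : LaurentSeries Kb) 0 := by
  have hC : PowerSeries.C ((n : ℕ) : R₀) ≠ 0 := by
    intro h
    exact hn (h ▸ dvd_zero _)
  refine ⟨PowerSeries.C ((n : ℕ) : R₀), 1, hC, one_ne_zero, ?_, ?_⟩
  · rw [map_one, mul_one, map_natCast, map_natCast]
  · rw [multiplicity_eq_zero.mpr hn, multiplicity_eq_zero.mpr hP.not_dvd_one]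
    simp

theorem natCast_inv_mem_intSubring (hP : Prime P)
    (hconst : ∀ n : ℕ, n ≠ 0 → ¬ P ∣ PowerSeries.C ((n : ℕ) : R₀)) (n : ℕ) (hn : n ≠ 0) :
    ((n : F))⁻¹ ∈ intSubring F hP := by
  rw [mem_intSubring]
  have h := ((hasVal_natCast hP (hconst n hn)).inv).isIntAt hP (by simp)
  simpa using h

theorem intCast_inv_mem_intSubring (hP : Prime P)
    (hconst : ∀ n : ℕ, n ≠ 0 → ¬ P ∣ PowerSeries.C ((n : ℕ) : R₀)) (y : ℤ) (hy : y ≠ 0) :
    ((y : F))⁻¹ ∈ intSubring F hP := by
  obtain ⟨n, rfl | rfl⟩ := y.eq_nat_or_neg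
  · have hn : n ≠ 0 := by
      rintro rfl
      exact hy rfl
    simpa using natCast_inv_mem_intSubring F hP hconst n hn
  · have hn : n ≠ 0 := by
      rintro rfl
      exact hy rfl
    have := neg_mem (natCast_inv_mem_intSubring F hP hconst n hn)
    simpa [inv_neg] using this

theorem isAlgebraic_int_algebraMap (a : Kb) : IsAlgebraic ℤ (algebraMap Kb F a) := by
  have h1 : IsAlgebraic ℚ a := (AlgebraicClosure.isAlgebraic ℚ).isAlgebraic a
  have h2 : IsAlgebraic ℤ a := (IsFractionRing.isAlgebraic_iff ℤ ℚ Kb).mpr h1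
  exact h2.algebraMap

theorem algebraMap_mem_of_le (hP : Prime P)
    (hconst : ∀ n : ℕ, n ≠ 0 → ¬ P ∣ PowerSeries.C ((n : ℕ) : R₀))
    (V : ValuationSubring F) (hle : intSubring F hP ≤ V.toSubring) (a : Kb) :
    algebraMap Kb F a ∈ V := by
  have : CharZero F := charZero_of_injective_algebraMap (algebraMap Kb F).injective
  exact mem_valuationSubring_of_isAlgebraic V
    (fun y hy => hle (intCast_inv_mem_intSubring F hP hconst y hy)) _
    (isAlgebraic_int_algebraMap F a)

/-- an element of positive value is not a unit of the local ring -/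
theorem not_isUnit_of_hasVal_pos (hP : Prime P) {g : F} {k : ℤ}
    (hg : HasVal P (g : LaurentSeries Kb) k) (hk : 0 < k) :
    ¬ IsUnit (⟨g, hg.isIntAt hP hk.le⟩ : intSubring F hP) := by
  intro hu
  obtain ⟨w, hw⟩ := isUnit_iff_exists_inv.mp hu
  have hw1 : g * (w : F) = 1 := by
    have := congrArg (fun x : intSubring F hP => (x : F)) hw
    simpa using this
  have hg0 : g ≠ 0 := by
    rintro rfl
    simp at hw1
  have hwe : (w : F) = g⁻¹ := eq_inv_of_mul_eq_one_right hw1
  have hwint : IsIntAt P ((g⁻¹ : F) : LaurentSeries Kb) := by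
    have := w.2
    rw [hwe] at this
    exact this
  have hne : ((g⁻¹ : F) : LaurentSeries Kb) ≠ 0 := by
    simpa using hg0
  obtain ⟨k', hk', hv⟩ := hwint.exists_hasVal hP hne
  have hv' : HasVal P ((g⁻¹ : F) : LaurentSeries Kb) (-k) := by
    simpa using hg.inv
  have := hv.unique hP hv'
  omega

theorem coe_zpow_ff (g : F) (n : ℤ) : ((g ^ n : F) : LaurentSeries Kb) = (g : LaurentSeries Kb) ^ n := by
  obtain ⟨n, rfl | rfl⟩ := n.eq_nat_or_neg
  · simp
  · simp

/-- **Dictionary.** -/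
theorem exists_place_of_prime
    (hD5 : ∀ V : ValuationSubring F, (∀ a : Kb, algebraMap Kb F a ∈ V) → V ≠ ⊤ →
      ∃ 𝔓 : Place Kb F, 𝔓.toValuationSubring = V)
    (hP : Prime P) (hconst : ∀ n : ℕ, n ≠ 0 → ¬ P ∣ PowerSeries.C ((n : ℕ) : R₀))
    (h : F) {k₀ : ℤ} (hk₀ : k₀ ≠ 0) (hh : HasVal P (h : LaurentSeries Kb) k₀) :
    ∃ 𝔓 : Place Kb F,
      (∀ (g : F) (k : ℤ), HasVal P (g : LaurentSeries Kb) k → 0 ≤ k → 0 ≤ 𝔓.ord g) ∧
      (∀ (g : F) (k : ℤ), HasVal P (g : LaurentSeries Kb) k → 0 < k → 0 < 𝔓.ord g) ∧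
      ∀ (g t : F) (k l : ℤ), HasVal P (g : LaurentSeries Kb) k →
        HasVal P (t : LaurentSeries Kb) l → k * 𝔓.ord t = l * 𝔓.ord g := by
  obtain ⟨V, hle, hloc⟩ := (LocalSubring.mk (intSubring F hP)).exists_le_valuationSubring
  have hle' : intSubring F hP ≤ V.toSubring := hle
  have hK := algebraMap_mem_of_le F hP hconst V hle'
  have hpos : ∀ (g : F) (k : ℤ), HasVal P (g : LaurentSeries Kb) k → 0 < k → g⁻¹ ∉ V := by
    intro g k hg hk hinv
    have hgV : g ∈ V := hle' (hg.isIntAt hP hk.le)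
    have hg0 : g ≠ 0 := by
      intro h0
      apply hg.ne_zero
      simp [h0]
    have hu : IsUnit (Subring.inclusion hle (⟨g, hg.isIntAt hP hk.le⟩ : intSubring F hP)) := by
      refine isUnit_iff_exists_inv.mpr ⟨⟨g⁻¹, hinv⟩, ?_⟩
      apply Subtype.ext
      simp [hg0]
    exact not_isUnit_of_hasVal_pos F hP hg hk (hloc.map_nonunit _ hu)
  have hVtop : V ≠ ⊤ := by
    intro htop
    rcases lt_or_gt_of_ne hk₀ with hk | hk
    · have h1 : HasVal P ((h⁻¹ : F) : LaurentSeries Kb) (-k₀) := by simpa using hh.inv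
      refine hpos h⁻¹ (-k₀) h1 (by omega) ?_
      rw [htop]
      exact ValuationSubring.mem_top _
    · refine hpos h k₀ hh hk ?_
      rw [htop]
      exact ValuationSubring.mem_top _
  obtain ⟨𝔓, h𝔓⟩ := hD5 V hK hVtop
  have hnn : ∀ (g : F) (k : ℤ), HasVal P (g : LaurentSeries Kb) k → 0 ≤ k → 0 ≤ 𝔓.ord g := by
    intro g k hg hk
    apply Fermat.Agent.S24.helper82.ord_nonneg_of_mem
    rw [h𝔓]
    exact hle' (hg.isIntAt hP hk)
  refine ⟨𝔓, hnn, ?_, ?_⟩
  · intro g k hg hk
    have h0 := hnn g k hg hk.le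
    have h1 : ¬ 0 ≤ 𝔓.ord g⁻¹ := by
      intro h2
      have := Fermat.Agent.S24.helper82.mem_of_ord_nonneg 𝔓 h2
      rw [h𝔓] at this
      exact hpos g k hg hk this
    rw [Place.ord_inv] at h1
    omega
  · intro g t k l hg ht
    have hg0 : g ≠ 0 := by
      intro h0
      apply hg.ne_zero
      simp [h0]
    have ht0 : t ≠ 0 := by
      intro h0
      apply ht.ne_zero
      simp [h0]
    have hz : HasVal P ((g ^ l * t ^ (-k) : F) : LaurentSeries Kb) 0 := by
      have := (hg.zpow hP l).mul hP (ht.zpow hP (-k))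
      have he : l * k + -k * l = 0 := by ring
      rw [he] at this
      simpa [coe_zpow_ff] using this
    have hz' : HasVal P (((g ^ l * t ^ (-k))⁻¹ : F) : LaurentSeries Kb) 0 := by
      simpa using hz.inv
    have h1 := hnn _ 0 hz le_rfl
    have h2 := hnn _ 0 hz' le_rfl
    rw [Place.ord_inv] at h2
    rw [Place.ord_mul _ (zpow_ne_zero _ hg0) (zpow_ne_zero _ ht0), Place.ord_zpow,
      Place.ord_zpow] at h1 h2
    linarith

end Fermat.Agent.P2.helper23
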