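import Mathlib
import Fermat.Prelude.Def_ModularCurve_ReductionModL
import Fermat.Agent.P2.helper23_DiscDefs

/-!
# P2 [DISC-E5] (helper44, task 765): the prime `X` of `R₀⟦X⟧`

Statements VERBATIM from `helper23_DiscBlueprint2` (E5):

* `multiplicity_eq_of_dvd_X` : a prime dividing `X` has the same multiplicities as `X`;
* `order_phi` : the `q`-order of a power series is its `X`-adic multiplicity;
* `exists_unit_jq` : `j = X⁻¹ * (unit of R₀⟦X⟧)`.
-/

set_option autoImplicit false

noncomputable section

open HahnSeries IntermediateField AlgebraicCurve ModularCurve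
open Fermat.Agent.P2.helper23

namespace Fermat.Agent.P2.helper44

/-- (E5a) a prime dividing `X` is associated to `X`. -/
theorem multiplicity_eq_of_dvd_X {R : Type*} [CommRing R] [IsDomain R] {P : PowerSeries R}
    (hP : Prime P) (hX : P ∣ PowerSeries.X) (G : PowerSeries R) :
    multiplicity P G = multiplicity PowerSeries.X G := by
  have hass : Associated P PowerSeries.X := hP.associated_of_dvd PowerSeries.X_prime hX
  exact multiplicity_eq_of_associated_left hass.symm

/-- (E5b) the `q`-order of a power series is its `X`-adic multiplicity. -/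
theorem order_phi (R₀ : Subring Kb) {G : PowerSeries R₀} (hG : G ≠ 0) :
    (phi R₀ G).order = (multiplicity PowerSeries.X G : ℤ) := by
  -- the order of `G` as a natural number
  have hfin : FiniteMultiplicity (PowerSeries.X : PowerSeries R₀) G := by
    rw [finiteMultiplicity_iff_emultiplicity_ne_top, ← PowerSeries.order_eq_emultiplicity_X]
    exact (PowerSeries.order_finite_iff_ne_zero.2 hG).ne
  have hord : G.order = (multiplicity PowerSeries.X G : ℕ∞) := by
    rw [PowerSeries.order_eq_emultiplicity_X, hfin.emultiplicity_eq_multiplicity]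
  set n := multiplicity (PowerSeries.X : PowerSeries R₀) G with hn
  have hcoeff : PowerSeries.coeff n G ≠ 0 := (PowerSeries.order_eq_nat.1 hord).1
  have hlt : ∀ i : ℕ, i < n → PowerSeries.coeff i G = 0 := by
    intro i hi
    apply PowerSeries.coeff_of_lt_order
    rw [hord]
    exact_mod_cast hi
  apply le_antisymm
  · apply HahnSeries.order_le_of_coeff_ne_zero
    rw [phi_coeff_natCast]
    intro h
    exact hcoeff (Subtype.ext h)
  · by_contra hcon
    rw [not_le] at hcon
    have h0 : phi R₀ G ≠ 0 := phi_ne_zero R₀ hG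
    apply h0
    apply HahnSeries.coeff_order_eq_zero.1
    rcases lt_or_ge (phi R₀ G).order 0 with hneg | hpos
    · rw [phi_apply]
      exact ModularCurve.ofPowerSeries_coeff_of_neg _ (by rwa [← phi_apply])
    · obtain ⟨i, hi⟩ := Int.eq_ofNat_of_zero_le hpos
      rw [hi, phi_coeff_natCast, hlt i (by rw [hi] at hcon; exact_mod_cast hcon)]
      rfl

/-- (E5c) `j = X⁻¹ * (unit of R₀⟦X⟧)`. -/
theorem exists_unit_jq (R₀ : Subring Kb) :
    ∃ J : PowerSeries R₀, IsUnit J ∧ jqModC Kb * phi R₀ PowerSeries.X = phi R₀ J := by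
  refine ⟨jNum.map (Int.castRingHom R₀), ?_, ?_⟩
  · rw [PowerSeries.isUnit_iff_constantCoeff, ← PowerSeries.coeff_zero_eq_constantCoeff_apply,
      PowerSeries.coeff_map, PowerSeries.coeff_zero_eq_constantCoeff_apply, constantCoeff_jNum,
      map_one]
    exact isUnit_one
  · have hX : phi R₀ PowerSeries.X = HahnSeries.single (1 : ℤ) (1 : Kb) := by
      rw [phi_apply, PowerSeries.map_X, HahnSeries.ofPowerSeries_X]
    have hJ : phi R₀ (jNum.map (Int.castRingHom R₀)) =
        HahnSeries.ofPowerSeries ℤ Kb (jNum.map (Int.castRingHom Kb)) := by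
      rw [phi_apply]
      congr 1
    rw [hX, hJ, jqModC, mul_comm (HahnSeries.single (-1 : ℤ) (1 : Kb)), mul_assoc,
      HahnSeries.single_mul_single]
    simp

end Fermat.Agent.P2.helper44

end
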