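import Mathlib
import Fermat.Agent.P2.helper23_DiscDict
import Fermat.Agent.P2.helper44_DiscX

/-!
# P2 [INJ-2] DISC step (helper23, task 591): the multiplicity claim

For `H = φ a / φ b` in `F` (`a b : R₀⟦X⟧`) whose divisor is divisible by `m` and which is regular
where `j` is finite, all differences `mult_P a - mult_P b` (`P` a prime of `R₀⟦X⟧`) are divisible
by `m`, and nonnegative for `P` not associated to `X`.
-/

set_option autoImplicit false
set_option linter.unusedSectionVars false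

noncomputable section

open HahnSeries IntermediateField AlgebraicCurve ModularCurve

namespace Fermat.Agent.P2.helper23

theorem laurent_order_mul {x y : LaurentSeries Kb} (hx : x ≠ 0) (hy : y ≠ 0) :
    (x * y).order = x.order + y.order := by
  have h := HahnSeries.orderTop_mul x y
  rw [← order_eq_orderTop_of_ne_zero (mul_ne_zero hx hy), ← order_eq_orderTop_of_ne_zero hx,
    ← order_eq_orderTop_of_ne_zero hy, ← WithTop.coe_add] at h
  exact WithTop.coe_injective h

variable {R₀ : Subring Kb} [IsPrincipalIdealRing R₀]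
  (F : IntermediateField Kb (LaurentSeries Kb))

theorem IsRatio.exists_hasVal {P : PowerSeries R₀} {f : LaurentSeries Kb} (hf : IsRatio R₀ f)
    (hf0 : f ≠ 0) : ∃ l : ℤ, HasVal P f l := by
  obtain ⟨G₁, G₂, h2, h12⟩ := hf
  have h1 : G₁ ≠ 0 := by
    rintro rfl
    rw [map_zero] at h12
    exact (mul_ne_zero hf0 (phi_ne_zero R₀ h2)) h12
  exact ⟨_, G₁, G₂, h1, h2, h12, rfl⟩

theorem multiplicity_unit_eq_zero {P G : PowerSeries R₀} (hP : Prime P) (hG : IsUnit G) :
    multiplicity P G = 0 :=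
  multiplicity_eq_zero.mpr fun h => hP.not_isUnit (isUnit_of_dvd_unit h hG)

/-- `j` has value `0` at a prime not dividing `X` -/
theorem hasVal_jq {P : PowerSeries R₀} (hP : Prime P) (hX : ¬ P ∣ PowerSeries.X) :
    HasVal P (jqModC Kb) 0 := by
  obtain ⟨J, hJ, hJe⟩ := Fermat.Agent.P2.helper44.exists_unit_jq R₀
  refine ⟨J, PowerSeries.X, hJ.ne_zero, PowerSeries.X_ne_zero, hJe, ?_⟩
  rw [multiplicity_unit_eq_zero hP hJ, multiplicity_eq_zero.mpr hX]
  simp

theorem natCast_ne_zero_R₀ {n : ℕ} (hn : n ≠ 0) : ((n : ℕ) : R₀) ≠ 0 := by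
  intro h
  have h1 := congrArg (fun x : R₀ => (x : Kb)) h
  simp only [Subring.coe_natCast, Subring.coe_zero] at h1
  exact hn (by exact_mod_cast h1)

theorem X_prime_R₀ : Prime (PowerSeries.X : PowerSeries R₀) := PowerSeries.X_prime

theorem mult_X_mul_pow (a : PowerSeries R₀) (ha : a ≠ 0) (k : ℕ) :
    multiplicity PowerSeries.X (a * PowerSeries.X ^ k) = multiplicity PowerSeries.X a + k := by
  rw [multiplicity_mul' X_prime_R₀ ha (pow_ne_zero _ PowerSeries.X_ne_zero),
    multiplicity_pow_self_of_prime X_prime_R₀]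

/-- **Multiplicity claim.** -/
theorem mult_claim
    (hD5 : ∀ V : ValuationSubring F, (∀ a : Kb, algebraMap Kb F a ∈ V) → V ≠ ⊤ →
      ∃ 𝔓 : Place Kb F, 𝔓.toValuationSubring = V)
    (jF : F) (hj : (jF : LaurentSeries Kb) = jqModC Kb)
    (m : ℕ) (hm0 : m ≠ 0) (H : F) (hH : H ≠ 0)
    (hord : (m : ℤ) ∣ (H : LaurentSeries Kb).order)
    (hdiv : ∀ 𝔓 : Place Kb F, 0 ≤ 𝔓.ord jF → (m : ℤ) ∣ 𝔓.ord H)
    (hreg : ∀ 𝔓 : Place Kb F, 0 ≤ 𝔓.ord jF → 0 ≤ 𝔓.ord H)
    (hunif : ∀ 𝔓 : Place Kb F, 𝔓.ord H ≠ 0 →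
      ∃ t : F, 𝔓.ord t = 1 ∧ IsRatio R₀ (t : LaurentSeries Kb))
    (a b : PowerSeries R₀) (ha : a ≠ 0) (hb : b ≠ 0)
    (hab : (H : LaurentSeries Kb) * phi R₀ b = phi R₀ a)
    (hconst : ∀ P : PowerSeries R₀, Prime P → (∃ r : R₀, r ≠ 0 ∧ P ∣ PowerSeries.C r) →
      ¬ P ∣ PowerSeries.X → ¬ P ∣ a ∧ ¬ P ∣ b)
    (P : PowerSeries R₀) (hP : Prime P) :
    multiplicity P b ≤ multiplicity P (a * PowerSeries.X ^ (m * multiplicity PowerSeries.X b)) ∧
      m ∣ multiplicity P (a * PowerSeries.X ^ (m * multiplicity PowerSeries.X b)) -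
        multiplicity P b := by
  have hXk : ∀ k : ℕ, (PowerSeries.X : PowerSeries R₀) ^ k ≠ 0 :=
    fun k => pow_ne_zero _ PowerSeries.X_ne_zero
  have hH' : (H : LaurentSeries Kb) ≠ 0 := by
    intro h
    exact hH (Subtype.ext h)
  set n' := multiplicity PowerSeries.X b with hn'
  have key : ∀ (x y : ℕ) (z : ℤ), (x : ℤ) - y = z → 0 ≤ z → (m : ℤ) ∣ z →
      y ≤ x ∧ m ∣ x - y := by
    intro x y z hz h0 hdvd
    have hle : y ≤ x := by omega
    refine ⟨hle, ?_⟩
    have : ((x - y : ℕ) : ℤ) = z := by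
      rw [Nat.cast_sub hle]
      exact hz
    rw [← this] at hdvd
    exact_mod_cast hdvd
  by_cases hX : P ∣ PowerSeries.X
  · -- `P` is associated to `X`
    rw [Fermat.Agent.P2.helper44.multiplicity_eq_of_dvd_X hP hX (a * PowerSeries.X ^ (m * n')),
      Fermat.Agent.P2.helper44.multiplicity_eq_of_dvd_X hP hX b, mult_X_mul_pow a ha (m * n')]
    have h1 := congrArg HahnSeries.order hab
    rw [laurent_order_mul hH' (phi_ne_zero R₀ hb), Fermat.Agent.P2.helper44.order_phi R₀ hb,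
      Fermat.Agent.P2.helper44.order_phi R₀ ha] at h1
    obtain ⟨c, hc⟩ := hord
    refine key _ _ ((H : LaurentSeries Kb).order + m * n') ?_ ?_ ?_
    · push_cast
      rw [← h1, ← hn']
      ring
    · have hm1 : (1 : ℤ) ≤ m := by exact_mod_cast Nat.one_le_iff_ne_zero.mpr hm0
      have h2 : (0 : ℤ) ≤ multiplicity PowerSeries.X a := Int.natCast_nonneg _
      have h3 : (0 : ℤ) ≤ n' := Int.natCast_nonneg _
      have h4 : (n' : ℤ) ≤ m * n' := by nlinarith
      rw [← hn'] at h1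
      linarith
    · exact dvd_add ⟨c, hc⟩ (dvd_mul_right _ _)
  by_cases hC : ∃ r : R₀, r ≠ 0 ∧ P ∣ PowerSeries.C r
  · obtain ⟨hna, hnb⟩ := hconst P hP hC hX
    have hna' : ¬ P ∣ a * PowerSeries.X ^ (m * n') := by
      intro h
      rcases hP.dvd_or_dvd h with h | h
      · exact hna h
      · exact hX (hP.dvd_of_dvd_pow h)
    rw [multiplicity_eq_zero.mpr hna', multiplicity_eq_zero.mpr hnb]
    simp
  · -- the dictionary case
    have hconst' : ∀ n : ℕ, n ≠ 0 → ¬ P ∣ PowerSeries.C ((n : ℕ) : R₀) := by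
      intro n hn h
      exact hC ⟨_, natCast_ne_zero_R₀ hn, h⟩
    have hXm : multiplicity P ((PowerSeries.X : PowerSeries R₀) ^ (m * n')) = 0 :=
      multiplicity_eq_zero.mpr fun h => hX (hP.dvd_of_dvd_pow h)
    rw [multiplicity_mul' hP ha (hXk _), hXm, add_zero]
    have hval : HasVal P (H : LaurentSeries Kb)
        ((multiplicity P a : ℤ) - multiplicity P b) := ⟨a, b, ha, hb, hab, rfl⟩
    by_cases hk0 : (multiplicity P a : ℤ) - multiplicity P b = 0
    · exact key _ _ 0 hk0 le_rfl (dvd_zero _)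
    obtain ⟨𝔓, hnn, hpos, hprop⟩ := exists_place_of_prime F hD5 hP hconst' H hk0 hval
    have hjv : HasVal P (jF : LaurentSeries Kb) 0 := by
      rw [hj]
      exact hasVal_jq hP hX
    have hordj : 𝔓.ord jF = 0 := by
      have := hprop jF H 0 _ hjv hval
      rw [zero_mul] at this
      rcases mul_eq_zero.mp this.symm with h | h
      · exact absurd h hk0
      · exact h
    have hreg' := hreg 𝔓 hordj.ge
    have hdiv' := hdiv 𝔓 hordj.ge
    have hkpos : 0 < (multiplicity P a : ℤ) - multiplicity P b := by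
      by_contra hneg
      have hlt : (multiplicity P a : ℤ) - multiplicity P b < 0 := by omega
      have h1 : HasVal P ((H⁻¹ : F) : LaurentSeries Kb)
          (-((multiplicity P a : ℤ) - multiplicity P b)) := by
        simpa using hval.inv
      have h2 := hpos H⁻¹ _ h1 (by omega)
      rw [Place.ord_inv] at h2
      omega
    have hordH : 0 < 𝔓.ord H := hpos H _ hval hkpos
    obtain ⟨t, ht1, htR⟩ := hunif 𝔓 hordH.ne'
    have ht0 : (t : LaurentSeries Kb) ≠ 0 := by
      intro h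
      have : t = 0 := Subtype.ext h
      rw [this, Place.ord_zero] at ht1
      exact zero_ne_one ht1
    obtain ⟨l, hl⟩ := htR.exists_hasVal (P := P) ht0
    have h3 := hprop H t _ l hval hl
    rw [ht1, mul_one] at h3
    refine key _ _ _ rfl hkpos.le ?_
    rw [h3]
    exact Dvd.dvd.mul_left hdiv' l

end Fermat.Agent.P2.helper23
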