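import Mathlib

/-!
# P2 [DISC-E2] (task 762): lifting roots of unity from the residue field of a valuation
subring of an algebraically closed field.

`exists_root_of_unity_lift` is the statement (E2) of helper23's blueprint
`helper23_DiscBlueprint2.lean`, verbatim.
-/

set_option autoImplicit false

namespace Fermat.Agent.P2.helper31

open Polynomial

/-- An `m`-th root of unity (`m ≠ 0`) of `K` lies in every valuation subring. -/
theorem mem_valuationSubring_of_pow_eq_one {K : Type*} [Field K] (A : ValuationSubring K)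
    {m : ℕ} (hm : m ≠ 0) {ζ : K} (hζ : ζ ^ m = 1) : ζ ∈ A := by
  rcases A.mem_or_inv_mem ζ with h | h
  · exact h
  · have h1 : ζ⁻¹ ^ (m - 1) ∈ A := pow_mem h _
    have hζ0 : ζ ≠ 0 := by
      rintro rfl
      rw [zero_pow hm] at hζ
      exact zero_ne_one hζ
    have h2 : ζ = ζ⁻¹ ^ (m - 1) := by
      obtain ⟨k, rfl⟩ : ∃ k, m = k + 1 := Nat.exists_eq_succ_of_ne_zero hm
      simp only [Nat.add_sub_cancel]
      have h3 : ζ ^ k * ζ = 1 := by rw [← pow_succ]; exact hζ
      rw [inv_pow]
      exact (eq_inv_of_mul_eq_one_right h3)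
    rw [h2]
    exact h1

/-- (E2) over an algebraically closed field, an element of a valuation subring whose residue
class is an `m`-th root of unity is congruent to an `m`-th root of unity. -/
theorem exists_root_of_unity_lift {K : Type*} [Field K] [IsAlgClosed K]
    (A : ValuationSubring K) (m : ℕ) (hm : m ≠ 0) (z : A)
    (hz : IsLocalRing.residue A z ^ m = 1) :
    ∃ ζ : A, ζ ^ m = 1 ∧ IsLocalRing.residue A ζ = IsLocalRing.residue A z := by
  classical
  set f : K[X] := X ^ m - 1 with hf
  have hmonic : f.Monic := monic_X_pow_sub_C (1 : K) hm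
  have hsplit : f.Splits := IsAlgClosed.splits f
  have hroot : ∀ ζ ∈ f.roots, ζ ^ m = 1 := by
    intro ζ hζ
    have h0 : f.eval ζ = 0 := (mem_roots hmonic.ne_zero).1 hζ
    have h1 : ζ ^ m - 1 = 0 := by simpa [hf] using h0
    exact sub_eq_zero.1 h1
  -- evaluate at `z`
  have heval : ((z : K) ^ m - 1) = (f.roots.map (fun ζ => (z : K) - ζ)).prod := by
    have h := hsplit.eval_eq_prod_roots (z : K)
    rw [hmonic.leadingCoeff, one_mul] at h
    rw [← h]
    simp [hf]
  -- the product, as a product in `A`
  have hzm : z ^ m - 1 ∈ IsLocalRing.maximalIdeal A := by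
    rw [← IsLocalRing.residue_eq_zero_iff, map_sub, map_pow, map_one, hz, sub_self]
  -- general statement: if a product of `z - ζ` over a multiset of roots of unity is the image of
  -- an element of the maximal ideal, one factor is in the maximal ideal
  have key : ∀ (s : Multiset K), (∀ ζ ∈ s, ζ ^ m = 1) →
      ∀ (y : A), y ∈ IsLocalRing.maximalIdeal A →
        ((y : A) : K) = (s.map (fun ζ => (z : K) - ζ)).prod →
        ∃ ζ : A, ζ ^ m = 1 ∧ z - ζ ∈ IsLocalRing.maximalIdeal A := by
    intro s
    induction s using Multiset.induction_on with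
    | empty =>
      intro _ y hy hys
      exfalso
      simp only [Multiset.map_zero, Multiset.prod_zero] at hys
      have hy1 : y = 1 := Subtype.ext (by simpa using hys)
      rw [hy1] at hy
      exact (Ideal.ne_top_iff_one _).1 (IsLocalRing.maximalIdeal.isMaximal A).ne_top hy
    | cons ζ s ih =>
      intro hs y hy hys
      have hζm : ζ ^ m = 1 := hs ζ (Multiset.mem_cons_self _ _)
      have hζA : ζ ∈ A := mem_valuationSubring_of_pow_eq_one A hm hζm
      have hsA : ∀ ξ ∈ s, ξ ^ m = 1 := fun ξ hξ => hs ξ (Multiset.mem_cons_of_mem hξ)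
      -- the remaining product lies in `A`
      have hprodA : (s.map (fun ξ => (z : K) - ξ)).prod ∈ A := by
        apply multiset_prod_mem
        intro c hc
        obtain ⟨ξ, hξ, rfl⟩ := Multiset.mem_map.1 hc
        exact A.sub_mem z.2 (mem_valuationSubring_of_pow_eq_one A hm (hsA ξ hξ))
      set w : A := ⟨(s.map (fun ξ => (z : K) - ξ)).prod, hprodA⟩ with hw
      have hyw : y = (z - ⟨ζ, hζA⟩) * w := by
        apply Subtype.ext
        rw [hys, Multiset.map_cons, Multiset.prod_cons]
        rfl
      rw [hyw] at hy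
      rcases (IsLocalRing.maximalIdeal.isMaximal A).isPrime.mem_or_mem hy with h | h
      · exact ⟨⟨ζ, hζA⟩, Subtype.ext (by simpa using hζm), h⟩
      · exact ih hsA w h rfl
  obtain ⟨ζ, hζ, hmem⟩ := key f.roots hroot (z ^ m - 1) hzm (by
    rw [← heval]; simp)
  refine ⟨ζ, hζ, ?_⟩
  have h0 : IsLocalRing.residue A (z - ζ) = 0 := by
    rw [IsLocalRing.residue_eq_zero_iff]
    exact hmem
  rw [map_sub, sub_eq_zero] at h0
  exact h0.symm

end Fermat.Agent.P2.helper31
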