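import Mathlib

/-!
# P2 [DISC-D2] (helper5, task 685): power-series root lemmas for the disc step

* `coeff_pow_of_agree` : if `A` agrees with `T` below `n ≥ 1` then
  `coeff n (T ^ m) = coeff n (A ^ m) + m * A₀ ^ (m - 1) * (coeff n T - coeff n A)`.
* `coeff_mem_of_pow_mem` (D2a) : coefficient lemma.
* `eq_single_of_pow_eq_one` (D2c) : an `m`-th root of `1` in `k((q))` is a constant.
-/

set_option autoImplicit false

namespace Fermat.Agent.P2.helper5

open PowerSeries

/-- if `A` agrees with `T` in degrees `< n` (`n ≥ 1`), the `n`-th coefficient of `T ^ m` is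
the one of `A ^ m` plus the linear term. -/
theorem coeff_pow_of_agree {R : Type*} [CommRing R] (T A : PowerSeries R) (n : ℕ) (hn : 0 < n)
    (h : ∀ i, i < n → coeff i A = coeff i T) (m : ℕ) :
    coeff n (T ^ m) =
      coeff n (A ^ m) + (m : R) * constantCoeff A ^ (m - 1) * (coeff n T - coeff n A) := by
  have hdvd : (X : PowerSeries R) ^ n ∣ T - A := by
    rw [X_pow_dvd_iff]
    intro i hi
    rw [map_sub, h i hi, sub_self]
  obtain ⟨V, hV⟩ := hdvd
  have hV0 : constantCoeff V = coeff n T - coeff n A := by
    have h1 := congrArg (coeff n) hV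
    rw [map_sub, coeff_X_pow_mul', if_pos le_rfl, Nat.sub_self,
      coeff_zero_eq_constantCoeff_apply] at h1
    exact h1.symm
  obtain ⟨K, hK⟩ := Polynomial.powAddExpansion A (X ^ n * V) m
  have hpow : T ^ m = A ^ m + X ^ n * ((m : PowerSeries R) * A ^ (m - 1) * V) +
      X ^ (n + n) * (K * V ^ 2) := by
    have hT : T = A + X ^ n * V := by rw [← hV]; ring
    calc T ^ m = (A + X ^ n * V) ^ m := by rw [← hT]
      _ = A ^ m + (m : PowerSeries R) * A ^ (m - 1) * (X ^ n * V) + K * (X ^ n * V) ^ 2 := hK
      _ = _ := by ring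
  have hcc : constantCoeff ((m : PowerSeries R) * A ^ (m - 1) * V) =
      (m : R) * constantCoeff A ^ (m - 1) * (coeff n T - coeff n A) := by
    rw [map_mul, map_mul, map_pow, map_natCast, hV0]
  rw [hpow, map_add, map_add, coeff_X_pow_mul', if_pos le_rfl, Nat.sub_self,
    coeff_zero_eq_constantCoeff_apply, coeff_X_pow_mul', if_neg (by omega), add_zero, hcc]

/-- (D2a) coefficient lemma. -/
theorem coeff_mem_of_pow_mem {L : Type*} [Field L] (S : Subring L) (m : ℕ)
    (T : PowerSeries L) (h0 : PowerSeries.constantCoeff T ∈ S)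
    (hu : ∃ s ∈ S, s * ((m : L) * PowerSeries.constantCoeff T ^ (m - 1)) = 1)
    (hT : ∀ n, PowerSeries.coeff n (T ^ m) ∈ S) : ∀ n, PowerSeries.coeff n T ∈ S := by
  intro n
  induction n using Nat.strong_induction_on with
  | _ n ih =>
    rcases Nat.eq_zero_or_pos n with rfl | hn
    · rwa [coeff_zero_eq_constantCoeff_apply]
    · obtain ⟨s, hs, hsu⟩ := hu
      let A' : PowerSeries S :=
        PowerSeries.mk fun i => if hi : i < n then ⟨coeff i T, ih i hi⟩ else 0
      have hAc : ∀ i, i < n → coeff i (PowerSeries.map S.subtype A') = coeff i T := by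
        intro i hi
        rw [coeff_map, coeff_mk, dif_pos hi]
        rfl
      have hAn : coeff n (PowerSeries.map S.subtype A') = 0 := by
        rw [coeff_map, coeff_mk, dif_neg (lt_irrefl n), map_zero]
      have hA0 : constantCoeff (PowerSeries.map S.subtype A') = constantCoeff T := by
        rw [← coeff_zero_eq_constantCoeff_apply, ← coeff_zero_eq_constantCoeff_apply]
        exact hAc 0 hn
      have hAm : coeff n ((PowerSeries.map S.subtype A') ^ m) ∈ S := by
        rw [← map_pow, coeff_map]
        exact (coeff n (A' ^ m)).2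
      have key := coeff_pow_of_agree T (PowerSeries.map S.subtype A') n hn hAc m
      rw [hAn, sub_zero, hA0] at key
      have h1 : (m : L) * constantCoeff T ^ (m - 1) * coeff n T ∈ S := by
        have h2 : (m : L) * constantCoeff T ^ (m - 1) * coeff n T =
            coeff n (T ^ m) - coeff n ((PowerSeries.map S.subtype A') ^ m) := by
          rw [key]
          ring
        rw [h2]
        exact S.sub_mem (hT n) hAm
      have h3 : coeff n T = s * ((m : L) * constantCoeff T ^ (m - 1) * coeff n T) := by
        rw [← mul_assoc, hsu, one_mul]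
      rw [h3]
      exact S.mul_mem hs h1

/-- (D2c) an `m`-th root of `1` in `k((q))` is a constant, if `m ≠ 0` in `k`. -/
theorem eq_single_of_pow_eq_one {k : Type*} [Field k] (m : ℕ) (hm : (m : k) ≠ 0)
    (x : LaurentSeries k) (hx : x ^ m = 1) : ∃ c : k, c ^ m = 1 ∧ x = HahnSeries.single 0 c := by
  have hm0 : m ≠ 0 := by
    rintro rfl
    exact hm Nat.cast_zero
  have hord : x.order = 0 := by
    have h1 := congrArg HahnSeries.order hx
    rw [HahnSeries.order_pow, HahnSeries.order_one, nsmul_eq_mul] at h1
    rcases mul_eq_zero.1 h1 with h2 | h2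
    · exact absurd (by exact_mod_cast h2) hm0
    · exact h2
  have hxP : x = HahnSeries.ofPowerSeries ℤ k x.powerSeriesPart := by
    have h1 := LaurentSeries.single_order_mul_powerSeriesPart x
    rw [hord] at h1
    have h2 : (HahnSeries.single (0 : ℤ) (1 : k)) = 1 := rfl
    rw [h2, one_mul] at h1
    exact h1.symm
  set P : PowerSeries k := x.powerSeriesPart with hPdef
  have hP : P ^ m = 1 := by
    apply HahnSeries.ofPowerSeries_injective (Γ := ℤ)
    rw [map_pow, ← hxP, hx, map_one]
  have hc : constantCoeff P ^ m = 1 := by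
    have h1 := congrArg constantCoeff hP
    rwa [map_pow, map_one] at h1
  have hc0 : constantCoeff P ≠ 0 := by
    intro h
    rw [h, zero_pow hm0] at hc
    exact zero_ne_one hc
  have hcoef : ∀ n, 0 < n → coeff n P = 0 := by
    intro n
    induction n using Nat.strong_induction_on with
    | _ n ih =>
      intro hn
      have hAc : ∀ i, i < n → coeff i (C (constantCoeff P)) = coeff i P := by
        intro i hi
        rcases Nat.eq_zero_or_pos i with rfl | hi0
        · rw [coeff_zero_eq_constantCoeff_apply, coeff_zero_eq_constantCoeff_apply,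
            constantCoeff_C]
        · rw [ih i hi hi0, coeff_C, if_neg hi0.ne']
      have key := coeff_pow_of_agree P (C (constantCoeff P)) n hn hAc m
      rw [hP, coeff_one, if_neg hn.ne', ← map_pow, coeff_C, if_neg hn.ne', coeff_C,
        if_neg hn.ne', zero_add, sub_zero, constantCoeff_C] at key
      have h1 := mul_eq_zero.1 key.symm
      rcases h1 with h1 | h1
      · exfalso
        rcases mul_eq_zero.1 h1 with h2 | h2
        · exact hm h2
        · exact pow_ne_zero _ hc0 h2
      · exact h1
  have hPC : P = C (constantCoeff P) := by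
    ext n
    rcases Nat.eq_zero_or_pos n with rfl | hn
    · rw [coeff_zero_eq_constantCoeff_apply, coeff_zero_eq_constantCoeff_apply,
        constantCoeff_C]
    · rw [hcoef n hn, coeff_C, if_neg hn.ne']
  refine ⟨constantCoeff P, hc, ?_⟩
  rw [hxP, hPC, HahnSeries.ofPowerSeries_C]
  rfl

end Fermat.Agent.P2.helper5
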