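import Mathlib
import Fermat.Agent.P2.helper5_DiscRoots

/-!
# P2 [DISC-E4] (helper38, task 764): roots of unit power series

* `exists_powerSeries_of_pow_eq` (E4a) : a Laurent series whose `m`-th power is a unit power
  series is a power series;
* `coeff_mem_of_pow_eq_unit` (E4b) : an `m`-th root (`m` a unit of the valuation ring `A`) of a
  unit of `A⟦X⟧` has coefficients in `A`.
-/

set_option autoImplicit false

namespace Fermat.Agent.P2.helper38

open PowerSeries

/-- a Laurent series of order `0` is a power series -/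
theorem exists_ofPowerSeries_of_order_eq_zero {K : Type*} [Field K] (T : LaurentSeries K)
    (h : T.order = 0) : HahnSeries.ofPowerSeries ℤ K T.powerSeriesPart = T := by
  have h1 := LaurentSeries.single_order_mul_powerSeriesPart T
  rw [h] at h1
  have h2 : (HahnSeries.single (0 : ℤ) (1 : K)) = 1 := rfl
  rw [h2, one_mul] at h1
  exact h1

/-- (E4a) a Laurent series whose `m`-th power is a unit power series is a power series. -/
theorem exists_powerSeries_of_pow_eq {K : Type*} [Field K] (m : ℕ) (hm : m ≠ 0)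
    (T : LaurentSeries K) (u : PowerSeries K) (hu : IsUnit u)
    (hT : T ^ m = HahnSeries.ofPowerSeries ℤ K u) :
    ∃ T' : PowerSeries K, HahnSeries.ofPowerSeries ℤ K T' = T ∧ T' ^ m = u := by
  have hinj : Function.Injective (HahnSeries.ofPowerSeries ℤ K) :=
    HahnSeries.ofPowerSeries_injective
  have hu0 : u ≠ 0 := hu.ne_zero
  have hofu : HahnSeries.ofPowerSeries ℤ K u ≠ 0 := fun h =>
    hu0 (hinj (by rw [h, map_zero]))
  have hT0 : T ≠ 0 := by
    rintro rfl
    rw [zero_pow hm] at hT
    exact hofu hT.symm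
  -- the order of `u` is `0`
  have hc : PowerSeries.constantCoeff u ≠ 0 := by
    have := (PowerSeries.isUnit_iff_constantCoeff).1 hu
    exact this.ne_zero
  have hordu : (HahnSeries.ofPowerSeries ℤ K u).order = 0 := by
    have h1 : (HahnSeries.ofPowerSeries ℤ K u).coeff 0 ≠ 0 := by
      have := HahnSeries.ofPowerSeries_apply_coeff (Γ := ℤ) (R := K) u 0
      simp only [Nat.cast_zero] at this
      rw [this, PowerSeries.coeff_zero_eq_constantCoeff_apply]
      exact hc
    have hle : (HahnSeries.ofPowerSeries ℤ K u).order ≤ 0 := HahnSeries.order_le_of_coeff_ne_zero h1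
    have hge : 0 ≤ (HahnSeries.ofPowerSeries ℤ K u).order := by
      by_contra hneg
      rw [not_le] at hneg
      have h2 : (HahnSeries.ofPowerSeries ℤ K u).coeff (HahnSeries.ofPowerSeries ℤ K u).order ≠ 0 :=
        HahnSeries.coeff_order_eq_zero.not.2 hofu
      apply h2
      have h3 : (HahnSeries.ofPowerSeries ℤ K u).order ∉ Set.range ((↑) : ℕ → ℤ) := by
        rintro ⟨n, hn⟩
        have : (0 : ℤ) ≤ n := Int.natCast_nonneg n
        omega
      rw [HahnSeries.ofPowerSeries_apply]
      exact HahnSeries.embDomain_of_notMem_range h3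
    exact le_antisymm hle hge
  have hord : T.order = 0 := by
    have h1 : (T ^ m).order = m • T.order := HahnSeries.order_pow T m
    rw [hT, hordu] at h1
    have h2 : (m : ℤ) * T.order = 0 := by
      rw [← nsmul_eq_mul]
      exact h1.symm
    rcases mul_eq_zero.1 h2 with h3 | h3
    · exact absurd (by exact_mod_cast h3) hm
    · exact h3
  refine ⟨T.powerSeriesPart, exists_ofPowerSeries_of_order_eq_zero T hord, ?_⟩
  apply hinj
  rw [map_pow, exists_ofPowerSeries_of_order_eq_zero T hord, hT]

/-- (E4b) an `m`-th root (`m` a unit of the valuation ring `A`) of a unit of `A⟦X⟧` has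
coefficients in `A`. -/
theorem coeff_mem_of_pow_eq_unit {K : Type*} [Field K] (A : ValuationSubring K) (m : ℕ)
    (hm : IsUnit ((m : ℕ) : A)) (T' : PowerSeries K) (u : PowerSeries A) (hu : IsUnit u)
    (hT : T' ^ m = PowerSeries.map A.subtype u) : ∀ n, PowerSeries.coeff n T' ∈ A := by
  -- `m ≠ 0`
  have hm0 : m ≠ 0 := by
    rintro rfl
    simp at hm
  obtain ⟨b, hb⟩ := hm.exists_right_inv
  have hbK : (m : K) * (b : K) = 1 := by
    have := congrArg (A.subtype) hb
    simpa using this
  -- the constant coefficient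
  set t₀ : K := PowerSeries.constantCoeff T' with ht₀
  have hcu : IsUnit (PowerSeries.constantCoeff u) := (PowerSeries.isUnit_iff_constantCoeff).1 hu
  obtain ⟨c', hc'⟩ := hcu.exists_right_inv
  have hc'K : ((PowerSeries.constantCoeff u : A) : K) * (c' : K) = 1 := by
    have := congrArg (A.subtype) hc'
    simpa using this
  have ht₀m : t₀ ^ m = ((PowerSeries.constantCoeff u : A) : K) := by
    have := congrArg PowerSeries.constantCoeff hT
    rw [map_pow] at this
    rw [ht₀, this, ← PowerSeries.coeff_zero_eq_constantCoeff_apply, PowerSeries.coeff_map,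
      PowerSeries.coeff_zero_eq_constantCoeff_apply]
    rfl
  have ht₀ne : t₀ ≠ 0 := by
    intro h0
    rw [h0, zero_pow hm0] at ht₀m
    rw [← ht₀m, zero_mul] at hc'K
    exact zero_ne_one hc'K
  have hsplit : t₀ ^ m = t₀ * t₀ ^ (m - 1) := by
    rw [← pow_succ', Nat.sub_add_cancel (Nat.one_le_iff_ne_zero.2 hm0)]
  have ht₀A : t₀ ∈ A := by
    rcases A.mem_or_inv_mem t₀ with h | h
    · exact h
    · have h1 : t₀ = t₀ ^ m * (t₀⁻¹) ^ (m - 1) := by
        rw [hsplit, mul_assoc, ← mul_pow, mul_inv_cancel₀ ht₀ne, one_pow, mul_one]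
      rw [h1, ht₀m]
      exact mul_mem (PowerSeries.constantCoeff u : A).2 (pow_mem h _)
  have ht₀inv : t₀⁻¹ ∈ A := by
    have h1 : t₀⁻¹ = t₀ ^ (m - 1) * (c' : K) := by
      have h2 : t₀ * (t₀ ^ (m - 1) * (c' : K)) = 1 := by
        rw [← mul_assoc, ← hsplit, ht₀m, hc'K]
      exact (eq_inv_of_mul_eq_one_right h2).symm ▸ rfl
    rw [h1]
    exact mul_mem (pow_mem ht₀A _) c'.2
  have hs : (b : K) * (t₀⁻¹) ^ (m - 1) ∈ A := mul_mem b.2 (pow_mem ht₀inv _)
  refine helper5.coeff_mem_of_pow_mem A.toSubring m T' ht₀A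
    ⟨(b : K) * (t₀⁻¹) ^ (m - 1), hs, ?_⟩ ?_
  · have h1 : (b : K) * t₀⁻¹ ^ (m - 1) * ((m : K) * t₀ ^ (m - 1)) =
        ((m : K) * (b : K)) * ((t₀⁻¹ * t₀) ^ (m - 1)) := by
      rw [mul_pow]
      ring
    rw [← ht₀, h1, hbK, inv_mul_cancel₀ ht₀ne, one_pow, mul_one]
  · intro n
    rw [hT, PowerSeries.coeff_map]
    exact (PowerSeries.coeff n u : A).2

end Fermat.Agent.P2.helper38
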