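import Mathlib

/-!
# P2 / DISC-D2b (helper41): formal `m`-th roots in Laurent series

Over an algebraically closed field `L` of characteristic `0`, a nonzero Laurent series whose
order is divisible by `m` is an `m`-th power.
-/

set_option autoImplicit false

noncomputable section

open HahnSeries

namespace Fermat.Agent.P2.helper41

/-- powers of the binomial series -/
theorem binomialSeries_pow {L : Type*} [Field L] [CharZero L] (r : L) (n : ℕ) :
    (PowerSeries.binomialSeries L r) ^ n = PowerSeries.binomialSeries L ((n : L) * r) := by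
  induction n with
  | zero => simp
  | succ n ih =>
    rw [pow_succ, ih, ← PowerSeries.binomialSeries_add]
    congr 1
    push_cast
    ring

/-- the `m`-th root of `1 + X` as a power series -/
theorem exists_pow_eq_one_add_X {L : Type*} [Field L] [CharZero L] (m : ℕ) (hm : m ≠ 0) :
    ∃ f : PowerSeries L, f ^ m = 1 + PowerSeries.X := by
  refine ⟨PowerSeries.binomialSeries L ((m : L)⁻¹), ?_⟩
  rw [binomialSeries_pow, mul_inv_cancel₀ (Nat.cast_ne_zero.2 hm)]
  have := PowerSeries.binomialSeries_nat (R := L) (A := L) 1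
  simpa using this

/-- `m`-th roots of Laurent series close to `1`. -/
theorem exists_pow_eq_of_orderTop_pos {L : Type*} [Field L] [CharZero L] (m : ℕ) (hm : m ≠ 0)
    (x : LaurentSeries L) (hx : 0 < (x - 1).orderTop) : ∃ w : LaurentSeries L, w ^ m = x := by
  obtain ⟨f, hf⟩ := exists_pow_eq_one_add_X (L := L) m hm
  refine ⟨PowerSeries.heval (x - 1) f, ?_⟩
  rw [← map_pow, hf, map_add, map_one, PowerSeries.heval_X _ hx]
  ring

/-- (D2b) formal `m`-th roots. -/
theorem exists_pow_eq_laurent {L : Type*} [Field L] [CharZero L] [IsAlgClosed L] (m : ℕ)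
    (hm : m ≠ 0) (H : LaurentSeries L) (hH : H ≠ 0) (hord : (m : ℤ) ∣ H.order) :
    ∃ Z : LaurentSeries L, Z ^ m = H := by
  obtain ⟨k, hk⟩ := hord
  have hc : H.leadingCoeff ≠ 0 := leadingCoeff_ne_zero.2 hH
  obtain ⟨c', hc'⟩ := IsAlgClosed.exists_pow_nat_eq H.leadingCoeff (Nat.pos_of_ne_zero hm)
  set x : LaurentSeries L := H * single (-H.order) (H.leadingCoeff)⁻¹ with hxdef
  have hs : (single (-H.order) (H.leadingCoeff)⁻¹ : LaurentSeries L) ≠ 0 :=
    single_ne_zero (inv_ne_zero hc)
  have hx0 : x ≠ 0 := mul_ne_zero hH hs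
  have hx : 0 < (x - 1).orderTop := by
    rw [orderTop_self_sub_one_pos_iff]
    constructor
    · rw [hxdef, orderTop_mul, orderTop_single (inv_ne_zero hc),
        ← order_eq_orderTop_of_ne_zero hH, ← WithTop.coe_add, add_neg_cancel]
      rfl
    · rw [hxdef, leadingCoeff_mul, leadingCoeff_of_single, mul_inv_cancel₀ hc]
  obtain ⟨w, hw⟩ := exists_pow_eq_of_orderTop_pos m hm x hx
  refine ⟨single k c' * w, ?_⟩
  rw [mul_pow, hw, single_pow, hc', hxdef, ← mul_assoc, mul_comm _ H, mul_assoc,
    single_mul_single, mul_inv_cancel₀ hc]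
  have h0 : m • k + -H.order = 0 := by
    rw [hk, nsmul_eq_mul]
    ring
  rw [h0]
  exact mul_one H

end Fermat.Agent.P2.helper41
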