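import Mathlib
import Fermat.Prelude.Def_ModularCurve_ReductionModL
import Fermat.Agent.P2.helper23_DiscDefs

/-!
# P2 [DISC-D4] (helper73, task 691): elements of `F_N` are quotients of integral power series

`exists_finset_isRatio` : every `f ∈ F_N = ℚ̄(X₀(N)) ⊆ ℚ̄((q))` is a quotient of two power series with
coefficients in `A ∩ K₀`, as soon as the field `K₀ ⊆ ℚ̄` contains a suitable finite set
(depending on `f` and on the valuation subring `A` of `ℚ̄`).
-/

set_option autoImplicit false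

noncomputable section

open HahnSeries IntermediateField AlgebraicCurve ModularCurve

namespace Fermat.Agent.P2.helper73

open Fermat.Agent.P2.helper23

/-! ## Closure properties of `IsRatio` -/

section Ratio

variable (R₀ : Subring Kb)

theorem isRatio_zero : IsRatio R₀ 0 := ⟨0, 1, one_ne_zero, by simp⟩

theorem isRatio_one : IsRatio R₀ 1 := ⟨1, 1, one_ne_zero, by simp⟩

variable {R₀}

theorem IsRatio.add {f g : LaurentSeries Kb} (hf : IsRatio R₀ f) (hg : IsRatio R₀ g) :
    IsRatio R₀ (f + g) := by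
  obtain ⟨G₁, G₂, hG₂, hG⟩ := hf
  obtain ⟨H₁, H₂, hH₂, hH⟩ := hg
  refine ⟨G₁ * H₂ + H₁ * G₂, G₂ * H₂, mul_ne_zero hG₂ hH₂, ?_⟩
  rw [map_add, map_mul, map_mul, map_mul, ← hG, ← hH]
  ring

theorem IsRatio.mul {f g : LaurentSeries Kb} (hf : IsRatio R₀ f) (hg : IsRatio R₀ g) :
    IsRatio R₀ (f * g) := by
  obtain ⟨G₁, G₂, hG₂, hG⟩ := hf
  obtain ⟨H₁, H₂, hH₂, hH⟩ := hg
  refine ⟨G₁ * H₁, G₂ * H₂, mul_ne_zero hG₂ hH₂, ?_⟩
  rw [map_mul, map_mul, ← hG, ← hH]
  ring

theorem IsRatio.neg {f : LaurentSeries Kb} (hf : IsRatio R₀ f) : IsRatio R₀ (-f) := by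
  obtain ⟨G₁, G₂, hG₂, hG⟩ := hf
  refine ⟨-G₁, G₂, hG₂, ?_⟩
  rw [map_neg, ← hG]
  ring

theorem IsRatio.inv {f : LaurentSeries Kb} (hf : IsRatio R₀ f) : IsRatio R₀ f⁻¹ := by
  by_cases h0 : f = 0
  · rw [h0, inv_zero]
    exact isRatio_zero R₀
  obtain ⟨G₁, G₂, hG₂, hG⟩ := hf
  have hG₁ : G₁ ≠ 0 := by
    rintro rfl
    rw [map_zero] at hG
    rcases mul_eq_zero.1 hG with h | h
    · exact h0 h
    · exact phi_ne_zero R₀ hG₂ h
  refine ⟨G₂, G₁, hG₁, ?_⟩
  rw [← hG]
  field_simp

/-- a Laurent series without polar part and with coefficients in `R₀` comes from `R₀⟦X⟧`. -/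
theorem exists_phi_eq (h : LaurentSeries Kb) (hneg : ∀ k : ℤ, k < 0 → h.coeff k = 0)
    (hmem : ∀ n : ℕ, h.coeff (n : ℤ) ∈ R₀) : ∃ G : PowerSeries R₀, phi R₀ G = h := by
  refine ⟨PowerSeries.mk fun n => ⟨h.coeff (n : ℤ), hmem n⟩, ?_⟩
  ext k
  rcases lt_or_ge k 0 with hk | hk
  · rw [hneg k hk, phi_apply]
    exact ofPowerSeries_coeff_of_neg _ hk
  · obtain ⟨n, rfl⟩ := Int.eq_ofNat_of_zero_le hk
    rw [phi_coeff_natCast, PowerSeries.coeff_mk]

end Ratio

/-! ## The predicate and the subfield it cuts out -/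

/-- `f` is a quotient of `A ∩ K₀`-integral power series for all sufficiently large `K₀`. -/
def IsRatioEv (A : ValuationSubring Kb) (f : LaurentSeries Kb) : Prop :=
  ∃ S : Finset Kb, ∀ K₀ : IntermediateField ℚ Kb, (S : Set Kb) ⊆ K₀ →
    IsRatio (capSubring A K₀) f

section Ev

variable (A : ValuationSubring Kb)

open Classical in
theorem isRatioEv_add {f g : LaurentSeries Kb} (hf : IsRatioEv A f) (hg : IsRatioEv A g) :
    IsRatioEv A (f + g) := by
  obtain ⟨S, hS⟩ := hf
  obtain ⟨T, hT⟩ := hg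
  refine ⟨S ∪ T, fun K₀ h => ?_⟩
  rw [Finset.coe_union] at h
  exact IsRatio.add (hS K₀ (Set.subset_union_left.trans h))
    (hT K₀ (Set.subset_union_right.trans h))

open Classical in
theorem isRatioEv_mul {f g : LaurentSeries Kb} (hf : IsRatioEv A f) (hg : IsRatioEv A g) :
    IsRatioEv A (f * g) := by
  obtain ⟨S, hS⟩ := hf
  obtain ⟨T, hT⟩ := hg
  refine ⟨S ∪ T, fun K₀ h => ?_⟩
  rw [Finset.coe_union] at h
  exact IsRatio.mul (hS K₀ (Set.subset_union_left.trans h))
    (hT K₀ (Set.subset_union_right.trans h))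

theorem isRatioEv_neg {f : LaurentSeries Kb} (hf : IsRatioEv A f) : IsRatioEv A (-f) := by
  obtain ⟨S, hS⟩ := hf
  exact ⟨S, fun K₀ h => IsRatio.neg (hS K₀ h)⟩

theorem isRatioEv_inv {f : LaurentSeries Kb} (hf : IsRatioEv A f) : IsRatioEv A f⁻¹ := by
  obtain ⟨S, hS⟩ := hf
  exact ⟨S, fun K₀ h => IsRatio.inv (hS K₀ h)⟩

theorem isRatioEv_one : IsRatioEv A 1 := ⟨∅, fun _ _ => isRatio_one _⟩

/-- the subfield of all eventually-ratio Laurent series -/
def ratioSubfield : Subfield (LaurentSeries Kb) where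
  carrier := {f | IsRatioEv A f}
  mul_mem' := fun hf hg => isRatioEv_mul A hf hg
  one_mem' := isRatioEv_one A
  add_mem' := fun hf hg => isRatioEv_add A hf hg
  zero_mem' := ⟨∅, fun _ _ => isRatio_zero _⟩
  neg_mem' := fun hf => isRatioEv_neg A hf
  inv_mem' := fun _ hf => isRatioEv_inv A hf

theorem mem_ratioSubfield {f : LaurentSeries Kb} : f ∈ ratioSubfield A ↔ IsRatioEv A f := Iff.rfl

/-- constants are ratios -/
theorem isRatioEv_const (c : Kb) : IsRatioEv A (HahnSeries.single 0 c) := by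
  classical
  refine ⟨{c}, fun K₀ h => ?_⟩
  have hcK : c ∈ K₀ := h (by simp)
  have key : ∀ a : Kb, a ∈ A → a ∈ K₀ →
      ∃ G : PowerSeries (capSubring A K₀), phi (capSubring A K₀) G = HahnSeries.single 0 a := by
    intro a haA haK
    refine exists_phi_eq _ (fun k hk => ?_) (fun n => ?_)
    · exact HahnSeries.coeff_single_of_ne hk.ne
    · rcases Nat.eq_zero_or_pos n with rfl | hn
      · rw [Nat.cast_zero, HahnSeries.coeff_single_same]
        exact ⟨haA, haK⟩
      · rw [HahnSeries.coeff_single_of_ne (by exact_mod_cast hn.ne')]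
        exact zero_mem _
  rcases A.mem_or_inv_mem c with hc | hc
  · obtain ⟨G, hG⟩ := key c hc hcK
    exact ⟨G, 1, one_ne_zero, by rw [map_one, mul_one, hG]⟩
  · by_cases hc0 : c = 0
    · subst hc0
      rw [HahnSeries.single_eq_zero]
      exact isRatio_zero _
    obtain ⟨G, hG⟩ := key c⁻¹ hc (inv_mem hcK)
    have hGne : G ≠ 0 := by
      rintro rfl
      rw [map_zero] at hG
      have := congrArg (fun Y : LaurentSeries Kb => Y.coeff 0) hG
      simp only [HahnSeries.coeff_zero, HahnSeries.coeff_single_same] at this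
      exact inv_ne_zero hc0 this.symm
    refine ⟨1, G, hGne, ?_⟩
    rw [hG, map_one, HahnSeries.single_mul_single, add_zero, mul_inv_cancel₀ hc0]
    rfl

/-- the `q`-expansions of `j(dτ)` are ratios (over every `K₀`). -/
theorem isRatioEv_jqd (d : ℕ) [NeZero d] : IsRatioEv A (coeffEmb Kb (qExpand ℚ d jq)) := by
  refine ⟨∅, fun K₀ _ => ?_⟩
  set R₀ := capSubring A K₀
  set g : LaurentSeries Kb :=
    coeffEmb Kb (qExpand ℚ d (HahnSeries.ofPowerSeries ℤ ℚ jNumQ)) with hg
  have hf : coeffEmb Kb (qExpand ℚ d jq) = HahnSeries.single (-(d : ℤ)) 1 * g := by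
    rw [hg, jq, map_mul, map_mul, qExpand_single, coeffEmb, coeffMap_single, map_one, mul_neg,
      mul_one]
  have hcoeff : ∀ k : ℤ, g.coeff k =
      algebraMap ℚ Kb ((qExpand ℚ d (HahnSeries.ofPowerSeries ℤ ℚ jNumQ)).coeff k) :=
    fun k => rfl
  obtain ⟨G, hG⟩ : ∃ G : PowerSeries R₀, phi R₀ G = g := by
    refine exists_phi_eq _ (fun k hk => ?_) (fun n => ?_)
    · rw [hcoeff]
      by_cases hdk : (d : ℤ) ∣ k
      · obtain ⟨j, rfl⟩ := hdk
        rw [qExpand_coeff_mul]
        have hd : (0 : ℤ) < d := by exact_mod_cast Nat.pos_of_ne_zero (NeZero.ne d)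
        have hj : j < 0 := by
          by_contra hj
          rw [not_lt] at hj
          exact absurd (mul_nonneg hd.le hj) (not_le.mpr hk)
        rw [ofPowerSeries_coeff_of_neg _ hj, map_zero]
      · rw [qExpand_coeff_of_not_dvd d _ hdk, map_zero]
    · rw [hcoeff]
      by_cases hdk : (d : ℤ) ∣ (n : ℤ)
      · obtain ⟨j, hj⟩ := hdk
        rw [hj, qExpand_coeff_mul]
        rcases lt_or_ge j 0 with hj0 | hj0
        · rw [ofPowerSeries_coeff_of_neg _ hj0, map_zero]
          exact zero_mem _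
        · obtain ⟨i, rfl⟩ := Int.eq_ofNat_of_zero_le hj0
          rw [HahnSeries.ofPowerSeries_apply_coeff, jNumQ, PowerSeries.coeff_map]
          simp only [eq_intCast, map_intCast]
          exact intCast_mem _ _
      · rw [qExpand_coeff_of_not_dvd d _ hdk, map_zero]
        exact zero_mem _
  refine ⟨G, PowerSeries.X ^ d, pow_ne_zero _ PowerSeries.X_ne_zero, ?_⟩
  have hX : phi R₀ (PowerSeries.X ^ d) = HahnSeries.single (d : ℤ) 1 := by
    rw [phi_apply, map_pow, PowerSeries.map_X, HahnSeries.ofPowerSeries_X_pow]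
  rw [hX, hG, hf, mul_comm (HahnSeries.single (-(d : ℤ)) (1 : Kb)) g, mul_assoc,
    HahnSeries.single_mul_single, neg_add_cancel, mul_one]
  change g * 1 = g
  rw [mul_one]

end Ev

/-! ## The main statement -/

/-- **(D4)** every element of `F_N` is a quotient of `A ∩ K₀`-integral power series as soon as
the field `K₀` contains a suitable finite set. -/
theorem exists_finset_isRatio (N : ℕ) [NeZero N] (A : ValuationSubring Kb)
    (f : LaurentSeries Kb) (hf : f ∈ FF N) :
    ∃ S : Finset Kb, ∀ K₀ : IntermediateField ℚ Kb, (S : Set Kb) ⊆ K₀ →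
      IsRatio (capSubring A K₀) f := by
  change f ∈ laurentBaseChange Kb (modularFunctionFieldFull N) at hf
  rw [mem_laurentBaseChange_iff] at hf
  suffices h : Subfield.closure
      (Set.range (algebraMap Kb (LaurentSeries Kb)) ∪
        (⇑(coeffEmb Kb) '' (modularFunctionFieldFull N : Set (LaurentSeries ℚ)))) ≤
      ratioSubfield A from h hf
  rw [Subfield.closure_le]
  rintro x (⟨c, rfl⟩ | ⟨y, hy, rfl⟩)
  · rw [algebraMap_laurentSeries_eq_single]
    exact isRatioEv_const A c
  · -- the preimage of the ratio subfield under `coeffEmb` contains `F_ℚ`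
    have hle : modularFunctionFieldFull N ≤
        ((ratioSubfield A).comap (coeffEmb Kb)).toIntermediateField
          (fun r => by
            rw [eq_ratCast]
            exact SubfieldClass.ratCast_mem _ r) := by
      rw [modularFunctionFieldFull, IntermediateField.adjoin_le_iff]
      rintro z ⟨d, hd, -, rfl⟩
      have := hd
      exact isRatioEv_jqd A d
    exact hle hy

end Fermat.Agent.P2.helper73
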