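/-
P2 [INJ-2] DISC step, package (E3) (helper56, task 763): coefficient lemmas.

* `coeff_mem_of_isRatio` (E3a): ratios over `R₀ ⊆ K₀` have coefficients in `K₀`;
* `exists_phi_of_isRatio` (E3b): an `A`-integral ratio over `A ∩ K₀` is `X ^ (-k)` times a power
  series over `A ∩ K₀`, with a unit coefficient if its reduction is nonzero;
* `exists_coeffMap_eq` (E3c), `coeffMap_subtype_injective` (E3d): lifting to `A((q))`.
-/
import Mathlib
import Fermat.Prelude.Def_ModularCurve_ReductionModL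
import Fermat.Agent.P2.helper23_DiscDefs
import Fermat.Agent.P2.helper73_DiscRatio

set_option autoImplicit false
set_option linter.unusedSectionVars false
set_option linter.unusedVariables false

noncomputable section

open HahnSeries IntermediateField AlgebraicCurve ModularCurve
open Fermat.Agent.P2.helper23

namespace Fermat.Agent.P2.helper56

/-! ### Lifting coefficients along an injective ring homomorphism -/

/-- A Laurent series whose coefficients lie in the range of an injective ring homomorphism is in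
the range of `coeffMap`. -/
theorem exists_coeffMap_eq_of_mem_range {R S : Type*} [CommRing R] [CommRing S] (ι : R →+* S)
    (hι : Function.Injective ι) (f : LaurentSeries S) (hf : ∀ n, f.coeff n ∈ Set.range ι) :
    ∃ Y : LaurentSeries R, coeffMap ι Y = f := by
  choose c hc using hf
  have hsupp : Function.support c ⊆ f.support := by
    intro n hn
    rw [HahnSeries.mem_support, ← hc n]
    intro h0
    apply hn
    exact hι (by rw [h0, map_zero])
  refine ⟨⟨c, f.isPWO_support.mono hsupp⟩, ?_⟩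
  ext n
  rw [coeffMap_coeff]
  exact hc n

/-- (E3d) -/
theorem coeffMap_subtype_injective (A : ValuationSubring Kb) :
    Function.Injective (coeffMap A.subtype) := by
  intro Y Y' h
  ext n
  have h1 := congrArg (fun Z : LaurentSeries Kb => Z.coeff n) h
  simp only [coeffMap_coeff] at h1
  exact h1

/-- (E3c) a Laurent series with coefficients in `A` comes from `A((q))`. -/
theorem exists_coeffMap_eq (A : ValuationSubring Kb) (f : LaurentSeries Kb)
    (hf : ∀ n, f.coeff n ∈ A) : ∃ Y : LaurentSeries A, coeffMap A.subtype Y = f :=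
  exists_coeffMap_eq_of_mem_range A.subtype Subtype.val_injective f
    fun n => ⟨⟨f.coeff n, hf n⟩, rfl⟩

/-! ### (E3a) -/

theorem phi_coeff_mem (R₀ : Subring Kb) (G : PowerSeries R₀) (n : ℤ) :
    (phi R₀ G).coeff n ∈ R₀ := by
  rcases lt_or_ge n 0 with hn | hn
  · rw [phi_apply, ofPowerSeries_coeff_of_neg _ hn]
    exact R₀.zero_mem
  · obtain ⟨m, rfl⟩ := Int.eq_ofNat_of_zero_le hn
    rw [phi_coeff_natCast]
    exact (PowerSeries.coeff m G).2

/-- (E3a) the coefficients of a quotient of power series over `R₀ ⊆ K₀` lie in `K₀`. -/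
theorem coeff_mem_of_isRatio {R₀ : Subring Kb} (K₀ : IntermediateField ℚ Kb)
    (hR : ∀ x ∈ R₀, x ∈ K₀) {f : LaurentSeries Kb} (hf : IsRatio R₀ f) (n : ℤ) :
    f.coeff n ∈ K₀ := by
  obtain ⟨G₁, G₂, hG₂, hfG⟩ := hf
  have hmem : ∀ G : PowerSeries R₀,
      phi R₀ G ∈ (coeffMap (algebraMap K₀ Kb)).fieldRange := by
    intro G
    obtain ⟨Y, hY⟩ := exists_coeffMap_eq_of_mem_range (algebraMap K₀ Kb)
      (algebraMap K₀ Kb).injective (phi R₀ G)
      fun n => ⟨⟨(phi R₀ G).coeff n, hR _ (phi_coeff_mem R₀ G n)⟩, rfl⟩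
    exact ⟨Y, hY⟩
  have hne : phi R₀ G₂ ≠ 0 := phi_ne_zero R₀ hG₂
  have hf' : f = phi R₀ G₁ * (phi R₀ G₂)⁻¹ := by
    rw [← hfG, mul_assoc, mul_inv_cancel₀ hne, mul_one]
  have hfmem : f ∈ (coeffMap (algebraMap K₀ Kb)).fieldRange := by
    rw [hf']
    exact mul_mem (hmem G₁) (inv_mem (hmem G₂))
  obtain ⟨Y, rfl⟩ := hfmem
  rw [coeffMap_coeff]
  exact (Y.coeff n).2

/-! ### (E3b) -/

theorem phi_X_pow (R₀ : Subring Kb) (k : ℕ) :
    phi R₀ (PowerSeries.X ^ k) = HahnSeries.single (k : ℤ) (1 : Kb) := by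
  rw [map_pow, phi_apply, PowerSeries.map_X, HahnSeries.ofPowerSeries_X, HahnSeries.single_pow]
  simp

/-- the coefficients of `f * X ^ k`. -/
theorem coeff_mul_phi_X_pow (R₀ : Subring Kb) (f : LaurentSeries Kb) (k : ℕ) (n : ℤ) :
    (f * phi R₀ (PowerSeries.X ^ k)).coeff n = f.coeff (n - k) := by
  rw [phi_X_pow]
  have h := HahnSeries.coeff_mul_single_add (x := f) (a := n - k) (b := (k : ℤ)) (r := (1 : Kb))
  rw [sub_add_cancel, mul_one] at h
  exact h

/-- a unit of `A` lying in `K₀` is a unit of `A ∩ K₀`. -/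
theorem isUnit_capSubring (A : ValuationSubring Kb) (K₀ : IntermediateField ℚ Kb)
    (x : capSubring A K₀) (hx : ∀ hA : (x : Kb) ∈ A, IsUnit (⟨(x : Kb), hA⟩ : A)) :
    IsUnit x := by
  have hxA : (x : Kb) ∈ A := (mem_capSubring.1 x.2).1
  obtain ⟨y, hy⟩ := isUnit_iff_exists_inv.1 (hx hxA)
  have h1 : (x : Kb) * (y : Kb) = 1 := by
    have h3 := congrArg (fun z : A => (z : Kb)) hy
    exact h3
  have hx0 : (x : Kb) ≠ 0 := by
    intro h0
    rw [h0, zero_mul] at h1
    exact zero_ne_one h1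
  have hinv : (y : Kb) = ((x : Kb))⁻¹ := eq_inv_of_mul_eq_one_right h1
  have hinvK : ((x : Kb))⁻¹ ∈ K₀ := inv_mem (mem_capSubring.1 x.2).2
  have hinvA : ((x : Kb))⁻¹ ∈ A := by
    rw [← hinv]
    exact y.2
  refine IsUnit.of_mul_eq_one (⟨((x : Kb))⁻¹, mem_capSubring.2 ⟨hinvA, hinvK⟩⟩ : capSubring A K₀) ?_
  apply Subtype.ext
  change (x : Kb) * ((x : Kb))⁻¹ = 1
  exact mul_inv_cancel₀ hx0

/-- (E3b) an `A`-integral Laurent series which is a ratio over `A ∩ K₀` is `X ^ (-k)` times a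
power series over `A ∩ K₀`; if its reduction is nonzero this power series has a unit
coefficient. -/
theorem exists_phi_of_isRatio (A : ValuationSubring Kb) (K₀ : IntermediateField ℚ Kb)
    (Y : LaurentSeries A) (hY : IsRatio (capSubring A K₀) (coeffMap A.subtype Y)) :
    ∃ (k : ℕ) (G : PowerSeries (capSubring A K₀)),
      coeffMap A.subtype Y * phi (capSubring A K₀) (PowerSeries.X ^ k) = phi (capSubring A K₀) G ∧
      (coeffMap (IsLocalRing.residue A) Y ≠ 0 → ∃ n, IsUnit (PowerSeries.coeff n G)) := by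
  set f : LaurentSeries Kb := coeffMap A.subtype Y with hf
  have hfc : ∀ n : ℤ, f.coeff n = ((Y.coeff n : A) : Kb) := fun n => by
    rw [hf, coeffMap_coeff]
    rfl
  have hK : ∀ n : ℤ, f.coeff n ∈ K₀ :=
    fun n => coeff_mem_of_isRatio K₀ (fun x hx => (mem_capSubring.1 hx).2) hY n
  have hA : ∀ n : ℤ, f.coeff n ∈ A := fun n => by
    rw [hfc]
    exact (Y.coeff n).2
  -- the pole order bound
  obtain ⟨k, hk⟩ : ∃ k : ℕ, ∀ n : ℤ, n < -(k : ℤ) → f.coeff n = 0 := by
    refine ⟨(-f.order).toNat, fun n hn => ?_⟩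
    apply HahnSeries.coeff_eq_zero_of_lt_order
    have h1 : -f.order ≤ ((-f.order).toNat : ℤ) := Int.self_le_toNat _
    omega
  have hneg : ∀ n : ℤ, n < 0 →
      (f * phi (capSubring A K₀) (PowerSeries.X ^ k)).coeff n = 0 := by
    intro n hn
    rw [coeff_mul_phi_X_pow]
    exact hk _ (by omega)
  have hmem : ∀ n : ℕ,
      (f * phi (capSubring A K₀) (PowerSeries.X ^ k)).coeff (n : ℤ) ∈ capSubring A K₀ := by
    intro n
    rw [coeff_mul_phi_X_pow]
    exact mem_capSubring.2 ⟨hA _, hK _⟩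
  obtain ⟨G, hG⟩ := helper73.exists_phi_eq
    (f * phi (capSubring A K₀) (PowerSeries.X ^ k)) hneg hmem
  refine ⟨k, G, hG.symm, fun hne => ?_⟩
  -- a coefficient of `Y` with nonzero residue
  obtain ⟨m, hm⟩ : ∃ m : ℤ, IsLocalRing.residue A (Y.coeff m) ≠ 0 := by
    by_contra hcon
    push Not at hcon
    apply hne
    ext n
    rw [coeffMap_coeff, hcon n]
    rfl
  have hmu : IsUnit (Y.coeff m) := by
    by_contra hnu
    apply hm
    rw [IsLocalRing.residue_eq_zero_iff]
    exact (IsLocalRing.mem_maximalIdeal _).2 hnu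
  have hmk : -(k : ℤ) ≤ m := by
    by_contra hlt
    push Not at hlt
    have h0 : f.coeff m = 0 := hk m hlt
    rw [hfc] at h0
    have h1 : Y.coeff m = 0 := Subtype.ext h0
    rw [h1] at hmu
    exact not_isUnit_zero hmu
  obtain ⟨n, hn⟩ : ∃ n : ℕ, (n : ℤ) = m + k := ⟨(m + k).toNat, Int.toNat_of_nonneg (by omega)⟩
  refine ⟨n, isUnit_capSubring A K₀ _ fun hA' => ?_⟩
  have hval : ((PowerSeries.coeff n G : capSubring A K₀) : Kb) = ((Y.coeff m : A) : Kb) := by
    rw [← phi_coeff_natCast, hG, coeff_mul_phi_X_pow, hfc, hn, add_sub_cancel_right]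
  have heq : (⟨((PowerSeries.coeff n G : capSubring A K₀) : Kb), hA'⟩ : A) = Y.coeff m :=
    Subtype.ext hval
  rw [heq]
  exact hmu

end Fermat.Agent.P2.helper56
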