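import Mathlib
import Fermat.Agent.P2.helper23_DiscDefs
import Fermat.Agent.P2.helper31_DiscUnity
import Fermat.Agent.P2.helper38_DiscUnitRoot
import Fermat.Agent.P2.helper56_DiscCoeff
import Fermat.Agent.P2.helper5_DiscRoots
import Fermat.Agent.P2.helper41_DiscRootsExist

/-!
# P2 [INJ-2] DISC step (helper23, task 591): extraction and normalisation of the integral root
-/

set_option autoImplicit false
set_option linter.unusedSectionVars false

noncomputable section

open HahnSeries IntermediateField AlgebraicCurve ModularCurve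

namespace Fermat.Agent.P2.helper23

theorem natCast_ne_zero_of_isUnit (A : ValuationSubring Kb) (m : ℕ)
    (hm : IsUnit ((m : ℕ) : A)) : m ≠ 0 := by
  rintro rfl
  simp at hm

theorem natCast_residue_ne_zero (A : ValuationSubring Kb) (m : ℕ)
    (hm : IsUnit ((m : ℕ) : A)) : ((m : ℕ) : IsLocalRing.ResidueField A) ≠ 0 := by
  have h := hm.map (IsLocalRing.residue A)
  rw [map_natCast] at h
  exact h.ne_zero

/-- **Normalisation.** an integral `m`-th root of `Hs = Y₁ / Y₂` (`red Y₁ = red Y₂ ≠ 0`) can be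
normalised to have reduction `1`. -/
theorem exists_normalized_root (A : ValuationSubring Kb) (m : ℕ) (hm : IsUnit ((m : ℕ) : A))
    (Hs : LaurentSeries Kb) (Y₁ Y₂ : LaurentSeries A)
    (h12 : coeffMap A.subtype Y₁ = Hs * coeffMap A.subtype Y₂)
    (hred : coeffMap (IsLocalRing.residue A) Y₁ = coeffMap (IsLocalRing.residue A) Y₂)
    (hne : coeffMap (IsLocalRing.residue A) Y₂ ≠ 0)
    (Z₁ : LaurentSeries A) (hZ : (coeffMap A.subtype Z₁) ^ m = Hs) :
    ∃ Z : LaurentSeries A, (coeffMap A.subtype Z) ^ m = Hs ∧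
      coeffMap (IsLocalRing.residue A) Z = 1 := by
  have hm0 := natCast_ne_zero_of_isUnit A m hm
  have hmk := natCast_residue_ne_zero A m hm
  have h1 : Z₁ ^ m * Y₂ = Y₁ := by
    apply Fermat.Agent.P2.helper56.coeffMap_subtype_injective A
    rw [map_mul, map_pow, hZ, h12]
  have h2 : (coeffMap (IsLocalRing.residue A) Z₁) ^ m = 1 := by
    have h3 := congrArg (coeffMap (IsLocalRing.residue A)) h1
    rw [map_mul, map_pow, hred] at h3
    have h4 : (coeffMap (IsLocalRing.residue A) Z₁) ^ m * coeffMap (IsLocalRing.residue A) Y₂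
        = 1 * coeffMap (IsLocalRing.residue A) Y₂ := by rw [h3, one_mul]
    exact mul_right_cancel₀ hne h4
  obtain ⟨c, hc, hcZ⟩ := Fermat.Agent.P2.helper5.eq_single_of_pow_eq_one m hmk _ h2
  have hz : IsLocalRing.residue A (Z₁.coeff 0) = c := by
    have := congrArg (fun Y : LaurentSeries (IsLocalRing.ResidueField A) => Y.coeff 0) hcZ
    simpa using this
  obtain ⟨ζ, hζ, hζr⟩ :=
    Fermat.Agent.P2.helper31.exists_root_of_unity_lift A m hm0 (Z₁.coeff 0) (by rw [hz, hc])
  rw [hz] at hζr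
  obtain ⟨k, rfl⟩ : ∃ k, m = k + 1 := Nat.exists_eq_succ_of_ne_zero hm0
  refine ⟨HahnSeries.single 0 (ζ ^ k) * Z₁, ?_, ?_⟩
  · rw [map_mul, mul_pow, hZ, coeffMap_single, HahnSeries.single_pow, smul_zero, ← map_pow,
      ← pow_mul, mul_comm k, pow_mul, hζ, one_pow, map_one, HahnSeries.single_zero_one, one_mul]
  · rw [map_mul, coeffMap_single, hcZ, HahnSeries.single_mul_single, add_zero, map_pow, hζr,
      ← pow_succ, hc, HahnSeries.single_zero_one]

theorem phi_X_pow (R₀ : Subring Kb) (k : ℕ) :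
    phi R₀ (PowerSeries.X ^ k) = HahnSeries.single (k : ℤ) 1 := by
  rw [phi_apply, map_pow, PowerSeries.map_X, HahnSeries.ofPowerSeries_X_pow]

/-- **Extraction.** -/
theorem exists_integral_root {R₀ : Subring Kb} (A : ValuationSubring Kb)
    (hRA : R₀ ≤ A.toSubring) (m : ℕ) (hm : IsUnit ((m : ℕ) : A))
    (Hs : LaurentSeries Kb) (hH : Hs ≠ 0) (hord : (m : ℤ) ∣ Hs.order) (n' : ℕ)
    (u : (PowerSeries R₀)ˣ) (Z0 : PowerSeries R₀) (hZ0 : Z0 ≠ 0)
    (h : Hs * (phi R₀ (PowerSeries.X ^ n')) ^ m = phi R₀ (u : PowerSeries R₀) * (phi R₀ Z0) ^ m) :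
    ∃ Z₁ : LaurentSeries A, (coeffMap A.subtype Z₁) ^ m = Hs := by
  have hm0 := natCast_ne_zero_of_isUnit A m hm
  obtain ⟨Zf, hZf⟩ := Fermat.Agent.P2.helper41.exists_pow_eq_laurent m hm0 Hs hH hord
  have hφZ0 : phi R₀ Z0 ≠ 0 := phi_ne_zero R₀ hZ0
  -- the unit root `T`
  set T : LaurentSeries Kb := Zf * phi R₀ (PowerSeries.X ^ n') * (phi R₀ Z0)⁻¹ with hT
  have hTm : T ^ m = phi R₀ (u : PowerSeries R₀) := by
    rw [hT, mul_pow, mul_pow, hZf, h, inv_pow, mul_assoc,
      mul_inv_cancel₀ (pow_ne_zero _ hφZ0), mul_one]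
  have huK : IsUnit (PowerSeries.map R₀.subtype (u : PowerSeries R₀)) :=
    u.isUnit.map (PowerSeries.map R₀.subtype)
  obtain ⟨T', hT', hT'm⟩ :=
    Fermat.Agent.P2.helper38.exists_powerSeries_of_pow_eq m hm0 T _ huK (by rw [hTm, phi_apply])
  -- integrality of `T'`
  have huA : IsUnit (PowerSeries.map (Subring.inclusion hRA) (u : PowerSeries R₀)) :=
    u.isUnit.map (PowerSeries.map (Subring.inclusion hRA))
  have hmapA : ∀ G : PowerSeries R₀,
      PowerSeries.map A.subtype (PowerSeries.map (Subring.inclusion hRA) G)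
        = PowerSeries.map R₀.subtype G := by
    intro G
    ext n
    simp only [PowerSeries.coeff_map]
    rfl
  have hcoeff := Fermat.Agent.P2.helper38.coeff_mem_of_pow_eq_unit A m hm T' _ huA (by rw [hT'm, hmapA])
  set TA : PowerSeries A := PowerSeries.mk fun n => ⟨PowerSeries.coeff n T', hcoeff n⟩ with hTA
  have hTA' : PowerSeries.map A.subtype TA = T' := by
    ext n
    rw [PowerSeries.coeff_map, hTA, PowerSeries.coeff_mk]
    rfl
  refine ⟨HahnSeries.single (-(n' : ℤ)) 1 *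
    HahnSeries.ofPowerSeries ℤ A (TA * PowerSeries.map (Subring.inclusion hRA) Z0), ?_⟩
  have hincl : coeffMap A.subtype (HahnSeries.single (-(n' : ℤ)) 1 *
      HahnSeries.ofPowerSeries ℤ A (TA * PowerSeries.map (Subring.inclusion hRA) Z0)) = Zf := by
    rw [map_mul, coeffMap_single, coeffMap_ofPowerSeries, map_mul, hTA', hmapA, map_mul, hT',
      ← phi_apply, map_one, hT, mul_assoc, mul_assoc, inv_mul_cancel₀ hφZ0, mul_one,
      phi_X_pow, mul_comm Zf, ← mul_assoc, HahnSeries.single_mul_single, neg_add_cancel,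
      mul_one, HahnSeries.single_zero_one, one_mul]
  rw [hincl, hZf]

theorem root_eq_of_unit_eq {R₀ : Subring Kb} (Hs : LaurentSeries Kb) (a b : PowerSeries R₀)
    (hb : b ≠ 0) (hab : Hs * phi R₀ b = phi R₀ a) (m n' : ℕ) (u : (PowerSeries R₀)ˣ)
    (Z0 : PowerSeries R₀)
    (hU3 : a * PowerSeries.X ^ (m * n') = (u : PowerSeries R₀) * Z0 ^ m * b) :
    Hs * (phi R₀ (PowerSeries.X ^ n')) ^ m = phi R₀ (u : PowerSeries R₀) * (phi R₀ Z0) ^ m := by
  have h3 := congrArg (phi R₀) hU3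
  simp only [map_mul, map_pow] at h3 ⊢
  apply mul_right_cancel₀ (phi_ne_zero R₀ hb)
  rw [← h3, ← hab]
  ring

end Fermat.Agent.P2.helper23
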