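import Mathlib

/-!
# P2 / DISC-U3 (helper9, task 687): a UFD lemma on `m`-th powers

In a unique factorisation domain: if `mult_p b ≤ mult_p a` and `m ∣ mult_p a - mult_p b` for all
primes `p`, then `a = u * z ^ m * b` with `u` a unit (`exists_unit_mul_pow_mul`).  Mathlib only.
-/

set_option autoImplicit false

namespace Fermat.Agent.P2.helper9

variable {U : Type*} [CommRing U] [IsDomain U] [UniqueFactorizationMonoid U]

/-- an element all of whose prime multiplicities are divisible by `m` is a unit times an `m`-th
power -/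
theorem exists_unit_mul_pow_of_dvd_multiplicity (m : ℕ) (hm : m ≠ 0) :
    ∀ c : U, c ≠ 0 → (∀ p : U, Prime p → m ∣ multiplicity p c) →
      ∃ (u : Uˣ) (z : U), c = u * z ^ m := by
  intro c
  induction c using (wellFounded_dvdNotUnit (α := U)).induction with
  | _ c ih =>
    intro hc h
    by_cases hu : IsUnit c
    · obtain ⟨u, rfl⟩ := hu
      exact ⟨u, 1, by simp⟩
    · obtain ⟨p, hp, hpc⟩ := WfDvdMonoid.exists_irreducible_factor hu hc
      have hp' : Prime p := UniqueFactorizationMonoid.irreducible_iff_prime.1 hp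
      have hpos : 0 < multiplicity p c := multiplicity_pos_of_dvd hpc
      have hle : m ≤ multiplicity p c := Nat.le_of_dvd hpos (h p hp')
      obtain ⟨c', hc'⟩ := pow_dvd_of_le_multiplicity hle
      have hc'0 : c' ≠ 0 := by
        rintro rfl
        exact hc (by rw [hc', mul_zero])
      have hpm : ¬ IsUnit (p ^ m) := fun hcon =>
        hp'.not_isUnit ((isUnit_pow_iff hm).1 hcon)
      have hdnu : DvdNotUnit c' c := ⟨hc'0, p ^ m, hpm, by rw [hc', mul_comm]⟩
      obtain ⟨u, z, hz⟩ := ih c' hdnu hc'0 (fun q hq => by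
        have hfq : FiniteMultiplicity q c := .of_prime_left hq hc
        have e1 : multiplicity q c = multiplicity q (p ^ m) + multiplicity q c' := by
          rw [hc'] at hfq ⊢
          exact multiplicity_mul hq hfq
        have e2 : multiplicity q (p ^ m) = m * multiplicity q p :=
          (FiniteMultiplicity.of_prime_left hq hp'.ne_zero).multiplicity_pow hq
        have := h q hq
        rw [e1, e2] at this
        exact (Nat.dvd_add_right (dvd_mul_right m _)).1 this)
      exact ⟨u, p * z, by rw [hc', hz]; ring⟩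

/-- **DISC-U3**: if `mult_p b ≤ mult_p a` and `m ∣ mult_p a - mult_p b` for all primes `p`, then
`a = u * z ^ m * b` with `u` a unit. -/
theorem exists_unit_mul_pow_mul (m : ℕ) (hm : m ≠ 0) (a b : U) (ha : a ≠ 0) (hb : b ≠ 0)
    (h : ∀ p : U, Prime p →
      multiplicity p b ≤ multiplicity p a ∧ m ∣ multiplicity p a - multiplicity p b) :
    ∃ (u : Uˣ) (z : U), a = u * z ^ m * b := by
  induction b using UniqueFactorizationMonoid.induction_on_prime generalizing a with
  | h₁ => exact absurd rfl hb
  | h₂ b hbu =>
    obtain ⟨u, z, hz⟩ := exists_unit_mul_pow_of_dvd_multiplicity m hm a ha (fun p hp => by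
      have := (h p hp).2
      rwa [multiplicity_of_isUnit_right hp.not_isUnit hbu, Nat.sub_zero] at this)
    obtain ⟨v, rfl⟩ := hbu
    refine ⟨u * v⁻¹, z, ?_⟩
    rw [hz, Units.val_mul]
    calc (u : U) * z ^ m = (u : U) * z ^ m * ((v⁻¹ : Uˣ) * (v : U)) := by
          rw [Units.inv_mul, mul_one]
      _ = (u : U) * ((v⁻¹ : Uˣ) : U) * z ^ m * (v : U) := by ring
  | h₃ b p hb0 hp ih =>
    have h1 : 0 < multiplicity p (p * b) := multiplicity_pos_of_dvd (dvd_mul_right p b)
    have hpa : p ∣ a := dvd_of_multiplicity_pos (lt_of_lt_of_le h1 (h p hp).1)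
    obtain ⟨a', rfl⟩ := hpa
    have ha' : a' ≠ 0 := right_ne_zero_of_mul ha
    obtain ⟨u, z, hz⟩ := ih a' ha' hb0 (fun q hq => by
      have e1 : multiplicity q (p * a') = multiplicity q p + multiplicity q a' :=
        multiplicity_mul hq (FiniteMultiplicity.of_prime_left hq ha)
      have e2 : multiplicity q (p * b) = multiplicity q p + multiplicity q b :=
        multiplicity_mul hq (FiniteMultiplicity.of_prime_left hq hb)
      obtain ⟨h3, h4⟩ := h q hq
      rw [e1, e2] at h3 h4
      refine ⟨by omega, ?_⟩
      have e3 : multiplicity q p + multiplicity q a' - (multiplicity q p + multiplicity q b) =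
          multiplicity q a' - multiplicity q b := by omega
      rwa [e3] at h4)
    exact ⟨u, z, by rw [hz]; ring⟩

end Fermat.Agent.P2.helper9
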