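import Mathlib
import Fermat.Agent.P2.helper23_DiscCore
import Fermat.Agent.P2.helper23_DiscRoot
import Fermat.Agent.P2.helper9_DiscUFD
import Fermat.Agent.P2.helper13_DiscConst

/-!
# P2 [INJ-2] DISC step (helper23, task 591): the core theorem

`disc_root_core` : for an intermediate field `F` of `ℚ̄((q)) / ℚ̄` containing `j`, a function
`H = Y₁ / Y₂ ∈ F` (`Y₁, Y₂` integral with the same nonzero reduction) whose divisor is divisible
by `m` and which is regular at the places where `j` is finite has an integral formal `m`-th root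
with reduction `1`.
-/

set_option autoImplicit false
set_option linter.unusedSectionVars false

noncomputable section

open HahnSeries IntermediateField AlgebraicCurve ModularCurve

namespace Fermat.Agent.P2.helper23

theorem capSubring_le (A : ValuationSubring Kb) (K₀ : IntermediateField ℚ Kb) :
    capSubring A K₀ ≤ A.toSubring := fun _ hx => hx.1

theorem exists_uniformizer {F : Type*} [Field F] [Algebra Kb F] (𝔓 : Place Kb F) :
    ∃ t : F, 𝔓.ord t = 1 := by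
  obtain ⟨π, hπ⟩ := IsDiscreteValuationRing.exists_irreducible 𝔓.toValuationSubring
  exact ⟨π, 𝔓.ord_coe_irreducible hπ⟩

theorem finiteDimensional_adjoin_finset (S : Finset Kb) :
    FiniteDimensional ℚ (IntermediateField.adjoin ℚ (S : Set Kb)) :=
  IntermediateField.finiteDimensional_adjoin
    fun x _ => ((AlgebraicClosure.isAlgebraic ℚ).isAlgebraic x).isIntegral

/-- **Core theorem.** -/
theorem disc_root_core (F : IntermediateField Kb (LaurentSeries Kb)) (A : ValuationSubring Kb)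
    (hD5 : ∀ V : ValuationSubring F, (∀ a : Kb, algebraMap Kb F a ∈ V) → V ≠ ⊤ →
      ∃ 𝔓 : Place Kb F, 𝔓.toValuationSubring = V)
    (hD4 : ∀ f : F, ∃ S : Finset Kb, ∀ K₀ : IntermediateField ℚ Kb, (S : Set Kb) ⊆ K₀ →
      IsRatio (capSubring A K₀) (f : LaurentSeries Kb))
    (hPID : ∀ K₀ : IntermediateField ℚ Kb, FiniteDimensional ℚ K₀ →
      IsPrincipalIdealRing (capSubring A K₀))
    (jF : F) (hj : (jF : LaurentSeries Kb) = jqModC Kb)
    (m : ℕ) (hm : IsUnit ((m : ℕ) : A)) (H : F) (hH : H ≠ 0)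
    (hfin : {𝔓 : Place Kb F | 𝔓.ord H ≠ 0}.Finite)
    (hord : (m : ℤ) ∣ (H : LaurentSeries Kb).order)
    (hdiv : ∀ 𝔓 : Place Kb F, 0 ≤ 𝔓.ord jF → (m : ℤ) ∣ 𝔓.ord H)
    (hreg : ∀ 𝔓 : Place Kb F, 0 ≤ 𝔓.ord jF → 0 ≤ 𝔓.ord H)
    (Y₁ Y₂ : LaurentSeries A) (h₁ : coeffMap A.subtype Y₁ ∈ F) (h₂ : coeffMap A.subtype Y₂ ∈ F)
    (h12 : coeffMap A.subtype Y₁ = (H : LaurentSeries Kb) * coeffMap A.subtype Y₂)
    (hred : coeffMap (IsLocalRing.residue A) Y₁ = coeffMap (IsLocalRing.residue A) Y₂)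
    (hne : coeffMap (IsLocalRing.residue A) Y₂ ≠ 0) :
    ∃ Z : LaurentSeries A, (coeffMap A.subtype Z) ^ m = (H : LaurentSeries Kb) ∧
      coeffMap (IsLocalRing.residue A) Z = 1 := by
  classical
  have hm0 := natCast_ne_zero_of_isUnit A m hm
  have hH' : (H : LaurentSeries Kb) ≠ 0 := fun h => hH (Subtype.ext h)
  -- the number field `K₀`
  choose t ht using fun 𝔓 : Place Kb F => exists_uniformizer 𝔓
  choose St hSt using fun 𝔓 : Place Kb F => hD4 (t 𝔓)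
  obtain ⟨S₁, hS₁⟩ := hD4 ⟨_, h₁⟩
  obtain ⟨S₂, hS₂⟩ := hD4 ⟨_, h₂⟩
  set S : Finset Kb := S₁ ∪ S₂ ∪ hfin.toFinset.biUnion St with hS
  set K₀ : IntermediateField ℚ Kb := IntermediateField.adjoin ℚ (S : Set Kb) with hK₀
  have hSK : (S : Set Kb) ⊆ K₀ := IntermediateField.subset_adjoin ℚ _
  have hfd : FiniteDimensional ℚ K₀ := finiteDimensional_adjoin_finset S
  have : IsPrincipalIdealRing (capSubring A K₀) := hPID K₀ hfd
  have hS₁K : (S₁ : Set Kb) ⊆ K₀ := fun x hx => hSK (by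
    rw [hS]
    simp only [Finset.coe_union, Set.mem_union, Finset.mem_coe]
    exact Or.inl (Or.inl hx))
  have hS₂K : (S₂ : Set Kb) ⊆ K₀ := fun x hx => hSK (by
    rw [hS]
    simp only [Finset.coe_union, Set.mem_union, Finset.mem_coe]
    exact Or.inl (Or.inr hx))
  have hStK : ∀ 𝔓 : Place Kb F, 𝔓.ord H ≠ 0 → ((St 𝔓 : Finset Kb) : Set Kb) ⊆ K₀ := by
    intro 𝔓 h𝔓 x hx
    refine hSK ?_
    rw [hS]
    simp only [Finset.coe_union, Set.mem_union, Finset.mem_coe, Finset.mem_biUnion,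
      Set.Finite.mem_toFinset, Set.mem_ofPred_eq]
    exact Or.inr ⟨𝔓, h𝔓, hx⟩
  -- numerator and denominator
  obtain ⟨k₁, G₁, hG₁, hu₁⟩ :=
    Fermat.Agent.P2.helper56.exists_phi_of_isRatio A K₀ Y₁ (hS₁ K₀ hS₁K)
  obtain ⟨k₂, G₂, hG₂, hu₂⟩ :=
    Fermat.Agent.P2.helper56.exists_phi_of_isRatio A K₀ Y₂ (hS₂ K₀ hS₂K)
  obtain ⟨n₁, hn₁⟩ := hu₁ (by rw [hred]; exact hne)
  obtain ⟨n₂, hn₂⟩ := hu₂ hne
  have hG₁0 : G₁ ≠ 0 := by
    rintro rfl
    simp at hn₁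
  have hG₂0 : G₂ ≠ 0 := by
    rintro rfl
    simp at hn₂
  have hXk : ∀ k : ℕ, (PowerSeries.X : PowerSeries (capSubring A K₀)) ^ k ≠ 0 :=
    fun k => pow_ne_zero _ PowerSeries.X_ne_zero
  have ha : G₁ * PowerSeries.X ^ k₂ ≠ 0 := mul_ne_zero hG₁0 (hXk _)
  have hb : G₂ * PowerSeries.X ^ k₁ ≠ 0 := mul_ne_zero hG₂0 (hXk _)
  have hab : (H : LaurentSeries Kb) * phi (capSubring A K₀) (G₂ * PowerSeries.X ^ k₁)
      = phi (capSubring A K₀) (G₁ * PowerSeries.X ^ k₂) := by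
    rw [map_mul, map_mul, ← hG₁, ← hG₂, h12]
    ring
  have hconst : ∀ P : PowerSeries (capSubring A K₀), Prime P →
      (∃ r : capSubring A K₀, r ≠ 0 ∧ P ∣ PowerSeries.C r) →
      ¬ P ∣ PowerSeries.X → ¬ P ∣ G₁ * PowerSeries.X ^ k₂ ∧ ¬ P ∣ G₂ * PowerSeries.X ^ k₁ := by
    rintro P hP ⟨r, hr, hPr⟩ hX
    constructor
    · intro h
      rcases hP.dvd_or_dvd h with h | h
      · exact Fermat.Agent.P2.helper13.not_dvd_of_dvd_C hP hr hPr hn₁ h
      · exact hX (hP.dvd_of_dvd_pow h)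
    · intro h
      rcases hP.dvd_or_dvd h with h | h
      · exact Fermat.Agent.P2.helper13.not_dvd_of_dvd_C hP hr hPr hn₂ h
      · exact hX (hP.dvd_of_dvd_pow h)
  have hunif : ∀ 𝔓 : Place Kb F, 𝔓.ord H ≠ 0 →
      ∃ t : F, 𝔓.ord t = 1 ∧ IsRatio (capSubring A K₀) (t : LaurentSeries Kb) :=
    fun 𝔓 h𝔓 => ⟨t 𝔓, ht 𝔓, hSt 𝔓 K₀ (hStK 𝔓 h𝔓)⟩
  have hmult := mult_claim F hD5 jF hj m hm0 H hH hord hdiv hreg hunif _ _ ha hb hab hconst
  obtain ⟨u, Z0, hU3⟩ := Fermat.Agent.P2.helper9.exists_unit_mul_pow_mul m hm0 _ _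
    (mul_ne_zero ha (hXk _)) hb hmult
  have hZ0 : Z0 ≠ 0 := by
    rintro rfl
    rw [zero_pow hm0, mul_zero, zero_mul] at hU3
    exact mul_ne_zero ha (hXk _) hU3
  have hkey := root_eq_of_unit_eq (H : LaurentSeries Kb) _ _ hb hab m _ u Z0 hU3
  obtain ⟨Z₁, hZ₁⟩ := exists_integral_root A (capSubring_le A K₀) m hm (H : LaurentSeries Kb) hH'
    hord _ u Z0 hZ0 hkey
  exact exists_normalized_root A m hm _ Y₁ Y₂ h12 hred hne Z₁ hZ₁

end Fermat.Agent.P2.helper23
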