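import Mathlib
import Fermat.Agent.S24.helper75_FFCore
import Fermat.Agent.S24.helper82_FFBasic

/-!
# P2 [INJ-2] DISC step, package [DISC-D5] (task 689): valuation subrings of a function field of
one variable containing the constants are places

* `exists_place_of_valuationSubring_of_isSeparable` : the core, for a separating coordinate
  `y ∈ V`;
* `exists_place_of_valuationSubring` : every valuation subring `V ≠ ⊤` of `F` containing the
  algebraically closed constant field `K` is the valuation subring of a `Place K F`.
-/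

set_option autoImplicit false
set_option linter.unusedSectionVars false
set_option linter.unusedVariables false
set_option linter.style.longLine false
set_option linter.style.haveILetI false

namespace Fermat.Agent.P2.helper62

open AlgebraicCurve IntermediateField IsDedekindDomain
open scoped IntermediateField.algebraAdjoinAdjoin
open Fermat.Agent.S24.helper75

variable {K F : Type*} [Field K] [Field F] [Algebra K F]

/-- `K[y] ⊆ V` -/
theorem polyRing_mem_valuationSubring (V : ValuationSubring F)
    (hK : ∀ a : K, algebraMap K F a ∈ V) {y : F} (hy : y ∈ V) (r : polyRing (K := K) y) :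
    (r : F) ∈ V := by
  let OV : Subalgebra K F :=
    { V.toSubring with
      algebraMap_mem' := hK }
  have h : polyRing (K := K) y ≤ OV := Algebra.adjoin_le (by
    rintro z (rfl : z = y)
    exact hy)
  exact h r.2

/-- the integral closure of `K[y]` lies in `V` -/
theorem integralClosure_mem_valuationSubring (V : ValuationSubring F)
    (hK : ∀ a : K, algebraMap K F a ∈ V) {y : F} (hy : y ∈ V)
    (s : integralClosure (polyRing (K := K) y) F) : (s : F) ∈ V := by
  have hR : ∀ r : polyRing (K := K) y, algebraMap (polyRing (K := K) y) F r ∈ V.toSubring :=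
    fun r => polyRing_mem_valuationSubring V hK hy r
  let _ : Algebra (polyRing (K := K) y) V :=
    ((algebraMap (polyRing (K := K) y) F).codRestrict V.toSubring hR).toAlgebra
  have : IsScalarTower (polyRing (K := K) y) V F :=
    IsScalarTower.of_algebraMap_eq fun f => rfl
  have hs : IsIntegral V (s : F) := (s.2 : IsIntegral _ (s : F)).tower_top
  obtain ⟨z, hz⟩ := IsIntegrallyClosed.isIntegral_iff.mp hs
  exact hz ▸ z.2

/-- a coordinate in `V`: a nonzero element `y ∈ V` with `y⁻¹ ∉ V` -/
theorem exists_mem_inv_not_mem (V : ValuationSubring F) (hV : V ≠ ⊤) :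
    ∃ y : F, y ∈ V ∧ y ≠ 0 ∧ y⁻¹ ∉ V := by
  obtain ⟨z, hz⟩ : ∃ z : F, z ∉ V := by
    by_contra hcon
    refine hV (SetLike.ext fun z => ⟨fun _ => ValuationSubring.mem_top z, fun _ => ?_⟩)
    by_contra hz
    exact hcon ⟨z, hz⟩
  have hz0 : z ≠ 0 := fun h => hz (h ▸ V.zero_mem)
  exact ⟨z⁻¹, (V.mem_or_inv_mem z).resolve_left hz, inv_ne_zero hz0, by rwa [inv_inv]⟩

/-- **(D5), core**: for a separating coordinate `y ∈ V`. -/
theorem exists_place_of_valuationSubring_of_isSeparable (y : F)
    [FiniteDimensional K⟮y⟯ F] [Algebra.IsSeparable K⟮y⟯ F]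
    (V : ValuationSubring F) (hK : ∀ a : K, algebraMap K F a ∈ V) (hy : y ∈ V)
    (hV : V ≠ ⊤) : ∃ P : Place K F, P.toValuationSubring = V := by
  classical
  set B := integralClosure (polyRing (K := K) y) F with hB
  haveI : IsDedekindDomain B := integralClosure.isDedekindDomain (polyRing (K := K) y) K⟮y⟯ F
  haveI : IsFractionRing B F := integralClosure.isFractionRing_of_finite_extension K⟮y⟯ F
  -- the inclusion `B → V`
  let incl : B →+* V :=
    { toFun := fun s => ⟨(s : F), integralClosure_mem_valuationSubring V hK hy s⟩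
      map_one' := rfl
      map_mul' := fun _ _ => rfl
      map_zero' := rfl
      map_add' := fun _ _ => rfl }
  have hincl : ∀ s : B, ((incl s : V) : F) = (s : F) := fun _ => rfl
  set 𝔭 : Ideal B := Ideal.comap incl (IsLocalRing.maximalIdeal V) with h𝔭
  haveI h𝔭prime : 𝔭.IsPrime := Ideal.comap_isPrime incl _
  -- `𝔭 ≠ ⊥`
  have h𝔭ne : 𝔭 ≠ ⊥ := by
    -- a nonzero non-unit of `V`
    obtain ⟨w, hwV, hw0, hwi⟩ := exists_mem_inv_not_mem V hV
    -- `w = a / b` with `a, b ∈ B`
    obtain ⟨a, b, hb, hab⟩ := IsFractionRing.div_surjective (A := B) (w : F)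
    have hb0 : (b : F) ≠ 0 := by
      intro h
      have : b = 0 := Subtype.ext h
      exact (nonZeroDivisors.ne_zero hb) this
    have hab' : (a : F) = w * (b : F) := by
      have h1 : (a : F) / (b : F) = w := hab
      rw [← h1]
      field_simp
    have ha0 : a ≠ 0 := by
      intro h
      have h3 : (a : F) = 0 := by rw [h]; rfl
      rw [hab'] at h3
      rcases mul_eq_zero.1 h3 with h4 | h4
      · exact hw0 h4
      · exact hb0 h4
    have ha𝔭 : a ∈ 𝔭 := by
      rw [h𝔭, Ideal.mem_comap, IsLocalRing.mem_maximalIdeal, mem_nonunits_iff]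
      intro hu
      -- then `w b` is a unit of `V`, so `w⁻¹ = b (w b)⁻¹ ∈ V`
      obtain ⟨u, hu⟩ := hu
      have h5 : ((u⁻¹ : Vˣ) : V) * incl a = 1 := by
        rw [← hu]
        exact u.inv_mul
      have h6 : (((u⁻¹ : Vˣ) : V) : F) * (a : F) = 1 := by
        have := congrArg (Subtype.val) h5
        simpa [hincl] using this
      apply hwi
      have h7 : w⁻¹ = (b : F) * (((u⁻¹ : Vˣ) : V) : F) := by
        rw [hab'] at h6
        calc w⁻¹ = w⁻¹ * ((((u⁻¹ : Vˣ) : V) : F) * (w * (b : F))) := by rw [h6, mul_one]
          _ = (b : F) * (((u⁻¹ : Vˣ) : V) : F) := by field_simp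
      rw [h7]
      exact V.mul_mem _ _ (integralClosure_mem_valuationSubring V hK hy b) (Subtype.mem _)
    intro hbot
    rw [hbot, Ideal.mem_bot] at ha𝔭
    exact ha0 ha𝔭
  let v : HeightOneSpectrum B := ⟨𝔭, h𝔭prime, h𝔭ne⟩
  refine ⟨Place.ofHeightOneSpectrum (K := K) v, ?_⟩
  rw [Place.ofHeightOneSpectrum_toValuationSubring,
    ← HeightOneSpectrum.valuationSubringAtPrime_eq_valuationSubring]
  refine ValuationSubring.eq_of_le_of_ne_top _ ?_ hV
  intro f hf
  rw [HeightOneSpectrum.valuationSubringAtPrime_eq_valuationSubring,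
    Valuation.mem_valuationSubring_iff] at hf
  obtain ⟨n, d, hnd⟩ := v.exists_primeCompl_mul_eq_of_integer f hf
  have hd : (d : B) ∉ 𝔭 := d.2
  have hdu : IsUnit (incl (d : B)) := by
    by_contra hnu
    exact hd (by rw [h𝔭, Ideal.mem_comap, IsLocalRing.mem_maximalIdeal, mem_nonunits_iff]; exact hnu)
  obtain ⟨u, hu⟩ := hdu
  have h1 : (((u⁻¹ : Vˣ) : V) : F) * ((d : B) : F) = 1 := by
    have h5 : ((u⁻¹ : Vˣ) : V) * incl (d : B) = 1 := by
      rw [← hu]
      exact u.inv_mul
    have := congrArg (Subtype.val) h5
    simpa [hincl] using this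
  have h2 : f = ((n : B) : F) * (((u⁻¹ : Vˣ) : V) : F) := by
    have h3 : f * ((d : B) : F) = ((n : B) : F) := hnd
    calc f = f * ((((u⁻¹ : Vˣ) : V) : F) * ((d : B) : F)) := by rw [h1, mul_one]
      _ = (f * ((d : B) : F)) * (((u⁻¹ : Vˣ) : V) : F) := by ring
      _ = ((n : B) : F) * (((u⁻¹ : Vˣ) : V) : F) := by rw [h3]
  rw [h2]
  exact V.mul_mem _ _ (integralClosure_mem_valuationSubring V hK hy n) (Subtype.mem _)

/-- **(D5)** in characteristic zero. -/
theorem exists_place_of_valuationSubring_charZero [IsAlgClosed K] [CharZero K] (x : F)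
    (hx : Transcendental K x) [FiniteDimensional K⟮x⟯ F]
    (V : ValuationSubring F) (hK : ∀ a : K, algebraMap K F a ∈ V) (hV : V ≠ ⊤) :
    ∃ P : Place K F, P.toValuationSubring = V := by
  obtain ⟨y, hyV, hy0, hyi⟩ := exists_mem_inv_not_mem V hV
  have hyK : y ∉ Set.range (algebraMap K F) := by
    rintro ⟨a, rfl⟩
    apply hyi
    rw [← map_inv₀]
    exact hK _
  obtain ⟨hyT, hyfin⟩ := Fermat.Agent.S24.helper82.ff_transcendental x hx y hyK
  haveI := hyfin
  exact exists_place_of_valuationSubring_of_isSeparable y V hK hyV hV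

/-! ### General characteristic: a separating coordinate -/

/-- a function field of one variable over an algebraically closed field has a separating
coordinate -/
theorem exists_separating_coordinate [IsAlgClosed K] (x : F) (hx : Transcendental K x)
    [FiniteDimensional K⟮x⟯ F] :
    ∃ u : F, Transcendental K u ∧ Algebra.IsSeparable K⟮u⟯ F := by
  classical
  haveI : Algebra.EssFiniteType K F :=
    Fermat.Agent.S24.helper82.essFiniteType_of_finite_adjoin (K := K) x
  obtain ⟨s, hs, hsep⟩ := exists_isTranscendenceBasis_and_isSeparable_of_perfectField K F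
  have hcard : Cardinal.mk {x // x ∈ s} = Algebra.trdeg K F := hs.cardinalMk_eq_trdeg
  have hle : Cardinal.mk {x // x ∈ s} ≤ 1 := by
    rw [hcard]
    exact Fermat.Agent.S24.helper82.trdeg_le_one (K := K) x
  have hs1 : s.card ≤ 1 := by
    have h1 : (Cardinal.mk {x // x ∈ s}) = (s.card : Cardinal) := by
      rw [Cardinal.mk_coe_finset]
    rw [h1] at hle
    exact_mod_cast hle
  -- `s` is not empty
  have hne : s.Nonempty := by
    rw [Finset.nonempty_iff_ne_empty]
    rintro rfl
    have halg : Algebra.IsAlgebraic (IntermediateField.adjoin K ((∅ : Finset F) : Set F)) F :=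
      hsep.isAlgebraic
    have hbot : IntermediateField.adjoin K ((∅ : Finset F) : Set F) = ⊥ := by
      rw [Finset.coe_empty, IntermediateField.adjoin_empty]
    rw [hbot] at halg
    have hx' : IsAlgebraic (⊥ : IntermediateField K F) x := halg.isAlgebraic x
    have hx'' : IsAlgebraic K x := by
      have e : Algebra.IsAlgebraic K (⊥ : IntermediateField K F) :=
        (IntermediateField.botEquiv K F).symm.isAlgebraic
      exact hx'.restrictScalars K
    exact hx hx''
  obtain ⟨u, hu⟩ := hne
  have hsu : s = {u} := by
    refine Finset.eq_singleton_iff_unique_mem.2 ⟨hu, fun w hw => ?_⟩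
    exact Finset.card_le_one.1 hs1 w hw u hu
  subst hsu
  refine ⟨u, ?_, ?_⟩
  · have h := hs.1
    have h2 := h.transcendental ⟨u, Finset.mem_singleton_self u⟩
    exact h2
  · have e : IntermediateField.adjoin K (({u} : Finset F) : Set F) = K⟮u⟯ := by
      rw [Finset.coe_singleton]
    rw [e] at hsep
    exact hsep

/-- transport of the hypotheses of the core along an equality of intermediate fields -/
theorem isSeparable_of_eq {E E' : IntermediateField K F} (h : E = E')
    (h1 : Algebra.IsSeparable E F) : Algebra.IsSeparable E' F := by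
  subst h
  exact h1

/-- **(D5)**: every valuation subring `V ≠ ⊤` of a function field of one variable `F / K`
(`K` algebraically closed) which contains `K` is the valuation subring of a place. -/
theorem exists_place_of_valuationSubring [IsAlgClosed K] (x : F)
    (hx : Transcendental K x) [FiniteDimensional K⟮x⟯ F]
    (V : ValuationSubring F) (hK : ∀ a : K, algebraMap K F a ∈ V) (hV : V ≠ ⊤) :
    ∃ P : Place K F, P.toValuationSubring = V := by
  obtain ⟨u, huT, husep⟩ := exists_separating_coordinate (K := K) x hx
  have key : ∀ y : F, Transcendental K y → Algebra.IsSeparable K⟮y⟯ F → y ∈ V →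
      ∃ P : Place K F, P.toValuationSubring = V := by
    intro y hyT hysep hyV
    have hyK : y ∉ Set.range (algebraMap K F) := by
      rintro ⟨a, rfl⟩
      exact hyT (isAlgebraic_algebraMap a)
    obtain ⟨-, hyfin⟩ := Fermat.Agent.S24.helper82.ff_transcendental x hx y hyK
    haveI := hyfin
    haveI := hysep
    exact exists_place_of_valuationSubring_of_isSeparable y V hK hyV hV
  rcases V.mem_or_inv_mem u with h | h
  · exact key u huT husep h
  · refine key u⁻¹ ?_ ?_ h
    · intro halg
      apply huT
      have := halg.inv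
      rwa [inv_inv] at this
    · refine isSeparable_of_eq (E := K⟮u⟯) ?_ husep
      apply le_antisymm
      · rw [IntermediateField.adjoin_simple_le_iff]
        have h1 := inv_mem (IntermediateField.mem_adjoin_simple_self K u⁻¹)
        simpa using h1
      · rw [IntermediateField.adjoin_simple_le_iff]
        exact inv_mem (IntermediateField.mem_adjoin_simple_self K u)

end Fermat.Agent.P2.helper62
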