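/-
P2-CORE [INF] (helper29): the place at infinity of a function field inside `K((q))`.

For a field `K` and an intermediate field `E` of `K((q))` containing an element of `q`-order `1`,
the elements of `E` without pole form a discrete valuation subring; the corresponding place
`qPlace` has order function `f ↦ HahnSeries.order f`.
-/
import Mathlib
import Fermat.Agent.P2.helper29_Interface

set_option autoImplicit false

noncomputable section

open HahnSeries IntermediateField AlgebraicCurve ModularCurve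
open Fermat.Agent.S18.helper19

namespace Fermat.Agent.P2.helper29

section Order

variable {K : Type*} [Field K]

theorem order_mul_field {x y : LaurentSeries K} (hx : x ≠ 0) (hy : y ≠ 0) :
    (x * y).order = x.order + y.order := by
  have h := HahnSeries.orderTop_mul x y
  rw [← order_eq_orderTop_of_ne_zero (mul_ne_zero hx hy), ← order_eq_orderTop_of_ne_zero hx,
    ← order_eq_orderTop_of_ne_zero hy, ← WithTop.coe_add] at h
  exact WithTop.coe_injective h

theorem order_inv_field (x : LaurentSeries K) : (x⁻¹).order = -x.order := by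
  rcases eq_or_ne x 0 with rfl | hx
  · simp
  · have h := order_mul_field hx (inv_ne_zero hx)
    rw [mul_inv_cancel₀ hx, HahnSeries.order_one] at h
    linarith

theorem order_algebraMap (a : K) : (algebraMap K (LaurentSeries K) a).order = 0 := by
  rw [algebraMap_laurentSeries_eq_single]
  rcases eq_or_ne a 0 with rfl | ha
  · simp
  · exact HahnSeries.order_single ha

end Order

section QPlace

variable {K : Type*} [Field K] (E : IntermediateField K (LaurentSeries K))

/-- the valuation subring of `E` of the functions without pole at infinity -/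
def qSubring : ValuationSubring E where
  carrier := {f | 0 ≤ (f : LaurentSeries K).order}
  mul_mem' := by
    intro x y hx hy
    simp only [Set.mem_ofPred_eq] at hx hy ⊢
    rcases eq_or_ne x 0 with rfl | hx0
    · simp
    rcases eq_or_ne y 0 with rfl | hy0
    · simp
    have hx1 : (x : LaurentSeries K) ≠ 0 := fun h => hx0 (Subtype.ext h)
    have hy1 : (y : LaurentSeries K) ≠ 0 := fun h => hy0 (Subtype.ext h)
    rw [MulMemClass.coe_mul, order_mul_field hx1 hy1]
    exact add_nonneg hx hy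
  one_mem' := by
    simp only [Set.mem_ofPred_eq, OneMemClass.coe_one, HahnSeries.order_one, le_refl]
  add_mem' := by
    intro x y hx hy
    simp only [Set.mem_ofPred_eq] at hx hy ⊢
    rcases eq_or_ne ((x : LaurentSeries K) + y) 0 with h0 | h0
    · rw [AddMemClass.coe_add, h0, HahnSeries.order_zero]
    · rw [AddMemClass.coe_add]
      exact le_trans (le_min hx hy) (HahnSeries.min_order_le_order_add h0)
  zero_mem' := by
    simp only [Set.mem_ofPred_eq, ZeroMemClass.coe_zero, HahnSeries.order_zero, le_refl]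
  neg_mem' := by
    intro x hx
    simp only [Set.mem_ofPred_eq] at hx ⊢
    rw [NegMemClass.coe_neg, HahnSeries.order_neg]
    exact hx
  mem_or_inv_mem' := by
    intro x
    simp only [Set.mem_ofPred_eq]
    rcases le_total 0 (x : LaurentSeries K).order with h | h
    · exact Or.inl h
    · right
      rw [IntermediateField.coe_inv, order_inv_field]
      linarith

theorem mem_qSubring {f : E} : f ∈ qSubring E ↔ 0 ≤ (f : LaurentSeries K).order := Iff.rfl

variable {E}

theorem coe_ne_zero_of_ne_zero {f : E} (hf : f ≠ 0) : (f : LaurentSeries K) ≠ 0 :=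
  fun h => hf (Subtype.ext h)

theorem order_coe_mul {x y : E} (hx : x ≠ 0) (hy : y ≠ 0) :
    ((x * y : E) : LaurentSeries K).order
      = (x : LaurentSeries K).order + (y : LaurentSeries K).order := by
  rw [MulMemClass.coe_mul]
  exact order_mul_field (coe_ne_zero_of_ne_zero hx) (coe_ne_zero_of_ne_zero hy)

theorem order_coe_inv (x : E) :
    ((x⁻¹ : E) : LaurentSeries K).order = -(x : LaurentSeries K).order := by
  rw [IntermediateField.coe_inv]
  exact order_inv_field _

theorem order_coe_pow {x : E} (hx : x ≠ 0) (n : ℕ) :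
    ((x ^ n : E) : LaurentSeries K).order = n * (x : LaurentSeries K).order := by
  induction n with
  | zero => simp [HahnSeries.order_one]
  | succ n ih =>
    rw [pow_succ, order_coe_mul (pow_ne_zero n hx) hx, ih]
    push_cast
    ring

theorem order_coe_zpow {x : E} (hx : x ≠ 0) (n : ℤ) :
    ((x ^ n : E) : LaurentSeries K).order = n * (x : LaurentSeries K).order := by
  rcases n with n | n
  · simp
  · rw [Int.negSucc_eq, zpow_neg, order_coe_inv]
    have h := order_coe_pow hx (n + 1)
    rw [← zpow_natCast] at h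
    push_cast at h ⊢
    rw [h]
    ring

/-- an element of order `0` is a unit of the valuation subring -/
theorem isUnit_of_order_eq_zero {x : qSubring E} (hx : x ≠ 0)
    (h0 : ((x : E) : LaurentSeries K).order = 0) : IsUnit x := by
  have hxE : (x : E) ≠ 0 := fun h => hx (Subtype.ext h)
  have hinv : (x : E)⁻¹ ∈ qSubring E := by
    rw [mem_qSubring, order_coe_inv, h0, neg_zero]
  refine IsUnit.of_mul_eq_one (⟨(x : E)⁻¹, hinv⟩ : qSubring E) ?_
  apply Subtype.ext
  show (x : E) * (x : E)⁻¹ = 1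
  exact mul_inv_cancel₀ hxE

theorem order_eq_zero_of_isUnit {x : qSubring E} (hx : IsUnit x) :
    ((x : E) : LaurentSeries K).order = 0 := by
  obtain ⟨u, rfl⟩ := hx
  have h1 : ((u : qSubring E) : E) * ((u⁻¹ : (qSubring E)ˣ) : qSubring E) = 1 := by
    have h := Units.mul_inv u
    have h' := congrArg (fun z : qSubring E => (z : E)) h
    exact h'
  have hu0 : ((u : qSubring E) : E) ≠ 0 := left_ne_zero_of_mul_eq_one h1
  have hv0 : (((u⁻¹ : (qSubring E)ˣ) : qSubring E) : E) ≠ 0 := right_ne_zero_of_mul_eq_one h1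
  have h2 := order_coe_mul hu0 hv0
  rw [h1] at h2
  simp only [OneMemClass.coe_one, HahnSeries.order_one] at h2
  have h3 : 0 ≤ (((u : qSubring E) : E) : LaurentSeries K).order := (u : qSubring E).2
  have h4 : 0 ≤ ((((u⁻¹ : (qSubring E)ˣ) : qSubring E) : E) : LaurentSeries K).order :=
    ((u⁻¹ : (qSubring E)ˣ) : qSubring E).2
  linarith

variable (E)

/-- a uniformizer at infinity, as an element of the valuation subring -/
def qUnif (ϖ : E) (hϖ : (ϖ : LaurentSeries K).order = 1) : qSubring E :=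
  ⟨ϖ, by rw [mem_qSubring, hϖ]; exact zero_le_one⟩

theorem qUnif_ne_zero (ϖ : E) (hϖ : (ϖ : LaurentSeries K).order = 1) : ϖ ≠ 0 := by
  rintro rfl
  simp at hϖ

theorem irreducible_qUnif (ϖ : E) (hϖ : (ϖ : LaurentSeries K).order = 1) :
    Irreducible (qUnif E ϖ hϖ) := by
  refine ⟨?_, ?_⟩
  · intro hu
    have := order_eq_zero_of_isUnit hu
    rw [show ((qUnif E ϖ hϖ : qSubring E) : E) = ϖ from rfl, hϖ] at this
    exact one_ne_zero this
  · intro a b hab
    have habE : ϖ = (a : E) * (b : E) := congrArg (fun z : qSubring E => (z : E)) hab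
    have ha0 : (a : E) ≠ 0 := by
      rintro h
      rw [h, zero_mul] at habE
      exact qUnif_ne_zero E ϖ hϖ habE
    have hb0 : (b : E) ≠ 0 := by
      rintro h
      rw [h, mul_zero] at habE
      exact qUnif_ne_zero E ϖ hϖ habE
    have h1 := order_coe_mul ha0 hb0
    rw [← habE, hϖ] at h1
    have ha : 0 ≤ ((a : E) : LaurentSeries K).order := a.2
    have hb : 0 ≤ ((b : E) : LaurentSeries K).order := b.2
    rcases (show ((a : E) : LaurentSeries K).order = 0 ∨ ((b : E) : LaurentSeries K).order = 0 by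
      omega) with h | h
    · exact Or.inl (isUnit_of_order_eq_zero (fun h' => ha0 (by rw [h']; rfl)) h)
    · exact Or.inr (isUnit_of_order_eq_zero (fun h' => hb0 (by rw [h']; rfl)) h)

theorem qSubring_factorization (ϖ : E) (hϖ : (ϖ : LaurentSeries K).order = 1) :
    IsDiscreteValuationRing.HasUnitMulPowIrreducibleFactorization (qSubring E) := by
  refine ⟨qUnif E ϖ hϖ, irreducible_qUnif E ϖ hϖ, ?_⟩
  intro x hx
  have hxE : (x : E) ≠ 0 := fun h => hx (Subtype.ext h)
  have hx0 : 0 ≤ ((x : E) : LaurentSeries K).order := x.2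
  obtain ⟨n, hn⟩ := Int.eq_ofNat_of_zero_le hx0
  refine ⟨n, ?_⟩
  have hϖ0 := qUnif_ne_zero E ϖ hϖ
  -- the unit
  have hu0 : (x : E) * (ϖ ^ n)⁻¹ ≠ 0 := mul_ne_zero hxE (inv_ne_zero (pow_ne_zero n hϖ0))
  have hord : (((x : E) * (ϖ ^ n)⁻¹ : E) : LaurentSeries K).order = 0 := by
    rw [order_coe_mul hxE (inv_ne_zero (pow_ne_zero n hϖ0)), order_coe_inv,
      order_coe_pow hϖ0, hϖ, hn]
    ring
  have hmem : (x : E) * (ϖ ^ n)⁻¹ ∈ qSubring E := by rw [mem_qSubring, hord]
  have hunit : IsUnit (⟨(x : E) * (ϖ ^ n)⁻¹, hmem⟩ : qSubring E) :=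
    isUnit_of_order_eq_zero (fun h => hu0 (congrArg (fun z : qSubring E => (z : E)) h)) hord
  obtain ⟨u, hu⟩ := hunit
  refine ⟨u, ?_⟩
  rw [hu]
  apply Subtype.ext
  show (ϖ ^ n : E) * ((x : E) * (ϖ ^ n)⁻¹) = x
  field_simp

/-- **the place at infinity** of `E` -/
def qPlace (ϖ : E) (hϖ : (ϖ : LaurentSeries K).order = 1) : Place K E where
  toValuationSubring := qSubring E
  algebraMap_mem' a := by
    rw [mem_qSubring]
    exact le_of_eq (order_algebraMap a).symm
  ne_top' := by
    intro h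
    have hmem : ϖ⁻¹ ∈ qSubring E := by rw [h]; exact ValuationSubring.mem_top _
    rw [mem_qSubring, order_coe_inv, hϖ] at hmem
    omega
  isPrincipalIdealRing' :=
    haveI := IsDiscreteValuationRing.ofHasUnitMulPowIrreducibleFactorization
      (qSubring_factorization E ϖ hϖ)
    inferInstance

theorem qPlace_ord (ϖ : E) (hϖ : (ϖ : LaurentSeries K).order = 1) {f : E} (hf : f ≠ 0) :
    (qPlace E ϖ hϖ).ord f = (f : LaurentSeries K).order := by
  have hϖ0 := qUnif_ne_zero E ϖ hϖ
  set n : ℤ := (f : LaurentSeries K).order with hn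
  have hu0 : f * (ϖ ^ n)⁻¹ ≠ 0 := mul_ne_zero hf (inv_ne_zero (zpow_ne_zero n hϖ0))
  have hord : ((f * (ϖ ^ n)⁻¹ : E) : LaurentSeries K).order = 0 := by
    rw [order_coe_mul hf (inv_ne_zero (zpow_ne_zero n hϖ0)), order_coe_inv,
      order_coe_zpow hϖ0, hϖ]
    ring
  have hmem : f * (ϖ ^ n)⁻¹ ∈ qSubring E := by rw [mem_qSubring, hord]
  have hunit : IsUnit (⟨f * (ϖ ^ n)⁻¹, hmem⟩ : qSubring E) :=
    isUnit_of_order_eq_zero (fun h => hu0 (congrArg (fun z : qSubring E => (z : E)) h)) hord
  obtain ⟨u, hu⟩ := hunit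
  have hπ : Irreducible (qUnif E ϖ hϖ : (qPlace E ϖ hϖ).toValuationSubring) :=
    irreducible_qUnif E ϖ hϖ
  have key := (qPlace E ϖ hϖ).ord_unit_smul_zpow u hπ n
  have hf' : (((u : qSubring E) : E)) * (((qUnif E ϖ hϖ : qSubring E) : E) ^ n) = f := by
    rw [hu]
    show f * (ϖ ^ n)⁻¹ * ϖ ^ n = f
    field_simp
  have key' : (qPlace E ϖ hϖ).ord
      ((((u : qSubring E) : E)) * (((qUnif E ϖ hϖ : qSubring E) : E) ^ n)) = n := key
  rw [hf'] at key'
  exact key'

theorem isInfty_qPlace (ϖ : E) (hϖ : (ϖ : LaurentSeries K).order = 1) :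
    IsInfty (qPlace E ϖ hϖ) :=
  fun _ hf => qPlace_ord E ϖ hϖ hf

/-- a place at infinity is unique -/
theorem IsInfty.eq_qPlace {P : Place K E} (hP : IsInfty P) (ϖ : E)
    (hϖ : (ϖ : LaurentSeries K).order = 1) : P = qPlace E ϖ hϖ := by
  apply Place.ext
  apply SetLike.ext
  intro f
  rw [Fermat.Agent.S24.helper82.mem_iff_ord_nonneg]
  show 0 ≤ P.ord f ↔ f ∈ qSubring E
  rw [mem_qSubring]
  rcases eq_or_ne f 0 with rfl | hf
  · simp
  · rw [hP f hf]

/-- two places at infinity coincide -/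
theorem IsInfty.unique {P Q : Place K E} (hP : IsInfty P) (hQ : IsInfty Q) : P = Q := by
  apply Place.ext
  apply SetLike.ext
  intro f
  rw [Fermat.Agent.S24.helper82.mem_iff_ord_nonneg, Fermat.Agent.S24.helper82.mem_iff_ord_nonneg]
  rcases eq_or_ne f 0 with rfl | hf
  · simp
  · rw [hP f hf, hQ f hf]

end QPlace

section InLBasic

variable {K : Type*} [Field K] {E : IntermediateField K (LaurentSeries K)}

theorem inL_mem {n : ℤ} {f : LaurentSeries K} (h : InL E n f) : f ∈ E := h.1

theorem inL_iff {n : ℤ} {f : LaurentSeries K} (hf : f ∈ E) :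
    InL E n f ↔ (∀ P : Place K E, ¬ IsInfty P → 0 ≤ P.ord (⟨f, hf⟩ : E)) ∧
      ∀ k : ℤ, k < -n → f.coeff k = 0 :=
  ⟨fun ⟨_, h⟩ => h, fun h => ⟨hf, h⟩⟩

theorem inL_zero (n : ℤ) : InL E n (0 : LaurentSeries K) :=
  ⟨E.zero_mem, fun P _ => by
    have : (⟨0, E.zero_mem⟩ : E) = 0 := rfl
    rw [this, Place.ord_zero], fun _ _ => rfl⟩

theorem inL_algebraMap (a : K) : InL E 0 (algebraMap K (LaurentSeries K) a) := by
  refine ⟨E.algebraMap_mem a, fun P _ => ?_, fun k hk => ?_⟩
  · have : (⟨algebraMap K (LaurentSeries K) a, E.algebraMap_mem a⟩ : E) = algebraMap K E a := rfl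
    rw [this, Fermat.Agent.S24.helper82.ord_algebraMap]
  · rw [algebraMap_laurentSeries_eq_single, HahnSeries.coeff_single_of_ne]
    omega

theorem inL_one : InL E 0 (1 : LaurentSeries K) := by
  simpa using inL_algebraMap (E := E) (1 : K)

theorem InL.mono {n n' : ℤ} {f : LaurentSeries K} (h : InL E n f) (hn : n ≤ n') :
    InL E n' f :=
  ⟨h.1, h.2.1, fun k hk => h.2.2 k (by omega)⟩

theorem InL.add {n : ℤ} {f g : LaurentSeries K} (hf : InL E n f) (hg : InL E n g) :
    InL E n (f + g) := by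
  refine ⟨E.add_mem hf.1 hg.1, fun P hP => ?_, fun k hk => ?_⟩
  · have h1 := hf.2.1 P hP
    have h2 := hg.2.1 P hP
    rw [← Fermat.Agent.S24.helper82.mem_iff_ord_nonneg] at h1 h2 ⊢
    have e : (⟨f + g, E.add_mem hf.1 hg.1⟩ : E) = (⟨f, hf.1⟩ : E) + (⟨g, hg.1⟩ : E) := rfl
    rw [e]
    exact P.toValuationSubring.add_mem _ _ h1 h2
  · rw [HahnSeries.coeff_add, hf.2.2 k hk, hg.2.2 k hk, add_zero]

theorem InL.neg {n : ℤ} {f : LaurentSeries K} (hf : InL E n f) : InL E n (-f) := by
  refine ⟨E.neg_mem hf.1, fun P hP => ?_, fun k hk => ?_⟩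
  · have h1 := hf.2.1 P hP
    rw [← Fermat.Agent.S24.helper82.mem_iff_ord_nonneg] at h1 ⊢
    have e : (⟨-f, E.neg_mem hf.1⟩ : E) = -(⟨f, hf.1⟩ : E) := rfl
    rw [e]
    exact P.toValuationSubring.neg_mem _ h1
  · rw [HahnSeries.coeff_neg, hf.2.2 k hk, neg_zero]

theorem InL.sub {n : ℤ} {f g : LaurentSeries K} (hf : InL E n f) (hg : InL E n g) :
    InL E n (f - g) := by
  rw [sub_eq_add_neg]
  exact hf.add hg.neg

theorem coeff_eq_zero_iff_le_order {f : LaurentSeries K} (hf : f ≠ 0) {n : ℤ} :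
    (∀ k : ℤ, k < -n → f.coeff k = 0) ↔ -n ≤ f.order :=
  (HahnSeries.le_order_iff_forall hf).symm

theorem InL.mul {n n' : ℤ} {f g : LaurentSeries K} (hf : InL E n f) (hg : InL E n' g) :
    InL E (n + n') (f * g) := by
  refine ⟨E.mul_mem hf.1 hg.1, fun P hP => ?_, ?_⟩
  · have h1 := hf.2.1 P hP
    have h2 := hg.2.1 P hP
    rw [← Fermat.Agent.S24.helper82.mem_iff_ord_nonneg] at h1 h2 ⊢
    have e : (⟨f * g, E.mul_mem hf.1 hg.1⟩ : E) = (⟨f, hf.1⟩ : E) * (⟨g, hg.1⟩ : E) := rfl
    rw [e]
    exact P.toValuationSubring.mul_mem _ _ h1 h2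
  · rcases eq_or_ne f 0 with rfl | hf0
    · intro k _; simp
    rcases eq_or_ne g 0 with rfl | hg0
    · intro k _; simp
    rw [coeff_eq_zero_iff_le_order (mul_ne_zero hf0 hg0), order_mul_field hf0 hg0]
    have h1 := (coeff_eq_zero_iff_le_order hf0).mp hf.2.2
    have h2 := (coeff_eq_zero_iff_le_order hg0).mp hg.2.2
    omega

theorem InL.smul {n : ℤ} {f : LaurentSeries K} (hf : InL E n f) (a : K) :
    InL E n (algebraMap K (LaurentSeries K) a * f) := by
  have := (inL_algebraMap (E := E) a).mul hf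
  rwa [zero_add] at this

theorem InL.pow {n : ℤ} {f : LaurentSeries K} (hf : InL E n f) (m : ℕ) :
    InL E (m * n) (f ^ m) := by
  induction m with
  | zero => simpa using inL_one (E := E)
  | succ m ih =>
    rw [pow_succ]
    have := ih.mul hf
    convert this using 1
    push_cast
    ring

/-- if `f ^ m` lies in `L(m n ∞)` then `f` lies in `L(n ∞)` (`m > 0`). -/
theorem InL.of_pow {n : ℤ} {f : LaurentSeries K} (hfE : f ∈ E) {m : ℕ} (hm : 0 < m)
    (h : InL E (m * n) (f ^ m)) : InL E n f := by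
  rcases eq_or_ne f 0 with rfl | hf0
  · exact inL_zero n
  refine ⟨hfE, fun P hP => ?_, ?_⟩
  · have h1 := h.2.1 P hP
    have : (⟨f ^ m, h.1⟩ : E) = (⟨f, hfE⟩ : E) ^ m := rfl
    rw [this, ← zpow_natCast, Place.ord_zpow] at h1
    have hm' : (0 : ℤ) < (m : ℤ) := by exact_mod_cast hm
    exact nonneg_of_mul_nonneg_right h1 hm'
  · rw [coeff_eq_zero_iff_le_order hf0]
    have h2 := (coeff_eq_zero_iff_le_order (pow_ne_zero m hf0)).mp h.2.2
    have h3 : (f ^ m).order = m * f.order := by
      exact order_coe_pow (E := E) (x := ⟨f, hfE⟩) (fun h' => hf0 (congrArg Subtype.val h')) m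
    rw [h3] at h2
    have hm' : (0 : ℤ) < (m : ℤ) := by exact_mod_cast hm
    nlinarith

end InLBasic

section Modular

theorem order_eq_of_coeff {K : Type*} [Field K] {x : LaurentSeries K} {n : ℤ}
    (hn : x.coeff n ≠ 0) (hlt : ∀ k : ℤ, k < n → x.coeff k = 0) : x.order = n := by
  refine le_antisymm (HahnSeries.order_le_of_coeff_ne_zero hn) ?_
  by_contra h
  rw [not_le] at h
  have hx : x ≠ 0 := HahnSeries.ne_zero_of_coeff_ne_zero hn
  exact hx (HahnSeries.coeff_order_eq_zero.mp (hlt _ h))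

variable (K : Type*) [Field K]

theorem order_jqModC : (jqModC K).order = -1 :=
  order_eq_of_coeff (n := -1) (by rw [coeff_jqModC_neg_one]; exact one_ne_zero)
    (fun _ hk => coeff_jqModC_of_lt K hk)

/-- the uniformizer `1 / j` at infinity of the special fibre field (any field `K`) -/
def jInvC (M : ℕ) [NeZero M] : modularFunctionFieldFullC K M :=
  (⟨jqModC K, jqModC_mem_full K M⟩ : modularFunctionFieldFullC K M)⁻¹

theorem order_jInvC (M : ℕ) [NeZero M] :
    ((jInvC K M : modularFunctionFieldFullC K M) : LaurentSeries K).order = 1 := by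
  rw [jInvC, order_coe_inv]
  show -(jqModC K).order = 1
  rw [order_jqModC]
  rfl

/-- the place at infinity of `modularFunctionFieldFullC K M` -/
def inftyC (M : ℕ) [NeZero M] : Place K (modularFunctionFieldFullC K M) :=
  qPlace _ (jInvC K M) (order_jInvC K M)

theorem isInfty_inftyC (M : ℕ) [NeZero M] : IsInfty (inftyC K M) :=
  isInfty_qPlace _ _ _

/-- `j` as an element of `F_M` -/
def jElt (M : ℕ) [NeZero M] : FF M :=
  ⟨jqModC Kb, by
    have h := jqNModC_mem_FF (N := M) (d := 1) (one_dvd M)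
    rwa [jqNModC_one] at h⟩

/-- the uniformizer `1 / j` at infinity of `F_M` -/
def jInv (M : ℕ) [NeZero M] : FF M := (jElt M)⁻¹

theorem order_jInv (M : ℕ) [NeZero M] :
    ((jInv M : FF M) : LaurentSeries Kb).order = 1 := by
  rw [jInv, order_coe_inv]
  show -(jqModC Kb).order = 1
  rw [order_jqModC]
  rfl

/-- the place at infinity of `F_M` -/
def inftyBar (M : ℕ) [NeZero M] : Place Kb (FF M) :=
  qPlace _ (jInv M) (order_jInv M)

theorem isInfty_inftyBar (M : ℕ) [NeZero M] : IsInfty (inftyBar M) :=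
  isInfty_qPlace _ _ _

/-- **[INF]** -/
theorem inftyStatement (M : ℕ) [NeZero M] (A : ValuationSubring Kb) : InftyStatement M A :=
  ⟨⟨inftyBar M, isInfty_inftyBar M⟩, ⟨inftyC (kA A) M, isInfty_inftyC (kA A) M⟩⟩

end Modular

end Fermat.Agent.P2.helper29

end
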