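import Mathlib
import Fermat.Agent.P2.helper29_Infty

/-!
# P2 [INJ-2] DISC step, package D6 (helper82, task 690): the place of the cusp `∞`

`exists_qPlace N` : there is a place `P` of `F_N = modularFunctionFieldBar N` over `ℚ̄` whose
order function is the order of the `q`-expansion.  (Wrapper of `helper29.inftyBar`, the place
`qPlace` of `helper29_Infty.lean`, in the shape of helper23's DISC blueprint.)

Exports `qPlaceN N`, `qPlaceN_ord`, uniqueness `eq_qPlaceN`, and the valuation ring
`mem_qPlaceN_iff`.
-/

set_option autoImplicit false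

noncomputable section

open HahnSeries IntermediateField AlgebraicCurve ModularCurve

namespace Fermat.Agent.P2.helper82

/-- (D6) the place of the cusp `∞`. -/
theorem exists_qPlace (N : ℕ) [NeZero N] :
    ∃ P : Place (AlgebraicClosure ℚ) ↥(modularFunctionFieldBar N),
      ∀ f : ↥(modularFunctionFieldBar N), f ≠ 0 →
        P.ord f = (f : LaurentSeries (AlgebraicClosure ℚ)).order :=
  ⟨Fermat.Agent.P2.helper29.inftyBar N, Fermat.Agent.P2.helper29.isInfty_inftyBar N⟩

/-- the place of the cusp `∞` of `F_N` -/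
def qPlaceN (N : ℕ) [NeZero N] : Place (AlgebraicClosure ℚ) ↥(modularFunctionFieldBar N) :=
  Fermat.Agent.P2.helper29.inftyBar N

theorem qPlaceN_ord (N : ℕ) [NeZero N] (f : ↥(modularFunctionFieldBar N)) (hf : f ≠ 0) :
    (qPlaceN N).ord f = (f : LaurentSeries (AlgebraicClosure ℚ)).order :=
  Fermat.Agent.P2.helper29.isInfty_inftyBar N f hf

/-- a place whose order function is the `q`-order is `qPlaceN N` -/
theorem eq_qPlaceN (N : ℕ) [NeZero N]
    (P : Place (AlgebraicClosure ℚ) ↥(modularFunctionFieldBar N))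
    (hP : ∀ f : ↥(modularFunctionFieldBar N), f ≠ 0 →
      P.ord f = (f : LaurentSeries (AlgebraicClosure ℚ)).order) : P = qPlaceN N :=
  Fermat.Agent.P2.helper29.IsInfty.unique _ hP (Fermat.Agent.P2.helper29.isInfty_inftyBar N)

/-- the valuation ring of `qPlaceN N`: functions whose `q`-expansion has no pole -/
theorem mem_qPlaceN_iff (N : ℕ) [NeZero N] (f : ↥(modularFunctionFieldBar N)) :
    f ∈ (qPlaceN N).toValuationSubring ↔
      f = 0 ∨ 0 ≤ (f : LaurentSeries (AlgebraicClosure ℚ)).order := by
  rw [Fermat.Agent.S24.helper82.mem_iff_ord_nonneg]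
  rcases eq_or_ne f 0 with rfl | hf
  · simp
  · rw [qPlaceN_ord N f hf]
    exact ⟨fun h => Or.inr h, fun h => h.resolve_left hf⟩

end Fermat.Agent.P2.helper82
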