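import Mathlib
import Fermat.Agent.P2.helper23_DiscDefs

/-!
# P2 [DISC-U1] (helper89, task 688): `A ∩ K₀` is a principal ideal ring

* `isPrincipalIdealRing_valuationSubring` : every valuation subring of a number field is a
  principal ideal ring (it is the field itself or the localisation of the ring of integers at a
  nonzero prime);
* `isPrincipalIdealRing_capSubring` : for a valuation subring `A` of `ℚ̄` and a number field
  `K₀ ⊆ ℚ̄`, the ring `capSubring A K₀ = A ∩ K₀` is a principal ideal ring.
-/

set_option autoImplicit false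

open IsDedekindDomain NumberField

namespace Fermat.Agent.P2.helper89

open Fermat.Agent.P2.helper23

/-- Every valuation subring of a number field is a principal ideal ring. -/
theorem isPrincipalIdealRing_valuationSubring (K : Type*) [Field K] [NumberField K]
    (V : ValuationSubring K) : IsPrincipalIdealRing V := by
  classical
  by_cases htop : V = ⊤
  · subst htop
    let f : K →+* (⊤ : ValuationSubring K) :=
      { toFun := fun x => ⟨x, ValuationSubring.mem_top x⟩
        map_one' := rfl
        map_mul' := fun _ _ => rfl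
        map_zero' := rfl
        map_add' := fun _ _ => rfl }
    exact IsPrincipalIdealRing.of_surjective f (fun y => ⟨y.1, Subtype.ext rfl⟩)
  · -- the integers lie in `V`
    have hint : ∀ r : 𝓞 K, algebraMap (𝓞 K) K r ∈ V := by
      intro r
      have h1 : IsIntegral ℤ (algebraMap (𝓞 K) K r) := RingOfIntegers.isIntegral_coe r
      have h2 : IsIntegral V (algebraMap (𝓞 K) K r) := h1.tower_top
      obtain ⟨y, hy⟩ := IsIntegrallyClosed.isIntegral_iff.1 h2
      rw [← hy]
      exact y.2
    have hv1 : ∀ r : 𝓞 K, V.valuation (algebraMap (𝓞 K) K r) ≤ 1 := fun r =>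
      (V.valuation_le_one_iff _).2 (hint r)
    -- the centre of `V` on the ring of integers
    let p : Ideal (𝓞 K) :=
      { carrier := {r | V.valuation (algebraMap (𝓞 K) K r) < 1}
        add_mem' := by
          intro a b ha hb
          change V.valuation (algebraMap (𝓞 K) K (a + b)) < 1
          rw [map_add]
          exact lt_of_le_of_lt (V.valuation.map_add _ _) (max_lt ha hb)
        zero_mem' := by
          change V.valuation (algebraMap (𝓞 K) K 0) < 1
          rw [map_zero, map_zero]
          exact zero_lt_one
        smul_mem' := by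
          intro c x hx
          change V.valuation (algebraMap (𝓞 K) K (c * x)) < 1
          rw [map_mul, map_mul]
          exact mul_lt_one_of_nonneg_of_lt_one_right (hv1 c) zero_le hx }
    have hp_mem : ∀ r : 𝓞 K, r ∈ p ↔ V.valuation (algebraMap (𝓞 K) K r) < 1 := fun r => Iff.rfl
    have hp_prime : p.IsPrime := by
      rw [Ideal.isPrime_iff]
      refine ⟨?_, ?_⟩
      · intro h
        have h1 : (1 : 𝓞 K) ∈ p := by rw [h]; trivial
        rw [hp_mem, map_one, map_one] at h1
        exact lt_irrefl _ h1
      · intro x y hxy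
        rw [hp_mem, map_mul, map_mul] at hxy
        by_contra hcon
        rw [not_or, hp_mem, hp_mem, not_lt, not_lt] at hcon
        have hx : V.valuation (algebraMap (𝓞 K) K x) = 1 := le_antisymm (hv1 x) hcon.1
        have hy : V.valuation (algebraMap (𝓞 K) K y) = 1 := le_antisymm (hv1 y) hcon.2
        rw [hx, hy, mul_one] at hxy
        exact lt_irrefl _ hxy
    have hp_ne : p ≠ ⊥ := by
      -- some element of `K` is not in `V`
      have hex : ∃ x : K, x ∉ V := by
        by_contra hcon
        exact htop (eq_top_iff.2 fun x _ => not_not.1 fun hx => hcon ⟨x, hx⟩)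
      obtain ⟨x, hx⟩ := hex
      obtain ⟨a, b, hb, rfl⟩ := IsFractionRing.div_surjective (A := 𝓞 K) x
      have hb0 : b ≠ 0 := nonZeroDivisors.ne_zero hb
      have hbK : (algebraMap (𝓞 K) K b) ≠ 0 := by
        rwa [ne_eq, FaithfulSMul.algebraMap_eq_zero_iff]
      have hvb : V.valuation (algebraMap (𝓞 K) K b) ≠ 0 := by
        rwa [ne_eq, map_eq_zero]
      have hgt : 1 < V.valuation (algebraMap (𝓞 K) K a / algebraMap (𝓞 K) K b) := by
        rw [← not_le, V.valuation_le_one_iff]
        exact hx
      rw [map_div₀, one_lt_div₀ (zero_lt_iff.2 hvb)] at hgt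
      have hbp : b ∈ p := (hp_mem b).2 (lt_of_lt_of_le hgt (hv1 a))
      intro hbot
      rw [hbot, Ideal.mem_bot] at hbp
      exact hb0 hbp
    let P : HeightOneSpectrum (𝓞 K) := ⟨p, hp_prime, hp_ne⟩
    have hle : HeightOneSpectrum.valuationSubringAtPrime K P ≤ V := by
      intro x hx
      rw [HeightOneSpectrum.valuationSubringAtPrime_eq_valuationSubring,
        Valuation.mem_valuationSubring_iff] at hx
      obtain ⟨n, d, hnd⟩ := P.exists_primeCompl_mul_eq_of_integer x hx
      have hd : V.valuation (algebraMap (𝓞 K) K (d : 𝓞 K)) = 1 :=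
        le_antisymm (hv1 d) (not_lt.1 fun h => d.2 ((hp_mem d).2 h))
      rw [← V.valuation_le_one_iff]
      have h1 := congrArg V.valuation hnd
      rw [map_mul, hd, mul_one] at h1
      rw [h1]
      exact hv1 n
    have heq := ValuationSubring.eq_of_le_of_ne_top _ hle htop
    rw [HeightOneSpectrum.valuationSubringAtPrime_eq_valuationSubring] at heq
    exact heq ▸ (inferInstance : IsPrincipalIdealRing (P.valuation K).valuationSubring)

/-- **[DISC-U1]** `A ∩ K₀` is a principal ideal ring, for a valuation subring `A` of `ℚ̄` and a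
number field `K₀ ⊆ ℚ̄`. -/
theorem isPrincipalIdealRing_capSubring (A : ValuationSubring Kb) (K₀ : IntermediateField ℚ Kb)
    [FiniteDimensional ℚ K₀] : IsPrincipalIdealRing (capSubring A K₀) := by
  have : NumberField K₀ := NumberField.mk
  have := isPrincipalIdealRing_valuationSubring K₀ (A.comap (algebraMap K₀ Kb))
  let f : (A.comap (algebraMap K₀ Kb)) →+* capSubring A K₀ :=
    { toFun := fun x => ⟨algebraMap K₀ Kb (x : K₀),
        ⟨ValuationSubring.mem_comap.1 x.2, (x : K₀).2⟩⟩
      map_one' := Subtype.ext (map_one _)
      map_mul' := fun _ _ => Subtype.ext (map_mul _ _ _)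
      map_zero' := Subtype.ext (map_zero _)
      map_add' := fun _ _ => Subtype.ext (map_add _ _ _) }
  refine IsPrincipalIdealRing.of_surjective f (fun y => ?_)
  have hy : (y : Kb) ∈ A ∧ (y : Kb) ∈ K₀ := y.2
  exact ⟨⟨⟨(y : Kb), hy.2⟩, ValuationSubring.mem_comap.2 hy.1⟩, Subtype.ext rfl⟩

end Fermat.Agent.P2.helper89
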