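import Mathlib
import Fermat.Agent.P2.helper23_DiscAsm
import Fermat.Agent.P2.helper62_DiscPlace
import Fermat.Agent.P2.helper73_DiscRatio
import Fermat.Agent.P2.helper82_DiscQPlace
import Fermat.Agent.P2.helper89_DiscPID
import Fermat.Agent.S24.helper77_Degree
import Fermat.Agent.S24.helper75_FFCore2

/-!
# P2 [INJ-2] DISC step (helper23, task 591): `disc_root`

Let `A` be a valuation subring of `ℚ̄`, `m` a unit of `A`, and `H ≠ 0` a function in
`F_N = modularFunctionFieldBar N` such that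

* `m` divides the divisor of `H`;
* `H` is regular at the places where `j` is finite (e.g. at all places `≠ ∞`);
* `H = Y₁ / Y₂` with `Y₁, Y₂ ∈ A((q))` (`q`-expansions of elements of `F_N`) having the same
  nonzero reduction.

Then `H` has a formal `m`-th root `Z ∈ A((q))` with reduction `1`.

Main statements: `disc_root_of_regular`, `disc_root_jElt`, `disc_root`.
-/

set_option autoImplicit false
set_option linter.unusedSectionVars false

noncomputable section

open HahnSeries IntermediateField AlgebraicCurve ModularCurve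

namespace Fermat.Agent.P2.helper23

/-- the place of the cusp `∞` of `F_N` -/
def qPlace (N : ℕ) [NeZero N] : Place Kb (FF N) := Fermat.Agent.P2.helper29.inftyBar N

theorem qPlace_ord (N : ℕ) [NeZero N] (f : FF N) (hf : f ≠ 0) :
    (qPlace N).ord f = (f : LaurentSeries Kb).order :=
  Fermat.Agent.P2.helper29.isInfty_inftyBar N f hf

theorem coe_xJ (N : ℕ) [NeZero N] :
    ((Fermat.Agent.S24.xJ N : FF N) : LaurentSeries Kb) = jqModC Kb := by
  show coeffEmb Kb (qExpand ℚ 1 jq) = jqModC Kb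
  rw [qExpand_one_apply, ← jqModC_rat, coeffEmb, coeffMap_jqModC]

theorem finite_ord_ne_zero (N : ℕ) [NeZero N] (H : FF N) (hH : H ≠ 0) :
    {𝔓 : Place Kb (FF N) | 𝔓.ord H ≠ 0}.Finite := by
  have := Fermat.Agent.S24.helper77.an_finiteDimensional N
  have hpd : HasPrincipalDivisors Kb (FF N) :=
    Fermat.Agent.S24.helper75.ff_hasPrincipalDivisors (Fermat.Agent.S24.xJ N)
      (Fermat.Agent.S24.helper77.an_transcendental N)
  obtain ⟨D, hD, -⟩ := hpd.exists_divisor H hH
  refine Set.Finite.subset (Finset.finite_toSet D.support) ?_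
  intro 𝔓 h𝔓
  rw [Finset.mem_coe, Finsupp.mem_support_iff, hD]
  exact h𝔓

theorem exists_place_of_valuationSubring_FF (N : ℕ) [NeZero N] (V : ValuationSubring (FF N))
    (hK : ∀ a : Kb, algebraMap Kb (FF N) a ∈ V) (hV : V ≠ ⊤) :
    ∃ 𝔓 : Place Kb (FF N), 𝔓.toValuationSubring = V := by
  have := Fermat.Agent.S24.helper77.an_finiteDimensional N
  exact Fermat.Agent.P2.helper62.exists_place_of_valuationSubring (Fermat.Agent.S24.xJ N)
    (Fermat.Agent.S24.helper77.an_transcendental N) V hK hV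

/-- **DISC step, general form** (regularity only where `j` is finite; `jF` is any element of
`F_N` with `q`-expansion `j`, e.g. `S24.xJ N` or `helper29.jElt N`). -/
theorem disc_root_of_regular (N : ℕ) [NeZero N] (A : ValuationSubring Kb) (m : ℕ)
    (hm : IsUnit ((m : ℕ) : A)) (jF : FF N) (hj : (jF : LaurentSeries Kb) = jqModC Kb)
    (H : FF N) (hH : H ≠ 0)
    (hord : (m : ℤ) ∣ (H : LaurentSeries Kb).order)
    (hdiv : ∀ P : Place Kb (FF N), 0 ≤ P.ord jF → (m : ℤ) ∣ P.ord H)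
    (hreg : ∀ P : Place Kb (FF N), 0 ≤ P.ord jF → 0 ≤ P.ord H)
    (Y₁ Y₂ : LaurentSeries A) (h₁ : coeffMap A.subtype Y₁ ∈ FF N)
    (h₂ : coeffMap A.subtype Y₂ ∈ FF N)
    (h12 : coeffMap A.subtype Y₁ = (H : LaurentSeries Kb) * coeffMap A.subtype Y₂)
    (hred : coeffMap (IsLocalRing.residue A) Y₁ = coeffMap (IsLocalRing.residue A) Y₂)
    (hne : coeffMap (IsLocalRing.residue A) Y₂ ≠ 0) :
    ∃ Z : LaurentSeries A, (coeffMap A.subtype Z) ^ m = (H : LaurentSeries Kb) ∧
      coeffMap (IsLocalRing.residue A) Z = 1 :=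
  disc_root_core (FF N) A (exists_place_of_valuationSubring_FF N)
    (fun f => Fermat.Agent.P2.helper73.exists_finset_isRatio N A f f.2)
    (fun K₀ _ => Fermat.Agent.P2.helper89.isPrincipalIdealRing_capSubring A K₀)
    jF hj m hm H hH (finite_ord_ne_zero N H hH) hord hdiv hreg Y₁ Y₂ h₁ h₂ h12 hred hne

/-- **DISC step** with `j = helper29.jElt N`: `H` regular where `j` is finite, `m ∣ div H`. -/
theorem disc_root_jElt (N : ℕ) [NeZero N] (A : ValuationSubring Kb) (m : ℕ)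
    (hm : IsUnit ((m : ℕ) : A)) (H : FF N) (hH : H ≠ 0)
    (hdiv : ∀ P : Place Kb (FF N), (m : ℤ) ∣ P.ord H)
    (hreg : ∀ P : Place Kb (FF N), 0 ≤ P.ord (Fermat.Agent.P2.helper29.jElt N) → 0 ≤ P.ord H)
    (Y₁ Y₂ : LaurentSeries A) (h₁ : coeffMap A.subtype Y₁ ∈ FF N)
    (h₂ : coeffMap A.subtype Y₂ ∈ FF N)
    (h12 : coeffMap A.subtype Y₁ = (H : LaurentSeries Kb) * coeffMap A.subtype Y₂)
    (hred : coeffMap (IsLocalRing.residue A) Y₁ = coeffMap (IsLocalRing.residue A) Y₂)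
    (hne : coeffMap (IsLocalRing.residue A) Y₂ ≠ 0) :
    ∃ Z : LaurentSeries A, (coeffMap A.subtype Z) ^ m = (H : LaurentSeries Kb) ∧
      coeffMap (IsLocalRing.residue A) Z = 1 := by
  refine disc_root_of_regular N A m hm (Fermat.Agent.P2.helper29.jElt N) rfl H hH ?_
    (fun P _ => hdiv P) hreg Y₁ Y₂ h₁ h₂ h12 hred hne
  rw [← qPlace_ord N H hH]
  exact hdiv _

/-- **DISC step** with `j = S24.xJ N`. -/
theorem disc_root_xJ (N : ℕ) [NeZero N] (A : ValuationSubring Kb) (m : ℕ)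
    (hm : IsUnit ((m : ℕ) : A)) (H : FF N) (hH : H ≠ 0)
    (hdiv : ∀ P : Place Kb (FF N), (m : ℤ) ∣ P.ord H)
    (hreg : ∀ P : Place Kb (FF N), 0 ≤ P.ord (Fermat.Agent.S24.xJ N : FF N) → 0 ≤ P.ord H)
    (Y₁ Y₂ : LaurentSeries A) (h₁ : coeffMap A.subtype Y₁ ∈ FF N)
    (h₂ : coeffMap A.subtype Y₂ ∈ FF N)
    (h12 : coeffMap A.subtype Y₁ = (H : LaurentSeries Kb) * coeffMap A.subtype Y₂)
    (hred : coeffMap (IsLocalRing.residue A) Y₁ = coeffMap (IsLocalRing.residue A) Y₂)
    (hne : coeffMap (IsLocalRing.residue A) Y₂ ≠ 0) :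
    ∃ Z : LaurentSeries A, (coeffMap A.subtype Z) ^ m = (H : LaurentSeries Kb) ∧
      coeffMap (IsLocalRing.residue A) Z = 1 := by
  refine disc_root_of_regular N A m hm (Fermat.Agent.S24.xJ N) (coe_xJ N) H hH ?_
    (fun P _ => hdiv P) hreg Y₁ Y₂ h₁ h₂ h12 hred hne
  rw [← qPlace_ord N H hH]
  exact hdiv _

theorem qPlace_ord_jElt (N : ℕ) [NeZero N] :
    (qPlace N).ord (Fermat.Agent.P2.helper29.jElt N) = -1 := by
  have h0 : Fermat.Agent.P2.helper29.jElt N ≠ 0 := by
    intro h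
    have h1 := congrArg (fun x : FF N => ((x : LaurentSeries Kb)).order) h
    simp only [ZeroMemClass.coe_zero, HahnSeries.order_zero] at h1
    have h2 : ((Fermat.Agent.P2.helper29.jElt N : FF N) : LaurentSeries Kb).order = -1 :=
      Fermat.Agent.P2.helper29.order_jqModC Kb
    omega
  rw [qPlace_ord N _ h0]
  exact Fermat.Agent.P2.helper29.order_jqModC Kb

/-- **DISC step** (the statement of finding #1111): `H` regular off the cusp `∞`. -/
theorem disc_root (N : ℕ) [NeZero N] (A : ValuationSubring Kb) (m : ℕ)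
    (hm : IsUnit ((m : ℕ) : A)) (H : FF N) (hH : H ≠ 0)
    (hdiv : ∀ P : Place Kb (FF N), (m : ℤ) ∣ P.ord H)
    (hreg : ∀ P : Place Kb (FF N), P ≠ qPlace N → 0 ≤ P.ord H)
    (Y₁ Y₂ : LaurentSeries A) (h₁ : coeffMap A.subtype Y₁ ∈ FF N)
    (h₂ : coeffMap A.subtype Y₂ ∈ FF N)
    (h12 : coeffMap A.subtype Y₁ = (H : LaurentSeries Kb) * coeffMap A.subtype Y₂)
    (hred : coeffMap (IsLocalRing.residue A) Y₁ = coeffMap (IsLocalRing.residue A) Y₂)
    (hne : coeffMap (IsLocalRing.residue A) Y₂ ≠ 0) :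
    ∃ Z : LaurentSeries A, (coeffMap A.subtype Z) ^ m = (H : LaurentSeries Kb) ∧
      coeffMap (IsLocalRing.residue A) Z = 1 := by
  refine disc_root_jElt N A m hm H hH hdiv (fun P hP => hreg P ?_) Y₁ Y₂ h₁ h₂ h12 hred hne
  rintro rfl
  rw [qPlace_ord_jElt] at hP
  omega

end Fermat.Agent.P2.helper23
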