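import Mathlib
import Fermat.Prelude.Def_ModularCurve_X0
import Fermat.Prelude.Def_ModularCurve_LaurentCoeff

/-!
# P2 / Kummer-form Eichler–Shimura: the formal core

* `coeff_pow_char`: in characteristic `ℓ`, `(∑ aₙ tⁿ)^ℓ = ∑ aₙ^ℓ t^(ℓ n)` (power series).
* `laurent_pow_char`: the same for Laurent series, in the Prelude vocabulary:
  `x ^ ℓ = qExpand ℓ (coeffMap (frobenius B ℓ) x)`.
* `rot u`: the rotation `t ↦ u t` of Laurent series (`u` a unit), a ring homomorphism.
* `coeffMap_rot_of_sub_one_mem`: rotation by `u ≡ 1` is the identity modulo the ideal.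
* `es_formal`: if `qExpand ℓ N = qExpand ℓ (qExpand ℓ h) * ∏_{i<ℓ} rot (u^i) h` (the shape of the
  norm of `h(q^ℓ)` along the Hecke correspondence, written in the variable `t = q^(1/ℓ)`), `u ≡ 1`
  and `ℓ ≡ 0` modulo `I`, then modulo `I`
  `N̄ = qExpand ℓ h̄ * coeffMap Frobenius h̄`.
-/

set_option autoImplicit false

noncomputable section

open ModularCurve

namespace Fermat.Agent.P2.helper94

/-! ## Frobenius on power series and Laurent series -/

section Frobenius

variable {B : Type*} [CommRing B] (ℓ : ℕ) [Fact ℓ.Prime] [CharP B ℓ]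

/-- In characteristic `ℓ`: `(∑ aₙ tⁿ)^ℓ = ∑ aₙ^ℓ t^(ℓ n)`. -/
theorem coeff_pow_char (f : PowerSeries B) (n : ℕ) :
    (f ^ ℓ).coeff n = if ℓ ∣ n then (f.coeff (n / ℓ)) ^ ℓ else 0 := by
  have hℓ : 0 < ℓ := (Fact.out : ℓ.Prime).pos
  have h1 : (f ^ ℓ).coeff n = ((PowerSeries.trunc (n + 1) f : Polynomial B) ^ ℓ).coeff n := by
    rw [← PowerSeries.coeff_coe_trunc_of_lt (Nat.lt_succ_self n) (f := f ^ ℓ),
      ← PowerSeries.trunc_trunc_pow, PowerSeries.coeff_coe_trunc_of_lt (Nat.lt_succ_self n),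
      ← Polynomial.coe_pow, Polynomial.coeff_coe]
  rw [h1, ← Polynomial.map_frobenius_expand ℓ, Polynomial.coeff_map, Polynomial.coeff_expand hℓ]
  split_ifs with h
  · rw [PowerSeries.coeff_trunc, if_pos]
    · rfl
    · exact lt_of_le_of_lt (Nat.div_le_self n ℓ) (Nat.lt_succ_self n)
  · simp

/-- Frobenius on Laurent series in characteristic `ℓ`, in the Prelude vocabulary. -/
theorem laurent_pow_char (x : LaurentSeries B) :
    x ^ ℓ = qExpand B ℓ (coeffMap (frobenius B ℓ) x) := by
  have : NeZero ℓ := ⟨(Fact.out : ℓ.Prime).ne_zero⟩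
  have hℓ : 0 < ℓ := (Fact.out : ℓ.Prime).pos
  -- power series case
  have hps : ∀ f : PowerSeries B, (HahnSeries.ofPowerSeries ℤ B f) ^ ℓ =
      qExpand B ℓ (coeffMap (frobenius B ℓ) (HahnSeries.ofPowerSeries ℤ B f)) := by
    intro f
    rw [← map_pow]
    ext k
    rcases lt_or_ge k 0 with hk | hk
    · -- negative index
      have e1 : (HahnSeries.ofPowerSeries ℤ B (f ^ ℓ)).coeff k = 0 := by
        rw [HahnSeries.ofPowerSeries_apply]
        apply HahnSeries.embDomain_of_notMem_range
        rintro ⟨m, hm⟩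
        simp at hm
        omega
      rw [e1]
      by_cases hd : (ℓ : ℤ) ∣ k
      · obtain ⟨j, rfl⟩ := hd
        rw [qExpand_coeff_mul, coeffMap_coeff]
        have hj : j < 0 := by
          by_contra hj'
          rw [not_lt] at hj'
          have : (0 : ℤ) ≤ (ℓ : ℤ) * j := mul_nonneg (by positivity) hj'
          omega
        have e2 : (HahnSeries.ofPowerSeries ℤ B f).coeff j = 0 := by
          rw [HahnSeries.ofPowerSeries_apply]
          apply HahnSeries.embDomain_of_notMem_range
          rintro ⟨m, hm⟩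
          simp at hm
          omega
        rw [e2, map_zero]
      · rw [qExpand_coeff_of_not_dvd _ _ hd]
    · lift k to ℕ using hk
      rw [HahnSeries.ofPowerSeries_apply_coeff, coeff_pow_char]
      by_cases hd : ℓ ∣ k
      · rw [if_pos hd]
        obtain ⟨j, rfl⟩ := hd
        rw [Nat.mul_div_cancel_left _ hℓ]
        push_cast
        rw [qExpand_coeff_mul, coeffMap_coeff, HahnSeries.ofPowerSeries_apply_coeff]
        rfl
      · rw [if_neg hd, qExpand_coeff_of_not_dvd]
        exact_mod_cast hd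
  -- general case
  have hx := LaurentSeries.single_order_mul_powerSeriesPart x
  have hx' : x = HahnSeries.single x.order (1 : B) *
      HahnSeries.ofPowerSeries ℤ B x.powerSeriesPart := hx.symm
  have e1 : (HahnSeries.single x.order (1 : B)) ^ ℓ =
      qExpand B ℓ (coeffMap (frobenius B ℓ) (HahnSeries.single x.order (1 : B))) := by
    rw [coeffMap_single, map_one (frobenius B ℓ), qExpand_single, HahnSeries.single_pow, one_pow]
    congr 1
  rw [hx', mul_pow, hps, e1, map_mul, map_mul]

end Frobenius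

/-! ## Rotations -/

section Rot

variable {A : Type*} [CommRing A]

/-- The rotation `t ↦ u t` on Laurent series: `∑ aₙ tⁿ ↦ ∑ aₙ uⁿ tⁿ`. -/
def rotFun (u : Aˣ) (x : LaurentSeries A) : LaurentSeries A where
  coeff n := ((u ^ n : Aˣ) : A) * x.coeff n
  isPWO_support' := x.isPWO_support.mono fun n hn => by
    simp only [Function.mem_support, ne_eq] at hn ⊢
    intro h
    exact hn (by rw [h, mul_zero])

@[simp]
theorem rotFun_coeff (u : Aˣ) (x : LaurentSeries A) (n : ℤ) :
    (rotFun u x).coeff n = ((u ^ n : Aˣ) : A) * x.coeff n := rfl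

theorem rotFun_mul (u : Aˣ) (x y : LaurentSeries A) :
    rotFun u (x * y) = rotFun u x * rotFun u y := by
  ext n
  rw [rotFun_coeff, HahnSeries.coeff_mul, HahnSeries.coeff_mul, Finset.mul_sum]
  have hsupp : ∀ z : LaurentSeries A, (rotFun u z).support = z.support := by
    intro z
    ext k
    simp only [HahnSeries.mem_support, rotFun_coeff, ne_eq]
    constructor
    · intro h h0
      exact h (by rw [h0, mul_zero])
    · intro h h0
      exact h ((Units.mul_right_eq_zero _).mp h0)
  refine Finset.sum_congr ?_ ?_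
  · ext ij
    simp only [Finset.mem_antidiagonal, hsupp]
  · intro ij hij
    rw [Finset.mem_antidiagonal] at hij
    rw [rotFun_coeff, rotFun_coeff, ← hij.2.2, zpow_add]
    push_cast
    ring

/-- The rotation `t ↦ u t` as a ring homomorphism. -/
def rot (u : Aˣ) : LaurentSeries A →+* LaurentSeries A where
  toFun := rotFun u
  map_one' := by
    ext n
    rw [rotFun_coeff, HahnSeries.coeff_one]
    split_ifs with h
    · subst h; simp
    · simp
  map_mul' := rotFun_mul u
  map_zero' := by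
    ext n
    simp
  map_add' x y := by
    ext n
    simp [mul_add]

@[simp]
theorem rot_coeff (u : Aˣ) (x : LaurentSeries A) (n : ℤ) :
    (rot u x).coeff n = ((u ^ n : Aˣ) : A) * x.coeff n := rfl

theorem rot_one (x : LaurentSeries A) : rot (1 : Aˣ) x = x := by
  ext n
  simp

theorem rot_rot (u v : Aˣ) (x : LaurentSeries A) : rot u (rot v x) = rot (u * v) x := by
  ext n
  simp only [rot_coeff, mul_zpow]
  push_cast
  ring

/-- A rotation by an `N`-th root of unity fixes the series in `t^N`. -/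
theorem rot_qExpand (N : ℕ) [NeZero N] (u : Aˣ) (hu : u ^ N = 1) (x : LaurentSeries A) :
    rot u (qExpand A N x) = qExpand A N x := by
  ext n
  rw [rot_coeff]
  by_cases hd : (N : ℤ) ∣ n
  · obtain ⟨j, rfl⟩ := hd
    rw [zpow_mul, zpow_natCast, hu, one_zpow, Units.val_one, one_mul]
  · rw [qExpand_coeff_of_not_dvd _ _ hd, mul_zero]

/-- Rotation by `u ≡ 1` is the identity modulo `I`. -/
theorem coeffMap_rot_of_sub_one_mem (I : Ideal A) (u : Aˣ) (hu : (u : A) - 1 ∈ I)
    (x : LaurentSeries A) :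
    coeffMap (Ideal.Quotient.mk I) (rot u x) = coeffMap (Ideal.Quotient.mk I) x := by
  have h1 : Ideal.Quotient.mk I (u : A) = 1 := by
    rw [← sub_eq_zero, ← map_one (Ideal.Quotient.mk I), ← map_sub]
    exact Ideal.Quotient.eq_zero_iff_mem.mpr hu
  have h2 : ∀ n : ℤ, Ideal.Quotient.mk I ((u ^ n : Aˣ) : A) = 1 := by
    intro n
    have h3 : Units.map (Ideal.Quotient.mk I : A →* A ⧸ I) u = 1 := by
      ext
      simpa using h1
    have h4 : Units.map (Ideal.Quotient.mk I : A →* A ⧸ I) (u ^ n) = 1 := by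
      rw [map_zpow, h3, one_zpow]
    have h5 : (Ideal.Quotient.mk I) ((u ^ n : Aˣ) : A) =
        ((Units.map (Ideal.Quotient.mk I : A →* A ⧸ I) (u ^ n) : (A ⧸ I)ˣ) : A ⧸ I) := rfl
    rw [h5, h4, Units.val_one]
  ext n
  rw [coeffMap_coeff, coeffMap_coeff, rot_coeff, map_mul, h2, one_mul]

end Rot

/-! ## The formal Eichler–Shimura congruence -/

section ES

variable {A : Type*} [CommRing A] (ℓ : ℕ) [Fact ℓ.Prime] [NeZero ℓ]

theorem qExpand_injective {R : Type*} [CommRing R] (N : ℕ) [NeZero N] :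
    Function.Injective (qExpand R N) := by
  intro x y h
  ext k
  rw [← qExpand_coeff_mul N x k, ← qExpand_coeff_mul N y k, h]

theorem coeffMap_qExpand {R S : Type*} [CommRing R] [CommRing S] (f : R →+* S) (N : ℕ)
    [NeZero N] (x : LaurentSeries R) :
    coeffMap f (qExpand R N x) = qExpand S N (coeffMap f x) := by
  ext k
  by_cases hd : (N : ℤ) ∣ k
  · obtain ⟨j, rfl⟩ := hd
    rw [coeffMap_coeff, qExpand_coeff_mul, qExpand_coeff_mul, coeffMap_coeff]
  · rw [coeffMap_coeff, qExpand_coeff_of_not_dvd _ _ hd, qExpand_coeff_of_not_dvd _ _ hd,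
      map_zero]

/-- **Formal Eichler–Shimura congruence.**  `I` is an ideal of `A` with `A ⧸ I` of
characteristic `ℓ`, `u ≡ 1 mod I`.  If `N` (a series in `q`) satisfies, in the variable
`t = q^(1/ℓ)`, `N(t^ℓ) = h(t^(ℓ²)) ∏_{i<ℓ} h(u^i t)`, then
`N̄(q) = h̄(q^ℓ) · (Frob h̄)(q)`. -/
theorem es_formal (I : Ideal A) [CharP (A ⧸ I) ℓ] (u : Aˣ) (hu : (u : A) - 1 ∈ I)
    (h N : LaurentSeries A)
    (hN : qExpand A ℓ N = qExpand A ℓ (qExpand A ℓ h) * ∏ i ∈ Finset.range ℓ, rot (u ^ i) h) :
    coeffMap (Ideal.Quotient.mk I) N =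
      qExpand (A ⧸ I) ℓ (coeffMap (Ideal.Quotient.mk I) h) *
        coeffMap (frobenius (A ⧸ I) ℓ) (coeffMap (Ideal.Quotient.mk I) h) := by
  apply qExpand_injective ℓ
  have hui : ∀ i : ℕ, ((u ^ i : Aˣ) : A) - 1 ∈ I := by
    intro i
    induction i with
    | zero => simp
    | succ i ih =>
      have e : ((u ^ (i + 1) : Aˣ) : A) - 1 = ((u ^ i : Aˣ) : A) * ((u : A) - 1) +
          (((u ^ i : Aˣ) : A) - 1) := by
        rw [pow_succ]
        push_cast
        ring
      rw [e]
      exact I.add_mem (I.mul_mem_left _ hu) ih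
  rw [← coeffMap_qExpand, hN, map_mul, map_prod, map_mul, coeffMap_qExpand, coeffMap_qExpand]
  congr 1
  rw [← laurent_pow_char ℓ]
  rw [Finset.prod_congr rfl fun i _ => coeffMap_rot_of_sub_one_mem I (u ^ i) (hui i) h,
    Finset.prod_const, Finset.card_range]

/-- If moreover the Frobenius of `A ⧸ I` is bijective (perfect residue ring), the first factor
is an `ℓ`-th power: `h̄(q^ℓ) = (Frob⁻¹ h̄)^ℓ`. -/
theorem qExpand_eq_pow_of_frobenius (B : Type*) [CommRing B] [CharP B ℓ]
    (x y : LaurentSeries B) (hxy : coeffMap (frobenius B ℓ) y = x) :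
    qExpand B ℓ x = y ^ ℓ := by
  rw [laurent_pow_char ℓ, hxy]

end ES

end Fermat.Agent.P2.helper94
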