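/-
P2-[CUSP-l] (helper28), part C1: the concrete conjugate data of S28 (cosets of `Γ₀(N)`) and the
action of `T` on the coset expansions: `E_{T⁻¹ i} = rot ζ_N ∘ E_i`.
-/
import Mathlib
import Fermat.Agent.S28.AnalyticConj
import Fermat.Agent.P2.helper94_ESFormal

set_option autoImplicit false

noncomputable section

namespace Fermat.Agent.P2.helper28

open UpperHalfPlane ModularCurve
open Fermat.Agent.S28
open scoped MatrixGroups

/-- `ζ_N = exp(2πi/N)` as a unit of `ℂ` -/
def zetaU (N : ℕ) : ℂˣ := Units.mk0 (zetaC N) (zetaC_ne_zero N)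

@[simp] theorem coe_zetaU (N : ℕ) : ((zetaU N : ℂˣ) : ℂ) = zetaC N := rfl

theorem zetaU_pow (N : ℕ) [NeZero N] : zetaU N ^ N = 1 := by
  apply Units.ext
  rw [Units.val_pow_eq_pow_val, coe_zetaU, zetaC_pow_self, Units.val_one]

theorem qN_T_smul (N : ℕ) (τ : ℍ) : qN N (ModularGroup.T • τ) = zetaC N * qN N τ := by
  rw [UpperHalfPlane.modular_T_smul]
  unfold qN zetaC Function.Periodic.qParam
  rw [← Complex.exp_add]
  congr 1
  rw [UpperHalfPlane.coe_vadd]
  push_cast
  ring

/-- the expansion of `τ ↦ f (τ + 1)` is the rotated expansion of `f` -/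
theorem hasExp_comp_T {N : ℕ} {f : ℍ → ℂ} {s : LaurentSeries ℂ} (h : HasExp N f s) :
    HasExp N (fun τ => f (ModularGroup.T • τ)) (helper94.rot (zetaU N) s) := by
  obtain ⟨M, p, rfl, hp⟩ := h
  refine ⟨M, PowerSeries.mk fun n => (((zetaU N) ^ ((n : ℤ) - M) : ℂˣ) : ℂ) * p.coeff n, ?_, ?_⟩
  · ext n
    rw [helper94.rot_coeff, lau_coeff, lau_coeff]
    split_ifs with h0
    · rw [PowerSeries.coeff_mk]
      congr 3
      omega
    · rw [mul_zero]
  · intro τ
    have h1 := hp (ModularGroup.T • τ)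
    rw [qN_T_smul] at h1
    have h2 := h1.mul_left ((((zetaU N) ^ (-(M : ℤ)) : ℂˣ)) : ℂ)
    have e1 : ((((zetaU N) ^ (-(M : ℤ)) : ℂˣ)) : ℂ) *
        ((zetaC N * qN N τ) ^ M * f (ModularGroup.T • τ)) =
        qN N τ ^ M * f (ModularGroup.T • τ) := by
      rw [mul_pow, ← mul_assoc, ← mul_assoc]
      congr 2
      rw [← coe_zetaU, ← Units.val_pow_eq_pow_val, ← Units.val_mul, ← zpow_natCast,
        ← zpow_add]
      simp
    rw [e1] at h2
    have e2 : (fun n : ℕ => (PowerSeries.coeff n)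
        (PowerSeries.mk fun n => (((zetaU N) ^ ((n : ℤ) - M) : ℂˣ) : ℂ) * p.coeff n) *
          qN N τ ^ n) =
        fun n : ℕ => ((((zetaU N) ^ (-(M : ℤ)) : ℂˣ)) : ℂ) *
          ((PowerSeries.coeff n) p * (zetaC N * qN N τ) ^ n) := by
      funext n
      rw [PowerSeries.coeff_mk, mul_pow, sub_eq_add_neg, zpow_add, zpow_natCast, Units.val_mul,
        Units.val_pow_eq_pow_val, coe_zetaU]
      ring
    show HasSum _ _
    rw [e2]
    exact h2

/-- **T-rotation of the coset expansions.** -/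
theorem EI_T_inv_smul (N : ℕ) [NeZero N] (i : IX N) (g : GAlg N) :
    EI N ((ModularGroup.T)⁻¹ • i) g = helper94.rot (zetaU N) (EI N i g) := by
  refine EAlg_eq N _ g ?_
  have h := hasExp_comp_T (hasExp_EAlg N (rep N i) g)
  have e : (fun τ : ℍ => (g : ℍ → ℂ) (rep N ((ModularGroup.T)⁻¹ • i) • τ)) =
      fun τ => (fun τ' : ℍ => (g : ℍ → ℂ) (rep N i • τ')) (ModularGroup.T • τ) := by
    funext τ
    exact (EI_perm g ModularGroup.T i τ).symm
  rw [e]
  exact h

/-- the coset space is finite -/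
instance instFiniteIX (N : ℕ) [NeZero N] : Finite (IX N) :=
  Fermat.Agent.S24.helper37.finite_quotient_Gamma0 N

instance instFintypeIX (N : ℕ) [NeZero N] : Fintype (IX N) := Fintype.ofFinite _

instance instDecEqIX (N : ℕ) : DecidableEq (IX N) := Classical.decEq _

/-- the concrete conjugate data of S28 -/
def conjX (N : ℕ) [NeZero N] : helper81.ConjData N where
  I := IX N
  instFintype := instFintypeIX N
  instDecEq := instDecEqIX N
  i₀ := i0 N
  G := GAlg N
  instCommRing := inferInstance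
  instAlgebra := inferInstance
  E := EI N
  J := JG N
  Jd := JdG N
  U := UG N
  a := aI N
  hJ := EI_JG N
  hJd := fun d hd hNd => EI_i0_JdG N d hd hNd
  ha := aI_dvd N
  ha₀ := eq_i0_of_aI_eq N
  m := mI N
  hm := item4_inj N
  hΘ := item4_lead N
  hU := item5 N
  hS := item6 N
  hchar := @item7 N _ (charpolyCoeffs N) (instFintypeIX N) (instDecEqIX N)

end Fermat.Agent.P2.helper28
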