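/-
P2-[CUSP-BAR] (helper28): `CuspBarStatement M A` of the P2 interface for every level `M` and
every valuation ring `A` of `ℚ̄` over a prime not dividing `M`, with the explicit dictionary:
the places of the special fibre field over `j̄ = ∞` are the places induced by the reduced coset
expansions `σ_i`, `i ∈ SL(2,ℤ)/Γ₀(M)`; two cosets induce the same place iff they lie in the same
`⟨T⟩`-orbit, and the ramification index is the size of the orbit (the width of the cusp).
-/
import Mathlib
import Fermat.Agent.P2.helper28_CuspL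

set_option autoImplicit false

noncomputable section

namespace Fermat.Agent.P2.helper28

open Polynomial ModularCurve IntermediateField AlgebraicCurve
open Fermat.Agent.S28 Fermat.Agent.S18.helper19
open scoped MatrixGroups

/-! ### The residue field of a valuation ring of an algebraically closed field -/

theorem isAlgClosed_residueField {K : Type*} [Field K] [IsAlgClosed K] (A : ValuationSubring K) :
    IsAlgClosed (IsLocalRing.ResidueField A) := by
  apply IsAlgClosed.of_exists_root
  intro p hpm hirr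
  have hsurj : Function.Surjective (IsLocalRing.residue A) := IsLocalRing.residue_surjective
  have hlift : p ∈ Polynomial.lifts (IsLocalRing.residue A) := by
    rw [Polynomial.mem_lifts]
    exact Polynomial.map_surjective _ hsurj p
  obtain ⟨P, hPmap, hPdeg, hPmonic⟩ := Polynomial.lifts_and_degree_eq_and_monic hlift hpm
  have hdeg : (P.map (algebraMap A K)).degree ≠ 0 := by
    rw [Polynomial.degree_map_eq_of_injective (FaithfulSMul.algebraMap_injective A K), hPdeg]
    exact (Polynomial.degree_pos_of_irreducible hirr).ne'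
  obtain ⟨α, hα⟩ := IsAlgClosed.exists_root (P.map (algebraMap A K)) hdeg
  have hint : IsIntegral A α := ⟨P, hPmonic, by
    rw [← Polynomial.eval_map]
    exact hα⟩
  obtain ⟨a, rfl⟩ := IsIntegrallyClosed.isIntegral_iff.mp hint
  refine ⟨IsLocalRing.residue A a, ?_⟩
  rw [← hPmap, Polynomial.eval_map, Polynomial.eval₂_hom]
  have h0 : Polynomial.eval a P = 0 := by
    apply FaithfulSMul.algebraMap_injective A K
    rw [map_zero, ← hα, Polynomial.eval_map, Polynomial.eval₂_hom]
  rw [h0, map_zero]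

instance instIsAlgClosed_kA (A : ValuationSubring Kb) : IsAlgClosed (kA A) :=
  isAlgClosed_residueField A

/-! ### The coefficient ring `ι(A) ⊆ ℂ` -/

section Coeff

variable (A : ValuationSubring Kb)

/-- the chosen embedding `ℚ̄ → ℂ` -/
abbrev iotaK : Kb →+* ℂ := (Fermat.Agent.S24.iotaC : Kb →+* ℂ)

/-- the image of `A` in `ℂ` -/
def SA : Subring ℂ := A.toSubring.map iotaK

/-- `A ≃ ι(A)` -/
def eSA : A.toSubring ≃+* SA A := A.toSubring.equivMapOfInjective iotaK iotaK.injective

theorem coe_eSA (a : A.toSubring) : ((eSA A a : SA A) : ℂ) = iotaK (a : Kb) := rfl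

/-- the reduction map `ι(A) → k` -/
def rA : SA A →+* kA A :=
  (IsLocalRing.residue A).comp ((eSA A).symm : SA A →+* A.toSubring)

theorem rA_surjective : Function.Surjective (rA A) := by
  intro x
  obtain ⟨a, rfl⟩ := IsLocalRing.residue_surjective x
  refine ⟨eSA A a, ?_⟩
  show IsLocalRing.residue A ((eSA A).symm (eSA A a)) = _
  rw [RingEquiv.symm_apply_apply]

theorem mem_SA_of_mem {z : Kb} (hz : z ∈ A) : iotaK z ∈ SA A :=
  ⟨z, hz, rfl⟩

theorem mem_of_pow_eq_one' {ζ : Kb} {n : ℕ} (hn : n ≠ 0) (h : ζ ^ n = 1) : ζ ∈ A := by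
  rw [← A.valuation_le_one_iff]
  have h1 : A.valuation ζ ^ n ≤ 1 := by rw [← map_pow, h, map_one]
  exact (pow_le_one_iff hn).mp h1

theorem zetaC_mem_SA (N : ℕ) [NeZero N] : helper81.zetaC N ∈ SA A := by
  have : NeZero ((N : ℕ) : ℚ) := ⟨Nat.cast_ne_zero.mpr (NeZero.ne N)⟩
  obtain ⟨ω, hω⟩ := HasEnoughRootsOfUnity.exists_primitiveRoot Kb N
  have hω' : IsPrimitiveRoot (iotaK ω) N := hω.map_of_injective iotaK.injective
  obtain ⟨j, -, hj⟩ := hω'.eq_pow_of_pow_eq_one (helper81.zetaC_pow N)
  rw [← hj, ← map_pow]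
  apply mem_SA_of_mem
  apply mem_of_pow_eq_one' A (NeZero.ne N)
  rw [← pow_mul, mul_comm, pow_mul, hω.pow_eq_one, one_pow]

theorem natCast_inv_mem_SA {ℓ : ℕ} (hℓ : ℓ.Prime) (hA : A.LiesOverPrime ℓ) (N : ℕ)
    (hN : ¬ ℓ ∣ N) : (N : ℂ)⁻¹ ∈ SA A := by
  have h1 : A.valuation (ℓ : Kb) < 1 := by
    have : (ℓ : Kb) ∈ A.nonunits := hA
    exact (ValuationSubring.mem_nonunits_iff A).mp this
  have hcop : Nat.Coprime ℓ N := (Nat.Prime.coprime_iff_not_dvd hℓ).mpr hN
  have hN1 : A.valuation (N : Kb) = 1 := by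
    apply le_antisymm
    · rw [A.valuation_le_one_iff]
      exact natCast_mem A N
    · by_contra hlt
      rw [not_le] at hlt
      have hb : (ℓ : ℤ) * Nat.gcdA ℓ N + (N : ℤ) * Nat.gcdB ℓ N = 1 := by
        have := Nat.gcd_eq_gcd_ab ℓ N
        rw [hcop.gcd_eq_one] at this
        exact_mod_cast this.symm
      have hb' : (ℓ : Kb) * ((Nat.gcdA ℓ N : ℤ) : Kb) + (N : Kb) * ((Nat.gcdB ℓ N : ℤ) : Kb) = 1 := by
        exact_mod_cast congrArg (Int.cast : ℤ → Kb) hb
      have hint : ∀ z : ℤ, A.valuation ((z : ℤ) : Kb) ≤ 1 := fun z => by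
        rw [A.valuation_le_one_iff]
        exact intCast_mem A z
      have h2 : A.valuation ((ℓ : Kb) * ((Nat.gcdA ℓ N : ℤ) : Kb) +
          (N : Kb) * ((Nat.gcdB ℓ N : ℤ) : Kb)) < 1 := by
        apply lt_of_le_of_lt (Valuation.map_add _ _ _)
        apply max_lt
        · rw [map_mul]
          exact mul_lt_one_of_lt_of_le h1 (hint _)
        · rw [map_mul]
          exact mul_lt_one_of_lt_of_le hlt (hint _)
      rw [hb', map_one] at h2
      exact lt_irrefl _ h2
  have hmem : ((N : Kb))⁻¹ ∈ A := by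
    rw [← A.valuation_le_one_iff, map_inv₀, hN1, inv_one]
  have := mem_SA_of_mem A hmem
  rwa [map_inv₀, map_natCast] at this

end Coeff

/-! ### The cusp dictionary for `Γ₀(M)` -/

section Main

variable (M : ℕ) [NeZero M] (A : ValuationSubring Kb)

/-- the permutation of the cosets induced by `T⁻¹` -/
def permT : Equiv.Perm (IX M) :=
  (MulAction.toPerm ((ModularGroup.T)⁻¹ : SL(2, ℤ)) : Equiv.Perm (IX M))

omit [NeZero M] in
theorem permT_apply (i : IX M) : permT M i = ((ModularGroup.T)⁻¹ : SL(2, ℤ)) • i := rfl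

theorem conjX_rot (i : (conjX M).I) (g : (conjX M).G) :
    (conjX M).E (permT M i) g = helper94.rot (zetaU M) ((conjX M).E i g) :=
  EI_T_inv_smul M i g

theorem card_orbits_permT :
    Nat.card (MulAction.orbitRel.Quotient (Subgroup.zpowers (permT M)) (IX M)) =
      cuspCount M := by
  have h := Fermat.Agent.S24.helper80.card_orbits_of_eq_toPerm (X := IX M)
    (permT M) (ModularGroup.T : SL(2, ℤ)) (Or.inr (by
      ext i
      rfl))
  exact h.trans (Fermat.Agent.S24.helper83.card_orbits_T M)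

variable {M A}

/-- **the reduced coset embeddings** of the special fibre field of level `M` -/
def sigmaA {ℓ : ℕ} (hℓ : ℓ.Prime) (hA : A.LiesOverPrime ℓ) (hM : ¬ ℓ ∣ M) (i : IX M) :
    ↥(FFb A M) →+* LaurentSeries (kA A) :=
  sigma (conjX M) (SA A) (rA A) (zetaC_mem_SA A M) (natCast_inv_mem_SA A hℓ hA M hM)
    (rA_surjective A) i

open WithZero in
/-- **the cusp dictionary in characteristic `ℓ`**: the places over `j̄ = ∞` of the special fibre
field of level `M` are induced by the reduced coset expansions; the fibres of `i ↦ W i` are the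
orbits of `T`, and the ramification index of `W i` over `j̄ = ∞` is the size of the orbit. -/
theorem cusp_dictionary_A {ℓ : ℕ} (hℓ : ℓ.Prime) (hA : A.LiesOverPrime ℓ) (hM : ¬ ℓ ∣ M) :
    ∃ (W : IX M → Place (kA A) ↥(FFb A M)) (d : IX M → ℕ),
      (∀ i, (W i).ord (helper29.jBar A M) < 0) ∧
      (∀ w : Place (kA A) ↥(FFb A M), w.ord (helper29.jBar A M) < 0 → ∃ i, W i = w) ∧
      (∀ i j, W i = W j ↔ j ∈ MulAction.orbit (Subgroup.zpowers (permT M)) i) ∧
      (∀ i, (W i).ord (helper29.jBar A M) =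
        -(Nat.card (MulAction.orbit (Subgroup.zpowers (permT M)) i) : ℤ)) ∧
      (∀ i, d i * Nat.card (MulAction.orbit (Subgroup.zpowers (permT M)) i) = M) ∧
      (∀ i (f : ↥(FFb A M)), f ≠ 0 →
        (Valued.v (sigmaA hℓ hA hM i f) : ℤᵐ⁰) = exp (-((d i : ℤ) * (W i).ord f))) ∧
      (∀ i, (W i).toValuationSubring =
        ((Valued.v : Valuation (LaurentSeries (kA A)) ℤᵐ⁰).comap
          (sigmaA hℓ hA hM i)).valuationSubring) ∧
      Nat.card {w : Place (kA A) ↥(FFb A M) // w.ord (helper29.jBar A M) < 0} = cuspCount M := by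
  obtain ⟨W, d, h1, h2, h3, h4, h5, h6, h7, h8⟩ :=
    cusp_dictionary (conjX M) (SA A) (rA A) (zetaC_mem_SA A M)
      (natCast_inv_mem_SA A hℓ hA M hM) (rA_surjective A) (permT M) (zetaU M) rfl (conjX_rot M)
  have hord : ∀ w : Place (kA A) ↥(FFb A M),
      w.ord (tb (kA A) M) = -w.ord (helper29.jBar A M) := fun w => by
    rw [tb, Place.ord_inv]
    rfl
  refine ⟨W, d, ?_, ?_, h3, ?_, h5, h6, h7, ?_⟩
  · intro i
    have := h1 i
    rw [hord] at this
    omega
  · intro w hw
    apply h2
    rw [hord]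
    omega
  · intro i
    have := h4 i
    rw [hord] at this
    exact neg_eq_iff_eq_neg.mp this
  · refine (Nat.card_congr ?_).trans (h8.trans (card_orbits_permT M))
    refine Equiv.subtypeEquivRight fun w => ?_
    rw [hord]
    omega

/-- **[CUSP-BAR]** of the P2 interface, for every level `M` and every `A` over a prime not
dividing `M`. -/
theorem cuspBarStatement (h : helper29.PrimeToLevel M A) : helper29.CuspBarStatement M A := by
  obtain ⟨ℓ, hℓ, hM, hA⟩ := h
  obtain ⟨W, d, h1, h2, -, -, -, -, -, h8⟩ := cusp_dictionary_A hℓ hA hM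
  classical
  have hsurj : Function.Surjective (fun i : IX M =>
      (⟨W i, h1 i⟩ : {w : Place (kA A) ↥(FFb A M) // w.ord (helper29.jBar A M) < 0})) := by
    rintro ⟨w, hw⟩
    obtain ⟨i, hi⟩ := h2 w hw
    exact ⟨i, Subtype.ext hi⟩
  have hfin : Finite {w : Place (kA A) ↥(FFb A M) // w.ord (helper29.jBar A M) < 0} :=
    Finite.of_surjective _ hsurj
  refine ⟨Finset.univ.image W, ?_, ?_⟩
  · intro Q hQ
    obtain ⟨i, rfl⟩ := h2 Q hQ
    exact Finset.mem_image_of_mem W (Finset.mem_univ i)
  · rw [← h8]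
    have hmem : ∀ w ∈ Finset.univ.image W, w.ord (helper29.jBar A M) < 0 := by
      intro w hw
      obtain ⟨i, -, rfl⟩ := Finset.mem_image.mp hw
      exact h1 i
    have hinj : Function.Injective (fun w : ↥(Finset.univ.image W) =>
        (⟨w.1, hmem w.1 w.2⟩ :
          {w : Place (kA A) ↥(FFb A M) // w.ord (helper29.jBar A M) < 0})) := by
      intro a b hab
      have h0 : (a : Place (kA A) ↥(FFb A M)) = b := congrArg (fun z => z.1) hab
      exact Subtype.ext h0
    have := Nat.card_le_card_of_injective _ hinj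
    rwa [Nat.card_eq_fintype_card, Fintype.card_coe] at this

end Main

end Fermat.Agent.P2.helper28
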