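/-
P2-[CUSP-l] (helper28), part C0: the abstract local counting theorem of S24 (helper43) without
any hypothesis on the characteristic, in a strengthened form (explicit places, ramification
indices, normalisation of the valuations).
-/
import Mathlib
import Fermat.Agent.S24.helper43_LocalCount

set_option autoImplicit false

namespace Fermat.Agent.P2.helper28

open AlgebraicCurve IntermediateField WithZero Polynomial
open Fermat.Agent.S24.helper43

/-! ### Separability from the number of embeddings -/

section Sep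

variable {K₀ F L : Type*} [Field K₀] [Field F] [Field L] [Algebra K₀ F]
  [FiniteDimensional K₀ F]

/-- If there are `[F : K₀]` pairwise distinct embeddings of `F` into a field `L`, all restricting
to the same `φ` on `K₀`, then `F / K₀` is separable. -/
theorem isSeparable_of_card_eq {I : Type*} [Fintype I] (σ : I → F →+* L)
    (hσ : Function.Injective σ) (hcard : Fintype.card I = Module.finrank K₀ F)
    (φ : K₀ →+* L) (hφ : ∀ i, (σ i).comp (algebraMap K₀ F) = φ) :
    Algebra.IsSeparable K₀ F := by
  classical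
  let _ : Algebra K₀ L := φ.toAlgebra
  let Ω := AlgebraicClosure L
  let τ : I → (F →ₐ[K₀] L) := fun i =>
    { σ i with
      commutes' := fun x => by
        have := congrArg (fun g : K₀ →+* L => g x) (hφ i)
        exact this }
  let τ' : I → (F →ₐ[K₀] Ω) := fun i => (IsScalarTower.toAlgHom K₀ L Ω).comp (τ i)
  have hτ' : ∀ i x, τ' i x = algebraMap L Ω (σ i x) := fun i x => rfl
  have hinj : Function.Injective τ' := by
    intro i j hij
    apply hσ
    ext x
    have := congrArg (fun g : F →ₐ[K₀] Ω => g x) hij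
    simp only [hτ'] at this
    exact (algebraMap L Ω).injective this
  have h1 : Fintype.card I ≤ Nat.card (F →ₐ[K₀] Ω) := by
    rw [← Nat.card_eq_fintype_card]
    exact Nat.card_le_card_of_injective τ' hinj
  have h2 : Field.finSepDegree K₀ F = Nat.card (F →ₐ[K₀] Ω) :=
    Field.finSepDegree_eq_of_isAlgClosed K₀ F Ω
  have h3 : Field.finSepDegree K₀ F ≤ Module.finrank K₀ F := Field.finSepDegree_le_finrank K₀ F
  rw [← Field.finSepDegree_eq_finrank_iff]
  omega

end Sep

/-! ### The key step, without `CharZero` -/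

section Surj

variable {K F : Type*} [Field K] [Field F] [Algebra K F]

/-- Key step: a place `w` over `t = 0` cannot contain in its maximal ideal an element `f` all of
whose conjugates `σ i f` are `V`-units.  (Copy of `helper43.false_of_val_eq_one` without the
characteristic hypothesis.) -/
theorem false_of_val_eq_one_sep {L : Type*} [Field L] (t : F) [FiniteDimensional K⟮t⟯ F]
    (V : Valuation L ℤᵐ⁰) {I : Type*} [Fintype I] (σ : I → F →+* L)
    (hσ : Function.Injective σ) (hcard : Fintype.card I = Module.finrank K⟮t⟯ F)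
    (hK : ∀ i (c : K), c ≠ 0 → V (σ i (algebraMap K F c)) = 1)
    (hKagree : ∀ i j (c : K), σ i (algebraMap K F c) = σ j (algebraMap K F c))
    (htagree : ∀ i j, σ i t = σ j t)
    (htV : ∀ i, V (σ i t) < 1) (ht0 : t ≠ 0)
    (w : Place K F) (hw : 0 < w.ord t) (f : F) (hf : 0 < w.ord f)
    (hVf : ∀ i, V (σ i f) = 1) : False := by
  classical
  have hn : 0 < Module.finrank K⟮t⟯ F := Module.finrank_pos
  have hI : Nonempty I := by
    rw [← Fintype.card_pos_iff, hcard]
    exact hn
  obtain ⟨i₀⟩ := hI
  set φ : K⟮t⟯ →+* L := (σ i₀).comp (algebraMap K⟮t⟯ F) with hφdef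
  have hφ : ∀ i, (σ i).comp (algebraMap K⟮t⟯ F) = φ := fun i =>
    comp_algebraMap_adjoin_eq (hKagree i i₀) (htagree i i₀)
  have : Algebra.IsSeparable K⟮t⟯ F := isSeparable_of_card_eq σ hσ hcard φ hφ
  obtain ⟨hsplit, hroots⟩ := splits_minpoly_of_card_eq σ hσ hcard φ hφ f
  set P := minpoly K⟮t⟯ f with hP
  have hPmonic : P.Monic := minpoly.monic (Algebra.IsIntegral.isIntegral f)
  have hQmonic : (P.map φ).Monic := hPmonic.map φ
  -- all roots are `V`-units
  have hrootV : ∀ r ∈ (P.map φ).roots, V r = 1 := by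
    intro r hr
    obtain ⟨i, rfl⟩ := hroots r hr
    exact hVf i
  -- (a) the coefficients are `V`-integral
  have hcoeff_le : ∀ j, V ((P.map φ).coeff j) ≤ 1 := by
    have hmem : P.map φ ∈ Polynomial.lifts V.valuationSubring.subtype := by
      apply hsplit.mem_lift_of_roots_mem_range hQmonic
      intro a ha
      exact ⟨⟨a, (Valuation.mem_valuationSubring_iff V a).mpr (hrootV a ha).le⟩, rfl⟩
    intro j
    obtain ⟨x, hx⟩ := (lifts_iff_coeff_lifts _).mp hmem j
    rw [← hx]
    exact (Valuation.mem_valuationSubring_iff V _).mp x.2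
  -- (b) the constant coefficient is a `V`-unit
  have hcoeff_zero : V ((P.map φ).coeff 0) = 1 := by
    rw [hsplit.coeff_zero_eq_prod_roots_of_monic hQmonic, map_mul, map_pow, Valuation.map_neg,
      map_one, one_pow, one_mul, map_multiset_prod]
    apply Multiset.prod_eq_one
    intro x hx
    obtain ⟨r, hr, rfl⟩ := Multiset.mem_map.mp hx
    exact hrootV r hr
  -- the valuation of `w`
  set vw := w.adicValuation with hvw
  have hvwK : ∀ c : K, c ≠ 0 → vw (algebraMap K F c) = 1 := fun c hc =>
    adicValuation_algebraMap w hc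
  have hvwt : vw t < 1 := adicValuation_lt_one_of_ord_pos w hw
  have hvwf : vw f < 1 := adicValuation_lt_one_of_ord_pos w hf
  -- the valuation `V ∘ σ i₀`
  set v₀ : Valuation F ℤᵐ⁰ := V.comap (σ i₀) with hv₀
  have hv₀K : ∀ c : K, c ≠ 0 → v₀ (algebraMap K F c) = 1 := fun c hc => hK i₀ c hc
  have hv₀t : v₀ t < 1 := htV i₀
  have hv₀t0 : v₀ t ≠ 0 := (Valuation.ne_zero_iff v₀).mpr ht0
  have hvwt0 : vw t ≠ 0 := (Valuation.ne_zero_iff vw).mpr ht0
  -- (c),(d) transfer to `w`
  have hw_le : ∀ j, vw ((P.coeff j : K⟮t⟯) : F) ≤ 1 := by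
    intro j
    by_cases h0 : ((P.coeff j : K⟮t⟯) : F) = 0
    · rw [h0, map_zero]
      exact zero_le_one
    · obtain ⟨k, hk⟩ := exists_zpow_of_mem_adjoin (K := K) ht0 (P.coeff j).2 h0
      have h1 : v₀ ((P.coeff j : K⟮t⟯) : F) ≤ 1 := by
        have := hcoeff_le j
        rw [coeff_map] at this
        exact this
      rw [hk v₀ hv₀K hv₀t, zpow_le_one_iff_of_lt_one hv₀t0 hv₀t] at h1
      rw [hk vw hvwK hvwt, zpow_le_one_iff_of_lt_one hvwt0 hvwt]
      exact h1
  have hw_zero : vw ((P.coeff 0 : K⟮t⟯) : F) = 1 := by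
    have h0 : ((P.coeff 0 : K⟮t⟯) : F) ≠ 0 := by
      intro h0
      have := hcoeff_zero
      rw [coeff_map] at this
      have h0' : P.coeff 0 = 0 := by
        apply Subtype.ext
        exact h0
      rw [h0', map_zero, map_zero] at this
      exact zero_ne_one this
    obtain ⟨k, hk⟩ := exists_zpow_of_mem_adjoin (K := K) ht0 (P.coeff 0).2 h0
    have h1 : v₀ ((P.coeff 0 : K⟮t⟯) : F) = 1 := by
      have := hcoeff_zero
      rw [coeff_map] at this
      exact this
    rw [hk v₀ hv₀K hv₀t, zpow_eq_one_iff_of_lt_one hv₀t0 hv₀t] at h1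
    rw [hk vw hvwK hvwt, h1, zpow_zero]
  -- (e) the integral equation
  have haeval : aeval f P = 0 := minpoly.aeval K⟮t⟯ f
  rw [aeval_eq_sum_range, Finset.sum_range_succ'] at haeval
  simp only [pow_zero, Algebra.smul_def, mul_one] at haeval
  have hsumlt : vw (∑ j ∈ Finset.range P.natDegree,
      algebraMap K⟮t⟯ F (P.coeff (j + 1)) * f ^ (j + 1)) < 1 := by
    apply Valuation.map_sum_lt vw one_ne_zero
    intro j _
    rw [map_mul, map_pow]
    calc vw (algebraMap K⟮t⟯ F (P.coeff (j + 1))) * vw f ^ (j + 1)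
        ≤ 1 * vw f ^ (j + 1) := by
          gcongr
          exact hw_le (j + 1)
      _ = vw f ^ (j + 1) := one_mul _
      _ < 1 := pow_lt_one₀ zero_le hvwf (Nat.succ_ne_zero j)
  have hEq : algebraMap K⟮t⟯ F (P.coeff 0) = -(∑ j ∈ Finset.range P.natDegree,
      algebraMap K⟮t⟯ F (P.coeff (j + 1)) * f ^ (j + 1)) := by
    rw [eq_neg_iff_add_eq_zero, add_comm]
    exact haeval
  have : vw (algebraMap K⟮t⟯ F (P.coeff 0)) < 1 := by
    rw [hEq, Valuation.map_neg]
    exact hsumlt
  have h1 : vw (algebraMap K⟮t⟯ F (P.coeff 0)) = 1 := hw_zero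
  rw [h1] at this
  exact lt_irrefl _ this

end Surj

/-! ### The strengthened local counting theorem -/

section Main

variable {K F : Type*} [Field K] [Field F] [Algebra K F]

/-- **Abstract local counting, strong form, any characteristic.**
Given `#I = [F : K(t)]` pairwise distinct embeddings `σ i` of `F` into a valued field `(L, V)`,
agreeing on `K(t)`, with `V (σ i t) = exp (-E)`, and a permutation `π` of `I` of order dividing
`E` preserving the valuations, such that the value group of `V ∘ σ i` is contained in `k ℤ`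
whenever `π ^ (E / k)` fixes `i`: there is a map `W : I → Place K F` such that
* the `W i` are exactly the places over `t = 0`;
* `W i = W j` iff `i` and `j` are in the same `π`-orbit;
* `ord_{W i} t` is the size of the orbit of `i`;
* `V (σ i f) = exp (- d i * ord_{W i} f)` with `d i * |orbit i| = E`;
* the valuation ring of `W i` is that of `V ∘ σ i`. -/
theorem local_count_sep {L : Type*} [Field L]
    (t : F) [FiniteDimensional K⟮t⟯ F]
    (hfin : {w : Place K F | 0 < w.ord t}.Finite)
    (hsum : ∑ w ∈ hfin.toFinset, w.ord t = (Module.finrank K⟮t⟯ F : ℤ))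
    (hsep : ∀ (w : Place K F) (s : Finset (Place K F)), w ∉ s →
      ∃ f : F, 0 < w.ord f ∧ ∀ v ∈ s, v.ord f = 0)
    (V : Valuation L ℤᵐ⁰)
    {I : Type*} [Fintype I] (σ : I → F →+* L) (hσ : Function.Injective σ)
    (hcard : Fintype.card I = Module.finrank K⟮t⟯ F)
    (hK : ∀ i (c : K), c ≠ 0 → V (σ i (algebraMap K F c)) = 1)
    (hKagree : ∀ i j (c : K), σ i (algebraMap K F c) = σ j (algebraMap K F c))
    (htagree : ∀ i j, σ i t = σ j t)
    (E : ℕ) (hE : 0 < E) (htE : ∀ i, V (σ i t) = exp (-(E : ℤ)))
    (π : Equiv.Perm I) (hπE : π ^ E = 1)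
    (hπ : ∀ i f, V (σ (π i) f) = V (σ i f))
    (hdiv : ∀ (i : I) (k : ℕ), k ∣ E → (π ^ (E / k)) i = i →
      ∀ f : F, f ≠ 0 → ∃ m : ℤ, V (σ i f) = exp (m * k)) :
    ∃ (W : I → Place K F) (d : I → ℕ),
      (∀ i, 0 < (W i).ord t) ∧
      (∀ w : Place K F, 0 < w.ord t → ∃ i, W i = w) ∧
      (∀ i j, W i = W j ↔ j ∈ MulAction.orbit (Subgroup.zpowers π) i) ∧
      (∀ i, (W i).ord t = (Nat.card (MulAction.orbit (Subgroup.zpowers π) i) : ℤ)) ∧
      (∀ i, d i * Nat.card (MulAction.orbit (Subgroup.zpowers π) i) = E) ∧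
      (∀ i (f : F), f ≠ 0 → V (σ i f) = exp (-((d i : ℤ) * (W i).ord f))) ∧
      (∀ i, (W i).toValuationSubring = (V.comap (σ i)).valuationSubring) ∧
      Nat.card {w : Place K F // 0 < w.ord t}
        = Nat.card (MulAction.orbitRel.Quotient (Subgroup.zpowers π) I) := by
  classical
  have hn : 0 < Module.finrank K⟮t⟯ F := Module.finrank_pos
  have hI : Nonempty I := by
    rw [← Fintype.card_pos_iff, hcard]
    exact hn
  have hVt_lt : ∀ i, V (σ i t) < 1 := fun i => by
    rw [htE, ← exp_zero, exp_lt_exp]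
    omega
  have ht0 : t ≠ 0 := by
    rintro rfl
    obtain ⟨i⟩ := hI
    have := htE i
    rw [map_zero, map_zero] at this
    exact exp_ne_zero this.symm
  let v : I → Valuation F ℤᵐ⁰ := fun i => V.comap (σ i)
  have hvK : ∀ i (c : K), c ≠ 0 → v i (algebraMap K F c) = 1 := hK
  have hnt : ∀ i, ∃ x : F, v i x ≠ 0 ∧ v i x ≠ 1 := fun i =>
    ⟨t, (Valuation.ne_zero_iff _).mpr ht0, (hVt_lt i).ne⟩
  let W : I → Place K F := fun i => placeOf (v i) (hvK i) (hnt i)
  have hex := fun i => exists_val_eq_exp_ord (v i) (hvK i) (hnt i)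
  choose d hd hdπ hdord using hex
  have hEd : ∀ i, (E : ℤ) = d i * (W i).ord t := by
    intro i
    have h1 := hdord i t ht0
    have h2 : v i t = exp (-(E : ℤ)) := htE i
    rw [h2, exp_inj] at h1
    linarith
  have hWpos : ∀ i, 0 < (W i).ord t := by
    intro i
    have h1 : 0 < d i * (W i).ord t := by
      rw [← hEd i]
      exact_mod_cast hE
    exact (mul_pos_iff_of_pos_left (hd i)).mp h1
  -- every place over `t = 0` is one of the `W i`
  have hsurj : ∀ w : Place K F, 0 < w.ord t → ∃ i, W i = w := by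
    intro w hw
    by_contra hne
    push Not at hne
    have hws : w ∉ Finset.univ.image W := by
      simp only [Finset.mem_image, Finset.mem_univ, true_and, not_exists]
      exact hne
    obtain ⟨f, hf, hfs⟩ := hsep w _ hws
    have hf0 : f ≠ 0 := by
      rintro rfl
      simp at hf
    refine false_of_val_eq_one_sep t V σ hσ hcard hK hKagree htagree hVt_lt ht0 w hw f hf ?_
    intro i
    have h1 := hdord i f hf0
    have h2 : (W i).ord f = 0 := hfs _ (Finset.mem_image_of_mem W (Finset.mem_univ i))
    rw [h2, mul_zero, neg_zero, exp_zero] at h1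
    exact h1
  -- invariance under `π`
  have hWπ : ∀ i, W (π i) = W i := by
    intro i
    apply Place.ext
    ext f
    change V (σ (π i) f) ≤ 1 ↔ V (σ i f) ≤ 1
    rw [hπ]
  have hWg : ∀ g ∈ Subgroup.zpowers π, ∀ i, W (g i) = W i := by
    let H : Subgroup (Equiv.Perm I) :=
      { carrier := {g | ∀ i, W (g i) = W i}
        mul_mem' := fun {a b} ha hb i => by
          rw [Equiv.Perm.mul_apply, ha, hb]
        one_mem' := fun i => rfl
        inv_mem' := fun {a} ha i => by
          have := ha (a⁻¹ i)
          have h' : a (a⁻¹ i) = i := by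
            change (a * a⁻¹) i = i
            rw [mul_inv_cancel]
            rfl
          rw [h'] at this
          exact this.symm }
    have hle : Subgroup.zpowers π ≤ H := Subgroup.zpowers_le.mpr hWπ
    exact fun g hg => hle hg
  -- the orbit bound
  have hbound : ∀ i, (W i).ord t ≤
      (Fintype.card (MulAction.orbit (Subgroup.zpowers π) i) : ℤ) := by
    intro i
    have hper : Function.IsPeriodicPt (fun x => π • x) E i := by
      rw [Function.IsPeriodicPt, Function.IsFixedPt, smul_iterate, hπE]
      exact one_smul _ i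
    have hmE : Function.minimalPeriod (fun x => π • x) i ∣ E := hper.minimalPeriod_dvd
    have hmpos : 0 < Function.minimalPeriod (fun x => π • x) i :=
      Function.minimalPeriod_pos_of_mem_periodicPts
        (Function.mk_mem_periodicPts hE hper)
    have hmfix : (π ^ Function.minimalPeriod (fun x => π • x) i) i = i := by
      have := Function.isPeriodicPt_minimalPeriod (fun x => π • x) i
      rw [Function.IsPeriodicPt, Function.IsFixedPt, smul_iterate] at this
      exact this
    rw [← MulAction.minimalPeriod_eq_card π i]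
    set m := Function.minimalPeriod (fun x => π • x) i with hm
    set k := E / m with hk
    have hkE : k ∣ E := Nat.div_dvd_of_dvd hmE
    have hEk : E / k = m := Nat.div_div_self hmE hE.ne'
    have hkm : k * m = E := Nat.div_mul_cancel hmE
    have hkpos : 0 < k := Nat.div_pos (Nat.le_of_dvd hE hmE) hmpos
    obtain ⟨ϖ, hϖ0, hϖ⟩ := hdπ i
    obtain ⟨z, hz⟩ := hdiv i k hkE (by rw [hEk]; exact hmfix) ϖ hϖ0
    have hz' : -(d i) = z * k := by
      have : v i ϖ = V (σ i ϖ) := rfl
      rw [this, hz, exp_inj] at hϖ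
      exact hϖ.symm
    have hkd : (k : ℤ) ≤ d i := by
      have hdvd : (k : ℤ) ∣ d i := ⟨-z, by linarith⟩
      exact Int.le_of_dvd (hd i) hdvd
    have h1 := hEd i
    have h2 := hWpos i
    have h3 : (k : ℤ) * (W i).ord t ≤ (k : ℤ) * m := by
      calc (k : ℤ) * (W i).ord t ≤ d i * (W i).ord t := by gcongr
        _ = E := (hEd i).symm
        _ = (k : ℤ) * m := by exact_mod_cast hkm.symm
    exact le_of_mul_le_mul_left h3 (by exact_mod_cast hkpos)
  -- the counting
  let _ : Fintype {w : Place K F // 0 < w.ord t} := hfin.fintype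
  let Q := MulAction.orbitRel.Quotient (Subgroup.zpowers π) I
  let Wbar : Q → {w : Place K F // 0 < w.ord t} :=
    Quotient.lift (fun i => (⟨W i, hWpos i⟩ : {w : Place K F // 0 < w.ord t}))
      (fun a b hab => by
        apply Subtype.ext
        change W a = W b
        obtain ⟨g, rfl⟩ := hab
        exact hWg g.1 g.2 b)
  have hWbar_mk : ∀ i, Wbar (Quotient.mk'' i) = ⟨W i, hWpos i⟩ := fun i => rfl
  have hWbar_surj : Function.Surjective Wbar := by
    rintro ⟨w, hw⟩
    obtain ⟨i, rfl⟩ := hsurj w hw
    exact ⟨Quotient.mk'' i, rfl⟩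
  let g : Q → ℕ := fun o => Fintype.card o.orbit
  let h : {w : Place K F // 0 < w.ord t} → ℕ := fun w => (w.1.ord t).toNat
  have hgpos : ∀ o, 0 < g o := by
    intro o
    induction o using Quotient.inductionOn' with
    | h i =>
      apply Fintype.card_pos_iff.mpr
      exact ⟨⟨i, MulAction.orbitRel.Quotient.mem_orbit.mpr rfl⟩⟩
  have hgmk : ∀ i, g (Quotient.mk'' i : Q) =
      Fintype.card (MulAction.orbit (Subgroup.zpowers π) i) := by
    intro i
    change Fintype.card (MulAction.orbitRel.Quotient.orbit (Quotient.mk'' i : Q)) = _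
    apply Fintype.card_congr
    rw [MulAction.orbitRel.Quotient.orbit_mk]
  have hle : ∀ o, h (Wbar o) ≤ g o := by
    intro o
    induction o using Quotient.inductionOn' with
    | h i =>
      have h1 := hbound i
      change ((W i).ord t).toNat ≤ g (Quotient.mk'' i : Q)
      rw [hgmk]
      omega
  have hsumg : ∑ o, g o = Fintype.card I := by
    rw [Fintype.card_congr (MulAction.selfEquivSigmaOrbits' (Subgroup.zpowers π) I),
      Fintype.card_sigma]
  have hsumh : ∑ w, h w = Fintype.card I := by
    have h1 : ∑ w ∈ hfin.toFinset, w.ord t =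
        ∑ w : {w : Place K F // 0 < w.ord t}, w.1.ord t := by
      apply Finset.sum_subtype
      intro x
      simp
    have h2 : ((∑ w, h w : ℕ) : ℤ) = ∑ w : {w : Place K F // 0 < w.ord t}, w.1.ord t := by
      push_cast
      apply Finset.sum_congr rfl
      intro w _
      exact Int.toNat_of_nonneg w.2.le
    have h3 : ((∑ w, h w : ℕ) : ℤ) = (Fintype.card I : ℤ) := by
      rw [h2, ← h1, hsum, hcard]
    exact_mod_cast h3
  have hbij := bijective_of_sum_eq Wbar hWbar_surj g h hgpos hle (hsumg.trans hsumh.symm)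
  -- pointwise equality `h (Wbar o) = g o`
  have hsumhW : ∑ o, h (Wbar o) = ∑ o, g o := by
    rw [hsumg, ← hsumh]
    exact Fintype.sum_bijective Wbar hbij _ _ (fun _ => rfl)
  have heq : ∀ o, h (Wbar o) = g o := by
    intro o
    by_contra hne
    have hlt : h (Wbar o) < g o := lt_of_le_of_ne (hle o) hne
    have : ∑ o, h (Wbar o) < ∑ o, g o :=
      Finset.sum_lt_sum (fun o _ => hle o) ⟨o, Finset.mem_univ o, hlt⟩
    omega
  have hord : ∀ i, (W i).ord t = (Nat.card (MulAction.orbit (Subgroup.zpowers π) i) : ℤ) := by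
    intro i
    have h1 := heq (Quotient.mk'' i)
    rw [hgmk] at h1
    change ((W i).ord t).toNat = _ at h1
    rw [Nat.card_eq_fintype_card, ← h1]
    exact (Int.toNat_of_nonneg (hWpos i).le).symm
  refine ⟨W, fun i => (d i).toNat, hWpos, hsurj, ?_, hord, ?_, ?_, fun i => rfl, ?_⟩
  · intro i j
    constructor
    · intro hij
      have h1 : Wbar (Quotient.mk'' i) = Wbar (Quotient.mk'' j) := by
        rw [hWbar_mk, hWbar_mk]
        exact Subtype.ext hij
      have h2 := hbij.1 h1
      have h3 : (MulAction.orbitRel (Subgroup.zpowers π) I) i j := Quotient.exact' h2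
      rw [MulAction.orbitRel_apply] at h3
      rw [MulAction.orbit_eq_iff.mpr h3]
      exact MulAction.mem_orbit_self j
    · intro hj
      obtain ⟨g', rfl⟩ := hj
      exact (hWg g'.1 g'.2 i).symm
  · intro i
    have h1 := hEd i
    rw [hord i] at h1
    have h2 : ((d i).toNat : ℤ) = d i := Int.toNat_of_nonneg (hd i).le
    have h3 : (((d i).toNat * Nat.card (MulAction.orbit (Subgroup.zpowers π) i) : ℕ) : ℤ)
        = (E : ℤ) := by
      push_cast
      rw [h2, h1]
    exact_mod_cast h3
  · intro i f hf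
    have h2 : ((d i).toNat : ℤ) = d i := Int.toNat_of_nonneg (hd i).le
    rw [h2]
    exact hdord i f hf
  · exact (Nat.card_eq_of_bijective Wbar hbij).symm

end Main

end Fermat.Agent.P2.helper28
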