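/-
P2-[CUSP-l] (helper28), part C2: the reduced coset embeddings
`σ_i : F̃ = modularFunctionFieldFullC k N →+* k((s))` (`s = q^{1/N}`).
-/
import Mathlib
import Fermat.Agent.S28.AnalyticConj
import Fermat.Agent.S28.helper93_Reduce
import Fermat.Agent.S28.helper81_Reduce
import Fermat.Agent.S28.helper56_Descent
import Fermat.Agent.S28.helper72_Lagrange
import Fermat.Agent.S24.helper24_FieldGen
import Fermat.Agent.P2.helper94_ESFormal

set_option autoImplicit false

noncomputable section

namespace Fermat.Agent.P2.helper28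

open Polynomial ModularCurve Finset
open Fermat.Agent.S28

/-! ### Uniform Lagrange interpolation -/

section Lagrange

variable {A L : Type*} [CommRing A] [Field L] (φ : A →+* L)
variable {I : Type*} [Fintype I] [DecidableEq I]

open Fermat.Agent.S28.helper72 in
/-- Lagrange interpolation for conjugate tuples with ONE polynomial `R` for all conjugates. -/
theorem lagrange_unif [Nonempty I] {G : Type*} [CommRing G] (E : I → G →+* L)
    (htr : ∀ h : G, ∃ a : A, φ a = ∑ i, E i h)
    (Θ g : G) (P : A[X]) (hP : (∏ i, (X - C (E i Θ))) = P.map φ) :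
    ∃ R : A[X], R.natDegree < Fintype.card I ∧
      ∀ i₀, E i₀ g * eval₂ φ (E i₀ Θ) (derivative P) = eval₂ φ (E i₀ Θ) R := by
  classical
  set n := Fintype.card I with hn
  have hnpos : 0 < n := Fintype.card_pos
  set PL : L[X] := ∏ i, (X - C (E i Θ)) with hPL
  have hdeg : PL.natDegree < n + 1 := by
    have : PL.natDegree = n := by
      rw [hPL, natDegree_prod_of_monic _ _ (fun i _ => monic_X_sub_C _)]
      simp [hn]
    omega
  have hcoeff : ∀ l, PL.coeff l = φ (P.coeff l) := by
    intro l; rw [hP, coeff_map]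
  have hroot : ∀ i, PL.eval (E i Θ) = 0 := by
    intro i
    rw [hPL, eval_prod]
    exact Finset.prod_eq_zero (Finset.mem_univ i) (by simp)
  -- traces
  choose t ht using fun j : ℕ => htr (g * Θ ^ j)
  have ht' : ∀ j, φ (t j) = ∑ i, E i g * E i Θ ^ j := by
    intro j; rw [ht j]; simp
  -- the interpolating polynomial
  set R : A[X] := ∑ l ∈ range (n + 1), ∑ m ∈ range l, C (P.coeff l * t (l - 1 - m)) * X ^ m
    with hR
  refine ⟨R, ?_, ?_⟩
  · have hle : R.natDegree ≤ n - 1 := by
      rw [hR]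
      refine natDegree_sum_le_of_forall_le _ _ fun l hl => ?_
      refine natDegree_sum_le_of_forall_le _ _ fun m hm => ?_
      refine (natDegree_C_mul_X_pow_le _ _).trans ?_
      have := Finset.mem_range.mp hl
      have := Finset.mem_range.mp hm
      omega
    omega
  · intro i₀
    have hRev : eval₂ φ (E i₀ Θ) R = ∑ i, E i g * divDiff PL.coeff n (E i Θ) (E i₀ Θ) := by
      rw [hR, eval₂_finsetSum]
      simp_rw [eval₂_finsetSum, eval₂_mul, eval₂_C, eval₂_pow, eval₂_X, map_mul, ht', divDiff,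
        Finset.mul_sum, Finset.sum_mul, hcoeff]
      conv_rhs => rw [Finset.sum_comm]
      refine Finset.sum_congr rfl fun l _ => ?_
      conv_rhs => rw [Finset.sum_comm]
      refine Finset.sum_congr rfl fun m _ => ?_
      refine Finset.sum_congr rfl fun i _ => ?_
      ring
    have hD : ∀ i, E i g * divDiff PL.coeff n (E i Θ) (E i₀ Θ) =
        if i = i₀ then E i₀ g * PL.derivative.eval (E i₀ Θ) else 0 := by
      intro i
      by_cases hi : i = i₀
      · subst hi
        rw [if_pos rfl, divDiff_self PL n hdeg]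
      · rw [if_neg hi]
        by_cases hθ : E i Θ = E i₀ Θ
        · rw [hθ, divDiff_self PL n hdeg, hPL, eval_derivative_prod_eq_zero (fun j => E j Θ) hi hθ,
            mul_zero]
        · have h1 := divDiff_mul PL n hdeg (E i Θ) (E i₀ Θ)
          rw [hroot, hroot, sub_zero] at h1
          have h2 : E i₀ Θ - E i Θ ≠ 0 := sub_ne_zero.mpr (Ne.symm hθ)
          rw [(mul_eq_zero.mp h1).resolve_right h2, mul_zero]
    rw [hRev, Finset.sum_congr rfl fun i _ => hD i, Finset.sum_ite_eq' Finset.univ i₀,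
      if_pos (Finset.mem_univ _)]
    congr 1
    rw [hP, derivative_map, eval_map]

end Lagrange

/-! ### Tools on `coeffMap` -/

section Tools

variable {R₁ R₂ : Type*} [CommRing R₁] [CommRing R₂]

/-- `coeffMap` commutes with the evaluation of two-variable polynomials -/
theorem coeffMap_eval₂_aeval (f : R₁ →+* R₂) (x₀ θ : LaurentSeries R₁)
    (Q : Polynomial (Polynomial R₁)) :
    coeffMap f (eval₂ ((aeval x₀ : R₁[X] →ₐ[R₁] LaurentSeries R₁) : R₁[X] →+* LaurentSeries R₁)
        θ Q) =
      eval₂ ((aeval (coeffMap f x₀) : R₂[X] →ₐ[R₂] LaurentSeries R₂) :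
        R₂[X] →+* LaurentSeries R₂) (coeffMap f θ) (Q.map (mapRingHom f)) := by
  rw [Polynomial.hom_eval₂, helper93.coeffMap_comp_aeval, eval₂_map]

/-- `coeffMap` commutes with rotations -/
theorem coeffMap_rot (f : R₁ →+* R₂) (u : R₁ˣ) (x : LaurentSeries R₁) :
    coeffMap f (helper94.rot u x) = helper94.rot (Units.map (f : R₁ →* R₂) u) (coeffMap f x) := by
  ext n
  rw [coeffMap_coeff, helper94.rot_coeff, helper94.rot_coeff, coeffMap_coeff, map_mul]
  congr 1
  rw [← map_zpow]
  rfl

/-- the order of `j(s^N)` is negative -/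
theorem order_xk_neg (k : Type*) [Field k] (N : ℕ) [NeZero N] :
    (qExpand k N (jqModC k)).order < 0 := by
  have hc : (qExpand k N (jqModC k)).coeff ((N : ℤ) * (-1)) ≠ 0 := by
    rw [qExpand_coeff_mul, coeff_jqModC_neg_one]
    exact one_ne_zero
  have h := HahnSeries.order_le_of_coeff_ne_zero hc
  have hNpos : (0 : ℤ) < N := by exact_mod_cast Nat.pos_of_ne_zero (NeZero.ne N)
  omega

end Tools

/-! ### Roots of unity in the coefficient ring -/

section Zeta

variable {N : ℕ} [NeZero N] (S : Subring ℂ) {k : Type} [Field k] (r : S →+* k)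

/-- `N` is nonzero in the residue field -/
theorem natCast_ne_zero_residue (hN : (N : ℂ)⁻¹ ∈ S) : r (N : S) ≠ 0 := by
  have hN0 : (N : ℂ) ≠ 0 := Nat.cast_ne_zero.mpr (NeZero.ne N)
  intro h
  have h2 : (N : S) * ⟨(N : ℂ)⁻¹, hN⟩ = 1 := by
    apply Subtype.ext
    push_cast
    exact mul_inv_cancel₀ hN0
  have h3 := congrArg r h2
  rw [map_mul, h, zero_mul, map_one] at h3
  exact zero_ne_one h3

/-- `ζ_N` as an element of `S` -/
def zetaS (hζ : helper81.zetaC N ∈ S) : S := ⟨helper81.zetaC N, hζ⟩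

theorem zetaS_pow (hζ : helper81.zetaC N ∈ S) : (zetaS S hζ) ^ N = 1 :=
  Subtype.ext (by
    push_cast
    exact helper81.zetaC_pow N)

theorem r_zeta_pow_ne_zero (hζ : helper81.zetaC N ∈ S) (m : ℕ) : r ((zetaS S hζ) ^ m) ≠ 0 := by
  intro h
  have h1 : (r ((zetaS S hζ) ^ m)) ^ N = 1 := by
    rw [← map_pow, ← pow_mul, mul_comm, pow_mul, zetaS_pow, one_pow, map_one]
  rw [h, zero_pow (NeZero.ne N)] at h1
  exact zero_ne_one h1

end Zeta

/-! ### Reduction of conjugate data -/

section Red

variable {N : ℕ} [NeZero N] (D : helper81.ConjData N) (S : Subring ℂ)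
  {k : Type} [Field k] (r : S →+* k)

/-- the ring of functions all of whose expansions are `S`-integral -/
abbrev GSr : Subring D.G := helper93.GS D.E S

/-- the reduced expansions -/
abbrev Eb (i : D.I) : GSr D S →+* LaurentSeries k := helper93.Ebar D.E S r i

theorem coeffMap_subtype_inj : Function.Injective (coeffMap S.subtype) :=
  helper93.coeffMap_injective' _ Subtype.val_injective

theorem ES_eq_of (i : D.I) (g : GSr D S) (y : LaurentSeries S)
    (h : coeffMap S.subtype y = D.E i (g : D.G)) : helper93.ES D.E S i g = y := by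
  apply coeffMap_subtype_inj S
  rw [helper93.coeffMap_ES, h]

theorem Eb_eq_of (i : D.I) (g : GSr D S) (y : LaurentSeries S)
    (h : coeffMap S.subtype y = D.E i (g : D.G)) : Eb D S r i g = coeffMap r y := by
  show coeffMap r (helper93.ES D.E S i g) = _
  rw [ES_eq_of D S i g y h]

theorem const_mem (c : S) : algebraMap ℂ D.G (c : ℂ) ∈ GSr D S := by
  rw [helper93.mem_GS_iff]
  intro i n
  rw [AlgHom.commutes, helper93.algebraMap_laurent_eq_C, HahnSeries.C_apply,
    HahnSeries.coeff_single]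
  split_ifs
  · exact c.2
  · exact S.zero_mem

/-- constants -/
def constGS : S →+* GSr D S where
  toFun c := ⟨algebraMap ℂ D.G (c : ℂ), const_mem D S c⟩
  map_one' := Subtype.ext (by simp)
  map_mul' a b := Subtype.ext (by simp)
  map_zero' := Subtype.ext (by simp)
  map_add' a b := Subtype.ext (by simp)

theorem Eb_constGS (i : D.I) (c : S) : Eb D S r i (constGS D S c) = HahnSeries.C (r c) := by
  rw [Eb_eq_of D S r i (constGS D S c) (HahnSeries.C c), helper93.coeffMap_C']
  rw [helper93.coeffMap_C']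
  show _ = D.E i (algebraMap ℂ D.G (c : ℂ))
  rw [AlgHom.commutes, helper93.algebraMap_laurent_eq_C]
  rfl

variable (hζ : helper81.zetaC N ∈ S) (hN : (N : ℂ)⁻¹ ∈ S)

include hζ hN

theorem J_mem : D.J ∈ GSr D S :=
  (helper93.mem_GS_iff D.E S _).mpr fun i n => (D.hS S hζ hN i n).1

theorem Jd_mem {d : ℕ} (hd : d ∣ N) : D.Jd d ∈ GSr D S :=
  (helper93.mem_GS_iff D.E S _).mpr fun i n => ((D.hS S hζ hN i n).2 d hd).1

/-- `j` as an element of `GS` -/
def JS : GSr D S := ⟨D.J, J_mem D S hζ hN⟩

/-- `j(dτ)` as an element of `GS` -/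
def JdS (d : N.divisors) : GSr D S := ⟨D.Jd d.1, Jd_mem D S hζ hN (Nat.dvd_of_mem_divisors d.2)⟩

/-- `Θ = j(Nτ)` as an element of `GS` -/
def ThS : GSr D S := ⟨D.Jd N, Jd_mem D S hζ hN dvd_rfl⟩

theorem Eb_JS (i : D.I) : Eb D S r i (JS D S hζ hN) = qExpand k N (jqModC k) := by
  rw [Eb_eq_of D S r i (JS D S hζ hN) (qExpand S N (jqModC S)), helper81.coeffMap_qExpand,
    coeffMap_jqModC]
  rw [helper81.coeffMap_qExpand, coeffMap_jqModC]
  exact (D.hJ i).symm

theorem Eb_i₀_JdS (d : N.divisors) :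
    Eb D S r D.i₀ (JdS D S hζ hN d) =
      qExpand k N (@qExpand k _ d.1 ⟨(Nat.pos_of_mem_divisors d.2).ne'⟩ (jqModC k)) := by
  have : NeZero d.1 := ⟨(Nat.pos_of_mem_divisors d.2).ne'⟩
  have hNd : NeZero (N * d.1) := ⟨Nat.mul_ne_zero (NeZero.ne N) (NeZero.ne d.1)⟩
  rw [qExpand_qExpand]
  rw [Eb_eq_of D S r D.i₀ (JdS D S hζ hN d) (qExpand S (N * d.1) (jqModC S)),
    helper81.coeffMap_qExpand, coeffMap_jqModC]
  rw [helper81.coeffMap_qExpand, coeffMap_jqModC]
  exact (D.hJd d.1 (Nat.dvd_of_mem_divisors d.2) hNd).symm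

theorem exists_PS : ∃ PS : Polynomial (Polynomial S),
    (∏ i, (X - C (D.E i (D.Jd N)))) =
        (PS.map (mapRingHom S.subtype)).map
          ((aeval (qExpand ℂ N (jqModC ℂ)) : Polynomial ℂ →ₐ[ℂ] LaurentSeries ℂ) :
              Polynomial ℂ →+* LaurentSeries ℂ) ∧
      PS.Monic ∧ PS.natDegree = Fintype.card D.I ∧
      ∀ {k : Type} [Field k] (r : S →+* k), Function.Surjective r →
        Irreducible (PS.map (mapRingHom r)) :=
  helper93.exists_charpoly_reduce_irreducible N D.i₀ D.E D.J D.Jd D.U D.a D.hJ D.ha D.ha₀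
    ⟨D.m, D.hm, D.hΘ⟩ D.hU D.hS D.hchar S hζ hN

/-- the characteristic polynomial of `Θ` over `S[x]` -/
def PS : Polynomial (Polynomial S) := (exists_PS D S hζ hN).choose

theorem PS_spec : (∏ i, (X - C (D.E i (D.Jd N)))) =
        ((PS D S hζ hN).map (mapRingHom S.subtype)).map
          ((aeval (qExpand ℂ N (jqModC ℂ)) : Polynomial ℂ →ₐ[ℂ] LaurentSeries ℂ) :
              Polynomial ℂ →+* LaurentSeries ℂ) :=
  (exists_PS D S hζ hN).choose_spec.1

theorem PS_monic : (PS D S hζ hN).Monic := (exists_PS D S hζ hN).choose_spec.2.1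

theorem PS_natDegree : (PS D S hζ hN).natDegree = Fintype.card D.I :=
  (exists_PS D S hζ hN).choose_spec.2.2.1

theorem PS_irreducible (hr : Function.Surjective r) :
    Irreducible ((PS D S hζ hN).map (mapRingHom r)) :=
  (exists_PS D S hζ hN).choose_spec.2.2.2 r hr

/-- the reduced characteristic polynomial of `Θ` -/
def PSb : Polynomial (Polynomial k) := (PS D S hζ hN).map (mapRingHom r)

/-- evaluation at `x = j(s^N)` -/
abbrev phik (k : Type) [Field k] (N : ℕ) [NeZero N] : Polynomial k →+* LaurentSeries k :=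
  ((aeval (qExpand k N (jqModC k)) : Polynomial k →ₐ[k] LaurentSeries k) :
    Polynomial k →+* LaurentSeries k)

omit hζ hN in
/-- transfer of characteristic polynomials to the residue field -/
theorem prod_Eb (g : GSr D S) (Q : Polynomial (Polynomial S))
    (hQ : (∏ i, (X - C (D.E i (g : D.G)))) =
      (Q.map (mapRingHom S.subtype)).map
        ((aeval (qExpand ℂ N (jqModC ℂ)) : Polynomial ℂ →ₐ[ℂ] LaurentSeries ℂ) :
          Polynomial ℂ →+* LaurentSeries ℂ)) :
    (∏ i, (X - C (Eb D S r i g))) = (Q.map (mapRingHom r)).map (phik k N) := by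
  have h := (helper81.charpoly_transfer S r N (fun i => helper93.ES D.E S i g) Q (by
    simp only [helper93.coeffMap_ES]
    exact hQ)).2
  exact h

theorem prod_Eb_ThS :
    (∏ i, (X - C (Eb D S r i (ThS D S hζ hN)))) = (PSb D S r hζ hN).map (phik k N) :=
  prod_Eb D S r (ThS D S hζ hN) (PS D S hζ hN) (PS_spec D S hζ hN)

theorem PSb_monic : (PSb D S r hζ hN).Monic := (PS_monic D S hζ hN).map _

theorem PSb_natDegree : (PSb D S r hζ hN).natDegree = Fintype.card D.I := by
  rw [PSb, (PS_monic D S hζ hN).natDegree_map, PS_natDegree]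

theorem eval₂_PSb (i : D.I) :
    eval₂ (phik k N) (Eb D S r i (ThS D S hζ hN)) (PSb D S r hζ hN) = 0 := by
  rw [← eval_map, ← prod_Eb_ThS, eval_prod]
  exact Finset.prod_eq_zero (Finset.mem_univ i) (by simp)

/-- leading coefficient of the reduced expansions of `Θ` -/
theorem Eb_ThS_coeff_lead (i : D.I) :
    (Eb D S r i (ThS D S hζ hN)).coeff (-((D.a i : ℤ) ^ 2)) = r ((zetaS S hζ) ^ D.m i) := by
  rw [helper93.Ebar_coeff]
  congr 1
  apply Subtype.ext
  rw [helper93.ES_coeff]
  obtain ⟨p, hp1, hEi⟩ := D.hΘ i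
  show (D.E i (D.Jd N)).coeff _ = _
  rw [hEi, helper93.coeff_single_mul_ofPowerSeries, if_neg (lt_irrefl _), sub_self,
    Int.toNat_zero, PowerSeries.coeff_zero_eq_constantCoeff_apply, hp1, mul_one]
  rfl

theorem Eb_ThS_coeff_low (i : D.I) (n : ℤ) (hn : n < -((D.a i : ℤ) ^ 2)) :
    (Eb D S r i (ThS D S hζ hN)).coeff n = 0 := by
  apply helper93.Ebar_coeff_eq_zero
  obtain ⟨p, hp1, hEi⟩ := D.hΘ i
  show (D.E i (D.Jd N)).coeff n = 0
  rw [hEi, helper93.coeff_single_mul_ofPowerSeries, if_pos hn]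

theorem Eb_ThS_order (i : D.I) :
    (Eb D S r i (ThS D S hζ hN)).order = -((D.a i : ℤ) ^ 2) := by
  apply helper93.order_eq_of_coeff
  · rw [Eb_ThS_coeff_lead]
    exact r_zeta_pow_ne_zero S r hζ _
  · exact fun n hn => Eb_ThS_coeff_low D S r hζ hN i n hn

/-- the reduced expansions of `Θ` are pairwise distinct -/
theorem Eb_ThS_injective : Function.Injective fun i => Eb D S r i (ThS D S hζ hN) := by
  intro i i' h
  have h' : Eb D S r i (ThS D S hζ hN) = Eb D S r i' (ThS D S hζ hN) := h
  have ho : -((D.a i : ℤ) ^ 2) = -((D.a i' : ℤ) ^ 2) := by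
    rw [← Eb_ThS_order D S r hζ hN i, ← Eb_ThS_order D S r hζ hN i', h']
  have ha : D.a i = D.a i' := by
    have h2 : ((D.a i : ℤ)) ^ 2 = ((D.a i' : ℤ)) ^ 2 := neg_injective ho
    have h3 : (D.a i) ^ 2 = (D.a i') ^ 2 := by exact_mod_cast h2
    exact Nat.pow_left_injective (by norm_num) h3
  have hl : r ((zetaS S hζ) ^ D.m i) = r ((zetaS S hζ) ^ D.m i') := by
    rw [← Eb_ThS_coeff_lead D S r hζ hN, ← Eb_ThS_coeff_lead D S r hζ hN, h', ha]
  apply D.hm i i' ha
  by_contra hne
  have hne' : (zetaS S hζ) ^ D.m i ≠ (zetaS S hζ) ^ D.m i' := by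
    intro heq
    apply hne
    have := congrArg Subtype.val heq
    simpa [zetaS] using this
  refine helper93.map_ne_map_of_pow_eq_one r N (natCast_ne_zero_residue S r hN) ?_ ?_ hne' hl
  · rw [← pow_mul, mul_comm, pow_mul, zetaS_pow, one_pow]
  · rw [← pow_mul, mul_comm, pow_mul, zetaS_pow, one_pow]

/-- the derivative of the characteristic polynomial does not vanish at the roots -/
theorem eval₂_derivative_PSb_ne_zero (i : D.I) :
    eval₂ (phik k N) (Eb D S r i (ThS D S hζ hN)) (derivative (PSb D S r hζ hN)) ≠ 0 := by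
  have hsep : ((PSb D S r hζ hN).map (phik k N)).Separable := by
    rw [← prod_Eb_ThS]
    exact (separable_prod_X_sub_C_iff).mpr (Eb_ThS_injective D S r hζ hN)
  have hroot : ((PSb D S r hζ hN).map (phik k N)).eval₂ (RingHom.id _)
      (Eb D S r i (ThS D S hζ hN)) = 0 := by
    rw [eval₂_id, eval_map]
    exact eval₂_PSb D S r hζ hN i
  have h := hsep.eval₂_derivative_ne_zero (RingHom.id _) hroot
  rwa [eval₂_id, derivative_map, eval_map] at h

omit hζ hN in
theorem coeffMap_subtype_xS :
    coeffMap S.subtype (qExpand S N (jqModC S)) = qExpand ℂ N (jqModC ℂ) := by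
  rw [helper81.coeffMap_qExpand, coeffMap_jqModC]

omit hζ hN in
theorem coeffMap_r_xS :
    coeffMap r (qExpand S N (jqModC S)) = qExpand k N (jqModC k) := by
  rw [helper81.coeffMap_qExpand, coeffMap_jqModC]

/-- reduced Lagrange interpolation, uniform in the coset -/
theorem exists_lagrange_red (g : GSr D S) :
    ∃ Rb : Polynomial (Polynomial k), Rb.natDegree < Fintype.card D.I ∧
      ∀ i, Eb D S r i g *
          eval₂ (phik k N) (Eb D S r i (ThS D S hζ hN)) (derivative (PSb D S r hζ hN))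
        = eval₂ (phik k N) (Eb D S r i (ThS D S hζ hN)) Rb := by
  classical
  have : Nonempty D.I := ⟨D.i₀⟩
  set aC : Polynomial ℂ →+* LaurentSeries ℂ :=
    ((aeval (qExpand ℂ N (jqModC ℂ)) : Polynomial ℂ →ₐ[ℂ] LaurentSeries ℂ) :
      Polynomial ℂ →+* LaurentSeries ℂ) with haC
  set aS : Polynomial S →+* LaurentSeries S :=
    ((aeval (qExpand S N (jqModC S)) : Polynomial S →ₐ[S] LaurentSeries S) :
      Polynomial S →+* LaurentSeries S) with haS
  set φ : Polynomial S →+* LaurentSeries ℂ := aC.comp (mapRingHom S.subtype) with hφ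
  set E' : D.I → GSr D S →+* LaurentSeries ℂ :=
    fun i => ((D.E i : D.G →+* LaurentSeries ℂ)).comp (GSr D S).subtype with hE'
  have hE'app : ∀ i (h : GSr D S), E' i h = D.E i (h : D.G) := fun i h => rfl
  have htr : ∀ h : GSr D S, ∃ a : Polynomial S, φ a = ∑ i, E' i h := by
    intro h
    obtain ⟨Ph, hPhS, hPh⟩ := D.hchar S (h : D.G) ((helper93.mem_GS_iff D.E S _).mp h.2)
    obtain ⟨QS, rfl⟩ := helper93.exists_lift_poly S Ph hPhS
    have hpos : 0 < (Finset.univ : Finset D.I).card :=
      Finset.card_pos.mpr ⟨D.i₀, Finset.mem_univ _⟩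
    have h1 := prod_X_sub_C_coeff_card_pred (Finset.univ : Finset D.I)
      (fun i => D.E i (h : D.G)) hpos
    rw [hPh, coeff_map, coeff_map] at h1
    refine ⟨-(QS.coeff ((Finset.univ : Finset D.I).card - 1)), ?_⟩
    rw [map_neg]
    show -(aC ((QS.coeff ((Finset.univ : Finset D.I).card - 1)).map S.subtype)) = _
    have h2 : aC ((QS.coeff ((Finset.univ : Finset D.I).card - 1)).map S.subtype) =
        -∑ i, D.E i (h : D.G) := h1
    rw [h2, neg_neg]
    rfl
  have hP : (∏ i, (X - C (E' i (ThS D S hζ hN)))) = (PS D S hζ hN).map φ := by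
    rw [hφ, ← Polynomial.map_map]
    exact PS_spec D S hζ hN
  obtain ⟨R, hRdeg, hR⟩ := lagrange_unif φ E' htr (ThS D S hζ hN) g (PS D S hζ hN) hP
  -- transfer to `S((s))`
  have key : ∀ (i : D.I) (Q : Polynomial (Polynomial S)),
      eval₂ φ (E' i (ThS D S hζ hN)) Q =
        coeffMap S.subtype (eval₂ aS (helper93.ES D.E S i (ThS D S hζ hN)) Q) := by
    intro i Q
    rw [haS, coeffMap_eval₂_aeval, coeffMap_subtype_xS, helper93.coeffMap_ES, eval₂_map]
    rfl
  have hS : ∀ i, helper93.ES D.E S i g *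
      eval₂ aS (helper93.ES D.E S i (ThS D S hζ hN)) (derivative (PS D S hζ hN)) =
      eval₂ aS (helper93.ES D.E S i (ThS D S hζ hN)) R := by
    intro i
    apply coeffMap_subtype_inj S
    rw [map_mul, ← key, ← key, helper93.coeffMap_ES]
    exact hR i
  refine ⟨R.map (mapRingHom r), lt_of_le_of_lt natDegree_map_le hRdeg, fun i => ?_⟩
  have h3 := congrArg (coeffMap r) (hS i)
  rw [map_mul, haS, coeffMap_eval₂_aeval, coeffMap_eval₂_aeval, coeffMap_r_xS,
    ← derivative_map] at h3
  exact h3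

/-- **kernel independence**: the kernels of the reduced expansions coincide -/
theorem Eb_eq_zero_of (hr : Function.Surjective r) (g : GSr D S) (i j : D.I)
    (h : Eb D S r i g = 0) : Eb D S r j g = 0 := by
  obtain ⟨Rb, hRdeg, hR⟩ := exists_lagrange_red D S r hζ hN g
  have h1 := hR i
  rw [h, zero_mul] at h1
  have hRb : Rb = 0 :=
    helper56.minimality (qExpand k N (jqModC k)) (Eb D S r i (ThS D S hζ hN))
      (order_xk_neg k N) (PSb D S r hζ hN) (PSb_monic D S r hζ hN)
      (PS_irreducible D S r hζ hN hr) (eval₂_PSb D S r hζ hN i) Rb h1.symm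
      (by rw [PSb_natDegree]; exact hRdeg)
  have h2 := hR j
  rw [hRb, eval₂_zero] at h2
  exact (mul_eq_zero.mp h2).resolve_right (eval₂_derivative_PSb_ne_zero D S r hζ hN j)

theorem Eb_eq_zero_iff (hr : Function.Surjective r) (g : GSr D S) (i j : D.I) :
    Eb D S r i g = 0 ↔ Eb D S r j g = 0 :=
  ⟨Eb_eq_zero_of D S r hζ hN hr g i j, Eb_eq_zero_of D S r hζ hN hr g j i⟩

theorem Eb_eq_of_eq (hr : Function.Surjective r) (g g' : GSr D S) (i j : D.I)
    (h : Eb D S r i g = Eb D S r i g') : Eb D S r j g = Eb D S r j g' := by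
  have h1 : Eb D S r i (g - g') = 0 := by rw [map_sub, h, sub_self]
  have h2 := Eb_eq_zero_of D S r hζ hN hr (g - g') i j h1
  rw [map_sub] at h2
  exact sub_eq_zero.mp h2

end Red

/-! ### Generators of the function field of the special fibre -/

section Gen

variable (k : Type) [Field k] (N : ℕ) [NeZero N]

/-- the generators `j(q^d)`, `d ∣ N` -/
def genK (d : N.divisors) : LaurentSeries k :=
  @qExpand k _ d.1 ⟨(Nat.pos_of_mem_divisors d.2).ne'⟩ (jqModC k)

theorem range_genK : Set.range (genK k N) = divisorExpansionsC k N := by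
  ext x
  constructor
  · rintro ⟨d, rfl⟩
    exact ⟨d.1, ⟨(Nat.pos_of_mem_divisors d.2).ne'⟩, Nat.dvd_of_mem_divisors d.2, rfl⟩
  · rintro ⟨d, hd0, hd, rfl⟩
    exact ⟨⟨d, Nat.mem_divisors.mpr ⟨hd, NeZero.ne N⟩⟩, rfl⟩

theorem fullC_eq_adjoin :
    modularFunctionFieldFullC k N = IntermediateField.adjoin k (Set.range (genK k N)) := by
  rw [range_genK]
  rfl

theorem aeval_genK_mem (P : MvPolynomial N.divisors k) :
    MvPolynomial.aeval (genK k N) P ∈ modularFunctionFieldFullC k N := by
  rw [fullC_eq_adjoin]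
  exact Fermat.Agent.S24.helper24.aeval_mem_adjoin _ P

open IntermediateField.algebraAdjoinAdjoin in
/-- every element of the function field is a quotient of polynomials in the generators -/
theorem exists_frac (y : LaurentSeries k) (hy : y ∈ modularFunctionFieldFullC k N) :
    ∃ P Q : MvPolynomial N.divisors k, MvPolynomial.aeval (genK k N) Q ≠ 0 ∧
      y * MvPolynomial.aeval (genK k N) Q = MvPolynomial.aeval (genK k N) P := by
  rw [fullC_eq_adjoin] at hy
  obtain ⟨a, b, hb, hab⟩ := IsFractionRing.div_surjective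
    (A := Algebra.adjoin k (Set.range (genK k N)))
    (⟨y, hy⟩ : IntermediateField.adjoin k (Set.range (genK k N)))
  obtain ⟨a, ha⟩ := a
  obtain ⟨b, hb'⟩ := b
  have ha' := ha
  have hb'' := hb'
  rw [Algebra.adjoin_range_eq_range_aeval] at ha' hb''
  obtain ⟨P, hP⟩ := ha'
  obtain ⟨Q, hQ⟩ := hb''
  have hP' : MvPolynomial.aeval (genK k N) P = a := hP
  have hQ' : MvPolynomial.aeval (genK k N) Q = b := hQ
  have hb0 : b ≠ 0 := by
    intro h0
    have := nonZeroDivisors.ne_zero hb
    exact this (Subtype.ext h0)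
  refine ⟨P, Q, by rw [hQ']; exact hb0, ?_⟩
  rw [hP', hQ']
  have h1 := congrArg Subtype.val hab
  have h2 : a / b = y := h1
  rw [← h2, div_mul_cancel₀ _ hb0]

/-- two ring homomorphisms on the function field which agree on the polynomials in the
generators are equal -/
theorem ringHom_ext_fullC {L : Type*} [Field L]
    {τ τ' : ↥(modularFunctionFieldFullC k N) →+* L}
    (h : ∀ P : MvPolynomial N.divisors k,
      τ ⟨MvPolynomial.aeval (genK k N) P, aeval_genK_mem k N P⟩ =
        τ' ⟨MvPolynomial.aeval (genK k N) P, aeval_genK_mem k N P⟩) : τ = τ' := by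
  ext y
  obtain ⟨P, Q, hQ, hyQ⟩ := exists_frac k N y.1 y.2
  have e : y * ⟨MvPolynomial.aeval (genK k N) Q, aeval_genK_mem k N Q⟩ =
      ⟨MvPolynomial.aeval (genK k N) P, aeval_genK_mem k N P⟩ := Subtype.ext hyQ
  have h1 := congrArg τ e
  have h2 := congrArg τ' e
  rw [map_mul] at h1 h2
  rw [h P, ← h2, h Q] at h1
  have hne : τ' ⟨MvPolynomial.aeval (genK k N) Q, aeval_genK_mem k N Q⟩ ≠ 0 := by
    rw [Ne, map_eq_zero]
    intro h0
    exact hQ (congrArg Subtype.val h0)
  exact mul_right_cancel₀ hne h1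

end Gen

/-! ### The reduced coset embeddings -/

section Sigma

variable {N : ℕ} [NeZero N] (D : helper81.ConjData N) (S : Subring ℂ)
  {k : Type} [Field k] (r : S →+* k)
  (hζ : helper81.zetaC N ∈ S) (hN : (N : ℂ)⁻¹ ∈ S) (hr : Function.Surjective r)

/-- evaluation of polynomials in the generators at the reduced expansions -/
def Thb (i : D.I) : MvPolynomial N.divisors k →+* LaurentSeries k :=
  MvPolynomial.eval₂Hom (HahnSeries.C : k →+* LaurentSeries k)
    (fun d => Eb D S r i (JdS D S hζ hN d))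

/-- the function attached to a polynomial with coefficients in `S` -/
def polyGS (P : MvPolynomial N.divisors S) : GSr D S :=
  MvPolynomial.eval₂Hom (constGS D S) (JdS D S hζ hN) P

theorem Eb_polyGS (i : D.I) (P : MvPolynomial N.divisors S) :
    Eb D S r i (polyGS D S hζ hN P) = Thb D S r hζ hN i (MvPolynomial.map r P) := by
  unfold polyGS Thb
  rw [MvPolynomial.coe_eval₂Hom, MvPolynomial.coe_eval₂Hom, MvPolynomial.eval₂_map,
    MvPolynomial.eval₂_comp_left]
  congr 1
  ext c
  simp only [RingHom.comp_apply]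
  exact congrArg (fun z => HahnSeries.coeff z _) (Eb_constGS D S r i c)

theorem qExpand_aeval_genK (P : MvPolynomial N.divisors k) :
    qExpand k N (MvPolynomial.aeval (genK k N) P) = Thb D S r hζ hN D.i₀ P := by
  unfold Thb
  rw [MvPolynomial.coe_eval₂Hom, MvPolynomial.aeval_def, MvPolynomial.eval₂_comp_left]
  congr 1
  · ext c
    simp only [RingHom.comp_apply]
    rw [helper93.algebraMap_laurent_eq_C, qExpand_C]
  · funext d
    simp only [Function.comp_apply]
    rw [Eb_i₀_JdS]
    rfl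

include hr in
/-- the kernel of the evaluation at the reduced expansions does not depend on the coset -/
theorem Thb_eq_zero_iff (i : D.I) (P : MvPolynomial N.divisors k) :
    MvPolynomial.aeval (genK k N) P = 0 ↔ Thb D S r hζ hN i P = 0 := by
  obtain ⟨PS', rfl⟩ := MvPolynomial.map_surjective r hr P
  rw [← Eb_polyGS, ← Eb_eq_zero_iff D S r hζ hN hr _ D.i₀ i, Eb_polyGS, ← qExpand_aeval_genK]
  constructor
  · intro h
    rw [h, map_zero]
  · intro h
    exact qExpand_injective N (h.trans (map_zero _).symm)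

/-- the reduced coset embedding on `k(j(q^d) : d ∣ N)` -/
def sigmaAdj (i : D.I) :
    ↥(IntermediateField.adjoin k (Set.range (genK k N))) →+* LaurentSeries k :=
  Fermat.Agent.S24.helper24.adjoinLift (genK k N) (Thb D S r hζ hN i)
    (Thb_eq_zero_iff D S r hζ hN hr i)

/-- **the reduced coset embeddings** -/
def sigma (i : D.I) : ↥(modularFunctionFieldFullC k N) →+* LaurentSeries k :=
  (sigmaAdj D S r hζ hN hr i).comp
    ((IntermediateField.equivOfEq (fullC_eq_adjoin k N)) :
      ↥(modularFunctionFieldFullC k N) ≃ₐ[k] _).toRingEquiv.toRingHom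

theorem sigma_aeval (i : D.I) (P : MvPolynomial N.divisors k) :
    sigma D S r hζ hN hr i ⟨MvPolynomial.aeval (genK k N) P, aeval_genK_mem k N P⟩ =
      Thb D S r hζ hN i P :=
  Fermat.Agent.S24.helper24.adjoinLift_aeval (genK k N) (Thb D S r hζ hN i)
    (Thb_eq_zero_iff D S r hζ hN hr i) P

theorem sigma_algebraMap (i : D.I) (c : k) :
    sigma D S r hζ hN hr i (algebraMap k _ c) = HahnSeries.C c := by
  have h := sigma_aeval D S r hζ hN hr i (MvPolynomial.C c)
  have e : (⟨MvPolynomial.aeval (genK k N) (MvPolynomial.C c),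
      aeval_genK_mem k N (MvPolynomial.C c)⟩ : ↥(modularFunctionFieldFullC k N)) =
      algebraMap k _ c := by
    apply Subtype.ext
    simp
  rw [e] at h
  rw [h, Thb, MvPolynomial.coe_eval₂Hom, MvPolynomial.eval₂_C]

theorem genK_mem (d : N.divisors) : genK k N d ∈ modularFunctionFieldFullC k N := by
  have := aeval_genK_mem k N (MvPolynomial.X d)
  simpa using this

theorem sigma_genK (i : D.I) (d : N.divisors) :
    sigma D S r hζ hN hr i ⟨genK k N d, genK_mem d⟩ = Eb D S r i (JdS D S hζ hN d) := by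
  have h := sigma_aeval D S r hζ hN hr i (MvPolynomial.X d)
  have e : (⟨MvPolynomial.aeval (genK k N) (MvPolynomial.X d),
      aeval_genK_mem k N (MvPolynomial.X d)⟩ : ↥(modularFunctionFieldFullC k N)) =
      ⟨genK k N d, genK_mem d⟩ := by
    apply Subtype.ext
    simp
  rw [e] at h
  rw [h, Thb, MvPolynomial.coe_eval₂Hom, MvPolynomial.eval₂_X]

/-- **compatibility with the expansions in characteristic `0`** -/
theorem sigma_eq_Eb (i : D.I) (g : GSr D S) (y : ↥(modularFunctionFieldFullC k N))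
    (hy : qExpand k N (y : LaurentSeries k) = Eb D S r D.i₀ g) :
    sigma D S r hζ hN hr i y = Eb D S r i g := by
  obtain ⟨P, Q, hQ, hyQ⟩ := exists_frac k N y.1 y.2
  obtain ⟨PS', rfl⟩ := MvPolynomial.map_surjective r hr P
  obtain ⟨QS', rfl⟩ := MvPolynomial.map_surjective r hr Q
  have e : y * ⟨MvPolynomial.aeval (genK k N) (MvPolynomial.map r QS'), aeval_genK_mem k N _⟩ =
      ⟨MvPolynomial.aeval (genK k N) (MvPolynomial.map r PS'), aeval_genK_mem k N _⟩ :=
    Subtype.ext hyQ
  have h1 := congrArg (sigma D S r hζ hN hr i) e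
  rw [map_mul, sigma_aeval, sigma_aeval] at h1
  have h2 := congrArg (qExpand k N) hyQ
  rw [map_mul, qExpand_aeval_genK D S r hζ hN, qExpand_aeval_genK D S r hζ hN, hy,
    ← Eb_polyGS, ← Eb_polyGS, ← map_mul] at h2
  have h3 := Eb_eq_of_eq D S r hζ hN hr _ _ D.i₀ i h2
  rw [map_mul, Eb_polyGS, Eb_polyGS] at h3
  have hne : Thb D S r hζ hN i (MvPolynomial.map r QS') ≠ 0 := by
    intro h0
    exact hQ ((Thb_eq_zero_iff D S r hζ hN hr i _).mpr h0)
  exact mul_right_cancel₀ hne (h1.trans h3.symm)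

/-- at the identity coset the embedding is `q ↦ s^N` -/
theorem sigma_i₀ (y : ↥(modularFunctionFieldFullC k N)) :
    sigma D S r hζ hN hr D.i₀ y = qExpand k N (y : LaurentSeries k) := by
  have h : sigma D S r hζ hN hr D.i₀ =
      (qExpand k N).comp (algebraMap ↥(modularFunctionFieldFullC k N) (LaurentSeries k)) := by
    apply ringHom_ext_fullC
    intro P
    rw [sigma_aeval, RingHom.comp_apply, ← qExpand_aeval_genK D S r hζ hN]
    rfl
  rw [h]
  rfl

theorem sigma_jBar (i : D.I) :
    sigma D S r hζ hN hr i ⟨jqModC k, jqModC_mem_full k N⟩ = qExpand k N (jqModC k) := by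
  rw [sigma_eq_Eb D S r hζ hN hr i (JS D S hζ hN), Eb_JS]
  rw [Eb_JS]

/-- `Θ̄ = j(q^N)` in the function field of the special fibre -/
def thetaBar (k : Type) [Field k] (N : ℕ) [NeZero N] : ↥(modularFunctionFieldFullC k N) :=
  ⟨qExpand k N (jqModC k), jqModCd_mem_full k N dvd_rfl⟩

theorem sigma_thetaBar (i : D.I) :
    sigma D S r hζ hN hr i (thetaBar k N) = Eb D S r i (ThS D S hζ hN) := by
  have h := sigma_genK D S r hζ hN hr i ⟨N, Nat.mem_divisors.mpr ⟨dvd_rfl, NeZero.ne N⟩⟩
  exact h

/-- the reduced coset embeddings are pairwise distinct -/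
theorem sigma_injective : Function.Injective (sigma D S r hζ hN hr) := by
  intro i i' h
  apply Eb_ThS_injective D S r hζ hN
  show Eb D S r i (ThS D S hζ hN) = Eb D S r i' (ThS D S hζ hN)
  rw [← sigma_thetaBar D S r hζ hN hr, ← sigma_thetaBar D S r hζ hN hr, h]

end Sigma

/-! ### Rotation -/

section Rot

variable {N : ℕ} [NeZero N] (D : helper81.ConjData N) (S : Subring ℂ)
  {k : Type} [Field k] (r : S →+* k)
  (hζ : helper81.zetaC N ∈ S) (hN : (N : ℂ)⁻¹ ∈ S) (hr : Function.Surjective r)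

/-- `ζ_N` as a unit of `S` -/
def zetaSU : Sˣ where
  val := zetaS S hζ
  inv := zetaS S hζ ^ (N - 1)
  val_inv := by
    rw [← pow_succ', Nat.sub_add_cancel (Nat.pos_of_ne_zero (NeZero.ne N)), zetaS_pow]
  inv_val := by
    rw [← pow_succ, Nat.sub_add_cancel (Nat.pos_of_ne_zero (NeZero.ne N)), zetaS_pow]

/-- the image of `ζ_N` in the residue field, as a unit -/
def zetaBarU : kˣ := Units.map (r : S →* k) (zetaSU S hζ)

theorem zetaBarU_pow : (zetaBarU S r hζ) ^ N = 1 := by
  apply Units.ext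
  rw [Units.val_pow_eq_pow_val, Units.val_one]
  show (r (zetaS S hζ)) ^ N = 1
  rw [← map_pow, zetaS_pow, map_one]

include hN in
/-- `ζ̄` is a primitive `N`-th root of unity -/
theorem zetaBarU_pow_eq_one_iff (m : ℕ) : (zetaBarU S r hζ) ^ m = 1 ↔ N ∣ m := by
  constructor
  · intro h
    by_contra hnd
    -- `ζ ^ m ≠ 1` in `ℂ`
    have h1 : (zetaS S hζ) ^ m ≠ 1 := by
      intro h1
      have h2 : (helper81.zetaC N) ^ m = 1 := by
        have := congrArg Subtype.val h1
        simpa [zetaS] using this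
      have hprim : IsPrimitiveRoot (helper81.zetaC N) N := by
        unfold helper81.zetaC
        exact Complex.isPrimitiveRoot_exp N (NeZero.ne N)
      exact hnd ((hprim.pow_eq_one_iff_dvd m).mp h2)
    have h3 := helper93.map_ne_map_of_pow_eq_one r N (natCast_ne_zero_residue S r hN)
      (ω := (zetaS S hζ) ^ m) (ω' := 1)
      (by rw [← pow_mul, mul_comm, pow_mul, zetaS_pow, one_pow]) (one_pow N) h1
    apply h3
    rw [map_one, map_pow]
    have := congrArg Units.val h
    rwa [Units.val_pow_eq_pow_val, Units.val_one] at this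
  · rintro ⟨c, rfl⟩
    rw [pow_mul, zetaBarU_pow, one_pow]

theorem rot_C {R : Type*} [CommRing R] (u : Rˣ) (c : R) :
    helper94.rot u (HahnSeries.C c) = HahnSeries.C c := by
  ext n
  rw [helper94.rot_coeff, HahnSeries.C_apply, HahnSeries.coeff_single]
  split_ifs with h
  · subst h
    simp
  · rw [mul_zero]

variable (π : Equiv.Perm D.I) (uC : ℂˣ) (huC : (uC : ℂ) = helper81.zetaC N)
  (hT : ∀ i (g : D.G), D.E (π i) g = helper94.rot uC (D.E i g))

include huC hT

theorem ES_rot (i : D.I) (g : GSr D S) :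
    helper93.ES D.E S (π i) g = helper94.rot (zetaSU S hζ) (helper93.ES D.E S i g) := by
  apply coeffMap_subtype_inj S
  rw [helper93.coeffMap_ES, coeffMap_rot, helper93.coeffMap_ES, hT]
  congr 2
  apply Units.ext
  rw [huC]
  rfl

theorem Eb_rot (i : D.I) (g : GSr D S) :
    Eb D S r (π i) g = helper94.rot (zetaBarU S r hζ) (Eb D S r i g) := by
  show coeffMap r (helper93.ES D.E S (π i) g) = _
  rw [ES_rot D S hζ π uC huC hT, coeffMap_rot]
  rfl

/-- **T-rotation of the reduced coset embeddings** -/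
theorem sigma_rot (i : D.I) (y : ↥(modularFunctionFieldFullC k N)) :
    sigma D S r hζ hN hr (π i) y =
      helper94.rot (zetaBarU S r hζ) (sigma D S r hζ hN hr i y) := by
  have h : sigma D S r hζ hN hr (π i) =
      (helper94.rot (zetaBarU S r hζ)).comp (sigma D S r hζ hN hr i) := by
    apply ringHom_ext_fullC
    intro P
    rw [RingHom.comp_apply, sigma_aeval, sigma_aeval]
    unfold Thb
    rw [MvPolynomial.coe_eval₂Hom, MvPolynomial.coe_eval₂Hom, MvPolynomial.eval₂_comp_left]
    congr 1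
    · ext c
      simp only [RingHom.comp_apply]
      rw [rot_C]
    · funext d
      simp only [Function.comp_apply]
      exact Eb_rot D S r hζ π uC huC hT i _
  rw [h]
  rfl

end Rot

end Fermat.Agent.P2.helper28
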