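/-
P2-[CUSP-l] (helper28), part C3: degree of the special fibre field over `k(j̄)`, the cusp
dictionary in characteristic `ℓ` and `CuspBarStatement`.
-/
import Mathlib
import Fermat.Agent.P2.helper28_LocalCountSep
import Fermat.Agent.P2.helper28_ConjT
import Fermat.Agent.P2.helper28_RedEmb
import Fermat.Agent.P2.helper95_FFl
import Fermat.Agent.S24.helper82_Separating
import Fermat.Agent.S24.helper80_LocalEmb
import Fermat.Agent.S24.helper83_CuspCount
import Fermat.Agent.S24.helper55_RH
import Fermat.Agent.P2.helper29_Interface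

set_option autoImplicit false

noncomputable section

namespace Fermat.Agent.P2.helper28

open Polynomial ModularCurve IntermediateField AlgebraicCurve
open Fermat.Agent.S28

/-! ### The degree of the special fibre field over `k(j̄)` -/

section Degree

variable {N : ℕ} [NeZero N] (D : helper81.ConjData N) (S : Subring ℂ)
  {k : Type} [Field k] (r : S →+* k)
  (hζ : helper81.zetaC N ∈ S) (hN : (N : ℂ)⁻¹ ∈ S) (hr : Function.Surjective r)

/-- the function field of the special fibre -/
abbrev FbT (k : Type) [Field k] (N : ℕ) [NeZero N] : Type := ↥(modularFunctionFieldFullC k N)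

/-- `j̄` -/
def jb (k : Type) [Field k] (N : ℕ) [NeZero N] : FbT k N := ⟨jqModC k, jqModC_mem_full k N⟩

/-- `t = 1 / j̄` -/
def tb (k : Type) [Field k] (N : ℕ) [NeZero N] : FbT k N := (jb k N)⁻¹

theorem transcendental_jb (k : Type) [Field k] (N : ℕ) [NeZero N] :
    Transcendental k (jb k N) := by
  have h : Transcendental k (jqModC k) := by
    apply helper81.transcendental_of_order_neg
    have hc : (jqModC k).coeff (-1) ≠ 0 := by
      rw [coeff_jqModC_neg_one]
      exact one_ne_zero
    have h := HahnSeries.order_le_of_coeff_ne_zero hc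
    omega
  intro halg
  apply h
  have := halg.algebraMap (A := LaurentSeries k)
  exact this

theorem transcendental_tb (k : Type) [Field k] (N : ℕ) [NeZero N] :
    Transcendental k (tb k N) :=
  Fermat.Agent.S24.helper55.transcendental_inv (transcendental_jb k N)

/-- evaluation of two-variable polynomials at `(j̄, Θ̄)` -/
def evF (k : Type) [Field k] (N : ℕ) [NeZero N] (Q : Polynomial (Polynomial k)) : FbT k N :=
  eval₂ ((aeval (jb k N) : Polynomial k →ₐ[k] FbT k N) : Polynomial k →+* FbT k N)
    (thetaBar k N) Q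

theorem qExpand_evF (Q : Polynomial (Polynomial k)) :
    qExpand k N ((evF k N Q : FbT k N) : LaurentSeries k) =
      eval₂ (phik k N) (qExpand k N (qExpand k N (jqModC k))) Q := by
  have h1 : ((evF k N Q : FbT k N) : LaurentSeries k) =
      algebraMap (FbT k N) (LaurentSeries k) (evF k N Q) := rfl
  rw [h1, evF, Polynomial.hom_eval₂, Polynomial.hom_eval₂]
  congr 1
  apply Polynomial.ringHom_ext
  · intro c
    simp only [RingHom.comp_apply, RingHom.coe_coe, aeval_C]
    rw [← IsScalarTower.algebraMap_apply k (FbT k N) (LaurentSeries k),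
      helper93.algebraMap_laurent_eq_C, qExpand_C]
  · simp only [RingHom.comp_apply, RingHom.coe_coe, aeval_X]
    rfl

include hζ hN in
theorem Eb_i₀_ThS :
    Eb D S r D.i₀ (ThS D S hζ hN) = qExpand k N (qExpand k N (jqModC k)) :=
  Eb_i₀_JdS D S r hζ hN ⟨N, Nat.mem_divisors.mpr ⟨dvd_rfl, NeZero.ne N⟩⟩

include hζ hN in
theorem evF_eq_zero_iff (Q : Polynomial (Polynomial k)) :
    evF k N Q = 0 ↔ eval₂ (phik k N) (Eb D S r D.i₀ (ThS D S hζ hN)) Q = 0 := by
  rw [Eb_i₀_ThS, ← qExpand_evF]
  constructor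
  · intro h
    rw [h]
    simp
  · intro h
    apply Subtype.ext
    exact qExpand_injective N (h.trans (map_zero _).symm)

include hζ hN in
theorem evF_PSb : evF k N (PSb D S r hζ hN) = 0 :=
  (evF_eq_zero_iff D S r hζ hN _).mpr (eval₂_PSb D S r hζ hN D.i₀)

include hζ hN in
theorem evF_derivative_ne_zero : evF k N (derivative (PSb D S r hζ hN)) ≠ 0 := fun h =>
  eval₂_derivative_PSb_ne_zero D S r hζ hN D.i₀ ((evF_eq_zero_iff D S r hζ hN _).mp h)

include hζ hN in
theorem exists_genK_mul_evF (d : N.divisors) :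
    ∃ Rb : Polynomial (Polynomial k),
      (⟨genK k N d, genK_mem d⟩ : FbT k N) * evF k N (derivative (PSb D S r hζ hN)) =
        evF k N Rb := by
  obtain ⟨Rb, -, hR⟩ := exists_lagrange_red D S r hζ hN (JdS D S hζ hN d)
  refine ⟨Rb, ?_⟩
  apply Subtype.ext
  apply qExpand_injective N
  have h := hR D.i₀
  rw [Eb_i₀_ThS D S r hζ hN, ← qExpand_evF, ← qExpand_evF, Eb_i₀_JdS] at h
  show qExpand k N ((genK k N d) * ((evF k N (derivative (PSb D S r hζ hN)) : FbT k N) :
    LaurentSeries k)) = _
  rw [map_mul]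
  exact h

theorem jb_mem_adjoin (k : Type) [Field k] (N : ℕ) [NeZero N] : jb k N ∈ k⟮tb k N⟯ := by
  have h : jb k N = (tb k N)⁻¹ := (inv_inv _).symm
  rw [h]
  exact inv_mem (mem_adjoin_simple_self k _)

/-- `j̄` as an element of `k(t)` -/
def jb1 (k : Type) [Field k] (N : ℕ) [NeZero N] : k⟮tb k N⟯ := ⟨jb k N, jb_mem_adjoin k N⟩

/-- polynomials in `j̄` as elements of `k(t)` -/
def phi1 (k : Type) [Field k] (N : ℕ) [NeZero N] : Polynomial k →+* k⟮tb k N⟯ :=
  ((aeval (jb1 k N) : Polynomial k →ₐ[k] k⟮tb k N⟯) : Polynomial k →+* k⟮tb k N⟯)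

theorem evF_eq_aeval (Q : Polynomial (Polynomial k)) :
    evF k N Q = aeval (thetaBar k N) (Q.map (phi1 k N)) := by
  rw [aeval_def, eval₂_map, evF]
  congr 1
  apply Polynomial.ringHom_ext
  · intro c
    simp only [RingHom.comp_apply, RingHom.coe_coe, aeval_C, phi1]
    rfl
  · simp only [RingHom.comp_apply, RingHom.coe_coe, aeval_X, phi1]
    rfl

theorem evF_mem (Q : Polynomial (Polynomial k)) : evF k N Q ∈ (k⟮tb k N⟯)⟮thetaBar k N⟯ := by
  rw [evF_eq_aeval]
  exact algebra_adjoin_le_adjoin _ _ (Polynomial.aeval_mem_adjoin_singleton _ _)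

include D r hζ hN in
theorem isIntegral_thetaBar : IsIntegral (k⟮tb k N⟯) (thetaBar k N) :=
  ⟨(PSb D S r hζ hN).map (phi1 k N), (PSb_monic D S r hζ hN).map _, by
    rw [← aeval_def, ← evF_eq_aeval]
    exact evF_PSb D S r hζ hN⟩

include r hζ hN in
theorem natDegree_minpoly_le :
    (minpoly (k⟮tb k N⟯) (thetaBar k N)).natDegree ≤ Fintype.card D.I := by
  have h := minpoly.min (k⟮tb k N⟯) (thetaBar k N) ((PSb_monic D S r hζ hN).map (phi1 k N)) (by
    rw [← evF_eq_aeval]
    exact evF_PSb D S r hζ hN)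
  have h2 := natDegree_le_natDegree h
  rw [((PSb_monic D S r hζ hN)).natDegree_map, PSb_natDegree] at h2
  exact h2

include D r hζ hN in
theorem genK_mem_adjoin (d : N.divisors) :
    (⟨genK k N d, genK_mem d⟩ : FbT k N) ∈ (k⟮tb k N⟯)⟮thetaBar k N⟯ := by
  obtain ⟨Rb, hR⟩ := exists_genK_mul_evF D S r hζ hN d
  have h : (⟨genK k N d, genK_mem d⟩ : FbT k N) =
      evF k N Rb / evF k N (derivative (PSb D S r hζ hN)) := by
    rw [eq_div_iff (evF_derivative_ne_zero D S r hζ hN)]
    exact hR
  rw [h]
  exact div_mem (evF_mem _) (evF_mem _)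

include D r hζ hN in
theorem adjoin_thetaBar_eq_top : (k⟮tb k N⟯)⟮thetaBar k N⟯ = ⊤ := by
  rw [eq_top_iff]
  intro y _
  -- polynomials in the generators lie in the subfield
  have hpoly : ∀ P : MvPolynomial N.divisors k,
      (⟨MvPolynomial.aeval (genK k N) P, aeval_genK_mem k N P⟩ : FbT k N) ∈
        (k⟮tb k N⟯)⟮thetaBar k N⟯ := by
    intro P
    induction P using MvPolynomial.induction_on with
    | C c =>
      have e : (⟨MvPolynomial.aeval (genK k N) (MvPolynomial.C c),
          aeval_genK_mem k N (MvPolynomial.C c)⟩ : FbT k N) = algebraMap k (FbT k N) c := by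
        apply Subtype.ext
        simp
      rw [e]
      exact ((k⟮tb k N⟯)⟮thetaBar k N⟯).algebraMap_mem (algebraMap k (k⟮tb k N⟯) c)
    | add p q hp hq =>
      have e : (⟨MvPolynomial.aeval (genK k N) (p + q), aeval_genK_mem k N (p + q)⟩ : FbT k N) =
          ⟨MvPolynomial.aeval (genK k N) p, aeval_genK_mem k N p⟩ +
            ⟨MvPolynomial.aeval (genK k N) q, aeval_genK_mem k N q⟩ := by
        apply Subtype.ext
        simp
      rw [e]
      exact add_mem hp hq
    | mul_X p d hp =>
      have e : (⟨MvPolynomial.aeval (genK k N) (p * MvPolynomial.X d),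
          aeval_genK_mem k N (p * MvPolynomial.X d)⟩ : FbT k N) =
          ⟨MvPolynomial.aeval (genK k N) p, aeval_genK_mem k N p⟩ *
            ⟨genK k N d, genK_mem d⟩ := by
        apply Subtype.ext
        simp
      rw [e]
      exact mul_mem hp (genK_mem_adjoin D S r hζ hN d)
  obtain ⟨P, Q, hQ, hyQ⟩ := exists_frac k N y.1 y.2
  have e : y = (⟨MvPolynomial.aeval (genK k N) P, aeval_genK_mem k N P⟩ : FbT k N) /
      ⟨MvPolynomial.aeval (genK k N) Q, aeval_genK_mem k N Q⟩ := by
    rw [eq_div_iff (fun h0 => hQ (congrArg Subtype.val h0))]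
    exact Subtype.ext hyQ
  rw [e]
  exact div_mem (hpoly P) (hpoly Q)

include D r hζ hN in
theorem finiteDimensional_FbT : FiniteDimensional (k⟮tb k N⟯) (FbT k N) := by
  have h1 : FiniteDimensional (k⟮tb k N⟯) ((k⟮tb k N⟯)⟮thetaBar k N⟯) :=
    adjoin.finiteDimensional (isIntegral_thetaBar D S r hζ hN)
  rw [adjoin_thetaBar_eq_top D S r hζ hN] at h1
  exact (topEquiv (F := k⟮tb k N⟯) (E := FbT k N)).toLinearEquiv.finiteDimensional

include r hζ hN in
theorem finrank_FbT_le : Module.finrank (k⟮tb k N⟯) (FbT k N) ≤ Fintype.card D.I := by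
  have h1 := adjoin.finrank (isIntegral_thetaBar D S r hζ hN)
  rw [adjoin_thetaBar_eq_top D S r hζ hN, finrank_top'] at h1
  rw [h1]
  exact natDegree_minpoly_le D S r hζ hN

end Degree

/-! ### Counting embeddings -/

section CardLe

variable {K₀ F L : Type*} [Field K₀] [Field F] [Field L] [Algebra K₀ F]
  [FiniteDimensional K₀ F]

/-- the number of embeddings with a common restriction is at most the degree -/
theorem card_le_finrank_of_emb {I : Type*} [Fintype I] (σ : I → F →+* L)
    (hσ : Function.Injective σ) (φ : K₀ →+* L) (hφ : ∀ i, (σ i).comp (algebraMap K₀ F) = φ) :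
    Fintype.card I ≤ Module.finrank K₀ F := by
  classical
  let _ : Algebra K₀ L := φ.toAlgebra
  let Ω := AlgebraicClosure L
  let τ : I → (F →ₐ[K₀] L) := fun i =>
    { σ i with
      commutes' := fun x => by
        have := congrArg (fun g : K₀ →+* L => g x) (hφ i)
        exact this }
  let τ' : I → (F →ₐ[K₀] Ω) := fun i => (IsScalarTower.toAlgHom K₀ L Ω).comp (τ i)
  have hτ' : ∀ i x, τ' i x = algebraMap L Ω (σ i x) := fun i x => rfl
  have hinj : Function.Injective τ' := by
    intro i j hij
    apply hσ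
    ext x
    have := congrArg (fun g : F →ₐ[K₀] Ω => g x) hij
    simp only [hτ'] at this
    exact (algebraMap L Ω).injective this
  have h1 : Fintype.card I ≤ Nat.card (F →ₐ[K₀] Ω) := by
    rw [← Nat.card_eq_fintype_card]
    exact Nat.card_le_card_of_injective τ' hinj
  have h2 : Field.finSepDegree K₀ F = Nat.card (F →ₐ[K₀] Ω) :=
    Field.finSepDegree_eq_of_isAlgClosed K₀ F Ω
  have h3 : Field.finSepDegree K₀ F ≤ Module.finrank K₀ F := Field.finSepDegree_le_finrank K₀ F
  omega

end CardLe

/-! ### Rotations and the `s`-adic valuation -/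

section RotVal

variable {k : Type*} [Field k]

open WithZero

theorem rot_coeff_ne_zero_iff (u : kˣ) (y : LaurentSeries k) (n : ℤ) :
    (helper94.rot u y).coeff n ≠ 0 ↔ y.coeff n ≠ 0 := by
  rw [helper94.rot_coeff]
  constructor
  · intro h h0
    exact h (by rw [h0, mul_zero])
  · intro h h0
    exact h ((Units.mul_right_eq_zero _).mp h0)

theorem order_rot (u : kˣ) (y : LaurentSeries k) : (helper94.rot u y).order = y.order := by
  by_cases hy : y = 0
  · subst hy
    rw [map_zero]
  · apply helper93.order_eq_of_coeff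
    · exact (rot_coeff_ne_zero_iff u y _).mpr (mt HahnSeries.coeff_order_eq_zero.mp hy)
    · intro n hn
      rw [helper94.rot_coeff, HahnSeries.coeff_eq_zero_of_lt_order hn, mul_zero]

theorem valuation_rot (u : kˣ) (y : LaurentSeries k) :
    (Valued.v (helper94.rot u y) : ℤᵐ⁰) = Valued.v y := by
  by_cases hy : y = 0
  · subst hy
    rw [map_zero]
  · have hry : helper94.rot u y ≠ 0 := by
      rw [Ne, map_eq_zero]
      exact hy
    rw [Fermat.Agent.S24.helper80.laurent_valuation_eq_exp_neg_order hy,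
      Fermat.Agent.S24.helper80.laurent_valuation_eq_exp_neg_order hry, order_rot]

/-- a nonzero series fixed by the rotation by `u` has an order `n` with `u ^ n = 1` -/
theorem zpow_order_eq_one_of_rot_eq (u : kˣ) {y : LaurentSeries k} (hy : y ≠ 0)
    (h : helper94.rot u y = y) : u ^ y.order = 1 := by
  have hc := congrArg (fun g : LaurentSeries k => g.coeff y.order) h
  simp only [helper94.rot_coeff] at hc
  have hne : y.coeff y.order ≠ 0 := mt HahnSeries.coeff_order_eq_zero.mp hy
  have h2 : (((u ^ y.order : kˣ) : k) - 1) * y.coeff y.order = 0 := by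
    rw [sub_mul, one_mul, hc, sub_self]
  rcases mul_eq_zero.mp h2 with h3 | h3
  · apply Units.ext
    rw [Units.val_one]
    exact sub_eq_zero.mp h3
  · exact absurd h3 hne

end RotVal

/-! ### The cusp dictionary in characteristic `ℓ` -/

section Dict

variable {N : ℕ} [NeZero N] (D : helper81.ConjData N) (S : Subring ℂ)
  {k : Type} [Field k] (r : S →+* k)
  (hζ : helper81.zetaC N ∈ S) (hN : (N : ℂ)⁻¹ ∈ S) (hr : Function.Surjective r)

open WithZero

theorem sigma_tb (i : D.I) :
    sigma D S r hζ hN hr i (tb k N) = (qExpand k N (jqModC k))⁻¹ := by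
  rw [tb, map_inv₀]
  congr 1
  exact sigma_jBar D S r hζ hN hr i

theorem sigma_comp_algebraMap (i j : D.I) :
    (sigma D S r hζ hN hr i).comp (algebraMap (k⟮tb k N⟯) (FbT k N)) =
      (sigma D S r hζ hN hr j).comp (algebraMap (k⟮tb k N⟯) (FbT k N)) :=
  Fermat.Agent.S24.helper43.comp_algebraMap_adjoin_eq
    (fun c => by rw [sigma_algebraMap, sigma_algebraMap])
    (by rw [sigma_tb, sigma_tb])

include S r hζ hN hr in
/-- **the degree of the special fibre field over `k(j̄)`** -/
theorem finrank_FbT : Module.finrank (k⟮tb k N⟯) (FbT k N) = Fintype.card D.I := by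
  have := finiteDimensional_FbT D S r hζ hN
  apply le_antisymm (finrank_FbT_le D S r hζ hN)
  exact card_le_finrank_of_emb (sigma D S r hζ hN hr) (sigma_injective D S r hζ hN hr)
    ((sigma D S r hζ hN hr D.i₀).comp (algebraMap (k⟮tb k N⟯) (FbT k N)))
    (fun i => sigma_comp_algebraMap D S r hζ hN hr i D.i₀)

include D S r hζ hN hr in
/-- the special fibre field is separable over `k(j̄)` -/
theorem isSeparable_FbT : Algebra.IsSeparable (k⟮tb k N⟯) (FbT k N) := by
  have := finiteDimensional_FbT D S r hζ hN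
  exact isSeparable_of_card_eq (sigma D S r hζ hN hr) (sigma_injective D S r hζ hN hr)
    (finrank_FbT D S r hζ hN hr).symm
    ((sigma D S r hζ hN hr D.i₀).comp (algebraMap (k⟮tb k N⟯) (FbT k N)))
    (fun i => sigma_comp_algebraMap D S r hζ hN hr i D.i₀)

include hN in
theorem orderOf_zetaBarU : orderOf (zetaBarU S r hζ) = N := by
  rw [orderOf_eq_iff (Nat.pos_of_ne_zero (NeZero.ne N))]
  refine ⟨zetaBarU_pow S r hζ, fun m hm hm0 h => ?_⟩
  have := (zetaBarU_pow_eq_one_iff S r hζ hN m).mp h
  exact absurd (Nat.le_of_dvd hm0 this) (not_le.mpr hm)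

variable (π : Equiv.Perm D.I) (uC : ℂˣ) (huC : (uC : ℂ) = helper81.zetaC N)
  (hT : ∀ i (g : D.G), D.E (π i) g = helper94.rot uC (D.E i g))

include huC hT in
theorem sigma_pow_rot (m : ℕ) (i : D.I) (y : FbT k N) :
    sigma D S r hζ hN hr ((π ^ m) i) y =
      helper94.rot ((zetaBarU S r hζ) ^ m) (sigma D S r hζ hN hr i y) := by
  induction m generalizing i with
  | zero => simp [helper94.rot_one]
  | succ m ih =>
    rw [pow_succ', Equiv.Perm.mul_apply, sigma_rot D S r hζ hN hr π uC huC hT, ih,
      helper94.rot_rot, pow_succ']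

include S r hζ hN hr huC hT in
theorem pi_pow_N : π ^ N = 1 := by
  ext i
  apply sigma_injective D S r hζ hN hr
  ext y
  rw [sigma_pow_rot D S r hζ hN hr π uC huC hT, zetaBarU_pow, helper94.rot_one]
  rfl

include huC hT in
/-- **the cusp dictionary in characteristic `ℓ`**, for abstract conjugate data with a rotation -/
theorem cusp_dictionary [IsAlgClosed k] :
    ∃ (W : D.I → Place k (FbT k N)) (d : D.I → ℕ),
      (∀ i, 0 < (W i).ord (tb k N)) ∧
      (∀ w : Place k (FbT k N), 0 < w.ord (tb k N) → ∃ i, W i = w) ∧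
      (∀ i j, W i = W j ↔ j ∈ MulAction.orbit (Subgroup.zpowers π) i) ∧
      (∀ i, (W i).ord (tb k N) = (Nat.card (MulAction.orbit (Subgroup.zpowers π) i) : ℤ)) ∧
      (∀ i, d i * Nat.card (MulAction.orbit (Subgroup.zpowers π) i) = N) ∧
      (∀ i (f : FbT k N), f ≠ 0 →
        (Valued.v (sigma D S r hζ hN hr i f) : ℤᵐ⁰) = exp (-((d i : ℤ) * (W i).ord f))) ∧
      (∀ i, (W i).toValuationSubring =
        ((Valued.v : Valuation (LaurentSeries k) ℤᵐ⁰).comap
          (sigma D S r hζ hN hr i)).valuationSubring) ∧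
      Nat.card {w : Place k (FbT k N) // 0 < w.ord (tb k N)}
        = Nat.card (MulAction.orbitRel.Quotient (Subgroup.zpowers π) D.I) := by
  have := finiteDimensional_FbT D S r hζ hN
  have := isSeparable_FbT D S r hζ hN hr
  have htr := transcendental_tb k N
  have hinj : ∀ i, Function.Injective (sigma D S r hζ hN hr i) := fun i => RingHom.injective _
  have hne : ∀ i (f : FbT k N), f ≠ 0 → sigma D S r hζ hN hr i f ≠ 0 := fun i f hf h0 =>
    hf ((hinj i) (h0.trans (map_zero _).symm))
  refine local_count_sep (K := k) (F := FbT k N) (tb k N)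
    (Fermat.Agent.P2.helper95.ffl_finite_zeros (tb k N) htr)
    (Fermat.Agent.P2.helper95.ffl_sum_ord_zeros (tb k N) htr)
    (fun w s hw => Fermat.Agent.S24.helper82.ff_exists_separating (tb k N) htr w s hw)
    (Valued.v : Valuation (LaurentSeries k) ℤᵐ⁰)
    (sigma D S r hζ hN hr) (sigma_injective D S r hζ hN hr)
    (finrank_FbT D S r hζ hN hr).symm ?_ ?_ ?_ N (Nat.pos_of_ne_zero (NeZero.ne N)) ?_
    π (pi_pow_N D S r hζ hN hr π uC huC hT) ?_ ?_
  · intro i c hc
    rw [sigma_algebraMap]
    exact Fermat.Agent.S24.helper80.laurent_valuation_C hc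
  · intro i j c
    rw [sigma_algebraMap, sigma_algebraMap]
  · intro i j
    rw [sigma_tb, sigma_tb]
  · intro i
    rw [sigma_tb]
    have hx0 : (qExpand k N (jqModC k)) ≠ 0 := by
      intro h0
      have := helper81.order_qExpand_jqModC k N
      rw [h0, HahnSeries.order_zero] at this
      have hNpos : (0 : ℤ) < N := by exact_mod_cast Nat.pos_of_ne_zero (NeZero.ne N)
      omega
    rw [map_inv₀, Fermat.Agent.S24.helper80.laurent_valuation_eq_exp_neg_order hx0,
      helper81.order_qExpand_jqModC, neg_neg, ← exp_neg]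
  · intro i f
    rw [sigma_rot D S r hζ hN hr π uC huC hT, valuation_rot]
  · intro i k' hk' hfix f hf
    have hy := hne i f hf
    have hrot : helper94.rot ((zetaBarU S r hζ) ^ (N / k')) (sigma D S r hζ hN hr i f) =
        sigma D S r hζ hN hr i f := by
      rw [← sigma_pow_rot D S r hζ hN hr π uC huC hT, hfix]
    have h1 := zpow_order_eq_one_of_rot_eq _ hy hrot
    rw [← zpow_natCast, ← zpow_mul] at h1
    have h2 : (N : ℤ) ∣ ((N / k' : ℕ) : ℤ) * (sigma D S r hζ hN hr i f).order := by
      have h0 := orderOf_dvd_iff_zpow_eq_one.mpr h1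
      rwa [orderOf_zetaBarU S r hζ hN] at h0
    have hk'pos : 0 < k' := Nat.pos_of_dvd_of_pos hk' (Nat.pos_of_ne_zero (NeZero.ne N))
    obtain ⟨c, hc⟩ := hk'
    have hcpos : 0 < c := by
      rcases Nat.eq_zero_or_pos c with h0 | h0
      · rw [h0, mul_zero] at hc
        exact absurd hc (NeZero.ne N)
      · exact h0
    have h3 : N / k' = c := by
      rw [hc, Nat.mul_div_cancel_left _ hk'pos]
    rw [h3] at h2
    have h4 : (k' : ℤ) ∣ (sigma D S r hζ hN hr i f).order := by
      have h5 : ((k' * c : ℕ) : ℤ) ∣ (c : ℤ) * (sigma D S r hζ hN hr i f).order := by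
        rw [← hc]
        exact h2
      push_cast at h5
      rw [mul_comm (k' : ℤ) (c : ℤ)] at h5
      exact (mul_dvd_mul_iff_left (by exact_mod_cast hcpos.ne')).mp h5
    obtain ⟨e, he⟩ := h4
    refine ⟨-e, ?_⟩
    rw [Fermat.Agent.S24.helper80.laurent_valuation_eq_exp_neg_order hy, he]
    congr 1
    ring

end Dict

end Fermat.Agent.P2.helper28
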