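/-
P2-[CUSP-REG] (helper28), part (IV): the derivative of the modular equation at every coset has
a characteristic-free order (unit leading coefficients), in polynomial-agnostic form, plus glue
lemmas on polynomial expressions in `(j, Θ)` inside `GS` and on orders of reduced expansions.
-/
import Mathlib
import Fermat.Agent.P2.helper28_RedEmb

set_option autoImplicit false

noncomputable section

namespace Fermat.Agent.P2.helper28

open Polynomial ModularCurve Finset
open Fermat.Agent.S28

/-! ### Orders and coefficientwise maps -/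

section Generic

variable {R₁ R₂ : Type*} [CommRing R₁] [CommRing R₂]

/-- coefficientwise maps can only raise the order -/
theorem order_le_order_coeffMap (f : R₁ →+* R₂) (x : LaurentSeries R₁)
    (h : coeffMap f x ≠ 0) : x.order ≤ (coeffMap f x).order := by
  have h1 : (coeffMap f x).coeff (coeffMap f x).order ≠ 0 :=
    fun h0 => h (HahnSeries.coeff_order_eq_zero.mp h0)
  rw [coeffMap_coeff] at h1
  have h2 : x.coeff (coeffMap f x).order ≠ 0 := fun h0 => h1 (by rw [h0, map_zero])
  exact HahnSeries.order_le_of_coeff_ne_zero h2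

/-- injective coefficientwise maps preserve the order -/
theorem order_coeffMap_of_injective (f : R₁ →+* R₂) (hf : Function.Injective f)
    (x : LaurentSeries R₁) : (coeffMap f x).order = x.order := by
  by_cases hx : x = 0
  · rw [hx, map_zero]
    simp
  have hx' : coeffMap f x ≠ 0 := fun h0 =>
    hx (helper93.coeffMap_injective' f hf (h0.trans (map_zero _).symm))
  apply le_antisymm
  · apply HahnSeries.order_le_of_coeff_ne_zero
    rw [coeffMap_coeff]
    intro h0
    exact hx (HahnSeries.coeff_order_eq_zero.mp (hf (h0.trans (map_zero f).symm)))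
  · exact order_le_order_coeffMap f x hx'

theorem order_prod_field {K : Type*} [Field K] {ι : Type*} (s : Finset ι)
    (f : ι → LaurentSeries K) (hf : ∀ i ∈ s, f i ≠ 0) :
    (∏ i ∈ s, f i).order = ∑ i ∈ s, (f i).order := by
  classical
  induction s using Finset.induction_on with
  | empty => simp
  | insert a s ha ih =>
    rw [Finset.prod_insert ha, Finset.sum_insert ha,
      HahnSeries.order_mul (hf a (Finset.mem_insert_self a s))
        (Finset.prod_ne_zero_iff.mpr fun i hi => hf i (Finset.mem_insert_of_mem hi)),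
      ih fun i hi => hf i (Finset.mem_insert_of_mem hi)]

theorem eval_derivative_prod_X_sub_C {L ι : Type*} [CommRing L] [Fintype ι] [DecidableEq ι]
    (θ : ι → L) (i : ι) :
    eval (θ i) (derivative (∏ j, (X - C (θ j)))) = ∏ j ∈ univ.erase i, (θ i - θ j) := by
  rw [derivative_prod_finset, eval_finsetSum, Finset.sum_eq_single i]
  · simp [eval_prod]
  · intro b _ hb
    rw [eval_mul, eval_prod,
      Finset.prod_eq_zero (i := i) (Finset.mem_erase.mpr ⟨hb.symm, mem_univ _⟩) (by simp),
      zero_mul]
  · intro h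
    exact absurd (mem_univ i) h

end Generic

/-! ### Orders of the reduced expansions -/

section Ord

variable {N : ℕ} [NeZero N] (D : helper81.ConjData N) (S : Subring ℂ)
  {k : Type} [Field k] (r : S →+* k)

theorem order_E_eq_order_ES (i : D.I) (g : GSr D S) :
    (D.E i (g : D.G)).order = (helper93.ES D.E S i g).order := by
  rw [← helper93.coeffMap_ES D.E S i g]
  exact order_coeffMap_of_injective _ Subtype.val_injective _

/-- reduction can only raise the order at every coset -/
theorem order_E_le_order_Eb (i : D.I) (g : GSr D S) (h : Eb D S r i g ≠ 0) :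
    (D.E i (g : D.G)).order ≤ (Eb D S r i g).order := by
  rw [order_E_eq_order_ES]
  exact order_le_order_coeffMap r _ h

/-- an injective "reduction" preserves the order at every coset -/
theorem order_Eb_eq_of_injective (hinj : Function.Injective r) (i : D.I) (g : GSr D S) :
    (Eb D S r i g).order = (D.E i (g : D.G)).order := by
  rw [order_E_eq_order_ES]
  exact order_coeffMap_of_injective r hinj _

variable (hζ : helper81.zetaC N ∈ S) (hN : (N : ℂ)⁻¹ ∈ S)

/-- evaluation of polynomials in two variables at `(j, Θ)` inside `GS` -/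
def evJT : Polynomial (Polynomial S) →+* GSr D S :=
  eval₂RingHom (eval₂RingHom (constGS D S) (JS D S hζ hN)) (ThS D S hζ hN)

/-- the function `Q(j, Θ)` -/
def polyJT (Q : Polynomial (Polynomial S)) : GSr D S := evJT D S hζ hN Q

theorem Eb_comp_eval₂ (i : D.I) :
    (Eb D S r i).comp (eval₂RingHom (constGS D S) (JS D S hζ hN)) =
      (phik k N).comp (mapRingHom r) := by
  apply Polynomial.ringHom_ext
  · intro c
    simp only [RingHom.comp_apply, coe_eval₂RingHom, eval₂_C, coe_mapRingHom, map_C]
    rw [Eb_constGS]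
    show _ = (aeval (qExpand k N (jqModC k)) : Polynomial k →ₐ[k] LaurentSeries k) (C (r c))
    rw [aeval_C, helper93.algebraMap_laurent_eq_C]
  · simp only [RingHom.comp_apply, coe_eval₂RingHom, eval₂_X, coe_mapRingHom, map_X]
    rw [Eb_JS]
    show _ = (aeval (qExpand k N (jqModC k)) : Polynomial k →ₐ[k] LaurentSeries k) X
    rw [aeval_X]

/-- the reduced expansions of `Q(j, Θ)` -/
theorem Eb_polyJT (i : D.I) (Q : Polynomial (Polynomial S)) :
    Eb D S r i (polyJT D S hζ hN Q) =
      eval₂ (phik k N) (Eb D S r i (ThS D S hζ hN)) (Q.map (mapRingHom r)) := by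
  unfold polyJT evJT
  rw [coe_eval₂RingHom, Polynomial.hom_eval₂, Eb_comp_eval₂, eval₂_map]

/-- the underlying function of `Q(j, Θ)` -/
theorem coe_polyJT (Q : Polynomial (Polynomial S)) :
    ((polyJT D S hζ hN Q : GSr D S) : D.G) =
      eval₂ (((aeval D.J : Polynomial ℂ →ₐ[ℂ] D.G) : Polynomial ℂ →+* D.G)) (D.Jd N)
        (Q.map (mapRingHom S.subtype)) := by
  unfold polyJT evJT
  rw [coe_eval₂RingHom]
  have h1 := Polynomial.hom_eval₂ Q (eval₂RingHom (constGS D S) (JS D S hζ hN))
    (GSr D S).subtype (ThS D S hζ hN)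
  have h2 : (GSr D S).subtype.comp (eval₂RingHom (constGS D S) (JS D S hζ hN)) =
      (((aeval D.J : Polynomial ℂ →ₐ[ℂ] D.G) : Polynomial ℂ →+* D.G)).comp
        (mapRingHom S.subtype) := by
    apply Polynomial.ringHom_ext
    · intro c
      simp only [RingHom.comp_apply, coe_eval₂RingHom, eval₂_C, coe_mapRingHom, map_C]
      show algebraMap ℂ D.G (c : ℂ) = (aeval D.J : Polynomial ℂ →ₐ[ℂ] D.G) (C (c : ℂ))
      rw [aeval_C]
    · simp only [RingHom.comp_apply, coe_eval₂RingHom, eval₂_X, coe_mapRingHom, map_X]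
      show D.J = (aeval D.J : Polynomial ℂ →ₐ[ℂ] D.G) X
      rw [aeval_X]
  rw [h2, ← eval₂_map] at h1
  exact h1

include hN in
theorem r_zeta_ne (i i' : D.I) (ha : D.a i = D.a i') (h : i ≠ i') :
    r ((zetaS S hζ) ^ D.m i) ≠ r ((zetaS S hζ) ^ D.m i') := by
  have hne' : (zetaS S hζ) ^ D.m i ≠ (zetaS S hζ) ^ D.m i' := by
    intro heq
    apply h
    apply D.hm i i' ha
    have := congrArg Subtype.val heq
    simpa [zetaS] using this
  refine helper93.map_ne_map_of_pow_eq_one r N (natCast_ne_zero_residue S r hN) ?_ ?_ hne'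
  · rw [← pow_mul, mul_comm, pow_mul, zetaS_pow, one_pow]
  · rw [← pow_mul, mul_comm, pow_mul, zetaS_pow, one_pow]

/-- **unit leading coefficients**: the order of the difference of two reduced expansions of
`Θ` does not depend on the characteristic -/
theorem order_Eb_ThS_sub (i i' : D.I) (h : i ≠ i') :
    (Eb D S r i (ThS D S hζ hN) - Eb D S r i' (ThS D S hζ hN)).order =
      -(((max (D.a i) (D.a i') : ℕ) : ℤ) ^ 2) := by
  rcases lt_trichotomy (D.a i) (D.a i') with hlt | heq | hgt
  · rw [max_eq_right hlt.le]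
    have hlt' : -((D.a i' : ℤ) ^ 2) < -((D.a i : ℤ) ^ 2) :=
      neg_lt_neg (by exact_mod_cast Nat.pow_lt_pow_left hlt (by norm_num))
    apply helper93.order_eq_of_coeff
    · rw [HahnSeries.coeff_sub, Eb_ThS_coeff_low D S r hζ hN i _ hlt', zero_sub, neg_ne_zero,
        Eb_ThS_coeff_lead]
      exact r_zeta_pow_ne_zero S r hζ _
    · intro n hn
      rw [HahnSeries.coeff_sub, Eb_ThS_coeff_low D S r hζ hN i n (hn.trans hlt'),
        Eb_ThS_coeff_low D S r hζ hN i' n hn, sub_zero]
  · rw [heq, max_self]
    apply helper93.order_eq_of_coeff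
    · rw [HahnSeries.coeff_sub, Eb_ThS_coeff_lead, ← heq, Eb_ThS_coeff_lead]
      exact sub_ne_zero.mpr (r_zeta_ne D S r hζ hN i i' heq h)
    · intro n hn
      rw [HahnSeries.coeff_sub, Eb_ThS_coeff_low D S r hζ hN i' n hn,
        Eb_ThS_coeff_low D S r hζ hN i n (by rw [heq]; exact hn), sub_zero]
  · rw [max_eq_left hgt.le]
    have hlt' : -((D.a i : ℤ) ^ 2) < -((D.a i' : ℤ) ^ 2) :=
      neg_lt_neg (by exact_mod_cast Nat.pow_lt_pow_left hgt (by norm_num))
    apply helper93.order_eq_of_coeff
    · rw [HahnSeries.coeff_sub, Eb_ThS_coeff_low D S r hζ hN i' _ hlt', sub_zero,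
        Eb_ThS_coeff_lead]
      exact r_zeta_pow_ne_zero S r hζ _
    · intro n hn
      rw [HahnSeries.coeff_sub, Eb_ThS_coeff_low D S r hζ hN i n hn,
        Eb_ThS_coeff_low D S r hζ hN i' n (hn.trans hlt'), sub_zero]

/-- the exponent of the different at the coset `i` (depends on the analytic data only) -/
def cuspExp (i : D.I) : ℤ :=
  -∑ i' ∈ Finset.univ.erase i, (((max (D.a i) (D.a i') : ℕ) : ℤ) ^ 2)

variable (hr : Function.Surjective r)

include hr in
/-- a polynomial relation at the identity coset holds at every coset -/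
theorem eval₂_eq_zero_of_root (Q : Polynomial (Polynomial S))
    (h0 : eval₂ (phik k N) (Eb D S r D.i₀ (ThS D S hζ hN)) (Q.map (mapRingHom r)) = 0)
    (i : D.I) :
    eval₂ (phik k N) (Eb D S r i (ThS D S hζ hN)) (Q.map (mapRingHom r)) = 0 := by
  rw [← Eb_polyJT] at h0 ⊢
  exact Eb_eq_zero_of D S r hζ hN hr _ D.i₀ i h0

include hr in
/-- a monic polynomial of degree `#I` vanishing at `(j, Θ)` is the characteristic polynomial -/
theorem map_eq_prod_of_root (Q : Polynomial (Polynomial S)) (hQ : Q.Monic)
    (hdeg : Q.natDegree = Fintype.card D.I)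
    (h0 : eval₂ (phik k N) (Eb D S r D.i₀ (ThS D S hζ hN)) (Q.map (mapRingHom r)) = 0) :
    (Q.map (mapRingHom r)).map (phik k N) = ∏ i, (X - C (Eb D S r i (ThS D S hζ hN))) := by
  have hm1 : ((Q.map (mapRingHom r)).map (phik k N)).Monic := (hQ.map _).map _
  have hm2 : (∏ i, (X - C (Eb D S r i (ThS D S hζ hN)))).Monic :=
    monic_prod_of_monic _ _ fun i _ => monic_X_sub_C _
  have hd1 : ((Q.map (mapRingHom r)).map (phik k N)).natDegree = Fintype.card D.I := by
    rw [(hQ.map _).natDegree_map, hQ.natDegree_map, hdeg]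
  have hd2 : (∏ i, (X - C (Eb D S r i (ThS D S hζ hN)))).natDegree = Fintype.card D.I := by
    rw [natDegree_prod_of_monic _ _ fun i _ => monic_X_sub_C _]
    simp
  have hcard : 0 < Fintype.card D.I := Fintype.card_pos_iff.mpr ⟨D.i₀⟩
  apply sub_eq_zero.mp
  apply Polynomial.eq_zero_of_natDegree_lt_card_of_eval_eq_zero _
    (Eb_ThS_injective D S r hζ hN)
  · intro i
    rw [eval_sub, eval_map, eval₂_eq_zero_of_root D S r hζ hN hr Q h0 i, eval_prod,
      Finset.prod_eq_zero (Finset.mem_univ i) (by simp), sub_zero]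
  · by_cases hz : (Q.map (mapRingHom r)).map (phik k N) -
        ∏ i, (X - C (Eb D S r i (ThS D S hζ hN))) = 0
    · rw [hz, natDegree_zero]
      exact hcard
    · have hdeg' : ((Q.map (mapRingHom r)).map (phik k N)).degree =
          (∏ i, (X - C (Eb D S r i (ThS D S hζ hN)))).degree := by
        rw [degree_eq_natDegree hm1.ne_zero, degree_eq_natDegree hm2.ne_zero, hd1, hd2]
      have h3 := degree_sub_lt_left hdeg' hm1.ne_zero (hm1.leadingCoeff.trans hm2.leadingCoeff.symm)
      have h4 := natDegree_lt_natDegree hz h3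
      rwa [hd1] at h4

include hr in
/-- the derivative of the modular equation at the coset `i` -/
theorem eval₂_derivative_of_root (Q : Polynomial (Polynomial S)) (hQ : Q.Monic)
    (hdeg : Q.natDegree = Fintype.card D.I)
    (h0 : eval₂ (phik k N) (Eb D S r D.i₀ (ThS D S hζ hN)) (Q.map (mapRingHom r)) = 0)
    (i : D.I) :
    eval₂ (phik k N) (Eb D S r i (ThS D S hζ hN)) (derivative (Q.map (mapRingHom r))) =
      ∏ i' ∈ Finset.univ.erase i,
        (Eb D S r i (ThS D S hζ hN) - Eb D S r i' (ThS D S hζ hN)) := by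
  rw [← eval_map, ← derivative_map, map_eq_prod_of_root D S r hζ hN hr Q hQ hdeg h0]
  exact eval_derivative_prod_X_sub_C (fun i => Eb D S r i (ThS D S hζ hN)) i

include hr in
theorem eval₂_derivative_of_root_ne_zero (Q : Polynomial (Polynomial S)) (hQ : Q.Monic)
    (hdeg : Q.natDegree = Fintype.card D.I)
    (h0 : eval₂ (phik k N) (Eb D S r D.i₀ (ThS D S hζ hN)) (Q.map (mapRingHom r)) = 0)
    (i : D.I) :
    eval₂ (phik k N) (Eb D S r i (ThS D S hζ hN)) (derivative (Q.map (mapRingHom r))) ≠ 0 := by
  rw [eval₂_derivative_of_root D S r hζ hN hr Q hQ hdeg h0]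
  refine Finset.prod_ne_zero_iff.mpr fun i' hi' => sub_ne_zero.mpr fun h => ?_
  exact (Finset.mem_erase.mp hi').1 (Eb_ThS_injective D S r hζ hN h).symm

include hr in
/-- **(IV)** the order of the derivative of the modular equation at the coset `i` is
independent of the characteristic -/
theorem order_derivative_of_root (Q : Polynomial (Polynomial S)) (hQ : Q.Monic)
    (hdeg : Q.natDegree = Fintype.card D.I)
    (h0 : eval₂ (phik k N) (Eb D S r D.i₀ (ThS D S hζ hN)) (Q.map (mapRingHom r)) = 0)
    (i : D.I) :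
    (eval₂ (phik k N) (Eb D S r i (ThS D S hζ hN))
      (derivative (Q.map (mapRingHom r)))).order = cuspExp D i := by
  rw [eval₂_derivative_of_root D S r hζ hN hr Q hQ hdeg h0, order_prod_field]
  · rw [cuspExp, ← Finset.sum_neg_distrib]
    refine Finset.sum_congr rfl fun i' hi' => ?_
    exact order_Eb_ThS_sub D S r hζ hN i i' (Finset.mem_erase.mp hi').1.symm
  · intro i' hi'
    exact sub_ne_zero.mpr fun h =>
      (Finset.mem_erase.mp hi').1 (Eb_ThS_injective D S r hζ hN h).symm

end Ord

end Fermat.Agent.P2.helper28
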