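import Mathlib
import Fermat.Prelude.Def_ModularCurve_ReductionModL
import Fermat.Agent.S24.Defs
import Fermat.Agent.S24.helper77_Transc
import Fermat.Agent.S28.helper94_Zl
import Fermat.Agent.S28.helper81_ATStatement
import Fermat.Agent.S28.helper81_ResidueField

/-!
# P2-VAL (helper81), part 1: a valuation ring `A ⊂ ℚ̄` over `ℓ` — basic ring theory

* `isUnit_natCast_of_not_dvd`: integers prime to `ℓ` are units of `A`;
* `charP_residueField`: the residue field has characteristic `ℓ`;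
* `zlToA : ℤ_(ℓ) →+* A`;
* `subringC A : Subring ℂ` (the image of `A` under the chosen embedding `ℚ̄ → ℂ`) with its
  reduction map `rhoC A : subringC A →+* k`, and `ζ_N, 1/N ∈ subringC A`.
-/

set_option autoImplicit false
set_option linter.style.haveILetI false
set_option linter.unusedSectionVars false

open ModularCurve Polynomial

noncomputable section

namespace Fermat.Agent.P2.helper81

open Fermat.Agent.S24 Fermat.Agent.S28.helper94 Fermat.Agent.S28.helper81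

/-- the residue field of a valuation subring of `ℚ̄` -/
abbrev kA (A : ValuationSubring Kbar) : Type := IsLocalRing.ResidueField A

section Ring

variable (A : ValuationSubring Kbar) {ℓ : ℕ} [hℓ : Fact ℓ.Prime]

theorem natCast_mem_maximalIdeal (hA : A.LiesOverPrime ℓ) :
    ((ℓ : ℕ) : A) ∈ IsLocalRing.maximalIdeal A := by
  obtain ⟨h1, h2⟩ := ValuationSubring.mem_nonunits_iff_exists_mem_maximalIdeal.mp hA
  have : (⟨(ℓ : Kbar), h1⟩ : A) = ((ℓ : ℕ) : A) := Subtype.ext (by simp)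
  rwa [this] at h2

theorem isUnit_intCast_of_not_dvd (hA : A.LiesOverPrime ℓ) (m : ℤ) (hm : ¬ (ℓ : ℤ) ∣ m) :
    IsUnit ((m : ℤ) : A) := by
  by_contra hu
  have hmem : ((m : ℤ) : A) ∈ IsLocalRing.maximalIdeal A :=
    (IsLocalRing.mem_maximalIdeal _).mpr hu
  have hcop : IsCoprime (ℓ : ℤ) m :=
    (Nat.prime_iff_prime_int.mp hℓ.out).coprime_iff_not_dvd.mpr hm
  obtain ⟨a, b, hab⟩ := hcop
  have h1 : ((a : ℤ) : A) * ((ℓ : ℕ) : A) + ((b : ℤ) : A) * ((m : ℤ) : A) = 1 := by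
    have := congrArg (fun z : ℤ => ((z : ℤ) : A)) hab
    simpa using this
  have h2 : (1 : A) ∈ IsLocalRing.maximalIdeal A := by
    rw [← h1]
    exact Ideal.add_mem _ (Ideal.mul_mem_left _ _ (natCast_mem_maximalIdeal A hA))
      (Ideal.mul_mem_left _ _ hmem)
  exact (IsLocalRing.maximalIdeal.isMaximal A).ne_top ((Ideal.eq_top_iff_one _).mpr h2)

theorem isUnit_natCast_of_not_dvd (hA : A.LiesOverPrime ℓ) (m : ℕ) (hm : ¬ ℓ ∣ m) :
    IsUnit ((m : ℕ) : A) := by
  have := isUnit_intCast_of_not_dvd A hA (m : ℤ) (by exact_mod_cast hm)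
  simpa using this

theorem charP_residueField (hA : A.LiesOverPrime ℓ) : CharP (kA A) ℓ := by
  rw [CharP.charP_iff_prime_eq_zero hℓ.out]
  have h := natCast_mem_maximalIdeal A hA
  rw [← IsLocalRing.residue_eq_zero_iff] at h
  rw [← h]
  simp

theorem natCast_residueField_ne_zero (hA : A.LiesOverPrime ℓ) (m : ℕ) (hm : ¬ ℓ ∣ m) :
    ((m : ℕ) : kA A) ≠ 0 := by
  have h := (isUnit_natCast_of_not_dvd A hA m hm).map (IsLocalRing.residue A)
  rw [map_natCast] at h
  exact h.ne_zero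

theorem ratCast_mem_of_mem_Zl (hA : A.LiesOverPrime ℓ) (a : Zl ℓ) :
    algebraMap ℚ Kbar (a : ℚ) ∈ A := by
  have hden : ¬ (ℓ : ℤ) ∣ (((a : ℚ).den : ℕ) : ℤ) := not_dvd_den ℓ a
  obtain ⟨u, hu⟩ := isUnit_intCast_of_not_dvd A hA _ hden
  have h1 : algebraMap ℚ Kbar (a : ℚ) =
      (((a : ℚ).num : ℤ) : Kbar) * (((u⁻¹ : Aˣ) : A) : Kbar) := by
    have h2 : (((u : A)) : Kbar) = (((a : ℚ).den : ℕ) : Kbar) := by
      rw [hu]; simp
    have h3 : (((u⁻¹ : Aˣ) : A) : Kbar) = ((((a : ℚ).den : ℕ) : Kbar))⁻¹ := by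
      rw [← h2]
      apply eq_inv_of_mul_eq_one_left
      have := congrArg (fun z : A => (z : Kbar)) (Units.inv_mul u)
      exact this
    rw [h3, eq_ratCast]
    have hd : (((a : ℚ).den : ℕ) : Kbar) ≠ 0 := by
      exact_mod_cast (a : ℚ).den_ne_zero
    rw [eq_mul_inv_iff_mul_eq₀ hd]
    have := Rat.mul_den_eq_num (a : ℚ)
    exact_mod_cast congrArg (fun q : ℚ => (q : Kbar)) this
  rw [h1]
  exact A.mul_mem _ _ (intCast_mem A _) (SetLike.coe_mem _)

/-- the canonical map `ℤ_(ℓ) → A` -/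
def zlToA (hA : A.LiesOverPrime ℓ) : Zl ℓ →+* A :=
  ((algebraMap ℚ Kbar).comp (GaloisRep.ratLocalizedAt ℓ).subtype).codRestrict A
    (ratCast_mem_of_mem_Zl A hA)

theorem coe_zlToA (hA : A.LiesOverPrime ℓ) (a : Zl ℓ) :
    ((zlToA A hA a : A) : Kbar) = algebraMap ℚ Kbar (a : ℚ) := rfl

theorem subtype_comp_zlToA (hA : A.LiesOverPrime ℓ) :
    (A.subtype : A →+* Kbar).comp (zlToA A hA) =
      (algebraMap ℚ Kbar).comp (algebraMap (Zl ℓ) ℚ) := rfl

/-- the canonical map `ℤ_(ℓ) → k` -/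
def zlToK (hA : A.LiesOverPrime ℓ) : Zl ℓ →+* kA A :=
  (IsLocalRing.residue A).comp (zlToA A hA)

end Ring

section Complex

variable (A : ValuationSubring Kbar)

/-- the image of `A` in `ℂ` -/
def subringC : Subring ℂ := A.toSubring.map (iotaC : Kbar →+* ℂ)

theorem iotaC_injective : Function.Injective (iotaC : Kbar →+* ℂ) :=
  (iotaC : Kbar →+* ℂ).injective

/-- `A ≃ subringC A` -/
def equivC : A ≃+* subringC A :=
  Subring.equivMapOfInjective A.toSubring (iotaC : Kbar →+* ℂ) iotaC_injective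

theorem coe_equivC (a : A) : ((equivC A a : subringC A) : ℂ) = iotaC (a : Kbar) := rfl

/-- the reduction map on the image of `A` in `ℂ` -/
def rhoC : subringC A →+* kA A :=
  (IsLocalRing.residue A).comp (equivC A).symm.toRingHom

theorem rhoC_surjective : Function.Surjective (rhoC A) :=
  (IsLocalRing.residue_surjective).comp (equivC A).symm.surjective

theorem rhoC_equivC (a : A) : rhoC A (equivC A a) = IsLocalRing.residue A a := by
  simp [rhoC]

theorem mem_subringC_iff (z : ℂ) : z ∈ subringC A ↔ ∃ a : Kbar, a ∈ A ∧ iotaC a = z := by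
  rfl

theorem exists_iotaC_eq_of_isAlgebraic {z : ℂ} (hz : IsAlgebraic ℚ z) :
    ∃ a : Kbar, iotaC a = z := by
  letI : Algebra Kbar ℂ := (iotaC : Kbar →+* ℂ).toAlgebra
  haveI : IsScalarTower ℚ Kbar ℂ := IsScalarTower.of_algebraMap_eq fun q => by
    show algebraMap ℚ ℂ q = iotaC (algebraMap ℚ Kbar q)
    rw [AlgHom.commutes]
  have hz' : IsAlgebraic Kbar z := hz.tower_top Kbar
  obtain ⟨a, ha⟩ := helper77.mem_range_algebraMap_of_isAlgebraic hz'
  exact ⟨a, ha⟩

theorem mem_of_pow_eq_one {a : Kbar} {n : ℕ} (hn : n ≠ 0) (h : a ^ n = 1) : a ∈ A := by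
  rw [← A.valuation_le_one_iff]
  have h1 : A.valuation a ^ n = 1 := by rw [← map_pow, h, map_one]
  exact ((pow_eq_one_iff_of_nonneg zero_le hn).mp h1).le

theorem zetaC_mem_subringC (N : ℕ) [NeZero N] : zetaC N ∈ subringC A := by
  have hpow : zetaC N ^ N = 1 := zetaC_pow N
  have halg : IsAlgebraic ℚ (zetaC N) := by
    refine ⟨X ^ N - 1, ?_, by simp [hpow]⟩
    exact (monic_X_pow_sub_C (1 : ℚ) (NeZero.ne N)).ne_zero
  obtain ⟨a, ha⟩ := exists_iotaC_eq_of_isAlgebraic halg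
  refine (mem_subringC_iff A _).mpr ⟨a, ?_, ha⟩
  apply mem_of_pow_eq_one A (NeZero.ne N)
  apply iotaC_injective
  rw [map_pow, map_one]
  show (iotaC a) ^ N = 1
  rw [ha, hpow]

theorem natCast_inv_mem_subringC {ℓ : ℕ} [Fact ℓ.Prime] (hA : A.LiesOverPrime ℓ)
    (N : ℕ) (hℓN : ¬ ℓ ∣ N) : ((N : ℕ) : ℂ)⁻¹ ∈ subringC A := by
  obtain ⟨u, hu⟩ := isUnit_natCast_of_not_dvd A hA N hℓN
  refine (mem_subringC_iff A _).mpr ⟨(((u⁻¹ : Aˣ) : A) : Kbar), SetLike.coe_mem _, ?_⟩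
  apply eq_inv_of_mul_eq_one_left
  have h1 : ((N : ℕ) : ℂ) = iotaC (((u : A)) : Kbar) := by
    rw [hu]; simp
  rw [h1, ← map_mul]
  have : ((((u⁻¹ : Aˣ) : A) : Kbar)) * (((u : A)) : Kbar) = 1 :=
    congrArg (fun z : A => (z : Kbar)) (Units.inv_mul u)
  rw [this, map_one]

end Complex

end Fermat.Agent.P2.helper81
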