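import Mathlib
import Fermat.Agent.P2.helper81_ValBase
import Fermat.Agent.S28.helper81_Discharge
import Fermat.Agent.S28.AnalyticConj

/-!
# P2-VAL (helper81), part 2: the modular equation `Φ_N ∈ ℤ_(ℓ)[X][Y]`

`PhiZl N ℓ hℓN` is the minimal polynomial of `θ = j(q^N)` over `ℤ_(ℓ)[j]`: monic in `Y`,
`Φ(j, θ) = 0` in `ℤ_(ℓ)((q))`, `∂Φ/∂Y (j, θ)` is a unit of `ℤ_(ℓ)((q))`, `Φ` is irreducible
over `ℂ`, and its reduction to the residue field of any valuation ring `A ⊂ ℚ̄` over `ℓ` is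
irreducible.
-/

set_option autoImplicit false
set_option linter.style.haveILetI false
set_option linter.unusedSectionVars false

open ModularCurve Polynomial

noncomputable section

namespace Fermat.Agent.P2.helper81

open Fermat.Agent.S24 Fermat.Agent.S28.helper94 Fermat.Agent.S28.helper81

/-- the analytic data at level `N` (chosen once and for all) -/
def conjData (N : ℕ) [NeZero N] : ConjData N :=
  (nonempty_conjData (Fermat.Agent.S28.atStatement N)).some

/-- the degree `[F_N : ℚ̄(j)]` -/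
def degN (N : ℕ) [NeZero N] : ℕ := Fintype.card (conjData N).I

section Phi

variable (N : ℕ) [NeZero N] (ℓ : ℕ) [Fact ℓ.Prime] (hℓN : ¬ ℓ ∣ N)

/-- the modular equation of level `N` over `ℤ_(ℓ)` -/
def PhiZl : Polynomial (Polynomial (Zl ℓ)) :=
  ((conjData N).exists_Phi ℓ hℓN descentStatement).choose

theorem PhiZl_prod :
    (∏ i, (X - C ((conjData N).E i ((conjData N).Jd N)))) =
      ((PhiZl N ℓ hℓN).map (Polynomial.mapRingHom (algebraMap (Zl ℓ) ℂ))).map
        ((aeval (xC N) : Polynomial ℂ →ₐ[ℂ] LaurentSeries ℂ) :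
          Polynomial ℂ →+* LaurentSeries ℂ) :=
  ((conjData N).exists_Phi ℓ hℓN descentStatement).choose_spec.1

theorem PhiZl_monic : (PhiZl N ℓ hℓN).Monic :=
  ((conjData N).exists_Phi ℓ hℓN descentStatement).choose_spec.2.1

theorem PhiZl_natDegree : (PhiZl N ℓ hℓN).natDegree = degN N :=
  ((conjData N).exists_Phi ℓ hℓN descentStatement).choose_spec.2.2.1

theorem PhiZl_irreducibleC :
    Irreducible ((PhiZl N ℓ hℓN).map (Polynomial.mapRingHom (algebraMap (Zl ℓ) ℂ))) :=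
  ((conjData N).exists_Phi ℓ hℓN descentStatement).choose_spec.2.2.2

/-- `Φ(j, θ) = 0` in `ℤ_(ℓ)((q))` -/
theorem PhiZl_root :
    eval₂ ((aeval (jqModC (Zl ℓ)) : Polynomial (Zl ℓ) →ₐ[Zl ℓ] LaurentSeries (Zl ℓ)) :
        Polynomial (Zl ℓ) →+* LaurentSeries (Zl ℓ)) (qExpand (Zl ℓ) N (jqModC (Zl ℓ)))
      (PhiZl N ℓ hℓN) = 0 := by
  apply psiMap_injective N ℓ
  rw [psiMap_eval₂, psiMap_jqModC, psiMap_qExpand_jqModC, ← (conjData N).E_i₀_Theta, map_zero]
  exact (conjData N).eval_root _ (PhiZl_prod N ℓ hℓN)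

/-- `∂Φ/∂Y (j, θ)` is a unit of `ℤ_(ℓ)((q))` -/
theorem PhiZl_isUnit_derivative :
    IsUnit (eval₂ ((aeval (jqModC (Zl ℓ)) :
        Polynomial (Zl ℓ) →ₐ[Zl ℓ] LaurentSeries (Zl ℓ)) :
        Polynomial (Zl ℓ) →+* LaurentSeries (Zl ℓ)) (qExpand (Zl ℓ) N (jqModC (Zl ℓ)))
        (derivative (PhiZl N ℓ hℓN))) := by
  classical
  have hN0 : N ≠ 0 := NeZero.ne N
  have hNpos : (0 : ℤ) < N := by exact_mod_cast Nat.pos_of_ne_zero hN0
  set D := conjData N with hD
  set Φ := PhiZl N ℓ hℓN with hΦdef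
  have hΦ := PhiZl_prod N ℓ hℓN
  set y := eval₂ ((aeval (jqModC (Zl ℓ)) :
      Polynomial (Zl ℓ) →ₐ[Zl ℓ] LaurentSeries (Zl ℓ)) :
      Polynomial (Zl ℓ) →+* LaurentSeries (Zl ℓ)) (qExpand (Zl ℓ) N (jqModC (Zl ℓ)))
      (derivative Φ) with hy
  have hψ : psiMap N ℓ y = eval₂ ((aeval (xC N) : Polynomial ℂ →ₐ[ℂ] LaurentSeries ℂ) :
        Polynomial ℂ →+* LaurentSeries ℂ) (D.E D.i₀ (D.Jd N))
        (derivative (Φ.map (Polynomial.mapRingHom (algebraMap (Zl ℓ) ℂ)))) := by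
    rw [hy, psiMap_eval₂, psiMap_jqModC, psiMap_qExpand_jqModC, ← D.E_i₀_Theta,
      Polynomial.derivative_map]
  obtain ⟨h1, h2⟩ := D.coeff_eval_derivative _ hΦ
  rw [← hψ] at h1 h2
  have hinjalg := FaithfulSMul.algebraMap_injective (Zl ℓ) ℂ
  have hidx : (Fintype.card D.I - 1) • (-((N * N : ℕ) : ℤ)) =
      (N : ℤ) * ((Fintype.card D.I - 1) • (-(N : ℤ))) := by
    simp only [nsmul_eq_mul]
    push_cast
    ring
  refine isUnit_of_coeff y ((Fintype.card D.I - 1) • (-(N : ℤ))) ?_ ?_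
  · rw [hidx, psiMap_coeff] at h1
    have : y.coeff ((Fintype.card D.I - 1) • (-(N : ℤ))) = 1 := by
      apply hinjalg
      rw [h1, map_one]
    rw [this]
    exact isUnit_one
  · intro m hm
    have h3 := h2 ((N : ℤ) * m) (by rw [hidx]; exact mul_lt_mul_of_pos_left hm hNpos)
    rw [psiMap_coeff] at h3
    apply hinjalg
    rw [h3, map_zero]

/-- **T3.**  The reduction of `Φ` to the residue field of any valuation ring of `ℚ̄` over `ℓ`
is irreducible. -/
theorem PhiZl_irreducible_residue (A : ValuationSubring Kbar) (hA : A.LiesOverPrime ℓ) :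
    Irreducible ((PhiZl N ℓ hℓN).map (Polynomial.mapRingHom (zlToK A hA))) := by
  classical
  set D := conjData N with hD
  set Φ := PhiZl N ℓ hℓN with hΦdef
  have hΦ := PhiZl_prod N ℓ hℓN
  let ι₀ : Zl ℓ →+* subringC A := (equivC A).toRingHom.comp (zlToA A hA)
  have hι₀ : (subringC A).subtype.comp ι₀ = algebraMap (Zl ℓ) ℂ := ringHom_ext_Zl ℓ _ _
  have h := D.irreducible_reduction (subringC A) (zetaC_mem_subringC A N)
    (natCast_inv_mem_subringC A hA N hℓN) (rhoC A) (rhoC_surjective A)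
    (natCast_residueField_ne_zero A hA N hℓN) (Φ.map (Polynomial.mapRingHom ι₀))
    (by rw [map_mapRingHom_comp, hι₀]; exact hΦ)
  rw [map_mapRingHom_comp] at h
  have hcomp : (rhoC A).comp ι₀ = zlToK A hA := ringHom_ext_Zl ℓ _ _
  rw [hcomp] at h
  exact h

end Phi

end Fermat.Agent.P2.helper81
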