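import Mathlib
import Fermat.Agent.P2.helper81_ValPhi

/-!
# P2-VAL (helper81), part 3: the modular equation in characteristic `ℓ`

`k = kA A` is the residue field of a valuation ring `A ⊂ ℚ̄` over `ℓ`, `ℓ ∤ N`.

* `phiBar A hA N hℓN : k[X][Y]` is the reduction of the modular equation: monic, irreducible,
  `phiBar(j̃, θ̃) = 0`, `∂phiBar/∂Y (j̃, θ̃) ≠ 0` (`j̃ = jqModC k`, `θ̃ = j̃(q^N)`);
* `eq_zero_of_eval₂_eq_zero_of_natDegree_lt` (generic): linear independence of
  `1, θ, …, θ^(n-1)` over `k[x]` from irreducibility;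
* `eq_zero_of_evalBar_eq_zero`: `G(j̃, θ̃) = 0`, `deg_Y G < n` implies `G = 0`.
-/

set_option autoImplicit false
set_option linter.style.haveILetI false
set_option linter.unusedSectionVars false

open ModularCurve Polynomial

noncomputable section

namespace Fermat.Agent.P2.helper81

open Fermat.Agent.S24 Fermat.Agent.S28.helper94 Fermat.Agent.S28.helper81
open Fermat.Agent.S28

section Generic

variable {k : Type*} [Field k] {L : Type*} [Field L] [Algebra k L]

/-- evaluation of a two-variable polynomial at `(x, θ)` -/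
abbrev ev₂ {R : Type*} [CommRing R] {L : Type*} [CommRing L] [Algebra R L] (x θ : L) :
    Polynomial (Polynomial R) →+* L :=
  eval₂RingHom ((aeval x : Polynomial R →ₐ[R] L) : Polynomial R →+* L) θ

theorem ev₂_apply {R : Type*} [CommRing R] {L : Type*} [CommRing L] [Algebra R L] (x θ : L)
    (G : Polynomial (Polynomial R)) :
    ev₂ x θ G = eval₂ ((aeval x : Polynomial R →ₐ[R] L) : Polynomial R →+* L) θ G := rfl

theorem ev₂_C {R : Type*} [CommRing R] {L : Type*} [CommRing L] [Algebra R L] (x θ : L)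
    (s : Polynomial R) : ev₂ x θ (C s) = aeval x s := by
  rw [ev₂_apply, eval₂_C]; rfl

theorem ev₂_X {R : Type*} [CommRing R] {L : Type*} [CommRing L] [Algebra R L] (x θ : L) :
    ev₂ (R := R) x θ X = θ := by
  rw [ev₂_apply, eval₂_X]

/-- If `P ∈ k[X][Y]` is monic and irreducible with `P(x, θ) = 0`, `x` transcendental, then
`P` divides every `G` with `G(x, θ) = 0`. -/
theorem dvd_of_ev₂_eq_zero (x θ : L) (hx : Transcendental k x)
    (P : Polynomial (Polynomial k)) (hm : P.Monic) (hirr : Irreducible P)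
    (h0 : ev₂ x θ P = 0) (G : Polynomial (Polynomial k)) (hG : ev₂ x θ G = 0) : P ∣ G := by
  letI alg : Algebra (Polynomial k) L :=
    ((aeval x : Polynomial k →ₐ[k] L) : Polynomial k →+* L).toAlgebra
  haveI : FaithfulSMul (Polynomial k) L :=
    (faithfulSMul_iff_algebraMap_injective _ _).mpr (transcendental_iff_injective.mp hx)
  have h0' : aeval θ P = 0 := by rw [aeval_def]; exact h0
  have hG' : aeval θ G = 0 := by rw [aeval_def]; exact hG
  exact helper25.dvd_of_aeval_eq_zero_of_irreducible hm hirr h0' hG'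

theorem eq_zero_of_ev₂_eq_zero_of_natDegree_lt (x θ : L) (hx : Transcendental k x)
    (P : Polynomial (Polynomial k)) (hm : P.Monic) (hirr : Irreducible P)
    (h0 : ev₂ x θ P = 0) (G : Polynomial (Polynomial k)) (hG : ev₂ x θ G = 0)
    (hdeg : G.natDegree < P.natDegree) : G = 0 := by
  by_contra hne
  have hdvd := dvd_of_ev₂_eq_zero x θ hx P hm hirr h0 G hG
  have := Polynomial.natDegree_le_of_dvd hdvd hne
  omega

/-- Bezout: if `Q(x, θ) ≠ 0` then `U Q + V P = d` with `0 ≠ d ∈ k[X]`. -/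
theorem exists_bezout_ev₂ (x θ : L) (hx : Transcendental k x)
    (P : Polynomial (Polynomial k)) (hm : P.Monic) (hirr : Irreducible P)
    (h0 : ev₂ x θ P = 0) (Q : Polynomial (Polynomial k)) (hQ : ev₂ x θ Q ≠ 0) :
    ∃ (U V : Polynomial (Polynomial k)) (d : Polynomial k), d ≠ 0 ∧ U * Q + V * P = C d := by
  letI alg : Algebra (Polynomial k) L :=
    ((aeval x : Polynomial k →ₐ[k] L) : Polynomial k →+* L).toAlgebra
  haveI : FaithfulSMul (Polynomial k) L :=
    (faithfulSMul_iff_algebraMap_injective _ _).mpr (transcendental_iff_injective.mp hx)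
  have h0' : aeval θ P = 0 := by rw [aeval_def]; exact h0
  have hQ' : aeval θ Q ≠ 0 := by rw [aeval_def]; exact hQ
  exact helper25.exists_bezout_of_irreducible hm hirr h0' hQ'

end Generic

section Bar

variable (A : ValuationSubring Kbar) {ℓ : ℕ} [Fact ℓ.Prime] (hA : A.LiesOverPrime ℓ)
variable (N : ℕ) [NeZero N] (hℓN : ¬ ℓ ∣ N)

/-- `j̃ = j mod 𝔪` as a Laurent series over the residue field -/
abbrev jBar : LaurentSeries (kA A) := jqModC (kA A)

/-- `θ̃ = j(q^N) mod 𝔪` -/
abbrev thetaBar : LaurentSeries (kA A) := qExpand (kA A) N (jqModC (kA A))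

/-- the reduction of the modular equation -/
def phiBar : Polynomial (Polynomial (kA A)) :=
  (PhiZl N ℓ hℓN).map (Polynomial.mapRingHom (zlToK A hA))

theorem phiBar_monic : (phiBar A hA N hℓN).Monic := (PhiZl_monic N ℓ hℓN).map _

theorem phiBar_natDegree : (phiBar A hA N hℓN).natDegree = degN N := by
  rw [phiBar, (PhiZl_monic N ℓ hℓN).natDegree_map, PhiZl_natDegree]

theorem phiBar_irreducible : Irreducible (phiBar A hA N hℓN) :=
  PhiZl_irreducible_residue N ℓ hℓN A hA

theorem degN_pos : 0 < degN N := by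
  obtain ⟨ℓ, hℓ, hℓN⟩ : ∃ ℓ : ℕ, ℓ.Prime ∧ ¬ ℓ ∣ N := by
    obtain ⟨p, hp, hpp⟩ := Nat.exists_infinite_primes (N + 1)
    exact ⟨p, hpp, fun h => by
      have := Nat.le_of_dvd (Nat.pos_of_ne_zero (NeZero.ne N)) h
      omega⟩
  haveI : Fact ℓ.Prime := ⟨hℓ⟩
  rw [← PhiZl_natDegree N ℓ hℓN]
  by_contra h0
  have h1 : (PhiZl N ℓ hℓN).natDegree = 0 := by omega
  have h2 : PhiZl N ℓ hℓN = 1 := by
    have := Polynomial.eq_C_of_natDegree_eq_zero h1
    have hm := PhiZl_monic N ℓ hℓN
    rw [Polynomial.Monic, Polynomial.leadingCoeff, h1] at hm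
    rw [this, hm, map_one]
  have h3 := PhiZl_irreducibleC N ℓ hℓN
  rw [h2, Polynomial.map_one] at h3
  exact h3.not_isUnit isUnit_one

theorem transcendental_jBar : Transcendental (kA A) (jBar A) := by
  apply transcendental_of_order_neg
  rw [order_jqModC]
  norm_num

theorem phiBar_root : ev₂ (jBar A) (thetaBar A N) (phiBar A hA N hℓN) = 0 := by
  have h := congrArg (coeffMap (zlToK A hA)) (PhiZl_root N ℓ hℓN)
  rw [helper25.coeffMap_eval₂_aeval, map_zero, ModularCurve.coeffMap_qExpand, ModularCurve.coeffMap_jqModC] at h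
  exact h

theorem phiBar_derivative_isUnit :
    IsUnit (ev₂ (jBar A) (thetaBar A N) (derivative (phiBar A hA N hℓN))) := by
  have h := (PhiZl_isUnit_derivative N ℓ hℓN).map (coeffMap (zlToK A hA))
  rw [helper25.coeffMap_eval₂_aeval, ModularCurve.coeffMap_qExpand, ModularCurve.coeffMap_jqModC,
    ← Polynomial.derivative_map] at h
  exact h

theorem phiBar_derivative_ne_zero :
    ev₂ (jBar A) (thetaBar A N) (derivative (phiBar A hA N hℓN)) ≠ 0 :=
  (phiBar_derivative_isUnit A hA N hℓN).ne_zero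

include hA hℓN in
/-- **linear independence in characteristic `ℓ`**: `G(j̃, θ̃) = 0` with `deg_Y G < n`
implies `G = 0`. -/
theorem eq_zero_of_evBar_eq_zero (G : Polynomial (Polynomial (kA A)))
    (hdeg : G.natDegree < degN N) (hG : ev₂ (jBar A) (thetaBar A N) G = 0) : G = 0 :=
  eq_zero_of_ev₂_eq_zero_of_natDegree_lt (jBar A) (thetaBar A N) (transcendental_jBar A)
    (phiBar A hA N hℓN) (phiBar_monic A hA N hℓN) (phiBar_irreducible A hA N hℓN)
    (phiBar_root A hA N hℓN) G hG (by rw [phiBar_natDegree]; exact hdeg)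

end Bar

end Fermat.Agent.P2.helper81
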