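import Mathlib
import Fermat.Agent.P2.helper81_ValBar
import Fermat.Agent.S24.helper17_Bridge
import Fermat.Agent.S24.helper24_FieldGen

/-!
# P2-VAL (helper81), part 4: generation of `F_N` over `ℚ̄(j)` by `θ = j(q^N)`

* `modularFunctionFieldBar_le_adjoin`: `F_N ≤ ℚ̄(j, θ)` inside `ℚ̄((q))`;
* `evX A N : A[X] →+* F_N` (`X ↦ j`), the `A[X]`-algebra structure `algAX` on `F_N`;
* `adjoin_fractionRing_eq_top`: `F_N = Frac(A[X])[θ]`;
* `exists_eq_ev₂` (**GEN**): for every `f ∈ F_N` there are `0 ≠ s ∈ A[X]` and `G ∈ A[X][Y]`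
  with `deg_Y G < n` and `s(j) f = G(j, θ)` (identity of Laurent series over `ℚ̄`).
-/

set_option autoImplicit false
set_option linter.style.haveILetI false
set_option linter.unusedSectionVars false

open ModularCurve Polynomial

noncomputable section

namespace Fermat.Agent.P2.helper81

open Fermat.Agent.S24 Fermat.Agent.S28.helper94 Fermat.Agent.S28.helper81
open Fermat.Agent.S28

section K

variable (N : ℕ) [NeZero N]

/-- `j` over `ℚ̄` -/
abbrev jK : LaurentSeries Kbar := jqModC Kbar

/-- `θ = j(q^N)` over `ℚ̄` -/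
abbrev thetaK : LaurentSeries Kbar := qExpand Kbar N (jqModC Kbar)

theorem coeffEmb_jq_eq : coeffEmb Kbar jq = jK := helper17.coeffEmb_jq Kbar

theorem coeffEmb_qExpand_jq_eq (d : ℕ) [NeZero d] :
    coeffEmb Kbar (qExpand ℚ d jq) = qExpand Kbar d (jqModC Kbar) := by
  rw [← helper17.Jd_eq]; rfl

theorem coeffEmb_mem_adjoin_pair (y : LaurentSeries ℚ)
    (hy : y ∈ IntermediateField.adjoin ℚ {jq, qExpand ℚ N jq}) :
    coeffEmb Kbar y ∈ IntermediateField.adjoin Kbar {jK, thetaK N} := by
  induction hy using IntermediateField.adjoin_induction with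
  | mem x hx =>
    rcases hx with rfl | rfl
    · rw [coeffEmb_jq_eq]
      exact IntermediateField.subset_adjoin Kbar _ (Set.mem_insert _ _)
    · rw [coeffEmb_qExpand_jq_eq]
      exact IntermediateField.subset_adjoin Kbar _ (Set.mem_insert_of_mem _ rfl)
  | algebraMap c =>
    rw [helper24.coeffEmb_algebraMap_rat]
    exact IntermediateField.algebraMap_mem _ _
  | add x y _ _ hx hy =>
    rw [map_add]
    exact add_mem hx hy
  | inv x _ hx =>
    rw [map_inv₀]
    exact inv_mem hx
  | mul x y _ _ hx hy =>
    rw [map_mul]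
    exact mul_mem hx hy

/-- **generation over `ℚ̄`**: `F_N ≤ ℚ̄(j, θ)`. -/
theorem modularFunctionFieldBar_le_adjoin :
    modularFunctionFieldBar N ≤ IntermediateField.adjoin Kbar {jK, thetaK N} := by
  obtain ⟨ℓ, hℓ, hℓN⟩ : ∃ ℓ : ℕ, ℓ.Prime ∧ ¬ ℓ ∣ N := by
    obtain ⟨p, hp, hpp⟩ := Nat.exists_infinite_primes (N + 1)
    exact ⟨p, hpp, fun h => by
      have := Nat.le_of_dvd (Nat.pos_of_ne_zero (NeZero.ne N)) h
      omega⟩
  haveI : Fact ℓ.Prime := ⟨hℓ⟩
  rw [helper24.modularFunctionFieldBar_eq_adjoin, IntermediateField.adjoin_le_iff]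
  rintro _ ⟨⟨d, hd⟩, rfl⟩
  have hd' := Nat.mem_divisors.mp hd
  have hd0 : d ≠ 0 := fun h => by
    rw [h] at hd'
    exact hd'.2 (Nat.eq_zero_of_zero_dvd hd'.1)
  haveI : NeZero d := ⟨hd0⟩
  show JdT d ∈ _
  rw [helper24.JdT_eq_coeffEmb]
  exact coeffEmb_mem_adjoin_pair N _
    (qExpand_jq_mem_of_conjData (conjData N) ℓ hℓN descentStatement lagrangeStatement d hd'.1)

end K

attribute [local instance] FractionRing.liftAlgebra FractionRing.isScalarTower_liftAlgebra

section AX

variable (A : ValuationSubring Kbar) (N : ℕ) [NeZero N]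

/-- `θ = j(q^N)` as an element of the function field -/
def thetaF : FN N := JdF N N dvd_rfl

theorem coe_xJ_eq : ((xJ N : FN N) : LaurentSeries Kbar) = jK := by
  show Jd 1 = _
  rw [helper17.Jd_eq, qExpand_one_apply]

theorem coe_thetaF : ((thetaF N : FN N) : LaurentSeries Kbar) = thetaK N := by
  show Jd N = _
  rw [helper17.Jd_eq]

/-- `j` over `A` -/
abbrev jA : LaurentSeries A := jqModC A

/-- `θ = j(q^N)` over `A` -/
abbrev thetaA : LaurentSeries A := qExpand A N (jqModC A)

theorem coeffMap_jA : coeffMap A.subtype (jA A) = jK := ModularCurve.coeffMap_jqModC _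

theorem coeffMap_thetaA : coeffMap A.subtype (thetaA A N) = thetaK N := by
  rw [ModularCurve.coeffMap_qExpand, ModularCurve.coeffMap_jqModC]

theorem coeffMap_subtype_injective : Function.Injective (coeffMap A.subtype) :=
  coeffMap_injective' _ Subtype.val_injective

/-- the structure map `A[X] → F_N`, `X ↦ j` -/
def evX : Polynomial A →+* FN N :=
  eval₂RingHom ((algebraMap Kbar (FN N)).comp A.subtype) (xJ N)

theorem evX_C (a : A) : evX A N (C a) = algebraMap Kbar (FN N) (a : Kbar) := by
  simp [evX]

theorem evX_X : evX A N X = xJ N := by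
  simp [evX]

theorem coe_evX (p : Polynomial A) :
    ((evX A N p : FN N) : LaurentSeries Kbar) = coeffMap A.subtype (aeval (jA A) p) := by
  have : (algebraMap (FN N) (LaurentSeries Kbar)).comp (evX A N) =
      (coeffMap A.subtype).comp
        ((aeval (jA A) : Polynomial A →ₐ[A] LaurentSeries A) : Polynomial A →+* LaurentSeries A) := by
    apply Polynomial.ringHom_ext
    · intro a
      simp only [RingHom.coe_comp, Function.comp_apply, evX_C, RingHom.coe_coe, aeval_C]
      rw [helper25.coeffMap_algebraMap_laurent]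
      rfl
    · simp only [RingHom.coe_comp, Function.comp_apply, evX_X, RingHom.coe_coe, aeval_X]
      rw [coeffMap_jA]
      exact coe_xJ_eq N
  exact congrArg (fun g => g p) this

theorem coe_evX' (p : Polynomial A) :
    ((evX A N p : FN N) : LaurentSeries Kbar) = aeval jK (p.map A.subtype) := by
  rw [coe_evX, helper25.coeffMap_aeval, coeffMap_jA]

theorem transcendental_jK : Transcendental Kbar jK := by
  apply transcendental_of_order_neg
  rw [order_jqModC]
  norm_num

theorem evX_injective : Function.Injective (evX A N) := by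
  rw [injective_iff_map_eq_zero]
  intro p hp
  have h1 := coe_evX' A N p
  rw [hp, ZeroMemClass.coe_zero] at h1
  have h2 := transcendental_iff_injective.mp transcendental_jK
  have h3 : p.map A.subtype = 0 := h2 (by rw [← h1, map_zero])
  exact (Polynomial.map_eq_zero_iff Subtype.val_injective).mp h3

/-- the `A[X]`-algebra structure on `F_N` -/
@[reducible] def algAX : Algebra (Polynomial A) (FN N) := (evX A N).toAlgebra

attribute [local instance] algAX

theorem algebraMap_AX (p : Polynomial A) : algebraMap (Polynomial A) (FN N) p = evX A N p := rfl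

theorem faithfulSMul_AX : FaithfulSMul (Polynomial A) (FN N) :=
  (faithfulSMul_iff_algebraMap_injective _ _).mpr (evX_injective A N)

attribute [local instance] faithfulSMul_AX

/-- compatibility of the expansions with evaluation at `θ` -/
theorem coe_aeval_thetaF (G : Polynomial (Polynomial A)) :
    ((aeval (thetaF N) G : FN N) : LaurentSeries Kbar) =
      coeffMap A.subtype (ev₂ (jA A) (thetaA A N) G) := by
  have : (algebraMap (FN N) (LaurentSeries Kbar)).comp
      ((aeval (thetaF N) : Polynomial (Polynomial A) →ₐ[Polynomial A] FN N) :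
        Polynomial (Polynomial A) →+* FN N) =
      (coeffMap A.subtype).comp (ev₂ (jA A) (thetaA A N)) := by
    apply Polynomial.ringHom_ext
    · intro p
      simp only [RingHom.coe_comp, Function.comp_apply, RingHom.coe_coe, aeval_C, ev₂_C]
      rw [algebraMap_AX]
      exact coe_evX A N p
    · simp only [RingHom.coe_comp, Function.comp_apply, RingHom.coe_coe, aeval_X, ev₂_X]
      rw [coeffMap_thetaA]
      exact coe_thetaF N
  exact congrArg (fun g => g G) this

/-- the modular equation over `A` -/
def PhiA {ℓ : ℕ} [Fact ℓ.Prime] (hA : A.LiesOverPrime ℓ) (hℓN : ¬ ℓ ∣ N) :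
    Polynomial (Polynomial A) :=
  (PhiZl N ℓ hℓN).map (Polynomial.mapRingHom (zlToA A hA))

section PhiA

variable {ℓ : ℕ} [Fact ℓ.Prime] (hA : A.LiesOverPrime ℓ) (hℓN : ¬ ℓ ∣ N)

theorem PhiA_monic : (PhiA A N hA hℓN).Monic := (PhiZl_monic N ℓ hℓN).map _

theorem PhiA_natDegree : (PhiA A N hA hℓN).natDegree = degN N := by
  rw [PhiA, (PhiZl_monic N ℓ hℓN).natDegree_map, PhiZl_natDegree]

theorem PhiA_root : ev₂ (jA A) (thetaA A N) (PhiA A N hA hℓN) = 0 := by
  have h := congrArg (coeffMap (zlToA A hA)) (PhiZl_root N ℓ hℓN)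
  rw [helper25.coeffMap_eval₂_aeval, map_zero, ModularCurve.coeffMap_qExpand,
    ModularCurve.coeffMap_jqModC] at h
  exact h

theorem PhiA_derivative_isUnit :
    IsUnit (ev₂ (jA A) (thetaA A N) (derivative (PhiA A N hA hℓN))) := by
  have h := (PhiZl_isUnit_derivative N ℓ hℓN).map (coeffMap (zlToA A hA))
  rw [helper25.coeffMap_eval₂_aeval, ModularCurve.coeffMap_qExpand,
    ModularCurve.coeffMap_jqModC, ← Polynomial.derivative_map] at h
  exact h

theorem PhiA_map_residue :
    (PhiA A N hA hℓN).map (Polynomial.mapRingHom (IsLocalRing.residue A)) =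
      phiBar A hA N hℓN := by
  rw [PhiA, phiBar, map_mapRingHom_comp]
  rfl

theorem aeval_thetaF_PhiA : aeval (thetaF N) (PhiA A N hA hℓN) = 0 := by
  apply Subtype.val_injective
  rw [coe_aeval_thetaF, PhiA_root, map_zero]
  rfl

include hA hℓN in
theorem isIntegral_thetaF : IsIntegral (Polynomial A) (thetaF N) :=
  ⟨PhiA A N hA hℓN, PhiA_monic A N hA hℓN, aeval_thetaF_PhiA A N hA hℓN⟩

/-- irreducibility of the modular equation over `A[X]` -/
theorem PhiA_irreducible : Irreducible (PhiA A N hA hℓN) :=
  Polynomial.Monic.irreducible_of_irreducible_map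
    (Polynomial.mapRingHom (IsLocalRing.residue A)) _ (PhiA_monic A N hA hℓN)
    (by rw [PhiA_map_residue]; exact phiBar_irreducible A hA N hℓN)

include hA hℓN in
/-- **generation**: `F_N = Frac(A[X])[θ]` -/
theorem adjoin_fractionRing_eq_top :
    Algebra.adjoin (FractionRing (Polynomial A)) {thetaF N} = ⊤ := by
  have hθint : IsIntegral (Polynomial A) (thetaF N) := isIntegral_thetaF A N hA hℓN
  have hθK : IsIntegral (FractionRing (Polynomial A)) (thetaF N) := hθint.tower_top
  rw [← IntermediateField.adjoin_simple_toSubalgebra_of_isAlgebraic hθK.isAlgebraic]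
  rw [eq_top_iff]
  intro f _
  rw [IntermediateField.mem_toSubalgebra]
  set S : Subfield (LaurentSeries Kbar) :=
    ((IntermediateField.adjoin (FractionRing (Polynomial A)) {thetaF N}).toSubfield).map
      (algebraMap (FN N) (LaurentSeries Kbar)) with hS
  have hconst : ∀ a : A, algebraMap Kbar (FN N) (a : Kbar) ∈
      IntermediateField.adjoin (FractionRing (Polynomial A)) {thetaF N} := by
    intro a
    have : algebraMap Kbar (FN N) (a : Kbar) =
        algebraMap (FractionRing (Polynomial A)) (FN N)
          (algebraMap (Polynomial A) (FractionRing (Polynomial A)) (C a)) := by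
      rw [← IsScalarTower.algebraMap_apply, algebraMap_AX, evX_C]
    rw [this]
    exact IntermediateField.algebraMap_mem _ _
  have hle : Subfield.closure (Set.range (algebraMap Kbar (LaurentSeries Kbar)) ∪
      {jK, thetaK N}) ≤ S := by
    rw [Subfield.closure_le]
    rintro y (⟨c, rfl⟩ | hy)
    · obtain ⟨a, b, hb, rfl⟩ := IsFractionRing.div_surjective (A := A) c
      refine ⟨algebraMap Kbar (FN N) (algebraMap A Kbar a / algebraMap A Kbar b), ?_, rfl⟩
      rw [map_div₀]
      exact div_mem (hconst a) (hconst b)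
    · rcases hy with rfl | rfl
      · refine ⟨xJ N, ?_, coe_xJ_eq N⟩
        change xJ N ∈ IntermediateField.adjoin (FractionRing (Polynomial A)) {thetaF N}
        have hx : xJ N = algebraMap (FractionRing (Polynomial A)) (FN N)
            (algebraMap (Polynomial A) (FractionRing (Polynomial A)) X) := by
          rw [← IsScalarTower.algebraMap_apply, algebraMap_AX, evX_X]
        rw [hx]
        exact IntermediateField.algebraMap_mem _ _
      · refine ⟨thetaF N, ?_, coe_thetaF N⟩
        exact IntermediateField.mem_adjoin_simple_self _ _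
  obtain ⟨g, hg, hgf⟩ := hle (modularFunctionFieldBar_le_adjoin N f.2)
  have : g = f := Subtype.val_injective hgf
  rw [← this]
  exact hg

include hA hℓN in
/-- **GEN**: every `f ∈ F_N` satisfies `s(j) f = G(j, θ)` with `0 ≠ s ∈ A[X]`,
`G ∈ A[X][Y]`, `deg_Y G < n`. -/
theorem exists_eq_ev₂ (f : FN N) :
    ∃ (s : Polynomial A) (G : Polynomial (Polynomial A)), s ≠ 0 ∧ G.natDegree < degN N ∧
      coeffMap A.subtype (aeval (jA A) s) * (f : LaurentSeries Kbar) =
        coeffMap A.subtype (ev₂ (jA A) (thetaA A N) G) := by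
  have hgen := adjoin_fractionRing_eq_top A N hA hℓN
  have hf : f ∈ Algebra.adjoin (FractionRing (Polynomial A)) {thetaF N} := by
    rw [hgen]; exact Algebra.mem_top
  rw [Algebra.adjoin_singleton_eq_range_aeval] at hf
  obtain ⟨p, hp⟩ := hf
  set Φ' := (PhiA A N hA hℓN).map (algebraMap (Polynomial A) (FractionRing (Polynomial A)))
    with hΦ'
  have hΦ'm : Φ'.Monic := (PhiA_monic A N hA hℓN).map _
  have hΦ'0 : aeval (thetaF N) Φ' = 0 := by
    rw [hΦ', aeval_map_algebraMap]; exact aeval_thetaF_PhiA A N hA hℓN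
  have hΦ'deg : Φ'.natDegree = degN N := by
    rw [hΦ', (PhiA_monic A N hA hℓN).natDegree_map, PhiA_natDegree]
  have hΦ'1 : Φ' ≠ 1 := by
    intro h1
    have := degN_pos N
    rw [← hΦ'deg, h1, natDegree_one] at this
    exact lt_irrefl _ this
  set p₁ := p %ₘ Φ' with hp₁
  have hp₁f : aeval (thetaF N) p₁ = f := by
    rw [hp₁, aeval_modByMonic_eq_self_of_root hΦ'0]; exact hp
  have hp₁deg : p₁.natDegree < degN N := by
    rw [← hΦ'deg]; exact natDegree_modByMonic_lt _ hΦ'm hΦ'1
  obtain ⟨b, hb, hG⟩ := IsLocalization.integerNormalization_spec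
    (nonZeroDivisors (Polynomial A)) p₁
  set G := IsLocalization.integerNormalization (nonZeroDivisors (Polynomial A)) p₁ with hGdef
  have hinj := IsFractionRing.injective (Polynomial A) (FractionRing (Polynomial A))
  refine ⟨b, G, nonZeroDivisors.ne_zero hb, ?_, ?_⟩
  · rw [← natDegree_map_eq_of_injective hinj G, hG]
    exact lt_of_le_of_lt (natDegree_smul_le _ _) hp₁deg
  · have h1 : aeval (thetaF N) G = evX A N b * f := by
      rw [← aeval_map_algebraMap (FractionRing (Polynomial A)), hG, Algebra.smul_def,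
        map_mul, hp₁f, IsScalarTower.algebraMap_apply (Polynomial A)
          (FractionRing (Polynomial A)) (Polynomial (FractionRing (Polynomial A))),
        Polynomial.algebraMap_apply, Algebra.algebraMap_self_apply, aeval_C,
        ← IsScalarTower.algebraMap_apply, algebraMap_AX]
    have h2 := congrArg (fun z : FN N => (z : LaurentSeries Kbar)) h1
    simp only [MulMemClass.coe_mul] at h2
    rw [coe_aeval_thetaF, coe_evX] at h2
    exact h2.symm

end PhiA

end AX

end Fermat.Agent.P2.helper81
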