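import Mathlib
import Fermat.Agent.P2.helper81_ValGen

/-!
# P2-VAL (helper81), part 5: Gauss scaling and the reduction of integral `q`-expansions

* `exists_dvd_all`, `exists_scale₁`, `exists_scale₂`: Gauss scaling over a valuation ring;
* `red A : LaurentSeries A →+* LaurentSeries k` (coefficientwise reduction);
* `red_mem_adjoin` (**V1**): if `y ∈ A((q))` is the `q`-expansion of an element of `F_N`
  (`ℓ ∤ N`), then its reduction lies in `k(j̃, θ̃)`.
-/

set_option autoImplicit false
set_option linter.style.haveILetI false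
set_option linter.unusedSectionVars false

open ModularCurve Polynomial

noncomputable section

namespace Fermat.Agent.P2.helper81

open Fermat.Agent.S24 Fermat.Agent.S28.helper94 Fermat.Agent.S28.helper81
open Fermat.Agent.S28

section Scale

variable {R : Type*} [CommRing R] [IsDomain R] [ValuationRing R]

/-- in a valuation ring, a finite nonempty family has an element dividing all the others -/
theorem exists_dvd_all {ι : Type*} (s : Finset ι) (hs : s.Nonempty) (f : ι → R) :
    ∃ i₀ ∈ s, ∀ i ∈ s, f i₀ ∣ f i := by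
  classical
  induction hs using Finset.Nonempty.cons_induction with
  | singleton a => exact ⟨a, Finset.mem_singleton_self a, fun i hi => by
      rw [Finset.mem_singleton.mp hi]⟩
  | cons a s ha hs ih =>
    obtain ⟨i₀, hi₀, h⟩ := ih
    rcases ValuationRing.dvd_total (f a) (f i₀) with h1 | h1
    · refine ⟨a, Finset.mem_cons_self a s, fun i hi => ?_⟩
      rcases Finset.mem_cons.mp hi with rfl | hi'
      · exact dvd_rfl
      · exact h1.trans (h i hi')
    · refine ⟨i₀, Finset.mem_cons.mpr (Or.inr hi₀), fun i hi => ?_⟩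
      rcases Finset.mem_cons.mp hi with rfl | hi'
      · exact h1
      · exact h i hi'

/-- **Gauss scaling, one variable**: a nonzero polynomial over a valuation ring is a nonzero
constant times a polynomial with a coefficient equal to `1`. -/
theorem exists_scale₁ (P : Polynomial R) (hP : P ≠ 0) :
    ∃ (c : R) (P₁ : Polynomial R) (i : ℕ), c ≠ 0 ∧ P = C c * P₁ ∧ P₁.coeff i = 1 := by
  have hs : P.support.Nonempty := Polynomial.support_nonempty.mpr hP
  obtain ⟨i₀, hi₀, h⟩ := exists_dvd_all P.support hs (fun i => P.coeff i)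
  have hc : P.coeff i₀ ≠ 0 := Polynomial.mem_support_iff.mp hi₀
  have hdvd : C (P.coeff i₀) ∣ P := by
    rw [Polynomial.C_dvd_iff_dvd_coeff]
    intro i
    by_cases hi : i ∈ P.support
    · exact h i hi
    · rw [Polynomial.notMem_support_iff.mp hi]; exact dvd_zero _
  obtain ⟨P₁, hP₁⟩ := hdvd
  refine ⟨P.coeff i₀, P₁, i₀, hc, hP₁, ?_⟩
  have := congrArg (fun Q : Polynomial R => Q.coeff i₀) hP₁
  simp only [Polynomial.coeff_C_mul] at this
  exact mul_left_cancel₀ hc (by rw [← this, mul_one])

/-- **Gauss scaling, two variables**. -/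
theorem exists_scale₂ (P : Polynomial (Polynomial R)) (hP : P ≠ 0) :
    ∃ (c : R) (P₁ : Polynomial (Polynomial R)) (i j : ℕ), c ≠ 0 ∧ P = C (C c) * P₁ ∧
      (P₁.coeff i).coeff j = 1 := by
  classical
  obtain ⟨i₁, hi₁⟩ : ∃ i, P.coeff i ≠ 0 := by
    by_contra h
    simp only [not_exists, not_not] at h
    exact hP (Polynomial.ext fun i => by rw [h i, Polynomial.coeff_zero])
  obtain ⟨j₁, hj₁⟩ : ∃ j, (P.coeff i₁).coeff j ≠ 0 := by
    by_contra h
    simp only [not_exists, not_not] at h
    exact hi₁ (Polynomial.ext fun j => by rw [h j, Polynomial.coeff_zero])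
  set s : Finset (ℕ × ℕ) :=
    (P.support ×ˢ (P.support.biUnion fun i => (P.coeff i).support)) with hsdef
  have hmem : ∀ i j, (P.coeff i).coeff j ≠ 0 → (i, j) ∈ s := by
    intro i j hij
    have hi : i ∈ P.support := Polynomial.mem_support_iff.mpr (fun h0 => hij (by rw [h0]; simp))
    rw [hsdef, Finset.mem_product]
    exact ⟨hi, Finset.mem_biUnion.mpr ⟨i, hi, Polynomial.mem_support_iff.mpr hij⟩⟩
  have hs : s.Nonempty := ⟨(i₁, j₁), hmem i₁ j₁ hj₁⟩
  obtain ⟨⟨i₀, j₀⟩, hi₀, h⟩ :=
    exists_dvd_all (s.filter fun p => (P.coeff p.1).coeff p.2 ≠ 0)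
      ⟨(i₁, j₁), Finset.mem_filter.mpr ⟨hmem i₁ j₁ hj₁, hj₁⟩⟩
      (fun p => (P.coeff p.1).coeff p.2)
  have hc : (P.coeff i₀).coeff j₀ ≠ 0 := (Finset.mem_filter.mp hi₀).2
  have hdvd : C (C ((P.coeff i₀).coeff j₀)) ∣ P := by
    rw [Polynomial.C_dvd_iff_dvd_coeff]
    intro i
    rw [Polynomial.C_dvd_iff_dvd_coeff]
    intro j
    by_cases hij : (P.coeff i).coeff j = 0
    · rw [hij]; exact dvd_zero _
    · exact h (i, j) (Finset.mem_filter.mpr ⟨hmem i j hij, hij⟩)
  obtain ⟨P₁, hP₁⟩ := hdvd
  refine ⟨(P.coeff i₀).coeff j₀, P₁, i₀, j₀, hc, hP₁, ?_⟩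
  have := congrArg (fun Q : Polynomial (Polynomial R) => (Q.coeff i₀).coeff j₀) hP₁
  simp only [Polynomial.coeff_C_mul] at this
  exact mul_left_cancel₀ hc (by rw [← this, mul_one])

theorem map_ne_zero_of_coeff_eq_one {S : Type*} [CommRing S] [Nontrivial S] (φ : R →+* S)
    (P : Polynomial R) (i : ℕ) (h : P.coeff i = 1) : P.map φ ≠ 0 := by
  intro h0
  have := congrArg (fun Q : Polynomial S => Q.coeff i) h0
  simp [Polynomial.coeff_map, h] at this

theorem map₂_ne_zero_of_coeff_eq_one {S : Type*} [CommRing S] [Nontrivial S] (φ : R →+* S)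
    (P : Polynomial (Polynomial R)) (i j : ℕ) (h : (P.coeff i).coeff j = 1) :
    P.map (Polynomial.mapRingHom φ) ≠ 0 := by
  intro h0
  have := congrArg (fun Q : Polynomial (Polynomial S) => (Q.coeff i).coeff j) h0
  simp [Polynomial.coeff_map, h] at this

end Scale

section V1

variable (A : ValuationSubring Kbar) {ℓ : ℕ} [Fact ℓ.Prime] (hA : A.LiesOverPrime ℓ)
variable (N : ℕ) [NeZero N] (hℓN : ¬ ℓ ∣ N)

/-- the reduction map on Laurent series -/
abbrev red : LaurentSeries A →+* LaurentSeries (kA A) := coeffMap (IsLocalRing.residue A)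

theorem red_jA : red A (jA A) = jBar A := ModularCurve.coeffMap_jqModC _

theorem red_thetaA : red A (thetaA A N) = thetaBar A N := by
  rw [red, ModularCurve.coeffMap_qExpand, ModularCurve.coeffMap_jqModC]

theorem red_aeval (s : Polynomial A) :
    red A (aeval (jA A) s) = aeval (jBar A) (s.map (IsLocalRing.residue A)) := by
  rw [red, helper25.coeffMap_aeval, ModularCurve.coeffMap_jqModC]

theorem red_ev₂ (G : Polynomial (Polynomial A)) :
    red A (ev₂ (jA A) (thetaA A N) G) =
      ev₂ (jBar A) (thetaBar A N) (G.map (Polynomial.mapRingHom (IsLocalRing.residue A))) := by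
  rw [red, ev₂_apply, helper25.coeffMap_eval₂_aeval, ModularCurve.coeffMap_qExpand,
    ModularCurve.coeffMap_jqModC]
  rfl

theorem red_algebraMap (a : A) :
    red A (algebraMap A (LaurentSeries A) a) =
      algebraMap (kA A) (LaurentSeries (kA A)) (IsLocalRing.residue A a) :=
  helper25.coeffMap_algebraMap_laurent _ _

theorem aeval_mem_adjoin_bar (p : Polynomial (kA A)) :
    aeval (jBar A) p ∈ IntermediateField.adjoin (kA A) {jBar A, thetaBar A N} := by
  rw [aeval_eq_sum_range]
  refine sum_mem fun i _ => ?_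
  rw [Algebra.smul_def]
  exact mul_mem (IntermediateField.algebraMap_mem _ _)
    (pow_mem (IntermediateField.subset_adjoin _ _ (Set.mem_insert _ _)) _)

theorem ev₂_mem_adjoin_bar (G : Polynomial (Polynomial (kA A))) :
    ev₂ (jBar A) (thetaBar A N) G ∈
      IntermediateField.adjoin (kA A) {jBar A, thetaBar A N} := by
  rw [ev₂_apply]
  exact eval₂_mem_of_subringClass _ _ (fun a => aeval_mem_adjoin_bar A N a) _
    (IntermediateField.subset_adjoin _ _ (Set.mem_insert_of_mem _ rfl)) G

theorem aeval_jA_ne_zero (s : Polynomial A) (hs : s ≠ 0) : aeval (jA A) s ≠ 0 := by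
  intro h0
  have h1 := congrArg (coeffMap A.subtype) h0
  rw [helper25.coeffMap_aeval, coeffMap_jA, map_zero] at h1
  have h3 : s.map A.subtype = 0 :=
    transcendental_iff_injective.mp transcendental_jK (by rw [h1, map_zero])
  exact hs ((Polynomial.map_eq_zero_iff Subtype.val_injective).mp h3)

theorem aeval_jBar_ne_zero (s : Polynomial (kA A)) (hs : s ≠ 0) : aeval (jBar A) s ≠ 0 := by
  intro h0
  exact hs (transcendental_iff_injective.mp (transcendental_jBar A) (by rw [h0, map_zero]))

theorem mul_left_cancel_laurentA {c x y : LaurentSeries A} (hc : c ≠ 0) (h : c * x = c * y) :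
    x = y := by
  apply coeffMap_subtype_injective A
  have hc' : coeffMap A.subtype c ≠ 0 := fun h0 =>
    hc (coeffMap_subtype_injective A (by rw [h0, map_zero]))
  have := congrArg (coeffMap A.subtype) h
  rw [map_mul, map_mul] at this
  exact mul_left_cancel₀ hc' this

theorem algebraMap_laurentA_ne_zero {c : A} (hc : c ≠ 0) :
    algebraMap A (LaurentSeries A) c ≠ 0 := by
  intro h0
  have := congrArg (fun z : LaurentSeries A => z.coeff 0) h0
  rw [helper25.algebraMap_laurent_eq_single] at this
  simp at this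
  exact hc this

include hA hℓN in
/-- **V1.**  The reduction of an `A`-integral `q`-expansion of an element of `F_N` lies in
`k(j̃, θ̃)`. -/
theorem red_mem_adjoin (y : LaurentSeries A)
    (hy : coeffMap A.subtype y ∈ modularFunctionFieldBar N) :
    red A y ∈ IntermediateField.adjoin (kA A) {jBar A, thetaBar A N} := by
  obtain ⟨s, G, hs, hdeg, h⟩ := exists_eq_ev₂ A N hA hℓN ⟨_, hy⟩
  rw [← map_mul] at h
  have hAeq : aeval (jA A) s * y = ev₂ (jA A) (thetaA A N) G := coeffMap_subtype_injective A h
  by_cases hG : G = 0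
  · rw [hG, map_zero] at hAeq
    have hy0 : y = 0 := by
      apply mul_left_cancel_laurentA A (aeval_jA_ne_zero A s hs)
      rw [hAeq, mul_zero]
    rw [hy0, map_zero]
    exact zero_mem _
  obtain ⟨c, s₁, i, hc, hs₁, hi⟩ := exists_scale₁ s hs
  obtain ⟨c', G₁, i', j', hc', hG₁, hij⟩ := exists_scale₂ G hG
  have hs₁bar : s₁.map (IsLocalRing.residue A) ≠ 0 := map_ne_zero_of_coeff_eq_one _ s₁ i hi
  have hG₁bar : G₁.map (Polynomial.mapRingHom (IsLocalRing.residue A)) ≠ 0 :=
    map₂_ne_zero_of_coeff_eq_one _ G₁ i' j' hij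
  have hG₁deg : (G₁.map (Polynomial.mapRingHom (IsLocalRing.residue A))).natDegree < degN N := by
    refine lt_of_le_of_lt Polynomial.natDegree_map_le ?_
    have : G.natDegree = G₁.natDegree := by
      rw [hG₁]
      exact Polynomial.natDegree_C_mul (by simpa using hc')
    rw [← this]; exact hdeg
  have hev : ev₂ (jBar A) (thetaBar A N)
      (G₁.map (Polynomial.mapRingHom (IsLocalRing.residue A))) ≠ 0 := fun h0 =>
    hG₁bar (eq_zero_of_evBar_eq_zero A hA N hℓN _ hG₁deg h0)
  have hsb : aeval (jBar A) (s₁.map (IsLocalRing.residue A)) ≠ 0 :=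
    aeval_jBar_ne_zero A _ hs₁bar
  have hAeq' : algebraMap A (LaurentSeries A) c * (aeval (jA A) s₁ * y) =
      algebraMap A (LaurentSeries A) c' * ev₂ (jA A) (thetaA A N) G₁ := by
    have h1 : aeval (jA A) s = algebraMap A (LaurentSeries A) c * aeval (jA A) s₁ := by
      rw [hs₁, map_mul, aeval_C]
    have h2 : ev₂ (jA A) (thetaA A N) G =
        algebraMap A (LaurentSeries A) c' * ev₂ (jA A) (thetaA A N) G₁ := by
      rw [hG₁, map_mul, ev₂_C, aeval_C]
    rw [← h2, ← hAeq, h1, mul_assoc]
  rcases ValuationRing.dvd_total c c' with ⟨u, hu⟩ | ⟨u, hu⟩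
  · -- `c' = c u`
    have h3 : aeval (jA A) s₁ * y =
        algebraMap A (LaurentSeries A) u * ev₂ (jA A) (thetaA A N) G₁ := by
      apply mul_left_cancel_laurentA A (algebraMap_laurentA_ne_zero A hc)
      rw [hAeq', hu, map_mul, mul_assoc]
    have h4 := congrArg (red A) h3
    rw [map_mul, map_mul, red_aeval, red_ev₂, red_algebraMap] at h4
    have h5 : red A y = (aeval (jBar A) (s₁.map (IsLocalRing.residue A)))⁻¹ *
        (algebraMap (kA A) (LaurentSeries (kA A)) (IsLocalRing.residue A u) *
          ev₂ (jBar A) (thetaBar A N)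
            (G₁.map (Polynomial.mapRingHom (IsLocalRing.residue A)))) := by
      rw [← h4, inv_mul_cancel_left₀ hsb]
    rw [h5]
    exact mul_mem (inv_mem (aeval_mem_adjoin_bar A N _))
      (mul_mem (IntermediateField.algebraMap_mem _ _) (ev₂_mem_adjoin_bar A N _))
  · -- `c = c' u`
    have h3 : algebraMap A (LaurentSeries A) u * (aeval (jA A) s₁ * y) =
        ev₂ (jA A) (thetaA A N) G₁ := by
      apply mul_left_cancel_laurentA A (algebraMap_laurentA_ne_zero A hc')
      rw [← hAeq', hu, map_mul, mul_assoc]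
    have h4 := congrArg (red A) h3
    rw [map_mul, map_mul, red_aeval, red_ev₂, red_algebraMap] at h4
    have hu0 : algebraMap (kA A) (LaurentSeries (kA A)) (IsLocalRing.residue A u) ≠ 0 := by
      intro h0
      rw [h0, zero_mul] at h4
      exact hev h4.symm
    have h5 : red A y = (algebraMap (kA A) (LaurentSeries (kA A)) (IsLocalRing.residue A u) *
        aeval (jBar A) (s₁.map (IsLocalRing.residue A)))⁻¹ *
          ev₂ (jBar A) (thetaBar A N)
            (G₁.map (Polynomial.mapRingHom (IsLocalRing.residue A))) := by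
      rw [← h4, ← mul_assoc (algebraMap (kA A) (LaurentSeries (kA A)) (IsLocalRing.residue A u)),
        inv_mul_cancel_left₀ (mul_ne_zero hu0 hsb)]
    rw [h5]
    exact mul_mem (inv_mem (mul_mem (IntermediateField.algebraMap_mem _ _)
      (aeval_mem_adjoin_bar A N _))) (ev₂_mem_adjoin_bar A N _)

end V1

end Fermat.Agent.P2.helper81
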