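import Mathlib
import Fermat.Agent.P2.helper81_ValRed

/-!
# P2-VAL (helper81), part 6: the function field in characteristic `ℓ`

`k = kA A` the residue field of a valuation ring `A ⊂ ℚ̄` over `ℓ`, `ℓ ∤ N`,
`F̃_N = modularFunctionFieldFullC k N`.

* generic: `finiteDimensional_of_pair`, `finrank_of_pair`, `isSeparable_of_pair` for a field
  `F = k(x, θ)` with `x` transcendental and `θ` a root of a monic irreducible `Φ ∈ k[X][Y]`;
* `coeffMap_residue_mem` (**V1**, Prelude shape);
* `modularFunctionFieldFullC_eq_adjoin_pair`: `F̃_N = k(j̃, θ̃)`;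
* `transcendental_xBar`, `finiteDimensional_xBar`, `finrank_xBar` (`= degN N`),
  `isSeparable_xBar`.
-/

set_option autoImplicit false
set_option linter.style.haveILetI false
set_option linter.unusedSectionVars false

open ModularCurve Polynomial IntermediateField

noncomputable section

namespace Fermat.Agent.P2.helper81

open Fermat.Agent.S24 Fermat.Agent.S28.helper94 Fermat.Agent.S28.helper81
open Fermat.Agent.S28

section GenericFF

variable {k : Type*} [Field k] {F : Type*} [Field F] [Algebra k F]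

/-- the structure map `k[X] → k(x)` -/
def toAdjoinSimple (x : F) : Polynomial k →+* k⟮x⟯ :=
  ((aeval (AdjoinSimple.gen k x) : Polynomial k →ₐ[k] k⟮x⟯) : Polynomial k →+* k⟮x⟯)

theorem algebraMap_toAdjoinSimple (x : F) (p : Polynomial k) :
    algebraMap k⟮x⟯ F (toAdjoinSimple x p) = aeval x p := by
  have : (algebraMap k⟮x⟯ F).comp (toAdjoinSimple (k := k) x) =
      ((aeval x : Polynomial k →ₐ[k] F) : Polynomial k →+* F) := by
    apply Polynomial.ringHom_ext
    · intro a
      simp [toAdjoinSimple]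
    · simp [toAdjoinSimple]
  exact congrArg (fun g => g p) this

theorem toAdjoinSimple_injective (x : F) (hx : Transcendental k x) :
    Function.Injective (toAdjoinSimple (k := k) x) := by
  intro p q h
  have := congrArg (algebraMap k⟮x⟯ F) h
  rw [algebraMap_toAdjoinSimple, algebraMap_toAdjoinSimple] at this
  exact transcendental_iff_injective.mp hx this

theorem isFractionRing_adjoinSimple (x : F) (hx : Transcendental k x) :
    letI : Algebra (Polynomial k) k⟮x⟯ := (toAdjoinSimple x).toAlgebra
    IsFractionRing (Polynomial k) k⟮x⟯ := by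
  letI : Algebra (Polynomial k) k⟮x⟯ := (toAdjoinSimple x).toAlgebra
  haveI : FaithfulSMul (Polynomial k) k⟮x⟯ :=
    (faithfulSMul_iff_algebraMap_injective _ _).mpr (toAdjoinSimple_injective x hx)
  apply IsFractionRing.of_field
  intro z
  obtain ⟨r, s, hrs⟩ := (IntermediateField.mem_adjoin_simple_iff k (z : F)).mp z.2
  refine ⟨r, s, ?_⟩
  apply (algebraMap k⟮x⟯ F).injective
  rw [map_div₀]
  show (z : F) = algebraMap k⟮x⟯ F (toAdjoinSimple x r) / algebraMap k⟮x⟯ F (toAdjoinSimple x s)
  rw [algebraMap_toAdjoinSimple, algebraMap_toAdjoinSimple]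
  exact hrs

/-- the minimal polynomial of `θ` over `k(x)` -/
theorem minpoly_eq_map (x θ : F) (hx : Transcendental k x)
    (Φ : Polynomial (Polynomial k)) (hm : Φ.Monic) (hirr : Irreducible Φ)
    (h0 : ev₂ x θ Φ = 0) :
    minpoly k⟮x⟯ θ = Φ.map (toAdjoinSimple x) := by
  letI : Algebra (Polynomial k) k⟮x⟯ := (toAdjoinSimple x).toAlgebra
  haveI := isFractionRing_adjoinSimple x hx
  have hirr' : Irreducible (Φ.map (algebraMap (Polynomial k) k⟮x⟯)) :=
    (Monic.irreducible_iff_irreducible_map_fraction_map hm).mp hirr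
  symm
  refine minpoly.eq_of_irreducible_of_monic hirr' ?_ (hm.map _)
  rw [aeval_def, eval₂_map]
  have : (algebraMap k⟮x⟯ F).comp (toAdjoinSimple (k := k) x) =
      ((aeval x : Polynomial k →ₐ[k] F) : Polynomial k →+* F) :=
    RingHom.ext fun p => algebraMap_toAdjoinSimple x p
  show eval₂ ((algebraMap k⟮x⟯ F).comp (toAdjoinSimple (k := k) x)) θ Φ = 0
  rw [this]
  exact h0

theorem isIntegral_of_ev₂ (x θ : F) (Φ : Polynomial (Polynomial k)) (hm : Φ.Monic)
    (h0 : ev₂ x θ Φ = 0) : IsIntegral k⟮x⟯ θ := by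
  refine ⟨Φ.map (toAdjoinSimple x), hm.map _, ?_⟩
  rw [eval₂_map]
  have : (algebraMap k⟮x⟯ F).comp (toAdjoinSimple (k := k) x) =
      ((aeval x : Polynomial k →ₐ[k] F) : Polynomial k →+* F) :=
    RingHom.ext fun p => algebraMap_toAdjoinSimple x p
  rw [this]
  exact h0

theorem adjoin_simple_eq_top_of_pair (x θ : F) (h : IntermediateField.adjoin k {x, θ} = ⊤) :
    k⟮x⟯⟮θ⟯ = ⊤ := by
  rw [← IntermediateField.restrictScalars_eq_top_iff (K := k),
    IntermediateField.adjoin_adjoin_left]
  rw [← h]
  congr 1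

/-- **function field generated by `x` and an algebraic `θ`**: finiteness -/
theorem finiteDimensional_of_pair (x θ : F) (Φ : Polynomial (Polynomial k)) (hm : Φ.Monic)
    (h0 : ev₂ x θ Φ = 0) (h : IntermediateField.adjoin k {x, θ} = ⊤) :
    FiniteDimensional k⟮x⟯ F := by
  have hint := isIntegral_of_ev₂ x θ Φ hm h0
  haveI := IntermediateField.adjoin.finiteDimensional hint
  have htop := adjoin_simple_eq_top_of_pair x θ h
  have e : k⟮x⟯⟮θ⟯ ≃ₗ[k⟮x⟯] F :=
    ((IntermediateField.equivOfEq htop).trans IntermediateField.topEquiv).toLinearEquiv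
  exact Module.Finite.equiv e

/-- degree -/
theorem finrank_of_pair (x θ : F) (hx : Transcendental k x)
    (Φ : Polynomial (Polynomial k)) (hm : Φ.Monic) (hirr : Irreducible Φ)
    (h0 : ev₂ x θ Φ = 0) (h : IntermediateField.adjoin k {x, θ} = ⊤) :
    Module.finrank k⟮x⟯ F = Φ.natDegree := by
  have hint := isIntegral_of_ev₂ x θ Φ hm h0
  have htop := adjoin_simple_eq_top_of_pair x θ h
  have e : k⟮x⟯⟮θ⟯ ≃ₗ[k⟮x⟯] F :=
    ((IntermediateField.equivOfEq htop).trans IntermediateField.topEquiv).toLinearEquiv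
  rw [← e.finrank_eq, IntermediateField.adjoin.finrank hint, minpoly_eq_map x θ hx Φ hm hirr h0,
    hm.natDegree_map]

/-- separability -/
theorem isSeparable_of_pair (x θ : F) (hx : Transcendental k x)
    (Φ : Polynomial (Polynomial k)) (hm : Φ.Monic) (hirr : Irreducible Φ)
    (h0 : ev₂ x θ Φ = 0) (hder : ev₂ x θ (derivative Φ) ≠ 0)
    (h : IntermediateField.adjoin k {x, θ} = ⊤) :
    Algebra.IsSeparable k⟮x⟯ F := by
  have hint := isIntegral_of_ev₂ x θ Φ hm h0
  have htop := adjoin_simple_eq_top_of_pair x θ h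
  have hmin := minpoly_eq_map x θ hx Φ hm hirr h0
  have hsep : IsSeparable k⟮x⟯ θ := by
    rw [IsSeparable, Polynomial.separable_iff_derivative_ne_zero (minpoly.irreducible hint)]
    intro hd
    apply hder
    have h1 : aeval θ (derivative (minpoly k⟮x⟯ θ)) = 0 := by rw [hd, map_zero]
    rw [hmin, derivative_map, aeval_def, eval₂_map] at h1
    have : (algebraMap k⟮x⟯ F).comp (toAdjoinSimple (k := k) x) =
        ((aeval x : Polynomial k →ₐ[k] F) : Polynomial k →+* F) :=
      RingHom.ext fun p => algebraMap_toAdjoinSimple x p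
    rw [this] at h1
    exact h1
  haveI : Algebra.IsSeparable k⟮x⟯ k⟮x⟯⟮θ⟯ :=
    (IntermediateField.isSeparable_adjoin_simple_iff_isSeparable _ _).mpr hsep
  exact AlgEquiv.Algebra.isSeparable
    ((IntermediateField.equivOfEq htop).trans IntermediateField.topEquiv)

/-- algebra homomorphisms commute with `ev₂` -/
theorem algHom_ev₂ {L : Type*} [Field L] [Algebra k L] (f : F →ₐ[k] L) (x θ : F)
    (G : Polynomial (Polynomial k)) : f (ev₂ x θ G) = ev₂ (f x) (f θ) G := by
  have : (f : F →+* L).comp (ev₂ x θ) = ev₂ (R := k) (f x) (f θ) := by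
    apply Polynomial.ringHom_ext
    · intro p
      simp only [RingHom.coe_comp, Function.comp_apply, ev₂_C, RingHom.coe_coe]
      rw [← Polynomial.aeval_algHom_apply]
    · simp only [RingHom.coe_comp, Function.comp_apply, ev₂_X, RingHom.coe_coe]
  exact congrArg (fun g => g G) this

theorem adjoin_pair_eq_top_of_val {L : Type*} [Field L] [Algebra k L]
    (S : IntermediateField k L) (x θ : S)
    (h : S = IntermediateField.adjoin k {(x : L), (θ : L)}) :
    IntermediateField.adjoin k {x, θ} = ⊤ := by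
  apply IntermediateField.map_injective S.val
  rw [IntermediateField.adjoin_map, ← AlgHom.fieldRange_eq_map, IntermediateField.fieldRange_val]
  have : (S.val : S → L) '' {x, θ} = {(x : L), (θ : L)} := by
    rw [Set.image_pair]; rfl
  rw [this, ← h]

end GenericFF

section Bar

variable (A : ValuationSubring Kbar) {ℓ : ℕ} [Fact ℓ.Prime] (hA : A.LiesOverPrime ℓ)
variable (N : ℕ) [NeZero N] (hℓN : ¬ ℓ ∣ N)

/-- the function field of `X₀(N)` over the residue field of `A` -/
abbrev FbarN : Type := ↥(modularFunctionFieldFullC (kA A) N)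

/-- `j̃` as an element of the function field in characteristic `ℓ` -/
def xBar : FbarN A N := ⟨jBar A, jqModC_mem_full (kA A) N⟩

/-- `θ̃ = j̃(q^N)` as an element of the function field in characteristic `ℓ` -/
def thetaBarF : FbarN A N := ⟨thetaBar A N, jqModCd_mem_full (kA A) N dvd_rfl⟩

theorem adjoin_pair_bar_le :
    IntermediateField.adjoin (kA A) {jBar A, thetaBar A N} ≤
      modularFunctionFieldFullC (kA A) N := by
  rw [IntermediateField.adjoin_le_iff]
  rintro y (rfl | rfl)
  · exact jqModC_mem_full (kA A) N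
  · exact jqModCd_mem_full (kA A) N dvd_rfl

include hA hℓN in
/-- **V1 (Prelude shape).**  The reduction of an `A`-integral `q`-expansion of an element of
`F_N = modularFunctionFieldBar N` lies in `modularFunctionFieldFullC k N`. -/
theorem coeffMap_residue_mem (y : LaurentSeries A)
    (hy : coeffMap A.subtype y ∈ modularFunctionFieldBar N) :
    coeffMap (IsLocalRing.residue A) y ∈ modularFunctionFieldFullC (kA A) N :=
  adjoin_pair_bar_le A N (red_mem_adjoin A hA N hℓN y hy)

include hA hℓN in
/-- the function field in characteristic `ℓ` is generated by `j̃` and `θ̃` -/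
theorem modularFunctionFieldFullC_eq_adjoin_pair :
    modularFunctionFieldFullC (kA A) N =
      IntermediateField.adjoin (kA A) {jBar A, thetaBar A N} := by
  apply le_antisymm _ (adjoin_pair_bar_le A N)
  rw [modularFunctionFieldFullC, IntermediateField.adjoin_le_iff]
  rintro x ⟨d, hne, hdvd, rfl⟩
  haveI := hne
  have h1 : qExpand (kA A) d (jqModC (kA A)) = red A (qExpand A d (jqModC A)) := by
    rw [red, ModularCurve.coeffMap_qExpand, ModularCurve.coeffMap_jqModC]
  rw [h1]
  apply red_mem_adjoin A hA N hℓN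
  rw [ModularCurve.coeffMap_qExpand, ModularCurve.coeffMap_jqModC, ← helper17.Jd_eq]
  exact Jd_mem N d hdvd

theorem transcendental_xBar : Transcendental (kA A) (xBar A N) := by
  intro h
  apply transcendental_jBar A
  exact IsAlgebraic.algHom (modularFunctionFieldFullC (kA A) N).val h

include hA hℓN in
theorem adjoin_xBar_thetaBarF_eq_top :
    IntermediateField.adjoin (kA A) {xBar A N, thetaBarF A N} = ⊤ :=
  adjoin_pair_eq_top_of_val _ (xBar A N) (thetaBarF A N)
    (modularFunctionFieldFullC_eq_adjoin_pair A hA N hℓN)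

theorem ev₂_xBar_thetaBarF (G : Polynomial (Polynomial (kA A))) :
    ((ev₂ (xBar A N) (thetaBarF A N) G : FbarN A N) : LaurentSeries (kA A)) =
      ev₂ (jBar A) (thetaBar A N) G :=
  algHom_ev₂ (modularFunctionFieldFullC (kA A) N).val (xBar A N) (thetaBarF A N) G

theorem phiBar_rootF : ev₂ (xBar A N) (thetaBarF A N) (phiBar A hA N hℓN) = 0 := by
  apply Subtype.val_injective
  rw [ev₂_xBar_thetaBarF, phiBar_root]
  rfl

theorem phiBar_derivativeF_ne_zero :
    ev₂ (xBar A N) (thetaBarF A N) (derivative (phiBar A hA N hℓN)) ≠ 0 := by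
  intro h
  apply phiBar_derivative_ne_zero A hA N hℓN
  rw [← ev₂_xBar_thetaBarF, h]
  rfl

include hA hℓN in
/-- `F̃_N` is finite over `k(j̃)` -/
theorem finiteDimensional_xBar :
    FiniteDimensional (kA A)⟮xBar A N⟯ (FbarN A N) :=
  finiteDimensional_of_pair (xBar A N) (thetaBarF A N) (phiBar A hA N hℓN)
    (phiBar_monic A hA N hℓN) (phiBar_rootF A hA N hℓN)
    (adjoin_xBar_thetaBarF_eq_top A hA N hℓN)

include hA hℓN in
/-- **degree preservation**: `[F̃_N : k(j̃)] = n` -/
theorem finrank_xBar :
    Module.finrank (kA A)⟮xBar A N⟯ (FbarN A N) = degN N := by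
  rw [finrank_of_pair (xBar A N) (thetaBarF A N) (transcendental_xBar A N) (phiBar A hA N hℓN)
    (phiBar_monic A hA N hℓN) (phiBar_irreducible A hA N hℓN) (phiBar_rootF A hA N hℓN)
    (adjoin_xBar_thetaBarF_eq_top A hA N hℓN), phiBar_natDegree]

include hA hℓN in
/-- `F̃_N` is separable over `k(j̃)` -/
theorem isSeparable_xBar :
    Algebra.IsSeparable (kA A)⟮xBar A N⟯ (FbarN A N) :=
  isSeparable_of_pair (xBar A N) (thetaBarF A N) (transcendental_xBar A N) (phiBar A hA N hℓN)
    (phiBar_monic A hA N hℓN) (phiBar_irreducible A hA N hℓN) (phiBar_rootF A hA N hℓN)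
    (phiBar_derivativeF_ne_zero A hA N hℓN) (adjoin_xBar_thetaBarF_eq_top A hA N hℓN)

end Bar

end Fermat.Agent.P2.helper81
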