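import Mathlib
import Fermat.Agent.P2.helper81_ValField
import Fermat.Agent.P2.helper29_Interface

/-!
# P2-VAL (helper81), part 7: scaling, orthonormality, PGI, degree preservation

* `isGood_aeval`, `isGood_ev₂`: primitive polynomials in `j` (resp. `j, θ`) are good series;
* `exists_primitive_quot`: every nonzero `f ∈ F_N` is `(c'/c) G₁(j,θ)/s₁(j)`, primitive;
* `scaleStatement` (**[VAL-SC]**, `helper29.ScaleStatement` verbatim);
* `exists_primitive_repr` (**ORTHONORMALITY**) and `red_mul_eq_of_repr`;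
* `principalGeneratedByIntegral` (Prelude `PrincipalGeneratedByIntegral`, unconditional);
* `finrank_xJ`, `finrank_xBar_eq_finrank_xJ` (degree preservation).
-/

set_option autoImplicit false
set_option linter.style.haveILetI false
set_option linter.unusedSectionVars false

open ModularCurve Polynomial

noncomputable section

namespace Fermat.Agent.P2.helper81

open Fermat.Agent.S24 Fermat.Agent.S28.helper94 Fermat.Agent.S28.helper81
open Fermat.Agent.S28

attribute [local instance] FractionRing.liftAlgebra FractionRing.isScalarTower_liftAlgebra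
attribute [local instance] algAX faithfulSMul_AX

section Scale

variable (A : ValuationSubring Kbar) {ℓ : ℕ} [Fact ℓ.Prime] (hA : A.LiesOverPrime ℓ)
variable (N : ℕ) [NeZero N] (hℓN : ¬ ℓ ∣ N)

theorem incl_aeval_mem (s : Polynomial A) :
    coeffMap A.subtype (aeval (jA A) s) ∈ modularFunctionFieldBar N := by
  rw [← coe_evX A N s]
  exact SetLike.coe_mem _

theorem incl_ev₂_mem (G : Polynomial (Polynomial A)) :
    coeffMap A.subtype (ev₂ (jA A) (thetaA A N) G) ∈ modularFunctionFieldBar N := by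
  rw [← coe_aeval_thetaF A N G]
  exact SetLike.coe_mem _

theorem red_aeval_mem (s : Polynomial A) :
    red A (aeval (jA A) s) ∈ modularFunctionFieldFullC (kA A) N := by
  rw [red_aeval]
  exact adjoin_pair_bar_le A N (aeval_mem_adjoin_bar A N _)

theorem red_ev₂_mem (G : Polynomial (Polynomial A)) :
    red A (ev₂ (jA A) (thetaA A N) G) ∈ modularFunctionFieldFullC (kA A) N := by
  rw [red_ev₂]
  exact adjoin_pair_bar_le A N (ev₂_mem_adjoin_bar A N _)

/-- a polynomial in `j` with nonzero reduction is a good series -/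
theorem isGood_aeval (s : Polynomial A) (hs : s.map (IsLocalRing.residue A) ≠ 0) :
    Fermat.Agent.S18.helper19.IsGood A N (aeval (jA A) s) := by
  refine ⟨incl_aeval_mem A N s, red_aeval_mem A N s, ?_⟩
  have := aeval_jBar_ne_zero A _ hs
  rwa [← red_aeval] at this

include hA hℓN in
/-- a polynomial in `j, θ` of `θ`-degree `< n` with nonzero reduction is a good series -/
theorem isGood_ev₂ (G : Polynomial (Polynomial A)) (hdeg : G.natDegree < degN N)
    (hG : G.map (Polynomial.mapRingHom (IsLocalRing.residue A)) ≠ 0) :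
    Fermat.Agent.S18.helper19.IsGood A N (ev₂ (jA A) (thetaA A N) G) := by
  refine ⟨incl_ev₂_mem A N G, red_ev₂_mem A N G, ?_⟩
  intro h0
  have h1 : ev₂ (jBar A) (thetaBar A N)
      (G.map (Polynomial.mapRingHom (IsLocalRing.residue A))) = 0 := by
    rw [← red_ev₂]; exact h0
  exact hG (eq_zero_of_evBar_eq_zero A hA N hℓN _
    (lt_of_le_of_lt Polynomial.natDegree_map_le hdeg) h1)

theorem incl_algebraMap (a : A) :
    coeffMap A.subtype (algebraMap A (LaurentSeries A) a) =
      algebraMap Kbar (LaurentSeries Kbar) (a : Kbar) :=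
  helper25.coeffMap_algebraMap_laurent _ _

include hA hℓN in
/-- **primitive representation**: every nonzero `f ∈ F_N` is
`(c'/c) · G₁(j, θ) / s₁(j)` with primitive `s₁ ∈ A[X]`, `G₁ ∈ A[X][Y]`, `deg_Y G₁ < n`. -/
theorem exists_primitive_quot (f : LaurentSeries Kbar) (hf : f ∈ modularFunctionFieldBar N)
    (hf0 : f ≠ 0) :
    ∃ (c c' : A) (s₁ : Polynomial A) (G₁ : Polynomial (Polynomial A)),
      c ≠ 0 ∧ c' ≠ 0 ∧ s₁.map (IsLocalRing.residue A) ≠ 0 ∧ G₁.natDegree < degN N ∧
      G₁.map (Polynomial.mapRingHom (IsLocalRing.residue A)) ≠ 0 ∧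
      algebraMap Kbar (LaurentSeries Kbar) (c : Kbar) * coeffMap A.subtype (aeval (jA A) s₁) * f =
        algebraMap Kbar (LaurentSeries Kbar) (c' : Kbar) *
          coeffMap A.subtype (ev₂ (jA A) (thetaA A N) G₁) := by
  obtain ⟨s, G, hs, hdeg, h⟩ := exists_eq_ev₂ A N hA hℓN ⟨f, hf⟩
  have hG : G ≠ 0 := by
    rintro rfl
    rw [map_zero, map_zero] at h
    rcases mul_eq_zero.mp h with h1 | h1
    · exact aeval_jA_ne_zero A s hs (coeffMap_subtype_injective A (by rw [h1, map_zero]))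
    · exact hf0 h1
  obtain ⟨c, s₁, i, hc, hs₁, hi⟩ := exists_scale₁ s hs
  obtain ⟨c', G₁, i', j', hc', hG₁, hij⟩ := exists_scale₂ G hG
  refine ⟨c, c', s₁, G₁, hc, hc', map_ne_zero_of_coeff_eq_one _ s₁ i hi, ?_,
    map₂_ne_zero_of_coeff_eq_one _ G₁ i' j' hij, ?_⟩
  · have : G.natDegree = G₁.natDegree := by
      rw [hG₁]
      exact Polynomial.natDegree_C_mul (by simpa using hc')
    rw [← this]; exact hdeg
  · have h1 : aeval (jA A) s = algebraMap A (LaurentSeries A) c * aeval (jA A) s₁ := by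
      rw [hs₁, map_mul, aeval_C]
    have h2 : ev₂ (jA A) (thetaA A N) G =
        algebraMap A (LaurentSeries A) c' * ev₂ (jA A) (thetaA A N) G₁ := by
      rw [hG₁, map_mul, ev₂_C, aeval_C]
    rw [h1, h2, map_mul, map_mul, incl_algebraMap, incl_algebraMap] at h
    exact h

/-- **[VAL-SC]** `helper29.ScaleStatement`, verbatim. -/
theorem scaleStatement_of (hA : A.LiesOverPrime ℓ) (hℓN : ¬ ℓ ∣ N) :
    helper29.ScaleStatement N A := by
  intro f hf hf0
  obtain ⟨c, c', s₁, G₁, hc, hc', hs₁, hdeg, hG₁, h⟩ :=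
    exists_primitive_quot A hA N hℓN f hf hf0
  have hcK : (c : Kbar) ≠ 0 := fun h0 => hc (Subtype.ext h0)
  have hc'K : (c' : Kbar) ≠ 0 := fun h0 => hc' (Subtype.ext h0)
  refine ⟨(c' : Kbar) / (c : Kbar), ev₂ (jA A) (thetaA A N) G₁, aeval (jA A) s₁,
    div_ne_zero hc'K hcK, isGood_ev₂ A hA N hℓN G₁ hdeg hG₁, isGood_aeval A N s₁ hs₁, ?_⟩
  have hcL : algebraMap Kbar (LaurentSeries Kbar) (c : Kbar) ≠ 0 := by
    rw [Ne, map_eq_zero]; exact hcK
  apply mul_left_cancel₀ hcL
  show _ * (_ * helper29.incl A _) = _ * (f * helper29.incl A _)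
  rw [← mul_assoc, ← map_mul, mul_div_cancel₀ _ hcK]
  rw [← h]
  ring

theorem scaleStatement (M : ℕ) [NeZero M] (A : ValuationSubring Kbar)
    (h : helper29.PrimeToLevel M A) : helper29.ScaleStatement M A := by
  obtain ⟨ℓ, hℓ, hℓM, hA⟩ := h
  haveI : Fact ℓ.Prime := ⟨hℓ⟩
  exact scaleStatement_of A M hA hℓM

include hA hℓN in
/-- **ORTHONORMALITY.**  A `w`-integral `f ∈ F_N` (quotient of an integral series by a good
series) satisfies `s(j) f = G(j, θ)` with `s ∈ A[X]` PRIMITIVE (nonzero reduction) and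
`G ∈ A[X][Y]`, `deg_Y G < n`: the coordinates of `f` in the basis `1, θ, …, θ^(n-1)` are
Gauss-integral. -/
theorem exists_primitive_repr (f : LaurentSeries Kbar) (hf : f ∈ modularFunctionFieldBar N)
    (hw : helper29.IsWInt A N f) :
    ∃ (s : Polynomial A) (G : Polynomial (Polynomial A)),
      s.map (IsLocalRing.residue A) ≠ 0 ∧ G.natDegree < degN N ∧
      coeffMap A.subtype (aeval (jA A) s) * f =
        coeffMap A.subtype (ev₂ (jA A) (thetaA A N) G) := by
  by_cases hf0 : f = 0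
  · refine ⟨1, 0, ?_, ?_, ?_⟩
    · rw [Polynomial.map_one]; exact one_ne_zero
    · rw [natDegree_zero]; exact degN_pos N
    · rw [hf0, mul_zero, map_zero, map_zero]
  obtain ⟨c, c', s₁, G₁, hc, hc', hs₁, hdeg, hG₁, h⟩ :=
    exists_primitive_quot A hA N hℓN f hf hf0
  have hcK : (c : Kbar) ≠ 0 := fun h0 => hc (Subtype.ext h0)
  have hc'K : (c' : Kbar) ≠ 0 := fun h0 => hc' (Subtype.ext h0)
  -- the case `c' = c u`
  have key : ∀ u : A, c' = c * u →
      coeffMap A.subtype (aeval (jA A) s₁) * f =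
        coeffMap A.subtype (ev₂ (jA A) (thetaA A N) (C (C u) * G₁)) := by
    intro u hu
    have hcL : algebraMap Kbar (LaurentSeries Kbar) (c : Kbar) ≠ 0 := by
      rw [Ne, map_eq_zero]; exact hcK
    apply mul_left_cancel₀ hcL
    rw [← mul_assoc, h, map_mul, ev₂_C, aeval_C, map_mul, incl_algebraMap, ← mul_assoc,
      ← map_mul, hu]
    rfl
  have hdeg' : ∀ u : A, (C (C u) * G₁).natDegree < degN N := fun u =>
    lt_of_le_of_lt (Polynomial.natDegree_C_mul_le _ _) hdeg
  rcases ValuationRing.dvd_total c c' with ⟨u, hu⟩ | ⟨u, hu⟩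
  · exact ⟨s₁, C (C u) * G₁, hs₁, hdeg' u, key u hu⟩
  · by_cases huu : IsUnit u
    · obtain ⟨v, rfl⟩ := huu
      refine ⟨s₁, C (C ((v⁻¹ : Aˣ) : A)) * G₁, hs₁, hdeg' _, key _ ?_⟩
      rw [hu, mul_assoc, Units.mul_inv, mul_one]
    · exfalso
      obtain ⟨Y₁, Y₂, hY₁, hY₂, hY⟩ := hw
      have hu0 : IsLocalRing.residue A u = 0 :=
        (IsLocalRing.residue_eq_zero_iff u).mpr ((IsLocalRing.mem_maximalIdeal u).mpr huu)
      have hc'L : algebraMap Kbar (LaurentSeries Kbar) (c' : Kbar) ≠ 0 := by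
        rw [Ne, map_eq_zero]; exact hc'K
      -- `u s₁(j) f = G₁(θ)`
      have h1 : algebraMap Kbar (LaurentSeries Kbar) (u : Kbar) *
          coeffMap A.subtype (aeval (jA A) s₁) * f =
            coeffMap A.subtype (ev₂ (jA A) (thetaA A N) G₁) := by
        apply mul_left_cancel₀ hc'L
        rw [← h, hu]
        simp only [MulMemClass.coe_mul, map_mul]
        ring
      -- `u s₁(j) Y₁ = G₁(θ) Y₂` in `A((q))`
      have h2 : algebraMap A (LaurentSeries A) u * aeval (jA A) s₁ * Y₁ =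
          ev₂ (jA A) (thetaA A N) G₁ * Y₂ := by
        apply coeffMap_subtype_injective A
        rw [map_mul, map_mul, map_mul, incl_algebraMap, ← h1]
        have hY' : coeffMap A.subtype Y₁ = f * coeffMap A.subtype Y₂ := hY
        rw [hY']
        ring
      have h3 := congrArg (red A) h2
      rw [map_mul, map_mul, map_mul, red_algebraMap, hu0, map_zero, zero_mul, zero_mul] at h3
      have h4 := (isGood_ev₂ A hA N hℓN G₁ hdeg hG₁).2.2
      rcases mul_eq_zero.mp h3.symm with h5 | h5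
      · exact h4 h5
      · exact hY₂.2.2 h5

/-- the reduction formula attached to a primitive representation -/
theorem red_mul_eq_of_repr (f : LaurentSeries Kbar) (s : Polynomial A)
    (G : Polynomial (Polynomial A))
    (h : coeffMap A.subtype (aeval (jA A) s) * f =
        coeffMap A.subtype (ev₂ (jA A) (thetaA A N) G))
    (Y₁ Y₂ : LaurentSeries A) (hY : coeffMap A.subtype Y₁ = f * coeffMap A.subtype Y₂) :
    aeval (jBar A) (s.map (IsLocalRing.residue A)) * red A Y₁ =
      ev₂ (jBar A) (thetaBar A N) (G.map (Polynomial.mapRingHom (IsLocalRing.residue A))) *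
        red A Y₂ := by
  have h2 : aeval (jA A) s * Y₁ = ev₂ (jA A) (thetaA A N) G * Y₂ := by
    apply coeffMap_subtype_injective A
    rw [map_mul, map_mul, hY, ← h]
    ring
  have h3 := congrArg (red A) h2
  rw [map_mul, map_mul, red_aeval, red_ev₂] at h3
  exact h3

end Scale

section PGI

open IntermediateField

open AlgebraicCurve

variable (A : ValuationSubring Kbar) {ℓ : ℕ} [Fact ℓ.Prime] (hA : A.LiesOverPrime ℓ)
variable (N : ℕ) [NeZero N] (hℓN : ¬ ℓ ∣ N)

include hA hℓN in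
/-- **PGI**: the second half of the Prelude hypothesis `ReductionInputsModL A N` holds
unconditionally (for `ℓ ∤ N`): every principal divisor of `F_N` is a difference of divisors
of integral functions with nonzero reduction in `F̃_N`. -/
theorem principalGeneratedByIntegral :
    PrincipalGeneratedByIntegral A (IsLocalRing.residue A) N := by
  classical
  haveI : FiniteDimensional Kbar⟮xJ N⟯ (FN N) := helper77.an_finiteDimensional N
  haveI hPD : HasPrincipalDivisors Kbar (FN N) :=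
    helper75.ff_hasPrincipalDivisors (xJ N) (helper77.an_transcendental N)
  intro D hD
  obtain ⟨f, hf0, hDf⟩ := hD
  have hfL : (f : LaurentSeries Kbar) ≠ 0 := fun h0 => hf0 (Subtype.ext h0)
  obtain ⟨c, c', s₁, G₁, hc, hc', hs₁, hdeg, hG₁, h⟩ :=
    exists_primitive_quot A hA N hℓN (f : LaurentSeries Kbar) f.2 hfL
  have hcK : (c : Kbar) ≠ 0 := fun h0 => hc (Subtype.ext h0)
  have hc'K : (c' : Kbar) ≠ 0 := fun h0 => hc' (Subtype.ext h0)
  have hg₁ := isGood_ev₂ A hA N hℓN G₁ hdeg hG₁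
  have hg₂ := isGood_aeval A N s₁ hs₁
  set y₁ : FN N := ⟨coeffMap A.subtype (ev₂ (jA A) (thetaA A N) G₁), hg₁.1⟩ with hy₁
  set y₂ : FN N := ⟨coeffMap A.subtype (aeval (jA A) s₁), hg₂.1⟩ with hy₂
  have hy₁0 : y₁ ≠ 0 := by
    intro h0
    apply hg₁.2.2
    have h1 : coeffMap A.subtype (ev₂ (jA A) (thetaA A N) G₁) = 0 :=
      congrArg Subtype.val h0
    rw [coeffMap_subtype_injective A (h1.trans (map_zero _).symm), map_zero]
  have hy₂0 : y₂ ≠ 0 := by
    intro h0
    apply hg₂.2.2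
    have h1 : coeffMap A.subtype (aeval (jA A) s₁) = 0 := congrArg Subtype.val h0
    rw [coeffMap_subtype_injective A (h1.trans (map_zero _).symm), map_zero]
  have hrel : algebraMap Kbar (FN N) (c : Kbar) * y₂ * f = algebraMap Kbar (FN N) (c' : Kbar) * y₁ :=
    Subtype.ext h
  obtain ⟨D₁, hD₁, -⟩ := hPD.exists_divisor y₁ hy₁0
  obtain ⟨D₂, hD₂, -⟩ := hPD.exists_divisor y₂ hy₂0
  have hDeq : D = D₁ - D₂ := by
    ext v
    rw [Finsupp.sub_apply, hDf v, hD₁ v, hD₂ v]
    have hca : algebraMap Kbar (FN N) (c : Kbar) ≠ 0 := by rw [Ne, map_eq_zero]; exact hcK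
    have hc'a : algebraMap Kbar (FN N) (c' : Kbar) ≠ 0 := by rw [Ne, map_eq_zero]; exact hc'K
    have h1 := congrArg v.ord hrel
    rw [v.ord_mul (mul_ne_zero hca hy₂0) hf0, v.ord_mul hca hy₂0, v.ord_mul hc'a hy₁0,
      helper75.place_ord_algebraMap, helper75.place_ord_algebraMap] at h1
    omega
  rw [hDeq]
  refine sub_mem (AddSubgroup.subset_closure ?_) (AddSubgroup.subset_closure ?_)
  · exact ⟨ev₂ (jA A) (thetaA A N) G₁, hg₁.1, hg₁.2.1, hg₁.2.2, hD₁⟩
  · exact ⟨aeval (jA A) s₁, hg₂.1, hg₂.2.1, hg₂.2.2, hD₂⟩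

end PGI

section Degree

open IntermediateField

variable (N : ℕ) [NeZero N]

theorem modularFunctionFieldBar_eq_adjoin_pair :
    modularFunctionFieldBar N = IntermediateField.adjoin Kbar {jK, thetaK N} := by
  apply le_antisymm (modularFunctionFieldBar_le_adjoin N)
  rw [IntermediateField.adjoin_le_iff]
  rintro y (rfl | rfl)
  · rw [← coe_xJ_eq N]; exact SetLike.coe_mem _
  · rw [← coe_thetaF N]; exact SetLike.coe_mem _

theorem adjoin_xJ_thetaF_eq_top :
    IntermediateField.adjoin Kbar {xJ N, thetaF N} = ⊤ := by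
  apply adjoin_pair_eq_top_of_val (modularFunctionFieldBar N) (xJ N) (thetaF N)
  rw [coe_xJ_eq, coe_thetaF]
  exact modularFunctionFieldBar_eq_adjoin_pair N

/-- **degree in characteristic `0`**: `[F_N : ℚ̄(j)] = degN N`. -/
theorem finrank_xJ : Module.finrank Kbar⟮xJ N⟯ (FN N) = degN N := by
  obtain ⟨ℓ, hℓ, hℓN⟩ : ∃ ℓ : ℕ, ℓ.Prime ∧ ¬ ℓ ∣ N := by
    obtain ⟨p, hp, hpp⟩ := Nat.exists_infinite_primes (N + 1)
    exact ⟨p, hpp, fun h => by
      have := Nat.le_of_dvd (Nat.pos_of_ne_zero (NeZero.ne N)) h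
      omega⟩
  haveI : Fact ℓ.Prime := ⟨hℓ⟩
  set Φ : Polynomial (Polynomial Kbar) :=
    (PhiZl N ℓ hℓN).map (Polynomial.mapRingHom (algebraMap (Zl ℓ) Kbar)) with hΦ
  have hm : Φ.Monic := (PhiZl_monic N ℓ hℓN).map _
  have hirr : Irreducible Φ := by
    apply Polynomial.Monic.irreducible_of_irreducible_map
      (Polynomial.mapRingHom (iotaC : Kbar →+* ℂ)) _ hm
    rw [hΦ, map_mapRingHom_comp]
    have : (iotaC : Kbar →+* ℂ).comp (algebraMap (Zl ℓ) Kbar) = algebraMap (Zl ℓ) ℂ :=
      ringHom_ext_Zl ℓ _ _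
    rw [this]
    exact PhiZl_irreducibleC N ℓ hℓN
  have h0 : ev₂ (xJ N) (thetaF N) Φ = 0 := by
    apply Subtype.val_injective
    have h1 := algHom_ev₂ (modularFunctionFieldBar N).val (xJ N) (thetaF N) Φ
    have h2 : (modularFunctionFieldBar N).val (xJ N) = jK := coe_xJ_eq N
    have h3 : (modularFunctionFieldBar N).val (thetaF N) = thetaK N := coe_thetaF N
    rw [h2, h3] at h1
    have h4 := congrArg (coeffMap (algebraMap (Zl ℓ) Kbar)) (PhiZl_root N ℓ hℓN)
    rw [helper25.coeffMap_eval₂_aeval, map_zero, ModularCurve.coeffMap_qExpand,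
      ModularCurve.coeffMap_jqModC] at h4
    exact h1.trans h4
  rw [finrank_of_pair (xJ N) (thetaF N) (helper77.an_transcendental N) Φ hm hirr h0
    (adjoin_xJ_thetaF_eq_top N), hΦ, (PhiZl_monic N ℓ hℓN).natDegree_map, PhiZl_natDegree]

/-- **degree preservation**: `[F̃_N : k(j̃)] = [F_N : ℚ̄(j)]`. -/
theorem finrank_xBar_eq_finrank_xJ (A : ValuationSubring Kbar) {ℓ : ℕ} [Fact ℓ.Prime]
    (hA : A.LiesOverPrime ℓ) (hℓN : ¬ ℓ ∣ N) :
    Module.finrank (kA A)⟮xBar A N⟯ (FbarN A N) = Module.finrank Kbar⟮xJ N⟯ (FN N) := by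
  rw [finrank_xBar A hA N hℓN, finrank_xJ]

end Degree

end Fermat.Agent.P2.helper81
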