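import Mathlib
import Fermat.Agent.P2.helper81_ValScale

/-!
# P2-VAL (helper81), part 8: integrality — the `q`-expansion principle over `A`

* `exists_clear_denominators`, `exists_monic_of_integral`: clearing denominators;
* `exists_euler`: Euler's lemma over `A[j]`: `f · ∂Φ/∂Y(j,θ) ∈ A[j,θ]` for `f` integral over
  `A[j]`;
* `exists_incl_eq_of_isIntegral` (**Q1**): integral over `A[j]` ⟹ `A`-integral `q`-expansion;
* `integralityB` (**[VAL-INT], B-form**): integral over `ℚ̄[j]` + `w`-integral ⟹
  `A`-integral `q`-expansion;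
* `isIntegral_of_forall_place`, `exists_monic_of_isIntegral_adjoin`: regular at the places
  where `x` is regular ⟹ integral over `K[x]`;
* `integralityStatement` (**[VAL-INT]**, `helper29.IntegralityStatement` verbatim).
-/

set_option autoImplicit false
set_option linter.style.haveILetI false
set_option linter.unusedSectionVars false

open ModularCurve Polynomial

noncomputable section

namespace Fermat.Agent.P2.helper81

open Fermat.Agent.S24 Fermat.Agent.S28.helper94 Fermat.Agent.S28.helper81
open Fermat.Agent.S28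

attribute [local instance] FractionRing.liftAlgebra FractionRing.isScalarTower_liftAlgebra
attribute [local instance] algAX faithfulSMul_AX

section Clear

variable (A : ValuationSubring Kbar)

/-- clearing denominators of a polynomial in two variables -/
theorem exists_clear_denominators (p : Polynomial (Polynomial Kbar)) :
    ∃ b : A, b ≠ 0 ∧ ∀ i j, (b : Kbar) * (p.coeff i).coeff j ∈ A := by
  classical
  set S : Finset Kbar := (p.support.biUnion fun i => (p.coeff i).support.image
    fun j => (p.coeff i).coeff j) with hS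
  obtain ⟨⟨b, hb⟩, hbS⟩ := IsLocalization.exist_integer_multiples_of_finset
    (nonZeroDivisors A) S
  refine ⟨b, nonZeroDivisors.ne_zero hb, fun i j => ?_⟩
  by_cases h0 : (p.coeff i).coeff j = 0
  · rw [h0, mul_zero]; exact A.zero_mem
  have hi : i ∈ p.support := Polynomial.mem_support_iff.mpr fun h => h0 (by rw [h]; simp)
  have hj : j ∈ (p.coeff i).support := Polynomial.mem_support_iff.mpr h0
  have hmem : (p.coeff i).coeff j ∈ S :=
    Finset.mem_biUnion.mpr ⟨i, hi, Finset.mem_image.mpr ⟨j, hj, rfl⟩⟩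
  obtain ⟨a, ha⟩ := hbS _ hmem
  have : (b : Kbar) * (p.coeff i).coeff j = (a : Kbar) := by
    have h1 : algebraMap A Kbar a = (a : Kbar) := rfl
    rw [← h1, ha]
    rfl
  rw [this]
  exact a.2

theorem mem_lifts_of_coeff_mem (P : Polynomial Kbar) (h : ∀ j, P.coeff j ∈ A) :
    P ∈ Polynomial.lifts (A.subtype : A →+* Kbar) := by
  rw [Polynomial.lifts_iff_coeff_lifts]
  intro j
  exact ⟨⟨_, h j⟩, rfl⟩

/-- an element integral over `ℚ̄[j]` has a nonzero `A`-multiple which is a root of a monic
polynomial with coefficients in `A[j]` -/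
theorem exists_monic_of_integral (x f : LaurentSeries Kbar)
    (p : Polynomial (Polynomial Kbar)) (hp : p.Monic) (h0 : ev₂ x f p = 0) :
    ∃ (b : A) (q : Polynomial (Polynomial A)), b ≠ 0 ∧ q.Monic ∧
      ev₂ x (algebraMap Kbar (LaurentSeries Kbar) (b : Kbar) * f)
        (q.map (Polynomial.mapRingHom A.subtype)) = 0 := by
  obtain ⟨b, hb, hbp⟩ := exists_clear_denominators A p
  set P := Polynomial.scaleRoots p (C (b : Kbar)) with hP
  have hPm : P.Monic := (Polynomial.monic_scaleRoots_iff _).mpr hp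
  have hlift : P ∈ Polynomial.lifts (Polynomial.mapRingHom (A.subtype : A →+* Kbar)) := by
    rw [Polynomial.lifts_iff_coeff_lifts]
    intro i
    have hcoe : Set.range (Polynomial.mapRingHom (A.subtype : A →+* Kbar)) =
        (Polynomial.lifts (A.subtype : A →+* Kbar) : Set (Polynomial Kbar)) := by
      ext y
      simp [Polynomial.mem_lifts]
    rw [hcoe]
    apply mem_lifts_of_coeff_mem
    intro j
    rw [hP, Polynomial.coeff_scaleRoots]
    rcases lt_trichotomy i p.natDegree with hi | hi | hi
    · obtain ⟨e, he⟩ : ∃ e, p.natDegree - i = e + 1 := ⟨p.natDegree - i - 1, by omega⟩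
      rw [he, pow_succ, ← map_pow, ← mul_assoc, mul_comm (p.coeff i), mul_assoc,
        Polynomial.coeff_C_mul]
      have h1 : ((p.coeff i * C (b : Kbar)).coeff j) = (b : Kbar) * (p.coeff i).coeff j := by
        rw [Polynomial.coeff_mul_C, mul_comm]
      rw [h1]
      exact A.mul_mem _ _ (A.pow_mem b.2 e) (hbp i j)
    · rw [hi, Nat.sub_self, pow_zero, mul_one, Polynomial.coeff_natDegree, hp.leadingCoeff,
        Polynomial.coeff_one]
      split_ifs
      · exact A.one_mem
      · exact A.zero_mem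
    · rw [Polynomial.coeff_eq_zero_of_natDegree_lt hi, zero_mul, Polynomial.coeff_zero]
      exact A.zero_mem
  obtain ⟨q, hq, -, hqm⟩ := Polynomial.lifts_and_natDegree_eq_and_monic hlift hPm
  refine ⟨b, q, hb, hqm, ?_⟩
  rw [hq, hP, ev₂_apply]
  have := Polynomial.scaleRoots_eval₂_eq_zero
    ((aeval x : Polynomial Kbar →ₐ[Kbar] LaurentSeries Kbar) :
      Polynomial Kbar →+* LaurentSeries Kbar) (p := p) (r := f) (s := C (b : Kbar)) h0
  simpa using this

end Clear

section IntB

variable (A : ValuationSubring Kbar) {ℓ : ℕ} [Fact ℓ.Prime] (hA : A.LiesOverPrime ℓ)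
variable (N : ℕ) [NeZero N] (hℓN : ¬ ℓ ∣ N)

/-- `δ = ∂Φ/∂Y (j, θ)`, a unit of `A((q))` -/
def deltaA : LaurentSeries A := ev₂ (jA A) (thetaA A N) (derivative (PhiA A N hA hℓN))

theorem isUnit_deltaA : IsUnit (deltaA A hA N hℓN) := PhiA_derivative_isUnit A N hA hℓN

/-- a root of a monic polynomial over `A[j]` is integral over `A[X]` -/
theorem isIntegral_of_monic (f : FN N) (q : Polynomial (Polynomial A)) (hq : q.Monic)
    (h : ev₂ jK (f : LaurentSeries Kbar) (q.map (Polynomial.mapRingHom A.subtype)) = 0) :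
    IsIntegral (Polynomial A) f := by
  refine ⟨q, hq, ?_⟩
  apply Subtype.val_injective
  have h1 : (algebraMap (FN N) (LaurentSeries Kbar)).comp (algebraMap (Polynomial A) (FN N)) =
      ((aeval jK : Polynomial Kbar →ₐ[Kbar] LaurentSeries Kbar) :
        Polynomial Kbar →+* LaurentSeries Kbar).comp (Polynomial.mapRingHom A.subtype) :=
    RingHom.ext fun p => coe_evX' A N p
  have h2 : ((eval₂ (algebraMap (Polynomial A) (FN N)) f q : FN N) : LaurentSeries Kbar) =
      eval₂ ((algebraMap (FN N) (LaurentSeries Kbar)).comp (algebraMap (Polynomial A) (FN N)))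
        (f : LaurentSeries Kbar) q :=
    Polynomial.hom_eval₂ q (algebraMap (Polynomial A) (FN N))
      (algebraMap (FN N) (LaurentSeries Kbar)) f
  rw [h2, h1, ← Polynomial.eval₂_map]
  exact h

include hA hℓN in
/-- **Euler's lemma over `A[j]`**: `f · ∂Φ/∂Y(j, θ) ∈ A[j, θ]` for `f` integral over `A[j]` -/
theorem exists_euler (f : FN N) (hint : IsIntegral (Polynomial A) f) :
    ∃ G : Polynomial (Polynomial A), G.natDegree < degN N ∧
      coeffMap A.subtype (ev₂ (jA A) (thetaA A N) G) =
        (f : LaurentSeries Kbar) * coeffMap A.subtype (deltaA A hA N hℓN) := by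
  obtain ⟨G, hGdeg, hG⟩ := helper25.exists_polynomial_eq_mul_aeval_derivative
    (adjoin_fractionRing_eq_top A N hA hℓN) (PhiA_monic A N hA hℓN)
    (PhiA_irreducible A N hA hℓN) (aeval_thetaF_PhiA A N hA hℓN) hint
  refine ⟨G, ?_, ?_⟩
  · rw [← PhiA_natDegree A N hA hℓN]
    by_cases hG0 : G = 0
    · rw [hG0, natDegree_zero, PhiA_natDegree]; exact degN_pos N
    · exact (Polynomial.natDegree_lt_natDegree_iff hG0).mpr hGdeg
  · have h1 := congrArg (fun z : FN N => (z : LaurentSeries Kbar)) hG
    simp only [MulMemClass.coe_mul] at h1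
    rw [coe_aeval_thetaF, coe_aeval_thetaF] at h1
    exact h1

include hA hℓN in
/-- **q-expansion principle over `A`** (Q1): an element of `F_N` integral over `A[j]` has an
`A`-integral `q`-expansion. -/
theorem exists_incl_eq_of_isIntegral (f : FN N) (hint : IsIntegral (Polynomial A) f) :
    ∃ Y : LaurentSeries A, coeffMap A.subtype Y = (f : LaurentSeries Kbar) := by
  obtain ⟨G, -, hG⟩ := exists_euler A hA N hℓN f hint
  obtain ⟨u, hu⟩ := isUnit_deltaA A hA N hℓN
  refine ⟨ev₂ (jA A) (thetaA A N) G * ((u⁻¹ : (LaurentSeries A)ˣ) : LaurentSeries A), ?_⟩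
  rw [map_mul, hG, ← hu, mul_assoc, ← map_mul, Units.mul_inv, map_one, mul_one]

include hA hℓN in
/-- **[VAL-INT], B-form**: an element of `F_N` which is integral over `ℚ̄[j]` and `w`-integral
(quotient of an integral series by a good series) has an `A`-integral `q`-expansion. -/
theorem integralityB (f : LaurentSeries Kbar) (hf : f ∈ modularFunctionFieldBar N)
    (hint : ∃ p : Polynomial (Polynomial Kbar), p.Monic ∧ ev₂ jK f p = 0)
    (hw : helper29.IsWInt A N f) :
    ∃ Y : LaurentSeries A, coeffMap A.subtype Y = f := by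
  obtain ⟨p, hp, hp0⟩ := hint
  obtain ⟨b, q, hb, hq, hq0⟩ := exists_monic_of_integral A jK f p hp hp0
  have hbK : (b : Kbar) ≠ 0 := fun h0 => hb (Subtype.ext h0)
  set g : FN N := algebraMap Kbar (FN N) (b : Kbar) * ⟨f, hf⟩ with hg
  have hgint : IsIntegral (Polynomial A) g := isIntegral_of_monic A N g q hq hq0
  obtain ⟨G, hGdeg, hG⟩ := exists_euler A hA N hℓN g hgint
  have hgcoe : (g : LaurentSeries Kbar) = algebraMap Kbar (LaurentSeries Kbar) (b : Kbar) * f :=
    rfl
  rw [hgcoe] at hG
  obtain ⟨u, hu⟩ := isUnit_deltaA A hA N hℓN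
  by_cases hG0 : G = 0
  · refine ⟨0, ?_⟩
    rw [hG0, map_zero, map_zero] at hG
    have hδ : coeffMap A.subtype (deltaA A hA N hℓN) ≠ 0 := fun h0 =>
      (isUnit_deltaA A hA N hℓN).ne_zero (coeffMap_subtype_injective A (by rw [h0, map_zero]))
    have hbL : algebraMap Kbar (LaurentSeries Kbar) (b : Kbar) ≠ 0 := by
      rw [Ne, map_eq_zero]; exact hbK
    rcases mul_eq_zero.mp hG.symm with h1 | h1
    · rcases mul_eq_zero.mp h1 with h2 | h2
      · exact absurd h2 hbL
      · rw [h2, map_zero]
    · exact absurd h1 hδ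
  obtain ⟨c, G₁, i, j, hc, hG₁, hij⟩ := exists_scale₂ G hG0
  have hG₁bar := map₂_ne_zero_of_coeff_eq_one (IsLocalRing.residue A) G₁ i j hij
  have hG₁deg : G₁.natDegree < degN N := by
    have : G.natDegree = G₁.natDegree := by
      rw [hG₁]; exact Polynomial.natDegree_C_mul (by simpa using hc)
    rw [← this]; exact hGdeg
  -- `Z₁ = G₁(j,θ) δ⁻¹`, an integral series with nonzero reduction, and `b f = c Z₁`
  set Z₁ : LaurentSeries A :=
    ev₂ (jA A) (thetaA A N) G₁ * ((u⁻¹ : (LaurentSeries A)ˣ) : LaurentSeries A) with hZ₁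
  have hZ₁red : red A Z₁ ≠ 0 := by
    rw [hZ₁, map_mul]
    exact mul_ne_zero (isGood_ev₂ A hA N hℓN G₁ hG₁deg hG₁bar).2.2
      ((u⁻¹).isUnit.map (red A)).ne_zero
  have hrel : algebraMap Kbar (LaurentSeries Kbar) (b : Kbar) * f =
      algebraMap Kbar (LaurentSeries Kbar) (c : Kbar) * coeffMap A.subtype Z₁ := by
    have h1 : coeffMap A.subtype (ev₂ (jA A) (thetaA A N) G) =
        algebraMap Kbar (LaurentSeries Kbar) (c : Kbar) *
          coeffMap A.subtype (ev₂ (jA A) (thetaA A N) G₁) := by
      rw [hG₁, map_mul, ev₂_C, aeval_C, map_mul, incl_algebraMap]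
    rw [hZ₁, map_mul, ← mul_assoc, ← h1, hG, ← hu, mul_assoc, ← map_mul, Units.mul_inv,
      map_one, mul_one]
  have hbL : algebraMap Kbar (LaurentSeries Kbar) (b : Kbar) ≠ 0 := by
    rw [Ne, map_eq_zero]; exact hbK
  have key : ∀ v : A, c = b * v → ∃ Y : LaurentSeries A, coeffMap A.subtype Y = f := by
    intro v hv
    refine ⟨algebraMap A (LaurentSeries A) v * Z₁, ?_⟩
    apply mul_left_cancel₀ hbL
    rw [hrel, hv, map_mul, incl_algebraMap]
    simp only [MulMemClass.coe_mul, map_mul]
    ring
  rcases ValuationRing.dvd_total b c with ⟨v, hv⟩ | ⟨v, hv⟩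
  · exact key v hv
  · by_cases hvu : IsUnit v
    · obtain ⟨w, rfl⟩ := hvu
      exact key ((w⁻¹ : Aˣ) : A) (by rw [hv, mul_assoc, Units.mul_inv, mul_one])
    · exfalso
      obtain ⟨Y₁, Y₂, hY₁, hY₂, hY⟩ := hw
      have hv0 : IsLocalRing.residue A v = 0 :=
        (IsLocalRing.residue_eq_zero_iff v).mpr ((IsLocalRing.mem_maximalIdeal v).mpr hvu)
      have hcK : (c : Kbar) ≠ 0 := fun h0 => hc (Subtype.ext h0)
      have hcL : algebraMap Kbar (LaurentSeries Kbar) (c : Kbar) ≠ 0 := by
        rw [Ne, map_eq_zero]; exact hcK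
      -- `v f = Z₁`
      have h1 : algebraMap Kbar (LaurentSeries Kbar) (v : Kbar) * f = coeffMap A.subtype Z₁ := by
        apply mul_left_cancel₀ hcL
        rw [← hrel, hv]
        simp only [MulMemClass.coe_mul, map_mul]
        ring
      have h2 : algebraMap A (LaurentSeries A) v * Y₁ = Z₁ * Y₂ := by
        apply coeffMap_subtype_injective A
        have hY' : coeffMap A.subtype Y₁ = f * coeffMap A.subtype Y₂ := hY
        rw [map_mul, map_mul, incl_algebraMap, hY', ← h1]
        ring
      have h3 := congrArg (red A) h2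
      rw [map_mul, map_mul, red_algebraMap, hv0, map_zero, zero_mul] at h3
      rcases mul_eq_zero.mp h3.symm with h5 | h5
      · exact hZ₁red h5
      · exact hY₂.2.2 h5

end IntB


section Places

open AlgebraicCurve IntermediateField IsDedekindDomain

variable {K F : Type*} [Field K] [Field F] [Algebra K F] [CharZero K]

/-- a function which is regular at all places where `x` is regular is integral over `K[x]` -/
theorem isIntegral_of_forall_place (x : F) [FiniteDimensional K⟮x⟯ F] (f : F)
    (h : ∀ P : Place K F, 0 ≤ P.ord x → 0 ≤ P.ord f) :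
    IsIntegral (Algebra.adjoin K {x}) f := by
  have hmem : f ∈ (algebraMap (helper75.intClosure (K := K) x) F).range := by
    apply HeightOneSpectrum.mem_integers_of_valuation_le_one
    intro v
    set w := Place.ofHeightOneSpectrum (K := K) (F := F) v with hw
    have hx : x ∈ w.toValuationSubring := by
      show x ∈ (v.valuation F).valuationSubring
      rw [Valuation.mem_valuationSubring_iff]
      exact v.valuation_le_one (helper75.xS x)
    have hf : f ∈ w.toValuationSubring :=
      helper75.place_mem_of_ord_nonneg w (h w (helper75.place_ord_nonneg_of_mem w hx))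
    exact (Valuation.mem_valuationSubring_iff _ _).mp hf
  obtain ⟨g, rfl⟩ := hmem
  exact g.2

/-- lifting a monic equation over `K[x] ⊆ F` to a monic polynomial in two variables -/
theorem exists_monic_of_isIntegral_adjoin (x f : F) (h : IsIntegral (Algebra.adjoin K {x}) f) :
    ∃ p : Polynomial (Polynomial K), p.Monic ∧ ev₂ x f p = 0 := by
  obtain ⟨P, hP, hP0⟩ := h
  set φ : Polynomial K →+* Algebra.adjoin K {x} :=
    ((aeval x : Polynomial K →ₐ[K] F).codRestrict (Algebra.adjoin K {x}) (fun q => by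
      rw [Algebra.adjoin_singleton_eq_range_aeval]; exact ⟨q, rfl⟩) :
        Polynomial K →+* Algebra.adjoin K {x}) with hφ
  have hsurj : Function.Surjective φ := by
    rintro ⟨y, hy⟩
    rw [Algebra.adjoin_singleton_eq_range_aeval] at hy
    obtain ⟨q, rfl⟩ := hy
    exact ⟨q, rfl⟩
  have hlift : P ∈ Polynomial.lifts φ := by
    rw [Polynomial.lifts_iff_coeff_lifts]
    intro i
    exact hsurj _
  obtain ⟨p, hp, -, hpm⟩ := Polynomial.lifts_and_natDegree_eq_and_monic hlift hP
  refine ⟨p, hpm, ?_⟩
  rw [← hp, Polynomial.eval₂_map] at hP0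
  exact hP0

end Places


section Interface

open AlgebraicCurve IntermediateField

variable (A : ValuationSubring Kbar) {ℓ : ℕ} [Fact ℓ.Prime]
variable (N : ℕ) [NeZero N]

theorem jK_ne_zero : jK ≠ 0 := jqModC_ne_zero_of_nontrivial Kbar

theorem order_jK : (jK).order = -1 := order_jqModC Kbar

/-- a place at which `j` is regular is not the place at infinity -/
theorem not_isInfty_of_ord_xJ_nonneg (P : Place Kbar (FN N)) (hP : 0 ≤ P.ord (xJ N)) :
    ¬ helper29.IsInfty P := by
  intro hInf
  have hx0 : xJ N ≠ 0 := fun h0 => jK_ne_zero (by rw [← coe_xJ_eq N, h0]; rfl)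
  have h1 := hInf (xJ N) hx0
  rw [coe_xJ_eq, order_jK] at h1
  omega

/-- `InL` implies integrality over `ℚ̄[j]` -/
theorem exists_monic_of_inL (n : ℤ) (f : LaurentSeries Kbar)
    (h : helper29.InL (modularFunctionFieldBar N) n f) :
    ∃ p : Polynomial (Polynomial Kbar), p.Monic ∧ ev₂ jK f p = 0 := by
  obtain ⟨hf, hreg, -⟩ := h
  haveI : FiniteDimensional Kbar⟮xJ N⟯ (FN N) := helper77.an_finiteDimensional N
  have h1 : ∀ P : Place Kbar (FN N), 0 ≤ P.ord (xJ N) → 0 ≤ P.ord (⟨f, hf⟩ : FN N) :=
    fun P hP => hreg P (not_isInfty_of_ord_xJ_nonneg N P hP)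
  have h2 := isIntegral_of_forall_place (xJ N) (⟨f, hf⟩ : FN N) h1
  obtain ⟨p, hp, hp0⟩ := exists_monic_of_isIntegral_adjoin (xJ N) (⟨f, hf⟩ : FN N) h2
  refine ⟨p, hp, ?_⟩
  have h3 := algHom_ev₂ (modularFunctionFieldBar N).val (xJ N) (⟨f, hf⟩ : FN N) p
  rw [hp0, map_zero] at h3
  have h4 : (modularFunctionFieldBar N).val (xJ N) = jK := coe_xJ_eq N
  rw [h4] at h3
  exact h3.symm

/-- **[VAL-INT]** `helper29.IntegralityStatement`, verbatim. -/
theorem integralityStatement_of (hA : A.LiesOverPrime ℓ) (hℓN : ¬ ℓ ∣ N) :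
    helper29.IntegralityStatement N A := by
  intro n f hInL hw
  exact integralityB A hA N hℓN f hInL.1 (exists_monic_of_inL N n f hInL) hw

theorem integralityStatement (M : ℕ) [NeZero M] (A : ValuationSubring Kbar)
    (h : helper29.PrimeToLevel M A) : helper29.IntegralityStatement M A := by
  obtain ⟨ℓ, hℓ, hℓM, hA⟩ := h
  haveI : Fact ℓ.Prime := ⟨hℓ⟩
  exact integralityStatement_of A M hA hℓM

end Interface

end Fermat.Agent.P2.helper81
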