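import Mathlib
import Fermat.Agent.P2.helper81_ValInt
import Fermat.Agent.P2.helper95_FFl

/-!
# P2-VAL (helper81), part 9: the converse of the `q`-expansion principle and `RED-INT`

* `C_dvd_of_mul_primitive`, `isIntegral_of_isIntegral_mul_of_primitive`: Gauss-type lemmas over
  `V[X]`, `V` a valuation ring;
* `exists_euler_of_incl`: Euler's formula `Y · δ = G(j, θ)`, `G ∈ A[X][Y]`, for the integral
  `q`-expansion `Y` of a function which is integral over `ℚ̄[j]`;
* `exists_primitive_bezout`: `U(j, θ) · δ = D(j)` with `D ∈ A[X]` primitive;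
* `isIntegral_of_incl` (**Q1c**): integral over `ℚ̄[j]` + `A`-integral `q`-expansion ⟹ integral
  over `A[j]`; `exists_monic_of_incl` (equation form);
* `exists_monic_red` (**RED-INT**): the reduction is integral over `k[j̃]`;
* `place_ord_nonneg_of_monic`: integral over `K[x]` ⟹ regular where `x` is regular (any
  characteristic);
* `ord_red_nonneg_of_ord_jBar_nonneg`: the finite-place half of `[VAL-UE]`;
* `regRedStatement_of`: `helper29.RegRedStatement` from the cusp side `CuspRegStatement`.
-/

set_option autoImplicit false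
set_option linter.style.haveILetI false
set_option linter.unusedSectionVars false

open ModularCurve Polynomial

noncomputable section

namespace Fermat.Agent.P2.helper81

open Fermat.Agent.S24 Fermat.Agent.S28.helper94 Fermat.Agent.S28.helper81
open Fermat.Agent.S28

attribute [local instance] FractionRing.liftAlgebra FractionRing.isScalarTower_liftAlgebra

section Gauss

variable {V : Type*} [CommRing V] [IsDomain V] [ValuationRing V] [IsLocalRing V]

/-- **Gauss**: if `c · D = b · c'` in `V[X]` with `D` primitive, then `b ∣ c`. -/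
theorem C_dvd_of_mul_primitive (b : V) (D c c' : Polynomial V)
    (hD : D.map (IsLocalRing.residue V) ≠ 0) (h : c * D = C b * c') : C b ∣ c := by
  by_cases hc0 : c = 0
  · rw [hc0]; exact dvd_zero _
  obtain ⟨t, c₁, i, ht, hc₁, hi⟩ := exists_scale₁ c hc0
  have hc₁bar := map_ne_zero_of_coeff_eq_one (IsLocalRing.residue V) c₁ i hi
  have key : ∀ w : V, t = b * w → C b ∣ c := by
    intro w hw
    rw [hc₁, hw, map_mul, mul_assoc]
    exact dvd_mul_right _ _
  rcases ValuationRing.dvd_total b t with ⟨w, hw⟩ | ⟨v, hv⟩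
  · exact key w hw
  · by_cases hvu : IsUnit v
    · obtain ⟨u, rfl⟩ := hvu
      exact key ((u⁻¹ : Vˣ) : V) (by rw [hv, mul_assoc, Units.mul_inv, mul_one])
    · exfalso
      have hv0 : IsLocalRing.residue V v = 0 :=
        (IsLocalRing.residue_eq_zero_iff v).mpr ((IsLocalRing.mem_maximalIdeal v).mpr hvu)
      have h1 : c₁ * D = C v * c' := by
        have hCt : (C t : Polynomial V) ≠ 0 := by simpa using ht
        apply mul_left_cancel₀ hCt
        rw [← mul_assoc, ← hc₁, h, hv, map_mul]
        ring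
      have h2 := congrArg (Polynomial.map (IsLocalRing.residue V)) h1
      rw [Polynomial.map_mul, Polynomial.map_mul, Polynomial.map_C, hv0, map_zero, zero_mul] at h2
      rcases mul_eq_zero.mp h2 with h3 | h3
      · exact hc₁bar h3
      · exact hD h3

variable {F : Type*} [Field F] [Algebra (Polynomial V) F] [FaithfulSMul (Polynomial V) F]
variable [IsIntegrallyClosed (Polynomial V)]

/-- **Gauss-type integrality lemma**: if `b h` and `D h` are integral over `V[X]`, where
`0 ≠ b ∈ V` and `D ∈ V[X]` is primitive, then `h` is integral over `V[X]`. -/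
theorem isIntegral_of_isIntegral_mul_of_primitive {h : F} {b : V} (hb : b ≠ 0)
    {D : Polynomial V} (hD : D.map (IsLocalRing.residue V) ≠ 0)
    (h1 : IsIntegral (Polynomial V) (algebraMap (Polynomial V) F (C b) * h))
    (h2 : IsIntegral (Polynomial V) (algebraMap (Polynomial V) F D * h)) :
    IsIntegral (Polynomial V) h := by
  have hCb : (C b : Polynomial V) ≠ 0 := by simpa using hb
  have hD0 : D ≠ 0 := fun h0 => hD (by rw [h0, Polynomial.map_zero])
  have hK : IsIntegral (FractionRing (Polynomial V)) h :=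
    helper25.isIntegral_fractionRing_of_isIntegral_mul hCb h1
  have key : ∀ i, (minpoly (FractionRing (Polynomial V)) h).coeff i ∈
      (algebraMap (Polynomial V) (FractionRing (Polynomial V))).range := by
    intro i
    obtain ⟨c, hc⟩ := helper25.exists_coeff_mul_pow_of_isIntegral_mul hCb h1 i
    obtain ⟨c', hc'⟩ := helper25.exists_coeff_mul_pow_of_isIntegral_mul hD0 h2 i
    generalize (minpoly (FractionRing (Polynomial V)) h).natDegree - i = e at hc hc'
    have hcc : c * D ^ e = C (b ^ e) * c' := by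
      apply IsFractionRing.injective (Polynomial V) (FractionRing (Polynomial V))
      simp only [map_mul, map_pow, hc, hc']; ring
    have hDe : (D ^ e).map (IsLocalRing.residue V) ≠ 0 := by
      rw [Polynomial.map_pow]; exact pow_ne_zero _ hD
    obtain ⟨d, hd⟩ := C_dvd_of_mul_primitive (b ^ e) (D ^ e) c c' hDe hcc
    refine ⟨d, ?_⟩
    have hsK : algebraMap (Polynomial V) (FractionRing (Polynomial V)) (C b) ^ e ≠ 0 :=
      pow_ne_zero _ (by
        simpa using (IsFractionRing.injective (Polynomial V) (FractionRing (Polynomial V))).ne hCb)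
    apply mul_right_cancel₀ hsK
    rw [← hc, hd, map_mul, map_pow, map_pow, mul_comm]
  have hl : minpoly (FractionRing (Polynomial V)) h ∈
      lifts (algebraMap (Polynomial V) (FractionRing (Polynomial V))) :=
    (lifts_iff_coeff_lifts _).mpr key
  obtain ⟨q, hq, -, hqm⟩ := lifts_and_natDegree_eq_and_monic hl (minpoly.monic hK)
  refine ⟨q, hqm, ?_⟩
  have := minpoly.aeval (FractionRing (Polynomial V)) h
  rw [← hq, aeval_map_algebraMap] at this
  exact this

end Gauss

section Conv

variable (A : ValuationSubring Kbar) {ℓ : ℕ} [Fact ℓ.Prime] (hA : A.LiesOverPrime ℓ)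
variable (N : ℕ) [NeZero N] (hℓN : ¬ ℓ ∣ N)

attribute [local instance] algAX faithfulSMul_AX

theorem red_isUnit_ne_zero {u : LaurentSeries A} (hu : IsUnit u) : red A u ≠ 0 :=
  (hu.map (red A)).ne_zero

theorem residue_eq_zero_of_not_isUnit {v : A} (hv : ¬ IsUnit v) : IsLocalRing.residue A v = 0 :=
  (IsLocalRing.residue_eq_zero_iff v).mpr ((IsLocalRing.mem_maximalIdeal v).mpr hv)

include hA hℓN in
/-- **Euler's formula for integral `q`-expansions**: if `Y ∈ A((q))` is the `q`-expansion of an
element of `F_N` which is integral over `ℚ̄[j]`, then `Y · δ = G(j, θ)` with `G ∈ A[X][Y]`,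
`deg_Y G < ψ(N)`, where `δ = ∂Φ/∂Y (j, θ)` is a unit of `A((q))`. -/
theorem exists_euler_of_incl (Y : LaurentSeries A)
    (hY : coeffMap A.subtype Y ∈ modularFunctionFieldBar N)
    (hint : ∃ p : Polynomial (Polynomial Kbar), p.Monic ∧ ev₂ jK (coeffMap A.subtype Y) p = 0) :
    ∃ G : Polynomial (Polynomial A), G.natDegree < degN N ∧
      ev₂ (jA A) (thetaA A N) G = Y * deltaA A hA N hℓN := by
  obtain ⟨p, hp, hp0⟩ := hint
  obtain ⟨b, q, hb, hq, hq0⟩ := exists_monic_of_integral A jK _ p hp hp0
  set g : FN N := algebraMap Kbar (FN N) (b : Kbar) * ⟨coeffMap A.subtype Y, hY⟩ with hg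
  have hgint : IsIntegral (Polynomial A) g := isIntegral_of_monic A N g q hq hq0
  obtain ⟨G, hGdeg, hG⟩ := exists_euler A hA N hℓN g hgint
  have hgcoe : (g : LaurentSeries Kbar) =
      algebraMap Kbar (LaurentSeries Kbar) (b : Kbar) * coeffMap A.subtype Y := rfl
  rw [hgcoe] at hG
  have hG' : ev₂ (jA A) (thetaA A N) G =
      algebraMap A (LaurentSeries A) b * (Y * deltaA A hA N hℓN) := by
    apply coeffMap_subtype_injective A
    rw [hG, map_mul, map_mul, incl_algebraMap]
    ring
  have hbL : algebraMap A (LaurentSeries A) b ≠ 0 := algebraMap_laurentA_ne_zero A hb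
  by_cases hG0 : G = 0
  · refine ⟨0, by rw [natDegree_zero]; exact degN_pos N, ?_⟩
    rw [hG0, map_zero] at hG'
    rw [map_zero]
    exact mul_left_cancel_laurentA A hbL (by rw [mul_zero]; exact hG')
  obtain ⟨c, G₁, i, j, hc, hG₁, hij⟩ := exists_scale₂ G hG0
  have hG₁bar := map₂_ne_zero_of_coeff_eq_one (IsLocalRing.residue A) G₁ i j hij
  have hG₁deg : G₁.natDegree < degN N := by
    have : G.natDegree = G₁.natDegree := by
      rw [hG₁]; exact Polynomial.natDegree_C_mul (by simpa using hc)
    rw [← this]; exact hGdeg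
  have hgood : red A (ev₂ (jA A) (thetaA A N) G₁) ≠ 0 :=
    (isGood_ev₂ A hA N hℓN G₁ hG₁deg hG₁bar).2.2
  have hrel : algebraMap A (LaurentSeries A) b * (Y * deltaA A hA N hℓN) =
      algebraMap A (LaurentSeries A) c * ev₂ (jA A) (thetaA A N) G₁ := by
    rw [← hG', hG₁, map_mul, ev₂_C, aeval_C]
  have key : ∀ v : A, c = b * v → ∃ G : Polynomial (Polynomial A), G.natDegree < degN N ∧
      ev₂ (jA A) (thetaA A N) G = Y * deltaA A hA N hℓN := by
    intro v hv
    refine ⟨C (C v) * G₁, lt_of_le_of_lt (Polynomial.natDegree_C_mul_le _ _) hG₁deg, ?_⟩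
    apply mul_left_cancel_laurentA A hbL
    rw [hrel, hv, map_mul, map_mul, ev₂_C, aeval_C]
    ring
  rcases ValuationRing.dvd_total b c with ⟨v, hv⟩ | ⟨v, hv⟩
  · exact key v hv
  · by_cases hvu : IsUnit v
    · obtain ⟨w, rfl⟩ := hvu
      exact key ((w⁻¹ : Aˣ) : A) (by rw [hv, mul_assoc, Units.mul_inv, mul_one])
    · exfalso
      have hv0 := residue_eq_zero_of_not_isUnit A hvu
      have h1 : algebraMap A (LaurentSeries A) v * (Y * deltaA A hA N hℓN) =
          ev₂ (jA A) (thetaA A N) G₁ := by
        apply mul_left_cancel_laurentA A (algebraMap_laurentA_ne_zero A hc)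
        rw [← hrel, hv, map_mul]
        ring
      have h2 := congrArg (red A) h1
      rw [map_mul, red_algebraMap, hv0, map_zero, zero_mul] at h2
      exact hgood h2.symm

include hA hℓN in
/-- **primitive Bezout**: `U(j, θ) · δ = D(j)` with `D ∈ A[X]` primitive. -/
theorem exists_primitive_bezout :
    ∃ (U : Polynomial (Polynomial A)) (D : Polynomial A),
      D.map (IsLocalRing.residue A) ≠ 0 ∧
      ev₂ (jA A) (thetaA A N) U * deltaA A hA N hℓN = aeval (jA A) D := by
  have hδ0 : deltaA A hA N hℓN ≠ 0 := (isUnit_deltaA A hA N hℓN).ne_zero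
  have hδbar : red A (deltaA A hA N hℓN) ≠ 0 := red_isUnit_ne_zero A (isUnit_deltaA A hA N hℓN)
  have hδF : aeval (thetaF N) (derivative (PhiA A N hA hℓN)) ≠ 0 := by
    intro h0
    have h1 : ((aeval (thetaF N) (derivative (PhiA A N hA hℓN)) : FN N) : LaurentSeries Kbar) =
        ((0 : FN N) : LaurentSeries Kbar) := congrArg Subtype.val h0
    rw [coe_aeval_thetaF] at h1
    exact hδ0 (coeffMap_subtype_injective A (by rw [map_zero]; exact h1))
  obtain ⟨U₀, V₀, d, hd, hUV⟩ := helper25.exists_bezout_of_irreducible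
    (PhiA_monic A N hA hℓN) (PhiA_irreducible A N hA hℓN) (aeval_thetaF_PhiA A N hA hℓN) hδF
  set Φ := PhiA A N hA hℓN with hΦ
  have hΦm : Φ.Monic := PhiA_monic A N hA hℓN
  have hroot : ev₂ (jA A) (thetaA A N) Φ = 0 := PhiA_root A N hA hℓN
  set U₁ := U₀ %ₘ Φ with hU₁
  have hU₁ev : ev₂ (jA A) (thetaA A N) U₁ = ev₂ (jA A) (thetaA A N) U₀ := by
    have h1 := Polynomial.modByMonic_add_div U₀ Φ
    have h2 := congrArg (ev₂ (jA A) (thetaA A N)) h1
    rw [map_add, map_mul, hroot, zero_mul, add_zero] at h2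
    exact h2
  have h1 : ev₂ (jA A) (thetaA A N) U₁ * deltaA A hA N hℓN = aeval (jA A) d := by
    have h2 := congrArg (ev₂ (jA A) (thetaA A N)) hUV
    rw [map_add, map_mul, map_mul, hroot, mul_zero, add_zero, ev₂_C] at h2
    rw [hU₁ev]
    exact h2
  have hU₁deg : U₁.natDegree < degN N := by
    rw [← PhiA_natDegree A N hA hℓN]
    exact Polynomial.natDegree_modByMonic_lt U₀ hΦm
      (fun h => by
        have h3 := congrArg Polynomial.natDegree h
        rw [PhiA_natDegree, natDegree_one] at h3
        exact absurd h3 (degN_pos N).ne')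
  have hd_ne : aeval (jA A) d ≠ 0 := aeval_jA_ne_zero A d hd
  have hU₁0 : U₁ ≠ 0 := by
    intro h0
    rw [h0, map_zero, zero_mul] at h1
    exact hd_ne h1.symm
  obtain ⟨u, U₂, i, j, hu, hU₂, hij⟩ := exists_scale₂ U₁ hU₁0
  obtain ⟨c, d₁, i', hc, hd₁, hi'⟩ := exists_scale₁ d hd
  have hU₂bar := map₂_ne_zero_of_coeff_eq_one (IsLocalRing.residue A) U₂ i j hij
  have hd₁bar := map_ne_zero_of_coeff_eq_one (IsLocalRing.residue A) d₁ i' hi'
  have hU₂deg : U₂.natDegree < degN N := by
    have : U₁.natDegree = U₂.natDegree := by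
      rw [hU₂]; exact Polynomial.natDegree_C_mul (by simpa using hu)
    rw [← this]; exact hU₁deg
  have hgood : red A (ev₂ (jA A) (thetaA A N) U₂) ≠ 0 :=
    (isGood_ev₂ A hA N hℓN U₂ hU₂deg hU₂bar).2.2
  have hrel : algebraMap A (LaurentSeries A) u *
      (ev₂ (jA A) (thetaA A N) U₂ * deltaA A hA N hℓN) =
      algebraMap A (LaurentSeries A) c * aeval (jA A) d₁ := by
    have h2 : ev₂ (jA A) (thetaA A N) U₁ =
        algebraMap A (LaurentSeries A) u * ev₂ (jA A) (thetaA A N) U₂ := by
      rw [hU₂, map_mul, ev₂_C, aeval_C]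
    have h3 : aeval (jA A) d = algebraMap A (LaurentSeries A) c * aeval (jA A) d₁ := by
      rw [hd₁, map_mul, aeval_C]
    rw [← h3, ← h1, h2]
    ring
  rcases ValuationRing.dvd_total c u with ⟨v, hv⟩ | ⟨v, hv⟩
  · -- `u = c v`
    refine ⟨C (C v) * U₂, d₁, hd₁bar, ?_⟩
    apply mul_left_cancel_laurentA A (algebraMap_laurentA_ne_zero A hc)
    rw [← hrel, hv, map_mul, map_mul, ev₂_C, aeval_C]
    ring
  · -- `c = u v`, then `v` is a unit
    have h2 : ev₂ (jA A) (thetaA A N) U₂ * deltaA A hA N hℓN =
        algebraMap A (LaurentSeries A) v * aeval (jA A) d₁ := by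
      apply mul_left_cancel_laurentA A (algebraMap_laurentA_ne_zero A hu)
      rw [hrel, hv, map_mul]
      ring
    have hvbar : IsLocalRing.residue A v ≠ 0 := by
      intro hv0
      have h3 := congrArg (red A) h2
      rw [map_mul, map_mul, red_algebraMap, hv0, map_zero, zero_mul] at h3
      rcases mul_eq_zero.mp h3 with h4 | h4
      · exact hgood h4
      · exact hδbar h4
    refine ⟨U₂, C v * d₁, ?_, ?_⟩
    · rw [Polynomial.map_mul, Polynomial.map_C]
      exact mul_ne_zero (by simpa using hvbar) hd₁bar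
    · rw [h2, map_mul, aeval_C]

include hA hℓN in
/-- **(Q1c) converse of the `q`-expansion principle**: an element of `F_N` which is integral
over `ℚ̄[j]` and has an `A`-integral `q`-expansion is integral over `A[j]`. -/
theorem isIntegral_of_incl (Y : LaurentSeries A)
    (hY : coeffMap A.subtype Y ∈ modularFunctionFieldBar N)
    (hint : ∃ p : Polynomial (Polynomial Kbar), p.Monic ∧ ev₂ jK (coeffMap A.subtype Y) p = 0) :
    IsIntegral (Polynomial A) (⟨coeffMap A.subtype Y, hY⟩ : FN N) := by
  obtain ⟨G, -, hG⟩ := exists_euler_of_incl A hA N hℓN Y hY hint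
  obtain ⟨U, D, hD, hUD⟩ := exists_primitive_bezout A hA N hℓN
  obtain ⟨p, hp, hp0⟩ := hint
  obtain ⟨b, q, hb, hq, hq0⟩ := exists_monic_of_integral A jK _ p hp hp0
  set f : FN N := ⟨coeffMap A.subtype Y, hY⟩ with hf
  have h1 : IsIntegral (Polynomial A) (algebraMap (Polynomial A) (FN N) (C b) * f) := by
    have : algebraMap (Polynomial A) (FN N) (C b) * f = algebraMap Kbar (FN N) (b : Kbar) * f := by
      rw [algebraMap_AX, evX_C]
    rw [this]
    exact isIntegral_of_monic A N _ q hq hq0
  have hθ : IsIntegral (Polynomial A) (thetaF N) := isIntegral_thetaF A N hA hℓN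
  have hθint : ∀ G : Polynomial (Polynomial A), IsIntegral (Polynomial A) (aeval (thetaF N) G) :=
    fun G => (Algebra.adjoin_le (S := integralClosure (Polynomial A) (FN N))
      (Set.singleton_subset_iff.mpr hθ)) (aeval_mem_adjoin_singleton (Polynomial A) (thetaF N))
  have h2 : IsIntegral (Polynomial A) (algebraMap (Polynomial A) (FN N) D * f) := by
    have key : algebraMap (Polynomial A) (FN N) D * f = aeval (thetaF N) (U * G) := by
      apply Subtype.val_injective
      rw [coe_aeval_thetaF, map_mul, hG, MulMemClass.coe_mul, algebraMap_AX, coe_evX, ← hUD]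
      simp only [map_mul]
      ring
    rw [key]
    exact hθint _
  exact isIntegral_of_isIntegral_mul_of_primitive hb hD h1 h2


include hA hℓN in
/-- (Q1c), equation form: a monic equation over `A[j]` satisfied by the integral `q`-expansion -/
theorem exists_monic_of_incl (Y : LaurentSeries A)
    (hY : coeffMap A.subtype Y ∈ modularFunctionFieldBar N)
    (hint : ∃ p : Polynomial (Polynomial Kbar), p.Monic ∧ ev₂ jK (coeffMap A.subtype Y) p = 0) :
    ∃ q : Polynomial (Polynomial A), q.Monic ∧ ev₂ (jA A) Y q = 0 := by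
  obtain ⟨q, hq, hq0⟩ := isIntegral_of_incl A hA N hℓN Y hY hint
  refine ⟨q, hq, ?_⟩
  apply coeffMap_subtype_injective A
  rw [map_zero]
  set f : FN N := ⟨coeffMap A.subtype Y, hY⟩ with hf
  have h1 : ((eval₂ (algebraMap (Polynomial A) (FN N)) f q : FN N) : LaurentSeries Kbar) =
      ((0 : FN N) : LaurentSeries Kbar) := congrArg Subtype.val hq0
  have h2 : ((eval₂ (algebraMap (Polynomial A) (FN N)) f q : FN N) : LaurentSeries Kbar) =
      eval₂ ((algebraMap (FN N) (LaurentSeries Kbar)).comp (algebraMap (Polynomial A) (FN N)))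
        (f : LaurentSeries Kbar) q :=
    Polynomial.hom_eval₂ q (algebraMap (Polynomial A) (FN N))
      (algebraMap (FN N) (LaurentSeries Kbar)) f
  have h3 : (algebraMap (FN N) (LaurentSeries Kbar)).comp (algebraMap (Polynomial A) (FN N)) =
      (coeffMap A.subtype).comp
        ((aeval (jA A) : Polynomial A →ₐ[A] LaurentSeries A) :
          Polynomial A →+* LaurentSeries A) :=
    RingHom.ext fun p => coe_evX A N p
  rw [ev₂_apply, Polynomial.hom_eval₂, ← h3, ← h2]
  exact h1

include hA hℓN in
/-- **RED-INT**: the reduction of an integral `q`-expansion of a function which is integral over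
`ℚ̄[j]` is integral over `k[j̃]`. -/
theorem exists_monic_red (Y : LaurentSeries A)
    (hY : coeffMap A.subtype Y ∈ modularFunctionFieldBar N)
    (hint : ∃ p : Polynomial (Polynomial Kbar), p.Monic ∧ ev₂ jK (coeffMap A.subtype Y) p = 0) :
    ∃ q : Polynomial (Polynomial (kA A)), q.Monic ∧ ev₂ (jBar A) (red A Y) q = 0 := by
  obtain ⟨q, hq, hq0⟩ := exists_monic_of_incl A hA N hℓN Y hY hint
  refine ⟨q.map (Polynomial.mapRingHom (IsLocalRing.residue A)), hq.map _, ?_⟩
  have h := congrArg (red A) hq0
  rw [map_zero, ev₂_apply, helper25.coeffMap_eval₂_aeval, ModularCurve.coeffMap_jqModC] at h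
  exact h

end Conv

section PlaceInt

open AlgebraicCurve

variable {K F : Type*} [Field K] [Field F] [Algebra K F]

/-- a root of a monic polynomial over `K[x]` is regular at every place at which `x` is
regular (any characteristic) -/
theorem place_ord_nonneg_of_monic (w : Place K F) (x f : F) (hx : 0 ≤ w.ord x)
    (q : Polynomial (Polynomial K)) (hq : q.Monic) (h0 : ev₂ x f q = 0) : 0 ≤ w.ord f := by
  have hxO : x ∈ w.toValuationSubring := helper95.place_mem_of_ord_nonneg w hx
  set φ₀ : K →+* w.toValuationSubring :=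
    (algebraMap K F).codRestrict w.toValuationSubring.toSubring w.algebraMap_mem' with hφ₀
  set φ : Polynomial K →+* w.toValuationSubring := eval₂RingHom φ₀ ⟨x, hxO⟩ with hφ
  have hcomp : (algebraMap w.toValuationSubring F).comp φ =
      ((aeval x : Polynomial K →ₐ[K] F) : Polynomial K →+* F) := by
    apply Polynomial.ringHom_ext
    · intro a
      simp [hφ, hφ₀]
    · simp [hφ]
  have hint : IsIntegral w.toValuationSubring f := by
    refine ⟨q.map φ, hq.map φ, ?_⟩
    rw [Polynomial.eval₂_map, hcomp]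
    exact h0
  obtain ⟨y, hy⟩ := IsIntegrallyClosed.isIntegral_iff.mp hint
  have hfO : f ∈ w.toValuationSubring := hy ▸ y.2
  exact helper95.place_ord_nonneg_of_mem w hfO

end PlaceInt

section RegRed

open AlgebraicCurve

variable (A : ValuationSubring Kbar) {ℓ : ℕ} [Fact ℓ.Prime] (hA : A.LiesOverPrime ℓ)
variable (N : ℕ) [NeZero N] (hℓN : ¬ ℓ ∣ N)

include hA hℓN in
/-- **finite-place half of [VAL-UE]**: the reduction of an integral `q`-expansion of a function
integral over `ℚ̄[j]` is regular at every place of the special fibre field at which `j̃` is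
regular. -/
theorem ord_red_nonneg_of_ord_jBar_nonneg (Y : LaurentSeries A)
    (hY : helper29.incl A Y ∈ Fermat.Agent.S18.helper19.FF N)
    (hint : ∃ p : Polynomial (Polynomial Kbar), p.Monic ∧ ev₂ jK (helper29.incl A Y) p = 0)
    (hmem : helper29.red A Y ∈ Fermat.Agent.S18.helper19.FFb A N)
    (P : Place (kA A) (Fermat.Agent.S18.helper19.FFb A N))
    (hP : 0 ≤ P.ord (helper29.jBar A N)) :
    0 ≤ P.ord (⟨helper29.red A Y, hmem⟩ : Fermat.Agent.S18.helper19.FFb A N) := by
  obtain ⟨q, hq, hq0⟩ := exists_monic_red A hA N hℓN Y hY hint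
  refine place_ord_nonneg_of_monic P (helper29.jBar A N) _ hP q hq ?_
  apply Subtype.val_injective
  have h3 := algHom_ev₂ (modularFunctionFieldFullC (kA A) N).val (xBar A N)
    (⟨red A Y, hmem⟩ : FbarN A N) q
  rw [ZeroMemClass.coe_zero]
  exact h3.trans hq0

/-- the cusp side of [VAL-UE]: regularity of the reduction at the places over `j̃ = ∞` other
than the place at infinity (input from the cusp dictionary in characteristic `ℓ`). -/
def CuspRegStatement (M : ℕ) [NeZero M] (A : ValuationSubring Kbar) : Prop :=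
  ∀ (n : ℤ) (Y : LaurentSeries A),
    helper29.InL (Fermat.Agent.S18.helper19.FF M) n (helper29.incl A Y) →
    ∀ (hmem : helper29.red A Y ∈ Fermat.Agent.S18.helper19.FFb A M)
      (P : Place (kA A) (Fermat.Agent.S18.helper19.FFb A M)),
      P.ord (helper29.jBar A M) < 0 → ¬ helper29.IsInfty P →
        0 ≤ P.ord (⟨helper29.red A Y, hmem⟩ : Fermat.Agent.S18.helper19.FFb A M)

/-- **[VAL-UE]** `helper29.RegRedStatement` from the cusp side alone. -/
theorem regRedStatement_of (M : ℕ) [NeZero M] (A : ValuationSubring Kbar)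
    (h : helper29.PrimeToLevel M A) (hC : CuspRegStatement M A) :
    helper29.RegRedStatement M A := by
  obtain ⟨ℓ, hℓ, hℓM, hA⟩ := h
  haveI : Fact ℓ.Prime := ⟨hℓ⟩
  intro n Y hInL
  have hint := exists_monic_of_inL M n _ hInL
  obtain ⟨hY, hreg, hcoeff⟩ := hInL
  have hmem : red A Y ∈ modularFunctionFieldFullC (kA A) M := coeffMap_residue_mem A hA M hℓM Y hY
  refine ⟨hmem, fun P hP => ?_, fun k hk => ?_⟩
  · by_cases hx : 0 ≤ P.ord (helper29.jBar A M)
    · exact ord_red_nonneg_of_ord_jBar_nonneg A hA M hℓM Y hY hint hmem P hx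
    · exact hC n Y ⟨hY, hreg, hcoeff⟩ hmem P (not_le.mp hx) hP
  · have h1 := hcoeff k hk
    rw [coeffMap_coeff] at h1
    have h2 : Y.coeff k = 0 := Subtype.ext h1
    show (coeffMap (IsLocalRing.residue A) Y).coeff k = 0
    rw [coeffMap_coeff, h2, map_zero]

end RegRed

end Fermat.Agent.P2.helper81
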