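/-
P2-[CUSP-REG] (helper28): `helper81.CuspRegStatement M A` and `helper29.RegRedStatement M A`
for every level `M` and every valuation ring `A` of `ℚ̄` over a prime not dividing `M`.

The reduction of an integral function which is regular off infinity is regular at the cusps
different from infinity: Euler's formula `Y · δ = G(j, θ)` (helper81) is read at every coset
in characteristic `0` and in characteristic `ℓ`; the derivative `δ` has the same order at the
coset `i` in both characteristics (unit leading coefficients), and reduction can only raise the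
order of `G(j, θ)`.
-/
import Mathlib
import Fermat.Agent.P2.helper28_CuspBar
import Fermat.Agent.P2.helper28_CuspOrd
import Fermat.Agent.P2.helper81_ValConv
import Fermat.Agent.P2.helper29_Infty

set_option autoImplicit false
set_option synthInstance.maxHeartbeats 400000

noncomputable section

namespace Fermat.Agent.P2.helper28

open Polynomial ModularCurve Finset AlgebraicCurve IntermediateField
open Fermat.Agent.S28 Fermat.Agent.S18.helper19
open scoped MatrixGroups

/-! ### Generalities -/

theorem order_qExpand_mul {k : Type*} [Field k] (N : ℕ) [NeZero N] (y : LaurentSeries k) :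
    (qExpand k N y).order = (N : ℤ) * y.order := by
  by_cases hy : y = 0
  · rw [hy, map_zero]
    simp
  apply helper93.order_eq_of_coeff
  · rw [qExpand_coeff_mul]
    exact fun h => hy (HahnSeries.coeff_order_eq_zero.mp h)
  · intro m hm
    by_cases hd : (N : ℤ) ∣ m
    · obtain ⟨c, rfl⟩ := hd
      rw [qExpand_coeff_mul]
      apply HahnSeries.coeff_eq_zero_of_lt_order
      have hNpos : (0 : ℤ) < N := by exact_mod_cast Nat.pos_of_ne_zero (NeZero.ne N)
      exact lt_of_mul_lt_mul_left hm hNpos.le
    · exact qExpand_coeff_of_not_dvd N y hd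

theorem coe_evF (k : Type) [Field k] (N : ℕ) [NeZero N] (Q : Polynomial (Polynomial k)) :
    ((evF k N Q : FbT k N) : LaurentSeries k) =
      eval₂ ((aeval (jqModC k) : Polynomial k →ₐ[k] LaurentSeries k) :
        Polynomial k →+* LaurentSeries k) (qExpand k N (jqModC k)) Q :=
  Fermat.Agent.P2.helper81.algHom_ev₂ (modularFunctionFieldFullC k N).val (jb k N)
    (thetaBar k N) Q

section Abs

variable {N : ℕ} [NeZero N] (D : helper81.ConjData N) (S : Subring ℂ)
  {k : Type} [Field k] (r : S →+* k)
  (hζ : helper81.zetaC N ∈ S) (hN : (N : ℂ)⁻¹ ∈ S) (hr : Function.Surjective r)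

open WithZero

theorem sigma_evF (i : D.I) (Q : Polynomial (Polynomial k)) :
    sigma D S r hζ hN hr i (evF k N Q) =
      eval₂ (phik k N) (Eb D S r i (ThS D S hζ hN)) Q := by
  rw [evF, Polynomial.hom_eval₂, sigma_thetaBar]
  congr 1
  apply Polynomial.ringHom_ext
  · intro c
    simp only [RingHom.comp_apply, RingHom.coe_coe, aeval_C]
    rw [sigma_algebraMap]
    exact (helper93.algebraMap_laurent_eq_C c).symm
  · simp only [RingHom.comp_apply, RingHom.coe_coe, aeval_X]
    rw [show jb k N = ⟨jqModC k, jqModC_mem_full k N⟩ from rfl, sigma_jBar]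

theorem mem_comap_sigma_iff (i : D.I) (y : FbT k N) :
    y ∈ ((Valued.v : Valuation (LaurentSeries k) ℤᵐ⁰).comap
        (sigma D S r hζ hN hr i)).valuationSubring ↔
      (y = 0 ∨ 0 ≤ (sigma D S r hζ hN hr i y).order) := by
  rw [Valuation.mem_valuationSubring_iff, Valuation.comap_apply]
  by_cases hy : y = 0
  · rw [hy, map_zero, map_zero]
    simp
  · have hs : sigma D S r hζ hN hr i y ≠ 0 := fun h =>
      hy ((sigma D S r hζ hN hr i).injective (h.trans (map_zero _).symm))
    rw [Fermat.Agent.S24.helper80.laurent_valuation_eq_exp_neg_order hs, ← exp_zero,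
      exp_le_exp]
    constructor
    · intro h
      right
      omega
    · rintro (h | h)
      · exact absurd h hy
      · omega

/-- the place induced by the identity coset is the place at infinity -/
theorem eq_inftyC_of (W₀ : Place k (FbT k N))
    (h7 : W₀.toValuationSubring =
      ((Valued.v : Valuation (LaurentSeries k) ℤᵐ⁰).comap
        (sigma D S r hζ hN hr D.i₀)).valuationSubring) :
    W₀ = helper29.inftyC k N := by
  apply Place.toValuationSubring_injective
  rw [h7]
  ext y
  rw [mem_comap_sigma_iff, sigma_i₀, order_qExpand_mul]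
  show _ ↔ y ∈ helper29.qSubring _
  rw [helper29.mem_qSubring]
  have hNpos : (0 : ℤ) < N := by exact_mod_cast Nat.pos_of_ne_zero (NeZero.ne N)
  constructor
  · rintro (rfl | h)
    · simp
    · exact nonneg_of_mul_nonneg_right h hNpos
  · intro h
    right
    exact mul_nonneg hNpos.le h

theorem cuspExp_nonpos (i : D.I) : cuspExp D i ≤ 0 :=
  neg_nonpos.mpr (Finset.sum_nonneg fun _ _ => sq_nonneg _)

include hr in
/-- the side of characteristic `ℓ`: regularity at the coset `i` from Euler's formula and the
order of `G(j, Θ)` at the coset `i` in characteristic `0` -/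
theorem order_sigma_nonneg_of_euler (Q G : Polynomial (Polynomial S)) (hQ : Q.Monic)
    (hdeg : Q.natDegree = Fintype.card D.I)
    (h0 : evF k N (Q.map (mapRingHom r)) = 0) (y : FbT k N)
    (hy : y * evF k N (derivative (Q.map (mapRingHom r))) = evF k N (G.map (mapRingHom r)))
    (i : D.I)
    (hreg : cuspExp D i ≤ (D.E i ((polyJT D S hζ hN G : GSr D S) : D.G)).order) :
    y = 0 ∨ 0 ≤ (sigma D S r hζ hN hr i y).order := by
  by_cases hy0 : y = 0
  · exact Or.inl hy0
  right
  have h0' := (evF_eq_zero_iff D S r hζ hN _).mp h0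
  have hb := eval₂_derivative_of_root_ne_zero D S r hζ hN hr Q hQ hdeg h0' i
  have hbo := order_derivative_of_root D S r hζ hN hr Q hQ hdeg h0' i
  have h1 := congrArg (sigma D S r hζ hN hr i) hy
  rw [map_mul, sigma_evF, sigma_evF, ← Eb_polyJT D S r hζ hN i G] at h1
  have hs : sigma D S r hζ hN hr i y ≠ 0 := fun h =>
    hy0 ((sigma D S r hζ hN hr i).injective (h.trans (map_zero _).symm))
  have hc : Eb D S r i (polyJT D S hζ hN G) ≠ 0 := by
    rw [← h1]
    exact mul_ne_zero hs hb
  have h2 := order_E_le_order_Eb D S r i _ hc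
  rw [← h1, HahnSeries.order_mul hs hb, hbo] at h2
  linarith

include hr in
/-- the side of characteristic `0`: the order of `G(j, Θ)` at the coset `i` from Euler's
formula and regularity at the coset `i` -/
theorem cuspExp_le_order_of_euler (hinj : Function.Injective r)
    (Q G : Polynomial (Polynomial S)) (hQ : Q.Monic)
    (hdeg : Q.natDegree = Fintype.card D.I)
    (h0 : evF k N (Q.map (mapRingHom r)) = 0) (y : FbT k N)
    (hy : y * evF k N (derivative (Q.map (mapRingHom r))) = evF k N (G.map (mapRingHom r)))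
    (i : D.I) (hreg : y = 0 ∨ 0 ≤ (sigma D S r hζ hN hr i y).order) :
    cuspExp D i ≤ (D.E i ((polyJT D S hζ hN G : GSr D S) : D.G)).order := by
  rw [← order_Eb_eq_of_injective D S r hinj i]
  have h0' := (evF_eq_zero_iff D S r hζ hN _).mp h0
  have hb := eval₂_derivative_of_root_ne_zero D S r hζ hN hr Q hQ hdeg h0' i
  have hbo := order_derivative_of_root D S r hζ hN hr Q hQ hdeg h0' i
  have h1 := congrArg (sigma D S r hζ hN hr i) hy
  rw [map_mul, sigma_evF, sigma_evF, ← Eb_polyJT D S r hζ hN i G] at h1
  rw [← h1]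
  by_cases hy0 : y = 0
  · rw [hy0, map_zero, zero_mul, HahnSeries.order_zero]
    exact cuspExp_nonpos D i
  · have hs : sigma D S r hζ hN hr i y ≠ 0 := fun h =>
      hy0 ((sigma D S r hζ hN hr i).injective (h.trans (map_zero _).symm))
    rw [HahnSeries.order_mul hs hb, hbo]
    have := hreg.resolve_left hy0
    linarith

end Abs

/-! ### The function field in characteristic `0` -/

section Char0

variable (M : ℕ) [NeZero M]

/-- the two descriptions of the function field in characteristic `0` agree -/
theorem FF_eq_fullC : FF M = modularFunctionFieldFullC Kb M := by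
  rw [fullC_eq_adjoin Kb M]
  show modularFunctionFieldBar M = _
  rw [Fermat.Agent.S24.helper24.modularFunctionFieldBar_eq_adjoin M]
  congr 2
  funext d
  have hd0 : d.1 ≠ 0 := (Nat.pos_of_mem_divisors d.2).ne'
  have : NeZero d.1 := ⟨hd0⟩
  show Fermat.Agent.S24.JdT d.1 = _
  unfold Fermat.Agent.S24.JdT
  rw [dif_neg hd0]
  exact Fermat.Agent.S24.helper17.Jd_eq d.1

/-- the image of `ℚ̄` in `ℂ` -/
def SK : Subring ℂ := (⊤ : Subring Kb).map iotaK

/-- `ℚ̄ ≃ ι(ℚ̄)` -/
def eSK : (⊤ : Subring Kb) ≃+* SK :=
  (⊤ : Subring Kb).equivMapOfInjective iotaK iotaK.injective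

/-- the inverse of the embedding, as a "reduction map" -/
def rK : SK →+* Kb :=
  ((Subring.topEquiv : (⊤ : Subring Kb) ≃+* Kb) : (⊤ : Subring Kb) →+* Kb).comp
    (eSK.symm : SK →+* (⊤ : Subring Kb))

theorem iotaK_rK (z : SK) : iotaK (rK z) = (z : ℂ) := by
  have h : eSK (eSK.symm z) = z := eSK.apply_symm_apply z
  have h2 := congrArg Subtype.val h
  exact h2

theorem rK_injective : Function.Injective rK := by
  intro z z' h
  apply Subtype.ext
  rw [← iotaK_rK, ← iotaK_rK, h]

theorem rK_mk (z : Kb) (hz : iotaK z ∈ SK) : rK ⟨iotaK z, hz⟩ = z := by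
  apply iotaK.injective
  rw [iotaK_rK]

theorem mem_SK (z : Kb) : iotaK z ∈ SK := ⟨z, Subring.mem_top z, rfl⟩

theorem rK_surjective : Function.Surjective rK := fun z => ⟨⟨iotaK z, mem_SK z⟩, rK_mk z _⟩

theorem SA_le_SK (A : ValuationSubring Kb) : SA A ≤ SK := by
  rintro _ ⟨z, -, rfl⟩
  exact mem_SK z

theorem zetaC_mem_SK : helper81.zetaC M ∈ SK :=
  SA_le_SK ⊤ (zetaC_mem_SA ⊤ M)

omit [NeZero M] in
theorem natCast_inv_mem_SK : (M : ℂ)⁻¹ ∈ SK := by
  have := mem_SK ((M : Kb)⁻¹)
  rwa [map_inv₀, map_natCast] at this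

/-- the coset embeddings in characteristic `0` -/
def sigmaK (i : IX M) : ↥(modularFunctionFieldFullC Kb M) →+* LaurentSeries Kb :=
  sigma (conjX M) SK rK (zetaC_mem_SK M) (natCast_inv_mem_SK M) rK_surjective i

/-- the degree of the modular equation is the number of cosets -/
theorem degN_eq_card : Fermat.Agent.P2.helper81.degN M = Fintype.card (conjX M).I := by
  have h1 := finrank_FbT (Fermat.Agent.P2.helper81.conjData M) SK rK (zetaC_mem_SK M)
    (natCast_inv_mem_SK M) rK_surjective
  have h2 := finrank_FbT (conjX M) SK rK (zetaC_mem_SK M)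
    (natCast_inv_mem_SK M) rK_surjective
  exact h1.symm.trans h2

end Char0

/-! ### The two coefficient maps -/

section Maps

variable (A : ValuationSubring Kb)

/-- `A → ι(A)` -/
def toSA : A →+* SA A := (eSA A : A.toSubring →+* SA A)

/-- `A → ι(ℚ̄)` -/
def toSK : A →+* SK := (Subring.inclusion (SA_le_SK A)).comp (toSA A)

theorem coe_toSA (a : A) : ((toSA A a : SA A) : ℂ) = iotaK (a : Kb) := rfl

theorem coe_toSK (a : A) : ((toSK A a : SK) : ℂ) = iotaK (a : Kb) := rfl

theorem rA_comp_toSA : (rA A).comp (toSA A) = IsLocalRing.residue A := by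
  ext a
  show IsLocalRing.residue A ((eSA A).symm (eSA A a)) = _
  rw [RingEquiv.symm_apply_apply]

theorem rK_comp_toSK : rK.comp (toSK A) = A.subtype := by
  ext a
  apply iotaK.injective
  rw [RingHom.comp_apply, iotaK_rK]
  rfl

theorem subtype_comp_toSA : (SA A).subtype.comp (toSA A) = iotaK.comp A.subtype := rfl

theorem subtype_comp_toSK : SK.subtype.comp (toSK A) = iotaK.comp A.subtype := rfl

theorem map_toSA_rA (Q : Polynomial (Polynomial A)) :
    (Q.map (mapRingHom (toSA A))).map (mapRingHom (rA A)) =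
      Q.map (mapRingHom (IsLocalRing.residue A)) := by
  rw [Polynomial.map_map, mapRingHom_comp, rA_comp_toSA]

theorem map_toSK_rK (Q : Polynomial (Polynomial A)) :
    (Q.map (mapRingHom (toSK A))).map (mapRingHom rK) =
      Q.map (mapRingHom A.subtype) := by
  rw [Polynomial.map_map, mapRingHom_comp, rK_comp_toSK]

theorem map_toSA_subtype (Q : Polynomial (Polynomial A)) :
    (Q.map (mapRingHom (toSA A))).map (mapRingHom (SA A).subtype) =
      (Q.map (mapRingHom (toSK A))).map (mapRingHom SK.subtype) := by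
  rw [Polynomial.map_map, mapRingHom_comp, Polynomial.map_map, mapRingHom_comp,
    subtype_comp_toSA, subtype_comp_toSK]

variable (M : ℕ) [NeZero M]

theorem incl_ev₂ (G : Polynomial (Polynomial A)) :
    coeffMap A.subtype (Fermat.Agent.P2.helper81.ev₂ (Fermat.Agent.P2.helper81.jA A)
        (Fermat.Agent.P2.helper81.thetaA A M) G) =
      eval₂ ((aeval (jqModC Kb) : Polynomial Kb →ₐ[Kb] LaurentSeries Kb) :
        Polynomial Kb →+* LaurentSeries Kb) (qExpand Kb M (jqModC Kb))
        (G.map (mapRingHom A.subtype)) := by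
  rw [Fermat.Agent.P2.helper81.ev₂_apply, coeffMap_eval₂_aeval, coeffMap_qExpand,
    coeffMap_jqModC]

theorem red_ev₂' (G : Polynomial (Polynomial A)) :
    coeffMap (IsLocalRing.residue A) (Fermat.Agent.P2.helper81.ev₂
        (Fermat.Agent.P2.helper81.jA A) (Fermat.Agent.P2.helper81.thetaA A M) G) =
      eval₂ ((aeval (jqModC (kA A)) : Polynomial (kA A) →ₐ[kA A] LaurentSeries (kA A)) :
        Polynomial (kA A) →+* LaurentSeries (kA A)) (qExpand (kA A) M (jqModC (kA A)))
        (G.map (mapRingHom (IsLocalRing.residue A))) := by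
  rw [Fermat.Agent.P2.helper81.ev₂_apply, coeffMap_eval₂_aeval, coeffMap_qExpand,
    coeffMap_jqModC]

end Maps

/-! ### The cusp side of [VAL-UE] -/

section Main

variable (M : ℕ) [NeZero M] (A : ValuationSubring Kb)

/-- **[CUSP-REG]** the reduction of an integral function which is regular off infinity is
regular at the places over `j̄ = ∞` other than the place at infinity. -/
theorem cuspRegStatement (h : helper29.PrimeToLevel M A) :
    Fermat.Agent.P2.helper81.CuspRegStatement M A := by
  obtain ⟨ℓ, hℓ, hℓM, hA⟩ := h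
  have : Fact ℓ.Prime := ⟨hℓ⟩
  intro n Y hInL hmem P hP hPinf
  -- the dictionaries in characteristic `ℓ` and in characteristic `0`
  obtain ⟨W, d, -, h2, h3, -, -, -, h7, -⟩ := cusp_dictionary_A (M := M) (A := A) hℓ hA hℓM
  obtain ⟨i, rfl⟩ := h2 P hP
  obtain ⟨WK, dK, -, -, h3K, -, -, -, h7K, -⟩ :=
    cusp_dictionary (conjX M) SK rK (zetaC_mem_SK M) (natCast_inv_mem_SK M) rK_surjective
      (permT M) (zetaU M) rfl (conjX_rot M)
  have hW0 : W (conjX M).i₀ = helper29.inftyC (kA A) M :=
    eq_inftyC_of (conjX M) (SA A) (rA A) (zetaC_mem_SA A M)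
      (natCast_inv_mem_SA A hℓ hA M hℓM) (rA_surjective A) _ (h7 _)
  have hWK0 : WK (conjX M).i₀ = helper29.inftyC Kb M :=
    eq_inftyC_of (conjX M) SK rK (zetaC_mem_SK M) (natCast_inv_mem_SK M) rK_surjective _
      (h7K _)
  have hne : W i ≠ W (conjX M).i₀ := fun h => hPinf (by
    rw [h, hW0]
    exact helper29.isInfty_inftyC _ _)
  have hneK : WK i ≠ WK (conjX M).i₀ := fun h => hne ((h3 _ _).mpr ((h3K _ _).mp h))
  have hKinf : ¬ helper29.IsInfty (WK i) := fun h => hneK (by
    rw [hWK0]
    exact helper29.IsInfty.unique _ h (helper29.isInfty_inftyC Kb M))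
  -- Euler's formula
  have hint := Fermat.Agent.P2.helper81.exists_monic_of_inL M n _ hInL
  have hY : helper29.incl A Y ∈ FF M := hInL.1
  obtain ⟨G, -, hG⟩ := Fermat.Agent.P2.helper81.exists_euler_of_incl A hA M hℓM Y hY hint
  have hroot := Fermat.Agent.P2.helper81.PhiA_root A M hA hℓM
  have hmonic := Fermat.Agent.P2.helper81.PhiA_monic A M hA hℓM
  have hdegree := Fermat.Agent.P2.helper81.PhiA_natDegree A M hA hℓM
  -- regularity in characteristic `0`
  have hInL' : helper29.InL (modularFunctionFieldFullC Kb M) n (helper29.incl A Y) := by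
    rw [← FF_eq_fullC M]
    exact hInL
  obtain ⟨hfK, hregK, -⟩ := hInL'
  have hregK' : (⟨helper29.incl A Y, hfK⟩ : FbT Kb M) = 0 ∨
      0 ≤ (sigma (conjX M) SK rK (zetaC_mem_SK M) (natCast_inv_mem_SK M) rK_surjective i
        ⟨helper29.incl A Y, hfK⟩).order := by
    rw [← mem_comap_sigma_iff, ← h7K, Fermat.Agent.S24.helper82.mem_iff_ord_nonneg]
    exact hregK (WK i) hKinf
  -- the polynomials over `ι(A)` and over `ι(ℚ̄)`
  have hQA : ((Fermat.Agent.P2.helper81.PhiA A M hA hℓM).map (mapRingHom (toSA A))).Monic :=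
    hmonic.map _
  have hQK : ((Fermat.Agent.P2.helper81.PhiA A M hA hℓM).map (mapRingHom (toSK A))).Monic :=
    hmonic.map _
  have hdA : ((Fermat.Agent.P2.helper81.PhiA A M hA hℓM).map
      (mapRingHom (toSA A))).natDegree = Fintype.card (conjX M).I := by
    rw [hmonic.natDegree_map, hdegree, degN_eq_card]
  have hdK : ((Fermat.Agent.P2.helper81.PhiA A M hA hℓM).map
      (mapRingHom (toSK A))).natDegree = Fintype.card (conjX M).I := by
    rw [hmonic.natDegree_map, hdegree, degN_eq_card]
  -- the relations in characteristic `0`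
  have h0K : evF Kb M (((Fermat.Agent.P2.helper81.PhiA A M hA hℓM).map
      (mapRingHom (toSK A))).map (mapRingHom rK)) = 0 := by
    apply Subtype.ext
    rw [coe_evF, map_toSK_rK, ← incl_ev₂, hroot, map_zero]
    rfl
  have hyK : (⟨helper29.incl A Y, hfK⟩ : FbT Kb M) *
      evF Kb M (derivative (((Fermat.Agent.P2.helper81.PhiA A M hA hℓM).map
        (mapRingHom (toSK A))).map (mapRingHom rK))) =
      evF Kb M ((G.map (mapRingHom (toSK A))).map (mapRingHom rK)) := by
    apply Subtype.ext
    show helper29.incl A Y * ((evF Kb M _ : FbT Kb M) : LaurentSeries Kb) =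
      ((evF Kb M _ : FbT Kb M) : LaurentSeries Kb)
    rw [coe_evF, coe_evF, map_toSK_rK, map_toSK_rK, derivative_map, ← incl_ev₂, ← incl_ev₂,
      hG, map_mul]
    rfl
  -- the relations in characteristic `ℓ`
  have h0A : evF (kA A) M (((Fermat.Agent.P2.helper81.PhiA A M hA hℓM).map
      (mapRingHom (toSA A))).map (mapRingHom (rA A))) = 0 := by
    apply Subtype.ext
    rw [coe_evF, map_toSA_rA, ← red_ev₂', hroot, map_zero]
    rfl
  have hyA : (⟨helper29.red A Y, hmem⟩ : FbT (kA A) M) *
      evF (kA A) M (derivative (((Fermat.Agent.P2.helper81.PhiA A M hA hℓM).map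
        (mapRingHom (toSA A))).map (mapRingHom (rA A)))) =
      evF (kA A) M ((G.map (mapRingHom (toSA A))).map (mapRingHom (rA A))) := by
    apply Subtype.ext
    show helper29.red A Y * ((evF (kA A) M _ : FbT (kA A) M) : LaurentSeries (kA A)) =
      ((evF (kA A) M _ : FbT (kA A) M) : LaurentSeries (kA A))
    rw [coe_evF, coe_evF, map_toSA_rA, map_toSA_rA, derivative_map, ← red_ev₂', ← red_ev₂',
      hG, map_mul]
    rfl
  -- the order of `G(j, Θ)` at the coset `i`
  have hordK := cuspExp_le_order_of_euler (conjX M) SK rK (zetaC_mem_SK M)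
    (natCast_inv_mem_SK M) rK_surjective rK_injective _ (G.map (mapRingHom (toSK A)))
    hQK hdK h0K _ hyK i hregK'
  have hcoe : ((polyJT (conjX M) (SA A) (zetaC_mem_SA A M)
      (natCast_inv_mem_SA A hℓ hA M hℓM) (G.map (mapRingHom (toSA A))) :
        GSr (conjX M) (SA A)) : (conjX M).G) =
      ((polyJT (conjX M) SK (zetaC_mem_SK M) (natCast_inv_mem_SK M)
        (G.map (mapRingHom (toSK A))) : GSr (conjX M) SK) : (conjX M).G) := by
    rw [coe_polyJT, coe_polyJT, map_toSA_subtype]
  rw [← hcoe] at hordK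
  have key := order_sigma_nonneg_of_euler (conjX M) (SA A) (rA A) (zetaC_mem_SA A M)
    (natCast_inv_mem_SA A hℓ hA M hℓM) (rA_surjective A) _ (G.map (mapRingHom (toSA A)))
    hQA hdA h0A _ hyA i hordK
  rw [← Fermat.Agent.S24.helper82.mem_iff_ord_nonneg, h7, sigmaA, mem_comap_sigma_iff]
  exact key

/-- **[VAL-UE]** the reduction of an integral function regular off infinity is regular off
infinity. -/
theorem regRedStatement (h : helper29.PrimeToLevel M A) : helper29.RegRedStatement M A :=
  Fermat.Agent.P2.helper81.regRedStatement_of M A h (cuspRegStatement M A h)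

end Main

end Fermat.Agent.P2.helper28
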