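/-
P2-CORE [INJ-ASM] (helper29): assembly of (INJ).

* `injReg_of_root_pivot` : ROOT + PIVOT ⇒ REG.
* `inj_of_idealStep_injReg` : I1 + REG + VAL-INT ⇒ `helper19.InjStatement M A m`.
-/
import Mathlib
import Fermat.Agent.P2.helper29_Infty

set_option autoImplicit false

noncomputable section

open HahnSeries IntermediateField AlgebraicCurve ModularCurve
open Fermat.Agent.S18.helper19

namespace Fermat.Agent.P2.helper29

section Basic

variable {A : ValuationSubring Kb} {M : ℕ}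

theorem incl_injective (A : ValuationSubring Kb) : Function.Injective (incl A) := by
  intro x y h
  ext k
  have := congrArg (fun z : LaurentSeries Kb => z.coeff k) h
  simp only [incl, coeffMap_coeff] at this
  exact this

theorem isGood_ne_zero {Y : LaurentSeries A} (h : IsGood A M Y) : Y ≠ 0 := by
  rintro rfl
  exact h.2.2 (map_zero _)

theorem isGood_incl_ne_zero {Y : LaurentSeries A} (h : IsGood A M Y) : incl A Y ≠ 0 := by
  intro h0
  exact isGood_ne_zero h (incl_injective A (h0.trans (map_zero _).symm))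

theorem isRedOne_one : IsRedOne A M (1 : LaurentSeries Kb) :=
  ⟨1, 1, isGood_one, isGood_one, by simp, rfl⟩

theorem IsRedOne.ne_zero {f : LaurentSeries Kb} (h : IsRedOne A M f) : f ≠ 0 := by
  obtain ⟨Y₁, Y₂, h1, _, h12, _⟩ := h
  rintro rfl
  rw [zero_mul] at h12
  exact isGood_incl_ne_zero h1 h12

theorem IsRedOne.mem {f : LaurentSeries Kb} (h : IsRedOne A M f) : f ∈ FF M := by
  obtain ⟨Y₁, Y₂, h1, h2, h12, _⟩ := h
  have h2' := isGood_incl_ne_zero h2
  have : f = incl A Y₁ * (incl A Y₂)⁻¹ := by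
    rw [h12, mul_assoc, mul_inv_cancel₀ h2', mul_one]
  rw [this]
  exact (FF M).mul_mem h1.1 ((FF M).inv_mem h2.1)

theorem IsRedOne.mul {f g : LaurentSeries Kb} (hf : IsRedOne A M f) (hg : IsRedOne A M g) :
    IsRedOne A M (f * g) := by
  obtain ⟨Y₁, Y₂, h1, h2, h12, hr⟩ := hf
  obtain ⟨Z₁, Z₂, k1, k2, k12, kr⟩ := hg
  refine ⟨Y₁ * Z₁, Y₂ * Z₂, IsGood.mul h1 k1, IsGood.mul h2 k2, ?_, ?_⟩
  · rw [map_mul, map_mul, h12, k12]; ring
  · rw [map_mul, map_mul, hr, kr]

theorem IsRedOne.inv {f : LaurentSeries Kb} (hf : IsRedOne A M f) : IsRedOne A M f⁻¹ := by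
  have hf0 := hf.ne_zero
  obtain ⟨Y₁, Y₂, h1, h2, h12, hr⟩ := hf
  refine ⟨Y₂, Y₁, h2, h1, ?_, hr.symm⟩
  rw [h12, ← mul_assoc, inv_mul_cancel₀ hf0, one_mul]

theorem IsRedOne.pow {f : LaurentSeries Kb} (hf : IsRedOne A M f) (m : ℕ) :
    IsRedOne A M (f ^ m) := by
  induction m with
  | zero => simpa using isRedOne_one
  | succ m ih => rw [pow_succ]; exact ih.mul hf

theorem IsRedOne.isWInt {f : LaurentSeries Kb} (hf : IsRedOne A M f) : IsWInt A M f := by
  obtain ⟨Y₁, Y₂, h1, h2, h12, _⟩ := hf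
  exact ⟨Y₁, Y₂, h1.1, h2, h12⟩

/-- the integral expansion of a function with reduction `1` has reduction `1` -/
theorem red_eq_one_of_isRedOne {Y : LaurentSeries A} (h : IsRedOne A M (incl A Y)) :
    red A Y = 1 := by
  obtain ⟨Y₁, Y₂, _, h2, h12, hr⟩ := h
  have e : Y₁ = Y * Y₂ := incl_injective A (by rw [h12, map_mul])
  have h3 : red A Y * red A Y₂ = red A Y₂ := by rw [← map_mul, ← e, hr]
  have h4 : red A Y₂ ≠ 0 := h2.2.2
  exact mul_right_cancel₀ h4 (h3.trans (one_mul _).symm)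

end Basic

section Assembly

variable {A : ValuationSubring Kb} {M : ℕ} [NeZero M] {m : ℕ}

/-- **ROOT + PIVOT ⇒ REG** -/
theorem injReg_of_root_pivot (hroot : RootStatement M A m) (hpiv : PivotStatement M A m) :
    InjRegStatement M A m := by
  intro H n hL hred hdiv
  obtain ⟨W, z, hW, hz, hWred⟩ := hroot H n hL hred hdiv
  refine ⟨1, incl A W, hpiv H W n z hL hW hz hWred, ?_⟩
  rw [map_one, one_mul, ← map_pow, hW]

omit [NeZero M] in
theorem divDvd_pow_mul_inv {g h : LaurentSeries Kb} (hg : g ∈ FF M) (hg0 : g ≠ 0)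
    (hh : h ∈ FF M) (hh0 : h ≠ 0) (hdiv : DivDvd M m h) : DivDvd M m (g ^ m * h⁻¹) := by
  intro hf P
  have e : (⟨g ^ m * h⁻¹, hf⟩ : FF M) = (⟨g, hg⟩ : FF M) ^ m * (⟨h, hh⟩ : FF M)⁻¹ := rfl
  have hg' : (⟨g, hg⟩ : FF M) ≠ 0 := fun h' => hg0 (congrArg Subtype.val h')
  have hh' : (⟨h, hh⟩ : FF M) ≠ 0 := fun h' => hh0 (congrArg Subtype.val h')
  rw [e, Place.ord_mul P (pow_ne_zero m hg') (inv_ne_zero hh'), Place.ord_inv,
    ← zpow_natCast, Place.ord_zpow]
  exact dvd_sub (Dvd.intro _ rfl) (hdiv hh P)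

/-- **I1 + REG + VAL-INT ⇒ (INJ)** -/
theorem inj_of_idealStep_injReg (hm : 0 < m) (hI1 : IdealStepStatement M A m)
    (hreg : InjRegStatement M A m) (hint : IntegralityStatement M A) :
    InjStatement M A m := by
  intro f hf0 hdiv hred
  have hfL0 : (f : LaurentSeries Kb) ≠ 0 := fun h => hf0 (Subtype.ext h)
  have hfdiv : DivDvd M m (f : LaurentSeries Kb) := fun hf P => hdiv P
  have hfred : IsRedOne A M (f : LaurentSeries Kb) := hred
  obtain ⟨g, hgF, hg0, hgred, n, hL⟩ := hI1 f f.2 hfL0 hfdiv hfred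
  -- the function `H' = g ^ m / f`
  have hH'red : IsRedOne A M (g ^ m * (f : LaurentSeries Kb)⁻¹) :=
    (hgred.pow m).mul hfred.inv
  obtain ⟨Y, hY⟩ := hint n _ hL hH'red.isWInt
  have hYred : red A Y = 1 := red_eq_one_of_isRedOne (M := M) (by rw [hY]; exact hH'red)
  have hYdiv : DivDvd M m (incl A Y) := by
    rw [hY]
    exact divDvd_pow_mul_inv hgF hg0 f.2 hfL0 hfdiv
  obtain ⟨c, u, hu, hcu⟩ := hreg Y n (by rw [hY]; exact hL) hYred hYdiv
  rw [hY] at hcu
  -- `g ^ m / f = c * u ^ m`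
  have hne : g ^ m * (f : LaurentSeries Kb)⁻¹ ≠ 0 :=
    mul_ne_zero (pow_ne_zero m hg0) (inv_ne_zero hfL0)
  have hc0 : c ≠ 0 := by
    rintro rfl
    rw [map_zero, zero_mul] at hcu
    exact hne hcu
  have hu0 : u ≠ 0 := by
    rintro rfl
    rw [zero_pow (Nat.pos_iff_ne_zero.mp hm), mul_zero] at hcu
    exact hne hcu
  refine ⟨c⁻¹, (⟨g, hgF⟩ : FF M) * (⟨u, hu⟩ : FF M)⁻¹, ?_⟩
  apply Subtype.ext
  show (f : LaurentSeries Kb) = algebraMap Kb (LaurentSeries Kb) c⁻¹ * (g * u⁻¹) ^ m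
  have hcL : algebraMap Kb (LaurentSeries Kb) c ≠ 0 := by
    rw [Ne, map_eq_zero_iff _ (algebraMap Kb (LaurentSeries Kb)).injective]
    exact hc0
  have hum : u ^ m ≠ 0 := pow_ne_zero m hu0
  have key : (f : LaurentSeries Kb) * (algebraMap Kb (LaurentSeries Kb) c * u ^ m) = g ^ m := by
    rw [← hcu]
    field_simp
  rw [map_inv₀, mul_pow, inv_pow, ← key]
  field_simp

/-- **(INJ) from the four packages I1, ROOT, PIVOT, VAL-INT** -/
theorem inj_of_packages (hm : 0 < m) (hI1 : IdealStepStatement M A m)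
    (hroot : RootStatement M A m) (hpiv : PivotStatement M A m)
    (hint : IntegralityStatement M A) : InjStatement M A m :=
  inj_of_idealStep_injReg hm hI1 (injReg_of_root_pivot hroot hpiv) hint

end Assembly

end Fermat.Agent.P2.helper29

end
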