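import Mathlib

/-!
# P2 [ROOT-S] (helper44): formal `m`-th roots of power series and the content lemma

Mathlib-only algebra for step (e) of BLUEPRINT P2 v1, section 2.

* `exists_pow_eq_powerSeries` : over a ring `A` in which `m` is invertible, a power series `U`
  whose constant coefficient is `c ^ m`, `c` a unit, has an `m`-th root with constant
  coefficient `c`.
* `powerSeries_eq_of_pow_eq` : uniqueness of such a root.
* `coeff_mem_of_pow_coeff_mem` : content lemma: for a valuation subring `A` of a field `K` and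
  `f : K[X]`, if `f ^ m` has coefficients in `A` (`m ≠ 0`) then so does `f`.
-/

set_option autoImplicit false

open Polynomial

noncomputable section

namespace Fermat.Agent.P2.helper44

/-! ## Formal `m`-th roots -/

section Roots

variable {A : Type*} [CommRing A]

/-- existence of a formal `m`-th root -/
theorem exists_pow_eq_powerSeries (m : ℕ) (hm : IsUnit (m : A)) (U : PowerSeries A) (c : A)
    (hc : IsUnit c) (hcU : c ^ m = PowerSeries.constantCoeff U) :
    ∃ V : PowerSeries A, V ^ m = U ∧ PowerSeries.constantCoeff V = c := by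
  rcases Nat.eq_zero_or_pos m with rfl | hmpos
  · have hs : Subsingleton A := by
      rw [Nat.cast_zero] at hm
      exact subsingleton_of_zero_eq_one (isUnit_zero_iff.1 hm)
    have hs' : Subsingleton (PowerSeries A) := ⟨fun a b => by
      ext n; exact Subsingleton.elim _ _⟩
    exact ⟨U, Subsingleton.elim _ _, Subsingleton.elim _ _⟩
  have hH : HenselianRing (PowerSeries A) (Ideal.span {(PowerSeries.X : PowerSeries A)}) :=
    inferInstance
  let f : (PowerSeries A)[X] := X ^ m - C U
  have hf : f.Monic := monic_X_pow_sub_C U hmpos.ne'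
  have hmem : ∀ x : PowerSeries A, x ∈ Ideal.span {(PowerSeries.X : PowerSeries A)} ↔
      PowerSeries.constantCoeff x = 0 := by
    intro x
    rw [Ideal.mem_span_singleton, PowerSeries.X_dvd_iff]
  have h1 : f.eval (PowerSeries.C c) ∈ Ideal.span {(PowerSeries.X : PowerSeries A)} := by
    rw [hmem]
    simp only [f, eval_sub, eval_pow, eval_X, eval_C, map_sub, map_pow,
      PowerSeries.constantCoeff_C, hcU, sub_self]
  have h2 : IsUnit (Ideal.Quotient.mk (Ideal.span {(PowerSeries.X : PowerSeries A)})
      (f.derivative.eval (PowerSeries.C c))) := by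
    apply IsUnit.map
    rw [PowerSeries.isUnit_iff_constantCoeff]
    simp only [f, derivative_sub, derivative_X_pow, derivative_C, sub_zero, eval_mul,
      eval_pow, eval_X, map_mul, map_pow, PowerSeries.constantCoeff_C, eval_natCast, map_natCast]
    exact hm.mul (hc.pow _)
  obtain ⟨V, hV, hVc⟩ := hH.is_henselian f hf (PowerSeries.C c) h1 h2
  refine ⟨V, ?_, ?_⟩
  · have : f.eval V = 0 := hV
    simp only [f, eval_sub, eval_pow, eval_X, eval_C] at this
    exact sub_eq_zero.1 this
  · rw [hmem, map_sub, PowerSeries.constantCoeff_C] at hVc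
    exact sub_eq_zero.1 hVc

/-- uniqueness of a formal `m`-th root with given unit constant coefficient -/
theorem powerSeries_eq_of_pow_eq (m : ℕ) (hm : IsUnit (m : A)) (V V' : PowerSeries A)
    (hc : IsUnit (PowerSeries.constantCoeff V))
    (hcc : PowerSeries.constantCoeff V = PowerSeries.constantCoeff V')
    (h : V ^ m = V' ^ m) : V = V' := by
  have hcomm : Commute V V' := Commute.all _ _
  have hgeom := hcomm.mul_geom_sum₂ m
  rw [h, sub_self] at hgeom
  have hunit : IsUnit (∑ i ∈ Finset.range m, V ^ i * V' ^ (m - 1 - i)) := by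
    rw [PowerSeries.isUnit_iff_constantCoeff, map_sum]
    have : ∀ i ∈ Finset.range m, PowerSeries.constantCoeff (V ^ i * V' ^ (m - 1 - i)) =
        PowerSeries.constantCoeff V ^ (m - 1) := by
      intro i hi
      rw [Finset.mem_range] at hi
      rw [map_mul, map_pow, map_pow, ← hcc, ← pow_add]
      congr 1
      omega
    rw [Finset.sum_congr rfl this, Finset.sum_const, Finset.card_range, nsmul_eq_mul]
    exact hm.mul (hc.pow _)
  exact sub_eq_zero.1 (hunit.mul_left_eq_zero.1 hgeom)

end Roots

/-! ## The content lemma -/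

section Content

variable {K : Type*} [Field K] (A : ValuationSubring K)

/-- **Content lemma**: if `f ^ m` has coefficients in the valuation ring `A`, so does `f`. -/
theorem coeff_mem_of_pow_coeff_mem (f : K[X]) (m : ℕ) (hm : m ≠ 0)
    (h : ∀ i, (f ^ m).coeff i ∈ A) : ∀ i, f.coeff i ∈ A := by
  classical
  rcases eq_or_ne f 0 with rfl | hf0
  · intro i; simp
  -- a coefficient of maximal valuation
  have hne : f.support.Nonempty := by
    rwa [Finset.nonempty_iff_ne_empty, Ne, Polynomial.support_eq_empty]
  obtain ⟨i₀, hi₀, hmax⟩ := Finset.exists_max_image f.support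
    (fun i => A.valuation (f.coeff i)) hne
  set a : K := f.coeff i₀ with ha
  have ha0 : a ≠ 0 := Polynomial.mem_support_iff.1 hi₀
  have hmax' : ∀ i, A.valuation (f.coeff i) ≤ A.valuation a := by
    intro i
    by_cases hi : i ∈ f.support
    · exact hmax i hi
    · rw [Polynomial.notMem_support_iff.1 hi, map_zero]
      exact zero_le
  -- `g = a⁻¹ f` has coefficients in `A`
  have hg : ∀ i, (C a⁻¹ * f).coeff i ∈ A := by
    intro i
    rw [coeff_C_mul, ← A.valuation_le_one_iff, map_mul, map_inv₀]
    have hva : A.valuation a ≠ 0 := (A.valuation).ne_zero_iff.2 ha0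
    rw [inv_mul_le_iff₀ (zero_lt_iff.2 hva), mul_one]
    exact hmax' i
  obtain ⟨G, hG⟩ : ∃ G : A[X], G.map A.subtype = C a⁻¹ * f := by
    have : C a⁻¹ * f ∈ Polynomial.lifts A.subtype := by
      rw [Polynomial.lifts_iff_coeff_lifts]
      intro n
      exact ⟨⟨_, hg n⟩, rfl⟩
    obtain ⟨G, hG⟩ := this
    exact ⟨G, hG⟩
  -- the reduction of `G` is nonzero
  have hGi₀ : ((G.coeff i₀ : A) : K) = 1 := by
    have := congrArg (fun p => p.coeff i₀) hG
    simp only [coeff_map, coeff_C_mul] at this
    rw [← ha, inv_mul_cancel₀ ha0] at this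
    exact this
  have hred : G.map (IsLocalRing.residue A) ≠ 0 := by
    intro h0
    have := congrArg (fun p => p.coeff i₀) h0
    simp only [coeff_map, coeff_zero] at this
    have h1 : G.coeff i₀ = 1 := Subtype.ext hGi₀
    rw [h1, map_one] at this
    exact one_ne_zero this
  have hredm : (G ^ m).map (IsLocalRing.residue A) ≠ 0 := by
    rw [Polynomial.map_pow]
    exact pow_ne_zero m hred
  obtain ⟨j₀, hj₀⟩ : ∃ j₀, ((G ^ m).map (IsLocalRing.residue A)).coeff j₀ ≠ 0 := by
    by_contra hcon
    exact hredm (Polynomial.ext fun n => by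
      rw [coeff_zero]
      by_contra hn
      exact hcon ⟨n, hn⟩)
  rw [coeff_map] at hj₀
  have hu : IsUnit ((G ^ m).coeff j₀) := by
    by_contra hnu
    exact hj₀ ((IsLocalRing.residue_eq_zero_iff _).2 ((IsLocalRing.mem_maximalIdeal _).2 hnu))
  -- `a ^ m * u ∈ A`
  have hfm : f ^ m = C (a ^ m) * (G ^ m).map A.subtype := by
    rw [Polynomial.map_pow, hG, mul_pow, ← C_pow, ← mul_assoc, ← C_mul, ← mul_pow,
      mul_inv_cancel₀ ha0, one_pow, C_1, one_mul]
  have h3 := h j₀
  rw [hfm, coeff_C_mul, coeff_map] at h3
  have hvu : A.valuation (((G ^ m).coeff j₀ : A) : K) = 1 :=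
    (A.valuation_eq_one_iff _).1 hu
  have hva : A.valuation a ≤ 1 := by
    have h4 : A.valuation (a ^ m * (((G ^ m).coeff j₀ : A) : K)) ≤ 1 :=
      (A.valuation_le_one_iff _).2 h3
    rw [map_mul, hvu, mul_one, map_pow] at h4
    exact (pow_le_one_iff_of_nonneg zero_le hm).1 h4
  intro i
  rw [← A.valuation_le_one_iff]
  exact (hmax' i).trans hva

end Content

end Fermat.Agent.P2.helper44

end
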