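import Mathlib
import Fermat.Prelude.Def_ModularCurve_X0ModL

/-!
# P2 [ROOT-S] (helper44): Laurent series toolkit for the assembly of `RootStatement`

Mathlib + Prelude only.

* `coeff_aeval_jqModC_of_lt`, `coeff_aeval_jqModC_natDegree`, `order_aeval_jqModC` :
  the `q`-expansion of a polynomial in `j` (pole order = degree).
* `coeffMap_aeval_jqModC` : coefficientwise maps commute with polynomials in `j`.
* `aeval_jqModC_injective` : `j` is transcendental.
* `order_coeffMap_of_injective`, `coeffMap_injective_of_inj`.
* `exists_ofPowerSeries_eq` : a Laurent series without negative terms is a power series.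
-/

set_option autoImplicit false

open Polynomial ModularCurve

noncomputable section

namespace Fermat.Agent.P2.helper44

section General

variable {R S : Type*} [CommRing R] [CommRing S]

theorem algebraMap_laurent_eq_single0 (c : R) :
    algebraMap R (LaurentSeries R) c = HahnSeries.single 0 c := by
  have h1 : algebraMap R (PowerSeries R) c = PowerSeries.C c := by simp
  rw [HahnSeries.algebraMap_apply', h1, HahnSeries.ofPowerSeries_C]
  rfl

theorem coeff_algebraMap_mul (c : R) (x : LaurentSeries R) (k : ℤ) :
    (algebraMap R (LaurentSeries R) c * x).coeff k = c * x.coeff k := by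
  rw [algebraMap_laurent_eq_single0, HahnSeries.coeff_single_zero_mul]

theorem coeffMap_algebraMap_laurent' (f : R →+* S) (c : R) :
    coeffMap f (algebraMap R (LaurentSeries R) c) = algebraMap S (LaurentSeries S) (f c) := by
  rw [algebraMap_laurent_eq_single0, algebraMap_laurent_eq_single0, coeffMap_single]

/-- compatibility of `coeffMap` with evaluation of polynomials -/
theorem coeffMap_aeval_laurent (f : R →+* S) (x₀ : LaurentSeries R) (p : R[X]) :
    coeffMap f (aeval x₀ p) = aeval (coeffMap f x₀) (p.map f) := by
  have : (coeffMap f).comp (aeval x₀ : R[X] →ₐ[R] LaurentSeries R).toRingHom =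
      ((aeval (coeffMap f x₀) : S[X] →ₐ[S] LaurentSeries S).toRingHom).comp (mapRingHom f) := by
    apply Polynomial.ringHom_ext
    · intro a
      simp [coeffMap_algebraMap_laurent']
    · simp
  exact congrArg (fun g => g p) this

theorem coeffMap_aeval_jqModC (f : R →+* S) (p : R[X]) :
    coeffMap f (aeval (jqModC R) p) = aeval (jqModC S) (p.map f) := by
  rw [coeffMap_aeval_laurent, coeffMap_jqModC]

theorem coeffMap_injective_of_inj (f : R →+* S) (hf : Function.Injective f) :
    Function.Injective (coeffMap f) := by
  intro x y h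
  ext k
  apply hf
  have := congrArg (fun z : LaurentSeries S => z.coeff k) h
  simpa using this

theorem coeffMap_eq_zero_iff_of_inj (f : R →+* S) (hf : Function.Injective f)
    (x : LaurentSeries R) : coeffMap f x = 0 ↔ x = 0 := by
  constructor
  · intro h
    exact coeffMap_injective_of_inj f hf (by rw [h, map_zero])
  · rintro rfl
    exact map_zero _

theorem order_coeffMap_of_injective (f : R →+* S) (hf : Function.Injective f)
    (x : LaurentSeries R) : (coeffMap f x).order = x.order := by
  rcases eq_or_ne x 0 with rfl | hx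
  · rw [map_zero, HahnSeries.order_zero, HahnSeries.order_zero]
  have hx' : coeffMap f x ≠ 0 := fun h => hx ((coeffMap_eq_zero_iff_of_inj f hf x).1 h)
  apply le_antisymm
  · apply HahnSeries.order_le_of_coeff_ne_zero
    rw [coeffMap_coeff]
    intro h
    rw [← map_zero f] at h
    exact hx (HahnSeries.coeff_order_eq_zero.1 (hf h))
  · apply HahnSeries.order_le_of_coeff_ne_zero
    intro h
    apply hx'
    apply HahnSeries.coeff_order_eq_zero.1
    rw [coeffMap_coeff, h, map_zero]

/-- the coefficients of `P(j)` below `- deg P` vanish -/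
theorem coeff_aeval_jqModC_of_lt (P : R[X]) (k : ℤ) (hk : k < -(P.natDegree : ℤ)) :
    (aeval (jqModC R) P).coeff k = 0 := by
  rw [Polynomial.aeval_eq_sum_range, HahnSeries.coeff_sum]
  apply Finset.sum_eq_zero
  intro i hi
  rw [Finset.mem_range] at hi
  rw [Algebra.smul_def, coeff_algebraMap_mul, ModularCurve.coeff_jqModC_pow_of_lt, mul_zero]
  omega

/-- the coefficient of `P(j)` at `- deg P` is the leading coefficient -/
theorem coeff_aeval_jqModC_natDegree (P : R[X]) :
    (aeval (jqModC R) P).coeff (-(P.natDegree : ℤ)) = P.leadingCoeff := by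
  rw [Polynomial.aeval_eq_sum_range, HahnSeries.coeff_sum, Finset.sum_range_succ]
  rw [Finset.sum_eq_zero, zero_add, Algebra.smul_def, coeff_algebraMap_mul,
    ModularCurve.coeff_jqModC_pow_self,
    mul_one, Polynomial.leadingCoeff]
  intro i hi
  rw [Finset.mem_range] at hi
  rw [Algebra.smul_def, coeff_algebraMap_mul, ModularCurve.coeff_jqModC_pow_of_lt, mul_zero]
  omega

theorem aeval_jqModC_ne_zero (P : R[X]) (hP : P ≠ 0) : aeval (jqModC R) P ≠ 0 := by
  intro h
  have := coeff_aeval_jqModC_natDegree P
  rw [h, HahnSeries.coeff_zero] at this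
  exact hP (Polynomial.leadingCoeff_eq_zero.1 this.symm)

theorem aeval_jqModC_injective :
    Function.Injective (aeval (jqModC R) : R[X] → LaurentSeries R) := by
  intro P Q h
  by_contra hne
  have h0 : aeval (jqModC R) (P - Q) = 0 := by rw [map_sub, h, sub_self]
  exact aeval_jqModC_ne_zero (P - Q) (sub_ne_zero.2 hne) h0

/-- the pole order of `P(j)` is the degree of `P` -/
theorem order_aeval_jqModC (P : R[X]) (hP : P ≠ 0) :
    (aeval (jqModC R) P).order = -(P.natDegree : ℤ) := by
  apply le_antisymm
  · apply HahnSeries.order_le_of_coeff_ne_zero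
    rw [coeff_aeval_jqModC_natDegree]
    exact Polynomial.leadingCoeff_ne_zero.2 hP
  · by_contra hlt
    rw [not_le] at hlt
    exact aeval_jqModC_ne_zero P hP
      (HahnSeries.coeff_order_eq_zero.1 (coeff_aeval_jqModC_of_lt P _ hlt))

/-- a Laurent series without negative terms is a power series -/
theorem exists_ofPowerSeries_eq (U : LaurentSeries R) (h : ∀ k : ℤ, k < 0 → U.coeff k = 0) :
    ∃ U₀ : PowerSeries R, HahnSeries.ofPowerSeries ℤ R U₀ = U ∧
      ∀ n : ℕ, PowerSeries.coeff n U₀ = U.coeff n := by
  refine ⟨PowerSeries.mk fun n => U.coeff n, ?_, fun n => PowerSeries.coeff_mk _ _⟩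
  ext k
  rcases le_or_gt 0 k with hk | hk
  · lift k to ℕ using hk
    rw [HahnSeries.ofPowerSeries_apply_coeff, PowerSeries.coeff_mk]
  · rw [ModularCurve.ofPowerSeries_coeff_of_neg _ hk, h k hk]

end General

end Fermat.Agent.P2.helper44

end
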