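import Mathlib
import Fermat.Agent.P2.helper29_Interface
import Fermat.Agent.P2.helper44_RootAlg
import Fermat.Agent.P2.helper44_RootLaurent

/-!
# P2 [ROOT-S] (helper44): assembly of `RootStatement` (BLUEPRINT P2 v1, section 2 (e))

* `exists_root_core` : the algebraic core, for a valuation subring `A` of an algebraically
  closed field: if `U * H = P(j)` with `P ∈ A[X]`, `P ≡ 1` modulo the maximal ideal,
  `P = c * R ^ m` over the field, `U ≡ 1` and `deg P ≤` pole order of `H`, then `H` has an
  integral formal `m`-th root `W` whose reduction is a nonzero constant.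
* `RootInput A m H` : the input shape (what ROOT-N and ROOT-V deliver for `H`).
* `rootStatement_of_rootInput` : `RootStatement M A m` from `RootInput`.
-/

set_option autoImplicit false

open Polynomial ModularCurve
open Fermat.Agent.S18.helper19 Fermat.Agent.P2.helper29

noncomputable section

namespace Fermat.Agent.P2.helper44

section Core

variable {K : Type*} [Field K] [IsAlgClosed K] (A : ValuationSubring K)

/-- an `m`-th root (in the algebraically closed field) of a unit of `A` is a unit of `A` -/
theorem exists_unit_root (m : ℕ) (hm0 : m ≠ 0) (t : A) (ht : IsUnit t) :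
    ∃ y : A, IsUnit y ∧ y ^ m = t := by
  obtain ⟨y, hy⟩ := IsAlgClosed.exists_pow_nat_eq ((t : A) : K) (Nat.pos_of_ne_zero hm0)
  have hyA : y ∈ A := by
    rw [← A.valuation_le_one_iff]
    have h1 : A.valuation (y ^ m) = 1 := by
      rw [hy]
      exact (A.valuation_eq_one_iff _).1 ht
    rw [map_pow] at h1
    exact (pow_le_one_iff_of_nonneg zero_le hm0).1 h1.le
  have hpow : (⟨y, hyA⟩ : A) ^ m = t := Subtype.ext (by simpa using hy)
  refine ⟨⟨y, hyA⟩, ?_, hpow⟩
  have : IsUnit ((⟨y, hyA⟩ : A) ^ m) := by rw [hpow]; exact ht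
  exact (isUnit_pow_iff hm0).1 this

theorem constantCoeff_map_powerSeries {R S : Type*} [CommRing R] [CommRing S] (f : R →+* S)
    (φ : PowerSeries R) :
    PowerSeries.constantCoeff (φ.map f) = f (PowerSeries.constantCoeff φ) := by
  rw [← PowerSeries.coeff_zero_eq_constantCoeff_apply, PowerSeries.coeff_map,
    PowerSeries.coeff_zero_eq_constantCoeff_apply]

/-- **Algebraic core of [ROOT]**. -/
theorem exists_root_core (m : ℕ) (hm : IsUnit ((m : ℕ) : A)) (H : LaurentSeries A)
    (P : Polynomial A) (c : K) (R : Polynomial K) (U : LaurentSeries A)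
    (hP : P.map A.subtype = Polynomial.C c * R ^ m)
    (hPred : P.map (IsLocalRing.residue A) = 1)
    (hU : coeffMap (IsLocalRing.residue A) U = 1)
    (hUH : U * H = Polynomial.aeval (jqModC A) P)
    (hdeg : (P.natDegree : ℤ) ≤ -(H.order)) :
    ∃ (W : LaurentSeries A) (z : IsLocalRing.ResidueField A), W ^ m = H ∧ z ≠ 0 ∧
      coeffMap (IsLocalRing.residue A) W =
        algebraMap (IsLocalRing.ResidueField A) (LaurentSeries (IsLocalRing.ResidueField A)) z := by
  have hm0 : m ≠ 0 := by
    rintro rfl
    rw [Nat.cast_zero] at hm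
    exact not_isUnit_zero hm
  have hmpos : 0 < m := Nat.pos_of_ne_zero hm0
  have hsub : Function.Injective A.subtype := Subtype.val_injective
  have hP0 : P ≠ 0 := by
    rintro rfl
    rw [Polynomial.map_zero] at hPred
    exact zero_ne_one hPred
  -- the `m`-th root `Q` of `P`
  obtain ⟨c₁, hc₁⟩ := IsAlgClosed.exists_pow_nat_eq c hmpos
  have hfm : (Polynomial.C c₁ * R) ^ m = P.map A.subtype := by
    rw [mul_pow, ← Polynomial.C_pow, hc₁, hP]
  have hcoef : ∀ i, (Polynomial.C c₁ * R).coeff i ∈ A :=
    coeff_mem_of_pow_coeff_mem A _ m hm0 (fun i => by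
      rw [hfm, Polynomial.coeff_map]
      exact (P.coeff i).2)
  obtain ⟨Q, hQ⟩ : ∃ Q : Polynomial A, Q.map A.subtype = Polynomial.C c₁ * R := by
    have : Polynomial.C c₁ * R ∈ Polynomial.lifts A.subtype := by
      rw [Polynomial.lifts_iff_coeff_lifts]
      intro n
      exact ⟨⟨_, hcoef n⟩, rfl⟩
    obtain ⟨Q, hQ⟩ := this
    exact ⟨Q, hQ⟩
  have hQm : Q ^ m = P := by
    apply Polynomial.map_injective A.subtype hsub
    rw [Polynomial.map_pow, hQ, hfm]
  -- the reduction of `Q` is a nonzero constant
  have hQred : (Q.map (IsLocalRing.residue A)) ^ m = 1 := by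
    rw [← Polynomial.map_pow, hQm, hPred]
  have hQunit : IsUnit (Q.map (IsLocalRing.residue A)) := IsUnit.of_pow_eq_one hQred hm0
  obtain ⟨z₁, hz₁u, hz₁⟩ := Polynomial.isUnit_iff.1 hQunit
  -- `U` is a power series with unit constant coefficient
  have hH0 : H ≠ 0 := by
    rintro rfl
    rw [mul_zero] at hUH
    exact aeval_jqModC_ne_zero P hP0 hUH.symm
  have hU0 : U ≠ 0 := by
    rintro rfl
    rw [map_zero] at hU
    exact zero_ne_one hU
  have hord : U.order + H.order = -(P.natDegree : ℤ) := by
    rw [← HahnSeries.order_mul hU0 hH0, hUH, order_aeval_jqModC P hP0]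
  have hUord : 0 ≤ U.order := by omega
  have hUneg : ∀ k : ℤ, k < 0 → U.coeff k = 0 := fun k hk =>
    HahnSeries.coeff_eq_zero_of_lt_order (lt_of_lt_of_le hk hUord)
  obtain ⟨U₀, hU₀, -⟩ := exists_ofPowerSeries_eq U hUneg
  have hU₀red : U₀.map (IsLocalRing.residue A) = 1 := by
    apply HahnSeries.ofPowerSeries_injective (Γ := ℤ)
    rw [← coeffMap_ofPowerSeries, hU₀, hU, map_one]
  have hU₀unit : IsUnit (PowerSeries.constantCoeff U₀) := by
    have h1 : IsLocalRing.residue A (PowerSeries.constantCoeff U₀) = 1 := by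
      have := congrArg PowerSeries.constantCoeff hU₀red
      rwa [constantCoeff_map_powerSeries, map_one] at this
    by_contra hnu
    have h2 := (IsLocalRing.residue_eq_zero_iff _).2 ((IsLocalRing.mem_maximalIdeal _).2 hnu)
    rw [h1] at h2
    exact one_ne_zero h2
  obtain ⟨T, hT⟩ : ∃ T : PowerSeries A, U₀ * T = 1 :=
    (PowerSeries.isUnit_iff_constantCoeff.2 hU₀unit).exists_right_inv
  have hTunit : IsUnit (PowerSeries.constantCoeff T) := by
    have h1 : PowerSeries.constantCoeff U₀ * PowerSeries.constantCoeff T = 1 := by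
      rw [← map_mul, hT, map_one]
    exact IsUnit.of_mul_eq_one _ (by rw [mul_comm]; exact h1)
  -- formal `m`-th root of `T = U₀⁻¹`
  obtain ⟨c', hc'u, hc'⟩ := exists_unit_root A m hm0 _ hTunit
  obtain ⟨V, hV, hVc⟩ := exists_pow_eq_powerSeries m hm T c' hc'u hc'
  -- the reduction of `V` is constant
  have hTred : T.map (IsLocalRing.residue A) = 1 := by
    have := congrArg (PowerSeries.map (IsLocalRing.residue A)) hT
    rwa [map_mul, hU₀red, one_mul, map_one] at this
  have hVred : (V.map (IsLocalRing.residue A)) ^ m = 1 := by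
    rw [← map_pow, hV, hTred]
  have hmk : IsUnit ((m : ℕ) : IsLocalRing.ResidueField A) := by
    have := hm.map (IsLocalRing.residue A)
    rwa [map_natCast] at this
  have hζu : IsUnit (PowerSeries.constantCoeff (V.map (IsLocalRing.residue A))) := by
    have h1 : PowerSeries.constantCoeff (V.map (IsLocalRing.residue A)) =
        IsLocalRing.residue A c' := by
      rw [← hVc, constantCoeff_map_powerSeries]
    rw [h1]
    exact hc'u.map _
  have hVconst : V.map (IsLocalRing.residue A) =
      PowerSeries.C (PowerSeries.constantCoeff (V.map (IsLocalRing.residue A))) := by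
    apply powerSeries_eq_of_pow_eq m hmk _ _ hζu
    · rw [PowerSeries.constantCoeff_C]
    · rw [hVred, ← map_pow, ← map_pow, hVred, map_one, map_one]
  -- the root
  refine ⟨Polynomial.aeval (jqModC A) Q * HahnSeries.ofPowerSeries ℤ A V,
    z₁ * PowerSeries.constantCoeff (V.map (IsLocalRing.residue A)), ?_, ?_, ?_⟩
  · rw [mul_pow, ← map_pow, ← map_pow, hQm, hV, ← hUH, ← hU₀, mul_comm _ H, mul_assoc,
      ← map_mul, hT, map_one, mul_one]
  · exact mul_ne_zero hz₁u.ne_zero hζu.ne_zero
  · rw [map_mul, coeffMap_aeval_jqModC, coeffMap_ofPowerSeries, ← hz₁, hVconst,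
      Polynomial.aeval_C, map_mul, HahnSeries.ofPowerSeries_C]
    congr 1
    rw [algebraMap_laurent_eq_single0]
    simp

end Core

/-! ### The input shape and the assembly -/

/-- **Input of [ROOT-S]** (outputs of [ROOT-N] and [ROOT-V] for the integral series `H`):
the norm `N = Norm_{F/Kb(j)}(H)` is `P(j)` with `P ∈ A[X]`, `P ≡ 1` modulo the maximal ideal,
`P = c * R ^ m` over `Kb`, `deg P ≤` (pole order of `H` at infinity), and `U = N / H` is an
integral series with reduction `1`. -/
def RootInput (A : ValuationSubring Kb) (m : ℕ) (H : LaurentSeries A) : Prop :=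
  ∃ (P : Polynomial A) (c : Kb) (R : Polynomial Kb) (U : LaurentSeries A),
    P.map A.subtype = Polynomial.C c * R ^ m ∧
    P.map (IsLocalRing.residue A) = 1 ∧
    red A U = 1 ∧
    U * H = Polynomial.aeval (jqModC A) P ∧
    (P.natDegree : ℤ) ≤ -((incl A H).order)

/-- the conclusion of `RootStatement` for one series `H`, from `RootInput` -/
theorem exists_root_of_rootInput (A : ValuationSubring Kb) (m : ℕ)
    (hm : IsUnit ((m : ℕ) : A)) (H : LaurentSeries A) (hin : RootInput A m H) :
    ∃ (W : LaurentSeries A) (z : kA A), W ^ m = H ∧ z ≠ 0 ∧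
      red A W = algebraMap (kA A) (LaurentSeries (kA A)) z := by
  obtain ⟨P, c, R, U, hP, hPred, hU, hUH, hdeg⟩ := hin
  rw [order_coeffMap_of_injective _ Subtype.val_injective] at hdeg
  exact exists_root_core A m hm H P c R U hP hPred hU hUH hdeg

/-- **[ROOT]** from the input shape. -/
theorem rootStatement_of_rootInput (M : ℕ) [NeZero M] (A : ValuationSubring Kb) (m : ℕ)
    (hm : IsUnit ((m : ℕ) : A))
    (hin : ∀ (H : LaurentSeries A) (n : ℤ), InL (FF M) n (incl A H) → red A H = 1 →
      DivDvd M m (incl A H) → RootInput A m H) :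
    RootStatement M A m := by
  intro H n hL hred hdiv
  exact exists_root_of_rootInput A m hm H (hin H n hL hred hdiv)

end Fermat.Agent.P2.helper44

end
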