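import Mathlib
import Fermat.Prelude.Def_ModularCurve_GenusNumerics

/-!
# P2 [GEN] numerics (helper93): no elliptic points at good levels

For `4 ∣ M` or `9 ∣ M`: `nuTwo M = 0`, `nuThree M = 0`, hence
`12 (genusFormula M - 1) = ψ(M) - 6 cuspCount M`.
-/

set_option autoImplicit false

namespace Fermat.Agent.P2.helper93

open ModularCurve

/-- a polynomial condition without solutions in `ZMod d` has no solutions in `ZMod M`, `d ∣ M` -/
theorem card_roots_eq_zero_of_dvd {d M : ℕ} (hd : d ∣ M) (P : ∀ R : Type, [CommRing R] → R → R)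
    (hP : ∀ (R S : Type) [CommRing R] [CommRing S] (f : R →+* S) (x : R), f (P R x) = P S (f x))
    (h0 : ∀ y : ZMod d, P (ZMod d) y ≠ 0) :
    Nat.card {x : ZMod M // P (ZMod M) x = 0} = 0 := by
  have : IsEmpty {x : ZMod M // P (ZMod M) x = 0} := by
    refine ⟨fun x => ?_⟩
    have h1 := hP (ZMod M) (ZMod d) (ZMod.castHom hd (ZMod d)) x.1
    rw [x.2, map_zero] at h1
    exact h0 _ h1.symm
  exact Nat.card_of_isEmpty

theorem nuTwo_eq_zero_of_dvd {d M : ℕ} (hd : d ∣ M) (h0 : ∀ y : ZMod d, y ^ 2 + 1 ≠ 0) :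
    nuTwo M = 0 := by
  unfold nuTwo
  exact card_roots_eq_zero_of_dvd hd (fun R _ x => x ^ 2 + 1)
    (fun R S _ _ f x => by simp) h0

theorem nuThree_eq_zero_of_dvd {d M : ℕ} (hd : d ∣ M) (h0 : ∀ y : ZMod d, y ^ 2 + y + 1 ≠ 0) :
    nuThree M = 0 := by
  unfold nuThree
  exact card_roots_eq_zero_of_dvd hd (fun R _ x => x ^ 2 + x + 1)
    (fun R S _ _ f x => by simp) h0

theorem nuTwo_eq_zero_of_four_dvd {M : ℕ} (h : 4 ∣ M) : nuTwo M = 0 :=
  nuTwo_eq_zero_of_dvd h (by decide)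

theorem nuThree_eq_zero_of_four_dvd {M : ℕ} (h : 4 ∣ M) : nuThree M = 0 :=
  nuThree_eq_zero_of_dvd h (by decide)

theorem nuTwo_eq_zero_of_three_dvd {M : ℕ} (h : 3 ∣ M) : nuTwo M = 0 :=
  nuTwo_eq_zero_of_dvd h (by decide)

theorem nuThree_eq_zero_of_nine_dvd {M : ℕ} (h : 9 ∣ M) : nuThree M = 0 :=
  nuThree_eq_zero_of_dvd h (by decide)

/-- no elliptic points of order `2` at good levels -/
theorem nuTwo_eq_zero_of_good {M : ℕ} (h : 4 ∣ M ∨ 9 ∣ M) : nuTwo M = 0 := by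
  rcases h with h | h
  · exact nuTwo_eq_zero_of_four_dvd h
  · exact nuTwo_eq_zero_of_three_dvd (Dvd.dvd.trans (by norm_num) h)

/-- no elliptic points of order `3` at good levels -/
theorem nuThree_eq_zero_of_good {M : ℕ} (h : 4 ∣ M ∨ 9 ∣ M) : nuThree M = 0 := by
  rcases h with h | h
  · exact nuThree_eq_zero_of_four_dvd h
  · exact nuThree_eq_zero_of_nine_dvd h

/-- the genus formula at good levels -/
theorem genusFormula_of_good {M : ℕ} (h : 4 ∣ M ∨ 9 ∣ M) :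
    genusFormula M = 1 + (dedekindPsi M : ℚ) / 12 - (cuspCount M : ℚ) / 2 := by
  rw [genusFormula, nuTwo_eq_zero_of_good h, nuThree_eq_zero_of_good h]
  simp

/-- `12 (g - 1) = ψ(M) - 6 c(M)` at good levels -/
theorem twelve_mul_genusFormula_sub_one_of_good {M : ℕ} (h : 4 ∣ M ∨ 9 ∣ M) :
    12 * (genusFormula M - 1) = (dedekindPsi M : ℚ) - 6 * (cuspCount M : ℚ) := by
  rw [genusFormula_of_good h]
  ring

/-- the Hurwitz number at good levels: `2 g - 2 = ψ(M)/6 - c(M)` -/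
theorem two_mul_genusFormula_sub_two_of_good {M : ℕ} (h : 4 ∣ M ∨ 9 ∣ M) :
    2 * genusFormula M - 2 = (dedekindPsi M : ℚ) / 6 - (cuspCount M : ℚ) := by
  rw [genusFormula_of_good h]
  ring

end Fermat.Agent.P2.helper93
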