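/-
P2-[GEN] (helper96): shared definitions for the genus-equality package.

* `HurwitzCount k F` : the Hurwitz inequality in COUNT form (= `helper18.disc_side` combined with
  `helper39.IsReducedBasis.card_and_sum`): for a separating element `t` of degree `n`, finite sets
  `Z c ⊇ {zeros of t - c}` (`c ∈ C`) and `Zinf ⊇ {poles of t}`,
  `∑_{c ∈ C} (n - #Z c) + (n - #Zinf) ≤ 2 g - 2 + 2 n`.
* `GenusLeBarStatement M A` : `g ≤ g̃` (the Hurwitz half of [GEN]).
* `GenusBarLeStatement M A` : `g̃ ≤ g` (the semicontinuity half of [GEN]).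
-/
import Mathlib
import Fermat.Agent.P2.helper29_Interface
import Fermat.Agent.P2.helper74_RiemannSep

set_option autoImplicit false
set_option synthInstance.maxHeartbeats 200000

noncomputable section

open HahnSeries IntermediateField AlgebraicCurve ModularCurve
open Fermat.Agent.S18.helper19

namespace Fermat.Agent.P2.helper96

/-- **Hurwitz inequality, count form.** -/
def HurwitzCount (k F : Type*) [Field k] [Field F] [Algebra k F] : Prop :=
  ∀ (t : F), Transcendental k t → FiniteDimensional k⟮t⟯ F → Algebra.IsSeparable k⟮t⟯ F →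
    ∀ g : ℕ, helper74.HasRiemannGenus k F g →
    ∀ (C : Finset k) (Z : k → Finset (Place k F)) (Zinf : Finset (Place k F)),
      (∀ c ∈ C, ∀ P : Place k F, 0 < P.ord (t - algebraMap k F c) → P ∈ Z c) →
      (∀ P : Place k F, P.ord t < 0 → P ∈ Zinf) →
      ∑ c ∈ C, ((Module.finrank k⟮t⟯ F : ℤ) - ((Z c).card : ℤ)) +
          ((Module.finrank k⟮t⟯ F : ℤ) - (Zinf.card : ℤ))
        ≤ 2 * (g : ℤ) - 2 + 2 * (Module.finrank k⟮t⟯ F : ℤ)

/-- **[GEN-B]** the Hurwitz half of genus equality: `g ≤ g̃`. -/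
def GenusLeBarStatement (M : ℕ) [NeZero M] (A : ValuationSubring Kb) : Prop :=
  ∀ g gb : ℕ, helper29.HasRiemannGenus Kb (FF M) g →
    helper29.HasRiemannGenus (kA A) (FFb A M) gb → g ≤ gb

/-- **[GEN-A]** the semicontinuity half of genus equality: `g̃ ≤ g`. -/
def GenusBarLeStatement (M : ℕ) [NeZero M] (A : ValuationSubring Kb) : Prop :=
  ∀ g gb : ℕ, helper29.HasRiemannGenus Kb (FF M) g →
    helper29.HasRiemannGenus (kA A) (FFb A M) gb → gb ≤ g

end Fermat.Agent.P2.helper96

end
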