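/-
P2-[GEN-B] (helper68, task 665): the Hurwitz half `g ≤ g̃` of genus equality.

`genusLeBar_of` : from `TameBaseStatement`, `CuspBarStatement`, `GenusFormulaStatement` and the
Hurwitz inequality in count form (`helper96.HurwitzCount`) at a good level (`4 ∣ M ∨ 9 ∣ M`):
`helper96.GenusLeBarStatement M A`.

The abstract counting step `hurwitz_count_core` is generic in the function field.
-/
import Mathlib
import Fermat.Agent.P2.helper96_GenDefs
import Fermat.Agent.P2.helper93_GoodNumerics

set_option autoImplicit false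
set_option synthInstance.maxHeartbeats 200000
set_option linter.style.haveILetI false

noncomputable section

open HahnSeries IntermediateField AlgebraicCurve ModularCurve
open Fermat.Agent.S18.helper19

namespace Fermat.Agent.P2.helper68

section Core

variable {k F : Type*} [Field k] [Field F] [Algebra k F]

/-- a zero of `t - a` is not a pole of `t` -/
theorem ord_nonneg_of_ord_sub_pos (Q : Place k F) (t : F) (a : k)
    (h : 0 < Q.ord (t - algebraMap k F a)) : 0 ≤ Q.ord t := by
  rcases eq_or_ne t 0 with rfl | ht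
  · simp [Place.ord_zero]
  have h1 := helper74.ord_add_ge Q (f := t - algebraMap k F a) (g := algebraMap k F a)
    (by simpa using ht)
  rw [sub_add_cancel, Fermat.Agent.S24.helper82.ord_algebraMap] at h1
  have h2 : (0 : ℤ) ≤ min (Q.ord (t - algebraMap k F a)) 0 := le_min h.le le_rfl
  exact h2.trans h1

/-- two different constants are not both values of `t` at the same place -/
theorem eq_of_ord_sub_pos (Q : Place k F) (t : F) (a b : k)
    (ha : 0 < Q.ord (t - algebraMap k F a)) (hb : 0 < Q.ord (t - algebraMap k F b)) :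
    a = b := by
  by_contra hab
  have hne : algebraMap k F (b - a) ≠ 0 := by
    rw [Ne, map_eq_zero_iff _ (algebraMap k F).injective, sub_eq_zero]
    exact fun h => hab h.symm
  have hsum : (t - algebraMap k F a) + -(t - algebraMap k F b) = algebraMap k F (b - a) := by
    rw [map_sub]; ring
  have h1 := helper74.ord_add_ge Q (f := t - algebraMap k F a) (g := -(t - algebraMap k F b))
    (by rw [hsum]; exact hne)
  rw [hsum, Fermat.Agent.S24.helper82.ord_algebraMap] at h1
  have hneg : Q.ord (-(t - algebraMap k F b)) = Q.ord (t - algebraMap k F b) := by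
    have h2 := helper74.ord_add_ge Q (f := t - algebraMap k F a) (g := -(t - algebraMap k F b))
      (by rw [hsum]; exact hne)
    clear h2
    have hm : -(t - algebraMap k F b) = algebraMap k F (-1) * (t - algebraMap k F b) := by
      rw [map_neg, map_one]; ring
    rcases eq_or_ne (t - algebraMap k F b) 0 with h0 | h0
    · rw [h0, neg_zero]
    · rw [hm, Place.ord_mul Q (by
        rw [Ne, map_eq_zero_iff _ (algebraMap k F).injective]; norm_num) h0,
        Fermat.Agent.S24.helper82.ord_algebraMap, zero_add]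
  rw [hneg] at h1
  have h3 : (0 : ℤ) < min (Q.ord (t - algebraMap k F a)) (Q.ord (t - algebraMap k F b)) :=
    lt_min ha hb
  omega

/-- **Counting core of [GEN-B].**  If the poles of `j` are exactly the poles of `t` and the
zeros of the `t - a`, `a ∈ V`, and all of them lie in the finite set `T`, then the Hurwitz
inequality in count form (for the sets `Z c ⊆ T`, `Zinf ⊆ T` cut out of `T`) gives
`(|V| - 1) n - |T| ≤ 2 g - 2`. -/
theorem hurwitz_count_core (t j : F) (V : Finset k) (T : Finset (Place k F))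
    (hpoles : ∀ Q : Place k F, Q.ord j < 0 ↔
      (Q.ord t < 0 ∨ ∃ a ∈ V, 0 < Q.ord (t - algebraMap k F a)))
    (hT1 : ∀ Q : Place k F, Q.ord j < 0 → Q ∈ T) (n gb : ℤ)
    (hH : ∀ (Z : k → Finset (Place k F)) (Zinf : Finset (Place k F)),
      (∀ c ∈ V, ∀ P : Place k F, 0 < P.ord (t - algebraMap k F c) → P ∈ Z c) →
      (∀ P : Place k F, P.ord t < 0 → P ∈ Zinf) →
      ∑ c ∈ V, (n - ((Z c).card : ℤ)) + (n - (Zinf.card : ℤ)) ≤ 2 * gb - 2 + 2 * n) :
    ((V.card : ℤ) - 1) * n - (T.card : ℤ) ≤ 2 * gb - 2 := by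
  classical
  set Z : k → Finset (Place k F) :=
    fun c => T.filter (fun Q => 0 < Q.ord (t - algebraMap k F c)) with hZ
  set Zinf : Finset (Place k F) := T.filter (fun Q => Q.ord t < 0) with hZinf
  have h1 := hH Z Zinf
    (fun c hc P hP => Finset.mem_filter.mpr ⟨hT1 P ((hpoles P).mpr (Or.inr ⟨c, hc, hP⟩)), hP⟩)
    (fun P hP => Finset.mem_filter.mpr ⟨hT1 P ((hpoles P).mpr (Or.inl hP)), hP⟩)
  have hdisj : (V : Set k).PairwiseDisjoint Z := by
    intro a _ b _ hab
    rw [Function.onFun, Finset.disjoint_left]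
    intro Q hQa hQb
    exact hab (eq_of_ord_sub_pos Q t a b (Finset.mem_filter.mp hQa).2
      (Finset.mem_filter.mp hQb).2)
  have hdisj2 : Disjoint (V.biUnion Z) Zinf := by
    rw [Finset.disjoint_left]
    intro Q hQ hQinf
    obtain ⟨a, _, hQa⟩ := Finset.mem_biUnion.mp hQ
    have h2 := ord_nonneg_of_ord_sub_pos Q t a (Finset.mem_filter.mp hQa).2
    have h3 := (Finset.mem_filter.mp hQinf).2
    omega
  have hcard : ∑ c ∈ V, (Z c).card + Zinf.card ≤ T.card := by
    rw [← Finset.card_biUnion hdisj, ← Finset.card_union_of_disjoint hdisj2]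
    apply Finset.card_le_card
    intro Q hQ
    rcases Finset.mem_union.mp hQ with h | h
    · obtain ⟨a, _, hQa⟩ := Finset.mem_biUnion.mp h
      exact (Finset.mem_filter.mp hQa).1
    · exact (Finset.mem_filter.mp h).1
  have hcardZ : (∑ c ∈ V, ((Z c).card : ℤ)) + (Zinf.card : ℤ) ≤ (T.card : ℤ) := by
    exact_mod_cast hcard
  rw [Finset.sum_sub_distrib, Finset.sum_const, nsmul_eq_mul] at h1
  linarith

end Core

/-- **[GEN-B]** the Hurwitz half of genus equality at good levels: `g ≤ g̃`. -/
theorem genusLeBar_of (M : ℕ) [NeZero M] (A : ValuationSubring Kb) (hM : 4 ∣ M ∨ 9 ∣ M)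
    (hT : helper29.TameBaseStatement M A) (hC : helper29.CuspBarStatement M A)
    (hF : helper29.GenusFormulaStatement M) (hH : helper96.HurwitzCount (kA A) (FFb A M)) :
    helper96.GenusLeBarStatement M A := by
  intro g gb hg hgb
  obtain ⟨t, V, ht, fd, sep, hpoles, hpsi⟩ := hT
  obtain ⟨T, hT1, hT2⟩ := hC
  have hcore := hurwitz_count_core t (helper29.jBar A M) V T hpoles hT1
    (Module.finrank (kA A)⟮t⟯ (FFb A M) : ℤ) (gb : ℤ)
    (fun Z Zinf hZ hZinf => hH t ht fd sep gb hgb.2 V Z Zinf hZ hZinf)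
  have hgf := hF g hg
  have hnum := helper93.twelve_mul_genusFormula_sub_one_of_good hM
  have hTc : (T.card : ℤ) ≤ (cuspCount M : ℤ) := by exact_mod_cast hT2
  have h1 : (dedekindPsi M : ℤ) - 6 * (cuspCount M : ℤ) ≤ 12 * (gb : ℤ) - 12 := by
    rw [← hpsi]
    linarith
  have h1' : (dedekindPsi M : ℚ) - 6 * (cuspCount M : ℚ) ≤ 12 * (gb : ℚ) - 12 := by
    exact_mod_cast h1
  have h2 : (12 : ℚ) * g - 12 = (dedekindPsi M : ℚ) - 6 * (cuspCount M : ℚ) := by
    rw [hgf, ← hnum]; ring
  have h3 : (g : ℚ) ≤ gb := by linarith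
  exact_mod_cast h3

end Fermat.Agent.P2.helper68

end
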