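import Mathlib
import Fermat.Prelude.Def_ModularCurve_LaurentCoeff

/-!
# P2 (helper74): the content lemma with (ARCH)

Over a valuation ring `A` of rank one (property (ARCH): every non-unit `b` has a power divisible
by any given nonzero `e`), a Laurent series `S ∈ A((q))` with nonzero reduction is a unit modulo
`e`.  Hence `δ * S ∈ e A((q))` implies `δ ∈ e A((q))`.
-/

namespace Fermat.Agent.P2.helper74

open ModularCurve HahnSeries

section Unit

variable {R : Type*} [CommRing R]

/-- `single i a` is nilpotent if `a` is. -/
theorem isNilpotent_single {a : R} (ha : IsNilpotent a) (i : ℤ) :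
    IsNilpotent (HahnSeries.single i a : LaurentSeries R) := by
  have h1 : (HahnSeries.single i a : LaurentSeries R)
      = HahnSeries.C a * HahnSeries.single i (1 : R) := by
    rw [HahnSeries.C_mul_eq_smul]
    ext j
    simp [HahnSeries.coeff_single]
  rw [h1]
  exact Commute.isNilpotent_mul_right (Commute.all _ _) (ha.map HahnSeries.C)

/-- A Laurent series with a unit coefficient at `i₀` and nilpotent coefficients below `i₀` is a
unit. -/
theorem isUnit_of_nilpotent_below (S : LaurentSeries R) (i₀ : ℤ) (hu : IsUnit (S.coeff i₀))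
    (hn : ∀ i < i₀, IsNilpotent (S.coeff i)) : IsUnit S := by
  rcases subsingleton_or_nontrivial R with hR | hR
  · exact isUnit_of_subsingleton S
  -- the part of order `≥ i₀`
  set T : LaurentSeries R := ⟨fun i => if i₀ ≤ i then S.coeff i else 0,
    S.isPWO_support.mono (by
      intro i hi
      rw [Function.mem_support] at hi
      rw [HahnSeries.mem_support]
      by_cases h : i₀ ≤ i
      · simpa [h] using hi
      · simp [h] at hi)⟩ with hT
  have hTcoeff : ∀ i, T.coeff i = if i₀ ≤ i then S.coeff i else 0 := fun i => rfl
  have hT0 : T.coeff i₀ ≠ 0 := by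
    rw [hTcoeff, if_pos le_rfl]
    exact hu.ne_zero
  have hTne : T ≠ 0 := by
    intro h
    apply hT0
    rw [h]
    rfl
  have hTord : T.order = i₀ := by
    apply le_antisymm
    · exact HahnSeries.order_le_of_coeff_ne_zero hT0
    · by_contra hlt
      rw [not_le] at hlt
      have := (HahnSeries.coeff_order_eq_zero (x := T)).not.mpr hTne
      rw [hTcoeff, if_neg (not_le.mpr hlt)] at this
      exact this rfl
  have hTunit : IsUnit T := by
    apply HahnSeries.isUnit_of_isUnit_leadingCoeff_AddUnitOrder
    · rw [HahnSeries.leadingCoeff_eq, hTord, hTcoeff, if_pos le_rfl]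
      exact hu
    · exact AddGroup.isAddUnit _
  -- the part of order `< i₀`
  have hS0 : S ≠ 0 := by
    intro h
    rw [h] at hu
    exact not_isUnit_zero hu
  have hsum : ∀ j : ℤ, (∑ x ∈ Finset.Ico S.order i₀,
      @ite R (j = x) (Classical.propDecidable _) (S.coeff x) 0)
      = if j ∈ Finset.Ico S.order i₀ then S.coeff j else 0 := by
    intro j
    by_cases hj : j ∈ Finset.Ico S.order i₀
    · rw [if_pos hj]
      refine (Finset.sum_eq_single_of_mem j hj ?_).trans ?_
      · intro b _ hb
        exact if_neg (Ne.symm hb)
      · exact if_pos rfl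
    · rw [if_neg hj]
      refine Finset.sum_eq_zero ?_
      intro x hx
      exact if_neg (fun h : j = x => hj (h ▸ hx))
  have hN : S - T = ∑ i ∈ Finset.Ico S.order i₀, HahnSeries.single i (S.coeff i) := by
    ext j
    rw [HahnSeries.coeff_sub, hTcoeff, HahnSeries.coeff_sum]
    simp only [HahnSeries.coeff_single]
    rw [hsum]
    by_cases hj : j ∈ Finset.Ico S.order i₀
    · rw [if_pos hj]
      rw [Finset.mem_Ico] at hj
      rw [if_neg (not_le.mpr hj.2), sub_zero]
    · rw [if_neg hj]
      rw [Finset.mem_Ico, not_and_or, not_le, not_lt] at hj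
      rcases hj with hj | hj
      · rw [HahnSeries.coeff_eq_zero_of_lt_order hj]
        simp
      · rw [if_pos hj, sub_self]
  have hNnil : IsNilpotent (S - T) := by
    rw [hN]
    refine isNilpotent_sum (fun i hi => isNilpotent_single (hn i ?_) i)
    rw [Finset.mem_Ico] at hi
    exact hi.2
  have := hNnil.isUnit_add_left_of_commute hTunit (Commute.all _ _)
  rwa [add_sub_cancel] at this

end Unit

section Content

variable {L : Type*} [Field L] (A : ValuationSubring L) {k : Type*} [Field k] (π : A →+* k)

/-- **(ARCH)**: every element of the kernel of the reduction has a power divisible by any given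
nonzero element (the valuation has rank one). -/
def Arch : Prop := ∀ b : A, π b = 0 → ∀ e : A, e ≠ 0 → ∃ n : ℕ, e ∣ b ^ n

variable {A π}

/-- **The content lemma.** If `δ * S ∈ e A((q))` and `S` has nonzero reduction, then
`δ ∈ e A((q))`. -/
theorem exists_eq_smul_of_mul_eq (hπ : ∀ x : A, π x ≠ 0 → IsUnit x) (hArch : Arch A π)
    (δ S P : LaurentSeries A) (e : A) (he : e ≠ 0) (hS : coeffMap π S ≠ 0)
    (h : δ * S = e • P) : ∃ δ' : LaurentSeries A, δ = e • δ' := by
  classical
  set mk : A →+* A ⧸ Ideal.span {e} := Ideal.Quotient.mk (Ideal.span {e}) with hmk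
  have hmke : mk e = 0 := by
    rw [hmk, Ideal.Quotient.eq_zero_iff_mem]
    exact Ideal.mem_span_singleton_self e
  have h1 : coeffMap mk δ * coeffMap mk S = 0 := by
    rw [← map_mul, h]
    ext i
    simp [hmke]
  have hu : IsUnit (coeffMap mk S) := by
    apply isUnit_of_nilpotent_below _ (coeffMap π S).order
    · rw [coeffMap_coeff]
      apply IsUnit.map
      apply hπ
      have := (HahnSeries.coeff_order_eq_zero (x := coeffMap π S)).not.mpr hS
      rwa [coeffMap_coeff] at this
    · intro i hi
      have h0 : π (S.coeff i) = 0 := by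
        have := HahnSeries.coeff_eq_zero_of_lt_order hi
        rwa [coeffMap_coeff] at this
      obtain ⟨n, hn⟩ := hArch _ h0 e he
      refine ⟨n, ?_⟩
      rw [coeffMap_coeff, ← map_pow, hmk, Ideal.Quotient.eq_zero_iff_mem,
        Ideal.mem_span_singleton]
      exact hn
  have h2 : coeffMap mk δ = 0 := (hu.mul_left_eq_zero).mp h1
  have hdvd : ∀ i, e ∣ δ.coeff i := by
    intro i
    have := congrArg (fun z => z.coeff i) h2
    simp only [coeffMap_coeff, HahnSeries.coeff_zero] at this
    rwa [hmk, Ideal.Quotient.eq_zero_iff_mem, Ideal.mem_span_singleton] at this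
  -- the quotient
  let f : ZeroHom A A :=
    { toFun := fun x => if hx : e ∣ x then Classical.choose hx else 0
      map_zero' := by
        have h0 : e ∣ (0 : A) := dvd_zero e
        rw [dif_pos h0]
        have := Classical.choose_spec h0
        rcases mul_eq_zero.mp this.symm with h | h
        · exact absurd h he
        · exact h }
  refine ⟨δ.map f, ?_⟩
  apply HahnSeries.ext
  funext i
  rw [HahnSeries.coeff_smul, HahnSeries.map_coeff, smul_eq_mul]
  show δ.coeff i = e * (if hx : e ∣ δ.coeff i then Classical.choose hx else 0)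
  rw [dif_pos (hdvd i)]
  exact Classical.choose_spec (hdvd i)

end Content

end Fermat.Agent.P2.helper74
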