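import Mathlib
import Fermat.Prelude.Def_FLTPrelim_Ramification
import Fermat.Agent.P2.helper74_Content

/-!
# P2 (helper74): (ARCH) for valuation rings of `ℚ̄` over a prime

A valuation subring `A` of a field algebraic over `ℚ` lying over a prime `ℓ` has rank one:
every element of the maximal ideal has a power divisible by `ℓ`, and every nonzero element of `A`
divides a power of `ℓ`.
-/

set_option autoImplicit false

namespace Fermat.Agent.P2.helper74

open Polynomial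

section ArchProof

variable {L : Type*} [Field L] (A : ValuationSubring L) (ℓ : ℕ)

theorem natCast_mem_maximalIdeal (hA : A.LiesOverPrime ℓ) :
    ((ℓ : ℕ) : A) ∈ IsLocalRing.maximalIdeal A := by
  have h : (((ℓ : ℕ) : A) : L) ∈ A.nonunits := by
    have h1 : (((ℓ : ℕ) : A) : L) = (ℓ : L) := by
      simp
    rw [h1]
    exact hA
  exact ValuationSubring.coe_mem_nonunits_iff.mp h

theorem isUnit_intCast_of_not_dvd (hℓ : ℓ.Prime) (hA : A.LiesOverPrime ℓ) (c : ℤ)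
    (hc : ¬ (ℓ : ℤ) ∣ c) : IsUnit (c : A) := by
  have hp : Prime (ℓ : ℤ) := Nat.prime_iff_prime_int.mp hℓ
  have hcop : IsCoprime (ℓ : ℤ) c := (hp.coprime_iff_not_dvd).mpr hc
  obtain ⟨x, y, hxy⟩ := hcop
  have h1 : (x : A) * ((ℓ : ℕ) : A) + (y : A) * (c : A) = 1 := by
    have := congrArg (Int.cast : ℤ → A) hxy
    push_cast at this
    exact this
  by_contra hu
  have hcm : (c : A) ∈ IsLocalRing.maximalIdeal A := (IsLocalRing.mem_maximalIdeal _).mpr hu
  have h2 : (1 : A) ∈ IsLocalRing.maximalIdeal A := by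
    rw [← h1]
    exact Ideal.add_mem _ (Ideal.mul_mem_left _ _ (natCast_mem_maximalIdeal A ℓ hA))
      (Ideal.mul_mem_left _ _ hcm)
  exact (Ideal.ne_top_iff_one _).mp (IsLocalRing.maximalIdeal.isMaximal A).ne_top h2

variable [CharZero L]

/-- every element of the maximal ideal has a power divisible by `ℓ` -/
theorem exists_natCast_dvd_pow (hℓ : ℓ.Prime) (hA : A.LiesOverPrime ℓ) (b : A)
    (hb : b ∈ IsLocalRing.maximalIdeal A) (halg : IsAlgebraic ℤ (b : L)) :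
    ∃ n : ℕ, ((ℓ : ℕ) : A) ∣ b ^ n := by
  classical
  obtain ⟨p, hp0, hp⟩ := halg
  set q := p.primPart with hq
  have hq0 : aeval (b : L) q = 0 := aeval_primPart_eq_zero hp0 hp
  have hprim : q.IsPrimitive := isPrimitive_primPart p
  have hex : ∃ i, ¬ (ℓ : ℤ) ∣ q.coeff i := by
    by_contra h
    push Not at h
    have h1 : C (ℓ : ℤ) ∣ q := (C_dvd_iff_dvd_coeff _ _).mpr h
    have hu := hprim _ h1
    have h2 := Int.isUnit_iff.mp hu
    have h3 := hℓ.two_le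
    omega
  set i₀ := Nat.find hex with hi₀def
  have hi₀ : ¬ (ℓ : ℤ) ∣ q.coeff i₀ := Nat.find_spec hex
  have hlt : ∀ i < i₀, (ℓ : ℤ) ∣ q.coeff i := fun i hi => not_not.mp (Nat.find_min hex hi)
  have hci₀ : q.coeff i₀ ≠ 0 := by
    intro h
    apply hi₀
    rw [h]
    exact dvd_zero _
  have hle : i₀ ≤ q.natDegree := le_natDegree_of_ne_zero hci₀
  -- evaluate in `A`
  have hqA : aeval b q = 0 := by
    apply Subtype.val_injective
    have h1 : (A.subtype) (aeval b q) = aeval (A.subtype b) q := by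
      rw [aeval_def, aeval_def, hom_eval₂]
      congr 1
    exact h1.trans hq0
  rw [aeval_eq_sum_range] at hqA
  have hsplit : ∑ i ∈ Finset.range (q.natDegree + 1), q.coeff i • b ^ i
      = ∑ i ∈ Finset.range i₀, q.coeff i • b ^ i + (q.coeff i₀ • b ^ i₀
        + ∑ i ∈ Finset.Ico (i₀ + 1) (q.natDegree + 1), q.coeff i • b ^ i) := by
    rw [Finset.range_eq_Ico, Finset.range_eq_Ico, ← Finset.sum_Ico_consecutive _ (Nat.zero_le i₀)
      (Nat.le_succ_of_le hle), Finset.sum_eq_sum_Ico_succ_bot (Nat.lt_succ_of_le hle)]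
  rw [hsplit] at hqA
  have hS₁ : ((ℓ : ℕ) : A) ∣ ∑ i ∈ Finset.range i₀, q.coeff i • b ^ i := by
    refine Finset.dvd_sum fun i hi => ?_
    rw [Finset.mem_range] at hi
    obtain ⟨c, hc⟩ := hlt i hi
    refine ⟨(c : A) * b ^ i, ?_⟩
    rw [hc, zsmul_eq_mul]
    push_cast
    ring
  have hS₃ : b ^ (i₀ + 1) ∣ ∑ i ∈ Finset.Ico (i₀ + 1) (q.natDegree + 1), q.coeff i • b ^ i := by
    refine Finset.dvd_sum fun i hi => ?_
    rw [Finset.mem_Ico] at hi
    rw [zsmul_eq_mul]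
    exact Dvd.dvd.mul_left (pow_dvd_pow b hi.1) _
  obtain ⟨s, hs⟩ := hS₁
  obtain ⟨t, ht⟩ := hS₃
  rw [hs, ht, zsmul_eq_mul] at hqA
  have hunit : IsUnit ((q.coeff i₀ : A) + b * t) := by
    by_contra hu
    have h1 : (q.coeff i₀ : A) + b * t ∈ IsLocalRing.maximalIdeal A :=
      (IsLocalRing.mem_maximalIdeal _).mpr hu
    have h2 : (q.coeff i₀ : A) ∈ IsLocalRing.maximalIdeal A := by
      have := Ideal.sub_mem _ h1 (Ideal.mul_mem_right t _ hb)
      rwa [add_sub_cancel_right] at this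
    exact (IsLocalRing.mem_maximalIdeal _).mp h2 (isUnit_intCast_of_not_dvd A ℓ hℓ hA _ hi₀)
  refine ⟨i₀, ?_⟩
  have h3 : b ^ i₀ * ((q.coeff i₀ : A) + b * t) = ((ℓ : ℕ) : A) * (-s) := by
    linear_combination hqA
  have h4 : ((ℓ : ℕ) : A) ∣ b ^ i₀ * ((q.coeff i₀ : A) + b * t) := ⟨-s, h3⟩
  exact (hunit.dvd_mul_right).mp h4

/-- every nonzero element of `A` divides a power of `ℓ` -/
theorem exists_dvd_natCast_pow (hℓ : ℓ.Prime) (hA : A.LiesOverPrime ℓ) (e : A) (he : e ≠ 0)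
    (halg : IsAlgebraic ℤ ((e : L)⁻¹)) : ∃ N : ℕ, e ∣ ((ℓ : ℕ) : A) ^ N := by
  obtain ⟨y, hy0, hy⟩ := halg.exists_integral_multiple
  have hyA : IsIntegral A (y • (e : L)⁻¹) := hy.tower_top
  obtain ⟨a, ha⟩ := IsIntegrallyClosed.isIntegral_iff.mp hyA
  have hfin : FiniteMultiplicity (ℓ : ℤ) y :=
    Int.finiteMultiplicity_iff.mpr ⟨by simpa using hℓ.ne_one, hy0⟩
  obtain ⟨y', hy', hndvd⟩ := hfin.exists_eq_pow_mul_and_not_dvd
  obtain ⟨u, hu⟩ := isUnit_intCast_of_not_dvd A ℓ hℓ hA y' hndvd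
  refine ⟨multiplicity (ℓ : ℤ) y, a * ((u⁻¹ : Aˣ) : A), ?_⟩
  have he' : (e : L) ≠ 0 := fun h => he (Subtype.ext h)
  have ha' : (a : L) = (y : L) * (e : L)⁻¹ := by
    have : algebraMap A L a = (a : L) := rfl
    rw [← this, ha, zsmul_eq_mul]
  have hea : e * a = ((ℓ : ℕ) : A) ^ multiplicity (ℓ : ℤ) y * (y' : A) := by
    apply Subtype.val_injective
    show (e : L) * (a : L) = ((((ℓ : ℕ) : A) ^ multiplicity (ℓ : ℤ) y * (y' : A) : A) : L)
    rw [ha']
    have h1 : ((((ℓ : ℕ) : A) ^ multiplicity (ℓ : ℤ) y * (y' : A) : A) : L) = (y : L) := by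
      conv_rhs => rw [hy']
      push_cast
      rfl
    rw [h1]
    field_simp
  have huu : (y' : A) * ((u⁻¹ : Aˣ) : A) = 1 := by
    rw [← hu]
    exact Units.mul_inv u
  calc ((ℓ : ℕ) : A) ^ multiplicity (ℓ : ℤ) y
      = ((ℓ : ℕ) : A) ^ multiplicity (ℓ : ℤ) y * ((y' : A) * ((u⁻¹ : Aˣ) : A)) := by
        rw [huu, mul_one]
    _ = e * (a * ((u⁻¹ : Aˣ) : A)) := by
        rw [← mul_assoc, ← hea, mul_assoc]

/-- **(ARCH)** for a valuation subring over `ℓ` of a field algebraic over `ℚ`. -/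
theorem arch_of_liesOverPrime (hℓ : ℓ.Prime) (hA : A.LiesOverPrime ℓ)
    (halg : ∀ x : L, IsAlgebraic ℤ x) : Arch A (IsLocalRing.residue A) := by
  intro b hb e he
  have hbm : b ∈ IsLocalRing.maximalIdeal A := (IsLocalRing.residue_eq_zero_iff b).mp hb
  obtain ⟨n, hn⟩ := exists_natCast_dvd_pow A ℓ hℓ hA b hbm (halg _)
  obtain ⟨N, hN⟩ := exists_dvd_natCast_pow A ℓ hℓ hA e he (halg _)
  exact ⟨n * N, by rw [pow_mul]; exact hN.trans (pow_dvd_pow_of_dvd hn N)⟩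

end ArchProof

/-- **(ARCH)** for valuation subrings of `ℚ̄` over a prime. -/
theorem arch_algebraicClosure (A : ValuationSubring (AlgebraicClosure ℚ)) (ℓ : ℕ) (hℓ : ℓ.Prime)
    (hA : A.LiesOverPrime ℓ) : Arch A (IsLocalRing.residue A) := by
  have h1 : Algebra.IsAlgebraic ℚ (AlgebraicClosure ℚ) := AlgebraicClosure.isAlgebraic ℚ
  exact arch_of_liesOverPrime A ℓ hℓ hA fun x =>
    (IsFractionRing.isAlgebraic_iff ℤ ℚ (AlgebraicClosure ℚ)).mpr
      (Algebra.IsAlgebraic.isAlgebraic x)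

end Fermat.Agent.P2.helper74
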