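import Mathlib
import Fermat.Prelude.Def_ModularCurve_LaurentCoeff
import Fermat.Agent.P2.helper74_PivotLaurent

/-!
# P2-[INJ-3] (helper74): the pivot step of the `r`-free injectivity argument

Abstract form.  `V` (think `L(n ∞)`) and `V'` (think `L(m n ∞)`) are spaces of Laurent series over
a valued field `L ⊇ A`, with reduction `π : A → k`.  If an integral series `W₀` of pole order
`≤ n` with reduction `1` has `W₀ ^ m ∈ V'`, `m` invertible in `k`, and the reduction of `V'_A`
in pole order `≤ n` is contained in the reduction of `V_A`, then `W₀ ∈ V`.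
-/

namespace Fermat.Agent.P2.helper74

open ModularCurve HahnSeries

variable {L : Type*} [Field L]

/-- The Gauss norm is attained at `u`: some scalar multiple of `u` is integral with nonzero
reduction. -/
def ContentAttained (A : ValuationSubring L) {k : Type*} [Field k] (π : A →+* k)
    (u : LaurentSeries L) : Prop :=
  ∃ c : L, c ≠ 0 ∧ ∃ Y : LaurentSeries A, coeffMap A.subtype Y = c • u ∧ coeffMap π Y ≠ 0

theorem ContentAttained.smul {A : ValuationSubring L} {k : Type*} [Field k] {π : A →+* k}
    {u : LaurentSeries L} (h : ContentAttained A π u) {c : L} (hc : c ≠ 0) :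
    ContentAttained A π (c • u) := by
  obtain ⟨c', hc', Y, hY, hYπ⟩ := h
  refine ⟨c' * c⁻¹, mul_ne_zero hc' (inv_ne_zero hc), Y, ?_, hYπ⟩
  rw [hY, smul_smul, mul_assoc, inv_mul_cancel₀ hc, mul_one]

theorem coeffMap_smul' {R S : Type*} [CommRing R] [CommRing S] (f : R →+* S) (a : R)
    (Y : LaurentSeries R) : coeffMap f (a • Y) = f a • coeffMap f Y := by
  ext m
  simp

theorem laurent_mul_smul (c : L) (X Y : LaurentSeries L) : X * (c • Y) = c • (X * Y) := by
  rw [← HahnSeries.C_mul_eq_smul, ← HahnSeries.C_mul_eq_smul]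
  ring

/-- **The pivot step.** -/
theorem mem_of_pow_mem (A : ValuationSubring L) {k : Type*} [Field k] (π : A →+* k)
    (hπ : ∀ x : A, π x ≠ 0 → IsUnit x) (hπs : Function.Surjective π)
    (V V' : Submodule L (LaurentSeries L)) [FiniteDimensional L V] (n : ℤ) (hn : 0 ≤ n)
    (m : ℕ) (hm : π (m : A) ≠ 0)
    (hVatt : ∀ u ∈ V, u ≠ 0 → ContentAttained A π u)
    (hVord : ∀ u ∈ V, ∀ j < -n, u.coeff j = 0)
    (hpow : ∀ u ∈ V, u ^ m ∈ V')
    (hred : ∀ Z : LaurentSeries A, coeffMap A.subtype Z ∈ V' →
      (∀ j < -n, (coeffMap π Z).coeff j = 0) →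
      ∃ Z' : LaurentSeries A, coeffMap A.subtype Z' ∈ V ∧ coeffMap π Z' = coeffMap π Z)
    (W₀ : LaurentSeries A) (hW₀ : (coeffMap A.subtype W₀) ^ m ∈ V')
    (hW₀red : coeffMap π W₀ = 1) (hW₀ord : ∀ j < -n, W₀.coeff j = 0)
    (hatt : ∀ u ∈ V, coeffMap A.subtype W₀ - u ≠ 0 →
      ContentAttained A π (coeffMap A.subtype W₀ - u)) :
    coeffMap A.subtype W₀ ∈ V := by
  classical
  by_contra hW
  set w₀ : LaurentSeries L := coeffMap A.subtype W₀ with hw₀
  -- the enlarged space
  set Vp : Submodule L (LaurentSeries L) := V ⊔ Submodule.span L {w₀} with hVp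
  have hVpfd : FiniteDimensional L Vp := by
    rw [hVp]
    infer_instance
  have hmemVp : ∀ x ∈ Vp, ∃ v ∈ V, ∃ c : L, x = v + c • w₀ := by
    intro x hx
    rw [hVp, Submodule.mem_sup] at hx
    obtain ⟨v, hv, y, hy, rfl⟩ := hx
    rw [Submodule.mem_span_singleton] at hy
    obtain ⟨c, rfl⟩ := hy
    exact ⟨v, hv, c, rfl⟩
  have hVpatt : ∀ u ∈ Vp, u ≠ 0 → ∃ c : L, c ≠ 0 ∧ ∃ Y : LaurentSeries A,
      coeffMap A.subtype Y = c • u ∧ coeffMap π Y ≠ 0 := by
    intro u hu hu0
    obtain ⟨v, hv, c, rfl⟩ := hmemVp u hu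
    rcases eq_or_ne c 0 with rfl | hc
    · rw [zero_smul, add_zero] at hu0 ⊢
      exact hVatt v hv hu0
    · have h1 : v + c • w₀ = c • (w₀ - (-(c⁻¹ • v))) := by
        rw [sub_neg_eq_add, smul_add, smul_smul, mul_inv_cancel₀ hc, one_smul, add_comm]
      rw [h1] at hu0 ⊢
      have h2 : w₀ - (-(c⁻¹ • v)) ≠ 0 := by
        intro h
        rw [h, smul_zero] at hu0
        exact hu0 rfl
      exact (hatt _ (V.neg_mem (V.smul_mem _ hv)) h2).smul hc
  have hVatt' : ∀ u ∈ V, u ≠ 0 → ∃ c : L, c ≠ 0 ∧ ∃ Y : LaurentSeries A,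
      coeffMap A.subtype Y = c • u ∧ coeffMap π Y ≠ 0 := hVatt
  obtain ⟨Y, hYV, -, hYgen, -⟩ := exists_integral_basis A π hπ V hVatt'
  obtain ⟨Yp, hYpV, -, -, hYpred⟩ := exists_integral_basis A π hπ Vp hVpatt
  have hli := linearIndependent_coeffMap_of_forall A π hπs Yp hYpred
  -- dimension of the enlarged space
  have hw₀0 : w₀ ≠ 0 := fun h => hW (h ▸ V.zero_mem)
  have hdim : Module.finrank L Vp = Module.finrank L V + 1 := by
    have h1 := Submodule.finrank_sup_add_finrank_inf_eq V (Submodule.span L {w₀})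
    have h2 : V ⊓ Submodule.span L {w₀} = ⊥ := by
      rw [eq_bot_iff]
      rintro x ⟨hxV, hxs⟩
      rw [SetLike.mem_coe, Submodule.mem_span_singleton] at hxs
      obtain ⟨c, rfl⟩ := hxs
      rw [Submodule.mem_bot]
      rcases eq_or_ne c 0 with rfl | hc
      · exact zero_smul _ _
      · exfalso
        apply hW
        have := V.smul_mem c⁻¹ hxV
        rwa [smul_smul, inv_mul_cancel₀ hc, one_smul] at this
    rw [h2, finrank_bot, add_zero, finrank_span_singleton hw₀0] at h1
    exact h1
  -- the reduction of `V_A`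
  set R : Submodule k (LaurentSeries k) :=
    Submodule.span k (Set.range fun i => coeffMap π (Y i)) with hR
  have hRfd : FiniteDimensional k R := FiniteDimensional.span_of_finite k (Set.finite_range _)
  have hRV : ∀ Z : LaurentSeries A, coeffMap A.subtype Z ∈ V → coeffMap π Z ∈ R := by
    intro Z hZ
    obtain ⟨a, rfl⟩ := hYgen Z hZ
    rw [map_sum]
    refine Submodule.sum_mem _ fun i _ => ?_
    rw [coeffMap_smul']
    exact Submodule.smul_mem _ _ (Submodule.subset_span ⟨i, rfl⟩)
  -- `1` lies in the reduction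
  have hone : (1 : LaurentSeries k) ∈ R := by
    obtain ⟨Z', hZ'V, hZ'⟩ := hred (W₀ ^ m) (by rw [map_pow]; exact hW₀) (by
      intro j hj
      rw [map_pow, hW₀red, one_pow, HahnSeries.coeff_one, if_neg]
      omega)
    have := hRV Z' hZ'V
    rwa [hZ', map_pow, hW₀red, one_pow] at this
  -- the key claim
  have hclaim : ∀ Z : LaurentSeries A, coeffMap A.subtype Z ∈ Vp → coeffMap π Z ∈ R := by
    intro Z hZ
    obtain ⟨v, hv, c, hx⟩ := hmemVp _ hZ
    rcases A.mem_or_inv_mem c with hcA | hcA
    · -- `c ∈ A`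
      have h1 : coeffMap A.subtype (Z - (⟨c, hcA⟩ : A) • W₀) = v := by
        rw [map_sub, coeffMap_subtype_smul, hx]
        show v + c • w₀ - c • w₀ = v
        abel
      have h2 := hRV (Z - (⟨c, hcA⟩ : A) • W₀) (by rw [h1]; exact hv)
      rw [map_sub, coeffMap_smul', hW₀red] at h2
      have h3 := R.add_mem h2 (R.smul_mem (π ⟨c, hcA⟩) hone)
      rwa [sub_add_cancel] at h3
    · -- `c ∉ A` may be assumed
      by_cases hcA' : c ∈ A
      · have h1 : coeffMap A.subtype (Z - (⟨c, hcA'⟩ : A) • W₀) = v := by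
          rw [map_sub, coeffMap_subtype_smul, hx]
          show v + c • w₀ - c • w₀ = v
          abel
        have h2 := hRV (Z - (⟨c, hcA'⟩ : A) • W₀) (by rw [h1]; exact hv)
        rw [map_sub, coeffMap_smul', hW₀red] at h2
        have h3 := R.add_mem h2 (R.smul_mem (π ⟨c, hcA'⟩) hone)
        rwa [sub_add_cancel] at h3
      have hc0 : c ≠ 0 := by
        rintro rfl
        exact hcA' A.zero_mem
      set a' : A := ⟨c⁻¹, hcA⟩ with ha'
      have hπa' : π a' = 0 := by
        by_contra h
        obtain ⟨w, hw⟩ := hπ a' h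
        apply hcA'
        have h1 : ((w⁻¹ : Aˣ) : A) * a' = 1 := by rw [← hw]; exact Units.inv_mul w
        have h2 : (((w⁻¹ : Aˣ) : A) : L) * c⁻¹ = 1 := by
          have := congrArg (fun z : A => (z : L)) h1
          simpa using this
        have h3 : c = (((w⁻¹ : Aˣ) : A) : L) := by
          field_simp at h2
          exact h2.symm
        rw [h3]
        exact ((w⁻¹ : Aˣ) : A).2
      -- the integral element `U' = W₀ - a' Z` of `V`
      set U' : LaurentSeries A := W₀ - a' • Z with hU'
      have hU'V : coeffMap A.subtype U' = -(c⁻¹ • v) := by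
        rw [hU', map_sub, coeffMap_subtype_smul, hx]
        show w₀ - c⁻¹ • (v + c • w₀) = -(c⁻¹ • v)
        rw [smul_add, smul_smul, inv_mul_cancel₀ hc0, one_smul]
        abel
      have hU'mem : coeffMap A.subtype U' ∈ V := by
        rw [hU'V]
        exact V.neg_mem (V.smul_mem _ hv)
      have hU'red : coeffMap π U' = 1 := by
        rw [hU', map_sub, coeffMap_smul', hπa', zero_smul, sub_zero, hW₀red]
      -- the geometric sum
      set Θ : LaurentSeries A := ∑ i ∈ Finset.range m, W₀ ^ i * U' ^ (m - 1 - i) with hΘ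
      have hΘmul : Θ * (a' • Z) = W₀ ^ m - U' ^ m := by
        have := (Commute.all W₀ U').geom_sum₂_mul m
        rw [← this, hU']
        congr 1
        abel
      have hΘred : coeffMap π Θ = (m : LaurentSeries k) := by
        rw [hΘ, map_sum]
        simp only [map_mul, map_pow, hW₀red, hU'red, one_pow, mul_one]
        simp
      have hΘZ : coeffMap A.subtype (Θ * Z) ∈ V' := by
        have h1 : coeffMap A.subtype (Θ * Z)
            = c • (w₀ ^ m - (coeffMap A.subtype U') ^ m) := by
          have h2 := congrArg (coeffMap A.subtype) hΘmul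
          rw [map_mul, coeffMap_subtype_smul, map_sub, map_pow, map_pow] at h2
          rw [← hw₀] at h2
          rw [← h2, map_mul]
          show _ = c • (coeffMap A.subtype Θ * (c⁻¹ • coeffMap A.subtype Z))
          rw [laurent_mul_smul, smul_smul, mul_inv_cancel₀ hc0, one_smul]
        rw [h1]
        exact V'.smul_mem _ (V'.sub_mem hW₀ (hpow _ hU'mem))
      have hZord : ∀ j < -n, Z.coeff j = 0 := by
        intro j hj
        have h1 : (coeffMap A.subtype Z).coeff j = 0 := by
          rw [hx, HahnSeries.coeff_add, HahnSeries.coeff_smul, hVord v hv j hj, hw₀,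
            coeffMap_coeff, hW₀ord j hj]
          simp
        rw [coeffMap_coeff] at h1
        exact Subtype.ext h1
      obtain ⟨Z', hZ'V, hZ'⟩ := hred (Θ * Z) hΘZ (by
        intro j hj
        rw [map_mul, hΘred]
        have : ((m : LaurentSeries k) * coeffMap π Z) = (m : k) • coeffMap π Z := by
          rw [Nat.cast_smul_eq_nsmul, nsmul_eq_mul]
        rw [this, HahnSeries.coeff_smul, coeffMap_coeff, hZord j hj, map_zero, smul_zero])
      have h5 := hRV Z' hZ'V
      rw [hZ', map_mul, hΘred] at h5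
      have h6 : ((m : LaurentSeries k) * coeffMap π Z) = (π (m : A)) • coeffMap π Z := by
        rw [map_natCast, Nat.cast_smul_eq_nsmul, nsmul_eq_mul]
      rw [h6] at h5
      have h7 := R.smul_mem (π (m : A))⁻¹ h5
      rwa [smul_smul, inv_mul_cancel₀ hm, one_smul] at h7
  -- count
  have h1 : Module.finrank k (Submodule.span k (Set.range fun i => coeffMap π (Yp i)))
      = Module.finrank L Vp := by
    rw [finrank_span_eq_card hli, Fintype.card_fin]
  have h2 : Submodule.span k (Set.range fun i => coeffMap π (Yp i)) ≤ R := by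
    rw [Submodule.span_le]
    rintro _ ⟨i, rfl⟩
    exact hclaim (Yp i) (hYpV i)
  have h3 : Module.finrank k R ≤ Module.finrank L V := by
    have := finrank_span_le_card (R := k) (Set.range fun i => coeffMap π (Y i))
    rw [hR]
    refine this.trans ?_
    rw [Set.toFinset_range]
    exact (Finset.card_image_le).trans (by rw [Finset.card_univ, Fintype.card_fin])
  have h4 := Submodule.finrank_mono h2
  omega

end Fermat.Agent.P2.helper74
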