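import Mathlib
import Fermat.Agent.P2.helper29_Interface
import Fermat.Agent.P2.helper74_RiemannChar0
import Fermat.Agent.P2.helper74_RiemannSep

/-!
# P2-[RIE-INST] (helper74): Riemann's theorem for `FF M` and `FFb A M` in the Interface shape

* `riemannStatement M : helper29.RiemannStatement M` (characteristic `0`, unconditional);
* `riemannBarStatement` : `helper29.RiemannBarStatement M A` from one separating element of the
  special fibre field (the three `[VAL]` instances);
* `isAlgClosed_residueField` : the residue field of a valuation subring of an algebraically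
  closed field is algebraically closed.
-/

namespace Fermat.Agent.P2.helper74

open AlgebraicCurve IntermediateField ModularCurve
open Fermat.Agent.S18.helper19

/-- The residue field of a valuation subring of an algebraically closed field is algebraically
closed. -/
theorem isAlgClosed_residueField {K : Type*} [Field K] [IsAlgClosed K] (A : ValuationSubring K) :
    IsAlgClosed (IsLocalRing.ResidueField A) := by
  apply IsAlgClosed.of_exists_root
  intro p hpm hpi
  -- lift `p` to a monic polynomial over `A`
  obtain ⟨P, hP, hPdeg, hPm⟩ := Polynomial.lifts_and_degree_eq_and_monic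
    (f := IsLocalRing.residue A) (p := p)
    ((Polynomial.mem_lifts p).mpr (by
      exact Polynomial.map_surjective _ IsLocalRing.residue_surjective p)) hpm
  have hdeg : P.degree ≠ 0 := by
    rw [hPdeg]
    exact (Polynomial.degree_pos_of_irreducible hpi).ne'
  -- a root in `K`
  have hdeg' : (P.map A.subtype).degree ≠ 0 := by
    rwa [Polynomial.degree_map_eq_of_injective A.subtype_injective]
  obtain ⟨α, hα⟩ := IsAlgClosed.exists_root (P.map A.subtype) hdeg'
  -- the root is integral over `A`
  have hint : IsIntegral A α := ⟨P, hPm, by
    rw [Polynomial.IsRoot, Polynomial.eval_map] at hα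
    exact hα⟩
  have hαA : α ∈ A := by
    have := (IsIntegrallyClosed.isIntegral_iff (R := A) (K := K)).mp hint
    obtain ⟨a, ha⟩ := this
    rw [← ha]
    exact a.2
  refine ⟨IsLocalRing.residue A ⟨α, hαA⟩, ?_⟩
  rw [← hP, Polynomial.eval_map, Polynomial.eval₂_hom]
  have h0 : Polynomial.eval (⟨α, hαA⟩ : A) P = 0 := by
    apply A.subtype_injective
    rw [Polynomial.IsRoot, Polynomial.eval_map] at hα
    rw [map_zero, ← hα]
    exact (Polynomial.eval₂_at_apply A.subtype (⟨α, hαA⟩ : A) (p := P)).symm
  rw [h0, map_zero]

section CharZero

variable (M : ℕ) [NeZero M]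

/-- The `RiemannSetting` of the modular function field in characteristic `0`. -/
theorem riemannSetting_FF : RiemannSetting Kb (FF M) :=
  haveI := Fermat.Agent.S24.helper77.an_finiteDimensional M
  riemannSetting_charZero (Fermat.Agent.S24.xJ M) (Fermat.Agent.S24.helper77.an_transcendental M)

/-- **[RIE-0]** Riemann's theorem for `FF M`. -/
theorem riemannStatement : Fermat.Agent.P2.helper29.RiemannStatement M := by
  have := Fermat.Agent.S24.helper77.an_finiteDimensional M
  obtain ⟨g, h1, c, hc⟩ := exists_genus_charZero (Fermat.Agent.S24.xJ M)
    (Fermat.Agent.S24.helper77.an_transcendental M)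
  exact ⟨g, h1, c, hc⟩

end CharZero

section Bar

variable {K F : Type*} [Field K] [Field F] [Algebra K F] [IsAlgClosed K]

/-- Riemann's theorem in the Interface shape, for any function field with a separating
element. -/
theorem hasRiemannGenus_of_separating (x : F) (hx : Transcendental K x)
    [FiniteDimensional K⟮x⟯ F] [Algebra.IsSeparable K⟮x⟯ F] :
    ∃ g : ℕ, Fermat.Agent.P2.helper29.HasRiemannGenus K F g := by
  obtain ⟨g, hg⟩ := exists_hasRiemannGenus x hx
  exact ⟨g, fun D => hg.ineq (riemannSetting_of_separating x hx) D, hg⟩

end Bar

section Bar2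

set_option synthInstance.maxHeartbeats 400000

variable (M : ℕ) [NeZero M] (A : ValuationSubring Kb)

/-- **[RIE-ℓ]** Riemann's theorem for the special fibre field, from one separating element
(the three `[VAL]` instances). -/
theorem riemannBarStatement (x : FFb A M) (hx : Transcendental (kA A) x)
    [FiniteDimensional (kA A)⟮x⟯ (FFb A M)] [Algebra.IsSeparable (kA A)⟮x⟯ (FFb A M)] :
    Fermat.Agent.P2.helper29.RiemannBarStatement M A :=
  haveI : IsAlgClosed (kA A) := isAlgClosed_residueField A
  hasRiemannGenus_of_separating x hx

omit [NeZero M] in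
/-- The `RiemannSetting` of the special fibre field, from one separating element. -/
theorem riemannSetting_FFb (x : FFb A M) (hx : Transcendental (kA A) x)
    [FiniteDimensional (kA A)⟮x⟯ (FFb A M)] [Algebra.IsSeparable (kA A)⟮x⟯ (FFb A M)] :
    RiemannSetting (kA A) (FFb A M) :=
  haveI : IsAlgClosed (kA A) := isAlgClosed_residueField A
  riemannSetting_of_separating x hx

/-- **`ConstBarStatement`** (helper19): a function on the special fibre without zeros and poles
is constant. -/
theorem constBarStatement (x : FFb A M) (hx : Transcendental (kA A) x)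
    [FiniteDimensional (kA A)⟮x⟯ (FFb A M)] [Algebra.IsSeparable (kA A)⟮x⟯ (FFb A M)] :
    ConstBarStatement M A := by
  intro y _ hy
  obtain ⟨a, ha⟩ := exists_eq_algebraMap_of_forall_ord_nonneg (riemannSetting_FFb M A x hx)
    (f := y) (fun v => (hy v).ge)
  exact ⟨a, ha⟩

end Bar2

end Fermat.Agent.P2.helper74
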