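import Mathlib
import Fermat.Agent.P2.helper74_PivotInst
import Fermat.Agent.P2.helper74_Arch

/-!
# P2-[PIVOT] (helper74): `PivotStatement M A m` for `A` over a prime `ℓ` not dividing `m`

(ARCH) is discharged by `arch_algebraicClosure`; the hypothesis on `m` is `¬ ℓ ∣ m`.
-/

set_option autoImplicit false

noncomputable section

open HahnSeries IntermediateField AlgebraicCurve ModularCurve
open Fermat.Agent.S18.helper19 Fermat.Agent.P2.helper29

namespace Fermat.Agent.P2.helper74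

theorem residue_natCast_ne_zero (A : ValuationSubring Kb) (ℓ : ℕ) (hℓ : ℓ.Prime)
    (hA : A.LiesOverPrime ℓ) (m : ℕ) (hm : ¬ ℓ ∣ m) :
    IsLocalRing.residue A (m : A) ≠ 0 := by
  have h1 : ¬ (ℓ : ℤ) ∣ (m : ℤ) := fun h => hm (Int.natCast_dvd_natCast.mp h)
  have h2 : IsUnit (((m : ℤ) : A)) := isUnit_intCast_of_not_dvd A ℓ hℓ hA _ h1
  have h3 : (((m : ℤ) : A)) = (m : A) := Int.cast_natCast m
  rw [h3] at h2
  intro h0
  exact (IsLocalRing.mem_maximalIdeal _).mp ((IsLocalRing.residue_eq_zero_iff _).mp h0) h2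

/-- **[PIVOT]** for valuation rings over a prime `ℓ` and `m` prime to `ℓ`. -/
theorem pivotStatement_of_liesOverPrime (M : ℕ) [NeZero M] (A : ValuationSubring Kb) (ℓ : ℕ)
    (hℓ : ℓ.Prime) (hA : A.LiesOverPrime ℓ) (m : ℕ) (hm : ¬ ℓ ∣ m)
    (hSc : ScaleStatement M A) (hInt : IntegralityStatement M A)
    (hUE : RegRedStatement M A) (hSurj : SurjRedStatement M A) :
    PivotStatement M A m :=
  pivotStatement m (residue_natCast_ne_zero A ℓ hℓ hA m hm) (arch_algebraicClosure A ℓ hℓ hA)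
    hSc hInt hUE hSurj

end Fermat.Agent.P2.helper74

end
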