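import Mathlib
import Fermat.Prelude.Def_ModularCurve_HeckeOperator
import Fermat.Agent.S24.helper77_Finrank
import Fermat.Agent.S24.helper37_IndexGamma0

/-!
# P2 / ES-NORM (helper93), part 4: `[F_{Nℓ} : α F_N] = ℓ + 1` for a prime `ℓ ∤ N`

From S24 (`an_finrank`, `card_quotient_Gamma0`, `dedekindPsi_mul_prime_of_not_dvd`) and the tower
law over `ℚ̄(j)`.
-/

set_option autoImplicit false
set_option linter.unusedSectionVars false
set_option linter.unusedVariables false
set_option linter.style.haveILetI false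

noncomputable section

open ModularCurve AlgebraicCurve IntermediateField
open scoped MatrixGroups

namespace Fermat.Agent.P2.helper93

open Fermat.Agent.S24

/-- Abstract tower law along an algebra homomorphism `φ : B → C` over the simple extension
`K(x) ⊆ B`, `K(φ x) ⊆ C`. -/
theorem finrank_tower_along {K B C : Type*} [Field K] [Field B] [Field C] [Algebra K B]
    [Algebra K C] (φ : B →ₐ[K] C) (x : B) :
    letI := algebraAlong φ
    Module.finrank K⟮x⟯ B * Module.finrank B C = Module.finrank K⟮φ x⟯ C := by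
  letI algBC : Algebra B C := algebraAlong φ
  have tower := Module.finrank_mul_finrank (K⟮x⟯) B C
  have hmap : (K⟮x⟯).map φ = K⟮φ x⟯ := by
    rw [IntermediateField.adjoin_map, Set.image_singleton]
  let i : K⟮x⟯ ≃+* K⟮φ x⟯ :=
    ((IntermediateField.equivMap (K⟮x⟯) φ).trans (IntermediateField.equivOfEq hmap)).toRingEquiv
  have key : Module.finrank (K⟮x⟯) C = Module.finrank (K⟮φ x⟯) C :=
    Algebra.finrank_eq_of_equiv_equiv i (RingEquiv.refl _) (by
      ext y
      rfl)
  rw [tower, key]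

variable (N ℓ : ℕ) [NeZero N] [NeZero ℓ]

theorem alpha_xJ : heckeAlphaBar Kbar N ℓ (xJ N) = xJ (N * ℓ) := by
  apply Subtype.ext
  rw [coe_heckeAlphaBar]
  rfl

theorem card_X0_mul_prime (hℓ : ℓ.Prime) (hN : ¬ ℓ ∣ N) :
    Nat.card (SL(2, ℤ) ⧸ CongruenceSubgroup.Gamma0 (N * ℓ))
      = (ℓ + 1) * Nat.card (SL(2, ℤ) ⧸ CongruenceSubgroup.Gamma0 N) := by
  rw [helper37.card_quotient_Gamma0, helper37.card_quotient_Gamma0,
    helper37.dedekindPsi_mul_prime_of_not_dvd hℓ (NeZero.ne N) hN]

/-- **Degree of `F_{Nℓ}` over `α F_N`.** -/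
theorem finrank_alpha (hℓ : ℓ.Prime) (hN : ¬ ℓ ∣ N) :
    letI := algebraAlong (heckeAlphaBar Kbar N ℓ)
    Module.finrank (FN N) (FN (N * ℓ)) = ℓ + 1 := by
  have tower := finrank_tower_along (heckeAlphaBar Kbar N ℓ) (xJ N)
  rw [alpha_xJ, helper77.an_finrank, helper77.an_finrank, card_X0_mul_prime N ℓ hℓ hN] at tower
  have hpos : 0 < Nat.card (SL(2, ℤ) ⧸ CongruenceSubgroup.Gamma0 N) := by
    rw [helper37.card_quotient_Gamma0]
    exact helper37.dedekindPsi_pos N (NeZero.ne N)
  exact Nat.eq_of_mul_eq_mul_left hpos (tower.trans (mul_comm _ _))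

end Fermat.Agent.P2.helper93
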