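import Mathlib
import Fermat.Agent.S24.helper37_TExp
import Fermat.Agent.S24.helper17_QExp

/-!
# P2 / ES-NORM (helper93), part 1: change of level for `t`-expansions

`IsTExp N F f` (S24, helper37) says that `F ∈ ℂ((t))` is the expansion of `f : ℍ → ℂ` in
`t = exp(2πiτ/N)`.  We prove the general change-of-variable rule

  `IsTExp N F f → IsTExp N' (qExpand ℂ k F) (fun τ => f (c τ))`,  `c = N k / N'`,

(`t_N(cτ) = t_{N'}(τ)^k`), with the special cases
* `IsTExp.refine`   : `c = 1`, `N' = N ℓ`, `k = ℓ`;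
* `IsTExp.comp_div` : `c = 1/ℓ`, `N' = N ℓ`, `k = 1`.
-/

set_option autoImplicit false
set_option linter.unusedSectionVars false
set_option linter.unusedVariables false
set_option linter.style.haveILetI false

noncomputable section

open UpperHalfPlane Filter Topology Function ModularCurve
open scoped MatrixGroups Manifold

namespace Fermat.Agent.P2.helper93

open Fermat.Agent.S24 Fermat.Agent.S24.helper37

local notation "𝕢" => Function.Periodic.qParam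

/-- scaling `τ ↦ c τ` of the upper half plane by a positive real number. -/
def scaleR (c : ℝ) (hc : 0 < c) (τ : ℍ) : ℍ :=
  ⟨(c : ℂ) * (τ : ℂ), by
    have hτ := τ.im_pos
    have : ((c : ℂ) * (τ : ℂ)).im = c * τ.im := by simp
    rw [this]; positivity⟩

@[simp]
theorem coe_scaleR (c : ℝ) (hc : 0 < c) (τ : ℍ) : ((scaleR c hc τ : ℍ) : ℂ) = (c : ℂ) * τ := rfl

theorem im_scaleR (c : ℝ) (hc : 0 < c) (τ : ℍ) : (scaleR c hc τ).im = c * τ.im := by
  show ((c : ℂ) * (τ : ℂ)).im = c * τ.im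
  simp

theorem scaleR_one (τ : ℍ) : scaleR 1 one_pos τ = τ := by
  apply UpperHalfPlane.ext
  simp

section Nice

variable {N N' : ℕ} [NeZero N] [NeZero N']

theorem isNice_per_nat_mul {g : ℍ → ℂ} (hg : IsNice N g) (k : ℕ) (τ : ℍ) :
    g (((N : ℝ) * (k : ℝ)) +ᵥ τ) = g τ := by
  induction k with
  | zero =>
    congr 1
    apply UpperHalfPlane.ext
    simp
  | succ k ih =>
    have : (((N : ℝ) * ((k + 1 : ℕ) : ℝ)) +ᵥ τ : ℍ) = (N : ℝ) +ᵥ (((N : ℝ) * (k : ℝ)) +ᵥ τ) := by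
      apply UpperHalfPlane.ext
      simp only [coe_vadd]
      push_cast
      ring
    rw [this, hg.per, ih]

theorem isNice_comp_scaleR {g : ℍ → ℂ} (hg : IsNice N g) (c : ℝ) (hc : 0 < c) (k : ℕ)
    (hk : (N' : ℝ) * c = (N : ℝ) * (k : ℝ)) :
    IsNice N' (fun τ => g (scaleR c hc τ)) where
  per τ := by
    have : scaleR c hc ((N' : ℝ) +ᵥ τ) = ((N : ℝ) * (k : ℝ)) +ᵥ scaleR c hc τ := by
      apply UpperHalfPlane.ext
      simp only [coe_vadd, coe_scaleR]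
      have := congrArg (fun x : ℝ => (x : ℂ)) hk
      simp only [Complex.ofReal_mul] at this
      rw [mul_add, mul_comm (c : ℂ) ((N' : ℝ) : ℂ), this]
      push_cast
      rfl
    show g (scaleR c hc ((N' : ℝ) +ᵥ τ)) = g (scaleR c hc τ)
    rw [this, isNice_per_nat_mul hg]
  mdiff := by
    have hm := hg.mdiff
    rw [UpperHalfPlane.mdifferentiable_iff] at hm ⊢
    have h1 : DifferentiableOn ℂ (fun z : ℂ => (c : ℂ) * z) {z : ℂ | 0 < z.im} :=
      (differentiable_id.const_mul (c : ℂ)).differentiableOn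
    have h2 : Set.MapsTo (fun z : ℂ => (c : ℂ) * z) {z : ℂ | 0 < z.im} {z : ℂ | 0 < z.im} := by
      intro z hz
      have hz' : 0 < z.im := hz
      show 0 < ((c : ℂ) * z).im
      have : ((c : ℂ) * z).im = c * z.im := by simp
      rw [this]; positivity
    refine (hm.comp h1 h2).congr fun z hz => ?_
    have hz0 : 0 < z.im := hz
    have hz' : 0 < ((c : ℂ) * z).im := h2 hz
    simp only [comp_apply]
    rw [ofComplex_apply_of_im_pos hz0, ofComplex_apply_of_im_pos hz']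
    rfl
  bdd := by
    have hb := hg.bdd
    rw [isBoundedAtImInfty_iff] at hb ⊢
    obtain ⟨M, A, h⟩ := hb
    refine ⟨M, A / c, fun z hz => h _ ?_⟩
    rw [im_scaleR]
    rw [div_le_iff₀ hc] at hz
    linarith [mul_comm c z.im]

theorem qParam_scaleR (c : ℝ) (hc : 0 < c) (k : ℕ)
    (hk : (N' : ℝ) * c = (N : ℝ) * (k : ℝ)) (τ : ℍ) :
    𝕢 (N : ℝ) (scaleR c hc τ : ℂ) = 𝕢 (N' : ℝ) (τ : ℂ) ^ k := by
  have hN : ((N : ℝ) : ℂ) ≠ 0 := by exact_mod_cast (natCast_pos_real N).ne'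
  have hN' : ((N' : ℝ) : ℂ) ≠ 0 := by exact_mod_cast (natCast_pos_real N').ne'
  have hk' : ((N' : ℝ) : ℂ) * (c : ℂ) = ((N : ℝ) : ℂ) * (k : ℂ) := by
    have := congrArg (fun x : ℝ => (x : ℂ)) hk
    simpa using this
  have hcc : (c : ℂ) = ((N : ℝ) : ℂ) * (k : ℂ) / ((N' : ℝ) : ℂ) := by
    rw [eq_div_iff hN', mul_comm (c : ℂ), hk']
  rw [Function.Periodic.qParam, Function.Periodic.qParam, ← Complex.exp_nat_mul, coe_scaleR, hcc]
  congr 1
  field_simp

theorem qExpansion_comp_scaleR {g : ℍ → ℂ} (hg : IsNice N g) (c : ℝ) (hc : 0 < c)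
    (k : ℕ) [NeZero k] (hk : (N' : ℝ) * c = (N : ℝ) * (k : ℝ)) :
    qExpansion (N' : ℝ) (fun τ => g (scaleR c hc τ))
      = helper17.expandPS k (qExpansion (N : ℝ) g) := by
  have hk0 : 0 < k := Nat.pos_of_ne_zero (NeZero.ne k)
  ext m
  symm
  refine (isNice_comp_scaleR (N' := N') hg c hc k hk).coeff_unique
    (c := fun m => (helper17.expandPS k (qExpansion (N : ℝ) g)).coeff m) (fun τ => ?_) m
  have h1 := hg.hasSum (scaleR c hc τ)
  rw [qParam_scaleR (N := N) (N' := N') c hc k hk] at h1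
  have hinj : Function.Injective (fun m : ℕ => k * m) := fun a b hab =>
    Nat.eq_of_mul_eq_mul_left hk0 hab
  refine (hinj.hasSum_iff ?_).mp ?_
  · intro n hn
    have : ¬ k ∣ n := fun ⟨m, hm⟩ => hn ⟨m, hm.symm⟩
    rw [helper17.coeff_expandPS, if_neg this, zero_mul]
  · convert h1 using 2 with m
    simp only [comp_apply]
    rw [helper17.coeff_expandPS, if_pos (dvd_mul_right k m), Nat.mul_div_cancel_left _ hk0,
      pow_mul]

/-- **General change of variable for `t`-expansions.** -/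
theorem isTExp_comp_scaleR {F : LaurentSeries ℂ} {f : ℍ → ℂ} (h : IsTExp N F f) (c : ℝ)
    (hc : 0 < c) (k : ℕ) [NeZero k] (hk : (N' : ℝ) * c = (N : ℝ) * (k : ℝ)) :
    IsTExp N' (qExpand ℂ k F) (fun τ => f (scaleR c hc τ)) := by
  obtain ⟨M, hn, he⟩ := h
  have hfun : (fun τ : ℍ => 𝕢 (N' : ℝ) (τ : ℂ) ^ (k * M) * f (scaleR c hc τ))
      = (fun τ => (fun τ' : ℍ => 𝕢 (N : ℝ) (τ' : ℂ) ^ M * f τ') (scaleR c hc τ)) := by
    funext τ
    simp only []
    rw [qParam_scaleR (N := N) (N' := N') c hc k hk, ← pow_mul]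
  refine ⟨k * M, ?_, ?_⟩
  · rw [hfun]
    exact isNice_comp_scaleR hn c hc k hk
  · rw [hfun, qExpansion_comp_scaleR hn c hc k hk, helper17.ofPowerSeries_expandPS, he, map_mul,
      qExpand_single]
    push_cast
    rfl

end Nice

section Special

variable {N : ℕ} [NeZero N]

/-- Passing to a finer parameter: `t_N = t_{Nℓ}^ℓ`. -/
theorem isTExp_refine {F : LaurentSeries ℂ} {f : ℍ → ℂ} (h : IsTExp N F f) (ℓ : ℕ) [NeZero ℓ] :
    haveI : NeZero (N * ℓ) := ⟨Nat.mul_ne_zero (NeZero.ne N) (NeZero.ne ℓ)⟩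
    IsTExp (N * ℓ) (qExpand ℂ ℓ F) f := by
  haveI : NeZero (N * ℓ) := ⟨Nat.mul_ne_zero (NeZero.ne N) (NeZero.ne ℓ)⟩
  have := isTExp_comp_scaleR (N := N) (N' := N * ℓ) h 1 one_pos ℓ (by push_cast; ring)
  refine this.congr_fun ?_
  funext τ
  rw [scaleR_one]

/-- the positive real number `1 / ℓ`. -/
theorem inv_natCast_pos (ℓ : ℕ) [NeZero ℓ] : (0 : ℝ) < ((ℓ : ℝ))⁻¹ :=
  inv_pos.mpr (natCast_pos_real ℓ)

/-- the map `τ ↦ τ / ℓ` of the upper half plane. -/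
def divH (ℓ : ℕ) [NeZero ℓ] (τ : ℍ) : ℍ := scaleR ((ℓ : ℝ))⁻¹ (inv_natCast_pos ℓ) τ

theorem coe_divH (ℓ : ℕ) [NeZero ℓ] (τ : ℍ) : ((divH ℓ τ : ℍ) : ℂ) = (τ : ℂ) / ℓ := by
  show (((ℓ : ℝ)⁻¹ : ℝ) : ℂ) * (τ : ℂ) = (τ : ℂ) / ℓ
  push_cast
  rw [div_eq_mul_inv, mul_comm]

/-- Composition with `τ ↦ τ / ℓ`: `t_N(τ/ℓ) = t_{Nℓ}(τ)`. -/
theorem isTExp_comp_div {F : LaurentSeries ℂ} {f : ℍ → ℂ} (h : IsTExp N F f) (ℓ : ℕ)
    [NeZero ℓ] :
    haveI : NeZero (N * ℓ) := ⟨Nat.mul_ne_zero (NeZero.ne N) (NeZero.ne ℓ)⟩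
    IsTExp (N * ℓ) F (fun τ => f (divH ℓ τ)) := by
  haveI : NeZero (N * ℓ) := ⟨Nat.mul_ne_zero (NeZero.ne N) (NeZero.ne ℓ)⟩
  have hℓ : (ℓ : ℝ) ≠ 0 := (natCast_pos_real ℓ).ne'
  have := isTExp_comp_scaleR (N := N) (N' := N * ℓ) h ((ℓ : ℝ))⁻¹ (inv_natCast_pos ℓ) 1
    (by push_cast; field_simp)
  rw [qExpand_one_apply] at this
  exact this

end Special

end Fermat.Agent.P2.helper93
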