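import Mathlib
import Fermat.Agent.S24.helper77_Hermite
import Fermat.Agent.P2.helper93_TExpLevel

/-!
# P2 / ES-NORM (helper93), part 2: the coset representative `g₀`

For coprime `N`, `ℓ` there is `g₀ ∈ Γ₀(N)` with `j(ℓ i · g₀⁻¹ τ) = j(i τ / ℓ)` for all `i ∣ N`.
(`g₀⁻¹ = (a b; N ℓ)`, `a ℓ - b N = 1`.)
-/

set_option autoImplicit false
set_option linter.unusedSectionVars false
set_option linter.unusedVariables false
set_option linter.style.haveILetI false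

noncomputable section

open UpperHalfPlane ModularCurve CongruenceSubgroup
open scoped MatrixGroups

namespace Fermat.Agent.P2.helper93

open Fermat.Agent.S24

theorem exists_bezout_int (N ℓ : ℕ) (hcop : Nat.Coprime N ℓ) :
    ∃ a b : ℤ, a * ℓ - b * N = 1 := by
  have h := Int.gcd_eq_gcd_ab (N : ℤ) (ℓ : ℤ)
  have hg : Int.gcd (N : ℤ) (ℓ : ℤ) = 1 := by
    rw [Int.gcd_natCast_natCast]
    exact hcop
  rw [hg] at h
  refine ⟨Int.gcdB N ℓ, -Int.gcdA N ℓ, ?_⟩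
  push_cast at h
  linear_combination -h

theorem jfunD_mul_smul_eq (N ℓ : ℕ) [NeZero N] [NeZero ℓ] (a b : ℤ) (hab : a * ℓ - b * N = 1)
    (ginv : SL(2, ℤ)) (h00 : ginv 0 0 = a) (h01 : ginv 0 1 = b) (h10 : ginv 1 0 = N)
    (h11 : ginv 1 1 = ℓ) (i : ℕ) [NeZero i] (hi : i ∣ N) (τ : ℍ) :
    haveI : NeZero (ℓ * i) := ⟨Nat.mul_ne_zero (NeZero.ne ℓ) (NeZero.ne i)⟩
    jfunD (ℓ * i) (ginv • τ) = jfunD i (divH ℓ τ) := by
  haveI : NeZero (ℓ * i) := ⟨Nat.mul_ne_zero (NeZero.ne ℓ) (NeZero.ne i)⟩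
  obtain ⟨n', hn'⟩ := hi
  let δ : SL(2, ℤ) := ⟨!![ℓ * a, i * b; n', 1], by
    rw [Matrix.det_fin_two_of]
    rw [hn'] at hab
    push_cast at hab
    linear_combination hab⟩
  have key : scaleH (ℓ * i) (ginv • τ) = δ • scaleH i (divH ℓ τ) := by
    apply UpperHalfPlane.ext
    rw [helper77.coe_scaleH, helper77.coe_SL_smul, helper77.coe_SL_smul, helper77.coe_scaleH,
      coe_divH]
    have h1 := helper77.SL_denom_ne_zero ginv τ
    have h2 := helper77.SL_denom_ne_zero δ (scaleH i (divH ℓ τ))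
    rw [helper77.coe_scaleH, coe_divH] at h2
    have e00 : (δ 0 0 : ℤ) = ℓ * a := rfl
    have e01 : (δ 0 1 : ℤ) = i * b := rfl
    have e10 : (δ 1 0 : ℤ) = n' := rfl
    have e11 : (δ 1 1 : ℤ) = 1 := rfl
    rw [e10, e11] at h2
    rw [e00, e01, e10, e11, h00, h01, h10, h11]
    rw [h10, h11] at h1
    have hℓ : (ℓ : ℂ) ≠ 0 := by exact_mod_cast NeZero.ne ℓ
    have hi0 : (i : ℂ) ≠ 0 := by exact_mod_cast NeZero.ne i
    have hN : (N : ℂ) = (i : ℂ) * (n' : ℂ) := by rw [hn']; push_cast; ring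
    push_cast at h1 h2 ⊢
    rw [hN] at h1 ⊢
    have h3 : (n' : ℂ) * ((i : ℂ) * ((τ : ℂ) / ℓ)) + 1 = ((i : ℂ) * n' * τ + ℓ) / ℓ := by
      field_simp
    rw [h3]
    field_simp
  show jfun (scaleH (ℓ * i) (ginv • τ)) = jfun (scaleH i (divH ℓ τ))
  rw [key, helper77.jfun_smul]

/-- **The coset representative `g₀`.** -/
theorem exists_g0 (N ℓ : ℕ) [NeZero N] [NeZero ℓ] (hcop : Nat.Coprime N ℓ) :
    ∃ g : SL(2, ℤ), g ∈ Gamma0 N ∧ ∀ (i : ℕ) (_ : i ∣ N) (hi0 : i ≠ 0) (τ : ℍ),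
      haveI : NeZero (ℓ * i) := ⟨Nat.mul_ne_zero (NeZero.ne ℓ) hi0⟩
      haveI : NeZero i := ⟨hi0⟩
      jfunD (ℓ * i) (g⁻¹ • τ) = jfunD i (divH ℓ τ) := by
  obtain ⟨a, b, hab⟩ := exists_bezout_int N ℓ hcop
  let ginv : SL(2, ℤ) := ⟨!![a, b; (N : ℤ), (ℓ : ℤ)], by
    rw [Matrix.det_fin_two_of]
    linear_combination hab⟩
  have hmem : ginv ∈ Gamma0 N := by
    rw [Gamma0_mem]
    show (((N : ℤ) : ℤ) : ZMod N) = 0
    simp
  refine ⟨ginv⁻¹, inv_mem hmem, fun i hi hi0 τ => ?_⟩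
  haveI : NeZero i := ⟨hi0⟩
  rw [inv_inv]
  exact jfunD_mul_smul_eq N ℓ a b hab ginv rfl rfl rfl rfl i hi τ

end Fermat.Agent.P2.helper93
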