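import Mathlib
import Fermat.Prelude.Def_ModularCurve_HeckeOperator
import Fermat.Agent.S24.helper37_Cusp
import Fermat.Agent.P2.helper93_TExpLevel
import Fermat.Agent.P2.helper93_ESMatrix

/-!
# P2 / ES-NORM (helper93), part 3: the embeddings of `F_{Nℓ}` attached to cosets, restricted
along the two degeneracy maps `α, β : F_N → F_{Nℓ}`

* `embG_one_eq`  : `embG N 1 f = f(t^N)` (formal `q`-expansion with complex coefficients);
* `embG_alpha`   : `embG (Nℓ) g (α f) = (embG N g f)(t^ℓ)`;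
* `embG_beta`    : `embG (Nℓ) g₀ (β f) = embG N 1 f` for the coset representative `g₀`
  of `helper93_ESMatrix`.
-/

set_option autoImplicit false
set_option linter.unusedSectionVars false
set_option linter.unusedVariables false
set_option linter.style.haveILetI false

noncomputable section

open UpperHalfPlane Filter Topology Function ModularCurve CongruenceSubgroup
open scoped MatrixGroups Manifold

namespace Fermat.Agent.P2.helper93

open Fermat.Agent.S24 Fermat.Agent.S24.helper37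

local notation "𝕢" => Function.Periodic.qParam

/-! ## (E0) `q`-expansions are `t`-expansions at level `1`, hence at every level -/

theorem isNice_one_of_isNice {g : ℍ → ℂ} (h : helper17.IsNice g) : helper37.IsNice 1 g where
  per τ := by
    have h1 := h.periodic (τ : ℂ)
    simp only [comp_apply] at h1
    have hpos : 0 < ((τ : ℂ) + 1).im := by simpa using τ.im_pos
    rw [ofComplex_apply_of_im_pos hpos, ofComplex_apply_of_im_pos τ.im_pos] at h1
    have e : (((1 : ℕ) : ℝ) +ᵥ τ : ℍ) = ⟨(τ : ℂ) + 1, hpos⟩ := by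
      apply UpperHalfPlane.ext
      simp [coe_vadd, add_comm]
    rw [e]
    exact h1
  mdiff := h.mdiff
  bdd := h.bdd

theorem isTExp_one_of_isQExp {F : LaurentSeries ℂ} {f : ℍ → ℂ} (h : helper17.IsQExp F f) :
    IsTExp 1 F f := by
  obtain ⟨M, hn, he⟩ := h
  refine ⟨M, ?_, ?_⟩
  · have := isNice_one_of_isNice hn
    simpa only [Nat.cast_one] using this
  · simpa only [Nat.cast_one] using he

theorem isTExp_of_isQExp {F : LaurentSeries ℂ} {f : ℍ → ℂ} (h : helper17.IsQExp F f) (N : ℕ)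
    [NeZero N] : IsTExp N (qExpand ℂ N F) f := by
  have h1 := isTExp_one_of_isQExp h
  have := isTExp_comp_scaleR (N := 1) (N' := N) h1 1 one_pos N (by push_cast; ring)
  refine this.congr_fun ?_
  funext τ
  rw [scaleR_one]

/-! ## (E1), (E2): the embedding at the identity coset is the formal `q`-expansion -/

section Identity

variable (N : ℕ) [NeZero N]

theorem conjFun_one_eq (i : Idx N) : conjFun N 1 i = jfunDT i.1 := by
  funext τ
  show jfunDT i.1 ((1 : SL(2, ℤ))⁻¹ • τ) = _
  rw [inv_one, one_smul]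

theorem conjExp_one_eq (i : Idx N) : conjExp N 1 i = qExpand ℂ N (helper17.JdTC i.1) := by
  have h1 := isTExp_conjExp N 1 i
  rw [conjFun_one_eq] at h1
  exact h1.unique (isTExp_of_isQExp (helper17.isQExp_jfunDT i.1) N)

/-- the generators as elements of `FN N`. -/
def genFN (i : Idx N) : FN N := ⟨helper24.genJ N i, gen_mem_FN N i⟩

/-- polynomials in the generators, as a ring homomorphism into `FN N`. -/
def aevalFN : MvPolynomial (Idx N) Kbar →+* FN N :=
  (MvPolynomial.aeval (genFN N)).toRingHom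

theorem aevalFN_C (c : Kbar) : aevalFN N (MvPolynomial.C c) = algebraMap Kbar (FN N) c := by
  show MvPolynomial.aeval (genFN N) (MvPolynomial.C c) = _
  rw [MvPolynomial.aeval_C]

theorem aevalFN_X (i : Idx N) : aevalFN N (MvPolynomial.X i) = genFN N i := by
  show MvPolynomial.aeval (genFN N) (MvPolynomial.X i) = _
  rw [MvPolynomial.aeval_X]

theorem coe_aevalFN (P : MvPolynomial (Idx N) Kbar) :
    ((aevalFN N P : FN N) : LaurentSeries Kbar) = MvPolynomial.aeval (helper24.genJ N) P := by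
  show (modularFunctionFieldBar N).val (MvPolynomial.aeval (genFN N) P) = _
  rw [MvPolynomial.comp_aeval_apply]
  rfl

theorem aevalFN_eq (P : MvPolynomial (Idx N) Kbar) :
    aevalFN N P = ⟨MvPolynomial.aeval (helper24.genJ N) P, aeval_mem_FN N P⟩ :=
  Subtype.ext (coe_aevalFN N P)

theorem embG_aevalFN (g : SL(2, ℤ)) (P : MvPolynomial (Idx N) Kbar) :
    embG N g (aevalFN N P) = Theta N g P := by
  rw [aevalFN_eq, embG_aeval]

theorem Theta_C (g : SL(2, ℤ)) (c : Kbar) :
    Theta N g (MvPolynomial.C c) = HahnSeries.C ((iotaC : Kbar →+* ℂ) c) := by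
  rw [Theta, MvPolynomial.coe_eval₂Hom, MvPolynomial.eval₂_C]
  rfl

theorem Theta_X (g : SL(2, ℤ)) (i : Idx N) : Theta N g (MvPolynomial.X i) = conjExp N g i := by
  rw [Theta, MvPolynomial.coe_eval₂Hom, MvPolynomial.eval₂_X]

/-- two ring homomorphisms out of `FN N` agreeing on constants and generators are equal. -/
theorem ringHom_ext_gen {L : Type*} [Field L] {σ σ' : FN N →+* L}
    (hc : ∀ c : Kbar, σ (algebraMap Kbar (FN N) c) = σ' (algebraMap Kbar (FN N) c))
    (hg : ∀ i, σ (genFN N i) = σ' (genFN N i)) : σ = σ' := by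
  apply ringHom_ext_FN
  intro P
  rw [← aevalFN_eq]
  have : σ.comp (aevalFN N) = σ'.comp (aevalFN N) := by
    apply MvPolynomial.ringHom_ext
    · intro c
      rw [RingHom.comp_apply, RingHom.comp_apply, aevalFN_C, hc]
    · intro i
      rw [RingHom.comp_apply, RingHom.comp_apply, aevalFN_X, hg]
  exact congrArg (fun φ => φ P) this

/-- the formal expansion `f ↦ f(t^N)` with complex coefficients. -/
def formalEmb : FN N →+* LaurentSeries ℂ :=
  (qExpand ℂ N).comp (helper17.toC.comp (algebraMap (FN N) (LaurentSeries Kbar)))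

theorem formalEmb_apply (f : FN N) :
    formalEmb N f = qExpand ℂ N (helper17.toC (f : LaurentSeries Kbar)) := rfl

theorem qExpand_C' (n : ℕ) [NeZero n] (c : ℂ) :
    qExpand ℂ n (HahnSeries.C c) = HahnSeries.C c := qExpand_C n c

theorem toC_C (c : Kbar) :
    helper17.toC (algebraMap Kbar (LaurentSeries Kbar) c)
      = HahnSeries.C ((iotaC : Kbar →+* ℂ) c) := by
  rw [helper17.toC_algebraMap, ModularCurve.algebraMap_laurentSeries_eq_single]
  rfl

/-- **(E2)** the embedding attached to the identity coset is the formal expansion. -/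
theorem embG_one_eq (f : FN N) :
    embG N 1 f = qExpand ℂ N (helper17.toC (f : LaurentSeries Kbar)) := by
  have : embG N 1 = formalEmb N := by
    apply ringHom_ext_gen
    · intro c
      rw [embG_algebraMap, formalEmb_apply]
      show _ = qExpand ℂ N (helper17.toC (algebraMap Kbar (LaurentSeries Kbar) c))
      rw [toC_C, qExpand_C']
    · intro i
      show embG N 1 ⟨helper24.genJ N i, gen_mem_FN N i⟩ = _
      rw [embG_gen, conjExp_one_eq, formalEmb_apply]
      show _ = qExpand ℂ N (helper17.toC (JdT i.1))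
      rw [helper17.toC_JdT]
  rw [this, formalEmb_apply]

end Identity

/-! ## (E3) transport of embeddings along maps of function fields -/

section Transport

variable {N M : ℕ} [NeZero N] [NeZero M]

/-- General transport lemma: a ring homomorphism `ρ : F_N → F_M` sending generators to
generators intertwines `embG N g'` and `embG M g` as soon as this holds on the expansions of the
generators. -/
theorem embG_comp_of_gen (ρ : FN N →+* FN M)
    (hρc : ∀ c : Kbar, ρ (algebraMap Kbar (FN N) c) = algebraMap Kbar (FN M) c)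
    (κ : Idx N → Idx M) (hρg : ∀ i, ρ (genFN N i) = genFN M (κ i))
    (Ψ : LaurentSeries ℂ →+* LaurentSeries ℂ) (hΨ : ∀ c : ℂ, Ψ (HahnSeries.C c) = HahnSeries.C c)
    (g g' : SL(2, ℤ)) (hconj : ∀ i, conjExp M g (κ i) = Ψ (conjExp N g' i)) (f : FN N) :
    embG M g (ρ f) = Ψ (embG N g' f) := by
  have : (embG M g).comp ρ = Ψ.comp (embG N g') := by
    apply ringHom_ext_gen
    · intro c
      rw [RingHom.comp_apply, RingHom.comp_apply, hρc, embG_algebraMap, embG_algebraMap, hΨ]
    · intro i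
      rw [RingHom.comp_apply, RingHom.comp_apply, hρg]
      show embG M g ⟨helper24.genJ M (κ i), gen_mem_FN M (κ i)⟩
        = Ψ (embG N g' ⟨helper24.genJ N i, gen_mem_FN N i⟩)
      rw [embG_gen, embG_gen, hconj]
  exact congrArg (fun φ => φ f) this

end Transport

/-! ## (E4) the two degeneracy maps -/

section Degeneracy

variable (N ℓ : ℕ) [NeZero N] [NeZero ℓ]

/-- the index map `d ↦ d` from divisors of `N` to divisors of `N ℓ`. -/
def inclIdx (i : Idx N) : Idx (N * ℓ) :=
  ⟨i.1, Nat.mem_divisors.mpr ⟨i.dvd.trans (dvd_mul_right N ℓ), NeZero.ne (N * ℓ)⟩⟩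

/-- the index map `d ↦ ℓ d` from divisors of `N` to divisors of `N ℓ`. -/
def mulIdx (i : Idx N) : Idx (N * ℓ) :=
  ⟨ℓ * i.1, Nat.mem_divisors.mpr
    ⟨by rw [mul_comm N ℓ]; exact mul_dvd_mul_left ℓ i.dvd, NeZero.ne (N * ℓ)⟩⟩

theorem alpha_genFN (i : Idx N) :
    heckeAlphaBar Kbar N ℓ (genFN N i) = genFN (N * ℓ) (inclIdx N ℓ i) := by
  apply Subtype.ext
  rw [coe_heckeAlphaBar]
  rfl

theorem JdT_mul (d : ℕ) (hd : d ≠ 0) : qExpand Kbar ℓ (JdT d) = JdT (ℓ * d) := by
  haveI : NeZero d := ⟨hd⟩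
  haveI : NeZero (ℓ * d) := ⟨Nat.mul_ne_zero (NeZero.ne ℓ) hd⟩
  rw [helper24.JdT_eq_coeffEmb, helper24.JdT_eq_coeffEmb]
  show qExpand Kbar ℓ (coeffMap (algebraMap ℚ Kbar) (qExpand ℚ d jq))
    = coeffMap (algebraMap ℚ Kbar) (qExpand ℚ (ℓ * d) jq)
  rw [← coeffMap_qExpand, qExpand_qExpand]

theorem beta_genFN (i : Idx N) :
    heckeBetaBar Kbar N ℓ (genFN N i) = genFN (N * ℓ) (mulIdx N ℓ i) := by
  apply Subtype.ext
  rw [coe_heckeBetaBar]
  show qExpand Kbar ℓ (JdT i.1) = JdT (ℓ * i.1)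
  exact JdT_mul ℓ i.1 i.ne_zero

/-- **(E3-α)** restriction of `embG (N ℓ) g` to `F_N` along `α`. -/
theorem embG_alpha (g : SL(2, ℤ)) (f : FN N) :
    embG (N * ℓ) g (heckeAlphaBar Kbar N ℓ f) = qExpand ℂ ℓ (embG N g f) := by
  refine embG_comp_of_gen (heckeAlphaBar Kbar N ℓ).toRingHom
    (fun c => (heckeAlphaBar Kbar N ℓ).commutes c) (inclIdx N ℓ) (alpha_genFN N ℓ)
    (qExpand ℂ ℓ) (qExpand_C' ℓ) g g (fun i => ?_) f
  have h1 := isTExp_conjExp (N * ℓ) g (inclIdx N ℓ i)
  have h2 := isTExp_refine (isTExp_conjExp N g i) ℓ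
  exact h1.unique h2

/-- **(E3-β)** `embG (N ℓ) g₀ ∘ β = embG N 1` when `j(ℓ i g₀⁻¹ τ) = j(i τ / ℓ)`. -/
theorem embG_beta (g : SL(2, ℤ))
    (hg : ∀ (i : ℕ) (_ : i ∣ N) (hi0 : i ≠ 0) (τ : ℍ),
      haveI : NeZero (ℓ * i) := ⟨Nat.mul_ne_zero (NeZero.ne ℓ) hi0⟩
      haveI : NeZero i := ⟨hi0⟩
      jfunD (ℓ * i) (g⁻¹ • τ) = jfunD i (divH ℓ τ)) (f : FN N) :
    embG (N * ℓ) g (heckeBetaBar Kbar N ℓ f) = embG N 1 f := by
  refine embG_comp_of_gen (heckeBetaBar Kbar N ℓ).toRingHom
    (fun c => (heckeBetaBar Kbar N ℓ).commutes c) (mulIdx N ℓ) (beta_genFN N ℓ)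
    (RingHom.id _) (fun _ => rfl) g 1 (fun i => ?_) f
  have h1 := isTExp_conjExp (N * ℓ) g (mulIdx N ℓ i)
  have h2 := isTExp_comp_div (isTExp_conjExp N 1 i) ℓ
  have hfun : conjFun (N * ℓ) g (mulIdx N ℓ i) = fun τ => conjFun N 1 i (divH ℓ τ) := by
    funext τ
    haveI : NeZero i.1 := ⟨i.ne_zero⟩
    haveI : NeZero (ℓ * i.1) := ⟨Nat.mul_ne_zero (NeZero.ne ℓ) i.ne_zero⟩
    rw [conjFun_one_eq]
    show jfunDT (ℓ * i.1) (g⁻¹ • τ) = jfunDT i.1 (divH ℓ τ)
    rw [jfunDT_eq, jfunDT_eq]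
    exact hg i.1 i.dvd i.ne_zero τ
  rw [hfun] at h1
  exact h1.unique h2

end Degeneracy

end Fermat.Agent.P2.helper93
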