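import Mathlib

/-!
# P2 / ES-NORM (helper93), part 0: the norm as a product over a full set of embeddings

`norm_eq_prod_of_embeddings`: if `E / F` is finite separable of degree `n` and
`τ : ι → (E →+* Ω)` is an injective family of `n` ring homomorphisms into a field `Ω`, all
restricting to the same `σ : F →+* Ω`, then `σ (N_{E/F} x) = ∏ i, τ i x`.
(`Ω` is not assumed to be algebraically closed.)
-/

set_option autoImplicit false

namespace Fermat.Agent.P2.helper93

open Module

theorem norm_eq_prod_of_embeddings {F E Ω : Type*} [Field F] [Field E] [Field Ω] [Algebra F E]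
    [FiniteDimensional F E] [Algebra.IsSeparable F E] (σ : F →+* Ω) {ι : Type*} [Fintype ι]
    (τ : ι → (E →+* Ω)) (hτ : Function.Injective τ)
    (hcomp : ∀ i, (τ i).comp (algebraMap F E) = σ)
    (hcard : Fintype.card ι = finrank F E) (x : E) :
    σ (Algebra.norm F x) = ∏ i, τ i x := by
  classical
  let Ωb := AlgebraicClosure Ω
  let _ : Algebra F Ωb := ((algebraMap Ω Ωb).comp σ).toAlgebra
  have halg : ∀ a : F, algebraMap F Ωb a = algebraMap Ω Ωb (σ a) := fun a => rfl
  let τ' : ι → (E →ₐ[F] Ωb) := fun i =>
    { (algebraMap Ω Ωb).comp (τ i) with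
      commutes' := fun a => by
        show algebraMap Ω Ωb (τ i (algebraMap F E a)) = algebraMap F Ωb a
        rw [halg, ← hcomp i]
        rfl }
  have hτ'app : ∀ i y, τ' i y = algebraMap Ω Ωb (τ i y) := fun i y => rfl
  have hinj : Function.Injective τ' := by
    intro i j hij
    apply hτ
    ext y
    have := congrArg (fun f : E →ₐ[F] Ωb => f y) hij
    simp only [hτ'app] at this
    exact (algebraMap Ω Ωb).injective this
  have hcard' : Fintype.card ι = Fintype.card (E →ₐ[F] Ωb) := by
    rw [hcard, AlgHom.card F E Ωb]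
  have hbij : Function.Bijective τ' :=
    (Fintype.bijective_iff_injective_and_card τ').mpr ⟨hinj, hcard'⟩
  have h1 := Algebra.norm_eq_prod_embeddings F Ωb x
  rw [halg] at h1
  have h2 : ∏ f : E →ₐ[F] Ωb, f x = ∏ i, τ' i x :=
    (Fintype.prod_bijective τ' hbij (fun i => τ' i x) (fun f => f x) (fun i => rfl)).symm
  rw [h2] at h1
  simp only [hτ'app] at h1
  rw [← map_prod] at h1
  exact (algebraMap Ω Ωb).injective h1

end Fermat.Agent.P2.helper93
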