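import Mathlib
import Fermat.Prelude.Def_ModularCurve_HeckeOperator
import Fermat.Prelude.Thm_ModularCurve_coeff_jqModC_neg_one
import Fermat.Agent.S24.helper80_LocalEmb
import Fermat.Agent.P2.helper93_ESEmb
import Fermat.Agent.P2.helper93_ESDegree
import Fermat.Agent.P2.helper93_NormEmb

/-!
# P2 / ES-NORM (helper93): the norm formula for the Hecke correspondence in `q`-series form

For a prime `ℓ ∤ N`, `h ∈ F_N = modularFunctionFieldBar N`, `ζ ∈ ℚ̄` a primitive `ℓ`-th root of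
unity, and `α, β : F_N → F_{Nℓ}` the two degeneracy maps of the Prelude
(`heckeAlphaBar`, `heckeBetaBar`):

  `N_{F_{Nℓ} / α F_N}(β h)(q^ℓ) = h(q^{ℓ²}) · ∏_{k<ℓ} h(ζ^k q)`     (`es_norm`)

i.e. `N(β h) = h(q^ℓ) · ∏_k h(ζ^k q^{1/ℓ})`, stated inside `LaurentSeries ℚ̄` after `q ↦ q^ℓ`.

This is the char-0 half of the Kummer-form Eichler–Shimura congruence: modulo a prime above `ℓ`
(`ζ ≡ 1`) the right-hand side becomes `(φ⁻¹ h̄)^ℓ(q^ℓ) · (φ h̄)(q^ℓ)`.

Proof: the `ℓ + 1` embeddings `embG (Nℓ) 1`, `embG (Nℓ) (T^k g₀)` (`k < ℓ`) of `F_{Nℓ}` into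
`ℂ((t))` (S24, cusp expansions of `f ∘ g⁻¹`) agree on `α F_N`, are pairwise distinct, and
`[F_{Nℓ} : α F_N] = ℓ + 1`; their values on `β h` are `h(t^{Nℓ²})` and `h(ξ^k t^N)`.
-/

set_option autoImplicit false
set_option linter.unusedSectionVars false
set_option linter.unusedVariables false
set_option linter.style.haveILetI false

noncomputable section

open UpperHalfPlane ModularCurve AlgebraicCurve CongruenceSubgroup
open scoped MatrixGroups

namespace Fermat.Agent.P2.helper93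

open Fermat.Agent.S24 Fermat.Agent.S24.helper37

/-! ## The twist `q ↦ c q` -/

/-- The substitution `q ↦ c q` on Laurent series over a field: the `k`-th coefficient is
multiplied by `c ^ k`. -/
def twistL {K : Type*} [Field K] (c : K) (f : LaurentSeries K) : LaurentSeries K where
  coeff k := c ^ k * f.coeff k
  isPWO_support' := f.isPWO_support.mono fun k hk => by
    simp only [Function.mem_support, ne_eq] at hk ⊢
    exact fun h => hk (by rw [h, mul_zero])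

@[simp]
theorem twistL_coeff {K : Type*} [Field K] (c : K) (f : LaurentSeries K) (k : ℤ) :
    (twistL c f).coeff k = c ^ k * f.coeff k := rfl

theorem twistL_complex (c : ℂ) (f : LaurentSeries ℂ) : twistL c f = rotL c f := rfl

theorem toC_twistL (c : Kbar) (f : LaurentSeries Kbar) :
    helper17.toC (twistL c f) = rotL ((iotaC : Kbar →+* ℂ) c) (helper17.toC f) := by
  ext k
  rw [helper17.toC_coeff, twistL_coeff, rotL_coeff, helper17.toC_coeff, map_mul, map_zpow₀]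
  rfl

theorem rotL_qExpand (c : ℂ) (n : ℕ) [NeZero n] (F : LaurentSeries ℂ) :
    rotL c (qExpand ℂ n F) = qExpand ℂ n (rotL (c ^ n) F) := by
  ext k
  rw [rotL_coeff]
  by_cases hk : (n : ℤ) ∣ k
  · obtain ⟨m, rfl⟩ := hk
    rw [qExpand_coeff_mul, qExpand_coeff_mul, rotL_coeff, zpow_mul, zpow_natCast]
  · rw [qExpand_coeff_of_not_dvd n _ hk, qExpand_coeff_of_not_dvd n _ hk, mul_zero]

/-! ## `T`-translates -/

theorem embG_T_pow_mul (M : ℕ) [NeZero M] (k : ℕ) (g : SL(2, ℤ)) (f : FN M) :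
    embG M (ModularGroup.T ^ k * g) f = rotL (zetaCusp M ^ k) (embG M g f) := by
  induction k with
  | zero => rw [pow_zero, one_mul, pow_zero, helper80.rotL_one]
  | succ k ih =>
    rw [pow_succ', mul_assoc, embG_T_mul, ih, helper80.rotL_rotL, pow_succ']

theorem T_mem_Gamma0 (N : ℕ) : ModularGroup.T ∈ Gamma0 N := by
  rw [Gamma0_mem]
  simp [ModularGroup.T]

theorem embG_of_mem_Gamma0 (N : ℕ) [NeZero N] {g : SL(2, ℤ)} (hg : g ∈ Gamma0 N) :
    embG N g = embG N 1 :=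
  embG_congr N (by rw [inv_one, one_mul]; exact hg)

/-! ## The `ℓ + 1` embeddings of `F_{Nℓ}` over `α F_N` -/

section Main

variable (N ℓ : ℕ) [NeZero N] [NeZero ℓ]

/-- the primitive `ℓ`-th root of unity `exp(-2πi/ℓ)`, as `zetaCusp (N ℓ) ^ N`. -/
def xiC : ℂ := zetaCusp (N * ℓ) ^ N

theorem isPrimitiveRoot_xiC : IsPrimitiveRoot (xiC N ℓ) ℓ :=
  (isPrimitiveRoot_zetaCusp (N * ℓ)).pow (Nat.pos_of_ne_zero (NeZero.ne (N * ℓ))) rfl

/-- the family of `ℓ + 1` embeddings of `F_{Nℓ}`. -/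
def embFam (g₀ : SL(2, ℤ)) : Option (Fin ℓ) → (FN (N * ℓ) →+* LaurentSeries ℂ)
  | none => embG (N * ℓ) 1
  | some k => embG (N * ℓ) (ModularGroup.T ^ (k : ℕ) * g₀)

variable {N ℓ}

theorem embFam_alpha {g₀ : SL(2, ℤ)} (hg₀ : g₀ ∈ Gamma0 N) (i : Option (Fin ℓ)) (f : FN N) :
    embFam N ℓ g₀ i (heckeAlphaBar Kbar N ℓ f) = qExpand ℂ ℓ (embG N 1 f) := by
  cases i with
  | none => exact embG_alpha N ℓ 1 f
  | some k =>
    show embG (N * ℓ) (ModularGroup.T ^ (k : ℕ) * g₀) (heckeAlphaBar Kbar N ℓ f) = _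
    rw [embG_alpha, embG_of_mem_Gamma0 N (mul_mem (pow_mem (T_mem_Gamma0 N) _) hg₀)]

theorem embFam_beta_none (g₀ : SL(2, ℤ)) (f : FN N) :
    embFam N ℓ g₀ none (heckeBetaBar Kbar N ℓ f)
      = qExpand ℂ N (qExpand ℂ (ℓ * ℓ) (helper17.toC (f : LaurentSeries Kbar))) := by
  show embG (N * ℓ) 1 (heckeBetaBar Kbar N ℓ f) = _
  rw [embG_one_eq, coe_heckeBetaBar]
  show qExpand ℂ (N * ℓ) (coeffMap (iotaC : Kbar →+* ℂ) (qExpand Kbar ℓ (f : LaurentSeries Kbar)))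
    = _
  rw [coeffMap_qExpand, qExpand_qExpand, qExpand_qExpand]
  exact qExpand_congr (by ring) _

theorem embFam_beta_some {g₀ : SL(2, ℤ)}
    (hg : ∀ (i : ℕ) (_ : i ∣ N) (hi0 : i ≠ 0) (τ : ℍ),
      haveI : NeZero (ℓ * i) := ⟨Nat.mul_ne_zero (NeZero.ne ℓ) hi0⟩
      haveI : NeZero i := ⟨hi0⟩
      jfunD (ℓ * i) (g₀⁻¹ • τ) = jfunD i (divH ℓ τ)) (k : Fin ℓ) (f : FN N) :
    embFam N ℓ g₀ (some k) (heckeBetaBar Kbar N ℓ f)
      = qExpand ℂ N (rotL (xiC N ℓ ^ (k : ℕ)) (helper17.toC (f : LaurentSeries Kbar))) := by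
  show embG (N * ℓ) (ModularGroup.T ^ (k : ℕ) * g₀) (heckeBetaBar Kbar N ℓ f) = _
  rw [embG_T_pow_mul, embG_beta N ℓ g₀ hg, embG_one_eq, rotL_qExpand, xiC, pow_right_comm]

/-- the test function `j`. -/
theorem coeff_toC_genFN_idxOne :
    (helper17.toC ((genFN N (idxOne N) : FN N) : LaurentSeries Kbar)).coeff (-1) = 1 := by
  show (helper17.toC (JdT 1)).coeff (-1) = 1
  rw [helper17.toC_JdT, helper17.JdTC_eq, helper17.JdC, qExpand_one_apply,
    coeff_jqModC_neg_one]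

theorem coeff_embFam_none (hℓ : 2 ≤ ℓ) (g₀ : SL(2, ℤ)) :
    (embFam N ℓ g₀ none (heckeBetaBar Kbar N ℓ (genFN N (idxOne N)))).coeff (-(N : ℤ)) = 0 := by
  rw [embFam_beta_none]
  have h : (-(N : ℤ)) = (N : ℤ) * (-1) := by ring
  rw [h, qExpand_coeff_mul]
  apply qExpand_coeff_of_not_dvd
  rintro ⟨c, hc⟩
  have h1 : ((ℓ * ℓ : ℕ) : ℤ) ∣ 1 := ⟨-c, by rw [mul_neg, ← hc]; ring⟩
  have h2 := Int.natCast_dvd_natCast.mp (by simpa using h1 : ((ℓ * ℓ : ℕ) : ℤ) ∣ ((1 : ℕ) : ℤ))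
  have h3 := Nat.le_of_dvd one_pos h2
  nlinarith

theorem coeff_embFam_some {g₀ : SL(2, ℤ)}
    (hg : ∀ (i : ℕ) (_ : i ∣ N) (hi0 : i ≠ 0) (τ : ℍ),
      haveI : NeZero (ℓ * i) := ⟨Nat.mul_ne_zero (NeZero.ne ℓ) hi0⟩
      haveI : NeZero i := ⟨hi0⟩
      jfunD (ℓ * i) (g₀⁻¹ • τ) = jfunD i (divH ℓ τ)) (k : Fin ℓ) :
    (embFam N ℓ g₀ (some k) (heckeBetaBar Kbar N ℓ (genFN N (idxOne N)))).coeff (-(N : ℤ))
      = (xiC N ℓ ^ (k : ℕ))⁻¹ := by
  rw [embFam_beta_some hg]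
  have h : (-(N : ℤ)) = (N : ℤ) * (-1) := by ring
  rw [h, qExpand_coeff_mul, rotL_coeff, coeff_toC_genFN_idxOne, mul_one, zpow_neg_one]

theorem embFam_injective (hℓ : 2 ≤ ℓ) {g₀ : SL(2, ℤ)}
    (hg : ∀ (i : ℕ) (_ : i ∣ N) (hi0 : i ≠ 0) (τ : ℍ),
      haveI : NeZero (ℓ * i) := ⟨Nat.mul_ne_zero (NeZero.ne ℓ) hi0⟩
      haveI : NeZero i := ⟨hi0⟩
      jfunD (ℓ * i) (g₀⁻¹ • τ) = jfunD i (divH ℓ τ)) :
    Function.Injective (embFam N ℓ g₀) := by
  have hξ := isPrimitiveRoot_xiC N ℓ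
  have hne : ∀ k : ℕ, (xiC N ℓ ^ k)⁻¹ ≠ 0 := fun k =>
    inv_ne_zero (pow_ne_zero _ (hξ.ne_zero (NeZero.ne ℓ)))
  intro a b hab
  have hab' := congrArg (fun φ : FN (N * ℓ) →+* LaurentSeries ℂ =>
    (φ (heckeBetaBar Kbar N ℓ (genFN N (idxOne N)))).coeff (-(N : ℤ))) hab
  beta_reduce at hab'
  cases a with
  | none =>
    cases b with
    | none => rfl
    | some k =>
      rw [coeff_embFam_none hℓ, coeff_embFam_some hg] at hab'
      exact absurd hab'.symm (hne _)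
  | some k =>
    cases b with
    | none =>
      rw [coeff_embFam_none hℓ, coeff_embFam_some hg] at hab'
      exact absurd hab' (hne _)
    | some k' =>
      rw [coeff_embFam_some hg, coeff_embFam_some hg, inv_inj] at hab'
      have := hξ.pow_inj k.2 k'.2 hab'
      exact congrArg some (Fin.ext this)

end Main

/-! ## The norm formula -/

section Norm

variable (N ℓ : ℕ) [NeZero N] [NeZero ℓ]

/-- products over the powers of a primitive root do not depend on the primitive root. -/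
theorem prod_pow_primitiveRoot {R M : Type*} [CommRing R] [IsDomain R] [CommMonoid M]
    {a b : R} {n : ℕ} (ha : IsPrimitiveRoot a n) (hb : IsPrimitiveRoot b n) (Φ : R → M) :
    ∏ k ∈ Finset.range n, Φ (a ^ k) = ∏ k ∈ Finset.range n, Φ (b ^ k) := by
  have h1 := ha.nthRoots_eq (α := (1 : R)) (a := 1) (one_pow n)
  have h2 := hb.nthRoots_eq (α := (1 : R)) (a := 1) (one_pow n)
  have h3 := congrArg (fun s => (Multiset.map Φ s).prod) (h1.symm.trans h2)
  simp only [Multiset.map_map, Function.comp_def, mul_one] at h3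
  exact h3

/-- **Norm formula, complex coefficients.** -/
theorem es_norm_complex (hℓ : ℓ.Prime) (hN : ¬ ℓ ∣ N) (h : FN N) :
    letI := algebraAlong (heckeAlphaBar Kbar N ℓ)
    qExpand ℂ ℓ (helper17.toC
        ((Algebra.norm (FN N) (heckeBetaBar Kbar N ℓ h) : FN N) : LaurentSeries Kbar))
      = qExpand ℂ (ℓ * ℓ) (helper17.toC (h : LaurentSeries Kbar)) *
          ∏ k ∈ Finset.range ℓ, rotL (xiC N ℓ ^ k) (helper17.toC (h : LaurentSeries Kbar)) := by
  letI := algebraAlong (heckeAlphaBar Kbar N ℓ)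
  have hfr := finrank_alpha N ℓ hℓ hN
  haveI fd : FiniteDimensional (FN N) (FN (N * ℓ)) :=
    Module.finite_of_finrank_pos (by rw [hfr]; omega)
  haveI : Algebra.IsSeparable (FN N) (FN (N * ℓ)) := inferInstance
  have hcop : Nat.Coprime N ℓ := ((Nat.Prime.coprime_iff_not_dvd hℓ).mpr hN).symm
  obtain ⟨g₀, hg₀mem, hg⟩ := exists_g0 N ℓ hcop
  have key := norm_eq_prod_of_embeddings (F := FN N) (E := FN (N * ℓ))
    ((qExpand ℂ ℓ).comp (embG N 1)) (embFam N ℓ g₀) (embFam_injective hℓ.two_le hg)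
    (fun i => RingHom.ext fun f => embFam_alpha hg₀mem i f)
    (by rw [Fintype.card_option, Fintype.card_fin, hfr]) (heckeBetaBar Kbar N ℓ h)
  rw [Fintype.prod_option, embFam_beta_none] at key
  simp_rw [embFam_beta_some hg] at key
  rw [Fin.prod_univ_eq_prod_range
    (fun k => qExpand ℂ N (rotL (xiC N ℓ ^ k) (helper17.toC (h : LaurentSeries Kbar)))) ℓ,
    RingHom.comp_apply, embG_one_eq, qExpand_qExpand, ← map_prod, ← map_mul] at key
  apply qExpand_injective N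
  rw [qExpand_qExpand, ← key]
  exact qExpand_congr (mul_comm _ _) _

/-- **ES-NORM**: the norm formula for the Hecke correspondence `T_ℓ`, `ℓ ∤ N` prime, in
`q`-series form: `N_{F_{Nℓ}/αF_N}(β h)(q^ℓ) = h(q^{ℓ²}) · ∏_{k<ℓ} h(ζ^k q)`. -/
theorem es_norm (hℓ : ℓ.Prime) (hN : ¬ ℓ ∣ N) (ζ : Kbar) (hζ : IsPrimitiveRoot ζ ℓ)
    (h : modularFunctionFieldBar N) :
    letI := algebraAlong (heckeAlphaBar Kbar N ℓ)
    qExpand Kbar ℓ
        ((Algebra.norm (modularFunctionFieldBar N) (heckeBetaBar Kbar N ℓ h) :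
          modularFunctionFieldBar N) : LaurentSeries Kbar)
      = qExpand Kbar (ℓ * ℓ) (h : LaurentSeries Kbar) *
          ∏ k ∈ Finset.range ℓ, twistL (ζ ^ k) (h : LaurentSeries Kbar) := by
  letI := algebraAlong (heckeAlphaBar Kbar N ℓ)
  apply helper17.toC_injective
  have hq : ∀ (n : ℕ) [NeZero n] (x : LaurentSeries Kbar),
      helper17.toC (qExpand Kbar n x) = qExpand ℂ n (helper17.toC x) :=
    fun n _ x => coeffMap_qExpand _ n x
  rw [map_mul, map_prod, hq, hq]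
  simp_rw [toC_twistL, map_pow]
  rw [prod_pow_primitiveRoot (hζ.map_of_injective (iotaC : Kbar →+* ℂ).injective)
    (isPrimitiveRoot_xiC N ℓ) (fun c => rotL c (helper17.toC (h : LaurentSeries Kbar)))]
  exact es_norm_complex N ℓ hℓ hN h

end Norm

end Fermat.Agent.P2.helper93
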