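import Mathlib
import Fermat.Prelude.Def_FLTPrelim_Ramification
import Fermat.Agent.P2.helper93_ESNorm
import Fermat.Agent.P2.helper94_ESFormal

/-!
# P2 / ES-RED (helper93): reduction of the Hecke norm modulo a place over `ℓ`

`A` is a valuation subring of `ℚ̄` over the prime `ℓ ∤ N`, `k` its residue field.  If
`Y ∈ A((q))` represents `h ∈ F_N`, then `N_{F_{Nℓ}/αF_N}(β h)` is represented by a series
`Y' ∈ A((q))` and

  `RED(Y') = RED(Y)(q^ℓ) · (Frob RED(Y))(q)`        (`es_red`)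

(`Frob` = coefficientwise Frobenius).  This is `es_norm` composed with helper94's `es_formal`.
-/

set_option autoImplicit false
set_option linter.unusedSectionVars false
set_option linter.unusedVariables false
set_option linter.style.haveILetI false

noncomputable section

open ModularCurve AlgebraicCurve

namespace Fermat.Agent.P2.helper93

open Fermat.Agent.S24

/-! ## Valuation subrings over `ℓ` -/

section Val

variable (A : ValuationSubring Kbar)

theorem mem_of_pow_eq_one {ζ : Kbar} {n : ℕ} (hn : n ≠ 0) (h : ζ ^ n = 1) : ζ ∈ A := by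
  rw [← A.valuation_le_one_iff]
  have h1 : A.valuation ζ ^ n ≤ 1 := by rw [← map_pow, h, map_one]
  exact (pow_le_one_iff hn).mp h1

/-- the unit of `A` attached to a root of unity. -/
def rootUnit {ζ : Kbar} {n : ℕ} (hn : n ≠ 0) (h : ζ ^ n = 1) : (↥A)ˣ where
  val := ⟨ζ, mem_of_pow_eq_one A hn h⟩
  inv := ⟨ζ ^ (n - 1), mem_of_pow_eq_one A hn (by rw [← pow_mul, mul_comm, pow_mul, h, one_pow])⟩
  val_inv := by
    apply Subtype.ext
    show ζ * ζ ^ (n - 1) = 1
    rw [← pow_succ', Nat.sub_add_cancel (Nat.pos_of_ne_zero hn), h]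
  inv_val := by
    apply Subtype.ext
    show ζ ^ (n - 1) * ζ = 1
    rw [← pow_succ, Nat.sub_add_cancel (Nat.pos_of_ne_zero hn), h]

@[simp]
theorem coe_rootUnit {ζ : Kbar} {n : ℕ} (hn : n ≠ 0) (h : ζ ^ n = 1) :
    (((rootUnit A hn h : (↥A)ˣ) : ↥A) : Kbar) = ζ := rfl

variable {A}

theorem natCast_mem_maximalIdeal {ℓ : ℕ} (hA : A.LiesOverPrime ℓ) :
    ((ℓ : ℕ) : ↥A) ∈ IsLocalRing.maximalIdeal ↥A := by
  rw [IsLocalRing.mem_maximalIdeal, mem_nonunits_iff]
  intro hu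
  have h1 : (ℓ : Kbar) ∈ A.nonunits := hA
  rw [ValuationSubring.mem_nonunits_iff_exists_mem_maximalIdeal] at h1
  obtain ⟨ha, hmem⟩ := h1
  rw [IsLocalRing.mem_maximalIdeal, mem_nonunits_iff] at hmem
  apply hmem
  have e : (⟨(ℓ : Kbar), ha⟩ : ↥A) = ((ℓ : ℕ) : ↥A) := Subtype.ext (by simp)
  rw [e]
  exact hu

theorem charP_residue {ℓ : ℕ} (hℓ : ℓ.Prime) (hA : A.LiesOverPrime ℓ) :
    CharP (↥A ⧸ IsLocalRing.maximalIdeal ↥A) ℓ := by
  have h0 : ((ℓ : ℕ) : ↥A ⧸ IsLocalRing.maximalIdeal ↥A) = 0 := by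
    rw [← map_natCast (Ideal.Quotient.mk (IsLocalRing.maximalIdeal ↥A))]
    exact Ideal.Quotient.eq_zero_iff_mem.mpr (natCast_mem_maximalIdeal hA)
  obtain ⟨p, hp⟩ := CharP.exists (↥A ⧸ IsLocalRing.maximalIdeal ↥A)
  have hdvd : p ∣ ℓ := (CharP.cast_eq_zero_iff _ p ℓ).mp h0
  rcases (Nat.dvd_prime hℓ).mp hdvd with h1 | h1
  · exact absurd h1 (CharP.char_ne_one (↥A ⧸ IsLocalRing.maximalIdeal ↥A) p)
  · subst h1
    exact hp

theorem charP_residueField {ℓ : ℕ} (hℓ : ℓ.Prime) (hA : A.LiesOverPrime ℓ) :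
    CharP (IsLocalRing.ResidueField ↥A) ℓ :=
  charP_residue hℓ hA

theorem rootUnit_sub_one_mem {ℓ : ℕ} (hℓ : ℓ.Prime) (hA : A.LiesOverPrime ℓ) {ζ : Kbar}
    (h : ζ ^ ℓ = 1) :
    ((rootUnit A hℓ.ne_zero h : (↥A)ˣ) : ↥A) - 1 ∈ IsLocalRing.maximalIdeal ↥A := by
  haveI := charP_residue hℓ hA
  haveI : Fact ℓ.Prime := ⟨hℓ⟩
  rw [← Ideal.Quotient.eq_zero_iff_mem]
  have hpow : ((rootUnit A hℓ.ne_zero h : (↥A)ˣ) : ↥A) ^ ℓ = 1 := by
    apply Subtype.ext
    show ζ ^ ℓ = 1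
    exact h
  have h2 : (Ideal.Quotient.mk (IsLocalRing.maximalIdeal ↥A)
      (((rootUnit A hℓ.ne_zero h : (↥A)ˣ) : ↥A) - 1)) ^ ℓ = 0 := by
    rw [map_sub, map_one, sub_pow_char, one_pow, ← map_pow, hpow, map_one, sub_self]
  exact pow_eq_zero_iff (hℓ.ne_zero) |>.mp h2

end Val

/-! ## Integral series -/

section Integral

variable {A : ValuationSubring Kbar}

theorem coeffMap_subtype_injective :
    Function.Injective (coeffMap (A.subtype : ↥A →+* Kbar)) := by
  intro x y h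
  ext k
  have := congrArg (fun z : LaurentSeries Kbar => z.coeff k) h
  simp only [coeffMap_coeff] at this
  exact this

theorem coeffMap_subtype_rot (u : (↥A)ˣ) (Y : LaurentSeries ↥A) :
    coeffMap (A.subtype : ↥A →+* Kbar) (helper94.rot u Y)
      = twistL (((u : ↥A) : Kbar)) (coeffMap (A.subtype : ↥A →+* Kbar) Y) := by
  ext k
  rw [coeffMap_coeff, helper94.rot_coeff, twistL_coeff, coeffMap_coeff, map_mul]
  congr 1
  show (((u ^ k : (↥A)ˣ) : ↥A) : Kbar) = (((u : ↥A) : Kbar)) ^ k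
  have h := map_zpow (Units.map (A.subtype : ↥A →* Kbar)) u k
  have h2 := congrArg (fun v : Kbarˣ => (v : Kbar)) h
  simp only [Units.coe_map, Units.val_zpow_eq_zpow_val] at h2
  exact h2

/-- a series over `ℚ̄` all of whose coefficients lie in `A` comes from a series over `A`. -/
def liftA (X : LaurentSeries Kbar) (hX : ∀ k, X.coeff k ∈ A) : LaurentSeries ↥A where
  coeff k := ⟨X.coeff k, hX k⟩
  isPWO_support' := X.isPWO_support.mono fun k hk => by
    simp only [Function.mem_support, ne_eq] at hk ⊢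
    intro h0
    apply hk
    apply Subtype.ext
    exact h0

theorem coeffMap_subtype_liftA (X : LaurentSeries Kbar) (hX : ∀ k, X.coeff k ∈ A) :
    coeffMap (A.subtype : ↥A →+* Kbar) (liftA X hX) = X := by
  ext k
  rfl

end Integral

/-! ## The reduction of the Hecke norm -/

section Red

variable (N ℓ : ℕ) [NeZero N] [NeZero ℓ]

/-- **ES-RED.** -/
theorem es_red [hfact : Fact ℓ.Prime] (hN : ¬ ℓ ∣ N) (A : ValuationSubring Kbar)
    (hA : A.LiesOverPrime ℓ) (Y : LaurentSeries ↥A)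
    (hY : coeffMap (A.subtype : ↥A →+* Kbar) Y ∈ modularFunctionFieldBar N) :
    letI := algebraAlong (heckeAlphaBar Kbar N ℓ)
    ∃ Y' : LaurentSeries ↥A,
      coeffMap (A.subtype : ↥A →+* Kbar) Y'
        = ((Algebra.norm (modularFunctionFieldBar N)
            (heckeBetaBar Kbar N ℓ ⟨coeffMap (A.subtype : ↥A →+* Kbar) Y, hY⟩) :
              modularFunctionFieldBar N) : LaurentSeries Kbar) ∧
      ∀ [CharP (IsLocalRing.ResidueField ↥A) ℓ],
      coeffMap (IsLocalRing.residue ↥A) Y'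
        = qExpand (IsLocalRing.ResidueField ↥A) ℓ (coeffMap (IsLocalRing.residue ↥A) Y) *
            coeffMap (frobenius (IsLocalRing.ResidueField ↥A) ℓ)
              (coeffMap (IsLocalRing.residue ↥A) Y) := by
  letI := algebraAlong (heckeAlphaBar Kbar N ℓ)
  have hℓ : ℓ.Prime := hfact.out
  obtain ⟨ζ, hζ⟩ := HasEnoughRootsOfUnity.exists_primitiveRoot Kbar ℓ
  have hζ1 : ζ ^ ℓ = 1 := hζ.pow_eq_one
  set u : (↥A)ˣ := rootUnit A hℓ.ne_zero hζ1 with hu
  set NK : LaurentSeries Kbar := ((Algebra.norm (modularFunctionFieldBar N)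
    (heckeBetaBar Kbar N ℓ ⟨coeffMap (A.subtype : ↥A →+* Kbar) Y, hY⟩) :
      modularFunctionFieldBar N) : LaurentSeries Kbar) with hNK
  have key := es_norm N ℓ hℓ hN ζ hζ ⟨coeffMap (A.subtype : ↥A →+* Kbar) Y, hY⟩
  -- the integral product
  set P : LaurentSeries ↥A :=
    qExpand ↥A ℓ (qExpand ↥A ℓ Y) * ∏ i ∈ Finset.range ℓ, helper94.rot (u ^ i) Y with hP
  have hPK : coeffMap (A.subtype : ↥A →+* Kbar) P = qExpand Kbar ℓ NK := by
    rw [hNK, key, hP, map_mul, map_prod, coeffMap_qExpand, coeffMap_qExpand, qExpand_qExpand]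
    congr 1
    refine Finset.prod_congr rfl fun i _ => ?_
    rw [coeffMap_subtype_rot]
    rfl
  have hmem : ∀ k, NK.coeff k ∈ A := by
    intro k
    have h1 : NK.coeff k = (qExpand Kbar ℓ NK).coeff ((ℓ : ℤ) * k) := (qExpand_coeff_mul ℓ NK k).symm
    rw [h1, ← hPK, coeffMap_coeff]
    exact (P.coeff _).2
  refine ⟨liftA NK hmem, coeffMap_subtype_liftA NK hmem, ?_⟩
  intro hchar
  haveI hchar' : CharP (↥A ⧸ IsLocalRing.maximalIdeal ↥A) ℓ := hchar
  have hN' : qExpand ↥A ℓ (liftA NK hmem)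
      = qExpand ↥A ℓ (qExpand ↥A ℓ Y) * ∏ i ∈ Finset.range ℓ, helper94.rot (u ^ i) Y := by
    apply coeffMap_subtype_injective
    rw [coeffMap_qExpand, coeffMap_subtype_liftA, ← hPK]
  exact helper94.es_formal ℓ (IsLocalRing.maximalIdeal ↥A) u
    (rootUnit_sub_one_mem hℓ hA hζ1) Y (liftA NK hmem) hN'

end Red

end Fermat.Agent.P2.helper93
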