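import Mathlib
import Fermat.Agent.P3.Defs
import Fermat.Agent.S18.helper19_Main
import Fermat.Agent.P2.helper93_ESRed

/-!
# P2 [CORE-WIRE] (helper93, task 488 (b)): `P2CoreStatement M p` from (INJ)

`p2Core_of` : the operator form (UNR) + (ES) of P2-CORE on the `p`-power torsion of `J₀(M)`
(`Fermat.Agent.P3.P2CoreStatement M p`) follows from

* (H-INJ)  `InjStatement M A (p ^ n)` (helper19's shape) for all places `A` over good primes,
* (H-VAL') every nonzero function of `F_M` is a constant times a quotient of two good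
  `A`-integral `q`-series (`GoodQuotStatement`; follows from the Prelude's
  `PrincipalGeneratedByIntegral`, see `goodQuotStatement_of_principalGenerated`),
* (H-HI)   `HeckeInputsAlong ℚ̄ M ℓ` (so that `heckeOperatorBar` is the genuine correspondence).

Ingredients proved here: the Kummer dictionary (`IsRootDiv`: `n • D = div h`) with Galois and
Hecke transport, the action of the decomposition group on `A((q))`, the stability of the
special fibre field under coefficientwise field homomorphisms, and the reduction of the Hecke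
norm (`es_red`).
-/

set_option autoImplicit false

noncomputable section

open HahnSeries IntermediateField AlgebraicCurve ModularCurve

namespace Fermat.Agent.P2.helper93

open Fermat.Agent.S18.helper19

/-! ## The Kummer dictionary -/

section KummerAbstract

variable {K F : Type*} [Field K] [Field F] [Algebra K F]

/-- `n • D = div h` (and `h ≠ 0`). -/
def IsRootDiv (n : ℕ) (D : Divisor K F) (h : F) : Prop :=
  h ≠ 0 ∧ ∀ P : Place K F, (n : ℤ) * D P = P.ord h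

theorem kum_exists_root {n : ℕ} {D : Divisor.degZero (K := K) (F := F)}
    (hD : n • Pic0.mk D = 0) : ∃ h : F, IsRootDiv n (D : Divisor K F) h := by
  have h1 : Pic0.mk (n • D) = 0 := hD
  have h2 := (QuotientAddGroup.eq_zero_iff _).mp h1
  rw [AddSubgroup.mem_addSubgroupOf] at h2
  obtain ⟨f, hf0, hf⟩ := h2
  refine ⟨f, hf0, fun P => ?_⟩
  rw [← hf P, AddSubgroup.coe_nsmul, Finsupp.smul_apply, nsmul_eq_mul]

theorem kum_mk_eq_zero_of_ord {E : Divisor.degZero (K := K) (F := F)} {u : F} (hu : u ≠ 0)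
    (h : ∀ P : Place K F, (E : Divisor K F) P = P.ord u) : Pic0.mk E = 0 := by
  refine (QuotientAddGroup.eq_zero_iff _).mpr ?_
  rw [AddSubgroup.mem_addSubgroupOf]
  exact ⟨u, hu, h⟩

theorem IsRootDiv.mul {n : ℕ} {D D' : Divisor K F} {h h' : F} (H : IsRootDiv n D h)
    (H' : IsRootDiv n D' h') : IsRootDiv n (D + D') (h * h') := by
  refine ⟨mul_ne_zero H.1 H'.1, fun P => ?_⟩
  rw [Finsupp.add_apply, mul_add, H.2 P, H'.2 P, P.ord_mul H.1 H'.1]

theorem IsRootDiv.inv {n : ℕ} {D : Divisor K F} {h : F} (H : IsRootDiv n D h) :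
    IsRootDiv n (-D) h⁻¹ := by
  refine ⟨inv_ne_zero H.1, fun P => ?_⟩
  rw [Finsupp.neg_apply, mul_neg, H.2 P, P.ord_inv]

theorem IsRootDiv.div {n : ℕ} {D D' : Divisor K F} {h h' : F} (H : IsRootDiv n D h)
    (H' : IsRootDiv n D' h') : IsRootDiv n (D - D') (h / h') := by
  rw [sub_eq_add_neg, div_eq_mul_inv]
  exact H.mul H'.inv

theorem IsRootDiv.pow {n : ℕ} {D : Divisor K F} {h : F} (H : IsRootDiv n D h) (m : ℕ) :
    IsRootDiv n (m • D) (h ^ m) := by
  refine ⟨pow_ne_zero _ H.1, fun P => ?_⟩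
  rw [Finsupp.smul_apply, nsmul_eq_mul, ← zpow_natCast, P.ord_zpow, ← H.2 P]
  ring

/-- Galois transport. -/
theorem IsRootDiv.smul {n : ℕ} {D : Divisor K F} {h : F} (H : IsRootDiv n D h)
    (g : SemilinearAut K F) : IsRootDiv n (g • D) (g • h) := by
  refine ⟨by simpa using H.1, fun P => ?_⟩
  rw [SemilinearAut.divisor_smul_apply, H.2 (g⁻¹ • P)]
  have h1 := SemilinearAut.ord_smul g (g⁻¹ • P) h
  rw [smul_inv_smul] at h1
  exact h1.symm

end KummerAbstract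

section KummerCorr

variable {K F F' : Type*} [Field K] [Field F] [Field F'] [Algebra K F] [Algebra K F']
variable [HasPrincipalDivisors K F']

/-- Hecke transport: the correspondence `ψ_* φ^*` on divisors corresponds to
`h ↦ Norm_ψ (φ h)` on functions. -/
theorem IsRootDiv.correspondence (φ ψ : F →ₐ[K] F') (hφ : φ.toRingHom.IsIntegral)
    (hψ : ψ.toRingHom.IsIntegral) (hfin : FiniteAlong K ψ) (hN : NormFormulaAlong K ψ hfin)
    {n : ℕ} {D : Divisor K F} {h : F} (H : IsRootDiv n D h) :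
    IsRootDiv n (Divisor.correspondence φ ψ hφ hψ D)
      (letI := algebraAlong ψ; Algebra.norm F (φ h)) := by
  letI := algebraAlong ψ
  haveI := isScalarTower_along ψ
  haveI : Module.Finite F F' := hfin
  have hφh : φ h ≠ 0 := (map_ne_zero φ).mpr H.1
  have hpull : ∀ w : Place K F', ((n : ℤ) • Divisor.pullbackAlong φ hφ D) w = w.ord (φ h) := by
    intro w
    rw [Finsupp.smul_apply, Divisor.pullbackAlong_apply, Place.ord_restrictAlong φ hφ w h,
      ← H.2 (w.restrictAlong φ hφ), smul_eq_mul]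
    ring
  refine ⟨(Algebra.norm_ne_zero_iff).mpr hφh, fun v => ?_⟩
  have h1 := hN (φ h) hφh _ hpull v
  rw [← h1, Divisor.correspondence_apply]
  have h2 : Divisor.pushforwardAlong ψ hψ ((n : ℤ) • Divisor.pullbackAlong φ hφ D)
      = (n : ℤ) • Divisor.pushforwardAlong ψ hψ (Divisor.pullbackAlong φ hφ D) :=
    map_zsmul _ _ _
  have h3 : (Divisor.pushforward F ((n : ℤ) • Divisor.pullbackAlong φ hφ D) : Divisor K F)
      = Divisor.pushforwardAlong ψ hψ ((n : ℤ) • Divisor.pullbackAlong φ hφ D) := rfl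
  rw [h3, h2, Finsupp.smul_apply, smul_eq_mul]

end KummerCorr

section NormConst

variable {K F F' : Type*} [Field K] [Field F] [Field F'] [Algebra K F] [Algebra K F']

theorem norm_along_const (α β : F →ₐ[K] F') (c : K) :
    ∃ d : ℕ, (letI := algebraAlong α; Algebra.norm F (β (algebraMap K F c)))
      = algebraMap K F (c ^ d) := by
  letI := algebraAlong α
  refine ⟨Module.finrank F F', ?_⟩
  have e : β (algebraMap K F c) = algebraMap F F' (algebraMap K F c) := by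
    rw [AlgHom.commutes]
    exact (α.commutes c).symm
  rw [e, Algebra.norm_algebraMap, map_pow]

end NormConst

section KummerModular

variable (M ℓ : ℕ) [NeZero M] [NeZero ℓ]

/-- the coefficientwise Galois action on `F_M` -/
def galF (σ : Kb ≃ₐ[ℚ] Kb) : FF M ≃+* FF M :=
  arithmeticRingAut (modularFunctionFieldFull M) σ

omit [NeZero M] [NeZero ℓ] in
theorem coe_galF (σ : Kb ≃ₐ[ℚ] Kb) (h : FF M) :
    (galF M σ h : LaurentSeries Kb) = coeffMap (σ : Kb →+* Kb) (h : LaurentSeries Kb) := rfl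

omit [NeZero M] [NeZero ℓ] in
theorem galF_algebraMap (σ : Kb ≃ₐ[ℚ] Kb) (c : Kb) :
    galF M σ (algebraMap Kb (FF M) c) = algebraMap Kb (FF M) (σ c) :=
  arithmeticRingAut_algebraMap (modularFunctionFieldFull M) σ c

/-- the Hecke norm `h ↦ Norm_{F_{Mℓ}/α F_M} (β h)` -/
def heckeNorm (h : FF M) : FF M :=
  letI := algebraAlong (heckeAlphaBar Kb M ℓ)
  Algebra.norm (FF M) (heckeBetaBar Kb M ℓ h)

theorem heckeNorm_mul (x y : FF M) :
    heckeNorm M ℓ (x * y) = heckeNorm M ℓ x * heckeNorm M ℓ y := by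
  unfold heckeNorm
  rw [map_mul, map_mul]

theorem heckeNorm_algebraMap (c : Kb) :
    ∃ d : ℕ, heckeNorm M ℓ (algebraMap Kb (FF M) c) = algebraMap Kb (FF M) (c ^ d) :=
  norm_along_const (heckeAlphaBar Kb M ℓ) (heckeBetaBar Kb M ℓ) c

theorem kum_hecke (hℓ : ℓ.Prime) (hHI : HeckeInputsAlong Kb M ℓ) {n : ℕ}
    {D : Divisor.degZero (K := Kb) (F := FF M)}
    {h : FF M} (H : IsRootDiv n (D : Divisor Kb (FF M)) h) :
    ∃ D' : Divisor.degZero (K := Kb) (F := FF M),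
      heckeOperatorBar M ⟨ℓ, hℓ⟩ (Pic0.mk D) = Pic0.mk D' ∧
      IsRootDiv n (D' : Divisor Kb (FF M)) (heckeNorm M ℓ h) := by
  obtain ⟨hα, hβ, hP, hfin, hFI, hN⟩ := hHI
  haveI := hP
  refine ⟨Pic0.degZeroCorrespondence (heckeBetaBar Kb M ℓ) (heckeAlphaBar Kb M ℓ) hβ hα hFI D,
    ?_, ?_⟩
  · have e := heckeOperatorAlong_eq (L := Kb) (N := M) (ℓ := ℓ) hα hβ hFI hfin hN
    have e2 : heckeOperatorBar M ⟨ℓ, hℓ⟩ (Pic0.mk D)
        = heckeOperatorAlong Kb M ℓ (Pic0.mk D) := rfl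
    rw [e2, e]
    rfl
  · exact H.correspondence (heckeBetaBar Kb M ℓ) (heckeAlphaBar Kb M ℓ) hβ hα hfin hN

omit [NeZero M] [NeZero ℓ] in
theorem kum_galois (σ : Kb ≃ₐ[ℚ] Kb) {n : ℕ}
    {D : Divisor.degZero (K := Kb) (F := FF M)}
    {h : FF M} (H : IsRootDiv n (D : Divisor Kb (FF M)) h) :
    ∃ D' : Divisor.degZero (K := Kb) (F := FF M),
      σ • (Pic0.mk D : JZero M) = Pic0.mk D' ∧
      IsRootDiv n (D' : Divisor Kb (FF M)) (galF M σ h) := by
  refine ⟨SemilinearAut.degZeroSMulHom (arithmeticGalois (modularFunctionFieldFull M) σ) D,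
    ?_, ?_⟩
  · rfl
  · exact H.smul (arithmeticGalois (modularFunctionFieldFull M) σ)

end KummerModular

/-! ## The decomposition group acting on `A((q))` -/

section DecompAction

variable {A : ValuationSubring Kb}

/-- the ring endomorphism of `A` induced by an element of the decomposition group -/
def decA (σ : Kb ≃ₐ[ℚ] Kb) (hσ : σ ∈ A.decompositionSubgroup ℚ) : A →+* A :=
  MulSemiringAction.toRingHom (A.decompositionSubgroup ℚ) A ⟨σ, hσ⟩

theorem coe_decA (σ : Kb ≃ₐ[ℚ] Kb) (hσ : σ ∈ A.decompositionSubgroup ℚ) (a : A) :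
    ((decA σ hσ a : A) : Kb) = σ (a : Kb) := rfl

/-- the induced endomorphism of the residue field -/
def decK (σ : Kb ≃ₐ[ℚ] Kb) (hσ : σ ∈ A.decompositionSubgroup ℚ) : kA A →+* kA A :=
  MulSemiringAction.toRingHom (A.decompositionSubgroup ℚ) (kA A) ⟨σ, hσ⟩

theorem decK_apply (σ : Kb ≃ₐ[ℚ] Kb) (hσ : σ ∈ A.decompositionSubgroup ℚ) (x : kA A) :
    decK σ hσ x = (⟨σ, hσ⟩ : A.decompositionSubgroup ℚ) • x := rfl

theorem residue_decA (σ : Kb ≃ₐ[ℚ] Kb) (hσ : σ ∈ A.decompositionSubgroup ℚ) (a : A) :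
    IsLocalRing.residue A (decA σ hσ a) = decK σ hσ (IsLocalRing.residue A a) :=
  IsLocalRing.ResidueField.residue_smul (A.decompositionSubgroup ℚ) ⟨σ, hσ⟩ a

/-- the coefficientwise action on integral series -/
def actA (σ : Kb ≃ₐ[ℚ] Kb) (hσ : σ ∈ A.decompositionSubgroup ℚ) :
    LaurentSeries A →+* LaurentSeries A :=
  coeffMap (decA σ hσ)

theorem coeffMap_subtype_actA (σ : Kb ≃ₐ[ℚ] Kb) (hσ : σ ∈ A.decompositionSubgroup ℚ)
    (Y : LaurentSeries A) :
    coeffMap A.subtype (actA σ hσ Y) = coeffMap (σ : Kb →+* Kb) (coeffMap A.subtype Y) := by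
  rw [actA, coeffMap_coeffMap, coeffMap_coeffMap]
  exact coeffMap_congr (RingHom.ext fun a => rfl) Y

theorem coeffMap_residue_actA (σ : Kb ≃ₐ[ℚ] Kb) (hσ : σ ∈ A.decompositionSubgroup ℚ)
    (Y : LaurentSeries A) :
    coeffMap (IsLocalRing.residue A) (actA σ hσ Y)
      = coeffMap (decK σ hσ) (coeffMap (IsLocalRing.residue A) Y) := by
  rw [actA, coeffMap_coeffMap, coeffMap_coeffMap]
  exact coeffMap_congr (RingHom.ext fun a => residue_decA σ hσ a) Y

theorem decK_eq_id_of_mem_inertia {σ : Kb ≃ₐ[ℚ] Kb} (h : σ ∈ A.inertiaSubgroupIn ℚ) :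
    ∃ hσ : σ ∈ A.decompositionSubgroup ℚ, decK σ hσ = RingHom.id (kA A) := by
  obtain ⟨τ, hτ, rfl⟩ := Subgroup.mem_map.mp h
  refine ⟨τ.2, RingHom.ext fun x => ?_⟩
  have h1 : MulSemiringAction.toRingAut (A.decompositionSubgroup ℚ) (kA A) τ = 1 :=
    MonoidHom.mem_ker.mp hτ
  have h2 := congrArg (fun e : RingAut (kA A) => e x) h1
  exact h2

theorem decK_eq_frobenius_of_isFrobeniusAt {σ : Kb ≃ₐ[ℚ] Kb} {ℓ : ℕ} [Fact ℓ.Prime]
    [CharP (kA A) ℓ] (h : A.IsFrobeniusAt σ ℓ) :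
    ∃ hσ : σ ∈ A.decompositionSubgroup ℚ, decK σ hσ = frobenius (kA A) ℓ := by
  obtain ⟨hσ, hx⟩ := h
  exact ⟨hσ, RingHom.ext fun x => (hx x).trans (frobenius_def ℓ x).symm⟩

end DecompAction

/-! ## Coefficientwise field homomorphisms preserve the special fibre field -/

section FullC

theorem cw_coeffMap_injective {R S : Type*} [CommRing R] [CommRing S] (f : R →+* S)
    (hf : Function.Injective f) : Function.Injective (coeffMap f) := by
  intro x y h
  ext k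
  have := congrArg (fun z => z.coeff k) h
  simp only [coeffMap_coeff] at this
  exact hf this

theorem coeffMap_mem_fullC {k k' : Type*} [Field k] [Field k'] (φ : k →+* k') (N : ℕ)
    {x : LaurentSeries k} (hx : x ∈ modularFunctionFieldFullC k N) :
    coeffMap φ x ∈ modularFunctionFieldFullC k' N := by
  unfold modularFunctionFieldFullC at hx
  induction hx using IntermediateField.adjoin_induction with
  | mem x hx =>
    obtain ⟨d, hd0, hd, rfl⟩ := hx
    haveI := hd0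
    have e : coeffMap φ (qExpand k d (jqModC k)) = qExpand k' d (jqModC k') := by
      rw [Fermat.Agent.P2.helper94.coeffMap_qExpand, coeffMap_jqModC]
    rw [e]
    exact jqModCd_mem_full k' N hd
  | algebraMap c =>
    rw [algebraMap_laurentSeries_eq_single, coeffMap_single,
      ← algebraMap_laurentSeries_eq_single]
    exact (modularFunctionFieldFullC k' N).algebraMap_mem _
  | add x y _ _ hx hy => rw [map_add]; exact add_mem hx hy
  | inv x _ hx => rw [map_inv₀]; exact inv_mem hx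
  | mul x y _ _ hx hy => rw [map_mul]; exact mul_mem hx hy

end FullC

/-! ## Functions with good reduction, and quotients of such -/

section Rep

variable {A : ValuationSubring Kb} {N : ℕ}

/-- `y ∈ F_N` has an `A`-integral `q`-expansion whose reduction is the nonzero element `yb` of
the special fibre field. -/
def Lifts (A : ValuationSubring Kb) (N : ℕ) (y : FF N) (yb : LaurentSeries (kA A)) : Prop :=
  ∃ Y : LaurentSeries A, coeffMap A.subtype Y = (y : LaurentSeries Kb) ∧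
    coeffMap (IsLocalRing.residue A) Y = yb ∧ yb ∈ FFb A N ∧ yb ≠ 0

theorem Lifts.mem {y : FF N} {yb : LaurentSeries (kA A)} (h : Lifts A N y yb) :
    yb ∈ FFb A N := by
  obtain ⟨Y, -, -, m, -⟩ := h
  exact m

theorem Lifts.bar_ne_zero {y : FF N} {yb : LaurentSeries (kA A)} (h : Lifts A N y yb) :
    yb ≠ 0 := by
  obtain ⟨Y, -, -, -, n0⟩ := h
  exact n0

theorem Lifts.ne_zero {y : FF N} {yb : LaurentSeries (kA A)} (h : Lifts A N y yb) :
    y ≠ 0 := by
  obtain ⟨Y, e1, e2, -, n0⟩ := h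
  rintro rfl
  have h1 : coeffMap A.subtype Y = coeffMap A.subtype 0 := by
    rw [e1, map_zero]; rfl
  have h2 : Y = 0 := coeffMap_subtype_injective h1
  rw [h2, map_zero] at e2
  exact n0 e2.symm

theorem Lifts.mul {y y' : FF N} {yb yb' : LaurentSeries (kA A)} (h : Lifts A N y yb)
    (h' : Lifts A N y' yb') : Lifts A N (y * y') (yb * yb') := by
  obtain ⟨Y, e1, e2, m, n0⟩ := h
  obtain ⟨Y', e1', e2', m', n0'⟩ := h'
  refine ⟨Y * Y', ?_, ?_, mul_mem m m', mul_ne_zero n0 n0'⟩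
  · rw [map_mul, e1, e1']; rfl
  · rw [map_mul, e2, e2']

theorem Lifts.pow {y : FF N} {yb : LaurentSeries (kA A)} (h : Lifts A N y yb) (m : ℕ) :
    Lifts A N (y ^ m) (yb ^ m) := by
  obtain ⟨Y, e1, e2, hm, n0⟩ := h
  refine ⟨Y ^ m, ?_, ?_, pow_mem hm m, pow_ne_zero m n0⟩
  · rw [map_pow, e1]; rfl
  · rw [map_pow, e2]

theorem Lifts.gal (σ : Kb ≃ₐ[ℚ] Kb) (hσ : σ ∈ A.decompositionSubgroup ℚ) {y : FF N}
    {yb : LaurentSeries (kA A)} (h : Lifts A N y yb) :
    Lifts A N (galF N σ y) (coeffMap (decK σ hσ) yb) := by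
  obtain ⟨Y, e1, e2, hm, n0⟩ := h
  refine ⟨actA σ hσ Y, ?_, ?_, coeffMap_mem_fullC _ N hm, ?_⟩
  · rw [coeffMap_subtype_actA, e1, coe_galF]
  · rw [coeffMap_residue_actA, e2]
  · intro h0
    exact n0 (cw_coeffMap_injective _ (decK σ hσ).injective (h0.trans (map_zero _).symm))

theorem Lifts.hecke [NeZero N] (ℓ : ℕ) [NeZero ℓ] [Fact ℓ.Prime] (hN : ¬ ℓ ∣ N)
    (hA : A.LiesOverPrime ℓ) [CharP (kA A) ℓ] {y : FF N} {a : LaurentSeries (kA A)}
    (ha : a ∈ FFb A N) (h : Lifts A N y (coeffMap (frobenius (kA A) ℓ) a)) :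
    Lifts A N (heckeNorm N ℓ y)
      (a ^ ℓ * coeffMap (frobenius (kA A) ℓ) (coeffMap (frobenius (kA A) ℓ) a)) := by
  obtain ⟨Y, e1, e2, hm, n0⟩ := h
  have hY : coeffMap A.subtype Y ∈ FF N := by rw [e1]; exact y.2
  obtain ⟨Y', e1', e2'⟩ := es_red N ℓ hN A hA Y hY
  have hy : (⟨coeffMap A.subtype Y, hY⟩ : FF N) = y := Subtype.ext e1
  have ha0 : a ≠ 0 := by
    rintro rfl
    exact n0 (map_zero _)
  refine ⟨Y', ?_, ?_, ?_, ?_⟩
  · rw [e1', hy]; rfl
  · rw [e2', e2, Fermat.Agent.P2.helper94.laurent_pow_char ℓ a]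
  · exact mul_mem (pow_mem ha ℓ) (coeffMap_mem_fullC _ N hm)
  · exact mul_ne_zero (pow_ne_zero ℓ ha0) (fun h0 => n0
      (cw_coeffMap_injective _ (frobenius (kA A) ℓ).injective (h0.trans (map_zero _).symm)))

/-- `h = c · y₁ / y₂` with `c` a nonzero constant and `y₁`, `y₂` of good reduction `a`, `b`. -/
def Rep (A : ValuationSubring Kb) (N : ℕ) (h : FF N) (a b : LaurentSeries (kA A)) : Prop :=
  ∃ (c : Kb) (y₁ y₂ : FF N), c ≠ 0 ∧ Lifts A N y₁ a ∧ Lifts A N y₂ b ∧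
    algebraMap Kb (FF N) c * y₁ = h * y₂

theorem Rep.mem_left {h : FF N} {a b : LaurentSeries (kA A)} (H : Rep A N h a b) :
    a ∈ FFb A N := by
  obtain ⟨c, y₁, y₂, -, l₁, -, -⟩ := H
  exact l₁.mem

theorem Rep.mem_right {h : FF N} {a b : LaurentSeries (kA A)} (H : Rep A N h a b) :
    b ∈ FFb A N := by
  obtain ⟨c, y₁, y₂, -, -, l₂, -⟩ := H
  exact l₂.mem

theorem Rep.ne_zero {h : FF N} {a b : LaurentSeries (kA A)} (H : Rep A N h a b) : h ≠ 0 := by
  obtain ⟨c, y₁, y₂, hc, l₁, l₂, e⟩ := H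
  rintro rfl
  rw [zero_mul] at e
  have hc' : algebraMap Kb (FF N) c ≠ 0 := (map_ne_zero _).mpr hc
  exact mul_ne_zero hc' l₁.ne_zero e

theorem Rep.mul {h h' : FF N} {a b a' b' : LaurentSeries (kA A)} (H : Rep A N h a b)
    (H' : Rep A N h' a' b') : Rep A N (h * h') (a * a') (b * b') := by
  obtain ⟨c, y₁, y₂, hc, l₁, l₂, e⟩ := H
  obtain ⟨c', y₁', y₂', hc', l₁', l₂', e'⟩ := H'
  refine ⟨c * c', y₁ * y₁', y₂ * y₂', mul_ne_zero hc hc', l₁.mul l₁', l₂.mul l₂', ?_⟩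
  rw [map_mul, mul_mul_mul_comm, e, e', mul_mul_mul_comm]

theorem Rep.inv {h : FF N} {a b : LaurentSeries (kA A)} (H : Rep A N h a b) :
    Rep A N h⁻¹ b a := by
  have hh := H.ne_zero
  obtain ⟨c, y₁, y₂, hc, l₁, l₂, e⟩ := H
  refine ⟨c⁻¹, y₂, y₁, inv_ne_zero hc, l₂, l₁, ?_⟩
  have hc' : algebraMap Kb (FF N) c ≠ 0 := (map_ne_zero _).mpr hc
  rw [map_inv₀]
  field_simp
  rw [mul_comm]
  exact e.symm

theorem Rep.div {h h' : FF N} {a b a' b' : LaurentSeries (kA A)} (H : Rep A N h a b)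
    (H' : Rep A N h' a' b') : Rep A N (h / h') (a * b') (b * a') := by
  rw [div_eq_mul_inv]
  exact H.mul H'.inv

theorem Rep.pow {h : FF N} {a b : LaurentSeries (kA A)} (H : Rep A N h a b) (m : ℕ) :
    Rep A N (h ^ m) (a ^ m) (b ^ m) := by
  obtain ⟨c, y₁, y₂, hc, l₁, l₂, e⟩ := H
  refine ⟨c ^ m, y₁ ^ m, y₂ ^ m, pow_ne_zero m hc, l₁.pow m, l₂.pow m, ?_⟩
  rw [map_pow, ← mul_pow, e, mul_pow]

theorem Rep.gal (σ : Kb ≃ₐ[ℚ] Kb) (hσ : σ ∈ A.decompositionSubgroup ℚ) {h : FF N}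
    {a b : LaurentSeries (kA A)} (H : Rep A N h a b) :
    Rep A N (galF N σ h) (coeffMap (decK σ hσ) a) (coeffMap (decK σ hσ) b) := by
  obtain ⟨c, y₁, y₂, hc, l₁, l₂, e⟩ := H
  refine ⟨σ c, galF N σ y₁, galF N σ y₂, (map_ne_zero σ).mpr hc, l₁.gal σ hσ, l₂.gal σ hσ, ?_⟩
  rw [← galF_algebraMap, ← map_mul, e, map_mul]

theorem Rep.hecke [NeZero N] (ℓ : ℕ) [NeZero ℓ] [Fact ℓ.Prime] (hN : ¬ ℓ ∣ N)
    (hA : A.LiesOverPrime ℓ) [CharP (kA A) ℓ] {h : FF N} {a b : LaurentSeries (kA A)}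
    (ha : a ∈ FFb A N) (hb : b ∈ FFb A N)
    (H : Rep A N h (coeffMap (frobenius (kA A) ℓ) a) (coeffMap (frobenius (kA A) ℓ) b)) :
    Rep A N (heckeNorm N ℓ h)
      (a ^ ℓ * coeffMap (frobenius (kA A) ℓ) (coeffMap (frobenius (kA A) ℓ) a))
      (b ^ ℓ * coeffMap (frobenius (kA A) ℓ) (coeffMap (frobenius (kA A) ℓ) b)) := by
  obtain ⟨c, y₁, y₂, hc, l₁, l₂, e⟩ := H
  obtain ⟨d, hd⟩ := heckeNorm_algebraMap N ℓ c
  refine ⟨c ^ d, heckeNorm N ℓ y₁, heckeNorm N ℓ y₂, pow_ne_zero d hc,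
    l₁.hecke ℓ hN hA ha, l₂.hecke ℓ hN hA hb, ?_⟩
  rw [← hd, ← heckeNorm_mul, e, heckeNorm_mul]

end Rep

/-! ## Applying (INJ) -/

section Inj

variable {A : ValuationSubring Kb} {N : ℕ} [NeZero N]

theorem inj_apply {m : ℕ} (hinj : InjStatement N A m) {f : FF N} {a : LaurentSeries (kA A)}
    (hrep : Rep A N f a a) (hord : ∀ P : Place Kb (FF N), (m : ℤ) ∣ P.ord f) :
    ∃ (c : Kb) (u : FF N), f = algebraMap Kb (FF N) c * u ^ m := by
  have hf := hrep.ne_zero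
  obtain ⟨c, y₁, y₂, hc, ⟨Y₁, e1, e2, m1, n1⟩, ⟨Y₂, e1', e2', m2, n2⟩, e⟩ := hrep
  have hc' : algebraMap Kb (FF N) c ≠ 0 := (map_ne_zero _).mpr hc
  have hci : algebraMap Kb (FF N) c⁻¹ ≠ 0 := (map_ne_zero _).mpr (inv_ne_zero hc)
  have hf' : algebraMap Kb (FF N) c⁻¹ * f ≠ 0 := mul_ne_zero hci hf
  have hy : y₁ = algebraMap Kb (FF N) c⁻¹ * f * y₂ := by
    rw [mul_assoc, ← e, ← mul_assoc, ← map_mul, inv_mul_cancel₀ hc, map_one, one_mul]
  obtain ⟨c', u, hcu⟩ := hinj (algebraMap Kb (FF N) c⁻¹ * f) hf'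
    (fun P => by
      rw [P.ord_mul hci hf, Fermat.Agent.S24.helper75.place_ord_algebraMap, zero_add]
      exact hord P)
    ⟨Y₁, Y₂, ⟨by rw [e1]; exact y₁.2, by rw [e2]; exact m1, by rw [e2]; exact n1⟩,
      ⟨by rw [e1']; exact y₂.2, by rw [e2']; exact m2, by rw [e2']; exact n2⟩,
      by rw [e1, e1', hy]; rfl, by rw [e2, e2']⟩
  refine ⟨c * c', u, ?_⟩
  rw [map_mul, mul_assoc, ← hcu, ← mul_assoc, ← map_mul, mul_inv_cancel₀ hc, map_one, one_mul]

theorem mk_eq_zero_of_rep {m : ℕ} (hm : m ≠ 0) (hinj : InjStatement N A m)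
    {E : Divisor.degZero (K := Kb) (F := FF N)} {f : FF N} {a : LaurentSeries (kA A)}
    (H : IsRootDiv m (E : Divisor Kb (FF N)) f) (hrep : Rep A N f a a) :
    Pic0.mk E = 0 := by
  obtain ⟨c, u, hcu⟩ := inj_apply hinj hrep (fun P => ⟨_, (H.2 P).symm⟩)
  have hf := H.1
  have hc : algebraMap Kb (FF N) c ≠ 0 := by
    rintro h0
    rw [h0, zero_mul] at hcu
    exact hf hcu
  have hu : u ≠ 0 := by
    rintro rfl
    rw [zero_pow hm, mul_zero] at hcu
    exact hf hcu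
  refine kum_mk_eq_zero_of_ord hu (fun P => ?_)
  have h1 := H.2 P
  rw [hcu, P.ord_mul hc (pow_ne_zero m hu), Fermat.Agent.S24.helper75.place_ord_algebraMap,
    zero_add, ← zpow_natCast, P.ord_zpow] at h1
  exact mul_left_cancel₀ (Nat.cast_ne_zero.mpr hm) h1

end Inj

/-! ## The hypothesis (H-VAL') -/

section Val

/-- **(H-VAL')** every nonzero function of `F_N` is a constant times a quotient of two good
`A`-integral `q`-series. -/
def GoodQuotStatement (N : ℕ) (A : ValuationSubring Kb) : Prop :=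
  ∀ h : FF N, h ≠ 0 → ∃ (c : Kb) (Y₁ Y₂ : LaurentSeries A), c ≠ 0 ∧ IsGood A N Y₁ ∧
    IsGood A N Y₂ ∧
    algebraMap Kb (LaurentSeries Kb) c * coeffMap A.subtype Y₁
      = (h : LaurentSeries Kb) * coeffMap A.subtype Y₂

theorem GoodQuotStatement.rep {N : ℕ} {A : ValuationSubring Kb} (H : GoodQuotStatement N A)
    (h : FF N) (hh : h ≠ 0) : ∃ a b : LaurentSeries (kA A), Rep A N h a b := by
  obtain ⟨c, Y₁, Y₂, hc, g₁, g₂, e⟩ := H h hh
  refine ⟨_, _, c, toF g₁, toF g₂, hc, ⟨Y₁, rfl, rfl, g₁.2.1, g₁.2.2⟩,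
    ⟨Y₂, rfl, rfl, g₂.2.1, g₂.2.2⟩, Subtype.ext ?_⟩
  exact e

/-- the Prelude's `PrincipalGeneratedByIntegral` implies (H-VAL') -/
theorem goodQuotStatement_of_principalGenerated (N : ℕ) [NeZero N] (A : ValuationSubring Kb)
    (hgen : PrincipalGeneratedByIntegral A (IsLocalRing.residue A) N) :
    GoodQuotStatement N A := by
  intro h hh
  obtain ⟨Y₁, Y₂, g₁, g₂, e⟩ := exists_good_quotient hgen h hh
  have h1 := toF_ne_zero g₁
  have h2 := toF_ne_zero g₂
  obtain ⟨c, hc⟩ := const_of_ord_eq_zero N (h * toF g₂ / toF g₁) (fun P => by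
    rw [div_eq_mul_inv, P.ord_mul (mul_ne_zero hh h2) (inv_ne_zero h1), P.ord_mul hh h2,
      P.ord_inv, e P]
    ring)
  have hc0 : c ≠ 0 := by
    rintro rfl
    rw [map_zero] at hc
    exact div_ne_zero (mul_ne_zero hh h2) h1 hc.symm
  refine ⟨c, Y₁, Y₂, hc0, g₁, g₂, ?_⟩
  have h3 : algebraMap Kb (FF N) c * toF g₁ = h * toF g₂ := by
    rw [hc]
    field_simp
  exact congrArg Subtype.val h3

end Val

/-! ## The main theorem -/

section Main

open Fermat.Agent.P3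

/-- **P2-CORE, operator form, from (INJ)**. -/
theorem p2Core_of (M p : ℕ) [NeZero M]
    (hINJ : ∀ ℓ : ℕ, ℓ.Prime → ¬ ℓ ∣ M * p → ∀ A : ValuationSubring Kb, A.LiesOverPrime ℓ →
      ∀ n : ℕ, InjStatement M A (p ^ n))
    (hVAL : ∀ ℓ : ℕ, ℓ.Prime → ¬ ℓ ∣ M * p → ∀ A : ValuationSubring Kb, A.LiesOverPrime ℓ →
      GoodQuotStatement M A)
    (hHI : ∀ (ℓ : ℕ) [NeZero ℓ], ℓ.Prime → ¬ ℓ ∣ M * p → HeckeInputsAlong Kb M ℓ) :
    P2CoreStatement M p := by
  intro ℓ hℓ hℓMp A hA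
  haveI : Fact ℓ.Prime := ⟨hℓ⟩
  haveI : NeZero ℓ := ⟨hℓ.ne_zero⟩
  haveI : CharP (kA A) ℓ := charP_residueField hℓ hA
  have hp0 : p ≠ 0 := by
    rintro rfl
    exact hℓMp (by rw [mul_zero]; exact dvd_zero ℓ)
  have hℓM : ¬ ℓ ∣ M := fun h => hℓMp (Dvd.dvd.mul_right h p)
  refine ⟨?_, ?_⟩
  · -- (UNR)
    rintro σ hσ x ⟨n, hx⟩
    obtain ⟨D, rfl⟩ := Pic0.mk_surjective x
    obtain ⟨h, H⟩ := kum_exists_root hx
    obtain ⟨D', e', H'⟩ := kum_galois M σ H
    obtain ⟨hσ', hid⟩ := decK_eq_id_of_mem_inertia hσ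
    obtain ⟨a, b, R⟩ := (hVAL ℓ hℓ hℓMp A hA).rep h H.1
    have R' := R.gal σ hσ'
    rw [hid, coeffMap_id, coeffMap_id] at R'
    have R2 := R'.div R
    rw [mul_comm b a] at R2
    have H2 : IsRootDiv (p ^ n) ((D' - D : Divisor.degZero (K := Kb) (F := FF M)) :
        Divisor Kb (FF M)) (galF M σ h / h) := by
      rw [AddSubgroup.coe_sub]
      exact H'.div H
    have key := mk_eq_zero_of_rep (pow_ne_zero n hp0) (hINJ ℓ hℓ hℓMp A hA n) H2 R2
    rw [e']
    exact sub_eq_zero.mp key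
  · -- (ES)
    rintro σ hF x ⟨n, hx⟩
    obtain ⟨D, rfl⟩ := Pic0.mk_surjective x
    obtain ⟨h, H⟩ := kum_exists_root hx
    obtain ⟨D1, e1, H1⟩ := kum_galois M σ H
    obtain ⟨D2, e2, H2⟩ := kum_galois M σ H1
    obtain ⟨D3, e3, H3⟩ := kum_hecke M ℓ hℓ (hHI ℓ hℓ hℓMp) H1
    obtain ⟨hσ', hfr⟩ := decK_eq_frobenius_of_isFrobeniusAt (ℓ := ℓ) hF
    obtain ⟨a, b, R⟩ := (hVAL ℓ hℓ hℓMp A hA).rep h H.1
    have R1 := R.gal σ hσ'
    have R2 := R1.gal σ hσ'
    rw [hfr] at R1 R2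
    have R3 := Rep.hecke ℓ hℓM hA R.mem_left R.mem_right R1
    have R4 := (R2.div R3).mul (R.pow ℓ)
    have E4 : IsRootDiv (p ^ n) ((D2 - D3 + ℓ • D : Divisor.degZero (K := Kb) (F := FF M)) :
        Divisor Kb (FF M))
        (galF M σ (galF M σ h) / heckeNorm M ℓ (galF M σ h) * h ^ ℓ) := by
      rw [AddSubgroup.coe_add, AddSubgroup.coe_sub, AddSubgroup.coe_nsmul]
      exact (H2.div H3).mul (H.pow ℓ)
    have hab : coeffMap (frobenius (kA A) ℓ) (coeffMap (frobenius (kA A) ℓ) a) *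
          (b ^ ℓ * coeffMap (frobenius (kA A) ℓ) (coeffMap (frobenius (kA A) ℓ) b)) * a ^ ℓ
        = coeffMap (frobenius (kA A) ℓ) (coeffMap (frobenius (kA A) ℓ) b) *
          (a ^ ℓ * coeffMap (frobenius (kA A) ℓ) (coeffMap (frobenius (kA A) ℓ) a)) * b ^ ℓ := by
      ring
    rw [hab] at R4
    have key := mk_eq_zero_of_rep (pow_ne_zero n hp0) (hINJ ℓ hℓ hℓMp A hA n) E4 R4
    rw [e1, e2, e3]
    exact key

end Main

end Fermat.Agent.P2.helper93
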