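import Mathlib
import Fermat.Agent.P2.helper93_CoreWire
import Fermat.Agent.P2.helper29_Interface
import Fermat.Agent.P3.helper58_HeckeInputs

/-!
# P2 [K] (helper93): `KummerWiringStatement` in the shape of BLUEPRINT P2 v1

`kummerWiring` : `helper29.KummerWiringStatement M p` from `helper29.ScaleStatement M A`
([VAL-SC]) alone; `HeckeInputsAlong` is helper58's `heckeInputsAlong_bar`.
`p2Core_of_inj_scale` : the same with the hypotheses spelled out.
-/

set_option autoImplicit false

noncomputable section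

open HahnSeries IntermediateField AlgebraicCurve ModularCurve

namespace Fermat.Agent.P2.helper93

open Fermat.Agent.S18.helper19

/-- [VAL-SC] in the Interface shape gives (H-VAL'). -/
theorem goodQuotStatement_of_scale (M : ℕ) [NeZero M] (A : ValuationSubring Kb)
    (h : Fermat.Agent.P2.helper29.ScaleStatement M A) : GoodQuotStatement M A :=
  fun f hf => h (f : LaurentSeries Kb) f.2 (fun h0 => hf (Subtype.ext h0))

/-- (H-VAL') gives [VAL-SC] in the Interface shape. -/
theorem scale_of_goodQuotStatement (M : ℕ) [NeZero M] (A : ValuationSubring Kb)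
    (h : GoodQuotStatement M A) : Fermat.Agent.P2.helper29.ScaleStatement M A :=
  fun f hf hf0 => h ⟨f, hf⟩ (fun h0 => hf0 (congrArg Subtype.val h0))

/-- **P2-CORE (operator form) from (INJ) and [VAL-SC]**; `HeckeInputsAlong` is unconditional. -/
theorem p2Core_of_inj_scale (M p : ℕ) [NeZero M]
    (hINJ : ∀ ℓ : ℕ, ℓ.Prime → ¬ ℓ ∣ M * p → ∀ A : ValuationSubring Kb, A.LiesOverPrime ℓ →
      ∀ n : ℕ, InjStatement M A (p ^ n))
    (hSC : ∀ ℓ : ℕ, ℓ.Prime → ¬ ℓ ∣ M * p → ∀ A : ValuationSubring Kb, A.LiesOverPrime ℓ →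
      Fermat.Agent.P2.helper29.ScaleStatement M A) :
    Fermat.Agent.P3.P2CoreStatement M p :=
  p2Core_of M p hINJ
    (fun ℓ hℓ hℓMp A hA => goodQuotStatement_of_scale M A (hSC ℓ hℓ hℓMp A hA))
    (fun ℓ _ _ _ => Fermat.Agent.P3.helper58.heckeInputsAlong_bar M ℓ)

/-- **[K]** in the shape of the P2 interface. -/
theorem kummerWiring (M p : ℕ) [NeZero M]
    (hSC : ∀ ℓ : ℕ, ℓ.Prime → ¬ ℓ ∣ M * p → ∀ A : ValuationSubring Kb, A.LiesOverPrime ℓ →
      Fermat.Agent.P2.helper29.ScaleStatement M A) :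
    Fermat.Agent.P2.helper29.KummerWiringStatement M p :=
  fun hINJ => p2Core_of_inj_scale M p hINJ hSC

end Fermat.Agent.P2.helper93
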