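import Mathlib
import Fermat.Agent.P2.helper93_KummerWiring
import Fermat.Agent.P2.helper81_ValScale

/-!
# P2 [K] (helper93): `KummerWiringStatement M p`, UNCONDITIONAL

`kummerWiringStatement M p : helper29.KummerWiringStatement M p`, i.e.

  `(∀ ℓ ∤ M p, ∀ A ∣ ℓ, ∀ n, InjStatement M A (p ^ n)) → P2CoreStatement M p`

for every level `M` and every `p`: [VAL-SC] is helper81's `scaleStatement`, the Hecke inputs are
helper58's `heckeInputsAlong_bar`.
-/

set_option autoImplicit false

noncomputable section

open HahnSeries IntermediateField AlgebraicCurve ModularCurve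

namespace Fermat.Agent.P2.helper93

open Fermat.Agent.S18.helper19

/-- **[K]**, unconditional: the operator form of P2-CORE follows from (INJ) at the same level. -/
theorem kummerWiringStatement (M p : ℕ) [NeZero M] :
    Fermat.Agent.P2.helper29.KummerWiringStatement M p :=
  kummerWiring M p (fun ℓ hℓ hℓMp A hA =>
    Fermat.Agent.P2.helper81.scaleStatement M A
      ⟨ℓ, hℓ, fun h => hℓMp (Dvd.dvd.mul_right h p), hA⟩)

/-- **P2-CORE (operator form) from (INJ) alone.** -/
theorem p2Core_of_inj (M p : ℕ) [NeZero M]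
    (hINJ : ∀ ℓ : ℕ, ℓ.Prime → ¬ ℓ ∣ M * p → ∀ A : ValuationSubring Kb, A.LiesOverPrime ℓ →
      ∀ n : ℕ, InjStatement M A (p ^ n)) :
    Fermat.Agent.P3.P2CoreStatement M p :=
  kummerWiringStatement M p hINJ

end Fermat.Agent.P2.helper93
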