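import Mathlib
import Fermat.Agent.P2.helper29_Interface
import Fermat.Agent.P2.helper74_RiemannSep
import Fermat.Agent.S28.helper81_Laurent

/-!
# P2-[FFl-INST] (helper95, task 585): the special fibre field is a function field of one variable

UNCONDITIONAL, for EVERY level `N` and EVERY valuation subring `A` of `ℚ̄` (no hypothesis
`PrimeToLevel`, no input from P2-VAL):

* `isAlgClosed_residueField`     : the residue field of a valuation ring of an algebraically
                                   closed field is algebraically closed;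
* `exists_reduced_relation`      : reduction of a polynomial relation between integral series;
* `transcendental_jBar`          : `j̄` is transcendental over `k = kA A`;
* `finiteDimensional_jBar`       : `FFb A N` is finite over `k(j̄)`;
* `exists_separating_FFb`        : `FFb A N` has a separating element `y`
                                   (`FFb A N / k(y)` finite separable; `y` is NOT claimed to be `j̄`);
* `riemannSetting_FFb`           : `helper74.RiemannSetting (kA A) (FFb A N)`;
* `hasPrincipalDivisors_FFb`, `deg_eq_one_FFb`, `nonempty_place_FFb`;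
* `riemannBar`                   : `helper29.RiemannBarStatement N A` (Interface shape);
* `constBar`                     : `helper19.ConstBarStatement N A`.

Route: the monic relation of `j(q^d)` over `ℚ̄[j]` (S24, `helper77.formal_relation`) is scaled to a
primitive relation over `A` and reduced; a finitely generated extension of transcendence degree
one of a perfect field has a separating element (Mathlib); then `helper95_FFl2` / `helper74`.
-/

set_option autoImplicit false

noncomputable section

open IntermediateField Polynomial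

namespace Fermat.Agent.P2.helper95

section ResidueField

variable {K : Type*} [Field K]

/-- The residue field of a valuation ring of an algebraically closed field is algebraically
closed. -/
theorem isAlgClosed_residueField [IsAlgClosed K] (A : ValuationSubring K) :
    IsAlgClosed (IsLocalRing.ResidueField A) := by
  apply IsAlgClosed.of_exists_root
  intro p hp hirr
  -- lift `p` to a monic polynomial over `A`
  have hsurj : Function.Surjective (IsLocalRing.residue A) := IsLocalRing.residue_surjective
  obtain ⟨P, hPmap, hPdeg, hPmonic⟩ :=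
    Polynomial.lifts_and_degree_eq_and_monic
      ((Polynomial.mem_lifts _).mpr (Polynomial.map_surjective _ hsurj p)) hp
  -- a root in `K`
  have hdeg : (P.map A.subtype).degree ≠ 0 := by
    rw [Polynomial.degree_map_eq_of_injective A.subtype_injective, hPdeg]
    exact (Polynomial.degree_pos_of_irreducible hirr).ne'
  obtain ⟨x, hx⟩ := IsAlgClosed.exists_root (P.map A.subtype) hdeg
  -- it is integral over `A`, hence in `A`
  have hint : IsIntegral A x := by
    refine ⟨P, hPmonic, ?_⟩
    rw [Polynomial.IsRoot, Polynomial.eval_map] at hx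
    exact hx
  obtain ⟨y, hy⟩ := IsIntegrallyClosed.isIntegral_iff.mp hint
  refine ⟨IsLocalRing.residue A y, ?_⟩
  rw [← hPmap, Polynomial.eval_map, Polynomial.eval₂_hom]
  have h0 : P.eval y = 0 := by
    apply A.subtype_injective
    rw [map_zero, ← Polynomial.eval₂_hom]
    rw [Polynomial.IsRoot, Polynomial.eval_map] at hx
    rw [← hy] at hx
    exact hx
  rw [h0, map_zero]

end ResidueField

section Separating

variable {k F : Type*} [Field k] [Field F] [Algebra k F]

/-- A function field of one variable over a perfect field has a separating element. -/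
theorem exists_separating_of_finiteDimensional [PerfectField k] (x : F)
    (hx : Transcendental k x) [FiniteDimensional k⟮x⟯ F] :
    ∃ y : F, Transcendental k y ∧ FiniteDimensional k⟮y⟯ F ∧ Algebra.IsSeparable k⟮y⟯ F := by
  classical
  haveI h1 : Algebra.EssFiniteType k k⟮x⟯ :=
    IntermediateField.essFiniteType_iff.mpr ⟨{x}, by simp⟩
  haveI h2 : Algebra.EssFiniteType k F := Algebra.EssFiniteType.comp k k⟮x⟯ F
  obtain ⟨s, hs, hsep⟩ := exists_isTranscendenceBasis_and_isSeparable_of_perfectField k F
  -- `{x}` is a transcendence basis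
  have hxb : IsTranscendenceBasis k (fun _ : Unit => x) := by
    have hai : AlgebraicIndependent k (fun _ : Unit => x) :=
      algebraicIndependent_unique_type_iff.mpr hx
    rw [hai.isTranscendenceBasis_iff_isAlgebraic]
    have hr : Set.range (fun _ : Unit => x) = {x} := by
      ext z; simp [eq_comm]
    rw [hr, ← IntermediateField.isAlgebraic_adjoin_iff_top]
    exact Algebra.IsAlgebraic.of_finite _ _
  -- hence `s` has exactly one element
  have hcard : s.card = 1 := by
    have h := hs.lift_cardinalMk_eq hxb
    simpa using h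
  obtain ⟨y, rfl⟩ := Finset.card_eq_one.mp hcard
  have hadj : IntermediateField.adjoin k ((({y} : Finset F) : Set F)) = k⟮y⟯ := by
    rw [Finset.coe_singleton]
  rw [hadj] at hsep
  have hy : Transcendental k y := by
    have h := hs.1.transcendental ⟨y, Finset.mem_singleton_self y⟩
    exact h
  haveI : Algebra.EssFiniteType k⟮y⟯ F := Algebra.EssFiniteType.of_comp k k⟮y⟯ F
  haveI : Algebra.IsAlgebraic k⟮y⟯ F := Algebra.IsSeparable.isAlgebraic _ _
  exact ⟨y, hy, Algebra.finite_of_essFiniteType_of_isAlgebraic, hsep⟩

end Separating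


section Reduce

open ModularCurve

variable {K : Type*} [Field K] (A : ValuationSubring K)

/-- The constant series. -/
theorem algebraMap_laurent_eq_single {R : Type*} [CommRing R] (c : R) :
    algebraMap R (LaurentSeries R) c = HahnSeries.single 0 c := by
  have h1 : algebraMap R (PowerSeries R) c = PowerSeries.C c := by
    simp
  rw [HahnSeries.algebraMap_apply', h1, HahnSeries.ofPowerSeries_C]
  rfl

/-- Constants commute with coefficientwise maps. -/
theorem coeffMap_comp_algebraMap {R S : Type*} [CommRing R] [CommRing S] (f : R →+* S) :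
    (coeffMap f).comp (algebraMap R (LaurentSeries R)) =
      (algebraMap S (LaurentSeries S)).comp f := by
  ext r : 1
  simp only [RingHom.comp_apply]
  rw [algebraMap_laurent_eq_single, algebraMap_laurent_eq_single, coeffMap_single]

/-- `coeffMap` commutes with the evaluation of polynomials. -/
theorem coeffMap_aeval {R S : Type*} [CommRing R] [CommRing S] (f : R →+* S)
    (x : LaurentSeries R) (p : Polynomial R) :
    coeffMap f (Polynomial.aeval x p) = Polynomial.aeval (coeffMap f x) (p.map f) :=
  Polynomial.map_aeval_eq_aeval_map (coeffMap_comp_algebraMap f).symm p x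

/-- **Reduction of an algebraic relation.**  A nontrivial polynomial relation between two
integral series over `K` gives a nontrivial polynomial relation between their reductions. -/
theorem exists_reduced_relation (x y : LaurentSeries A) (n : ℕ) (q : ℕ → Polynomial K)
    (k₀ : ℕ) (hk₀ : k₀ ∈ Finset.range (n + 1)) (hq₀ : q k₀ ≠ 0)
    (hrel : ∑ i ∈ Finset.range (n + 1),
      Polynomial.aeval (coeffMap A.subtype x) (q i) * coeffMap A.subtype y ^ i = 0) :
    ∃ (qb : ℕ → Polynomial (IsLocalRing.ResidueField A)) (k₁ : ℕ),
      k₁ ∈ Finset.range (n + 1) ∧ qb k₁ ≠ 0 ∧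
      ∑ i ∈ Finset.range (n + 1),
        Polynomial.aeval (coeffMap (IsLocalRing.residue A) x) (qb i) *
          coeffMap (IsLocalRing.residue A) y ^ i = 0 := by
  classical
  -- the finite set of all coefficients
  set T : Finset K := (Finset.range (n + 1)).biUnion fun i => (q i).coeffs with hT
  have hTne : T.Nonempty := by
    obtain ⟨j, hj⟩ : ∃ j, (q k₀).coeff j ≠ 0 := by
      by_contra h
      push Not at h
      exact hq₀ (Polynomial.ext fun j => by rw [h j, Polynomial.coeff_zero])
    exact ⟨(q k₀).coeff j, Finset.mem_biUnion.mpr ⟨k₀, hk₀, Polynomial.coeff_mem_coeffs hj⟩⟩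
  obtain ⟨c₀, hc₀T, hmax⟩ := T.exists_max_image (fun c => A.valuation c) hTne
  obtain ⟨k₁, hk₁, hc₀k⟩ := Finset.mem_biUnion.mp hc₀T
  obtain ⟨j₁, -, hj₁⟩ := Polynomial.mem_coeffs_iff.mp hc₀k
  have hc₀ : c₀ ≠ 0 := by
    have := Polynomial.mem_coeffs_iff.mp hc₀k
    obtain ⟨j, hj, rfl⟩ := this
    exact Polynomial.mem_support_iff.mp hj
  -- all scaled coefficients are integral
  have hint : ∀ i ∈ Finset.range (n + 1), ∀ j, c₀⁻¹ * (q i).coeff j ∈ A := by
    intro i hi j
    rw [← A.valuation_le_one_iff, map_mul, map_inv₀]
    by_cases h0 : (q i).coeff j = 0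
    · rw [h0, map_zero, mul_zero]; exact zero_le_one
    · have hle := hmax ((q i).coeff j)
        (Finset.mem_biUnion.mpr ⟨i, hi, Polynomial.coeff_mem_coeffs h0⟩)
      have hv : A.valuation c₀ ≠ 0 := (Valuation.ne_zero_iff _).mpr hc₀
      rw [inv_mul_le_iff₀ (zero_lt_iff.mpr hv), mul_one]
      exact hle
  -- lift the scaled polynomials to `A[X]`
  have hlift : ∀ i, ∃ a : Polynomial A, i ∈ Finset.range (n + 1) →
      a.map A.subtype = Polynomial.C c₀⁻¹ * q i := by
    intro i
    by_cases hi : i ∈ Finset.range (n + 1)
    · have hmem : Polynomial.C c₀⁻¹ * q i ∈ Polynomial.lifts A.subtype := by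
        rw [Polynomial.lifts_iff_coeff_lifts]
        intro j
        rw [Polynomial.coeff_C_mul]
        exact ⟨⟨_, hint i hi j⟩, rfl⟩
      obtain ⟨a, ha⟩ := (Polynomial.mem_lifts _).mp hmem
      exact ⟨a, fun _ => ha⟩
    · exact ⟨0, fun h => absurd h hi⟩
  choose a ha using hlift
  -- the relation over `A`
  have hrelA : ∑ i ∈ Finset.range (n + 1), Polynomial.aeval x (a i) * y ^ i = 0 := by
    apply Fermat.Agent.S28.helper81.coeffMap_injective' A.subtype A.subtype_injective
    rw [map_sum, map_zero]
    have h1 : ∀ i ∈ Finset.range (n + 1),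
        coeffMap A.subtype (Polynomial.aeval x (a i) * y ^ i) =
          algebraMap K (LaurentSeries K) c₀⁻¹ *
            (Polynomial.aeval (coeffMap A.subtype x) (q i) * coeffMap A.subtype y ^ i) := by
      intro i hi
      rw [map_mul, map_pow, coeffMap_aeval, ha i hi, map_mul, Polynomial.aeval_C, mul_assoc]
    rw [Finset.sum_congr rfl h1, ← Finset.mul_sum, hrel, mul_zero]
  refine ⟨fun i => (a i).map (IsLocalRing.residue A), k₁, hk₁, ?_, ?_⟩
  · -- the coefficient `j₁` of `a k₁` is `1`
    intro h0
    have h1 : (a k₁).coeff j₁ = 1 := by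
      apply A.subtype_injective
      have := congrArg (fun p => Polynomial.coeff p j₁) (ha k₁ hk₁)
      simp only [Polynomial.coeff_map, Polynomial.coeff_C_mul] at this
      rw [← hj₁] at this
      rw [this, inv_mul_cancel₀ hc₀, map_one]
    have h2 := congrArg (fun p => Polynomial.coeff p j₁) h0
    simp only [Polynomial.coeff_map, Polynomial.coeff_zero] at h2
    rw [h1, map_one] at h2
    exact one_ne_zero h2
  · have h2 := congrArg (coeffMap (IsLocalRing.residue A)) hrelA
    rw [map_sum, map_zero] at h2
    rw [← h2]
    refine Finset.sum_congr rfl fun i _ => ?_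
    rw [map_mul, map_pow, coeffMap_aeval]

end Reduce

section Relation

open Polynomial

variable {k F : Type*} [Field k] [Field F] [Algebra k F]

/-- A nontrivial polynomial relation of `f` over `k[x]`, `x` transcendental, shows that `f` is
algebraic over `k(x)`. -/
theorem isAlgebraic_adjoin_of_relation (x f : F) (hx : Transcendental k x) (n : ℕ)
    (q : ℕ → Polynomial k) (k₁ : ℕ) (hk₁ : k₁ ∈ Finset.range (n + 1)) (hq₁ : q k₁ ≠ 0)
    (hq : ∑ i ∈ Finset.range (n + 1), aeval x (q i) * f ^ i = 0) :
    IsAlgebraic k⟮x⟯ f := by
  let c : ℕ → k⟮x⟯ := fun i => aeval (IntermediateField.AdjoinSimple.gen k x) (q i)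
  have hc : ∀ i, algebraMap k⟮x⟯ F (c i) = aeval x (q i) := by
    intro i
    show algebraMap k⟮x⟯ F (aeval (IntermediateField.AdjoinSimple.gen k x) (q i)) = aeval x (q i)
    rw [← Polynomial.aeval_algebraMap_apply, IntermediateField.AdjoinSimple.algebraMap_gen]
  refine ⟨∑ i ∈ Finset.range (n + 1), monomial i (c i), ?_, ?_⟩
  · intro h
    have h1 := congrArg (fun Q : Polynomial k⟮x⟯ => Q.coeff k₁) h
    simp only [finsetSum_coeff, coeff_monomial, coeff_zero] at h1
    rw [Finset.sum_eq_single k₁] at h1
    · simp only [if_true] at h1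
      have h2 : aeval x (q k₁) = 0 := by rw [← hc, h1, map_zero]
      exact hq₁ ((transcendental_iff.mp hx) _ h2)
    · intro i _ hi
      rw [if_neg hi]
    · intro h0
      exact absurd hk₁ h0
  · rw [map_sum, ← hq]
    refine Finset.sum_congr rfl fun i _ => ?_
    rw [aeval_monomial, hc]

end Relation

section Modular

open ModularCurve AlgebraicCurve HahnSeries
open Fermat.Agent.S18.helper19 Fermat.Agent.S24

variable (N : ℕ) [NeZero N] (A : ValuationSubring Kb)

/-- `j̄` is transcendental over the residue field. -/
theorem transcendental_jBar :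
    Transcendental (kA A) (Fermat.Agent.P2.helper29.jBar A N) := by
  have h : Transcendental (kA A) (jqModC (kA A)) :=
    Fermat.Agent.S28.helper81.transcendental_of_order_neg _
      (by rw [Fermat.Agent.S28.helper81.order_jqModC]; norm_num)
  intro halg
  apply h
  have := halg.algHom (FFb A N).val
  exact this

/-- The generators `j̄(q^d)`, `d ∣ N`, of the special fibre field. -/
def genBar (i : N.divisors) : FFb A N :=
  haveI : NeZero i.1 := ⟨(Nat.pos_of_mem_divisors i.2).ne'⟩
  ⟨qExpand (kA A) i.1 (jqModC (kA A)),
    jqModCd_mem_full (kA A) N (Nat.dvd_of_mem_divisors i.2)⟩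

theorem adjoin_genBar_eq_top :
    IntermediateField.adjoin (kA A) (Set.range (genBar N A)) = ⊤ := by
  apply IntermediateField.lift_injective (FFb A N)
  rw [IntermediateField.lift_adjoin, IntermediateField.lift_top]
  show IntermediateField.adjoin (kA A) _ = modularFunctionFieldFullC (kA A) N
  rw [modularFunctionFieldFullC]
  congr 1
  ext x
  constructor
  · rintro ⟨_, ⟨i, rfl⟩, rfl⟩
    haveI : NeZero i.1 := ⟨(Nat.pos_of_mem_divisors i.2).ne'⟩
    exact ⟨i.1, inferInstance, Nat.dvd_of_mem_divisors i.2, rfl⟩
  · rintro ⟨d, hd, hdvd, rfl⟩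
    exact ⟨genBar N A ⟨d, Nat.mem_divisors.mpr ⟨hdvd, NeZero.ne N⟩⟩, ⟨_, rfl⟩, rfl⟩

/-- The relation between `j` and `j(q^d)` in characteristic `0`, with integral series. -/
theorem exists_relation_char_zero (d : ℕ) [NeZero d] (hd : d ∣ N) :
    ∃ (n : ℕ) (q : ℕ → Polynomial Kb), q n = 1 ∧
      ∑ i ∈ Finset.range (n + 1),
        Polynomial.aeval (coeffMap A.subtype (jqModC A)) (q i) *
          coeffMap A.subtype (qExpand A d (jqModC A)) ^ i = 0 := by
  obtain ⟨q, hq1, hq⟩ := helper77.formal_relation N
    (MvPolynomial.X ⟨d, Nat.mem_divisors.mpr ⟨hd, NeZero.ne N⟩⟩)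
  refine ⟨_, q, hq1, ?_⟩
  rw [MvPolynomial.aeval_X] at hq
  have e1 : coeffEmb Kbar jq = coeffMap A.subtype (jqModC A) := by
    rw [coeffEmb, ← jqModC_rat, ModularCurve.coeffMap_jqModC, ModularCurve.coeffMap_jqModC]
  have e2 : helper24.genJ N ⟨d, Nat.mem_divisors.mpr ⟨hd, NeZero.ne N⟩⟩ =
      coeffMap A.subtype (qExpand A d (jqModC A)) := by
    rw [helper24.genJ, helper24.JdT_eq_coeffEmb, coeffEmb,
      Fermat.Agent.S28.helper81.coeffMap_qExpand, Fermat.Agent.S28.helper81.coeffMap_qExpand,
      ← jqModC_rat, ModularCurve.coeffMap_jqModC, ModularCurve.coeffMap_jqModC]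
  rw [e1, e2] at hq
  exact hq

/-- every generator is algebraic over `k(j̄)` -/
theorem isAlgebraic_genBar (i : N.divisors) :
    IsAlgebraic (kA A)⟮Fermat.Agent.P2.helper29.jBar A N⟯ (genBar N A i) := by
  haveI : NeZero i.1 := ⟨(Nat.pos_of_mem_divisors i.2).ne'⟩
  obtain ⟨n, q, hq1, hq⟩ := exists_relation_char_zero N A i.1 (Nat.dvd_of_mem_divisors i.2)
  obtain ⟨qb, k₁, hk₁, hqb, hrel⟩ := exists_reduced_relation A (jqModC A)
    (qExpand A i.1 (jqModC A)) n q n (Finset.mem_range.mpr (Nat.lt_succ_self n))
    (by rw [hq1]; exact one_ne_zero) hq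
  rw [Fermat.Agent.S28.helper81.coeffMap_qExpand, ModularCurve.coeffMap_jqModC] at hrel
  refine isAlgebraic_adjoin_of_relation _ _ (transcendental_jBar N A) n qb k₁ hk₁ hqb ?_
  have hinj : Function.Injective
      ((FFb A N).val : FFb A N →ₐ[kA A] LaurentSeries (kA A)) := Subtype.val_injective
  apply hinj
  rw [map_sum, map_zero, ← hrel]
  refine Finset.sum_congr rfl fun j _ => ?_
  rw [map_mul, map_pow, ← Polynomial.aeval_algHom_apply]
  rfl

/-- The special fibre field is finite over `k(j̄)`. -/
theorem finiteDimensional_jBar :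
    FiniteDimensional (kA A)⟮Fermat.Agent.P2.helper29.jBar A N⟯ (FFb A N) := by
  have halg : ∀ y ∈ Set.range (genBar N A),
      IsAlgebraic (kA A)⟮Fermat.Agent.P2.helper29.jBar A N⟯ y := by
    rintro _ ⟨i, rfl⟩
    exact isAlgebraic_genBar N A i
  have htop : IntermediateField.adjoin (kA A)⟮Fermat.Agent.P2.helper29.jBar A N⟯
      (Set.range (genBar N A)) = ⊤ :=
    IntermediateField.adjoin_eq_top_of_adjoin_eq_top (kA A) (adjoin_genBar_eq_top N A)
  have h1 : FiniteDimensional (kA A)⟮Fermat.Agent.P2.helper29.jBar A N⟯
      (IntermediateField.adjoin (kA A)⟮Fermat.Agent.P2.helper29.jBar A N⟯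
        (Set.range (genBar N A))) :=
    IntermediateField.finiteDimensional_adjoin fun y hy => (halg y hy).isIntegral
  rw [htop] at h1
  exact (IntermediateField.topEquiv (F := (kA A)⟮Fermat.Agent.P2.helper29.jBar A N⟯)
    (E := FFb A N)).toLinearEquiv.finiteDimensional

end Modular

section Final

open ModularCurve AlgebraicCurve
open Fermat.Agent.S18.helper19

variable (N : ℕ) [NeZero N] (A : ValuationSubring Kb)

/-- The special fibre field has a separating element (any level, any `A`). -/
theorem exists_separating_FFb :
    ∃ y : FFb A N, Transcendental (kA A) y ∧ FiniteDimensional (kA A)⟮y⟯ (FFb A N) ∧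
      Algebra.IsSeparable (kA A)⟮y⟯ (FFb A N) := by
  haveI := isAlgClosed_residueField A
  haveI := finiteDimensional_jBar N A
  exact exists_separating_of_finiteDimensional (Fermat.Agent.P2.helper29.jBar A N)
    (transcendental_jBar N A)

/-- **[FFl-INST]** the special fibre field is a `RiemannSetting` (any level, any `A`). -/
theorem riemannSetting_FFb : Fermat.Agent.P2.helper74.RiemannSetting (kA A) (FFb A N) := by
  haveI := isAlgClosed_residueField A
  obtain ⟨y, hy, hfd, hsep⟩ := exists_separating_FFb N A
  exact Fermat.Agent.P2.helper74.riemannSetting_of_separating y hy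

/-- **[FFl-INST]** principal divisors of the special fibre field. -/
theorem hasPrincipalDivisors_FFb : HasPrincipalDivisors (kA A) (FFb A N) :=
  (riemannSetting_FFb N A).principal

/-- **[FFl-INST]** all places of the special fibre field have degree `1`. -/
theorem deg_eq_one_FFb (v : Place (kA A) (FFb A N)) : v.deg = 1 :=
  (riemannSetting_FFb N A).deg_one v

/-- **[FFl-INST]** the special fibre field has a place. -/
theorem nonempty_place_FFb : Nonempty (Place (kA A) (FFb A N)) :=
  (riemannSetting_FFb N A).nonempty

/-- **[RIE-ℓ]** Riemann's theorem for the special fibre field, Interface shape. -/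
theorem riemannBar : Fermat.Agent.P2.helper29.RiemannBarStatement N A := by
  haveI := isAlgClosed_residueField A
  obtain ⟨y, hy, hfd, hsep⟩ := exists_separating_FFb N A
  obtain ⟨g, hg⟩ := Fermat.Agent.P2.helper74.exists_hasRiemannGenus y hy
  exact ⟨g, fun D => hg.ineq (riemannSetting_FFb N A) D, hg⟩

/-- **(E1)** `ConstBarStatement`: a function of the special fibre field without zeros and
poles is constant (any level, any `A`). -/
theorem constBar : ConstBarStatement N A := by
  intro y hy hord
  exact Fermat.Agent.P2.helper74.exists_eq_algebraMap_of_forall_ord_nonneg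
    (riemannSetting_FFb N A) (fun v => (hord v).ge)

end Final

end Fermat.Agent.P2.helper95

end
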