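/-
P2-[GEN] (helper96): genus equality and surjectivity of the reduction on `L(n ∞)`.

* `IsInfty.eq`, `inL_iff_mem_L` : bridge between `helper29.InL` and the Riemann–Roch space of
  `n • ∞` (generic in the base field).
* `LSub P n` : `L(n P)` as a subspace of the Laurent series; its dimension.
* `genusBarLe_of` : semicontinuity half `g̃ ≤ g` of genus equality.
* `genusEq_of`, `surjRed_of` : `helper29.GenusEqStatement`, `helper29.SurjRedStatement`.
-/
import Mathlib
import Fermat.Agent.P2.helper96_GenDefs
import Fermat.Agent.P2.helper74_PivotLaurent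
import Fermat.Agent.P2.helper74_RiemannChar0

set_option autoImplicit false
set_option synthInstance.maxHeartbeats 200000

noncomputable section

open HahnSeries IntermediateField AlgebraicCurve ModularCurve
open Fermat.Agent.S18.helper19 Fermat.Agent.P2.helper29

namespace Fermat.Agent.P2.helper96

/-! ### The bridge `InL` ↔ `L(n ∞)` -/

section Bridge

variable {K : Type*} [Field K] {E : IntermediateField K (LaurentSeries K)}

/-- The place at infinity is unique. -/
theorem IsInfty.eq {P P' : Place K E} (h : IsInfty P) (h' : IsInfty P') : P = P' := by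
  apply Place.ext
  ext x
  rw [Fermat.Agent.S24.helper82.mem_iff_ord_nonneg, Fermat.Agent.S24.helper82.mem_iff_ord_nonneg]
  rcases eq_or_ne x 0 with rfl | hx
  · simp
  · rw [h x hx, h' x hx]

/-- `InL E n` is membership in the Riemann–Roch space of `n • ∞`. -/
theorem inL_iff_mem_L {P : Place K E} (hP : IsInfty P) (n : ℤ) (f : LaurentSeries K) :
    InL E n f ↔ ∃ hf : f ∈ E, (⟨f, hf⟩ : E) ∈ riemannRochSpace (Finsupp.single P n) := by
  classical
  constructor
  · rintro ⟨hf, h1, h2⟩
    refine ⟨hf, ?_⟩
    rw [mem_riemannRochSpace_iff]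
    intro v
    by_cases h0 : (⟨f, hf⟩ : E) = 0
    · exact Or.inl h0
    right
    have hf0 : f ≠ 0 := fun h => h0 (Subtype.ext h)
    by_cases hv : v = P
    · subst hv
      rw [Finsupp.single_eq_same, hP _ h0]
      by_contra hlt
      push Not at hlt
      exact hf0 (HahnSeries.coeff_order_eq_zero.mp (h2 _ hlt))
    · rw [Finsupp.single_apply, if_neg (Ne.symm hv), neg_zero]
      exact h1 v (fun hv' => hv (IsInfty.eq hv' hP))
  · rintro ⟨hf, h⟩
    rw [mem_riemannRochSpace_iff] at h
    refine ⟨hf, ?_, ?_⟩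
    · intro v hv
      have hvP : v ≠ P := fun e => hv (e ▸ hP)
      rcases h v with h0 | h1
      · rw [h0]; simp
      · rwa [Finsupp.single_apply, if_neg (Ne.symm hvP), neg_zero] at h1
    · intro k hk
      by_cases h0 : (⟨f, hf⟩ : E) = 0
      · have hf0 : f = 0 := congrArg Subtype.val h0
        rw [hf0]; simp
      · rcases h P with h0' | h1
        · exact absurd h0' h0
        · rw [Finsupp.single_eq_same, hP _ h0] at h1
          exact HahnSeries.coeff_eq_zero_of_lt_order (lt_of_lt_of_le hk h1)

/-- the inclusion `E → K((q))` as a linear map (for the Hahn series module structure) -/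
def valLin (E : IntermediateField K (LaurentSeries K)) : E →ₗ[K] LaurentSeries K where
  toFun x := (x : LaurentSeries K)
  map_add' _ _ := rfl
  map_smul' c x := by
    rw [RingHom.id_apply, ← HahnSeries.C_mul_eq_smul, Algebra.smul_def]
    show algebraMap K (LaurentSeries K) c * (x : LaurentSeries K) =
      HahnSeries.C c * (x : LaurentSeries K)
    rw [algebraMap_laurentSeries_eq_single]
    rfl

@[simp] theorem valLin_apply (x : E) : valLin E x = (x : LaurentSeries K) := rfl

theorem valLin_injective : Function.Injective (valLin E) := fun _ _ h => Subtype.ext h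

/-- `L(n P)` as a subspace of the Laurent series. -/
def LSub (P : Place K E) (n : ℤ) : Submodule K (LaurentSeries K) :=
  (riemannRochSpace (Finsupp.single P n)).map (valLin E)

theorem mem_LSub_iff {P : Place K E} (hP : IsInfty P) (n : ℤ) (f : LaurentSeries K) :
    f ∈ LSub P n ↔ InL E n f := by
  rw [inL_iff_mem_L hP, LSub, Submodule.mem_map]
  constructor
  · rintro ⟨x, hx, rfl⟩
    exact ⟨x.2, hx⟩
  · rintro ⟨hf, h⟩
    exact ⟨⟨f, hf⟩, h, rfl⟩

/-- the linear equivalence `L(n P) ≃ LSub P n` -/
def equivLSub (P : Place K E) (n : ℤ) :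
    riemannRochSpace (Finsupp.single P n) ≃ₗ[K] LSub P n :=
  Submodule.equivMapOfInjective (valLin E) valLin_injective _

theorem finrank_LSub (P : Place K E) (n : ℤ) :
    Module.finrank K (LSub P n) = helper74.ell (Finsupp.single P n) :=
  (equivLSub P n).finrank_eq.symm

theorem finite_LSub (hS : helper74.RiemannSetting K E) (P : Place K E) (n : ℤ) :
    Module.Finite K (LSub P n) :=
  haveI := helper74.finiteDimensional_L hS (Finsupp.single P n)
  Module.Finite.equiv (equivLSub P n)

/-- the dimension of `L(n ∞)` for large `n` -/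
theorem exists_finrank_LSub (hS : helper74.RiemannSetting K E) {g : ℕ}
    (hg : helper29.HasRiemannGenus K E g) (P : Place K E) :
    ∃ c : ℤ, ∀ n : ℤ, c ≤ n → (Module.finrank K (LSub P n) : ℤ) + g = n + 1 := by
  obtain ⟨-, c, hc⟩ := hg
  refine ⟨c, fun n hn => ?_⟩
  have hdeg : Divisor.degree (Finsupp.single P n) = n := by
    rw [Divisor.degree_single, hS.deg_one P]
    simp
  rw [finrank_LSub]
  have := hc (Finsupp.single P n) (by rw [hdeg]; exact hn)
  rw [hdeg] at this
  exact this

end Bridge

/-! ### The integral basis of `L(n ∞)` and its reduction -/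

section Core

variable {M : ℕ} [NeZero M] {A : ValuationSubring Kb}

theorem isUnit_of_residue_ne_zero (x : A) (h : IsLocalRing.residue A x ≠ 0) : IsUnit x := by
  by_contra hx
  exact h ((IsLocalRing.residue_eq_zero_iff x).mpr ((IsLocalRing.mem_maximalIdeal x).mpr hx))

/-- the `RiemannSetting` of the characteristic zero function field -/
theorem riemannSetting_FF (M : ℕ) [NeZero M] : helper74.RiemannSetting Kb (FF M) :=
  haveI := Fermat.Agent.S24.helper77.an_finiteDimensional M
  helper74.riemannSetting_charZero (Fermat.Agent.S24.xJ M)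
    (Fermat.Agent.S24.helper77.an_transcendental M)

/-- every nonzero element of `L(n ∞)` has a scalar multiple with integral `q`-expansion and
nonzero reduction -/
theorem exists_scaled (hSc : ScaleStatement M A) (hInt : IntegralityStatement M A)
    {P : Place Kb (FF M)} (hP : IsInfty P) (n : ℤ)
    (u : LaurentSeries Kb) (hu : u ∈ LSub P n) (hu0 : u ≠ 0) :
    ∃ c : Kb, c ≠ 0 ∧ ∃ Y : LaurentSeries A,
      coeffMap A.subtype Y = c • u ∧ coeffMap (IsLocalRing.residue A) Y ≠ 0 := by
  have huL : InL (FF M) n u := (mem_LSub_iff hP n u).mp hu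
  obtain ⟨hmem, -⟩ := huL
  obtain ⟨c, Y₁, Y₂, hc, hY₁, hY₂, e⟩ := hSc u hmem hu0
  have hu' : InL (FF M) n (c⁻¹ • u) := (mem_LSub_iff hP n _).mp (Submodule.smul_mem _ _ hu)
  have e' : incl A Y₁ = (c⁻¹ • u) * incl A Y₂ := by
    rw [← HahnSeries.C_mul_eq_smul, mul_assoc, ← e, algebraMap_laurentSeries_eq_single,
      ← HahnSeries.C_apply, ← mul_assoc, ← map_mul, inv_mul_cancel₀ hc, map_one, one_mul]
  obtain ⟨Y, hY⟩ := hInt n _ hu' ⟨Y₁, Y₂, hY₁.1, hY₂, e'⟩
  refine ⟨c⁻¹, inv_ne_zero hc, Y, hY, ?_⟩
  intro h0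
  have h1 : Y * Y₂ = Y₁ := by
    apply helper74.coeffMap_subtype_injective A
    rw [map_mul, hY]
    exact e'.symm
  have h2 := congrArg (coeffMap (IsLocalRing.residue A)) h1
  rw [map_mul, h0, zero_mul] at h2
  exact hY₁.2.2 h2.symm

/-- an integral basis of `L(n ∞)` whose reductions are linearly independent elements of
`L(n ∞̃)` -/
theorem exists_family (hSc : ScaleStatement M A) (hInt : IntegralityStatement M A)
    (hReg : RegRedStatement M A)
    {P : Place Kb (FF M)} (hP : IsInfty P) {Q : Place (kA A) (FFb A M)} (hQ : IsInfty Q)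
    (n : ℤ) :
    ∃ Y : Fin (Module.finrank Kb (LSub P n)) → LaurentSeries A,
      (∀ i, incl A (Y i) ∈ LSub P n) ∧
      LinearIndependent (kA A) (fun i => red A (Y i)) ∧
      (∀ i, red A (Y i) ∈ LSub Q n) := by
  haveI := finite_LSub (riemannSetting_FF M) P n
  obtain ⟨Y, hYV, -, -, hYred⟩ := helper74.exists_integral_basis A (IsLocalRing.residue A)
    isUnit_of_residue_ne_zero (LSub P n) (fun u hu hu0 => exists_scaled hSc hInt hP n u hu hu0)
  refine ⟨Y, hYV, helper74.linearIndependent_coeffMap_of_forall A _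
    IsLocalRing.residue_surjective Y hYred, fun i => ?_⟩
  exact (mem_LSub_iff hQ n _).mpr (hReg n (Y i) ((mem_LSub_iff hP n _).mp (hYV i)))

/-- semicontinuity of `dim L(n ∞)` -/
theorem finrank_LSub_le (hSc : ScaleStatement M A) (hInt : IntegralityStatement M A)
    (hReg : RegRedStatement M A) (hSb : helper74.RiemannSetting (kA A) (FFb A M))
    {P : Place Kb (FF M)} (hP : IsInfty P) {Q : Place (kA A) (FFb A M)} (hQ : IsInfty Q)
    (n : ℤ) :
    Module.finrank Kb (LSub P n) ≤ Module.finrank (kA A) (LSub Q n) := by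
  obtain ⟨Y, -, hli, hmem⟩ := exists_family hSc hInt hReg hP hQ n
  haveI := finite_LSub hSb Q n
  have hspan : Submodule.span (kA A) (Set.range fun i => red A (Y i)) ≤ LSub Q n :=
    Submodule.span_le.mpr (by rintro _ ⟨i, rfl⟩; exact hmem i)
  have h1 := Submodule.finrank_mono hspan
  rw [finrank_span_eq_card hli, Fintype.card_fin] at h1
  exact h1

/-- **[GEN-A]** the semicontinuity half of genus equality: `g̃ ≤ g`. -/
theorem genusBarLe_of (hInf : InftyStatement M A) (hSc : ScaleStatement M A)
    (hInt : IntegralityStatement M A) (hReg : RegRedStatement M A)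
    (hSb : helper74.RiemannSetting (kA A) (FFb A M)) : GenusBarLeStatement M A := by
  intro g gb hg hgb
  obtain ⟨⟨P, hP⟩, ⟨Q, hQ⟩⟩ := hInf
  obtain ⟨c, hc⟩ := exists_finrank_LSub (riemannSetting_FF M) hg P
  obtain ⟨cb, hcb⟩ := exists_finrank_LSub hSb hgb Q
  have h1 := hc (max c cb) (le_max_left _ _)
  have h2 := hcb (max c cb) (le_max_right _ _)
  have h3 := finrank_LSub_le hSc hInt hReg hSb hP hQ (max c cb)
  have h4 : (Module.finrank Kb (LSub P (max c cb)) : ℤ) ≤
      (Module.finrank (kA A) (LSub Q (max c cb)) : ℤ) := by exact_mod_cast h3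
  omega

/-- **[GEN]** genus equality from the two halves. -/
theorem genusEq_of (hR : RiemannStatement M) (hRb : RiemannBarStatement M A)
    (hA : GenusBarLeStatement M A) (hB : GenusLeBarStatement M A) : GenusEqStatement M A := by
  obtain ⟨g, hg⟩ := hR
  obtain ⟨gb, hgb⟩ := hRb
  have e : g = gb := le_antisymm (hB g gb hg hgb) (hA g gb hg hgb)
  exact ⟨g, hg, e ▸ hgb⟩

/-- **[SURJ]** for large `n` every element of `L(n ∞̃)` is the reduction of an integral element
of `L(n ∞)`. -/
theorem surjRed_of (hInf : InftyStatement M A) (hSc : ScaleStatement M A)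
    (hInt : IntegralityStatement M A) (hReg : RegRedStatement M A)
    (hSb : helper74.RiemannSetting (kA A) (FFb A M)) (hGen : GenusEqStatement M A) :
    SurjRedStatement M A := by
  obtain ⟨g, hg, hgb⟩ := hGen
  obtain ⟨⟨P, hP⟩, ⟨Q, hQ⟩⟩ := hInf
  obtain ⟨c, hc⟩ := exists_finrank_LSub (riemannSetting_FF M) hg P
  obtain ⟨cb, hcb⟩ := exists_finrank_LSub hSb hgb Q
  refine ⟨max c cb, fun n hn y hy => ?_⟩
  have h1 := hc n (le_trans (le_max_left _ _) hn)
  have h2 := hcb n (le_trans (le_max_right _ _) hn)
  have hfr : Module.finrank Kb (LSub P n) = Module.finrank (kA A) (LSub Q n) := by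
    have : (Module.finrank Kb (LSub P n) : ℤ) = (Module.finrank (kA A) (LSub Q n) : ℤ) := by
      omega
    exact_mod_cast this
  obtain ⟨Y, hYV, hli, hmem⟩ := exists_family hSc hInt hReg hP hQ n
  haveI := finite_LSub hSb Q n
  have hspan : Submodule.span (kA A) (Set.range fun i => red A (Y i)) = LSub Q n := by
    apply Submodule.eq_of_le_of_finrank_eq
      (Submodule.span_le.mpr (by rintro _ ⟨i, rfl⟩; exact hmem i))
    rw [finrank_span_eq_card hli, Fintype.card_fin, hfr]
  have hy' : y ∈ Submodule.span (kA A) (Set.range fun i => red A (Y i)) := by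
    rw [hspan]
    exact (mem_LSub_iff hQ n y).mpr hy
  obtain ⟨cf, hcf⟩ := (Submodule.mem_span_range_iff_exists_fun _).mp hy'
  choose a ha using fun i => IsLocalRing.residue_surjective (cf i)
  refine ⟨∑ i, a i • Y i, ?_, ?_⟩
  · apply (mem_LSub_iff hP n _).mp
    rw [helper74.coeffMap_subtype_sum]
    exact Submodule.sum_mem _ (fun i _ => Submodule.smul_mem _ _ (hYV i))
  · rw [← hcf, map_sum]
    refine Finset.sum_congr rfl fun i _ => ?_
    ext m
    simp [ha]

end Core

end Fermat.Agent.P2.helper96

end
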