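/-
P2-CORE (helper29, sub-coordinator): FINAL ASSEMBLY, conditional on the packages which are still
open (`OpenLeaves M A ℓ`).

* `hurwitzCount_FFb`      : Hurwitz inequality in count form for the special fibre field.
* `genusFormulaStatement` : the Riemann genus of `F_M` is `genusFormula M` (all levels).
* `genusEq_of_leaves`, `surjRed_of_leaves`, `pivot_of_leaves`, `root_of_leaves`.
* `inj_of_leaves`         : `InjStatement M A m` at a good pair, `ℓ ∤ m`.
* `p2Core_of_leaves`      : `P2CoreStatement M p` at a good level.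
-/
import Mathlib
import Fermat.Agent.P2.helper29_Assembly
import Fermat.Agent.P2.helper29_Infty
import Fermat.Agent.P2.helper96_Gen
import Fermat.Agent.P2.helper68_GenB
import Fermat.Agent.P2.helper74_PivotFinal
import Fermat.Agent.P2.helper74_RieInst
import Fermat.Agent.P2.helper44_RootAsm
import Fermat.Agent.P2.helper81_ValInt
import Fermat.Agent.P2.helper81_ValScale
import Fermat.Agent.P2.helper95_FFlInst
import Fermat.Agent.P2.helper39_Hurwitz
import Fermat.Agent.P2.helper77_GenusFormula2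
import Fermat.Agent.P2.helper18_DiscSideEq
import Fermat.Agent.P2.helper93_KummerFinal

set_option autoImplicit false
set_option synthInstance.maxHeartbeats 400000

noncomputable section

open HahnSeries IntermediateField AlgebraicCurve ModularCurve
open Fermat.Agent.S18.helper19

namespace Fermat.Agent.P2.helper29

/-- **[RH]** Hurwitz inequality in count form for the special fibre field (all levels, all `A`). -/
theorem hurwitzCount_FFb (M : ℕ) [NeZero M] (A : ValuationSubring Kb) :
    helper96.HurwitzCount (kA A) (FFb A M) := by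
  have : IsAlgClosed (kA A) := helper95.isAlgClosed_residueField A
  intro t ht hfd hsep g hg C Z Zinf hZ hZinf
  exact helper39.hurwitz_inequality_fibres t ht hg C Z hZ Zinf hZinf

/-- **[RH-EQ0]** the Riemann genus of `F_M` is `genusFormula M` (all levels). -/
theorem genusFormulaStatement (M : ℕ) [NeZero M] : GenusFormulaStatement M :=
  helper77.genusFormulaStatement_of_discSideEq M
    (fun t ht _ _ hs _ _ _ w u d huw C Z hZ Zinf hZinf hunr => by
      have h := helper18.disc_side_eq t ht hs w u d huw C Z hZ Zinf hZinf hunr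
      rwa [Fintype.card_fin] at h)

/-- The packages of BLUEPRINT P2 which are still open, for a pair `(M, A)` over `ℓ`. -/
structure OpenLeaves (M : ℕ) [NeZero M] (A : ValuationSubring Kb) (ℓ : ℕ) : Prop where
  regRed : RegRedStatement M A
  cuspBar : CuspBarStatement M A
  tameBase : TameBaseStatement M A
  idealStep : ∀ m : ℕ, ¬ ℓ ∣ m → IdealStepStatement M A m
  rootInput : ∀ m : ℕ, ¬ ℓ ∣ m → ∀ (H : LaurentSeries A) (n : ℤ), InL (FF M) n (incl A H) →
    red A H = 1 → DivDvd M m (incl A H) → helper44.RootInput A m H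

section Leaves

variable {M : ℕ} [NeZero M] {A : ValuationSubring Kb} {ℓ : ℕ}

/-- **[GEN]** genus equality at a good pair. -/
theorem genusEq_of_leaves (hM : 4 ∣ M ∨ 9 ∣ M) (hℓ : ℓ.Prime) (hℓM : ¬ ℓ ∣ M)
    (hA : A.LiesOverPrime ℓ) (hReg : RegRedStatement M A) (hCusp : CuspBarStatement M A)
    (hTame : TameBaseStatement M A) : GenusEqStatement M A :=
  helper96.genusEq_of (helper74.riemannStatement M) (helper95.riemannBar M A)
    (helper96.genusBarLe_of (inftyStatement M A) (helper81.scaleStatement M A ⟨ℓ, hℓ, hℓM, hA⟩)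
      (helper81.integralityStatement M A ⟨ℓ, hℓ, hℓM, hA⟩) hReg (helper95.riemannSetting_FFb M A))
    (helper68.genusLeBar_of M A hM hTame hCusp (genusFormulaStatement M) (hurwitzCount_FFb M A))

/-- **[SURJ]** at a good pair. -/
theorem surjRed_of_leaves (hM : 4 ∣ M ∨ 9 ∣ M) (hℓ : ℓ.Prime) (hℓM : ¬ ℓ ∣ M)
    (hA : A.LiesOverPrime ℓ) (hReg : RegRedStatement M A) (hCusp : CuspBarStatement M A)
    (hTame : TameBaseStatement M A) : SurjRedStatement M A :=
  helper96.surjRed_of (inftyStatement M A) (helper81.scaleStatement M A ⟨ℓ, hℓ, hℓM, hA⟩)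
    (helper81.integralityStatement M A ⟨ℓ, hℓ, hℓM, hA⟩) hReg (helper95.riemannSetting_FFb M A)
    (genusEq_of_leaves hM hℓ hℓM hA hReg hCusp hTame)

/-- **[PIVOT]** at a good pair. -/
theorem pivot_of_leaves (hM : 4 ∣ M ∨ 9 ∣ M) (hℓ : ℓ.Prime) (hℓM : ¬ ℓ ∣ M)
    (hA : A.LiesOverPrime ℓ) (hReg : RegRedStatement M A) (hCusp : CuspBarStatement M A)
    (hTame : TameBaseStatement M A) (m : ℕ) (hm : ¬ ℓ ∣ m) : PivotStatement M A m :=
  helper74.pivotStatement_of_liesOverPrime M A ℓ hℓ hA m hm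
    (helper81.scaleStatement M A ⟨ℓ, hℓ, hℓM, hA⟩)
    (helper81.integralityStatement M A ⟨ℓ, hℓ, hℓM, hA⟩) hReg
    (surjRed_of_leaves hM hℓ hℓM hA hReg hCusp hTame)

/-- **(INJ)** at a good pair, from the open leaves. -/
theorem inj_of_leaves (hM : 4 ∣ M ∨ 9 ∣ M) (hℓ : ℓ.Prime) (hℓM : ¬ ℓ ∣ M)
    (hA : A.LiesOverPrime ℓ) (hL : OpenLeaves M A ℓ) (m : ℕ) (hm : ¬ ℓ ∣ m) :
    InjStatement M A m := by
  have hm0 : 0 < m := Nat.pos_of_ne_zero (fun h => hm (h ▸ dvd_zero ℓ))
  have hunit : IsUnit ((m : ℕ) : A) :=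
    helper96.isUnit_of_residue_ne_zero _ (helper74.residue_natCast_ne_zero A ℓ hℓ hA m hm)
  exact inj_of_packages hm0 (hL.idealStep m hm)
    (helper44.rootStatement_of_rootInput M A m hunit (hL.rootInput m hm))
    (pivot_of_leaves hM hℓ hℓM hA hL.regRed hL.cuspBar hL.tameBase m hm)
    (helper81.integralityStatement M A ⟨ℓ, hℓ, hℓM, hA⟩)

end Leaves

/-- **P2-CORE** (operator form) at a good level, from the open leaves. -/
theorem p2Core_of_leaves (M p : ℕ) [NeZero M] (hM : 4 ∣ M ∨ 9 ∣ M) (hp : p.Prime)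
    (hL : ∀ ℓ : ℕ, ℓ.Prime → ¬ ℓ ∣ M * p → ∀ A : ValuationSubring Kb, A.LiesOverPrime ℓ →
      OpenLeaves M A ℓ) :
    Fermat.Agent.P3.P2CoreStatement M p :=
  helper93.p2Core_of_inj M p (fun ℓ hℓ hℓMp A hA n =>
    inj_of_leaves hM hℓ (fun h => hℓMp (Dvd.dvd.mul_right h p)) hA (hL ℓ hℓ hℓMp A hA) (p ^ n)
      (fun h => hℓMp (Dvd.dvd.mul_left
        ((Nat.prime_dvd_prime_iff_eq hℓ hp).mp (hℓ.dvd_of_dvd_pow h) ▸ dvd_rfl) M)))

end Fermat.Agent.P2.helper29

end
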