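import Fermat.Agent.P2.helper29_Interface

/-!
# P2 / ROOT-V (helper50): the statement

`RootVStatement M A` : for an integral series `H` which lies in `F_M`, is integral over `ℚ̄[j]`
and reduces to `1`, the norm `N_{F/ℚ̄(j)}(H)` is `N₀(j)` for a polynomial `N₀ ∈ A[X]` with
`N₀ ≡ 1` modulo the maximal ideal, and `U = N₀(j) / H` is an integral series with reduction `1`.
-/

set_option autoImplicit false

noncomputable section

open HahnSeries IntermediateField ModularCurve Polynomial
open Fermat.Agent.S18.helper19 Fermat.Agent.S24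

namespace Fermat.Agent.P2.helper50

open Fermat.Agent.P2.helper29

/-- **[ROOT-V]** (BLUEPRINT P2 v1, section 2 (c), (d)). -/
def RootVStatement (M : ℕ) [NeZero M] (A : ValuationSubring Kb) : Prop :=
  ∀ (H : LaurentSeries A) (hH : incl A H ∈ FF M),
    IsIntegral (Algebra.adjoin Kb {xJ M}) (⟨incl A H, hH⟩ : FN M) → red A H = 1 →
    ∃ (N₀ : Polynomial A) (U : LaurentSeries A),
      N₀.map (IsLocalRing.residue A) = 1 ∧
      ((algebraMap Kb⟮xJ M⟯ (FN M) (Algebra.norm Kb⟮xJ M⟯ (⟨incl A H, hH⟩ : FN M)) : FN M) :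
          LaurentSeries Kb) = incl A (aeval (jqModC A) N₀) ∧
      U * H = aeval (jqModC A) N₀ ∧ red A U = 1

end Fermat.Agent.P2.helper50

end
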