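import Mathlib
import Fermat.Agent.P2.helper50_RootVDefs
import Fermat.Agent.P2.helper29_Infty
import Fermat.Agent.P2.helper81_ValGen
import Fermat.Agent.P2.helper44_RootAsm

/-!
# P2 [ROOT-S] (helper44): `RootStatement` from [ROOT-V] and [ROOT-N]

* `RootNStatement M m` : the part of [ROOT-N] (helper98) consumed by the assembly:
  for `H ∈ L(n ∞)`, `H ≠ 0`, `m ∣ div H`: `H` is integral over `ℚ̄[j]`, the norm
  `N_{F/ℚ̄(j)}(H)` is `c * R(j) ^ m` and `m * deg R ≤` pole order of `H` at infinity.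
* `rootStatement_of_rootV_rootN` : `RootVStatement M A → RootNStatement M m → RootStatement M A m`
  (for `m` invertible in `A`).
-/

set_option autoImplicit false

open Polynomial ModularCurve IntermediateField
open Fermat.Agent.S18.helper19 Fermat.Agent.P2.helper29 Fermat.Agent.S24

noncomputable section

namespace Fermat.Agent.P2.helper44

/-- **[ROOT-N]**, in the form consumed by the assembly of [ROOT]. -/
def RootNStatement (M : ℕ) [NeZero M] (m : ℕ) : Prop :=
  ∀ (H : LaurentSeries Kb) (n : ℤ) (hL : InL (FF M) n H), H ≠ 0 → DivDvd M m H →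
    IsIntegral (Algebra.adjoin Kb {xJ M}) (⟨H, hL.1⟩ : FN M) ∧
    ∃ (c : Kb) (R : Polynomial Kb),
      ((algebraMap Kb⟮xJ M⟯ (FN M) (Algebra.norm Kb⟮xJ M⟯ (⟨H, hL.1⟩ : FN M)) : FN M) :
          LaurentSeries Kb) =
        algebraMap Kb (LaurentSeries Kb) c * (Polynomial.aeval (jqModC Kb) R) ^ m ∧
      ((m * R.natDegree : ℕ) : ℤ) ≤ -H.order

/-- `j` has a pole at the place at infinity -/
theorem ord_xJ_of_isInfty (M : ℕ) [NeZero M] (P : AlgebraicCurve.Place Kb (FF M))
    (hP : IsInfty P) : P.ord (xJ M) = -1 := by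
  have h0 : (xJ M : FN M) ≠ 0 := by
    intro h
    have h1 := congrArg (fun f : FN M => (f : LaurentSeries Kb)) h
    simp only [helper81.coe_xJ_eq] at h1
    have h2 := helper29.order_jqModC Kb
    rw [show jqModC Kb = 0 from h1, HahnSeries.order_zero] at h2
    omega
  rw [hP (xJ M) h0, helper81.coe_xJ_eq]
  exact helper29.order_jqModC Kb

/-- a function in `L(n ∞)` is regular at all places where `j` is finite -/
theorem inL_regular (M : ℕ) [NeZero M] {H : LaurentSeries Kb} {n : ℤ}
    (hL : InL (FF M) n H) (P : AlgebraicCurve.Place Kb (FF M)) (hP : 0 ≤ P.ord (xJ M)) :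
    0 ≤ P.ord (⟨H, hL.1⟩ : FF M) := by
  obtain ⟨hf, hreg, -⟩ := hL
  apply hreg P
  intro hInf
  rw [ord_xJ_of_isInfty M P hInf] at hP
  omega

/-- [ROOT-V] + [ROOT-N] give the input of the assembly. -/
theorem rootInput_of_rootV_rootN (M : ℕ) [NeZero M] (A : ValuationSubring Kb) (m : ℕ)
    (hV : helper50.RootVStatement M A) (hN : RootNStatement M m)
    (H : LaurentSeries A) (n : ℤ) (hL : InL (FF M) n (incl A H)) (hred : red A H = 1)
    (hdiv : DivDvd M m (incl A H)) : RootInput A m H := by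
  have hH0 : incl A H ≠ 0 := by
    intro h0
    have h1 : H = 0 := (coeffMap_eq_zero_iff_of_inj _ Subtype.val_injective H).1 h0
    rw [h1, map_zero] at hred
    exact zero_ne_one hred
  obtain ⟨hint, c, R, hnorm, hdeg⟩ := hN (incl A H) n hL hH0 hdiv
  obtain ⟨N₀, U, hN₀red, hN₀, hUH, hU⟩ := hV H hL.1 hint hred
  have hmap : N₀.map A.subtype = Polynomial.C c * R ^ m := by
    apply aeval_jqModC_injective (R := Kb)
    rw [← coeffMap_aeval_jqModC]
    have h1 : coeffMap A.subtype (Polynomial.aeval (jqModC A) N₀) =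
        incl A (Polynomial.aeval (jqModC A) N₀) := rfl
    rw [h1, ← hN₀, hnorm, map_mul, map_pow, Polynomial.aeval_C]
  refine ⟨N₀, c, R, U, hmap, hN₀red, hU, hUH, ?_⟩
  have h2 : N₀.natDegree ≤ m * R.natDegree := by
    rw [← Polynomial.natDegree_map_eq_of_injective (f := A.subtype) Subtype.val_injective N₀,
      hmap]
    exact (Polynomial.natDegree_C_mul_le _ _).trans Polynomial.natDegree_pow_le
  have h3 : (N₀.natDegree : ℤ) ≤ ((m * R.natDegree : ℕ) : ℤ) := by exact_mod_cast h2
  exact h3.trans hdeg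

/-- **[ROOT]** from [ROOT-V] and [ROOT-N]. -/
theorem rootStatement_of_rootV_rootN (M : ℕ) [NeZero M] (A : ValuationSubring Kb) (m : ℕ)
    (hm : IsUnit ((m : ℕ) : A)) (hV : helper50.RootVStatement M A)
    (hN : RootNStatement M m) : RootStatement M A m :=
  rootStatement_of_rootInput M A m hm
    (fun H n hL hred hdiv => rootInput_of_rootV_rootN M A m hV hN H n hL hred hdiv)

end Fermat.Agent.P2.helper44

end
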