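/-
P2-CORE (helper29, sub-coordinator): FINAL ASSEMBLY, second stage.  All packages of BLUEPRINT P2
are wired except the four leaves

* `helper81.CuspRegStatement M A`  (regularity of reductions at the cusps different from `∞`),
* `TameBaseStatement M A`          (the tame base function on the special fibre),
* `helper50.RootVStatement M A`    (integrality of the norm and of the cofactor),
* `helper44.RootNStatement M m`    (the norm is `c * R(j) ^ m`, degree bound; characteristic `0`).

Main results: `coreInj_of_leaves : helper19.CoreInjStatement` (output for S18) and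
`p2Core_of_coreLeaves : P2CoreStatement M p` (output for P3), both from the four leaves.
-/
import Mathlib
import Fermat.Agent.P2.helper29_Final
import Fermat.Agent.P2.helper22_IdealStep
import Fermat.Agent.P2.helper28_CuspBar
import Fermat.Agent.P2.helper81_ValConv
import Fermat.Agent.P2.helper44_RootFinal
import Fermat.Agent.S18.helper19_Final

set_option autoImplicit false
set_option synthInstance.maxHeartbeats 400000

noncomputable section

open HahnSeries IntermediateField AlgebraicCurve ModularCurve
open Fermat.Agent.S18.helper19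

namespace Fermat.Agent.P2.helper29

/-- The leaves of BLUEPRINT P2 which depend on the valuation ring, for a pair `(M, A)`. -/
structure CoreLeaves (M : ℕ) [NeZero M] (A : ValuationSubring Kb) : Prop where
  cuspReg : helper81.CuspRegStatement M A
  tameBase : TameBaseStatement M A
  rootV : helper50.RootVStatement M A

/-- All open leaves at a good pair from the four core leaves. -/
theorem openLeaves_of_coreLeaves {M : ℕ} [NeZero M] {A : ValuationSubring Kb} {ℓ : ℕ}
    (hM : 4 ∣ M ∨ 9 ∣ M) (hℓ : ℓ.Prime) (hℓM : ¬ ℓ ∣ M) (hA : A.LiesOverPrime ℓ)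
    (hL : CoreLeaves M A) (hN : ∀ m : ℕ, m ≠ 0 → helper44.RootNStatement M m) :
    OpenLeaves M A ℓ := by
  have hPL : PrimeToLevel M A := ⟨ℓ, hℓ, hℓM, hA⟩
  have hReg : RegRedStatement M A := helper81.regRedStatement_of M A hPL hL.cuspReg
  have hCusp : CuspBarStatement M A := helper28.cuspBarStatement hPL
  refine ⟨hReg, hCusp, hL.tameBase, fun m _ => ?_, fun m hm H n hH hred hdiv => ?_⟩
  · exact helper22.idealStep m (helper95.riemannSetting_FFb M A) (inftyStatement M A)
      (helper81.scaleStatement M A hPL) (helper81.integralityStatement M A hPL) hReg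
      (genusEq_of_leaves hM hℓ hℓM hA hReg hCusp hL.tameBase)
  · exact helper44.rootInput_of_rootV_rootN M A m hL.rootV
      (hN m (fun h => hm (h ▸ dvd_zero ℓ))) H n hH hred hdiv

/-- **(INJ)** at a good pair from the four core leaves. -/
theorem inj_of_coreLeaves {M : ℕ} [NeZero M] {A : ValuationSubring Kb} {ℓ : ℕ}
    (hM : 4 ∣ M ∨ 9 ∣ M) (hℓ : ℓ.Prime) (hℓM : ¬ ℓ ∣ M) (hA : A.LiesOverPrime ℓ)
    (hL : CoreLeaves M A) (hN : ∀ m : ℕ, m ≠ 0 → helper44.RootNStatement M m)
    (m : ℕ) (hm : ¬ ℓ ∣ m) : InjStatement M A m :=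
  inj_of_leaves hM hℓ hℓM hA (openLeaves_of_coreLeaves hM hℓ hℓM hA hL hN) m hm

/-- **OUT-1** (for S18): `helper19.CoreInjStatement` from the four core leaves. -/
theorem coreInj_of_leaves
    (hL : ∀ (M : ℕ) [NeZero M] (A : ValuationSubring Kb), GoodPair M A → CoreLeaves M A)
    (hN : ∀ (M : ℕ) [NeZero M] (m : ℕ), m ≠ 0 → helper44.RootNStatement M m) :
    CoreInjStatement := by
  intro M _ A ℓ hℓ hM hℓM hA m hm
  exact inj_of_coreLeaves hM hℓ.out hℓM hA (hL M A ⟨hM, ℓ, hℓ.out, hℓM, hA⟩) (hN M) m hm

/-- **OUT-2** (for P3): `P2CoreStatement M p` at a good level from the four core leaves. -/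
theorem p2Core_of_coreLeaves (M p : ℕ) [NeZero M] (hM : 4 ∣ M ∨ 9 ∣ M) (hp : p.Prime)
    (hL : ∀ A : ValuationSubring Kb, GoodPair M A → CoreLeaves M A)
    (hN : ∀ m : ℕ, m ≠ 0 → helper44.RootNStatement M m) :
    Fermat.Agent.P3.P2CoreStatement M p :=
  p2Core_of_leaves M p hM hp (fun ℓ hℓ hℓMp A hA =>
    have hℓM : ¬ ℓ ∣ M := fun h => hℓMp (Dvd.dvd.mul_right h p)
    openLeaves_of_coreLeaves hM hℓ hℓM hA (hL A ⟨hM, ℓ, hℓ, hℓM, hA⟩) hN)

end Fermat.Agent.P2.helper29

end
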