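import Mathlib
import Fermat.Agent.P2.helper95_FFl2
import Fermat.Agent.P2.helper18_DiscSide

/-!
# P2-[TAME-BASE], abstract part (helper43, task 586)

Setting: a function field `F / K` (`K` algebraically closed), `j t : F` with `j` a separating
transcendental element (`F` finite separable over `K(j)`), and an identity

  `j * D(t) = N(t)`,  `D = ∏_{a ∈ V} (X - a) ^ (e a)`, `N(a) ≠ 0` on `V`, `deg D < deg N`.

Then (`tame_abs`):

* `t` is a separating transcendental element;
* the poles of `j` are the poles of `t` and the zeros of the `t - a`, `a ∈ V`;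
* `deg N * [F : K(t)] = [F : K(j)]`  (the degree of the rational function `N / D`, obtained by
  counting the poles of `j`; no Lüroth-type argument is needed).
-/

set_option autoImplicit false
set_option linter.unusedSectionVars false
set_option linter.style.haveILetI false

namespace Fermat.Agent.P2.helper43

open AlgebraicCurve IntermediateField Polynomial

noncomputable section

variable {K F : Type*} [Field K] [Field F] [Algebra K F]

/-! ## Orders of polynomial expressions -/

section Ord

variable (P : Place K F)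

/-- a polynomial with nonzero constant term is a unit at a zero of `s` -/
theorem ord_aeval_eq_zero_of_ord_pos {s : F} (hs : 0 < P.ord s) (r : K[X])
    (hr : r.coeff 0 ≠ 0) : P.ord (aeval s r) = 0 := by
  have h1 : P.ord s⁻¹ < 0 := by
    rw [P.ord_inv]
    omega
  have h2 := helper18.adicValuation_aeval_inv_eq_one P h1 r hr
  rw [inv_inv] at h2
  simp [Place.ord, h2]

/-- a polynomial `p` with `p(a) ≠ 0` is a unit at a zero of `t - a` -/
theorem ord_aeval_eq_zero_of_ord_sub_pos {t : F} {a : K}
    (h : 0 < P.ord (t - algebraMap K F a)) (p : K[X]) (hp : p.eval a ≠ 0) :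
    P.ord (aeval t p) = 0 := by
  have h1 := ord_aeval_eq_zero_of_ord_pos P h (p.comp (X + C a)) (by
    rw [coeff_zero_eq_eval_zero, eval_comp]
    simpa using hp)
  rw [aeval_comp] at h1
  simpa using h1

/-- polynomials in `t` are regular where `t` is regular -/
theorem ord_aeval_nonneg {t : F} (h : 0 ≤ P.ord t) (p : K[X]) : 0 ≤ P.ord (aeval t p) :=
  helper95.place_ord_nonneg_of_mem P
    (helper18.aeval_mem_of_mem P (helper95.place_mem_of_ord_nonneg P h) p)

end Ord

/-! ## Towers of simple extensions -/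

section Tower

/-- finiteness passes to a larger intermediate field -/
theorem finiteDimensional_of_le {E₁ E₂ : IntermediateField K F} (h : E₁ ≤ E₂)
    [FiniteDimensional E₁ F] : FiniteDimensional E₂ F := by
  letI : Algebra E₁ E₂ := (IntermediateField.inclusion h).toRingHom.toAlgebra
  haveI : IsScalarTower E₁ E₂ F := IsScalarTower.of_algebraMap_eq fun x => rfl
  exact Module.Finite.of_restrictScalars_finite E₁ E₂ F

/-- separability passes to a larger intermediate field -/
theorem isSeparable_of_le {E₁ E₂ : IntermediateField K F} (h : E₁ ≤ E₂)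
    [Algebra.IsSeparable E₁ F] : Algebra.IsSeparable E₂ F := by
  letI : Algebra E₁ E₂ := (IntermediateField.inclusion h).toRingHom.toAlgebra
  haveI : IsScalarTower E₁ E₂ F := IsScalarTower.of_algebraMap_eq fun x => rfl
  exact Algebra.isSeparable_tower_top_of_isSeparable E₁ E₂ F

theorem aeval_mem_adjoin_simple (t : F) (p : K[X]) : aeval t p ∈ K⟮t⟯ :=
  IntermediateField.algebra_adjoin_le_adjoin K {t} (aeval_mem_adjoin_singleton K t)

end Tower

/-! ## The hypotheses -/

/-- the hypotheses of the abstract tame-base theorem: `j * D(t) = N(t)` with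
`D = ∏_{a ∈ V} (X - a) ^ (e a)`, `N(a) ≠ 0` on `V`, `deg D < deg N`, `j` transcendental -/
structure TameHyp (j t : F) (N D : K[X]) (V : Finset K) (e : K → ℕ) : Prop where
  hj : Transcendental K j
  hD : D = ∏ a ∈ V, (X - C a) ^ e a
  he : ∀ a ∈ V, 0 < e a
  hN : ∀ a ∈ V, N.eval a ≠ 0
  hdeg : D.natDegree < N.natDegree
  hid : j * aeval t D = aeval t N

namespace TameHyp

variable {j t : F} {N D : K[X]} {V : Finset K} {e : K → ℕ} (H : TameHyp j t N D V e)
include H

theorem D_ne_zero : D ≠ 0 := by
  rw [H.hD]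
  exact Finset.prod_ne_zero_iff.2 fun a _ => pow_ne_zero _ (X_sub_C_ne_zero a)

theorem N_ne_zero : N ≠ 0 := by
  intro h
  have := H.hdeg
  rw [h, natDegree_zero] at this
  exact Nat.not_lt_zero _ this

theorem natDegree_D : D.natDegree = ∑ a ∈ V, e a := by
  rw [H.hD, natDegree_prod_of_monic _ _ fun a _ => (monic_X_sub_C a).pow (e a)]
  refine Finset.sum_congr rfl fun a _ => ?_
  rw [natDegree_pow, natDegree_X_sub_C, mul_one]

theorem eval_D_eq_zero {c : K} (h : D.eval c = 0) : c ∈ V := by
  rw [H.hD, eval_prod, Finset.prod_eq_zero_iff] at h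
  obtain ⟨a, ha, h0⟩ := h
  rw [eval_pow, eval_sub, eval_X, eval_C] at h0
  have h1 : c - a = 0 := pow_eq_zero_iff (H.he a ha).ne' |>.1 h0
  rw [sub_eq_zero.1 h1]
  exact ha

theorem aeval_D : aeval t D = ∏ a ∈ V, (t - algebraMap K F a) ^ e a := by
  rw [H.hD, map_prod]
  refine Finset.prod_congr rfl fun a _ => ?_
  rw [map_pow, map_sub, aeval_X, aeval_C]

/-- `t` is not a constant -/
theorem t_not_mem_range : t ∉ Set.range (algebraMap K F) := by
  rintro ⟨c, rfl⟩
  have hid := H.hid
  rw [aeval_algebraMap_apply, aeval_algebraMap_apply] at hid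
  by_cases hc : D.eval c = 0
  · have h1 : aeval c D = 0 := by rw [coe_aeval_eq_eval]; exact hc
    have h2 : aeval c N ≠ 0 := by rw [coe_aeval_eq_eval]; exact H.hN c (H.eval_D_eq_zero hc)
    rw [h1, map_zero, mul_zero] at hid
    exact h2 ((algebraMap K F).injective (hid.symm.trans (map_zero _).symm))
  · apply H.hj
    have h1 : aeval c D ≠ 0 := by rw [coe_aeval_eq_eval]; exact hc
    have h3 : algebraMap K F (aeval c D) ≠ 0 := fun h0 =>
      h1 ((algebraMap K F).injective (h0.trans (map_zero _).symm))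
    have h2 : j = algebraMap K F (aeval c N / aeval c D) := by
      rw [map_div₀, eq_div_iff h3]
      exact hid
    rw [h2]
    exact isAlgebraic_algebraMap _

variable [IsAlgClosed K] [FiniteDimensional K⟮j⟯ F]

theorem transcendental_t : Transcendental K t :=
  (Fermat.Agent.S24.helper82.ff_transcendental j H.hj t H.t_not_mem_range).1

theorem aeval_ne_zero {p : K[X]} (hp : p ≠ 0) : aeval t p ≠ 0 := fun h =>
  hp ((transcendental_iff.1 H.transcendental_t) p h)

theorem j_mem : j ∈ K⟮t⟯ := by
  have h : j = aeval t N / aeval t D := by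
    rw [eq_div_iff (H.aeval_ne_zero H.D_ne_zero)]
    exact H.hid
  rw [h]
  exact div_mem (aeval_mem_adjoin_simple t N) (aeval_mem_adjoin_simple t D)

theorem adjoin_le : K⟮j⟯ ≤ K⟮t⟯ := by
  rw [adjoin_simple_le_iff]
  exact H.j_mem

theorem finiteDimensional_t : FiniteDimensional K⟮t⟯ F :=
  finiteDimensional_of_le H.adjoin_le

theorem isSeparable_t [Algebra.IsSeparable K⟮j⟯ F] : Algebra.IsSeparable K⟮t⟯ F :=
  isSeparable_of_le H.adjoin_le

theorem j_ne_zero : j ≠ 0 := fun h => H.hj (h ▸ isAlgebraic_zero)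

theorem sub_ne_zero' (a : K) : t - algebraMap K F a ≠ 0 := fun h =>
  H.t_not_mem_range ⟨a, (sub_eq_zero.1 h).symm⟩

/-! ## Orders of `j` -/

section OrdJ

variable (P : Place K F)

/-- the order of `j` at a pole of `t` -/
theorem ord_j_of_pole (hP : P.ord t < 0) :
    P.ord j = ((N.natDegree : ℤ) - (D.natDegree : ℤ)) * P.ord t := by
  have h1 := P.ord_mul H.j_ne_zero (H.aeval_ne_zero H.D_ne_zero)
  rw [H.hid, helper18.ord_aeval_of_pole P hP N H.N_ne_zero,
    helper18.ord_aeval_of_pole P hP D H.D_ne_zero] at h1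
  linear_combination -h1

/-- the order of `D(t)` -/
theorem ord_aeval_D :
    P.ord (aeval t D) = ∑ a ∈ V, (e a : ℤ) * P.ord (t - algebraMap K F a) := by
  rw [H.aeval_D, helper18.ord_prod P V _ fun a _ => pow_ne_zero _ (H.sub_ne_zero' a)]
  refine Finset.sum_congr rfl fun a _ => ?_
  rw [helper18.ord_pow]

/-- at a place where `t` is regular, `t - a` is regular -/
theorem ord_sub_nonneg (hP : 0 ≤ P.ord t) (a : K) : 0 ≤ P.ord (t - algebraMap K F a) := by
  have h := ord_aeval_nonneg P hP (X - C a)
  rwa [map_sub, aeval_X, aeval_C] at h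

/-- at a zero of `t - a` the other `t - b` are units -/
theorem ord_sub_eq_zero {a b : K} (hP : 0 < P.ord (t - algebraMap K F a)) (hab : b ≠ a) :
    P.ord (t - algebraMap K F b) = 0 := by
  have h := ord_aeval_eq_zero_of_ord_sub_pos P hP (X - C b) (by
    rw [eval_sub, eval_X, eval_C]
    exact sub_ne_zero.2 hab.symm)
  rwa [map_sub, aeval_X, aeval_C] at h

/-- the order of `j` at a zero of `t - a`, `a ∈ V` -/
theorem ord_j_of_zero {a : K} (ha : a ∈ V) (hP : 0 < P.ord (t - algebraMap K F a)) :
    P.ord j = -((e a : ℤ) * P.ord (t - algebraMap K F a)) := by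
  have h1 := P.ord_mul H.j_ne_zero (H.aeval_ne_zero H.D_ne_zero)
  rw [H.hid, ord_aeval_eq_zero_of_ord_sub_pos P hP N (H.hN a ha), H.ord_aeval_D P] at h1
  have h2 : ∑ b ∈ V, (e b : ℤ) * P.ord (t - algebraMap K F b) =
      (e a : ℤ) * P.ord (t - algebraMap K F a) := by
    refine Finset.sum_eq_single_of_mem a ha fun b _ hb => ?_
    rw [H.ord_sub_eq_zero P hP hb, mul_zero]
  rw [h2] at h1
  linear_combination -h1

/-- the poles of `j` are the poles of `t` and the zeros of the `t - a`, `a ∈ V` -/
theorem ord_j_neg_iff :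
    P.ord j < 0 ↔ (P.ord t < 0 ∨ ∃ a ∈ V, 0 < P.ord (t - algebraMap K F a)) := by
  constructor
  · intro hj
    by_cases ht : P.ord t < 0
    · exact Or.inl ht
    · right
      have ht' : 0 ≤ P.ord t := not_lt.1 ht
      have h1 := P.ord_mul H.j_ne_zero (H.aeval_ne_zero H.D_ne_zero)
      rw [H.hid, H.ord_aeval_D P] at h1
      have h2 := ord_aeval_nonneg P ht' N
      by_contra hne
      have h3 : ∑ a ∈ V, (e a : ℤ) * P.ord (t - algebraMap K F a) ≤ 0 := by
        refine Finset.sum_nonpos fun a ha => ?_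
        have h4 : P.ord (t - algebraMap K F a) ≤ 0 := not_lt.1 fun h => hne ⟨a, ha, h⟩
        exact mul_nonpos_of_nonneg_of_nonpos (Int.natCast_nonneg _) h4
      omega
  · rintro (ht | ⟨a, ha, hP⟩)
    · rw [H.ord_j_of_pole P ht]
      have h1 : (0 : ℤ) < (N.natDegree : ℤ) - (D.natDegree : ℤ) := by
        have := H.hdeg
        omega
      exact mul_neg_of_pos_of_neg h1 ht
    · rw [H.ord_j_of_zero P ha hP]
      have h1 : (0 : ℤ) < (e a : ℤ) := by exact_mod_cast H.he a ha
      have := mul_pos h1 hP
      omega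

end OrdJ

/-! ## The pole count -/

section Count

variable [Algebra.IsSeparable K⟮j⟯ F]

theorem finite_poles_t : {w : Place K F | w.ord t < 0}.Finite := by
  haveI := H.finiteDimensional_t
  haveI := H.isSeparable_t
  exact helper95.ffl_finite_poles t H.transcendental_t

theorem sum_ord_poles_t :
    ∑ w ∈ H.finite_poles_t.toFinset, w.ord t = -(Module.finrank K⟮t⟯ F : ℤ) := by
  haveI := H.finiteDimensional_t
  haveI := H.isSeparable_t
  exact helper95.ffl_sum_ord_poles t H.transcendental_t

theorem finite_zeros_sub (a : K) :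
    {w : Place K F | 0 < w.ord (t - algebraMap K F a)}.Finite := by
  haveI := H.finiteDimensional_t
  haveI := H.isSeparable_t
  have htr := Fermat.Agent.S24.helper55.transcendental_sub_algebraMap H.transcendental_t a
  haveI : FiniteDimensional K⟮t - algebraMap K F a⟯ F := by
    rw [Fermat.Agent.S24.helper55.adjoin_sub_algebraMap_eq]
    infer_instance
  haveI : Algebra.IsSeparable K⟮t - algebraMap K F a⟯ F := by
    rw [Fermat.Agent.S24.helper55.adjoin_sub_algebraMap_eq]
    infer_instance
  exact helper95.ffl_finite_zeros _ htr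

theorem sum_ord_zeros_sub (a : K) :
    ∑ w ∈ (H.finite_zeros_sub a).toFinset, w.ord (t - algebraMap K F a) =
      (Module.finrank K⟮t⟯ F : ℤ) := by
  haveI := H.finiteDimensional_t
  haveI := H.isSeparable_t
  have htr := Fermat.Agent.S24.helper55.transcendental_sub_algebraMap H.transcendental_t a
  haveI : FiniteDimensional K⟮t - algebraMap K F a⟯ F := by
    rw [Fermat.Agent.S24.helper55.adjoin_sub_algebraMap_eq]
    infer_instance
  haveI : Algebra.IsSeparable K⟮t - algebraMap K F a⟯ F := by
    rw [Fermat.Agent.S24.helper55.adjoin_sub_algebraMap_eq]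
    infer_instance
  have h := helper95.ffl_sum_ord_zeros _ htr
  have hfr : Module.finrank K⟮t - algebraMap K F a⟯ F = Module.finrank K⟮t⟯ F :=
    congrArg (fun E : IntermediateField K F => Module.finrank E F)
      (Fermat.Agent.S24.helper55.adjoin_sub_algebraMap_eq t a)
  rw [hfr] at h
  exact h

/-- **the degree of `N / D`**: `deg N * [F : K(t)] = [F : K(j)]` -/
theorem natDegree_mul_finrank :
    (N.natDegree : ℤ) * (Module.finrank K⟮t⟯ F : ℤ) = (Module.finrank K⟮j⟯ F : ℤ) := by
  classical
  have hj := helper95.ffl_sum_ord_poles j H.hj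
  have ht := H.sum_ord_poles_t
  have hS : (helper95.ffl_finite_poles j H.hj).toFinset =
      H.finite_poles_t.toFinset ∪ V.biUnion fun a => (H.finite_zeros_sub a).toFinset := by
    ext w
    simp only [Finset.mem_union, Finset.mem_biUnion, Set.Finite.mem_toFinset,
      Set.mem_ofPred_eq]
    exact H.ord_j_neg_iff w
  have hdisj1 : Disjoint H.finite_poles_t.toFinset
      (V.biUnion fun a => (H.finite_zeros_sub a).toFinset) := by
    rw [Finset.disjoint_left]
    intro w hw hw'
    simp only [Finset.mem_biUnion, Set.Finite.mem_toFinset, Set.mem_ofPred_eq] at hw hw'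
    obtain ⟨a, -, hz⟩ := hw'
    exact Fermat.Agent.S24.helper55.not_ord_sub_pos_of_ord_neg w a hw hz
  have hdisj2 : (V : Set K).PairwiseDisjoint fun a => (H.finite_zeros_sub a).toFinset := by
    intro a _ b _ hab
    rw [Function.onFun, Finset.disjoint_left]
    intro w hwa hwb
    simp only [Set.Finite.mem_toFinset, Set.mem_ofPred_eq] at hwa hwb
    exact hab (Fermat.Agent.S24.helper55.eq_of_ord_sub_pos w hwa hwb)
  rw [hS, Finset.sum_union hdisj1, Finset.sum_biUnion hdisj2] at hj
  have h1 : ∑ w ∈ H.finite_poles_t.toFinset, w.ord j =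
      ((N.natDegree : ℤ) - (D.natDegree : ℤ)) * ∑ w ∈ H.finite_poles_t.toFinset, w.ord t := by
    rw [Finset.mul_sum]
    refine Finset.sum_congr rfl fun w hw => ?_
    simp only [Set.Finite.mem_toFinset, Set.mem_ofPred_eq] at hw
    exact H.ord_j_of_pole w hw
  have h2 : ∀ a ∈ V, ∑ w ∈ (H.finite_zeros_sub a).toFinset, w.ord j =
      -((e a : ℤ) * (Module.finrank K⟮t⟯ F : ℤ)) := by
    intro a ha
    rw [← H.sum_ord_zeros_sub a, Finset.mul_sum, ← Finset.sum_neg_distrib]
    refine Finset.sum_congr rfl fun w hw => ?_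
    simp only [Set.Finite.mem_toFinset, Set.mem_ofPred_eq] at hw
    exact H.ord_j_of_zero w ha hw
  rw [h1, ht, Finset.sum_congr rfl h2, Finset.sum_neg_distrib, ← Finset.sum_mul] at hj
  have h3 : (D.natDegree : ℤ) = ∑ a ∈ V, (e a : ℤ) := by
    rw [H.natDegree_D]
    push_cast
    rfl
  rw [← h3] at hj
  linear_combination -hj

/-- **[TAME-BASE], abstract form.** -/
theorem tame_abs :
    Transcendental K t ∧
    ∃ (_ : FiniteDimensional K⟮t⟯ F) (_ : Algebra.IsSeparable K⟮t⟯ F),
      (∀ Q : Place K F, Q.ord j < 0 ↔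
        (Q.ord t < 0 ∨ ∃ a ∈ V, 0 < Q.ord (t - algebraMap K F a))) ∧
      (N.natDegree : ℤ) * (Module.finrank K⟮t⟯ F : ℤ) = (Module.finrank K⟮j⟯ F : ℤ) :=
  ⟨H.transcendental_t, H.finiteDimensional_t, H.isSeparable_t, fun Q => H.ord_j_neg_iff Q,
    H.natDegree_mul_finrank⟩

end Count

end TameHyp

end

end Fermat.Agent.P2.helper43
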