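import Mathlib

/-!
# P2-[HAUPT] (helper66), part 0: certified computation with truncated integer power series

`Tr N f l` : the list `l` gives the coefficients of `f : ℤ⟦X⟧` below `N`.
The operations `mulL`, `addL`, ... on lists are evaluated by the kernel (`decide +kernel`).
-/

set_option autoImplicit false

namespace Fermat.Agent.P2.helper66

open PowerSeries

/-- `l` lists the coefficients of `f` below `N` (entries beyond the list are read as `0`). -/
def Tr (N : ℕ) (f : PowerSeries ℤ) (l : List ℤ) : Prop :=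
  ∀ n < N, coeff n f = l.getD n 0

/-- The `n`-th coefficient of the product of two coefficient lists. -/
def convL (l m : List ℤ) (n : ℕ) : ℤ :=
  ((List.range (n + 1)).map (fun i => l.getD i 0 * m.getD (n - i) 0)).sum

/-- Truncated product. -/
def mulL (N : ℕ) (l m : List ℤ) : List ℤ := (List.range N).map (convL l m)

/-- Truncated sum. -/
def addL (N : ℕ) (l m : List ℤ) : List ℤ :=
  (List.range N).map (fun n => l.getD n 0 + m.getD n 0)

/-- Truncated difference. -/
def subL (N : ℕ) (l m : List ℤ) : List ℤ :=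
  (List.range N).map (fun n => l.getD n 0 - m.getD n 0)

/-- Truncated scalar multiple. -/
def smulL (N : ℕ) (c : ℤ) (l : List ℤ) : List ℤ :=
  (List.range N).map (fun n => c * l.getD n 0)

/-- Truncated substitution `X ↦ X ^ d`. -/
def expL (N d : ℕ) (l : List ℤ) : List ℤ :=
  (List.range N).map (fun n => if d ∣ n then l.getD (n / d) 0 else 0)

/-- The substitution `X ↦ X ^ d` on integral power series. -/
noncomputable def ex (d : ℕ) (P : PowerSeries ℤ) : PowerSeries ℤ :=
  PowerSeries.mk fun n => if d ∣ n then coeff (n / d) P else 0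

theorem coeff_ex (d : ℕ) (P : PowerSeries ℤ) (n : ℕ) :
    coeff n (ex d P) = if d ∣ n then coeff (n / d) P else 0 := by
  simp [ex]

theorem getD_map_range (N : ℕ) (F : ℕ → ℤ) {n : ℕ} (hn : n < N) :
    ((List.range N).map F).getD n 0 = F n := by
  rw [List.getD_eq_getElem?_getD, List.getElem?_map, List.getElem?_range hn]
  rfl

theorem sum_map_range (F : ℕ → ℤ) (n : ℕ) :
    ((List.range n).map F).sum = ∑ i ∈ Finset.range n, F i := by
  induction n with
  | zero => simp
  | succ n ih =>
    rw [List.range_succ, List.map_append, List.sum_append, ih, Finset.sum_range_succ]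
    simp

theorem Tr.mono {N M : ℕ} {f : PowerSeries ℤ} {l : List ℤ} (h : Tr N f l) (hM : M ≤ N) :
    Tr M f l := fun n hn => h n (lt_of_lt_of_le hn hM)

theorem Tr.mul {N : ℕ} {f g : PowerSeries ℤ} {l m : List ℤ} (hf : Tr N f l) (hg : Tr N g m)
    (L : List ℤ) (hL : mulL N l m = L) : Tr N (f * g) L := by
  intro n hn
  rw [← hL, mulL, getD_map_range N _ hn, convL, sum_map_range, PowerSeries.coeff_mul,
    Finset.Nat.sum_antidiagonal_eq_sum_range_succ (fun i j => coeff i f * coeff j g) n]
  refine Finset.sum_congr rfl fun i hi => ?_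
  have hi' : i < n + 1 := Finset.mem_range.mp hi
  rw [hf i (by omega), hg (n - i) (by omega)]

theorem Tr.add {N : ℕ} {f g : PowerSeries ℤ} {l m : List ℤ} (hf : Tr N f l) (hg : Tr N g m)
    (L : List ℤ) (hL : addL N l m = L) : Tr N (f + g) L := by
  intro n hn
  rw [← hL, addL, getD_map_range N _ hn, map_add, hf n hn, hg n hn]

theorem Tr.sub {N : ℕ} {f g : PowerSeries ℤ} {l m : List ℤ} (hf : Tr N f l) (hg : Tr N g m)
    (L : List ℤ) (hL : subL N l m = L) : Tr N (f - g) L := by
  intro n hn
  rw [← hL, subL, getD_map_range N _ hn, map_sub, hf n hn, hg n hn]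

theorem Tr.smul {N : ℕ} {f : PowerSeries ℤ} {l : List ℤ} (hf : Tr N f l) (c : ℤ)
    (L : List ℤ) (hL : smulL N c l = L) : Tr N (PowerSeries.C c * f) L := by
  intro n hn
  rw [← hL, smulL, getD_map_range N _ hn, PowerSeries.coeff_C_mul, hf n hn]

theorem Tr.ex {N : ℕ} {f : PowerSeries ℤ} {l : List ℤ} (hf : Tr N f l) (d : ℕ)
    (L : List ℤ) (hL : expL N d l = L) : Tr N (ex d f) L := by
  intro n hn
  rw [← hL, expL, getD_map_range N _ hn, coeff_ex]
  split_ifs with h
  · exact hf _ (lt_of_le_of_lt (Nat.div_le_self n d) hn)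
  · rfl

theorem Tr.one (N : ℕ) : Tr N 1 [1] := by
  intro n _
  rw [PowerSeries.coeff_one]
  rcases n with _ | n
  · simp
  · simp

/-- Truncated power. -/
def powL (N : ℕ) (l : List ℤ) : ℕ → List ℤ
  | 0 => [1]
  | n + 1 => mulL N (powL N l n) l

theorem Tr.pow {N : ℕ} {f : PowerSeries ℤ} {l : List ℤ} (hf : Tr N f l) (n : ℕ)
    (L : List ℤ) (hL : powL N l n = L) : Tr N (f ^ n) L := by
  induction n generalizing L with
  | zero =>
    rw [pow_zero, ← hL]
    exact Tr.one N
  | succ n ih =>
    rw [pow_succ]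
    exact Tr.mul (ih _ rfl) hf L hL

theorem Tr.mk {N : ℕ} (c : ℕ → ℤ) (L : List ℤ) (h : ∀ n < N, c n = L.getD n 0) :
    Tr N (PowerSeries.mk c) L := by
  intro n hn
  rw [PowerSeries.coeff_mk]
  exact h n hn

/-- Two series with the same certified truncation agree below `N`. -/
theorem Tr.coeff_eq {N : ℕ} {f g : PowerSeries ℤ} {l : List ℤ} (hf : Tr N f l) (hg : Tr N g l)
    {n : ℕ} (hn : n < N) : coeff n f = coeff n g := by
  rw [hf n hn, hg n hn]

end Fermat.Agent.P2.helper66
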