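import Mathlib
import Fermat.Agent.S23.LevelOne
import Fermat.Agent.P2.helper66_Trunc

/-!
# P2-[HAUPT] (helper66), part 1: the integral power series behind the Hauptmoduln

With `s = ∑ σ₃(n) qⁿ` (so `E₄ = 1 + 240 s`) and `s_d = s(q^d)`:

* level 2: `A2 = 1 + 256 s₂ - 16 s = η(z)^16 / η(2z)^8`, `B2 = s - s₂ = q η(2z)^16 / η(z)^8`,
  `t₂ = A2 / B2`;
* level 3: `A3 = 1 + 243 s₃ - 3 s`, `B3 = s - s₃`, `t₃ = A3 / B3`;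
* level 4: `A4 = s - 17 s₂ + 16 s₄`, `B4 = s₂ - s₄`, `t₄ = A4 / B4`;
* level 9: `a9 = 1 + 78 s₃ + 162 s₉ - 3 p1`, `p1 = ∑_{n ≡ 1 (3)} σ₃(n) qⁿ`, `t₉ = a9 / p1`.
-/

set_option autoImplicit false

noncomputable section

namespace Fermat.Agent.P2.helper66

open PowerSeries

/-- `∑ σ₃(n) qⁿ`. -/
def s3 : PowerSeries ℤ := Fermat.Agent.S23.sigmaSeries 3

/-- `∑_{n ≡ 1 mod 3} σ₃(n) qⁿ`. -/
def p1 : PowerSeries ℤ :=
  PowerSeries.mk fun n => if n % 3 = 1 then (ArithmeticFunction.sigma 3 n : ℤ) else 0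

def A2 : PowerSeries ℤ := (1 + PowerSeries.C (256 : ℤ) * ex 2 s3) - PowerSeries.C (16 : ℤ) * s3
def B2 : PowerSeries ℤ := s3 - ex 2 s3
def A3 : PowerSeries ℤ := (1 + PowerSeries.C (243 : ℤ) * ex 3 s3) - PowerSeries.C (3 : ℤ) * s3
def B3 : PowerSeries ℤ := s3 - ex 3 s3
def A4 : PowerSeries ℤ := (s3 - PowerSeries.C (17 : ℤ) * ex 2 s3) + PowerSeries.C (16 : ℤ) * ex 4 s3
def B4 : PowerSeries ℤ := ex 2 s3 - ex 4 s3
/-- `A2(q²)`. -/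
def A2' : PowerSeries ℤ :=
  (1 + PowerSeries.C (256 : ℤ) * ex 4 s3) - PowerSeries.C (16 : ℤ) * ex 2 s3
/-- `A3(q³)`. -/
def A3' : PowerSeries ℤ :=
  (1 + PowerSeries.C (243 : ℤ) * ex 9 s3) - PowerSeries.C (3 : ℤ) * ex 3 s3
/-- `B3(q³)`. -/
def B3' : PowerSeries ℤ := ex 3 s3 - ex 9 s3
def a9 : PowerSeries ℤ :=
  ((1 + PowerSeries.C (78 : ℤ) * ex 3 s3) + PowerSeries.C (162 : ℤ) * ex 9 s3)
    - PowerSeries.C (3 : ℤ) * p1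

end Fermat.Agent.P2.helper66
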