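import Mathlib
import Fermat.Agent.S20.Defs
import Fermat.Agent.S20.helper29_LevelOneMF
import Fermat.Agent.S24.helper17_EtaProd
import Fermat.Agent.S24.helper77_Hermite
import Fermat.Agent.S16.helper24_Eis
import Fermat.Agent.S24.helper37_IndexGamma0
import Fermat.Prelude.Thm_ModularForm_sturm_bound_Gamma0
import Fermat.Prelude.Thm_CongruenceSubgroup_one_mem_strictPeriods_Gamma0
import Fermat.Agent.P2.helper66_Trunc

/-!
# P2-[HAUPT] (helper66), part 3a: modular forms on `Γ₀(N)` with integral `q`-expansion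

* `isMF_comp_scale` : level raising `f(τ) ↦ f(dτ)`, `M_k(Γ₀(N)) → M_k(Γ₀(dN))` (any `d ≥ 1`);
* `isMF_slash_of_normalizes` : slashing with a normalising element of `SL(2,ℤ)`;
* `MFQ N k f P` : `f ∈ M_k(Γ₀(N))` has `q`-expansion `P ∈ ℤ⟦q⟧`, closed under ring operations;
* `MFQ.eq_of_coeff` : the Sturm bound for `Γ₀(N)` (Prelude) in this language.
-/

set_option autoImplicit false

noncomputable section

namespace Fermat.Agent.P2.helper66

open UpperHalfPlane ModularForm CongruenceSubgroup Matrix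
open Fermat.Agent.S20 (IsMF)
open Fermat.Agent.S24 (scaleH)
open Fermat.Agent.S24.helper17 (IsNice)
open scoped MatrixGroups Manifold

/-- `f ∣[k] diag(d,1) = d^(k-1) • f(d ·)`. -/
theorem slash_heckeDiag_eq (k : ℤ) (d : ℕ) [NeZero d] (f : ℍ → ℂ) :
    f ∣[k] heckeDiagMatrix d = ((d : ℂ) ^ (k - 1)) • (fun τ => f (scaleH d τ)) := by
  ext τ
  rw [slash_heckeDiagMatrix_apply k (NeZero.ne d)]
  have : heckeDiagMatrix d • τ = scaleH d τ := by
    apply UpperHalfPlane.ext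
    rw [coe_heckeDiagMatrix_smul (NeZero.ne d)]
    rfl
  simp [this]

theorem comp_scale_eq (k : ℤ) (d : ℕ) [NeZero d] (f : ℍ → ℂ) :
    (fun τ => f (scaleH d τ)) = ((d : ℂ) ^ (1 - k)) • (f ∣[k] heckeDiagMatrix d) := by
  have hd : (d : ℂ) ≠ 0 := by exact_mod_cast NeZero.ne d
  rw [slash_heckeDiag_eq, smul_smul, ← zpow_add₀ hd]
  simp

/-- Hermite decomposition `diag(d,1) γ = δ β` with `δ ∈ SL(2,ℤ)` and `β` upper triangular. -/
theorem exists_decomp_general (d : ℕ) [NeZero d] (γ : SL(2, ℤ)) :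
    ∃ (δ : SL(2, ℤ)) (β : GL (Fin 2) ℝ), β 1 0 = 0 ∧
      heckeDiagMatrix d * (γ : GL (Fin 2) ℝ) = (δ : GL (Fin 2) ℝ) * β := by
  have hd := NeZero.ne d
  have hdet : γ 0 0 * γ 1 1 - γ 0 1 * γ 1 0 = 1 := by
    have := γ.det_coe
    rwa [Matrix.det_fin_two] at this
  obtain ⟨u, v, a', c', β, α, δ, hα, hδ, hαδ, hbez, k1, k2, k3, k4⟩ :=
    Fermat.Agent.S24.helper77.hermite_int d hd _ _ _ _ hdet
  have hαδ' : (α : ℝ) * (δ : ℝ) ≠ 0 := by
    have : α * δ ≠ 0 := by rw [hαδ]; exact hd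
    exact_mod_cast this
  obtain ⟨σ, e00, e01, e10, e11⟩ : ∃ σ : SL(2, ℤ), σ 0 0 = a' ∧ σ 0 1 = -v ∧ σ 1 0 = c' ∧
      σ 1 1 = u :=
    ⟨⟨!![a', -v; c', u], by rw [Matrix.det_fin_two_of]; linarith⟩, rfl, rfl, rfl, rfl⟩
  refine ⟨σ, upperTriangularGL α β δ hαδ', by simp [upperTriangularGL], ?_⟩
  have k1R : (u : ℝ) * ((d : ℝ) * (γ 0 0 : ℤ)) + (v : ℝ) * (γ 1 0 : ℤ) = α := by
    exact_mod_cast congrArg (Int.cast : ℤ → ℝ) k1
  have k2R : -(c' : ℝ) * ((d : ℝ) * (γ 0 0 : ℤ)) + (a' : ℝ) * (γ 1 0 : ℤ) = 0 := by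
    exact_mod_cast congrArg (Int.cast : ℤ → ℝ) k2
  have k3R : (β : ℝ) = u * d * (γ 0 1 : ℤ) + v * (γ 1 1 : ℤ) := by
    exact_mod_cast congrArg (Int.cast : ℤ → ℝ) k3
  have k4R : (δ : ℝ) = -c' * d * (γ 0 1 : ℤ) + a' * (γ 1 1 : ℤ) := by
    exact_mod_cast congrArg (Int.cast : ℤ → ℝ) k4
  have hbR : (u : ℝ) * a' + v * c' = 1 := by exact_mod_cast congrArg (Int.cast : ℤ → ℝ) hbez
  apply Matrix.GeneralLinearGroup.ext
  intro i j
  simp only [Matrix.GeneralLinearGroup.coe_mul, val_heckeDiagMatrix hd,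
    val_upperTriangularGL, Matrix.mul_apply, Fin.sum_univ_two,
    Fermat.Agent.S16.helper24.coeGL_apply]
  fin_cases i <;> fin_cases j
  · simp [e00]
    linear_combination (a' : ℝ) * k1R - (v : ℝ) * k2R - ((d : ℝ) * (γ 0 0 : ℤ)) * hbR
  · simp [e00, e01]
    linear_combination (-(a' : ℝ)) * k3R + (v : ℝ) * k4R - ((d : ℝ) * (γ 0 1 : ℤ)) * hbR
  · simp [e10]
    linear_combination (c' : ℝ) * k1R + (u : ℝ) * k2R - ((γ 1 0 : ℤ) : ℝ) * hbR
  · simp [e10, e11]
    linear_combination (-(c' : ℝ)) * k3R - (u : ℝ) * k4R - ((γ 1 1 : ℤ) : ℝ) * hbR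


/-- Level raising `f(τ) ↦ f(d τ)`: `M_k(Γ₀(N)) → M_k(Γ₀(d N))`. -/
theorem isMF_comp_scale {N : ℕ} {k : ℤ} {f : ℍ → ℂ} (hf : IsMF N k f) (d : ℕ) [NeZero d] :
    IsMF (d * N) k (fun τ => f (scaleH d τ)) := by
  have hd := NeZero.ne d
  rw [comp_scale_eq k d f]
  refine IsMF.smul _ ⟨fun γ hγ => ?_, ?_, fun γ => ?_⟩
  · have h := Gamma0_mem.mp hγ
    rw [ZMod.intCast_zmod_eq_zero_iff_dvd] at h
    obtain ⟨c'', hc''⟩ := h
    have hc : γ 1 0 = d * ((N : ℤ) * c'') := by rw [hc'']; push_cast; ring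
    have hmem : Fermat.Agent.S16.helper24.conjSL d γ _ hc ∈ Gamma0 N := by
      rw [Gamma0_mem, ZMod.intCast_zmod_eq_zero_iff_dvd]
      exact ⟨c'', rfl⟩
    rw [SL_slash, ← SlashAction.slash_mul,
      Fermat.Agent.S16.helper24.heckeDiag_mul_eq hd γ _ hc, SlashAction.slash_mul, ← SL_slash,
      hf.slash _ hmem]
  · rw [slash_heckeDiag_eq]
    exact (hf.holo.comp (Fermat.Agent.S24.helper77.mdifferentiable_scaleH d)).const_smul _
  · obtain ⟨δ, β, hβ, h⟩ := exists_decomp_general d γ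
    rw [SL_slash, ← SlashAction.slash_mul, h, SlashAction.slash_mul, ← SL_slash]
    exact (hf.bdd δ).slash k hβ

/-- Slashing with an element of `SL(2,ℤ)` normalising `Γ₀(N)` preserves `M_k(Γ₀(N))`. -/
theorem isMF_slash_of_normalizes {N : ℕ} {k : ℤ} {f : ℍ → ℂ} (hf : IsMF N k f) (g : SL(2, ℤ))
    (hg : ∀ γ ∈ Gamma0 N, g * γ * g⁻¹ ∈ Gamma0 N) : IsMF N k (f ∣[k] g) := by
  refine ⟨fun γ hγ => ?_, ?_, fun γ => ?_⟩
  · have e : g * γ = (g * γ * g⁻¹) * g := by group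
    rw [← SlashAction.slash_mul, e, SlashAction.slash_mul, hf.slash _ (hg γ hγ)]
  · rw [SL_slash]
    exact hf.holo.slash k _
  · rw [← SlashAction.slash_mul]
    exact hf.bdd _

/-- Lowering the group: `M_k(Γ₀(N)) ⊆ M_k(Γ₀(M))` for `N ∣ M`. -/
theorem isMF_of_dvd {N M : ℕ} {k : ℤ} {f : ℍ → ℂ} (hf : IsMF N k f) (h : N ∣ M) :
    IsMF M k f :=
  ⟨fun γ hγ => hf.slash γ (Fermat.Agent.S24.helper37.Gamma0_le_of_dvd h hγ), hf.holo, hf.bdd⟩

theorem isMF_congr_weight {N : ℕ} {k k' : ℤ} {f : ℍ → ℂ} (hf : IsMF N k f) (h : k = k') :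
    IsMF N k' f := h ▸ hf


/-! ### `q`-expansions -/

theorem isNice_of_isMF {N : ℕ} [NeZero N] {k : ℤ} {f : ℍ → ℂ} (hf : IsMF N k f) : IsNice f where
  periodic := SlashInvariantFormClass.periodic_comp_ofComplex hf.toModularForm
    (CongruenceSubgroup.one_mem_strictPeriods_Gamma0 N)
  mdiff := hf.holo
  bdd := by
    have := hf.bdd 1
    rwa [SlashAction.slash_one] at this

/-- Sturm bound for `Γ₀(N)` in predicate form. -/
theorem sturm_isMF {N : ℕ} [NeZero N] {k : ℤ} {f : ℍ → ℂ} (hf : IsMF N k f)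
    (h : ∀ n : ℕ, n ≤ (k * (ModularCurve.dedekindPsi N : ℤ)).toNat / 12 →
      (qExpansion 1 f).coeff n = 0) : f = 0 := by
  have h0 : hf.toModularForm = 0 := by
    refine ModularForm.sturm_bound_Gamma0 N _ fun n hn => ?_
    rw [Fermat.Agent.S24.helper37.index_Gamma0 N (NeZero.ne N)] at hn
    exact h n hn
  have := congrArg (fun F : ModularForm (Gamma0 N) k => (F : ℍ → ℂ)) h0
  simpa using this

/-- `f` is a modular form of weight `k` on `Γ₀(N)` whose `q`-expansion is the integral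
power series `P`. -/
structure MFQ (N : ℕ) (k : ℤ) (f : ℍ → ℂ) (P : PowerSeries ℤ) : Prop where
  isMF : IsMF N k f
  qexp : qExpansion 1 f = P.map (Int.castRingHom ℂ)

namespace MFQ

variable {N : ℕ} [NeZero N] {k k₁ k₂ : ℤ} {f g : ℍ → ℂ} {P Q : PowerSeries ℤ}

theorem nice (hf : MFQ N k f P) : IsNice f := isNice_of_isMF hf.isMF

theorem mul (hf : MFQ N k₁ f P) (hg : MFQ N k₂ g Q) (hk : k₁ + k₂ = k) :
    MFQ N k (f * g) (P * Q) where
  isMF := isMF_congr_weight (hf.isMF.mul hg.isMF) hk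
  qexp := by rw [hf.nice.qExpansion_mul hg.nice, hf.qexp, hg.qexp, map_mul]

theorem add (hf : MFQ N k f P) (hg : MFQ N k g Q) : MFQ N k (f + g) (P + Q) where
  isMF := hf.isMF.add hg.isMF
  qexp := by rw [hf.nice.qExpansion_add hg.nice, hf.qexp, hg.qexp, map_add]

theorem smul (c : ℤ) (hf : MFQ N k f P) : MFQ N k ((c : ℂ) • f) (PowerSeries.C c * P) where
  isMF := hf.isMF.smul _
  qexp := by
    rw [qExpansion_smul hf.nice.analyticAt, hf.qexp]
    ext n
    rw [PowerSeries.coeff_smul, PowerSeries.coeff_map, PowerSeries.coeff_map,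
      PowerSeries.coeff_C_mul]
    simp

theorem neg (hf : MFQ N k f P) : MFQ N k (-f) (-P) where
  isMF := by
    have := hf.isMF.smul (-1)
    simpa using this
  qexp := by rw [qExpansion_neg hf.nice.analyticAt, hf.qexp, map_neg]

theorem sub (hf : MFQ N k f P) (hg : MFQ N k g Q) : MFQ N k (f - g) (P - Q) := by
  have := hf.add hg.neg
  rwa [← sub_eq_add_neg, ← sub_eq_add_neg] at this

theorem pow (hf : MFQ N k₁ f P) (n : ℕ) (hk : (n : ℤ) * k₁ = k) : MFQ N k (f ^ n) (P ^ n) where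
  isMF := isMF_congr_weight (Fermat.Agent.S20.helper29.isMF_pow hf.isMF n) hk
  qexp := by rw [hf.nice.qExpansion_pow, hf.qexp, map_pow]

omit [NeZero N] in
theorem of_dvd {M : ℕ} (hf : MFQ N k f P) (h : N ∣ M) : MFQ M k f P :=
  ⟨isMF_of_dvd hf.isMF h, hf.qexp⟩

theorem comp_scale (hf : MFQ N k f P) (d : ℕ) [NeZero d] :
    MFQ (d * N) k (fun τ => f (scaleH d τ)) (ex d P) where
  isMF := isMF_comp_scale hf.isMF d
  qexp := by
    rw [hf.nice.qExpansion_comp_scale d, hf.qexp]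
    ext n
    rw [Fermat.Agent.S24.helper17.coeff_expandPS, PowerSeries.coeff_map, PowerSeries.coeff_map,
      coeff_ex]
    split_ifs <;> simp

/-- Two modular forms of the same weight and level whose integral `q`-expansions agree up to
the Sturm bound have the same `q`-expansion. -/
theorem eq_of_coeff (hf : MFQ N k f P) (hg : MFQ N k g Q)
    (h : ∀ n : ℕ, n ≤ (k * (ModularCurve.dedekindPsi N : ℤ)).toNat / 12 →
      PowerSeries.coeff n P = PowerSeries.coeff n Q) : P = Q := by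
  have hs := hf.sub hg
  have h0 : f - g = 0 := by
    refine sturm_isMF hs.isMF fun n hn => ?_
    rw [hs.qexp, PowerSeries.coeff_map, map_sub, h n hn, sub_self, map_zero]
  have h1 : (P - Q).map (Int.castRingHom ℂ) = 0 := by
    rw [← hs.qexp, h0]
    exact qExpansion_zero 1
  have h2 : P - Q = 0 := by
    ext n
    have := congrArg (PowerSeries.coeff n) h1
    rw [PowerSeries.coeff_map, map_zero] at this
    have h3 : ((PowerSeries.coeff n (P - Q) : ℤ) : ℂ) = 0 := this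
    exact_mod_cast h3
  exact sub_eq_zero.mp h2

end MFQ

end Fermat.Agent.P2.helper66
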