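import Mathlib
import Fermat.Agent.P2.helper66_HauptMF
import Fermat.Agent.S23.LevelOne
import Fermat.Agent.P2.helper66_HauptDefs

/-!
# P2-[HAUPT] (helper66), part 3b: `E₄`, `Δ` and the twist `∑_{n ≡ 1 (3)} a_n qⁿ` of `E₄`
as modular forms on `Γ₀(N)` with integral `q`-expansions
-/

set_option autoImplicit false

noncomputable section

namespace Fermat.Agent.P2.helper66

open UpperHalfPlane ModularForm CongruenceSubgroup Matrix
open Fermat.Agent.S20 (IsMF)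
open Fermat.Agent.S24 (scaleH)
open Fermat.Agent.S24.helper17 (IsNice)
open Fermat.Agent.S23 (sigmaSeries e4Int deltaInt)
open scoped MatrixGroups Manifold Real

/-! ### Level one -/

theorem mfq_E₄ : MFQ 1 4 (E₄ : ℍ → ℂ) e4Int :=
  ⟨Fermat.Agent.S20.helper29.isMF_E₄, Fermat.Agent.S23.qExpansion_E₄⟩

theorem mfq_discriminant : MFQ 1 12 (discriminant : ℍ → ℂ) deltaInt :=
  ⟨Fermat.Agent.S20.helper29.isMF_discriminant, Fermat.Agent.S23.qExpansion_discriminant_eq_map⟩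

/-- `E₄(d τ)` as a form of level `d`. -/
theorem mfq_E₄_scale (d : ℕ) [NeZero d] :
    MFQ d 4 (fun τ => E₄ (scaleH d τ)) (ex d e4Int) := by
  have := mfq_E₄.comp_scale d
  rwa [mul_one] at this

theorem mfq_discriminant_scale (d : ℕ) [NeZero d] :
    MFQ d 12 (fun τ => discriminant (scaleH d τ)) (ex d deltaInt) := by
  have := mfq_discriminant.comp_scale d
  rwa [mul_one] at this

/-! ### The elements `[1, 0; 3ε, 1]` normalise `Γ₀(9)` -/

/-- The matrix `[1, 0; 3 ε, 1]`. -/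
def lowerThree (ε : ℤ) : SL(2, ℤ) := ⟨!![1, 0; 3 * ε, 1], by simp [Matrix.det_fin_two_of]⟩

@[simp] theorem lowerThree_00 (ε : ℤ) : lowerThree ε 0 0 = 1 := rfl
@[simp] theorem lowerThree_01 (ε : ℤ) : lowerThree ε 0 1 = 0 := rfl
@[simp] theorem lowerThree_10 (ε : ℤ) : lowerThree ε 1 0 = 3 * ε := rfl
@[simp] theorem lowerThree_11 (ε : ℤ) : lowerThree ε 1 1 = 1 := rfl

theorem lowerThree_inv (ε : ℤ) : (lowerThree ε)⁻¹ = lowerThree (-ε) := by
  rw [inv_eq_iff_mul_eq_one]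
  ext i j
  rw [Matrix.SpecialLinearGroup.coe_mul, Matrix.mul_apply, Fin.sum_univ_two]
  fin_cases i <;> fin_cases j <;> simp

theorem lowerThree_normalizes (ε : ℤ) (γ : SL(2, ℤ)) (hγ : γ ∈ Gamma0 9) :
    lowerThree ε * γ * (lowerThree ε)⁻¹ ∈ Gamma0 9 := by
  have hdet : γ 0 0 * γ 1 1 - γ 0 1 * γ 1 0 = 1 := by
    have := γ.det_coe
    rwa [Matrix.det_fin_two] at this
  have h := Gamma0_mem.mp hγ
  rw [ZMod.intCast_zmod_eq_zero_iff_dvd] at h
  obtain ⟨c, hc⟩ := h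
  -- `a ≡ d mod 3`
  have h3 : (3 : ℤ) ∣ γ 0 0 - γ 1 1 := by
    have key : ∀ a d : ZMod 3, a * d = 1 → a - d = 0 := by decide
    have h1 : ((γ 0 0 : ℤ) : ZMod 3) * ((γ 1 1 : ℤ) : ZMod 3) = 1 := by
      have := congrArg (Int.cast : ℤ → ZMod 3) hdet
      rw [hc] at this
      push_cast at this
      have h9 : ((9 : ℕ) : ZMod 3) = 0 := by decide
      simp only [Nat.cast_ofNat] at h9
      rw [h9, zero_mul, mul_zero, sub_zero] at this
      exact this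
    have := key _ _ h1
    rw [← Int.cast_sub] at this
    exact (ZMod.intCast_zmod_eq_zero_iff_dvd _ 3).mp this
  obtain ⟨m, hm⟩ := h3
  rw [Gamma0_mem, ZMod.intCast_zmod_eq_zero_iff_dvd]
  have e : (lowerThree ε * γ * (lowerThree ε)⁻¹) 1 0 =
      3 * ε * (γ 0 0 - γ 1 1) + γ 1 0 - 9 * ε * ε * γ 0 1 := by
    rw [lowerThree_inv]
    simp only [Matrix.SpecialLinearGroup.coe_mul, Matrix.mul_apply, Fin.sum_univ_two,
      lowerThree_00, lowerThree_10, lowerThree_11]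
    ring
  rw [e, hm, hc]
  exact ⟨ε * m + c - ε * ε * γ 0 1, by push_cast; ring⟩


/-! ### Translation by `ε / 3` -/

/-- The matrix `[3, -ε; ε, 0]` (for `ε² = 1`). -/
def gamThree (ε : ℤ) (hε : ε * ε = 1) : SL(2, ℤ) :=
  ⟨!![3, -ε; ε, 0], by rw [Matrix.det_fin_two_of]; linarith⟩

@[simp] theorem gamThree_00 (ε : ℤ) (hε : ε * ε = 1) : gamThree ε hε 0 0 = 3 := rfl
@[simp] theorem gamThree_01 (ε : ℤ) (hε : ε * ε = 1) : gamThree ε hε 0 1 = -ε := rfl
@[simp] theorem gamThree_10 (ε : ℤ) (hε : ε * ε = 1) : gamThree ε hε 1 0 = ε := rfl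
@[simp] theorem gamThree_11 (ε : ℤ) (hε : ε * ε = 1) : gamThree ε hε 1 1 = 0 := rfl

/-- Translation by `ε / 3` on the upper half plane. -/
def trans3 (ε : ℤ) (τ : ℍ) : ℍ := ((ε : ℝ) / 3) +ᵥ τ

theorem coe_trans3 (ε : ℤ) (τ : ℍ) : ((trans3 ε τ : ℍ) : ℂ) = (ε : ℂ) / 3 + τ := by
  rw [trans3, UpperHalfPlane.coe_vadd]
  push_cast
  rfl

theorem denom_lowerThree (ε : ℤ) (τ : ℍ) :
    denom (lowerThree ε) τ = 3 * (ε : ℂ) * τ + 1 := by
  rw [ModularGroup.denom_apply]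
  simp

theorem denom_gamThree (ε : ℤ) (hε : ε * ε = 1) (w : ℍ) :
    denom (gamThree ε hε) w = (ε : ℂ) * w := by
  rw [ModularGroup.denom_apply]
  simp

theorem scale_lowerThree_eq (ε : ℤ) (hε : ε * ε = 1) (τ : ℍ) :
    scaleH 9 (lowerThree ε • τ) = gamThree ε hε • trans3 ε τ := by
  have hεC : (ε : ℂ) * ε = 1 := by exact_mod_cast congrArg (Int.cast : ℤ → ℂ) hε
  have h1 := Fermat.Agent.S24.helper77.SL_denom_ne_zero (lowerThree ε) τ
  have h2 := Fermat.Agent.S24.helper77.SL_denom_ne_zero (gamThree ε hε) (trans3 ε τ)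
  apply UpperHalfPlane.ext
  rw [Fermat.Agent.S24.helper77.coe_scaleH, Fermat.Agent.S24.helper77.coe_SL_smul,
    Fermat.Agent.S24.helper77.coe_SL_smul, coe_trans3]
  rw [coe_trans3] at h2
  simp only [lowerThree_00, lowerThree_01, lowerThree_10, lowerThree_11, gamThree_00,
    gamThree_01, gamThree_10, gamThree_11] at h1 h2 ⊢
  push_cast at h1 h2 ⊢
  have h3 : (ε : ℂ) * ((ε : ℂ) / 3 + τ) = (3 * (ε : ℂ) * τ + 1) / 3 := by
    linear_combination (1 / 3 : ℂ) * hεC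
  have h4 : (3 : ℂ) * ((ε : ℂ) / 3 + τ) + -(ε : ℂ) = 3 * τ := by ring
  simp only [add_zero, one_mul] at h1 h2 ⊢
  rw [h3] at h2 ⊢
  rw [h4]
  field_simp
  ring

theorem E₄_smul_eq (g : SL(2, ℤ)) (w : ℍ) : E₄ (g • w) = E₄ w * denom g w ^ (4 : ℕ) := by
  have h := congrFun (Fermat.Agent.S20.helper29.isMF_E₄.slash_one g) w
  rw [SL_slash_apply] at h
  have hd : denom g w ≠ 0 := denom_ne_zero g w
  rw [← h, mul_assoc, _root_.zpow_neg, ← zpow_natCast]
  have : ((4 : ℕ) : ℤ) = 4 := rfl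
  rw [this, inv_mul_cancel₀ (zpow_ne_zero 4 hd), mul_one]

/-- `E₄(9 ·) ∣ [1, 0; 3ε, 1] = 3⁻⁴ E₄(· + ε/3)`. -/
theorem E₄_scale_slash_lowerThree (ε : ℤ) (hε : ε * ε = 1) :
    (fun τ => E₄ (scaleH 9 τ)) ∣[(4 : ℤ)] lowerThree ε =
      ((3 : ℂ)⁻¹ ^ 4) • fun τ => E₄ (trans3 ε τ) := by
  have hεC : (ε : ℂ) * ε = 1 := by exact_mod_cast congrArg (Int.cast : ℤ → ℂ) hε
  ext τ
  rw [SL_slash_apply]
  simp only [Pi.smul_apply, smul_eq_mul]
  rw [scale_lowerThree_eq ε hε, E₄_smul_eq, denom_gamThree, denom_lowerThree, coe_trans3]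
  have hd : (3 * (ε : ℂ) * τ + 1) ≠ 0 := by
    rw [← denom_lowerThree]
    exact denom_ne_zero _ τ
  have h3 : (ε : ℂ) * ((ε : ℂ) / 3 + τ) = (3 * (ε : ℂ) * τ + 1) / 3 := by
    linear_combination (1 / 3 : ℂ) * hεC
  rw [h3, _root_.zpow_neg, div_pow]
  have h4 : (3 * (ε : ℂ) * τ + 1) ^ (4 : ℤ) = (3 * (ε : ℂ) * τ + 1) ^ (4 : ℕ) := by
    rw [← zpow_natCast]; rfl
  rw [h4]
  field_simp

/-- `E₄(τ + ε/3)` is a modular form of weight 4 on `Γ₀(9)`. -/
theorem isMF_E₄_trans3 (ε : ℤ) (hε : ε * ε = 1) : IsMF 9 4 (fun τ => E₄ (trans3 ε τ)) := by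
  have h1 : IsMF 9 4 ((fun τ => E₄ (scaleH 9 τ)) ∣[(4 : ℤ)] lowerThree ε) :=
    isMF_slash_of_normalizes (mfq_E₄_scale 9).isMF _ (lowerThree_normalizes ε)
  rw [E₄_scale_slash_lowerThree ε hε] at h1
  have h2 := h1.smul ((3 : ℂ) ^ 4)
  rw [smul_smul] at h2
  have : (3 : ℂ) ^ 4 * (3 : ℂ)⁻¹ ^ 4 = 1 := by norm_num
  rwa [this, one_smul] at h2


/-! ### The projection of `E₄` to exponents `≡ 1 mod 3` -/

/-- The primitive cube root of unity `exp(2πi/3)`. -/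
def ω3 : ℂ := Complex.exp (2 * π * Complex.I / 3)

theorem ω3_pow_three : ω3 ^ 3 = 1 := by
  rw [ω3, ← Complex.exp_nat_mul]
  have : ((3 : ℕ) : ℂ) * (2 * π * Complex.I / 3) = 2 * π * Complex.I := by
    push_cast; ring
  rw [this, Complex.exp_two_pi_mul_I]

theorem ω3_sum : 1 + ω3 + ω3 ^ 2 = 0 := by
  have h := (Complex.isPrimitiveRoot_exp 3 (by norm_num)).geom_sum_eq_zero (by norm_num)
  rw [Finset.sum_range_succ, Finset.sum_range_succ, Finset.sum_range_one] at h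
  have e : Complex.exp (2 * π * Complex.I / (3 : ℕ)) = ω3 := by
    rw [ω3]; norm_num
  rw [e] at h
  simpa using h

theorem ω3_ne_zero : ω3 ≠ 0 := Complex.exp_ne_zero _

theorem ω3_inv : ω3⁻¹ = ω3 ^ 2 :=
  inv_eq_of_mul_eq_one_right (by rw [← pow_succ']; exact ω3_pow_three)

theorem ω3_coeff (m : ℕ) :
    1 + ω3 ^ 2 * ω3 ^ m + ω3 * (ω3 ^ 2) ^ m = if m % 3 = 1 then 3 else 0 := by
  obtain ⟨j, r, hr, rfl⟩ : ∃ j r, r < 3 ∧ m = 3 * j + r :=
    ⟨m / 3, m % 3, Nat.mod_lt _ (by norm_num), (Nat.div_add_mod m 3).symm⟩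
  have h3 := ω3_pow_three
  have hs := ω3_sum
  have e1 : ω3 ^ (3 * j + r) = ω3 ^ r := by
    rw [pow_add, pow_mul, h3, one_pow, one_mul]
  have e2 : (ω3 ^ 2) ^ (3 * j + r) = (ω3 ^ 2) ^ r := by
    rw [pow_add, ← pow_mul, ← pow_mul, show 2 * (3 * j) = 3 * (2 * j) by ring, pow_mul, h3,
      one_pow, one_mul, pow_mul]
  rw [e1, e2]
  have hmod : (3 * j + r) % 3 = r := by
    rw [Nat.mul_add_mod]; exact Nat.mod_eq_of_lt hr
  rw [hmod]
  interval_cases r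
  · norm_num
    linear_combination hs
  · norm_num
    linear_combination (2 : ℂ) * h3
  · norm_num
    linear_combination hs + (ω3 + ω3 ^ 2) * h3

theorem qParam_trans3 (ε : ℤ) (τ : ℍ) :
    Function.Periodic.qParam 1 (trans3 ε τ : ℂ) =
      Complex.exp (2 * π * Complex.I * ε / 3) * Function.Periodic.qParam 1 (τ : ℂ) := by
  rw [coe_trans3, Function.Periodic.qParam, Function.Periodic.qParam, ← Complex.exp_add]
  congr 1
  push_cast
  ring

theorem qParam_trans3_one (τ : ℍ) :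
    Function.Periodic.qParam 1 (trans3 1 τ : ℂ) = ω3 * Function.Periodic.qParam 1 (τ : ℂ) := by
  rw [qParam_trans3, ω3]
  congr 2
  push_cast
  ring

theorem qParam_trans3_neg_one (τ : ℍ) :
    Function.Periodic.qParam 1 (trans3 (-1) τ : ℂ) =
      ω3 ^ 2 * Function.Periodic.qParam 1 (τ : ℂ) := by
  rw [qParam_trans3, ← ω3_inv, ω3, ← Complex.exp_neg]
  congr 2
  push_cast
  ring

/-- `3 P₁ E₄ = E₄(τ) + ω² E₄(τ + 1/3) + ω E₄(τ - 1/3)`. -/
def gFun : ℍ → ℂ :=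
  (E₄ : ℍ → ℂ) + ((ω3 ^ 2) • fun τ => E₄ (trans3 1 τ)) + (ω3 • fun τ => E₄ (trans3 (-1) τ))

theorem isMF_gFun : IsMF 9 4 gFun :=
  ((isMF_of_dvd mfq_E₄.isMF (one_dvd 9)).add ((isMF_E₄_trans3 1 (by norm_num)).smul _)).add
    ((isMF_E₄_trans3 (-1) (by norm_num)).smul _)

theorem coeff_e4Int (m : ℕ) :
    PowerSeries.coeff m e4Int = if m = 0 then 1 else 240 * (ArithmeticFunction.sigma 3 m : ℤ) := by
  rw [e4Int, map_add, PowerSeries.coeff_one, PowerSeries.coeff_C_mul,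
    Fermat.Agent.S23.coeff_sigmaSeries]
  split_ifs with h
  · subst h; simp
  · simp

theorem mfq_gFun : MFQ 9 4 gFun (PowerSeries.C 720 * p1) where
  isMF := isMF_gFun
  qexp := by
    refine (isNice_of_isMF isMF_gFun).qExpansion_eq_of_hasSum _ fun τ => ?_
    have h0 := mfq_E₄.nice.hasSum τ
    have h1 := mfq_E₄.nice.hasSum (trans3 1 τ)
    have h2 := mfq_E₄.nice.hasSum (trans3 (-1) τ)
    rw [qParam_trans3_one] at h1
    rw [qParam_trans3_neg_one] at h2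
    have h := (h0.add (h1.mul_left (ω3 ^ 2))).add (h2.mul_left ω3)
    have e : gFun τ = E₄ τ + ω3 ^ 2 * E₄ (trans3 1 τ) + ω3 * E₄ (trans3 (-1) τ) := rfl
    rw [e]
    convert h using 2 with m
    have hP : PowerSeries.coeff m ((PowerSeries.C 720 * p1).map (Int.castRingHom ℂ)) =
        PowerSeries.coeff m (qExpansion 1 (E₄ : ℍ → ℂ)) * (if m % 3 = 1 then 3 else 0) := by
      rw [mfq_E₄.qexp, PowerSeries.coeff_map, PowerSeries.coeff_map, PowerSeries.coeff_C_mul, p1,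
        PowerSeries.coeff_mk, coeff_e4Int]
      by_cases hm : m % 3 = 1
      · have hm0 : m ≠ 0 := by rintro rfl; simp at hm
        rw [if_pos hm, if_pos hm, if_neg hm0]
        simp only [eq_intCast]
        push_cast
        ring
      · rw [if_neg hm, if_neg hm]
        simp
    rw [hP, ← ω3_coeff m]
    simp only [smul_eq_mul, mul_pow]
    ring

end Fermat.Agent.P2.helper66
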