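import Mathlib
import Fermat.Agent.P2.helper66_HauptDefs

/-!
# P2-[HAUPT] (helper66), part 2: certified coefficients (generated file)

For each of the eight identities `F2a, ..., F9b` both sides have the same first 17 coefficients.
Every step is a kernel computation on literal integer lists.
-/

set_option autoImplicit false
set_option maxRecDepth 100000

namespace Fermat.Agent.P2.helper66

open PowerSeries

theorem tr_one : Tr 17 ((1 : PowerSeries ℤ))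
    [1] :=
  Tr.one 17

theorem tr_s3 : Tr 17 (s3)
    [0, 1, 9, 28, 73, 126, 252, 344, 585, 757, 1134, 1332, 2044, 2198, 3096, 3528, 4681] :=
  by
  intro n hn
  rw [s3, Fermat.Agent.S23.coeff_sigmaSeries]
  revert n
  decide +kernel

theorem tr_s5 : Tr 17 (Fermat.Agent.S23.sigmaSeries 5)
    [0, 1, 33, 244, 1057, 3126, 8052, 16808, 33825, 59293, 103158, 161052, 257908, 371294, 554664, 762744, 1082401] :=
  by
  intro n hn
  rw [Fermat.Agent.S23.coeff_sigmaSeries]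
  revert n
  decide +kernel

theorem tr_cSeries : Tr 17 (Fermat.Agent.S23.cSeries)
    [0, 1, 23, 154, 647, 1876, 4802, 9948, 19975, 34903, 60648, 94502, 151298, 217504, 324844, 446404, 633351] :=
  by
  intro n hn
  rw [Fermat.Agent.S23.cSeries, PowerSeries.coeff_mk]
  revert n
  decide +kernel

theorem tr_p1 : Tr 17 (p1)
    [0, 1, 0, 0, 73, 0, 0, 344, 0, 0, 1134, 0, 0, 2198, 0, 0, 4681] :=
  by
  intro n hn
  rw [p1, PowerSeries.coeff_mk]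
  revert n
  decide +kernel

theorem tr_6 : Tr 17 (ex 2 s3)
    [0, 0, 1, 0, 9, 0, 28, 0, 73, 0, 126, 0, 252, 0, 344, 0, 585] :=
  Tr.ex tr_s3 2 _ (by decide +kernel)

theorem tr_7 : Tr 17 (ex 3 s3)
    [0, 0, 0, 1, 0, 0, 9, 0, 0, 28, 0, 0, 73, 0, 0, 126, 0] :=
  Tr.ex tr_s3 3 _ (by decide +kernel)

theorem tr_8 : Tr 17 (ex 4 s3)
    [0, 0, 0, 0, 1, 0, 0, 0, 9, 0, 0, 0, 28, 0, 0, 0, 73] :=
  Tr.ex tr_s3 4 _ (by decide +kernel)

theorem tr_9 : Tr 17 (ex 9 s3)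
    [0, 0, 0, 0, 0, 0, 0, 0, 0, 1, 0, 0, 0, 0, 0, 0, 0] :=
  Tr.ex tr_s3 9 _ (by decide +kernel)

theorem tr_10 : Tr 17 (s3 ^ 2)
    [0, 0, 1, 18, 137, 650, 2350, 6860, 17609, 39870, 83976, 162382, 301070, 522886, 885284, 1424468, 2254537] :=
  Tr.pow tr_s3 2 _ (by decide +kernel)

theorem tr_11 : Tr 17 (PowerSeries.C (100 : ℤ) * (s3 ^ 2))
    [0, 0, 100, 1800, 13700, 65000, 235000, 686000, 1760900, 3987000, 8397600, 16238200, 30107000, 52288600, 88528400, 142446800, 225453700] :=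
  Tr.smul tr_10 (100) _ (by decide +kernel)

theorem tr_12 : Tr 17 (Fermat.Agent.S23.cSeries + (PowerSeries.C (100 : ℤ) * (s3 ^ 2)))
    [0, 1, 123, 1954, 14347, 66876, 239802, 695948, 1780875, 4021903, 8458248, 16332702, 30258298, 52506104, 88853244, 142893204, 226087051] :=
  Tr.add tr_cSeries tr_11 _ (by decide +kernel)

theorem tr_13 : Tr 17 (s3 ^ 3)
    [0, 0, 0, 1, 27, 327, 2460, 13476, 58731, 214741, 685182, 1954953, 5095048, 12285903, 27778566, 59311440, 120695979] :=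
  Tr.pow tr_s3 3 _ (by decide +kernel)

theorem tr_14 : Tr 17 (PowerSeries.C (8000 : ℤ) * (s3 ^ 3))
    [0, 0, 0, 8000, 216000, 2616000, 19680000, 107808000, 469848000, 1717928000, 5481456000, 15639624000, 40760384000, 98287224000, 222228528000, 474491520000, 965567832000] :=
  Tr.smul tr_13 (8000) _ (by decide +kernel)

theorem tr_15 : Tr 17 ((Fermat.Agent.S23.cSeries + (PowerSeries.C (100 : ℤ) * (s3 ^ 2))) + (PowerSeries.C (8000 : ℤ) * (s3 ^ 3)))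
    [0, 1, 123, 9954, 230347, 2682876, 19919802, 108503948, 471628875, 1721949903, 5489914248, 15655956702, 40790642298, 98339730104, 222317381244, 474634413204, 965793919051] :=
  Tr.add tr_12 tr_14 _ (by decide +kernel)

theorem tr_16 : Tr 17 ((Fermat.Agent.S23.sigmaSeries 5) ^ 2)
    [0, 0, 1, 66, 1577, 18218, 135550, 738236, 3207785, 11714718, 37347144, 106499470, 277489886, 668981686, 1512360404, 3228797252, 6570019945] :=
  Tr.pow tr_s5 2 _ (by decide +kernel)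

theorem tr_17 : Tr 17 (PowerSeries.C (147 : ℤ) * ((Fermat.Agent.S23.sigmaSeries 5) ^ 2))
    [0, 0, 147, 9702, 231819, 2678046, 19925850, 108520692, 471544395, 1722063546, 5490030168, 15655422090, 40791013242, 98340307842, 222316979388, 474633196044, 965792931915] :=
  Tr.smul tr_16 (147) _ (by decide +kernel)

theorem tr_18 : Tr 17 (((Fermat.Agent.S23.cSeries + (PowerSeries.C (100 : ℤ) * (s3 ^ 2))) + (PowerSeries.C (8000 : ℤ) * (s3 ^ 3))) - (PowerSeries.C (147 : ℤ) * ((Fermat.Agent.S23.sigmaSeries 5) ^ 2)))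
    [0, 1, -24, 252, -1472, 4830, -6048, -16744, 84480, -113643, -115920, 534612, -370944, -577738, 401856, 1217160, 987136] :=
  Tr.sub tr_15 tr_17 _ (by decide +kernel)

theorem tr_deltaInt : Tr 17 (Fermat.Agent.S23.deltaInt)
    [0, 1, -24, 252, -1472, 4830, -6048, -16744, 84480, -113643, -115920, 534612, -370944, -577738, 401856, 1217160, 987136] :=
  tr_18

theorem tr_20 : Tr 17 (PowerSeries.C (256 : ℤ) * (ex 2 s3))
    [0, 0, 256, 0, 2304, 0, 7168, 0, 18688, 0, 32256, 0, 64512, 0, 88064, 0, 149760] :=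
  Tr.smul tr_6 (256) _ (by decide +kernel)

theorem tr_21 : Tr 17 ((1 : PowerSeries ℤ) + (PowerSeries.C (256 : ℤ) * (ex 2 s3)))
    [1, 0, 256, 0, 2304, 0, 7168, 0, 18688, 0, 32256, 0, 64512, 0, 88064, 0, 149760] :=
  Tr.add tr_one tr_20 _ (by decide +kernel)

theorem tr_22 : Tr 17 (PowerSeries.C (16 : ℤ) * s3)
    [0, 16, 144, 448, 1168, 2016, 4032, 5504, 9360, 12112, 18144, 21312, 32704, 35168, 49536, 56448, 74896] :=
  Tr.smul tr_s3 (16) _ (by decide +kernel)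

theorem tr_23 : Tr 17 (((1 : PowerSeries ℤ) + (PowerSeries.C (256 : ℤ) * (ex 2 s3))) - (PowerSeries.C (16 : ℤ) * s3))
    [1, -16, 112, -448, 1136, -2016, 3136, -5504, 9328, -12112, 14112, -21312, 31808, -35168, 38528, -56448, 74864] :=
  Tr.sub tr_21 tr_22 _ (by decide +kernel)

theorem tr_A2 : Tr 17 (A2)
    [1, -16, 112, -448, 1136, -2016, 3136, -5504, 9328, -12112, 14112, -21312, 31808, -35168, 38528, -56448, 74864] :=
  tr_23

theorem tr_25 : Tr 17 (s3 - (ex 2 s3))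
    [0, 1, 8, 28, 64, 126, 224, 344, 512, 757, 1008, 1332, 1792, 2198, 2752, 3528, 4096] :=
  Tr.sub tr_s3 tr_6 _ (by decide +kernel)

theorem tr_B2 : Tr 17 (B2)
    [0, 1, 8, 28, 64, 126, 224, 344, 512, 757, 1008, 1332, 1792, 2198, 2752, 3528, 4096] :=
  tr_25

theorem tr_27 : Tr 17 (PowerSeries.C (243 : ℤ) * (ex 3 s3))
    [0, 0, 0, 243, 0, 0, 2187, 0, 0, 6804, 0, 0, 17739, 0, 0, 30618, 0] :=
  Tr.smul tr_7 (243) _ (by decide +kernel)

theorem tr_28 : Tr 17 ((1 : PowerSeries ℤ) + (PowerSeries.C (243 : ℤ) * (ex 3 s3)))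
    [1, 0, 0, 243, 0, 0, 2187, 0, 0, 6804, 0, 0, 17739, 0, 0, 30618, 0] :=
  Tr.add tr_one tr_27 _ (by decide +kernel)

theorem tr_29 : Tr 17 (PowerSeries.C (3 : ℤ) * s3)
    [0, 3, 27, 84, 219, 378, 756, 1032, 1755, 2271, 3402, 3996, 6132, 6594, 9288, 10584, 14043] :=
  Tr.smul tr_s3 (3) _ (by decide +kernel)

theorem tr_30 : Tr 17 (((1 : PowerSeries ℤ) + (PowerSeries.C (243 : ℤ) * (ex 3 s3))) - (PowerSeries.C (3 : ℤ) * s3))
    [1, -3, -27, 159, -219, -378, 1431, -1032, -1755, 4533, -3402, -3996, 11607, -6594, -9288, 20034, -14043] :=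
  Tr.sub tr_28 tr_29 _ (by decide +kernel)

theorem tr_A3 : Tr 17 (A3)
    [1, -3, -27, 159, -219, -378, 1431, -1032, -1755, 4533, -3402, -3996, 11607, -6594, -9288, 20034, -14043] :=
  tr_30

theorem tr_32 : Tr 17 (s3 - (ex 3 s3))
    [0, 1, 9, 27, 73, 126, 243, 344, 585, 729, 1134, 1332, 1971, 2198, 3096, 3402, 4681] :=
  Tr.sub tr_s3 tr_7 _ (by decide +kernel)

theorem tr_B3 : Tr 17 (B3)
    [0, 1, 9, 27, 73, 126, 243, 344, 585, 729, 1134, 1332, 1971, 2198, 3096, 3402, 4681] :=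
  tr_32

theorem tr_34 : Tr 17 (PowerSeries.C (17 : ℤ) * (ex 2 s3))
    [0, 0, 17, 0, 153, 0, 476, 0, 1241, 0, 2142, 0, 4284, 0, 5848, 0, 9945] :=
  Tr.smul tr_6 (17) _ (by decide +kernel)

theorem tr_35 : Tr 17 (s3 - (PowerSeries.C (17 : ℤ) * (ex 2 s3)))
    [0, 1, -8, 28, -80, 126, -224, 344, -656, 757, -1008, 1332, -2240, 2198, -2752, 3528, -5264] :=
  Tr.sub tr_s3 tr_34 _ (by decide +kernel)

theorem tr_36 : Tr 17 (PowerSeries.C (16 : ℤ) * (ex 4 s3))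
    [0, 0, 0, 0, 16, 0, 0, 0, 144, 0, 0, 0, 448, 0, 0, 0, 1168] :=
  Tr.smul tr_8 (16) _ (by decide +kernel)

theorem tr_37 : Tr 17 ((s3 - (PowerSeries.C (17 : ℤ) * (ex 2 s3))) + (PowerSeries.C (16 : ℤ) * (ex 4 s3)))
    [0, 1, -8, 28, -64, 126, -224, 344, -512, 757, -1008, 1332, -1792, 2198, -2752, 3528, -4096] :=
  Tr.add tr_35 tr_36 _ (by decide +kernel)

theorem tr_A4 : Tr 17 (A4)
    [0, 1, -8, 28, -64, 126, -224, 344, -512, 757, -1008, 1332, -1792, 2198, -2752, 3528, -4096] :=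
  tr_37

theorem tr_39 : Tr 17 ((ex 2 s3) - (ex 4 s3))
    [0, 0, 1, 0, 8, 0, 28, 0, 64, 0, 126, 0, 224, 0, 344, 0, 512] :=
  Tr.sub tr_6 tr_8 _ (by decide +kernel)

theorem tr_B4 : Tr 17 (B4)
    [0, 0, 1, 0, 8, 0, 28, 0, 64, 0, 126, 0, 224, 0, 344, 0, 512] :=
  tr_39

theorem tr_41 : Tr 17 (PowerSeries.C (256 : ℤ) * (ex 4 s3))
    [0, 0, 0, 0, 256, 0, 0, 0, 2304, 0, 0, 0, 7168, 0, 0, 0, 18688] :=
  Tr.smul tr_8 (256) _ (by decide +kernel)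

theorem tr_42 : Tr 17 ((1 : PowerSeries ℤ) + (PowerSeries.C (256 : ℤ) * (ex 4 s3)))
    [1, 0, 0, 0, 256, 0, 0, 0, 2304, 0, 0, 0, 7168, 0, 0, 0, 18688] :=
  Tr.add tr_one tr_41 _ (by decide +kernel)

theorem tr_43 : Tr 17 (PowerSeries.C (16 : ℤ) * (ex 2 s3))
    [0, 0, 16, 0, 144, 0, 448, 0, 1168, 0, 2016, 0, 4032, 0, 5504, 0, 9360] :=
  Tr.smul tr_6 (16) _ (by decide +kernel)

theorem tr_44 : Tr 17 (((1 : PowerSeries ℤ) + (PowerSeries.C (256 : ℤ) * (ex 4 s3))) - (PowerSeries.C (16 : ℤ) * (ex 2 s3)))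
    [1, 0, -16, 0, 112, 0, -448, 0, 1136, 0, -2016, 0, 3136, 0, -5504, 0, 9328] :=
  Tr.sub tr_42 tr_43 _ (by decide +kernel)

theorem tr_A2' : Tr 17 (A2')
    [1, 0, -16, 0, 112, 0, -448, 0, 1136, 0, -2016, 0, 3136, 0, -5504, 0, 9328] :=
  tr_44

theorem tr_46 : Tr 17 (PowerSeries.C (243 : ℤ) * (ex 9 s3))
    [0, 0, 0, 0, 0, 0, 0, 0, 0, 243, 0, 0, 0, 0, 0, 0, 0] :=
  Tr.smul tr_9 (243) _ (by decide +kernel)

theorem tr_47 : Tr 17 ((1 : PowerSeries ℤ) + (PowerSeries.C (243 : ℤ) * (ex 9 s3)))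
    [1, 0, 0, 0, 0, 0, 0, 0, 0, 243, 0, 0, 0, 0, 0, 0, 0] :=
  Tr.add tr_one tr_46 _ (by decide +kernel)

theorem tr_48 : Tr 17 (PowerSeries.C (3 : ℤ) * (ex 3 s3))
    [0, 0, 0, 3, 0, 0, 27, 0, 0, 84, 0, 0, 219, 0, 0, 378, 0] :=
  Tr.smul tr_7 (3) _ (by decide +kernel)

theorem tr_49 : Tr 17 (((1 : PowerSeries ℤ) + (PowerSeries.C (243 : ℤ) * (ex 9 s3))) - (PowerSeries.C (3 : ℤ) * (ex 3 s3)))
    [1, 0, 0, -3, 0, 0, -27, 0, 0, 159, 0, 0, -219, 0, 0, -378, 0] :=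
  Tr.sub tr_47 tr_48 _ (by decide +kernel)

theorem tr_A3' : Tr 17 (A3')
    [1, 0, 0, -3, 0, 0, -27, 0, 0, 159, 0, 0, -219, 0, 0, -378, 0] :=
  tr_49

theorem tr_51 : Tr 17 ((ex 3 s3) - (ex 9 s3))
    [0, 0, 0, 1, 0, 0, 9, 0, 0, 27, 0, 0, 73, 0, 0, 126, 0] :=
  Tr.sub tr_7 tr_9 _ (by decide +kernel)

theorem tr_B3' : Tr 17 (B3')
    [0, 0, 0, 1, 0, 0, 9, 0, 0, 27, 0, 0, 73, 0, 0, 126, 0] :=
  tr_51

theorem tr_53 : Tr 17 (PowerSeries.C (78 : ℤ) * (ex 3 s3))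
    [0, 0, 0, 78, 0, 0, 702, 0, 0, 2184, 0, 0, 5694, 0, 0, 9828, 0] :=
  Tr.smul tr_7 (78) _ (by decide +kernel)

theorem tr_54 : Tr 17 ((1 : PowerSeries ℤ) + (PowerSeries.C (78 : ℤ) * (ex 3 s3)))
    [1, 0, 0, 78, 0, 0, 702, 0, 0, 2184, 0, 0, 5694, 0, 0, 9828, 0] :=
  Tr.add tr_one tr_53 _ (by decide +kernel)

theorem tr_55 : Tr 17 (PowerSeries.C (162 : ℤ) * (ex 9 s3))
    [0, 0, 0, 0, 0, 0, 0, 0, 0, 162, 0, 0, 0, 0, 0, 0, 0] :=
  Tr.smul tr_9 (162) _ (by decide +kernel)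

theorem tr_56 : Tr 17 (((1 : PowerSeries ℤ) + (PowerSeries.C (78 : ℤ) * (ex 3 s3))) + (PowerSeries.C (162 : ℤ) * (ex 9 s3)))
    [1, 0, 0, 78, 0, 0, 702, 0, 0, 2346, 0, 0, 5694, 0, 0, 9828, 0] :=
  Tr.add tr_54 tr_55 _ (by decide +kernel)

theorem tr_57 : Tr 17 (PowerSeries.C (3 : ℤ) * p1)
    [0, 3, 0, 0, 219, 0, 0, 1032, 0, 0, 3402, 0, 0, 6594, 0, 0, 14043] :=
  Tr.smul tr_p1 (3) _ (by decide +kernel)

theorem tr_58 : Tr 17 ((((1 : PowerSeries ℤ) + (PowerSeries.C (78 : ℤ) * (ex 3 s3))) + (PowerSeries.C (162 : ℤ) * (ex 9 s3))) - (PowerSeries.C (3 : ℤ) * p1))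
    [1, -3, 0, 78, -219, 0, 702, -1032, 0, 2346, -3402, 0, 5694, -6594, 0, 9828, -14043] :=
  Tr.sub tr_56 tr_57 _ (by decide +kernel)

theorem tr_a9 : Tr 17 (a9)
    [1, -3, 0, 78, -219, 0, 702, -1032, 0, 2346, -3402, 0, 5694, -6594, 0, 9828, -14043] :=
  tr_58

theorem tr_60 : Tr 17 (A2 ^ 2)
    [1, -32, 480, -4480, 29152, -140736, 525952, -1580800, 3994080, -8945824, 18626112, -36714624, 67978880, -118156480, 197120256, -321692928, 509145568] :=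
  Tr.pow tr_A2 2 _ (by decide +kernel)

theorem tr_61 : Tr 17 ((A2 ^ 2) * B2)
    [0, 1, -24, 252, -1472, 4830, -6048, -16744, 84480, -113643, -115920, 534612, -370944, -577738, 401856, 1217160, 987136] :=
  Tr.mul tr_60 tr_B2 _ (by decide +kernel)

theorem trL_F2a : Tr 17 (Fermat.Agent.S23.deltaInt)
    [0, 1, -24, 252, -1472, 4830, -6048, -16744, 84480, -113643, -115920, 534612, -370944, -577738, 401856, 1217160, 987136] := tr_deltaInt

theorem trR_F2a : Tr 17 ((A2 ^ 2) * B2)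
    [0, 1, -24, 252, -1472, 4830, -6048, -16744, 84480, -113643, -115920, 534612, -370944, -577738, 401856, 1217160, 987136] := tr_61

theorem tr_62 : Tr 17 (ex 2 Fermat.Agent.S23.deltaInt)
    [0, 0, 1, 0, -24, 0, 252, 0, -1472, 0, 4830, 0, -6048, 0, -16744, 0, 84480] :=
  Tr.ex tr_deltaInt 2 _ (by decide +kernel)

theorem tr_63 : Tr 17 (B2 ^ 2)
    [0, 0, 1, 16, 120, 576, 2060, 6048, 15424, 35200, 73518, 143280, 263584, 461376, 775160, 1256928, 1973760] :=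
  Tr.pow tr_B2 2 _ (by decide +kernel)

theorem tr_64 : Tr 17 (A2 * (B2 ^ 2))
    [0, 0, 1, 0, -24, 0, 252, 0, -1472, 0, 4830, 0, -6048, 0, -16744, 0, 84480] :=
  Tr.mul tr_A2 tr_63 _ (by decide +kernel)

theorem trL_F2b : Tr 17 (ex 2 Fermat.Agent.S23.deltaInt)
    [0, 0, 1, 0, -24, 0, 252, 0, -1472, 0, 4830, 0, -6048, 0, -16744, 0, 84480] := tr_62

theorem trR_F2b : Tr 17 (A2 * (B2 ^ 2))
    [0, 0, 1, 0, -24, 0, 252, 0, -1472, 0, 4830, 0, -6048, 0, -16744, 0, 84480] := tr_64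

theorem tr_65 : Tr 17 (PowerSeries.C (27 : ℤ) * B3)
    [0, 27, 243, 729, 1971, 3402, 6561, 9288, 15795, 19683, 30618, 35964, 53217, 59346, 83592, 91854, 126387] :=
  Tr.smul tr_B3 (27) _ (by decide +kernel)

theorem tr_66 : Tr 17 (A3 + (PowerSeries.C (27 : ℤ) * B3))
    [1, 24, 216, 888, 1752, 3024, 7992, 8256, 14040, 24216, 27216, 31968, 64824, 52752, 74304, 111888, 112344] :=
  Tr.add tr_A3 tr_65 _ (by decide +kernel)

theorem tr_67 : Tr 17 (Fermat.Agent.S23.deltaInt * (A3 + (PowerSeries.C (27 : ℤ) * B3)))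
    [0, 1, 0, -108, 280, 4374, -23328, -48832, 664848, -1232739, -5450976, 30031884, -39763656, -86003242, 369865440, -350001648, -607297184] :=
  Tr.mul tr_deltaInt tr_66 _ (by decide +kernel)

theorem tr_68 : Tr 17 (A3 ^ 3)
    [1, -9, -54, 936, -2061, -25218, 174096, -172980, -2480247, 12226023, -16006572, -55989360, 267516045, -318108942, -719703576, 3084220044, -3156714243] :=
  Tr.pow tr_A3 3 _ (by decide +kernel)

theorem tr_69 : Tr 17 ((A3 ^ 3) * B3)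
    [0, 1, 0, -108, 280, 4374, -23328, -48832, 664848, -1232739, -5450976, 30031884, -39763656, -86003242, 369865440, -350001648, -607297184] :=
  Tr.mul tr_68 tr_B3 _ (by decide +kernel)

theorem trL_F3a : Tr 17 (Fermat.Agent.S23.deltaInt * (A3 + (PowerSeries.C (27 : ℤ) * B3)))
    [0, 1, 0, -108, 280, 4374, -23328, -48832, 664848, -1232739, -5450976, 30031884, -39763656, -86003242, 369865440, -350001648, -607297184] := tr_67

theorem trR_F3a : Tr 17 ((A3 ^ 3) * B3)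
    [0, 1, 0, -108, 280, 4374, -23328, -48832, 664848, -1232739, -5450976, 30031884, -39763656, -86003242, 369865440, -350001648, -607297184] := tr_69

theorem tr_70 : Tr 17 (ex 3 Fermat.Agent.S23.deltaInt)
    [0, 0, 0, 1, 0, 0, -24, 0, 0, 252, 0, 0, -1472, 0, 0, 4830, 0] :=
  Tr.ex tr_deltaInt 3 _ (by decide +kernel)

theorem tr_71 : Tr 17 ((ex 3 Fermat.Agent.S23.deltaInt) * (A3 + (PowerSeries.C (27 : ℤ) * B3)))
    [0, 0, 0, 1, 24, 216, 864, 1176, -2160, -13068, -27744, -4104, 54712, 235248, 139104, 195318, -982944] :=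
  Tr.mul tr_70 tr_66 _ (by decide +kernel)

theorem tr_72 : Tr 17 (B3 ^ 3)
    [0, 0, 0, 1, 27, 324, 2406, 13068, 56781, 207288, 661176, 1885356, 4912717, 11842632, 26773416, 57157458, 116307657] :=
  Tr.pow tr_B3 3 _ (by decide +kernel)

theorem tr_73 : Tr 17 (A3 * (B3 ^ 3))
    [0, 0, 0, 1, 24, 216, 864, 1176, -2160, -13068, -27744, -4104, 54712, 235248, 139104, 195318, -982944] :=
  Tr.mul tr_A3 tr_72 _ (by decide +kernel)

theorem trL_F3b : Tr 17 ((ex 3 Fermat.Agent.S23.deltaInt) * (A3 + (PowerSeries.C (27 : ℤ) * B3)))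
    [0, 0, 0, 1, 24, 216, 864, 1176, -2160, -13068, -27744, -4104, 54712, 235248, 139104, 195318, -982944] := tr_71

theorem trR_F3b : Tr 17 (A3 * (B3 ^ 3))
    [0, 0, 0, 1, 24, 216, 864, 1176, -2160, -13068, -27744, -4104, 54712, 235248, 139104, 195318, -982944] := tr_73

theorem tr_74 : Tr 17 (PowerSeries.C (16 : ℤ) * B4)
    [0, 0, 16, 0, 128, 0, 448, 0, 1024, 0, 2016, 0, 3584, 0, 5504, 0, 8192] :=
  Tr.smul tr_B4 (16) _ (by decide +kernel)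

theorem tr_75 : Tr 17 (A4 + (PowerSeries.C (16 : ℤ) * B4))
    [0, 1, 8, 28, 64, 126, 224, 344, 512, 757, 1008, 1332, 1792, 2198, 2752, 3528, 4096] :=
  Tr.add tr_A4 tr_74 _ (by decide +kernel)

theorem tr_76 : Tr 17 (A2 * (A4 + (PowerSeries.C (16 : ℤ) * B4)))
    [0, 1, -8, 12, 64, -210, -96, 1016, -512, -2043, 1680, 1092, 768, 1382, -8128, -2520, 4096] :=
  Tr.mul tr_A2 tr_75 _ (by decide +kernel)

theorem tr_77 : Tr 17 ((A2 * (A4 + (PowerSeries.C (16 : ℤ) * B4))) * B4)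
    [0, 0, 0, 1, -8, 20, 0, -86, 192, -264, 0, 1099, -2016, 1492, 0, -5490, 11776] :=
  Tr.mul tr_76 tr_B4 _ (by decide +kernel)

theorem tr_78 : Tr 17 (A4 ^ 2)
    [0, 0, 1, -16, 120, -576, 2060, -6048, 15424, -35200, 73518, -143280, 263584, -461376, 775160, -1256928, 1973760] :=
  Tr.pow tr_A4 2 _ (by decide +kernel)

theorem tr_79 : Tr 17 (B2 * (A4 ^ 2))
    [0, 0, 0, 1, -8, 20, 0, -86, 192, -264, 0, 1099, -2016, 1492, 0, -5490, 11776] :=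
  Tr.mul tr_B2 tr_78 _ (by decide +kernel)

theorem trL_F4a : Tr 17 ((A2 * (A4 + (PowerSeries.C (16 : ℤ) * B4))) * B4)
    [0, 0, 0, 1, -8, 20, 0, -86, 192, -264, 0, 1099, -2016, 1492, 0, -5490, 11776] := tr_77

theorem trR_F4a : Tr 17 (B2 * (A4 ^ 2))
    [0, 0, 0, 1, -8, 20, 0, -86, 192, -264, 0, 1099, -2016, 1492, 0, -5490, 11776] := tr_79

theorem tr_80 : Tr 17 (A2' * B4)
    [0, 0, 1, 0, -8, 0, 12, 0, 64, 0, -210, 0, -96, 0, 1016, 0, -512] :=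
  Tr.mul tr_A2' tr_B4 _ (by decide +kernel)

theorem tr_81 : Tr 17 (A4 * (A4 + (PowerSeries.C (16 : ℤ) * B4)))
    [0, 0, 1, 0, -8, 0, 12, 0, 64, 0, -210, 0, -96, 0, 1016, 0, -512] :=
  Tr.mul tr_A4 tr_75 _ (by decide +kernel)

theorem trL_F4b : Tr 17 (A2' * B4)
    [0, 0, 1, 0, -8, 0, 12, 0, 64, 0, -210, 0, -96, 0, 1016, 0, -512] := tr_80

theorem trR_F4b : Tr 17 (A4 * (A4 + (PowerSeries.C (16 : ℤ) * B4)))
    [0, 0, 1, 0, -8, 0, 12, 0, 64, 0, -210, 0, -96, 0, 1016, 0, -512] := tr_81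

theorem tr_82 : Tr 17 (a9 ^ 2)
    [1, -6, 9, 156, -906, 1314, 7488, -40440, 54153, 114204, -489348, 472428, 870168, -3054540, 2594664, 4201704, -13228242] :=
  Tr.pow tr_a9 2 _ (by decide +kernel)

theorem tr_83 : Tr 17 (a9 * p1)
    [0, 1, -3, 0, 151, -438, 0, 6740, -18051, 0, 81558, -157476, 0, 509090, -864888, 0, 2204707] :=
  Tr.mul tr_a9 tr_p1 _ (by decide +kernel)

theorem tr_84 : Tr 17 (PowerSeries.C (9 : ℤ) * (a9 * p1))
    [0, 9, -27, 0, 1359, -3942, 0, 60660, -162459, 0, 734022, -1417284, 0, 4581810, -7783992, 0, 19842363] :=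
  Tr.smul tr_83 (9) _ (by decide +kernel)

theorem tr_85 : Tr 17 ((a9 ^ 2) + (PowerSeries.C (9 : ℤ) * (a9 * p1)))
    [1, 3, -18, 156, 453, -2628, 7488, 20220, -108306, 114204, 244674, -944856, 870168, 1527270, -5189328, 4201704, 6614121] :=
  Tr.add tr_82 tr_84 _ (by decide +kernel)

theorem tr_86 : Tr 17 (p1 ^ 2)
    [0, 0, 1, 0, 0, 146, 0, 0, 6017, 0, 0, 52492, 0, 0, 288296, 0, 0] :=
  Tr.pow tr_p1 2 _ (by decide +kernel)

theorem tr_87 : Tr 17 (PowerSeries.C (27 : ℤ) * (p1 ^ 2))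
    [0, 0, 27, 0, 0, 3942, 0, 0, 162459, 0, 0, 1417284, 0, 0, 7783992, 0, 0] :=
  Tr.smul tr_86 (27) _ (by decide +kernel)

theorem tr_88 : Tr 17 (((a9 ^ 2) + (PowerSeries.C (9 : ℤ) * (a9 * p1))) + (PowerSeries.C (27 : ℤ) * (p1 ^ 2)))
    [1, 3, 9, 156, 453, 1314, 7488, 20220, 54153, 114204, 244674, 472428, 870168, 1527270, 2594664, 4201704, 6614121] :=
  Tr.add tr_85 tr_87 _ (by decide +kernel)

theorem tr_89 : Tr 17 (A3 * (((a9 ^ 2) + (PowerSeries.C (9 : ℤ) * (a9 * p1))) + (PowerSeries.C (27 : ℤ) * (p1 ^ 2))))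
    [1, 0, -27, 207, 0, -3861, 14445, 0, -149904, 350613, 0, -827766, 742869, 0, 233388, -950238, 0] :=
  Tr.mul tr_A3 tr_88 _ (by decide +kernel)

theorem tr_90 : Tr 17 ((A3 * (((a9 ^ 2) + (PowerSeries.C (9 : ℤ) * (a9 * p1))) + (PowerSeries.C (27 : ℤ) * (p1 ^ 2)))) * p1)
    [0, 1, 0, -27, 280, 0, -5832, 29900, 0, -441045, 1477440, 0, -13129560, 31543634, 0, -116198226, 190730368] :=
  Tr.mul tr_89 tr_p1 _ (by decide +kernel)

theorem tr_91 : Tr 17 (a9 ^ 3)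
    [1, -9, 27, 207, -2061, 6048, 14445, -172980, 488889, 350613, -6440634, 16919712, 742869, -107658306, 241780032, -950238, -1042641945] :=
  Tr.pow tr_a9 3 _ (by decide +kernel)

theorem tr_92 : Tr 17 (B3 * (a9 ^ 3))
    [0, 1, 0, -27, 280, 0, -5832, 29900, 0, -441045, 1477440, 0, -13129560, 31543634, 0, -116198226, 190730368] :=
  Tr.mul tr_B3 tr_91 _ (by decide +kernel)

theorem trL_F9a : Tr 17 ((A3 * (((a9 ^ 2) + (PowerSeries.C (9 : ℤ) * (a9 * p1))) + (PowerSeries.C (27 : ℤ) * (p1 ^ 2)))) * p1)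
    [0, 1, 0, -27, 280, 0, -5832, 29900, 0, -441045, 1477440, 0, -13129560, 31543634, 0, -116198226, 190730368] := tr_90

theorem trR_F9a : Tr 17 (B3 * (a9 ^ 3))
    [0, 1, 0, -27, 280, 0, -5832, 29900, 0, -441045, 1477440, 0, -13129560, 31543634, 0, -116198226, 190730368] := tr_92

theorem tr_93 : Tr 17 (p1 ^ 3)
    [0, 0, 0, 1, 0, 0, 219, 0, 0, 17019, 0, 0, 543091, 0, 0, 6357822, 0] :=
  Tr.pow tr_p1 3 _ (by decide +kernel)

theorem tr_94 : Tr 17 (A3' * (p1 ^ 3))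
    [0, 0, 0, 1, 0, 0, 216, 0, 0, 16335, 0, 0, 486280, 0, 0, 4303638, 0] :=
  Tr.mul tr_A3' tr_93 _ (by decide +kernel)

theorem tr_95 : Tr 17 (a9 * (((a9 ^ 2) + (PowerSeries.C (9 : ℤ) * (a9 * p1))) + (PowerSeries.C (27 : ℤ) * (p1 ^ 2))))
    [1, 0, 0, 207, 0, 0, 14445, 0, 0, 350613, 0, 0, 742869, 0, 0, -950238, 0] :=
  Tr.mul tr_a9 tr_88 _ (by decide +kernel)

theorem tr_96 : Tr 17 (B3' * (a9 * (((a9 ^ 2) + (PowerSeries.C (9 : ℤ) * (a9 * p1))) + (PowerSeries.C (27 : ℤ) * (p1 ^ 2)))))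
    [0, 0, 0, 1, 0, 0, 216, 0, 0, 16335, 0, 0, 486280, 0, 0, 4303638, 0] :=
  Tr.mul tr_B3' tr_95 _ (by decide +kernel)

theorem trL_F9b : Tr 17 (A3' * (p1 ^ 3))
    [0, 0, 0, 1, 0, 0, 216, 0, 0, 16335, 0, 0, 486280, 0, 0, 4303638, 0] := tr_94

theorem trR_F9b : Tr 17 (B3' * (a9 * (((a9 ^ 2) + (PowerSeries.C (9 : ℤ) * (a9 * p1))) + (PowerSeries.C (27 : ℤ) * (p1 ^ 2)))))
    [0, 0, 0, 1, 0, 0, 216, 0, 0, 16335, 0, 0, 486280, 0, 0, 4303638, 0] := tr_96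

end Fermat.Agent.P2.helper66
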