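import Mathlib
import Fermat.Agent.P2.helper66_HauptE4
import Fermat.Agent.P2.helper66_HauptTr

/-!
# P2-[HAUPT] (helper66), part 4: the eight modular identities in `ℤ⟦q⟧`

Proved by the Sturm bound for `Γ₀(2), Γ₀(3), Γ₀(4), Γ₀(9)` (Prelude) and a certified computation
of the first 17 coefficients (`helper66_HauptTr`).

* `F2a : Δ = A2² B2`, `F2b : Δ(q²) = A2 B2²`;
* `F3a : Δ (A3 + 27 B3) = A3³ B3`, `F3b : Δ(q³) (A3 + 27 B3) = A3 B3³`;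
* `F4a : A2 (A4 + 16 B4) B4 = B2 A4²`, `F4b : A2(q²) B4 = A4 (A4 + 16 B4)`;
* `F9a : A3 (a9² + 9 a9 p1 + 27 p1²) p1 = B3 a9³`,
  `F9b : A3(q³) p1³ = B3(q³) a9 (a9² + 9 a9 p1 + 27 p1²)`.
-/

set_option autoImplicit false

noncomputable section

namespace Fermat.Agent.P2.helper66

open UpperHalfPlane ModularForm CongruenceSubgroup Matrix PowerSeries
open Fermat.Agent.S20 (IsMF)
open Fermat.Agent.S24 (scaleH)
open Fermat.Agent.S23 (sigmaSeries e4Int deltaInt)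
open scoped MatrixGroups Manifold Real

/-! ### The substitution `ex d` -/

theorem ex_add (d : ℕ) (P Q : PowerSeries ℤ) : ex d (P + Q) = ex d P + ex d Q := by
  ext n
  rw [map_add, coeff_ex, coeff_ex, coeff_ex]
  split_ifs <;> simp

theorem ex_C_mul (d : ℕ) (c : ℤ) (P : PowerSeries ℤ) :
    ex d (PowerSeries.C c * P) = PowerSeries.C c * ex d P := by
  ext n
  rw [coeff_ex, PowerSeries.coeff_C_mul, PowerSeries.coeff_C_mul, coeff_ex]
  split_ifs <;> simp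

theorem ex_one (d : ℕ) (hd : d ≠ 0) : ex d (1 : PowerSeries ℤ) = 1 := by
  ext n
  rw [coeff_ex, PowerSeries.coeff_one, PowerSeries.coeff_one]
  by_cases hn : n = 0
  · subst hn; simp
  · rw [if_neg hn]
    split_ifs with h1 h2
    · exfalso
      obtain ⟨m, rfl⟩ := h1
      rw [Nat.mul_div_cancel_left _ (Nat.pos_of_ne_zero hd)] at h2
      subst h2
      simp at hn
    · rfl
    · rfl

theorem e4Int_eq : e4Int = 1 + PowerSeries.C (240 : ℤ) * s3 := rfl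

theorem ex_e4Int (d : ℕ) (hd : d ≠ 0) : ex d e4Int = 1 + PowerSeries.C (240 : ℤ) * ex d s3 := by
  rw [e4Int_eq, ex_add, ex_one d hd, ex_C_mul]

/-! ### Values of `ψ` -/

theorem dedekindPsi_two : ModularCurve.dedekindPsi 2 = 3 := by decide +kernel
theorem dedekindPsi_three : ModularCurve.dedekindPsi 3 = 4 := by decide +kernel
theorem dedekindPsi_four : ModularCurve.dedekindPsi 4 = 6 := by decide +kernel
theorem dedekindPsi_nine : ModularCurve.dedekindPsi 9 = 12 := by decide +kernel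

/-! ### The comparison principle -/

/-- Two modular forms of the same weight and level whose `q`-expansions are the same multiple
of integral series agreeing in the first 17 coefficients have equal `q`-expansions. -/
theorem eq_of_mfq {N : ℕ} [NeZero N] {k : ℤ} {f g : ℍ → ℂ} {PL PR lhs rhs : PowerSeries ℤ}
    {c : ℤ} {L : List ℤ} (hf : MFQ N k f PL) (hg : MFQ N k g PR) (hc : c ≠ 0)
    (hPL : PL = PowerSeries.C c * lhs) (hPR : PR = PowerSeries.C c * rhs)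
    (hL : Tr 17 lhs L) (hR : Tr 17 rhs L)
    (hb : (k * (ModularCurve.dedekindPsi N : ℤ)).toNat / 12 < 17) : lhs = rhs := by
  have key : PL = PR := MFQ.eq_of_coeff hf hg fun n hn => by
    rw [hPL, hPR, PowerSeries.coeff_C_mul, PowerSeries.coeff_C_mul,
      hL.coeff_eq hR (lt_of_le_of_lt hn hb)]
  rw [hPL, hPR] at key
  have hC : (PowerSeries.C c : PowerSeries ℤ) ≠ 0 := by
    intro h
    apply hc
    have := congrArg (PowerSeries.coeff 0) h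
    simpa using this
  exact mul_left_cancel₀ hC key


/-! ### Integral `q`-expansions of modular forms -/

/-- `P` is the `q`-expansion of a modular form of weight `k` on `Γ₀(N)`. -/
def IsQ (N : ℕ) (k : ℤ) (P : PowerSeries ℤ) : Prop := ∃ f : ℍ → ℂ, MFQ N k f P

namespace IsQ

variable {N : ℕ} [NeZero N] {k k₁ k₂ : ℤ} {P Q : PowerSeries ℤ}

theorem mul (hP : IsQ N k₁ P) (hQ : IsQ N k₂ Q) (hk : k₁ + k₂ = k) : IsQ N k (P * Q) := by
  obtain ⟨f, hf⟩ := hP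
  obtain ⟨g, hg⟩ := hQ
  exact ⟨_, hf.mul hg hk⟩

theorem add (hP : IsQ N k P) (hQ : IsQ N k Q) : IsQ N k (P + Q) := by
  obtain ⟨f, hf⟩ := hP
  obtain ⟨g, hg⟩ := hQ
  exact ⟨_, hf.add hg⟩

theorem sub (hP : IsQ N k P) (hQ : IsQ N k Q) : IsQ N k (P - Q) := by
  obtain ⟨f, hf⟩ := hP
  obtain ⟨g, hg⟩ := hQ
  exact ⟨_, hf.sub hg⟩

theorem smul (c : ℤ) (hP : IsQ N k P) : IsQ N k (PowerSeries.C c * P) := by
  obtain ⟨f, hf⟩ := hP
  exact ⟨_, hf.smul c⟩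

theorem pow (hP : IsQ N k₁ P) (n : ℕ) (hk : (n : ℤ) * k₁ = k) : IsQ N k (P ^ n) := by
  obtain ⟨f, hf⟩ := hP
  exact ⟨_, hf.pow n hk⟩

/-- Sturm comparison for integral `q`-expansions. -/
theorem eq_of_tr {PL PR lhs rhs : PowerSeries ℤ} {c : ℤ} {L : List ℤ}
    (hf : IsQ N k PL) (hg : IsQ N k PR) (hc : c ≠ 0)
    (hPL : PL = PowerSeries.C c * lhs) (hPR : PR = PowerSeries.C c * rhs)
    (hL : Tr 17 lhs L) (hR : Tr 17 rhs L)
    (hb : (k * (ModularCurve.dedekindPsi N : ℤ)).toNat / 12 < 17) : lhs = rhs := by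
  obtain ⟨f, hf⟩ := hf
  obtain ⟨g, hg⟩ := hg
  exact eq_of_mfq hf hg hc hPL hPR hL hR hb

end IsQ

theorem isQ_E (M : ℕ) : IsQ M 4 e4Int := ⟨_, mfq_E₄.of_dvd (one_dvd M)⟩

theorem isQ_Ed (d M : ℕ) [NeZero d] (h : d ∣ M) : IsQ M 4 (ex d e4Int) :=
  ⟨_, (mfq_E₄_scale d).of_dvd h⟩

theorem isQ_D (M : ℕ) : IsQ M 12 deltaInt := ⟨_, mfq_discriminant.of_dvd (one_dvd M)⟩

theorem isQ_Dd (d M : ℕ) [NeZero d] (h : d ∣ M) : IsQ M 12 (ex d deltaInt) :=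
  ⟨_, (mfq_discriminant_scale d).of_dvd h⟩

theorem isQ_G : IsQ 9 4 (PowerSeries.C 720 * p1) := ⟨_, mfq_gFun⟩

/-! ### Level 2 -/

theorem isQ_hA2 (M : ℕ) [NeZero M] (h : 2 ∣ M) :
    IsQ M 4 (PowerSeries.C 16 * ex 2 e4Int - e4Int) :=
  ((isQ_Ed 2 M h).smul 16).sub (isQ_E M)

theorem isQ_hB2 (M : ℕ) [NeZero M] (h : 2 ∣ M) : IsQ M 4 (e4Int - ex 2 e4Int) :=
  (isQ_E M).sub (isQ_Ed 2 M h)

theorem hA2_eq : PowerSeries.C 16 * ex 2 e4Int - e4Int = PowerSeries.C (15 : ℤ) * A2 := by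
  rw [ex_e4Int 2 (by norm_num), e4Int_eq, A2]
  simp only [map_ofNat]
  ring

theorem hB2_eq : e4Int - ex 2 e4Int = PowerSeries.C (240 : ℤ) * B2 := by
  rw [ex_e4Int 2 (by norm_num), e4Int_eq, B2]
  simp only [map_ofNat]
  ring

/-- `Δ = A2² B2`. -/
theorem F2a : deltaInt = A2 ^ 2 * B2 := by
  have hL : IsQ 2 12 (PowerSeries.C 54000 * deltaInt) := (isQ_D 2).smul 54000
  have hR : IsQ 2 12 ((PowerSeries.C 16 * ex 2 e4Int - e4Int) ^ 2 * (e4Int - ex 2 e4Int)) :=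
    ((isQ_hA2 2 dvd_rfl).pow 2 (k := 8) (by norm_num)).mul (isQ_hB2 2 dvd_rfl) (by norm_num)
  refine IsQ.eq_of_tr hL hR (c := 54000) (by norm_num) rfl ?_ trL_F2a trR_F2a ?_
  · rw [hA2_eq, hB2_eq]
    simp only [map_ofNat]
    ring
  · rw [dedekindPsi_two]; decide


/-- `Δ(q²) = A2 B2²`. -/
theorem F2b : ex 2 deltaInt = A2 * B2 ^ 2 := by
  have hL : IsQ 2 12 (PowerSeries.C 864000 * ex 2 deltaInt) := (isQ_Dd 2 2 dvd_rfl).smul 864000
  have hR : IsQ 2 12 ((PowerSeries.C 16 * ex 2 e4Int - e4Int) * (e4Int - ex 2 e4Int) ^ 2) :=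
    (isQ_hA2 2 dvd_rfl).mul ((isQ_hB2 2 dvd_rfl).pow 2 (k := 8) (by norm_num)) (by norm_num)
  refine IsQ.eq_of_tr hL hR (c := 864000) (by norm_num) rfl ?_ trL_F2b trR_F2b ?_
  · rw [hA2_eq, hB2_eq]
    simp only [map_ofNat]
    ring
  · rw [dedekindPsi_two]; decide

/-! ### Level 3 -/

theorem isQ_hA3 (M : ℕ) [NeZero M] (h : 3 ∣ M) :
    IsQ M 4 (PowerSeries.C 81 * ex 3 e4Int - e4Int) :=
  ((isQ_Ed 3 M h).smul 81).sub (isQ_E M)

theorem isQ_hB3 (M : ℕ) [NeZero M] (h : 3 ∣ M) : IsQ M 4 (e4Int - ex 3 e4Int) :=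
  (isQ_E M).sub (isQ_Ed 3 M h)

theorem hA3_eq : PowerSeries.C 81 * ex 3 e4Int - e4Int = PowerSeries.C (80 : ℤ) * A3 := by
  rw [ex_e4Int 3 (by norm_num), e4Int_eq, A3]
  simp only [map_ofNat]
  ring

theorem hB3_eq : e4Int - ex 3 e4Int = PowerSeries.C (240 : ℤ) * B3 := by
  rw [ex_e4Int 3 (by norm_num), e4Int_eq, B3]
  simp only [map_ofNat]
  ring

theorem isQ_hQ3 (M : ℕ) [NeZero M] (h : 3 ∣ M) :
    IsQ M 4 (PowerSeries.C 3 * (PowerSeries.C 81 * ex 3 e4Int - e4Int) +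
      PowerSeries.C 27 * (e4Int - ex 3 e4Int)) :=
  ((isQ_hA3 M h).smul 3).add ((isQ_hB3 M h).smul 27)

/-- `Δ (A3 + 27 B3) = A3³ B3`. -/
theorem F3a : deltaInt * (A3 + PowerSeries.C (27 : ℤ) * B3) = A3 ^ 3 * B3 := by
  have hL : IsQ 3 16 (PowerSeries.C 512000 * (deltaInt *
      (PowerSeries.C 3 * (PowerSeries.C 81 * ex 3 e4Int - e4Int) +
        PowerSeries.C 27 * (e4Int - ex 3 e4Int)))) :=
    ((isQ_D 3).mul (isQ_hQ3 3 dvd_rfl) (by norm_num)).smul 512000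
  have hR : IsQ 3 16 ((PowerSeries.C 81 * ex 3 e4Int - e4Int) ^ 3 * (e4Int - ex 3 e4Int)) :=
    ((isQ_hA3 3 dvd_rfl).pow 3 (k := 12) (by norm_num)).mul (isQ_hB3 3 dvd_rfl) (by norm_num)
  refine IsQ.eq_of_tr hL hR (c := 122880000) (by norm_num) ?_ ?_ trL_F3a trR_F3a ?_
  · rw [hA3_eq, hB3_eq]
    simp only [map_ofNat]
    ring
  · rw [hA3_eq, hB3_eq]
    simp only [map_ofNat]
    ring
  · rw [dedekindPsi_three]; decide

/-- `Δ(q³) (A3 + 27 B3) = A3 B3³`. -/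
theorem F3b : ex 3 deltaInt * (A3 + PowerSeries.C (27 : ℤ) * B3) = A3 * B3 ^ 3 := by
  have hL : IsQ 3 16 (PowerSeries.C 4608000 * (ex 3 deltaInt *
      (PowerSeries.C 3 * (PowerSeries.C 81 * ex 3 e4Int - e4Int) +
        PowerSeries.C 27 * (e4Int - ex 3 e4Int)))) :=
    ((isQ_Dd 3 3 dvd_rfl).mul (isQ_hQ3 3 dvd_rfl) (by norm_num)).smul 4608000
  have hR : IsQ 3 16 ((PowerSeries.C 81 * ex 3 e4Int - e4Int) * (e4Int - ex 3 e4Int) ^ 3) :=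
    (isQ_hA3 3 dvd_rfl).mul ((isQ_hB3 3 dvd_rfl).pow 3 (k := 12) (by norm_num)) (by norm_num)
  refine IsQ.eq_of_tr hL hR (c := 1105920000) (by norm_num) ?_ ?_ trL_F3b trR_F3b ?_
  · rw [hA3_eq, hB3_eq]
    simp only [map_ofNat]
    ring
  · rw [hA3_eq, hB3_eq]
    simp only [map_ofNat]
    ring
  · rw [dedekindPsi_three]; decide

/-! ### Level 4 -/

theorem isQ_hA4 : IsQ 4 4 ((e4Int - PowerSeries.C 17 * ex 2 e4Int) +
    PowerSeries.C 16 * ex 4 e4Int) :=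
  ((isQ_E 4).sub ((isQ_Ed 2 4 (by norm_num)).smul 17)).add ((isQ_Ed 4 4 dvd_rfl).smul 16)

theorem isQ_hB4 : IsQ 4 4 (ex 2 e4Int - ex 4 e4Int) :=
  (isQ_Ed 2 4 (by norm_num)).sub (isQ_Ed 4 4 dvd_rfl)

theorem isQ_hA2' : IsQ 4 4 (PowerSeries.C 16 * ex 4 e4Int - ex 2 e4Int) :=
  ((isQ_Ed 4 4 dvd_rfl).smul 16).sub (isQ_Ed 2 4 (by norm_num))

theorem hA4_eq : (e4Int - PowerSeries.C 17 * ex 2 e4Int) + PowerSeries.C 16 * ex 4 e4Int =
    PowerSeries.C (240 : ℤ) * A4 := by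
  rw [ex_e4Int 2 (by norm_num), ex_e4Int 4 (by norm_num), e4Int_eq, A4]
  simp only [map_ofNat]
  ring

theorem hB4_eq : ex 2 e4Int - ex 4 e4Int = PowerSeries.C (240 : ℤ) * B4 := by
  rw [ex_e4Int 2 (by norm_num), ex_e4Int 4 (by norm_num), B4]
  simp only [map_ofNat]
  ring

theorem hA2'_eq : PowerSeries.C 16 * ex 4 e4Int - ex 2 e4Int = PowerSeries.C (15 : ℤ) * A2' := by
  rw [ex_e4Int 2 (by norm_num), ex_e4Int 4 (by norm_num), A2']
  simp only [map_ofNat]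
  ring

theorem isQ_hQ4 : IsQ 4 4 (((e4Int - PowerSeries.C 17 * ex 2 e4Int) +
    PowerSeries.C 16 * ex 4 e4Int) + PowerSeries.C 16 * (ex 2 e4Int - ex 4 e4Int)) :=
  isQ_hA4.add (isQ_hB4.smul 16)

/-- `A2 (A4 + 16 B4) B4 = B2 A4²`, i.e. `t₂ (t₄ + 16) = t₄²`. -/
theorem F4a : A2 * (A4 + PowerSeries.C (16 : ℤ) * B4) * B4 = B2 * A4 ^ 2 := by
  have hL : IsQ 4 12 (PowerSeries.C 16 * ((PowerSeries.C 16 * ex 2 e4Int - e4Int) *
      (((e4Int - PowerSeries.C 17 * ex 2 e4Int) + PowerSeries.C 16 * ex 4 e4Int) +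
        PowerSeries.C 16 * (ex 2 e4Int - ex 4 e4Int)) * (ex 2 e4Int - ex 4 e4Int))) :=
    (((isQ_hA2 4 (by norm_num)).mul isQ_hQ4 (k := 8) (by norm_num)).mul isQ_hB4
      (by norm_num)).smul 16
  have hR : IsQ 4 12 ((e4Int - ex 2 e4Int) * ((e4Int - PowerSeries.C 17 * ex 2 e4Int) +
      PowerSeries.C 16 * ex 4 e4Int) ^ 2) :=
    (isQ_hB2 4 (by norm_num)).mul (isQ_hA4.pow 2 (k := 8) (by norm_num)) (by norm_num)
  refine IsQ.eq_of_tr hL hR (c := 13824000) (by norm_num) ?_ ?_ trL_F4a trR_F4a ?_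
  · rw [hA2_eq, hA4_eq, hB4_eq]
    simp only [map_ofNat]
    ring
  · rw [hB2_eq, hA4_eq]
    simp only [map_ofNat]
    ring
  · rw [dedekindPsi_four]; decide

/-- `A2(q²) B4 = A4 (A4 + 16 B4)`, i.e. `t₂(q²) = t₄ (t₄ + 16)`. -/
theorem F4b : A2' * B4 = A4 * (A4 + PowerSeries.C (16 : ℤ) * B4) := by
  have hL : IsQ 4 8 (PowerSeries.C 16 * ((PowerSeries.C 16 * ex 4 e4Int - ex 2 e4Int) *
      (ex 2 e4Int - ex 4 e4Int))) :=
    (isQ_hA2'.mul isQ_hB4 (by norm_num)).smul 16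
  have hR : IsQ 4 8 (((e4Int - PowerSeries.C 17 * ex 2 e4Int) + PowerSeries.C 16 * ex 4 e4Int) *
      (((e4Int - PowerSeries.C 17 * ex 2 e4Int) + PowerSeries.C 16 * ex 4 e4Int) +
        PowerSeries.C 16 * (ex 2 e4Int - ex 4 e4Int))) :=
    isQ_hA4.mul isQ_hQ4 (by norm_num)
  refine IsQ.eq_of_tr hL hR (c := 57600) (by norm_num) ?_ ?_ trL_F4b trR_F4b ?_
  · rw [hA2'_eq, hB4_eq]
    simp only [map_ofNat]
    ring
  · rw [hA4_eq, hB4_eq]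
    simp only [map_ofNat]
    ring
  · rw [dedekindPsi_four]; decide

/-! ### Level 9 -/

theorem isQ_ha9 : IsQ 9 4 ((PowerSeries.C 78 * ex 3 e4Int + PowerSeries.C 162 * ex 9 e4Int) -
    PowerSeries.C 720 * p1) :=
  (((isQ_Ed 3 9 (by norm_num)).smul 78).add ((isQ_Ed 9 9 dvd_rfl).smul 162)).sub isQ_G

theorem ha9_eq : (PowerSeries.C 78 * ex 3 e4Int + PowerSeries.C 162 * ex 9 e4Int) -
    PowerSeries.C 720 * p1 = PowerSeries.C (240 : ℤ) * a9 := by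
  rw [ex_e4Int 3 (by norm_num), ex_e4Int 9 (by norm_num), a9]
  simp only [map_ofNat]
  ring

theorem isQ_hA3' : IsQ 9 4 (PowerSeries.C 81 * ex 9 e4Int - ex 3 e4Int) :=
  ((isQ_Ed 9 9 dvd_rfl).smul 81).sub (isQ_Ed 3 9 (by norm_num))

theorem isQ_hB3' : IsQ 9 4 (ex 3 e4Int - ex 9 e4Int) :=
  (isQ_Ed 3 9 (by norm_num)).sub (isQ_Ed 9 9 dvd_rfl)

theorem hA3'_eq : PowerSeries.C 81 * ex 9 e4Int - ex 3 e4Int = PowerSeries.C (80 : ℤ) * A3' := by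
  rw [ex_e4Int 3 (by norm_num), ex_e4Int 9 (by norm_num), A3']
  simp only [map_ofNat]
  ring

theorem hB3'_eq : ex 3 e4Int - ex 9 e4Int = PowerSeries.C (240 : ℤ) * B3' := by
  rw [ex_e4Int 3 (by norm_num), ex_e4Int 9 (by norm_num), B3']
  simp only [map_ofNat]
  ring

/-- The quadratic form `â² + 3 â b̂ + 3 b̂²` (weight 8, level 9). -/
theorem isQ_hQ9 : IsQ 9 8
    ((((PowerSeries.C 78 * ex 3 e4Int + PowerSeries.C 162 * ex 9 e4Int) -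
        PowerSeries.C 720 * p1) ^ 2 +
      PowerSeries.C 3 * (((PowerSeries.C 78 * ex 3 e4Int + PowerSeries.C 162 * ex 9 e4Int) -
        PowerSeries.C 720 * p1) * (PowerSeries.C 720 * p1))) +
      PowerSeries.C 3 * (PowerSeries.C 720 * p1) ^ 2) :=
  ((isQ_ha9.pow 2 (by norm_num)).add ((isQ_ha9.mul isQ_G (by norm_num)).smul 3)).add
    ((isQ_G.pow 2 (by norm_num)).smul 3)

theorem hQ9_eq : (((PowerSeries.C 78 * ex 3 e4Int + PowerSeries.C 162 * ex 9 e4Int) -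
        PowerSeries.C 720 * p1) ^ 2 +
      PowerSeries.C 3 * (((PowerSeries.C 78 * ex 3 e4Int + PowerSeries.C 162 * ex 9 e4Int) -
        PowerSeries.C 720 * p1) * (PowerSeries.C 720 * p1))) +
      PowerSeries.C 3 * (PowerSeries.C 720 * p1) ^ 2 =
    PowerSeries.C (57600 : ℤ) * ((a9 ^ 2 + PowerSeries.C (9 : ℤ) * (a9 * p1)) +
      PowerSeries.C (27 : ℤ) * p1 ^ 2) := by
  rw [ha9_eq]
  simp only [map_ofNat]
  ring

/-- `A3 (a9² + 9 a9 p1 + 27 p1²) p1 = B3 a9³`, i.e. `t₃ (t₉² + 9 t₉ + 27) = t₉³`. -/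
theorem F9a : A3 * ((a9 ^ 2 + PowerSeries.C (9 : ℤ) * (a9 * p1)) +
    PowerSeries.C (27 : ℤ) * p1 ^ 2) * p1 = B3 * a9 ^ 3 := by
  have hL := ((isQ_hA3 9 (by norm_num)).mul isQ_hQ9 (k := 12) (by norm_num)).mul isQ_G
    (k := 16) (by norm_num)
  have hR := (isQ_hB3 9 (by norm_num)).mul (isQ_ha9.pow 3 (k := 12) (by norm_num))
    (k := 16) (by norm_num)
  refine IsQ.eq_of_tr hL hR (c := 3317760000) (by norm_num) ?_ ?_ trL_F9a trR_F9a ?_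
  · rw [hA3_eq, hQ9_eq]
    simp only [map_ofNat]
    ring
  · rw [hB3_eq, ha9_eq]
    simp only [map_ofNat]
    ring
  · rw [dedekindPsi_nine]; decide

/-- `A3(q³) p1³ = B3(q³) a9 (a9² + 9 a9 p1 + 27 p1²)`, i.e. `t₃(q³) = t₉ (t₉² + 9 t₉ + 27)`. -/
theorem F9b : A3' * p1 ^ 3 = B3' * (a9 * ((a9 ^ 2 + PowerSeries.C (9 : ℤ) * (a9 * p1)) +
    PowerSeries.C (27 : ℤ) * p1 ^ 2)) := by
  have hL := isQ_hA3'.mul (isQ_G.pow 3 (k := 12) (by norm_num)) (k := 16) (by norm_num)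
  have hR := ((isQ_hB3'.mul (isQ_ha9.mul isQ_hQ9 (k := 12) (by norm_num))
    (k := 16) (by norm_num))).smul 9
  refine IsQ.eq_of_tr hL hR (c := 29859840000) (by norm_num) ?_ ?_ trL_F9b trR_F9b ?_
  · rw [hA3'_eq]
    simp only [map_ofNat]
    ring
  · rw [hB3'_eq, ha9_eq]
    simp only [map_ofNat]
    ring
  · rw [dedekindPsi_nine]; decide

end Fermat.Agent.P2.helper66
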