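import Mathlib
import Fermat.Agent.P2.helper66_HauptSturm
import Fermat.Prelude.Def_ModularCurve_X0ModL

set_option autoImplicit false

noncomputable section

namespace Fermat.Agent.P2.helper66

open ModularCurve PowerSeries
open Fermat.Agent.S23 (sigmaSeries e4Int deltaInt)

/-! ### From integral power series to Laurent series over any ring -/

/-- The image of an integral power series in the Laurent series over `R`. -/
def iota (R : Type*) [CommRing R] : PowerSeries ℤ →+* LaurentSeries R :=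
  (HahnSeries.ofPowerSeries ℤ R).comp (PowerSeries.map (Int.castRingHom R))

theorem iota_apply (R : Type*) [CommRing R] (P : PowerSeries ℤ) :
    iota R P = HahnSeries.ofPowerSeries ℤ R (P.map (Int.castRingHom R)) := rfl

theorem coeff_iota_natCast (R : Type*) [CommRing R] (P : PowerSeries ℤ) (n : ℕ) :
    (iota R P).coeff (n : ℤ) = ((PowerSeries.coeff n P : ℤ) : R) := by
  rw [iota_apply, HahnSeries.ofPowerSeries_apply_coeff, PowerSeries.coeff_map]
  rfl

theorem coeff_iota_of_neg (R : Type*) [CommRing R] (P : PowerSeries ℤ) {k : ℤ} (hk : k < 0) :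
    (iota R P).coeff k = 0 :=
  ofPowerSeries_coeff_of_neg _ hk

theorem coeffMap_iota {R S : Type*} [CommRing R] [CommRing S] (f : R →+* S)
    (P : PowerSeries ℤ) : coeffMap f (iota R P) = iota S P := by
  rw [iota_apply, coeffMap_ofPowerSeries, iota_apply,
    ← RingHom.comp_apply (PowerSeries.map f) (PowerSeries.map (Int.castRingHom R)),
    ← PowerSeries.map_comp, RingHom.ext_int (f.comp (Int.castRingHom R)) (Int.castRingHom S)]

theorem iota_ex (R : Type*) [CommRing R] (d : ℕ) [NeZero d] (P : PowerSeries ℤ) :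
    iota R (ex d P) = qExpand R d (iota R P) := by
  have hd : 0 < d := Nat.pos_of_ne_zero (NeZero.ne d)
  have hdZ : (0 : ℤ) < (d : ℤ) := by exact_mod_cast hd
  ext k
  rcases lt_or_ge k 0 with hk | hk
  · rw [coeff_iota_of_neg _ _ hk]
    by_cases hdk : (d : ℤ) ∣ k
    · obtain ⟨m, rfl⟩ := hdk
      rw [qExpand_coeff_mul]
      have hm : m < 0 := by
        by_contra hm
        have : 0 ≤ (d : ℤ) * m := mul_nonneg hdZ.le (not_lt.mp hm)
        omega
      rw [coeff_iota_of_neg _ _ hm]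
    · rw [qExpand_coeff_of_not_dvd _ _ hdk]
  · lift k to ℕ using hk
    rw [coeff_iota_natCast, coeff_ex]
    by_cases hdk : d ∣ k
    · rw [if_pos hdk]
      obtain ⟨m, rfl⟩ := hdk
      rw [Nat.mul_div_cancel_left _ hd]
      have : ((d * m : ℕ) : ℤ) = (d : ℤ) * (m : ℤ) := by push_cast; rfl
      rw [this, qExpand_coeff_mul, coeff_iota_natCast]
    · rw [if_neg hdk]
      have : ¬ (d : ℤ) ∣ (k : ℤ) := by
        rwa [Int.natCast_dvd_natCast]
      rw [qExpand_coeff_of_not_dvd _ _ this]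
      simp

theorem iota_X (R : Type*) [CommRing R] : iota R PowerSeries.X = HahnSeries.single 1 1 := by
  rw [iota_apply, PowerSeries.map_X, HahnSeries.ofPowerSeries_X]

theorem single_neg_one_mul_iota_X (R : Type*) [CommRing R] :
    (HahnSeries.single (-1 : ℤ) (1 : R)) * iota R PowerSeries.X = 1 := by
  rw [iota_X, HahnSeries.single_mul_single]
  simp

theorem iota_C (R : Type*) [CommRing R] (c : ℤ) :
    iota R (PowerSeries.C c) = HahnSeries.C (c : R) := by
  rw [iota_apply, PowerSeries.map_C, HahnSeries.ofPowerSeries_C]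
  rfl

theorem iota_injective (R : Type*) [CommRing R] [CharZero R] :
    Function.Injective (iota R) := by
  intro P Q h
  ext n
  have := congrArg (fun x : LaurentSeries R => x.coeff (n : ℤ)) h
  simp only [coeff_iota_natCast] at this
  exact_mod_cast this

/-! ### The Prelude series in terms of `e4Int`, `deltaInt` -/

theorem eisenstein4_eq : eisenstein4 = e4Int := by
  have h1 := Fermat.Agent.S24.helper17.qExpansion_E₄_eq
  rw [Fermat.Agent.S23.qExpansion_E₄] at h1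
  ext n
  have := congrArg (PowerSeries.coeff n) h1
  rw [PowerSeries.coeff_map, PowerSeries.coeff_map] at this
  have h2 : ((PowerSeries.coeff n e4Int : ℤ) : ℂ) = ((PowerSeries.coeff n eisenstein4 : ℤ) : ℂ) :=
    this
  exact_mod_cast h2.symm

theorem deltaInt_eq : deltaInt = PowerSeries.X * dedekindEtaUnit := by
  have h1 := Fermat.Agent.S24.helper17.qExpansion_discriminant_eq
  rw [Fermat.Agent.S23.qExpansion_discriminant_eq_map] at h1
  ext n
  have := congrArg (PowerSeries.coeff n) h1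
  rw [PowerSeries.coeff_map, ← PowerSeries.map_X (Int.castRingHom ℂ), ← map_mul,
    PowerSeries.coeff_map] at this
  have h2 : ((PowerSeries.coeff n deltaInt : ℤ) : ℂ) =
      ((PowerSeries.coeff n (PowerSeries.X * dedekindEtaUnit) : ℤ) : ℂ) := this
  exact_mod_cast h2

/-- `j Δ = E₄³` over any ring. -/
theorem jq_mul_delta (R : Type*) [CommRing R] :
    jqModC R * iota R deltaInt = iota R e4Int ^ 3 := by
  have h1 : jqModC R = HahnSeries.single (-1 : ℤ) 1 * iota R jNum := rfl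
  rw [h1, deltaInt_eq, jNum, eisenstein4_eq, map_mul, map_mul, map_pow]
  have h2 : iota R dedekindEtaUnitInv * iota R dedekindEtaUnit = 1 := by
    rw [← map_mul, mul_comm, dedekindEtaUnit_mul_inv, map_one]
  have h3 := single_neg_one_mul_iota_X R
  linear_combination (iota R e4Int ^ 3 * iota R dedekindEtaUnitInv * iota R dedekindEtaUnit) * h3
    + (iota R e4Int ^ 3) * h2


/-! ### Shifts and units -/

/-- `P / X` (dropping the constant term). -/
def sh (P : PowerSeries ℤ) : PowerSeries ℤ := PowerSeries.mk fun n => PowerSeries.coeff (n + 1) P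

theorem eq_X_mul_sh {P : PowerSeries ℤ} (h : PowerSeries.coeff 0 P = 0) :
    P = PowerSeries.X * sh P := by
  ext n
  rcases n with _ | n
  · rw [h]; simp
  · rw [PowerSeries.coeff_succ_X_mul, sh, PowerSeries.coeff_mk]

theorem coeff_sh (P : PowerSeries ℤ) (n : ℕ) :
    PowerSeries.coeff n (sh P) = PowerSeries.coeff (n + 1) P := by
  rw [sh, PowerSeries.coeff_mk]

/-- The inverse of a power series with constant coefficient `1`. -/
def inv1 (U : PowerSeries ℤ) : PowerSeries ℤ := PowerSeries.invOfUnit U 1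

theorem mul_inv1 {U : PowerSeries ℤ} (h : PowerSeries.coeff 0 U = 1) : U * inv1 U = 1 :=
  PowerSeries.mul_invOfUnit U 1 (by rw [← PowerSeries.coeff_zero_eq_constantCoeff_apply, h]; rfl)

theorem coeff_zero_inv1 {U : PowerSeries ℤ} (h : PowerSeries.coeff 0 U = 1) :
    PowerSeries.coeff 0 (inv1 U) = 1 := by
  have := congrArg (PowerSeries.coeff 0) (mul_inv1 h)
  rw [PowerSeries.coeff_zero_eq_constantCoeff_apply, map_mul,
    ← PowerSeries.coeff_zero_eq_constantCoeff_apply,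
    ← PowerSeries.coeff_zero_eq_constantCoeff_apply, h, one_mul] at this
  simpa using this

/-! ### The Hauptmoduln -/

/-- Numerator power series of `t₂ = q⁻¹ tNum2`. -/
def tNum2 : PowerSeries ℤ := A2 * inv1 (sh B2)
/-- Numerator power series of `t₃ = q⁻¹ tNum3`. -/
def tNum3 : PowerSeries ℤ := A3 * inv1 (sh B3)
/-- Numerator power series of `t₄ = q⁻¹ tNum4`. -/
def tNum4 : PowerSeries ℤ := sh A4 * inv1 (sh (sh B4))
/-- Numerator power series of `t₉ = q⁻¹ tNum9`. -/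
def tNum9 : PowerSeries ℤ := a9 * inv1 (sh p1)

/-- The Hauptmodul `t₂ = (η(z)/η(2z))^24 = q⁻¹ - 24 + ...` of `X₀(2)` over any ring. -/
def tH2 (R : Type*) [CommRing R] : LaurentSeries R := HahnSeries.single (-1 : ℤ) 1 * iota R tNum2
/-- The Hauptmodul `t₃ = (η(z)/η(3z))^12 = q⁻¹ - 12 + ...` of `X₀(3)` over any ring. -/
def tH3 (R : Type*) [CommRing R] : LaurentSeries R := HahnSeries.single (-1 : ℤ) 1 * iota R tNum3
/-- The Hauptmodul `t₄ = (η(z)/η(4z))^8 = q⁻¹ - 8 + ...` of `X₀(4)` over any ring. -/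
def tH4 (R : Type*) [CommRing R] : LaurentSeries R := HahnSeries.single (-1 : ℤ) 1 * iota R tNum4
/-- The Hauptmodul `t₉ = (η(z)/η(9z))^3 = q⁻¹ - 3 + ...` of `X₀(9)` over any ring. -/
def tH9 (R : Type*) [CommRing R] : LaurentSeries R := HahnSeries.single (-1 : ℤ) 1 * iota R tNum9

section coeffs

theorem B2_c0 : PowerSeries.coeff 0 B2 = 0 := tr_B2 0 (by norm_num)
theorem B2_c1 : PowerSeries.coeff 0 (sh B2) = 1 := by rw [coeff_sh]; exact tr_B2 1 (by norm_num)
theorem A2_c0 : PowerSeries.coeff 0 A2 = 1 := tr_A2 0 (by norm_num)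
theorem B3_c0 : PowerSeries.coeff 0 B3 = 0 := tr_B3 0 (by norm_num)
theorem B3_c1 : PowerSeries.coeff 0 (sh B3) = 1 := by rw [coeff_sh]; exact tr_B3 1 (by norm_num)
theorem A3_c0 : PowerSeries.coeff 0 A3 = 1 := tr_A3 0 (by norm_num)
theorem A4_c0 : PowerSeries.coeff 0 A4 = 0 := tr_A4 0 (by norm_num)
theorem A4_c1 : PowerSeries.coeff 0 (sh A4) = 1 := by rw [coeff_sh]; exact tr_A4 1 (by norm_num)
theorem B4_c0 : PowerSeries.coeff 0 B4 = 0 := tr_B4 0 (by norm_num)
theorem B4_c1 : PowerSeries.coeff 0 (sh B4) = 0 := by rw [coeff_sh]; exact tr_B4 1 (by norm_num)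
theorem B4_c2 : PowerSeries.coeff 0 (sh (sh B4)) = 1 := by
  rw [coeff_sh, coeff_sh]; exact tr_B4 2 (by norm_num)
theorem p1_c0 : PowerSeries.coeff 0 p1 = 0 := tr_p1 0 (by norm_num)
theorem p1_c1 : PowerSeries.coeff 0 (sh p1) = 1 := by rw [coeff_sh]; exact tr_p1 1 (by norm_num)
theorem a9_c0 : PowerSeries.coeff 0 a9 = 1 := tr_a9 0 (by norm_num)

end coeffs

variable (R : Type*) [CommRing R]

/-- `B2 · t₂ = A2`. -/
theorem B2_mul_tH2 : iota R B2 * tH2 R = iota R A2 := by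
  have h1 : iota R B2 = iota R PowerSeries.X * iota R (sh B2) := by
    rw [← map_mul, ← eq_X_mul_sh B2_c0]
  have h2 : iota R (sh B2) * iota R (inv1 (sh B2)) = 1 := by
    rw [← map_mul, mul_inv1 B2_c1, map_one]
  have h3 := single_neg_one_mul_iota_X R
  rw [tH2, tNum2, map_mul, h1]
  linear_combination (iota R A2 * iota R (sh B2) * iota R (inv1 (sh B2))) * h3 + iota R A2 * h2

/-- `B3 · t₃ = A3`. -/
theorem B3_mul_tH3 : iota R B3 * tH3 R = iota R A3 := by
  have h1 : iota R B3 = iota R PowerSeries.X * iota R (sh B3) := by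
    rw [← map_mul, ← eq_X_mul_sh B3_c0]
  have h2 : iota R (sh B3) * iota R (inv1 (sh B3)) = 1 := by
    rw [← map_mul, mul_inv1 B3_c1, map_one]
  have h3 := single_neg_one_mul_iota_X R
  rw [tH3, tNum3, map_mul, h1]
  linear_combination (iota R A3 * iota R (sh B3) * iota R (inv1 (sh B3))) * h3 + iota R A3 * h2

/-- `p1 · t₉ = a9`. -/
theorem p1_mul_tH9 : iota R p1 * tH9 R = iota R a9 := by
  have h1 : iota R p1 = iota R PowerSeries.X * iota R (sh p1) := by
    rw [← map_mul, ← eq_X_mul_sh p1_c0]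
  have h2 : iota R (sh p1) * iota R (inv1 (sh p1)) = 1 := by
    rw [← map_mul, mul_inv1 p1_c1, map_one]
  have h3 := single_neg_one_mul_iota_X R
  rw [tH9, tNum9, map_mul, h1]
  linear_combination (iota R a9 * iota R (sh p1) * iota R (inv1 (sh p1))) * h3 + iota R a9 * h2

/-- `B4 · t₄ = A4`. -/
theorem B4_mul_tH4 : iota R B4 * tH4 R = iota R A4 := by
  have h0 : iota R A4 = iota R PowerSeries.X * iota R (sh A4) := by
    rw [← map_mul, ← eq_X_mul_sh A4_c0]
  have h1 : iota R B4 = iota R PowerSeries.X * (iota R PowerSeries.X * iota R (sh (sh B4))) := by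
    rw [← map_mul, ← eq_X_mul_sh B4_c1, ← map_mul, ← eq_X_mul_sh B4_c0]
  have h2 : iota R (sh (sh B4)) * iota R (inv1 (sh (sh B4))) = 1 := by
    rw [← map_mul, mul_inv1 B4_c2, map_one]
  have h3 := single_neg_one_mul_iota_X R
  rw [tH4, tNum4, map_mul, h1, h0]
  linear_combination (iota R PowerSeries.X * iota R (sh A4) * iota R (sh (sh B4)) *
    iota R (inv1 (sh (sh B4)))) * h3 + (iota R PowerSeries.X * iota R (sh A4)) * h2

/-- The image of a power series `X^k · U`, `U` a unit, is a unit of the Laurent series ring. -/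
theorem isUnit_iota_X : IsUnit (iota R PowerSeries.X) :=
  IsUnit.of_mul_eq_one _ (by rw [mul_comm]; exact single_neg_one_mul_iota_X R)

theorem isUnit_iota_of_coeff_zero {U : PowerSeries ℤ} (h : PowerSeries.coeff 0 U = 1) :
    IsUnit (iota R U) :=
  IsUnit.of_mul_eq_one (iota R (inv1 U)) (by rw [← map_mul, mul_inv1 h, map_one])

theorem isUnit_iota_B2 : IsUnit (iota R B2) := by
  rw [eq_X_mul_sh B2_c0, map_mul]
  exact (isUnit_iota_X R).mul (isUnit_iota_of_coeff_zero R B2_c1)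

theorem isUnit_iota_B3 : IsUnit (iota R B3) := by
  rw [eq_X_mul_sh B3_c0, map_mul]
  exact (isUnit_iota_X R).mul (isUnit_iota_of_coeff_zero R B3_c1)

theorem isUnit_iota_p1 : IsUnit (iota R p1) := by
  rw [eq_X_mul_sh p1_c0, map_mul]
  exact (isUnit_iota_X R).mul (isUnit_iota_of_coeff_zero R p1_c1)

theorem isUnit_iota_B4 : IsUnit (iota R B4) := by
  rw [eq_X_mul_sh B4_c0, map_mul, eq_X_mul_sh B4_c1, map_mul]
  exact (isUnit_iota_X R).mul ((isUnit_iota_X R).mul (isUnit_iota_of_coeff_zero R B4_c2))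


/-! ### More on `ex` -/

theorem ex_sub (d : ℕ) (P Q : PowerSeries ℤ) : ex d (P - Q) = ex d P - ex d Q := by
  ext n
  rw [map_sub, coeff_ex, coeff_ex, coeff_ex]
  split_ifs <;> simp

theorem ex_ex (d e : ℕ) (hd : 0 < d) (P : PowerSeries ℤ) : ex d (ex e P) = ex (d * e) P := by
  ext n
  rw [coeff_ex, coeff_ex (d * e)]
  by_cases h1 : d ∣ n
  · obtain ⟨m, rfl⟩ := h1
    rw [if_pos (dvd_mul_right d m), Nat.mul_div_cancel_left _ hd, coeff_ex]
    by_cases h2 : e ∣ m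
    · obtain ⟨l, rfl⟩ := h2
      rw [if_pos (dvd_mul_right e l), if_pos ⟨l, by ring⟩]
      congr 2
      rcases Nat.eq_zero_or_pos e with he | he
      · subst he; simp
      · rw [Nat.mul_div_cancel_left _ he, ← mul_assoc,
          Nat.mul_div_cancel_left _ (Nat.mul_pos hd he)]
    · rw [if_neg h2, if_neg]
      rintro ⟨l, hl⟩
      apply h2
      refine ⟨l, ?_⟩
      have : d * m = d * (e * l) := by rw [hl]; ring
      exact Nat.eq_of_mul_eq_mul_left hd this
  · rw [if_neg h1, if_neg]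
    rintro ⟨l, hl⟩
    exact h1 ⟨e * l, by rw [hl]; ring⟩

theorem ex_B2 : ex 2 B2 = B4 := by
  rw [B2, B4, ex_sub, ex_ex 2 2 (by norm_num)]

theorem ex_A2 : ex 2 A2 = A2' := by
  rw [A2, A2', ex_sub, ex_add, ex_one 2 (by norm_num), ex_C_mul, ex_C_mul,
    ex_ex 2 2 (by norm_num)]

theorem ex_B3 : ex 3 B3 = B3' := by
  rw [B3, B3', ex_sub, ex_ex 3 3 (by norm_num)]

theorem ex_A3 : ex 3 A3 = A3' := by
  rw [A3, A3', ex_sub, ex_add, ex_one 3 (by norm_num), ex_C_mul, ex_C_mul,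
    ex_ex 3 3 (by norm_num)]

theorem e4Int_eq_A2 : e4Int = A2 + 256 * B2 := by
  rw [e4Int_eq, A2, B2]
  simp only [map_ofNat]
  ring

theorem ex_e4Int_eq_A2 : ex 2 e4Int = A2 + 16 * B2 := by
  rw [ex_e4Int 2 (by norm_num), A2, B2]
  simp only [map_ofNat]
  ring

theorem e4Int_eq_A3 : e4Int = A3 + 243 * B3 := by
  rw [e4Int_eq, A3, B3]
  simp only [map_ofNat]
  ring

theorem ex_e4Int_eq_A3 : ex 3 e4Int = A3 + 3 * B3 := by
  rw [ex_e4Int 3 (by norm_num), A3, B3]
  simp only [map_ofNat]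
  ring

/-! ### The identities for `j(q^d)`, over any commutative ring -/

section identities

variable (R : Type*) [CommRing R]

/-- `j(q^d) Δ(q^d) = E₄(q^d)³`. -/
theorem jqd_mul_delta (d : ℕ) [NeZero d] :
    qExpand R d (jqModC R) * iota R (ex d deltaInt) = iota R (ex d e4Int) ^ 3 := by
  rw [iota_ex, iota_ex, ← map_mul, jq_mul_delta, map_pow]

/-- Level 2: `j t₂² = (t₂ + 256)³`. -/
theorem jq_tH2 : jqModC R * tH2 R ^ 2 = (tH2 R + 256) ^ 3 := by
  have hb := B2_mul_tH2 R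
  have hj := jq_mul_delta R
  rw [F2a, e4Int_eq_A2] at hj
  simp only [map_mul, map_pow, map_add, map_ofNat] at hj
  rw [← hb] at hj
  refine ((isUnit_iota_B2 R).pow 3).mul_left_cancel ?_
  linear_combination hj

/-- Level 2: `j(q²) t₂ = (t₂ + 16)³`. -/
theorem jq2_tH2 : qExpand R 2 (jqModC R) * tH2 R = (tH2 R + 16) ^ 3 := by
  have hb := B2_mul_tH2 R
  have hj := jqd_mul_delta R 2
  rw [F2b, ex_e4Int_eq_A2] at hj
  simp only [map_mul, map_pow, map_add, map_ofNat] at hj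
  rw [← hb] at hj
  refine ((isUnit_iota_B2 R).pow 3).mul_left_cancel ?_
  linear_combination hj


/-- Level 3: `j t₃³ = (t₃ + 27)(t₃ + 243)³`. -/
theorem jq_tH3 : jqModC R * tH3 R ^ 3 = (tH3 R + 27) * (tH3 R + 243) ^ 3 := by
  have hb := B3_mul_tH3 R
  have hj := jq_mul_delta R
  have hF := congrArg (iota R) F3a
  rw [e4Int_eq_A3] at hj
  simp only [map_mul, map_pow, map_add, map_ofNat] at hj hF
  rw [← hb] at hj hF
  refine ((isUnit_iota_B3 R).pow 4).mul_left_cancel ?_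
  linear_combination (-(jqModC R)) * hF + (iota R B3 * tH3 R + 27 * iota R B3) * hj

/-- Level 3: `j(q³) t₃ = (t₃ + 27)(t₃ + 3)³`. -/
theorem jq3_tH3 : qExpand R 3 (jqModC R) * tH3 R = (tH3 R + 27) * (tH3 R + 3) ^ 3 := by
  have hb := B3_mul_tH3 R
  have hj := jqd_mul_delta R 3
  have hF := congrArg (iota R) F3b
  rw [ex_e4Int_eq_A3] at hj
  simp only [map_mul, map_pow, map_add, map_ofNat] at hj hF
  rw [← hb] at hj hF
  refine ((isUnit_iota_B3 R).pow 4).mul_left_cancel ?_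
  linear_combination (-(qExpand R 3 (jqModC R))) * hF +
    (iota R B3 * tH3 R + 27 * iota R B3) * hj

/-- `B4 · t₂(q²) = A2'`. -/
theorem B4_mul_tH2' : iota R B4 * qExpand R 2 (tH2 R) = iota R A2' := by
  have := congrArg (qExpand R 2) (B2_mul_tH2 R)
  rwa [map_mul, ← iota_ex, ← iota_ex, ex_B2, ex_A2] at this

/-- `B3' · t₃(q³) = A3'`. -/
theorem B3'_mul_tH3' : iota R B3' * qExpand R 3 (tH3 R) = iota R A3' := by
  have := congrArg (qExpand R 3) (B3_mul_tH3 R)
  rwa [map_mul, ← iota_ex, ← iota_ex, ex_B3, ex_A3] at this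

theorem isUnit_iota_B3' : IsUnit (iota R B3') := by
  rw [← ex_B3, iota_ex]
  exact (isUnit_iota_B3 R).map (qExpand R 3)

/-- Tower `X₀(4) → X₀(2)`: `t₂ (t₄ + 16) = t₄²`. -/
theorem tH2_tH4 : tH2 R * (tH4 R + 16) = tH4 R ^ 2 := by
  have h2 := B2_mul_tH2 R
  have h4 := B4_mul_tH4 R
  have hF := congrArg (iota R) F4a
  simp only [map_mul, map_pow, map_add, map_ofNat] at hF
  rw [← h2, ← h4] at hF
  refine ((isUnit_iota_B2 R).mul ((isUnit_iota_B4 R).pow 2)).mul_left_cancel ?_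
  linear_combination hF

/-- Tower `X₀(4) → X₀(2)`, second degeneracy map: `t₂(q²) = t₄ (t₄ + 16)`. -/
theorem tH2'_tH4 : qExpand R 2 (tH2 R) = tH4 R * (tH4 R + 16) := by
  have h2 := B4_mul_tH2' R
  have h4 := B4_mul_tH4 R
  have hF := congrArg (iota R) F4b
  simp only [map_mul, map_add, map_ofNat] at hF
  rw [← h2, ← h4] at hF
  refine ((isUnit_iota_B4 R).pow 2).mul_left_cancel ?_
  linear_combination hF

/-- Tower `X₀(9) → X₀(3)`: `t₃ (t₉² + 9 t₉ + 27) = t₉³`. -/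
theorem tH3_tH9 : tH3 R * (tH9 R ^ 2 + 9 * tH9 R + 27) = tH9 R ^ 3 := by
  have h3 := B3_mul_tH3 R
  have h9 := p1_mul_tH9 R
  have hF := congrArg (iota R) F9a
  simp only [map_mul, map_pow, map_add, map_ofNat] at hF
  rw [← h3, ← h9] at hF
  refine ((isUnit_iota_B3 R).mul ((isUnit_iota_p1 R).pow 3)).mul_left_cancel ?_
  linear_combination hF

/-- Tower `X₀(9) → X₀(3)`, second degeneracy map: `t₃(q³) = t₉ (t₉² + 9 t₉ + 27)`. -/
theorem tH3'_tH9 : qExpand R 3 (tH3 R) = tH9 R * (tH9 R ^ 2 + 9 * tH9 R + 27) := by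
  have h3 := B3'_mul_tH3' R
  have h9 := p1_mul_tH9 R
  have hF := congrArg (iota R) F9b
  simp only [map_mul, map_pow, map_add, map_ofNat] at hF
  rw [← h3, ← h9] at hF
  refine ((isUnit_iota_B3' R).mul ((isUnit_iota_p1 R).pow 3)).mul_left_cancel ?_
  linear_combination hF

/-- Level 4, `d = 1`: `j t₄⁴ (t₄ + 16) = (t₄² + 256 t₄ + 4096)³`. -/
theorem jq_tH4 :
    jqModC R * (tH4 R ^ 4 * (tH4 R + 16)) = (tH4 R ^ 2 + 256 * tH4 R + 4096) ^ 3 := by
  have h1 := jq_tH2 R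
  have h2 := tH2_tH4 R
  linear_combination (tH4 R + 16) ^ 3 * h1 +
    (-(jqModC R * (tH4 R + 16) * (tH2 R * (tH4 R + 16) + tH4 R ^ 2)) +
      ((tH2 R * (tH4 R + 16) + 256 * (tH4 R + 16)) ^ 2 +
        (tH2 R * (tH4 R + 16) + 256 * (tH4 R + 16)) * (tH4 R ^ 2 + 256 * (tH4 R + 16)) +
        (tH4 R ^ 2 + 256 * (tH4 R + 16)) ^ 2)) * h2

/-- Level 4, `d = 2`: `j(q²) t₄² (t₄ + 16)² = (t₄² + 16 t₄ + 256)³`. -/
theorem jq2_tH4 :
    qExpand R 2 (jqModC R) * (tH4 R ^ 2 * (tH4 R + 16) ^ 2) =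
      (tH4 R ^ 2 + 16 * tH4 R + 256) ^ 3 := by
  have h1 := congrArg (qExpand R 2) (jq_tH2 R)
  simp only [map_mul, map_pow, map_add, map_ofNat] at h1
  rw [tH2'_tH4] at h1
  linear_combination h1

/-- Level 4, `d = 4`: `j(q⁴) t₄ (t₄ + 16) = (t₄² + 16 t₄ + 16)³`. -/
theorem jq4_tH4 :
    qExpand R 4 (jqModC R) * (tH4 R * (tH4 R + 16)) = (tH4 R ^ 2 + 16 * tH4 R + 16) ^ 3 := by
  have h1 := congrArg (qExpand R 2) (jq2_tH2 R)
  simp only [map_mul, map_pow, map_add, map_ofNat] at h1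
  rw [tH2'_tH4, qExpand_qExpand] at h1
  linear_combination h1

/-- Level 9, `d = 1`:
`j t₉⁹ (t₉² + 9 t₉ + 27) = (t₉ + 9)³ (t₉³ + 243 t₉² + 2187 t₉ + 6561)³`. -/
theorem jq_tH9 :
    jqModC R * (tH9 R ^ 9 * (tH9 R ^ 2 + 9 * tH9 R + 27)) =
      (tH9 R + 9) ^ 3 * (tH9 R ^ 3 + 243 * tH9 R ^ 2 + 2187 * tH9 R + 6561) ^ 3 := by
  have h1 := jq_tH3 R
  have h2 := tH3_tH9 R
  linear_combination (tH9 R ^ 2 + 9 * tH9 R + 27) ^ 4 * h1 +
    (-(jqModC R * (tH9 R ^ 2 + 9 * tH9 R + 27) *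
        (tH9 R ^ 6 + tH9 R ^ 3 * (tH3 R * (tH9 R ^ 2 + 9 * tH9 R + 27)) +
          (tH3 R * (tH9 R ^ 2 + 9 * tH9 R + 27)) ^ 2)) +
      (tH3 R * (tH9 R ^ 2 + 9 * tH9 R + 27) + 243 * (tH9 R ^ 2 + 9 * tH9 R + 27)) ^ 3 +
      (tH9 R ^ 3 + 27 * (tH9 R ^ 2 + 9 * tH9 R + 27)) *
        ((tH3 R * (tH9 R ^ 2 + 9 * tH9 R + 27) + 243 * (tH9 R ^ 2 + 9 * tH9 R + 27)) ^ 2 +
          (tH3 R * (tH9 R ^ 2 + 9 * tH9 R + 27) + 243 * (tH9 R ^ 2 + 9 * tH9 R + 27)) *
            (tH9 R ^ 3 + 243 * (tH9 R ^ 2 + 9 * tH9 R + 27)) +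
          (tH9 R ^ 3 + 243 * (tH9 R ^ 2 + 9 * tH9 R + 27)) ^ 2)) * h2

/-- Level 9, `d = 3`:
`j(q³) t₉³ (t₉² + 9 t₉ + 27)³ = (t₉ + 3)³ (t₉ + 9)³ (t₉² + 27)³`. -/
theorem jq3_tH9 :
    qExpand R 3 (jqModC R) * (tH9 R ^ 3 * (tH9 R ^ 2 + 9 * tH9 R + 27) ^ 3) =
      (tH9 R + 3) ^ 3 * (tH9 R + 9) ^ 3 * (tH9 R ^ 2 + 27) ^ 3 := by
  have h1 := congrArg (qExpand R 3) (jq_tH3 R)
  simp only [map_mul, map_pow, map_add, map_ofNat] at h1
  rw [tH3'_tH9] at h1
  linear_combination h1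

/-- Level 9, `d = 9`:
`j(q⁹) t₉ (t₉² + 9 t₉ + 27) = (t₉ + 3)³ (t₉³ + 9 t₉² + 27 t₉ + 3)³`. -/
theorem jq9_tH9 :
    qExpand R 9 (jqModC R) * (tH9 R * (tH9 R ^ 2 + 9 * tH9 R + 27)) =
      (tH9 R + 3) ^ 3 * (tH9 R ^ 3 + 9 * tH9 R ^ 2 + 27 * tH9 R + 3) ^ 3 := by
  have h1 := congrArg (qExpand R 3) (jq3_tH3 R)
  simp only [map_mul, map_pow, map_add, map_ofNat] at h1
  rw [tH3'_tH9, qExpand_qExpand] at h1
  linear_combination h1

end identities


/-! ### Basic facts: base change, leading coefficient -/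

section basics

variable {R : Type*} [CommRing R]

theorem coeff_single_neg_one_mul (x : LaurentSeries R) (k : ℤ) :
    (HahnSeries.single (-1 : ℤ) (1 : R) * x).coeff k = x.coeff (k + 1) := by
  have := HahnSeries.coeff_single_mul_add (r := (1 : R)) (x := x) (a := k + 1) (b := -1)
  simpa using this

theorem coeff_qinv_iota_neg_one {P : PowerSeries ℤ} (h : PowerSeries.coeff 0 P = 1) :
    (HahnSeries.single (-1 : ℤ) (1 : R) * iota R P).coeff (-1) = 1 := by
  rw [coeff_single_neg_one_mul]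
  have := coeff_iota_natCast R P 0
  simp only [Nat.cast_zero] at this
  have h0 : (-1 : ℤ) + 1 = 0 := by norm_num
  rw [h0, this, h]
  simp

theorem coeff_qinv_iota_of_lt (P : PowerSeries ℤ) {k : ℤ} (hk : k < -1) :
    (HahnSeries.single (-1 : ℤ) (1 : R) * iota R P).coeff k = 0 := by
  rw [coeff_single_neg_one_mul]
  exact coeff_iota_of_neg R P (by omega)

theorem coeffMap_qinv_iota {S : Type*} [CommRing S] (f : R →+* S) (P : PowerSeries ℤ) :
    coeffMap f (HahnSeries.single (-1 : ℤ) (1 : R) * iota R P) =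
      HahnSeries.single (-1 : ℤ) (1 : S) * iota S P := by
  rw [map_mul, coeffMap_single, map_one, coeffMap_iota]

theorem coeff_zero_mul_one {P Q : PowerSeries ℤ} (hP : PowerSeries.coeff 0 P = 1)
    (hQ : PowerSeries.coeff 0 Q = 1) : PowerSeries.coeff 0 (P * Q) = 1 := by
  rw [PowerSeries.coeff_zero_eq_constantCoeff_apply] at hP hQ ⊢
  rw [map_mul, hP, hQ, mul_one]

theorem tNum2_c0 : PowerSeries.coeff 0 tNum2 = 1 :=
  coeff_zero_mul_one A2_c0 (coeff_zero_inv1 B2_c1)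
theorem tNum3_c0 : PowerSeries.coeff 0 tNum3 = 1 :=
  coeff_zero_mul_one A3_c0 (coeff_zero_inv1 B3_c1)
theorem tNum4_c0 : PowerSeries.coeff 0 tNum4 = 1 :=
  coeff_zero_mul_one A4_c1 (coeff_zero_inv1 B4_c2)
theorem tNum9_c0 : PowerSeries.coeff 0 tNum9 = 1 :=
  coeff_zero_mul_one a9_c0 (coeff_zero_inv1 p1_c1)

variable (R)

theorem coeff_tH2_neg_one : (tH2 R).coeff (-1) = 1 := coeff_qinv_iota_neg_one tNum2_c0
theorem coeff_tH3_neg_one : (tH3 R).coeff (-1) = 1 := coeff_qinv_iota_neg_one tNum3_c0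
theorem coeff_tH4_neg_one : (tH4 R).coeff (-1) = 1 := coeff_qinv_iota_neg_one tNum4_c0
theorem coeff_tH9_neg_one : (tH9 R).coeff (-1) = 1 := coeff_qinv_iota_neg_one tNum9_c0

variable {R}

theorem coeff_tH2_of_lt {k : ℤ} (hk : k < -1) : (tH2 R).coeff k = 0 :=
  coeff_qinv_iota_of_lt _ hk
theorem coeff_tH3_of_lt {k : ℤ} (hk : k < -1) : (tH3 R).coeff k = 0 :=
  coeff_qinv_iota_of_lt _ hk
theorem coeff_tH4_of_lt {k : ℤ} (hk : k < -1) : (tH4 R).coeff k = 0 :=
  coeff_qinv_iota_of_lt _ hk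
theorem coeff_tH9_of_lt {k : ℤ} (hk : k < -1) : (tH9 R).coeff k = 0 :=
  coeff_qinv_iota_of_lt _ hk

theorem coeffMap_tH2 {S : Type*} [CommRing S] (f : R →+* S) : coeffMap f (tH2 R) = tH2 S :=
  coeffMap_qinv_iota f _
theorem coeffMap_tH3 {S : Type*} [CommRing S] (f : R →+* S) : coeffMap f (tH3 R) = tH3 S :=
  coeffMap_qinv_iota f _
theorem coeffMap_tH4 {S : Type*} [CommRing S] (f : R →+* S) : coeffMap f (tH4 R) = tH4 S :=
  coeffMap_qinv_iota f _
theorem coeffMap_tH9 {S : Type*} [CommRing S] (f : R →+* S) : coeffMap f (tH9 R) = tH9 S :=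
  coeffMap_qinv_iota f _

/-- A Laurent series `q⁻¹ + …` plus a constant is nonzero. -/
theorem qinv_add_const_ne_zero [Nontrivial R] {x : LaurentSeries R} (h : x.coeff (-1) = 1)
    (c : R) : x + HahnSeries.C c ≠ 0 := by
  intro h0
  have := congrArg (fun y : LaurentSeries R => y.coeff (-1)) h0
  simp only [HahnSeries.coeff_add, h, HahnSeries.coeff_zero] at this
  rw [HahnSeries.C_apply, HahnSeries.coeff_single_of_ne (by norm_num), add_zero] at this
  exact one_ne_zero this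

variable (R)

theorem tH2_ne_zero [Nontrivial R] : tH2 R ≠ 0 := fun h => by
  simpa [h] using coeff_tH2_neg_one R
theorem tH3_ne_zero [Nontrivial R] : tH3 R ≠ 0 := fun h => by
  simpa [h] using coeff_tH3_neg_one R
theorem tH4_ne_zero [Nontrivial R] : tH4 R ≠ 0 := fun h => by
  simpa [h] using coeff_tH4_neg_one R
theorem tH9_ne_zero [Nontrivial R] : tH9 R ≠ 0 := fun h => by
  simpa [h] using coeff_tH9_neg_one R

end basics

end Fermat.Agent.P2.helper66
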