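import Mathlib
import Fermat.Agent.P2.helper43_TameAbs
import Fermat.Agent.P2.helper29_Interface
import Fermat.Agent.P2.helper66_HauptJ
import Fermat.Agent.P2.helper81_ValScale
import Fermat.Agent.P2.helper95_FFlInst
import Fermat.Agent.S24.helper77_Finrank
import Fermat.Agent.S24.helper37_IndexGamma0

/-!
# P2-[TAME-BASE] (helper43, task 586): `TameBaseStatement M A` for good pairs

* `tameHyp_four`, `tameHyp_nine` : the hypotheses of the abstract theorem (`helper43_TameAbs`)
  from the Hauptmodul identities of levels `4` and `9` over a field in which `2` resp. `3` is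
  invertible (cusp values `{0, -16}` resp. `{0, α, β}`, `α, β` the roots of `X² + 9 X + 27`).
* `tameBase_four`, `tameBase_nine` : `helper29.TameBaseStatement M A` for `4 ∣ M` resp. `9 ∣ M`
  and `A` over a prime not dividing `M`, with the ONLY open input
  `tH4 (kA A) ∈ FFb A M` resp. `tH9 (kA A) ∈ FFb A M` (helper66, (H-mem)).
-/

set_option autoImplicit false
set_option linter.unusedSectionVars false
set_option linter.style.haveILetI false

namespace Fermat.Agent.P2.helper43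

open AlgebraicCurve IntermediateField Polynomial ModularCurve
open Fermat.Agent.S18.helper19

noncomputable section

/-! ## The two identities as `TameHyp` -/

section Hyp

variable {K F : Type*} [Field K] [Field F] [Algebra K F]

/-- the multiplicities at level `4`: `4` at the cusp value `0`, `1` elsewhere -/
def eFour (a : K) : ℕ := open Classical in if a = 0 then 4 else 1

/-- the multiplicities at level `9`: `9` at the cusp value `0`, `1` elsewhere -/
def eNine (a : K) : ℕ := open Classical in if a = 0 then 9 else 1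

theorem zero_notMem_four (h2 : (2 : K) ≠ 0) : (0 : K) ∉ ({-16} : Finset K) := by
  rw [Finset.mem_singleton]
  intro h0
  have h16 : (2 : K) ^ 4 = 0 := by linear_combination h0
  exact h2 (pow_eq_zero_iff (by norm_num) |>.1 h16)

/-- the finite cusp values at level `4` -/
def vFour (h2 : (2 : K) ≠ 0) : Finset K := Finset.cons 0 {-16} (zero_notMem_four h2)

theorem card_vFour (h2 : (2 : K) ≠ 0) : (vFour h2).card = 2 := by
  rw [vFour, Finset.card_cons, Finset.card_singleton]

theorem tameHyp_four (h2 : (2 : K) ≠ 0) (j t : F) (hj : Transcendental K j)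
    (hid : j * (t ^ 4 * (t + 16)) = (t ^ 2 + 256 * t + 4096) ^ 3) :
    TameHyp j t ((X ^ 2 + 256 * X + 4096) ^ 3 : K[X]) (X ^ 4 * (X + 16)) (vFour h2) eFour := by
  have h16 : (16 : K) ≠ 0 := by
    have : (16 : K) = 2 ^ 4 := by norm_num
    rw [this]
    exact pow_ne_zero _ h2
  refine ⟨hj, ?_, ?_, ?_, ?_, ?_⟩
  · rw [vFour, Finset.prod_cons, Finset.prod_singleton, eFour, eFour, if_pos rfl,
      if_neg (by simpa using h16)]
    simp only [map_zero, sub_zero, pow_one, map_neg, sub_neg_eq_add, map_ofNat]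
  · intro a _
    rw [eFour]
    split_ifs <;> norm_num
  · intro a ha
    rw [vFour, Finset.mem_cons, Finset.mem_singleton] at ha
    rcases ha with rfl | rfl
    · have : eval (0 : K) ((X ^ 2 + 256 * X + 4096) ^ 3 : K[X]) = (2 : K) ^ 36 := by
        simp
        norm_num
      rw [this]
      exact pow_ne_zero _ h2
    · have : eval (-16 : K) ((X ^ 2 + 256 * X + 4096) ^ 3 : K[X]) = (2 : K) ^ 24 := by
        simp
        norm_num
      rw [this]
      exact pow_ne_zero _ h2
  · have h1 : ((X ^ 2 + 256 * X + 4096) ^ 3 : K[X]).natDegree = 6 := by compute_degree!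
    have h3 : (X ^ 4 * (X + 16) : K[X]).natDegree = 5 := by compute_degree!
    rw [h1, h3]
    norm_num
  · simp only [map_pow, map_add, map_mul, aeval_X, map_ofNat]
    exact hid

theorem natDegree_four : ((X ^ 2 + 256 * X + 4096) ^ 3 : K[X]).natDegree = 6 := by
  compute_degree!

/-! ### Level 9 -/

section Nine

variable (h3 : (3 : K) ≠ 0) {α : K} (hα : α ^ 2 + 9 * α + 27 = 0)

include hα in
theorem root_conj : (-9 - α) ^ 2 + 9 * (-9 - α) + 27 = 0 := by
  linear_combination hα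

include h3 hα in
theorem root_ne_zero : α ≠ 0 := by
  rintro rfl
  have h : (3 : K) ^ 3 = 0 := by linear_combination hα
  exact h3 (pow_eq_zero_iff (by norm_num) |>.1 h)

include h3 hα in
theorem root_ne_conj : α ≠ -9 - α := by
  intro h
  have h' : 2 * α + 9 = 0 := by linear_combination h
  have h27 : (3 : K) ^ 3 = 0 := by linear_combination 4 * hα - (2 * α + 9) * h'
  exact h3 (pow_eq_zero_iff (by norm_num) |>.1 h27)

include h3 hα in
theorem eval_nine_ne_zero :
    eval α ((X + 9) ^ 3 * (X ^ 3 + 243 * X ^ 2 + 2187 * X + 6561) ^ 3 : K[X]) ≠ 0 := by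
  have key : (α + 9) * (α ^ 3 + 243 * α ^ 2 + 2187 * α + 6561) * (-6 - α) = 3 ^ 7 := by
    linear_combination (-13203 - 3618 * α - 249 * α ^ 2 - α ^ 3) * hα
  have hg : (α + 9) * (α ^ 3 + 243 * α ^ 2 + 2187 * α + 6561) ≠ 0 := by
    intro h0
    rw [h0, zero_mul] at key
    exact pow_ne_zero 7 h3 key.symm
  have h : eval α ((X + 9) ^ 3 * (X ^ 3 + 243 * X ^ 2 + 2187 * X + 6561) ^ 3 : K[X]) =
      ((α + 9) * (α ^ 3 + 243 * α ^ 2 + 2187 * α + 6561)) ^ 3 := by
    simp only [eval_mul, eval_pow, eval_add, eval_X, eval_ofNat]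
    ring
  rw [h]
  exact pow_ne_zero _ hg

include h3 in
theorem eval_nine_zero_ne_zero :
    eval (0 : K) ((X + 9) ^ 3 * (X ^ 3 + 243 * X ^ 2 + 2187 * X + 6561) ^ 3 : K[X]) ≠ 0 := by
  have h : eval (0 : K) ((X + 9) ^ 3 * (X ^ 3 + 243 * X ^ 2 + 2187 * X + 6561) ^ 3 : K[X]) =
      (3 : K) ^ 30 := by
    simp only [eval_mul, eval_pow, eval_add, eval_X, eval_ofNat]
    norm_num
  rw [h]
  exact pow_ne_zero _ h3

include h3 hα in
theorem notMem_nine₁ : α ∉ ({-9 - α} : Finset K) := by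
  rw [Finset.mem_singleton]
  exact root_ne_conj h3 hα

include h3 hα in
theorem notMem_nine₂ : (0 : K) ∉ Finset.cons α {-9 - α} (notMem_nine₁ h3 hα) := by
  rw [Finset.mem_cons, Finset.mem_singleton]
  rintro (h | h)
  · exact root_ne_zero h3 hα h.symm
  · exact root_ne_zero h3 (root_conj hα) h.symm

/-- the finite cusp values at level `9` -/
def vNine : Finset K := Finset.cons 0 (Finset.cons α {-9 - α} (notMem_nine₁ h3 hα))
  (notMem_nine₂ h3 hα)

theorem card_vNine : (vNine h3 hα).card = 3 := by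
  rw [vNine, Finset.card_cons, Finset.card_cons, Finset.card_singleton]

include hα in
theorem factor_nine : (X - C α) * (X - C (-9 - α)) = (X ^ 2 + 9 * X + 27 : K[X]) := by
  have h2 : α * (-9 - α) = 27 := by linear_combination -hα
  have e : (X - C α) * (X - C (-9 - α)) = X ^ 2 + 9 * X + C (α * (-9 - α)) := by
    simp only [map_sub, map_neg, map_mul, map_ofNat]
    ring
  rw [e, h2, map_ofNat]

theorem tameHyp_nine (j t : F) (hj : Transcendental K j)
    (hid : j * (t ^ 9 * (t ^ 2 + 9 * t + 27)) =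
      (t + 9) ^ 3 * (t ^ 3 + 243 * t ^ 2 + 2187 * t + 6561) ^ 3) :
    TameHyp j t ((X + 9) ^ 3 * (X ^ 3 + 243 * X ^ 2 + 2187 * X + 6561) ^ 3 : K[X])
      (X ^ 9 * (X ^ 2 + 9 * X + 27)) (vNine h3 hα) eNine := by
  have hα0 := root_ne_zero h3 hα
  have hβ0 := root_ne_zero h3 (root_conj hα)
  refine ⟨hj, ?_, ?_, ?_, ?_, ?_⟩
  · rw [vNine, Finset.prod_cons, Finset.prod_cons, Finset.prod_singleton, eNine, eNine, eNine,
      if_pos rfl, if_neg hα0, if_neg hβ0, pow_one, pow_one, factor_nine hα]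
    simp only [map_zero, sub_zero]
  · intro a _
    rw [eNine]
    split_ifs <;> norm_num
  · intro a ha
    rw [vNine, Finset.mem_cons, Finset.mem_cons, Finset.mem_singleton] at ha
    rcases ha with rfl | rfl | rfl
    · exact eval_nine_zero_ne_zero h3
    · exact eval_nine_ne_zero h3 hα
    · exact eval_nine_ne_zero h3 (root_conj hα)
  · have h1 : ((X + 9) ^ 3 * (X ^ 3 + 243 * X ^ 2 + 2187 * X + 6561) ^ 3 : K[X]).natDegree
        = 12 := by compute_degree!
    have h2 : (X ^ 9 * (X ^ 2 + 9 * X + 27) : K[X]).natDegree = 11 := by compute_degree!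
    rw [h1, h2]
    norm_num
  · simp only [map_pow, map_add, map_mul, aeval_X, map_ofNat]
    exact hid

theorem natDegree_nine :
    ((X + 9) ^ 3 * (X ^ 3 + 243 * X ^ 2 + 2187 * X + 6561) ^ 3 : K[X]).natDegree = 12 := by
  compute_degree!

end Nine

end Hyp

/-! ## The instance `K = kA A`, `F = FFb A M` -/

section Instance

open Fermat.Agent.P2.helper29 Fermat.Agent.P2.helper66

variable (M : ℕ) [NeZero M] (A : ValuationSubring Kb) {ℓ : ℕ} [Fact ℓ.Prime]
  (hA : A.LiesOverPrime ℓ) (hℓM : ¬ ℓ ∣ M)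

include hA hℓM in
/-- `[F̃_M : k(j̃)] = ψ(M)` -/
theorem finrank_jBar :
    Module.finrank (kA A)⟮jBar A M⟯ (FFb A M) = dedekindPsi M := by
  have h1 := helper81.finrank_xBar_eq_finrank_xJ (N := M) A hA hℓM
  have h2 := Fermat.Agent.S24.helper77.an_finrank M
  have h3 := Fermat.Agent.S24.helper37.index_Gamma0 M (NeZero.ne M)
  rw [Subgroup.index] at h3
  exact h1.trans (h2.trans h3)

include hA in
theorem natCast_ne_zero_of_not_dvd {n : ℕ} (hn : ¬ ℓ ∣ n) : ((n : ℕ) : kA A) ≠ 0 := by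
  haveI := helper81.charP_residueField A hA
  intro h
  exact hn ((CharP.cast_eq_zero_iff (kA A) ℓ n).1 h)

include hA hℓM in
theorem two_ne_zero_of_four_dvd (h4 : 4 ∣ M) : (2 : kA A) ≠ 0 := by
  have h : ¬ ℓ ∣ 2 := fun h => hℓM ((h.trans (by norm_num : (2 : ℕ) ∣ 4)).trans h4)
  have := natCast_ne_zero_of_not_dvd A hA h
  exact_mod_cast this

include hA hℓM in
theorem three_ne_zero_of_nine_dvd (h9 : 9 ∣ M) : (3 : kA A) ≠ 0 := by
  have h : ¬ ℓ ∣ 3 := fun h => hℓM ((h.trans (by norm_num : (3 : ℕ) ∣ 9)).trans h9)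
  have := natCast_ne_zero_of_not_dvd A hA h
  exact_mod_cast this

include hA hℓM in
/-- **[TAME-BASE] at levels divisible by `4`**, given `t̃₄ ∈ F̃_M`. -/
theorem tameBase_four_of_mem (h4 : 4 ∣ M) (hmem : tH4 (kA A) ∈ FFb A M) :
    TameBaseStatement M A := by
  haveI : IsAlgClosed (kA A) := helper95.isAlgClosed_residueField A
  haveI : FiniteDimensional (kA A)⟮jBar A M⟯ (FFb A M) :=
    helper81.finiteDimensional_xBar A hA M hℓM
  haveI : Algebra.IsSeparable (kA A)⟮jBar A M⟯ (FFb A M) :=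
    helper81.isSeparable_xBar A hA M hℓM
  have h2 := two_ne_zero_of_four_dvd M A hA hℓM h4
  have hid : jBar A M * ((⟨tH4 (kA A), hmem⟩ : FFb A M) ^ 4 * (⟨tH4 (kA A), hmem⟩ + 16)) =
      ((⟨tH4 (kA A), hmem⟩ : FFb A M) ^ 2 + 256 * ⟨tH4 (kA A), hmem⟩ + 4096) ^ 3 :=
    Subtype.ext (jq_tH4 (kA A))
  have H := tameHyp_four h2 (jBar A M) ⟨tH4 (kA A), hmem⟩
    (helper81.transcendental_xBar A M) hid
  obtain ⟨htr, hfd, hsep, hpoles, hdeg⟩ := H.tame_abs
  refine ⟨⟨tH4 (kA A), hmem⟩, vFour h2, htr, hfd, hsep, hpoles, ?_⟩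
  rw [natDegree_four, finrank_jBar M A hA hℓM] at hdeg
  rw [card_vFour, ← hdeg]
  push_cast
  ring

include hA hℓM in
/-- **[TAME-BASE] at levels divisible by `9`**, given `t̃₉ ∈ F̃_M`. -/
theorem tameBase_nine_of_mem (h9 : 9 ∣ M) (hmem : tH9 (kA A) ∈ FFb A M) :
    TameBaseStatement M A := by
  haveI : IsAlgClosed (kA A) := helper95.isAlgClosed_residueField A
  haveI : FiniteDimensional (kA A)⟮jBar A M⟯ (FFb A M) :=
    helper81.finiteDimensional_xBar A hA M hℓM
  haveI : Algebra.IsSeparable (kA A)⟮jBar A M⟯ (FFb A M) :=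
    helper81.isSeparable_xBar A hA M hℓM
  have h3 := three_ne_zero_of_nine_dvd M A hA hℓM h9
  obtain ⟨α, hα⟩ : ∃ α : kA A, α ^ 2 + 9 * α + 27 = 0 := by
    have hdeg : (X ^ 2 + 9 * X + 27 : (kA A)[X]).degree ≠ 0 := by
      have : (X ^ 2 + 9 * X + 27 : (kA A)[X]).natDegree = 2 := by compute_degree!
      rw [degree_eq_natDegree (ne_zero_of_natDegree_gt (n := 0) (by omega)), this]
      norm_num
    obtain ⟨α, hα⟩ := IsAlgClosed.exists_root _ hdeg
    refine ⟨α, ?_⟩
    simpa only [IsRoot.def, eval_add, eval_mul, eval_pow, eval_X, eval_ofNat] using hα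
  have hid : jBar A M * ((⟨tH9 (kA A), hmem⟩ : FFb A M) ^ 9 *
      ((⟨tH9 (kA A), hmem⟩ : FFb A M) ^ 2 + 9 * ⟨tH9 (kA A), hmem⟩ + 27)) =
      ((⟨tH9 (kA A), hmem⟩ : FFb A M) + 9) ^ 3 *
        ((⟨tH9 (kA A), hmem⟩ : FFb A M) ^ 3 + 243 * (⟨tH9 (kA A), hmem⟩ : FFb A M) ^ 2 +
          2187 * ⟨tH9 (kA A), hmem⟩ + 6561) ^ 3 :=
    Subtype.ext (jq_tH9 (kA A))
  have H := tameHyp_nine h3 hα (jBar A M) ⟨tH9 (kA A), hmem⟩
    (helper81.transcendental_xBar A M) hid
  obtain ⟨htr, hfd, hsep, hpoles, hdeg⟩ := H.tame_abs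
  refine ⟨⟨tH9 (kA A), hmem⟩, vNine h3 hα, htr, hfd, hsep, hpoles, ?_⟩
  rw [natDegree_nine, finrank_jBar M A hA hℓM] at hdeg
  rw [card_vNine, ← hdeg]
  push_cast
  ring

end Instance

/-! ## Good pairs -/

section Good

open Fermat.Agent.P2.helper29 Fermat.Agent.P2.helper66

/-- **[TAME-BASE]** for good pairs, conditional ONLY on the membership of the reduced
Hauptmoduln in the special fibre field (helper66 (H-mem)). -/
theorem tameBase_of_mem (M : ℕ) [NeZero M] (A : ValuationSubring Kb) (h : GoodPair M A)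
    (hmem4 : 4 ∣ M → tH4 (kA A) ∈ FFb A M) (hmem9 : 9 ∣ M → tH9 (kA A) ∈ FFb A M) :
    TameBaseStatement M A := by
  obtain ⟨hM, ℓ, hℓ, hℓM, hA⟩ := h
  haveI : Fact ℓ.Prime := ⟨hℓ⟩
  rcases hM with h4 | h9
  · exact tameBase_four_of_mem M A hA hℓM h4 (hmem4 h4)
  · exact tameBase_nine_of_mem M A hA hℓM h9 (hmem9 h9)

end Good

end

end Fermat.Agent.P2.helper43
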