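import Mathlib

/-!
# P2-[HAUPT] (helper66): elimination identities (GENERATED by /tmp/haupt/el/gen_lean.py)

For the Hauptmodul `u = t₂` (resp. `t₃`) with `j u² = (u + 256)³`, `k u = (u + 16)³`
(resp. `j u³ = (u + 27)(u + 243)³`, `k u = (u + 27)(u + 3)³`), where `k = j(q²)` (resp. `j(q³)`):

* `elimTwo`, `elimThree` : `α(j, k) * u + β(j, k) = 0` with explicit `α, β ∈ ℤ[j, k]`
  (first subresultant of the two equations);
* `alphaTwo_mul`, `alphaThree_mul` : `α(j, k) * u ^ m = c * G(u)` with `G` monic, `c = -2²⁴`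
  (resp. `-3¹⁸`).

Everything is a polynomial identity in an arbitrary commutative ring.
-/

set_option autoImplicit false
set_option linter.unusedSimpArgs false

namespace Fermat.Agent.P2.helper66

section elim

variable {S : Type*} [CommRing S]

/-- the coefficient `α` of the linear relation `α u + β = 0`, level 2 -/
def alphaTwo (j k : S) : S :=
  -j ^ 2 * k + 768 * j ^ 2 + 1488 * j * k + 25067520 * j + k ^ 2 - 161280 * k + 19906560000

/-- the coefficient `β` of the linear relation `α u + β = 0`, level 2 -/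
def betaTwo (j k : S) : S :=
  4096 * j ^ 2 + 799211520 * j + 16773120 * k + 2707292160000

/-- the monic polynomial `G` with `α u ^ 5 = -16777216 G(u)`, level 2 -/
def gTwo (u : S) : S :=
  u ^ 6 + 96 * u ^ 5 + 198960 * u ^ 4 + 9451775 * u ^ 3 + 814940160 * u ^ 2 + 1610612736 * u + 68719476736

theorem elimTwo (u j k : S) (h1 : j * u ^ 2 = (u + 256) ^ 3) (h2 : k * u = (u + 16) ^ 3) :
    alphaTwo j k * u + betaTwo j k = 0 := by
  unfold alphaTwo betaTwo
  linear_combination
    (-(u * j - 720 * u + 48 * j + k + 161280)) * h1 +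
    (-(-u * j + 720 * u + j ^ 2 - 1488 * j - k + 357120)) * h2

theorem alphaTwo_mul (u j k : S) (h1 : j * u ^ 2 = (u + 256) ^ 3) (h2 : k * u = (u + 16) ^ 3) :
    alphaTwo j k * u ^ 5 = -16777216 * gTwo u := by
  have e : alphaTwo j k * u ^ 5 =
      -(j * u ^ 2) ^ 2 * (k * u) + 768 * (j * u ^ 2) ^ 2 * u + 1488 * (j * u ^ 2) * (k * u) * u ^ 2 + 25067520 * (j * u ^ 2) * u ^ 3
        + (k * u) ^ 2 * u ^ 3 - 161280 * (k * u) * u ^ 4 + 19906560000 * u ^ 5 := by
    unfold alphaTwo
    ring
  rw [e, h1, h2]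
  unfold gTwo
  ring

theorem map_alphaTwo {T : Type*} [CommRing T] (f : S →+* T) (j k : S) :
    f (alphaTwo j k) = alphaTwo (f j) (f k) := by
  simp only [alphaTwo, map_add, map_sub, map_mul, map_pow, map_neg, map_ofNat]

theorem map_betaTwo {T : Type*} [CommRing T] (f : S →+* T) (j k : S) :
    f (betaTwo j k) = betaTwo (f j) (f k) := by
  simp only [betaTwo, map_add, map_sub, map_mul, map_pow, map_neg, map_ofNat]

/-- the coefficient `α` of the linear relation `α u + β = 0`, level 3 -/
def alphaThree (j k : S) : S :=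
  -j ^ 5 * k ^ 2 + 1512 * j ^ 5 * k - 374706 * j ^ 5 + 3672 * j ^ 4 * k ^ 2 + 2199927357 * j ^ 4 * k
    + 3513587135760 * j ^ 4 - 4802436 * j ^ 3 * k ^ 2 + 6287091255360 * j ^ 3 * k - 578039691371443200 * j ^ 3
    + j ^ 2 * k ^ 3 + 2734670160 * j ^ 2 * k ^ 2 - 12148776475948800 * j ^ 2 * k + 3468720924518404608000 * j ^ 2
    - 1440 * j * k ^ 3 - 607750387200 * j * k ^ 2 + 4430048196934656000 * j * k - 4101236057280872448000000 * j
    + 518400 * k ^ 3 + 19110670848000 * k ^ 2 + 170148916887552000000 * k + 1369513028852121600000000000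

/-- the coefficient `β` of the linear relation `α u + β = 0`, level 3 -/
def betaThree (j k : S) : S :=
  729 * j ^ 5 * k - 551124 * j ^ 5 + 13944460716 * j ^ 4 * k + 16877673339120 * j ^ 4 + 35694226104480 * j ^ 3 * k
    - 10379169493558848000 * j ^ 3 + 387419760 * j ^ 2 * k ^ 2 - 108392996345702400 * j ^ 2 * k
    + 86248560322019464704000 * j ^ 2 - 557884454400 * j * k ^ 2 + 79754306454770688000 * j * k
    - 108081439958057877504000000 * j + 200838403584000 * k ^ 2 - 18302525195157504000000 * k + 36976851779007283200000000000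

/-- the monic polynomial `G` with `α u ^ 17 = -387420489 G(u)`, level 3 -/
def gThree (u : S) : S :=
  u ^ 24 + 180 * u ^ 23 + 604260 * u ^ 22 + 169227180 * u ^ 21 + 172815090354 * u ^ 20 + 55804974079356 * u ^ 19
    + 30627485655264180 * u ^ 18 + 8963836035998027940 * u ^ 17 + 2922463937633054026175 * u ^ 16
    + 674790131693276295046344 * u ^ 15 + 104059564197482007540995400 * u ^ 14 + 10634130930988048841519925240 * u ^ 13
    + 714497062692911433835441149180 * u ^ 12 + 32595241880692156786791932904120 * u ^ 11 + 1092031115844816135017958761132040 * u ^ 10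
    + 29227206620119000828324996327823496 * u ^ 9 + 631369534611706245946854630605297295 * u ^ 8
    + 10026170029459483951173684183640170180 * u ^ 7 + 101252646526561775531466560207506219860 * u ^ 6
    + 571345398064176567635962876770065286684 * u ^ 5 + 1993875208543879143749528331693612967794 * u ^ 4
    + 2297779939660229438732967023200792042380 * u ^ 3 + 4756646279918457285315928822279495420740 * u ^ 2
    + 2956176588286918466321664204127665952020 * u + 11972515182562019788602740026717047105681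

theorem elimThree (u j k : S) (h1 : j * u ^ 3 = (u + 27) * (u + 243) ^ 3) (h2 : k * u = (u + 27) * (u + 3) ^ 3) :
    alphaThree j k * u + betaThree j k = 0 := by
  unfold alphaThree betaThree
  linear_combination
    (-(270 * u ^ 2 * j ^ 4 + u ^ 2 * j ^ 3 * k + 25429680 * u ^ 2 * j ^ 3 - 2160 * u ^ 2 * j ^ 2 * k - 17132083200 * u ^ 2 * j ^ 2
      + 1555200 * u ^ 2 * j * k - 15281146368000 * u ^ 2 * j - 373248000 * u ^ 2 * k + 10319560704000000 * u ^ 2
      + u * j ^ 4 * k + 8964 * u * j ^ 4 - 2880 * u * j ^ 3 * k - 158494320 * u * j ^ 3 + 2913840 * u * j ^ 2 * k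
      - 2055056832000 * u * j ^ 2 - 1209945600 * u * j * k + 3192389024256000 * u * j + 166841856000 * u * k
      - 1176429920256000000 * u + 36 * j ^ 4 * k + 45684 * j ^ 4 + 92124 * j ^ 3 * k - 26779844160 * j ^ 3
      + j ^ 2 * k ^ 2 - 279776160 * j ^ 2 * k + 222607701273600 * j ^ 2 - 1440 * j * k ^ 2 + 205858713600 * j * k
      - 278975282042880000 * j + 518400 * k ^ 2 - 47241999360000 * k + 95445616951296000000)) * h1 +
    (-(-270 * u ^ 2 * j ^ 4 - u ^ 2 * j ^ 3 * k - 25429680 * u ^ 2 * j ^ 3 + 2160 * u ^ 2 * j ^ 2 * k + 17132083200 * u ^ 2 * j ^ 2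
      - 1555200 * u ^ 2 * j * k + 15281146368000 * u ^ 2 * j + 373248000 * u ^ 2 * k - 10319560704000000 * u ^ 2
      + 270 * u * j ^ 5 + 25226316 * u * j ^ 4 - 35282958480 * u * j ^ 3 + 196560 * u * j ^ 2 * k
      - 890989632000 * u * j ^ 2 - 283046400 * u * j * k + 18129597064704000 * u * j + 101896704000 * u * k
      - 6253653786624000000 * u + j ^ 5 * k - 756 * j ^ 5 - 3672 * j ^ 4 * k - 1126535364 * j ^ 4
      + 4802436 * j ^ 3 * k - 5636726677440 * j ^ 3 - j ^ 2 * k ^ 2 - 2715539040 * j ^ 2 * k + 7922962188518400 * j ^ 2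
      + 1440 * j * k ^ 2 + 580201574400 * j * k - 959904104785920000 * j - 518400 * k ^ 2 - 9193098240000 * k
      - 1009345912897536000000)) * h2

theorem alphaThree_mul (u j k : S) (h1 : j * u ^ 3 = (u + 27) * (u + 243) ^ 3) (h2 : k * u = (u + 27) * (u + 3) ^ 3) :
    alphaThree j k * u ^ 17 = -387420489 * gThree u := by
  have e : alphaThree j k * u ^ 17 =
      -(j * u ^ 3) ^ 5 * (k * u) ^ 2 + 1512 * (j * u ^ 3) ^ 5 * (k * u) * u - 374706 * (j * u ^ 3) ^ 5 * u ^ 2
        + 3672 * (j * u ^ 3) ^ 4 * (k * u) ^ 2 * u ^ 3 + 2199927357 * (j * u ^ 3) ^ 4 * (k * u) * u ^ 4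
        + 3513587135760 * (j * u ^ 3) ^ 4 * u ^ 5 - 4802436 * (j * u ^ 3) ^ 3 * (k * u) ^ 2 * u ^ 6
        + 6287091255360 * (j * u ^ 3) ^ 3 * (k * u) * u ^ 7 - 578039691371443200 * (j * u ^ 3) ^ 3 * u ^ 8
        + (j * u ^ 3) ^ 2 * (k * u) ^ 3 * u ^ 8 + 2734670160 * (j * u ^ 3) ^ 2 * (k * u) ^ 2 * u ^ 9
        - 12148776475948800 * (j * u ^ 3) ^ 2 * (k * u) * u ^ 10 + 3468720924518404608000 * (j * u ^ 3) ^ 2 * u ^ 11
        - 1440 * (j * u ^ 3) * (k * u) ^ 3 * u ^ 11 - 607750387200 * (j * u ^ 3) * (k * u) ^ 2 * u ^ 12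
        + 4430048196934656000 * (j * u ^ 3) * (k * u) * u ^ 13 - 4101236057280872448000000 * (j * u ^ 3) * u ^ 14
        + 518400 * (k * u) ^ 3 * u ^ 14 + 19110670848000 * (k * u) ^ 2 * u ^ 15 + 170148916887552000000 * (k * u) * u ^ 16
        + 1369513028852121600000000000 * u ^ 17 := by
    unfold alphaThree
    ring
  rw [e, h1, h2]
  unfold gThree
  ring

theorem map_alphaThree {T : Type*} [CommRing T] (f : S →+* T) (j k : S) :
    f (alphaThree j k) = alphaThree (f j) (f k) := by
  simp only [alphaThree, map_add, map_sub, map_mul, map_pow, map_neg, map_ofNat]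

theorem map_betaThree {T : Type*} [CommRing T] (f : S →+* T) (j k : S) :
    f (betaThree j k) = betaThree (f j) (f k) := by
  simp only [betaThree, map_add, map_sub, map_mul, map_pow, map_neg, map_ofNat]

end elim

end Fermat.Agent.P2.helper66
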