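import Mathlib
import Fermat.Agent.P2.helper66_HauptJ
import Fermat.Agent.P2.helper66_HauptElim
import Fermat.Agent.S28.helper81_Laurent

/-!
# P2-[HAUPT] (helper66): the Hauptmoduln lie in the modular function fields

For every field `K` with `2 ≠ 0` (resp. `3 ≠ 0`) the Laurent series `tH2 K`, `tH4 K`
(resp. `tH3 K`, `tH9 K`) lie in `modularFunctionFieldFullC K M` for `2 ∣ M`, `4 ∣ M`
(resp. `3 ∣ M`, `9 ∣ M`).  The proof is an explicit elimination:
`t₂ = -β(j, j₂)/α(j, j₂)`, `t₄ = (t₂(q²) - 16 t₂)/(t₂ + 16)`, and similarly at level `3`, `9`.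
-/

set_option autoImplicit false

noncomputable section

namespace Fermat.Agent.P2.helper66

open ModularCurve Polynomial
open Fermat.Agent.S28.helper81 (order_eq_of_coeff aeval_ne_zero_of_order_neg)

variable (K : Type*) [Field K]

/-! ### Orders -/

theorem order_tH2 : (tH2 K).order = -1 :=
  order_eq_of_coeff _ _ (by rw [coeff_tH2_neg_one]; exact one_ne_zero)
    (fun _ hm => coeff_tH2_of_lt hm)

theorem order_tH3 : (tH3 K).order = -1 :=
  order_eq_of_coeff _ _ (by rw [coeff_tH3_neg_one]; exact one_ne_zero)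
    (fun _ hm => coeff_tH3_of_lt hm)

theorem order_tH4 : (tH4 K).order = -1 :=
  order_eq_of_coeff _ _ (by rw [coeff_tH4_neg_one]; exact one_ne_zero)
    (fun _ hm => coeff_tH4_of_lt hm)

theorem order_tH9 : (tH9 K).order = -1 :=
  order_eq_of_coeff _ _ (by rw [coeff_tH9_neg_one]; exact one_ne_zero)
    (fun _ hm => coeff_tH9_of_lt hm)

theorem ofNat_eq_C (n : ℕ) [n.AtLeastTwo] :
    (OfNat.ofNat n : LaurentSeries K) = HahnSeries.C (OfNat.ofNat n : K) :=
  (map_ofNat (HahnSeries.C (Γ := ℤ) (R := K)) n).symm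

theorem ofNat_ne_zero_of {n : ℕ} [n.AtLeastTwo] (h : (OfNat.ofNat n : K) ≠ 0) :
    (OfNat.ofNat n : LaurentSeries K) ≠ 0 := by
  rw [ofNat_eq_C]
  intro h0
  apply h
  have := congrArg (fun x : LaurentSeries K => x.coeff 0) h0
  simpa using this

/-- the order of `x + c` for `x = qⁿ + …`, `n < 0`, and a constant `c`. -/
theorem order_add_C {x : LaurentSeries K} {n : ℤ} (hn : n < 0) (h1 : x.coeff n = 1)
    (h2 : ∀ m < n, x.coeff m = 0) (c : K) : (x + HahnSeries.C c).order = n := by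
  refine order_eq_of_coeff _ _ ?_ ?_
  · rw [HahnSeries.coeff_add, h1, HahnSeries.C_apply, HahnSeries.coeff_single_of_ne hn.ne,
      add_zero]
    exact one_ne_zero
  · intro m hm
    rw [HahnSeries.coeff_add, h2 m hm, HahnSeries.C_apply,
      HahnSeries.coeff_single_of_ne (by omega), add_zero]

/-! ### Level 2 and level 3: non-vanishing of `α` -/

/-- `gTwo` as a polynomial -/
def gTwoPoly : K[X] := gTwo (X : K[X])

/-- `gThree` as a polynomial -/
def gThreePoly : K[X] := gThree (X : K[X])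

theorem aeval_gTwoPoly (u : LaurentSeries K) : aeval u (gTwoPoly K) = gTwo u := by
  simp only [gTwoPoly, gTwo, map_add, map_mul, map_pow, aeval_X, map_ofNat]

theorem aeval_gThreePoly (u : LaurentSeries K) : aeval u (gThreePoly K) = gThree u := by
  simp only [gThreePoly, gThree, map_add, map_mul, map_pow, aeval_X, map_ofNat]

theorem gTwoPoly_ne_zero : gTwoPoly K ≠ 0 := by
  have h : (gTwoPoly K).natDegree = 6 := by
    unfold gTwoPoly gTwo
    compute_degree!
  intro h0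
  rw [h0] at h
  simp at h

theorem gThreePoly_ne_zero : gThreePoly K ≠ 0 := by
  have h : (gThreePoly K).natDegree = 24 := by
    unfold gThreePoly gThree
    compute_degree!
  intro h0
  rw [h0] at h
  simp at h

theorem gTwo_tH2_ne_zero : gTwo (tH2 K) ≠ 0 := by
  rw [← aeval_gTwoPoly]
  exact aeval_ne_zero_of_order_neg _ (by rw [order_tH2]; norm_num) _ (gTwoPoly_ne_zero K)

theorem gThree_tH3_ne_zero : gThree (tH3 K) ≠ 0 := by
  rw [← aeval_gThreePoly]
  exact aeval_ne_zero_of_order_neg _ (by rw [order_tH3]; norm_num) _ (gThreePoly_ne_zero K)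

theorem alphaTwo_ne_zero (h2 : (2 : K) ≠ 0) :
    alphaTwo (jqModC K) (qExpand K 2 (jqModC K)) ≠ 0 := by
  intro h0
  have h := alphaTwo_mul (tH2 K) (jqModC K) (qExpand K 2 (jqModC K)) (jq_tH2 K) (jq2_tH2 K)
  rw [h0, zero_mul] at h
  have h2L : (2 : LaurentSeries K) ≠ 0 := ofNat_ne_zero_of K h2
  have hc : (-16777216 : LaurentSeries K) ≠ 0 := by
    have : (-16777216 : LaurentSeries K) = -(2 ^ 24) := by norm_num
    rw [this]
    exact neg_ne_zero.mpr (pow_ne_zero 24 h2L)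
  exact mul_ne_zero hc (gTwo_tH2_ne_zero K) h.symm

theorem alphaThree_ne_zero (h3 : (3 : K) ≠ 0) :
    alphaThree (jqModC K) (qExpand K 3 (jqModC K)) ≠ 0 := by
  intro h0
  have h := alphaThree_mul (tH3 K) (jqModC K) (qExpand K 3 (jqModC K)) (jq_tH3 K) (jq3_tH3 K)
  rw [h0, zero_mul] at h
  have h3L : (3 : LaurentSeries K) ≠ 0 := ofNat_ne_zero_of K h3
  have hc : (-387420489 : LaurentSeries K) ≠ 0 := by
    have : (-387420489 : LaurentSeries K) = -(3 ^ 18) := by norm_num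
    rw [this]
    exact neg_ne_zero.mpr (pow_ne_zero 18 h3L)
  exact mul_ne_zero hc (gThree_tH3_ne_zero K) h.symm

/-! ### Membership -/

section mem

variable {K}
variable {L : Type*} [Field L] [Algebra K L] (F : IntermediateField K L)

theorem alphaTwo_mem {j k : L} (hj : j ∈ F) (hk : k ∈ F) : alphaTwo j k ∈ F := by
  have h := map_alphaTwo (algebraMap F L) ⟨j, hj⟩ ⟨k, hk⟩
  have h' : alphaTwo j k = algebraMap F L (alphaTwo ⟨j, hj⟩ ⟨k, hk⟩) := h.symm
  rw [h']
  exact (alphaTwo (⟨j, hj⟩ : F) ⟨k, hk⟩).2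

theorem betaTwo_mem {j k : L} (hj : j ∈ F) (hk : k ∈ F) : betaTwo j k ∈ F := by
  have h := map_betaTwo (algebraMap F L) ⟨j, hj⟩ ⟨k, hk⟩
  have h' : betaTwo j k = algebraMap F L (betaTwo ⟨j, hj⟩ ⟨k, hk⟩) := h.symm
  rw [h']
  exact (betaTwo (⟨j, hj⟩ : F) ⟨k, hk⟩).2

theorem alphaThree_mem {j k : L} (hj : j ∈ F) (hk : k ∈ F) : alphaThree j k ∈ F := by
  have h := map_alphaThree (algebraMap F L) ⟨j, hj⟩ ⟨k, hk⟩
  have h' : alphaThree j k = algebraMap F L (alphaThree ⟨j, hj⟩ ⟨k, hk⟩) := h.symm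
  rw [h']
  exact (alphaThree (⟨j, hj⟩ : F) ⟨k, hk⟩).2

theorem betaThree_mem {j k : L} (hj : j ∈ F) (hk : k ∈ F) : betaThree j k ∈ F := by
  have h := map_betaThree (algebraMap F L) ⟨j, hj⟩ ⟨k, hk⟩
  have h' : betaThree j k = algebraMap F L (betaThree ⟨j, hj⟩ ⟨k, hk⟩) := h.symm
  rw [h']
  exact (betaThree (⟨j, hj⟩ : F) ⟨k, hk⟩).2

/-- if `α u + β = 0` with `α ≠ 0`, `α, β ∈ F`, then `u ∈ F`. -/
theorem mem_of_linear {α β u : L} (hα : α ∈ F) (hβ : β ∈ F) (h0 : α ≠ 0)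
    (h : α * u + β = 0) : u ∈ F := by
  have hu : u = -β * α⁻¹ := by
    field_simp
    linear_combination h
  rw [hu]
  exact F.mul_mem (F.neg_mem hβ) (F.inv_mem hα)

end mem

/-- `t₂ ∈ F_M` for `2 ∣ M`, over any field in which `2 ≠ 0`. -/
theorem tH2_mem (h2 : (2 : K) ≠ 0) (M : ℕ) [NeZero M] (hM : 2 ∣ M) :
    tH2 K ∈ modularFunctionFieldFullC K M := by
  have hj : jqModC K ∈ modularFunctionFieldFullC K M := jqModC_mem_full K M
  have hk : qExpand K 2 (jqModC K) ∈ modularFunctionFieldFullC K M := jqModCd_mem_full K M hM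
  exact mem_of_linear _ (alphaTwo_mem _ hj hk) (betaTwo_mem _ hj hk) (alphaTwo_ne_zero K h2)
    (elimTwo (tH2 K) _ _ (jq_tH2 K) (jq2_tH2 K))

/-- `t₃ ∈ F_M` for `3 ∣ M`, over any field in which `3 ≠ 0`. -/
theorem tH3_mem (h3 : (3 : K) ≠ 0) (M : ℕ) [NeZero M] (hM : 3 ∣ M) :
    tH3 K ∈ modularFunctionFieldFullC K M := by
  have hj : jqModC K ∈ modularFunctionFieldFullC K M := jqModC_mem_full K M
  have hk : qExpand K 3 (jqModC K) ∈ modularFunctionFieldFullC K M := jqModCd_mem_full K M hM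
  exact mem_of_linear _ (alphaThree_mem _ hj hk) (betaThree_mem _ hj hk) (alphaThree_ne_zero K h3)
    (elimThree (tH3 K) _ _ (jq_tH3 K) (jq3_tH3 K))

/-- `f ∈ F_N` implies `f(q^ℓ) ∈ F_M` for `N ℓ ∣ M`. -/
theorem qExpand_mem_full {N ℓ M : ℕ} [NeZero N] [NeZero ℓ] [NeZero M] (hM : N * ℓ ∣ M)
    {f : LaurentSeries K} (hf : f ∈ modularFunctionFieldFullC K N) :
    qExpand K ℓ f ∈ modularFunctionFieldFullC K M := by
  have : NeZero (N * ℓ) := ⟨Nat.mul_ne_zero (NeZero.ne N) (NeZero.ne ℓ)⟩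
  refine full_degeneracyC_le K hM (full_degeneracyC_map_le K N ℓ ?_)
  exact ⟨f, hf, rfl⟩

/-- `t₄ ∈ F_M` for `4 ∣ M`, over any field in which `2 ≠ 0`. -/
theorem tH4_mem (h2 : (2 : K) ≠ 0) (M : ℕ) [NeZero M] (hM : 4 ∣ M) :
    tH4 K ∈ modularFunctionFieldFullC K M := by
  have ht2 : tH2 K ∈ modularFunctionFieldFullC K M :=
    tH2_mem K h2 M (Dvd.dvd.trans (by norm_num) hM)
  have ht2' : qExpand K 2 (tH2 K) ∈ modularFunctionFieldFullC K M :=
    qExpand_mem_full K (N := 2) (ℓ := 2) hM (tH2_mem K h2 2 dvd_rfl)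
  have h16 : (16 : LaurentSeries K) ∈ modularFunctionFieldFullC K M := ofNat_mem _ 16
  have hne : tH2 K + 16 ≠ 0 := by
    rw [ofNat_eq_C]
    exact qinv_add_const_ne_zero (coeff_tH2_neg_one K) _
  refine mem_of_linear _ (add_mem ht2 h16) (neg_mem (sub_mem ht2' (mul_mem h16 ht2))) hne ?_
  linear_combination (tH2_tH4 K) - (tH2'_tH4 K)

/-! ### Level 9 -/

theorem order_qExpand_tH3 : (qExpand K 3 (tH3 K)).order = -3 := by
  refine order_eq_of_coeff _ _ ?_ ?_
  · have := qExpand_coeff_mul (R := K) 3 (tH3 K) (-1)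
    have h3 : ((3 : ℕ) : ℤ) * (-1) = -3 := by norm_num
    rw [h3] at this
    rw [this, coeff_tH3_neg_one]
    exact one_ne_zero
  · intro m hm
    by_cases hd : ((3 : ℕ) : ℤ) ∣ m
    · obtain ⟨m', rfl⟩ := hd
      rw [qExpand_coeff_mul]
      exact coeff_tH3_of_lt (by push_cast at hm; omega)
    · exact qExpand_coeff_of_not_dvd 3 _ hd

theorem alphaNine_ne_zero :
    (tH3 K + 9) * (qExpand K 3 (tH3 K) - 243) + 2916 ≠ 0 := by
  intro h0
  have h1 : (tH3 K + 9).order = -1 := by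
    rw [ofNat_eq_C]
    exact order_add_C K (by norm_num) (coeff_tH3_neg_one K) (fun _ hm => coeff_tH3_of_lt hm) _
  have h2 : (qExpand K 3 (tH3 K) - 243).order = -3 := by
    have e : qExpand K 3 (tH3 K) - 243 = qExpand K 3 (tH3 K) + HahnSeries.C (-243 : K) := by
      rw [map_neg, ← ofNat_eq_C, sub_eq_add_neg]
    rw [e]
    refine order_add_C K (by norm_num) ?_ ?_ _
    · have := qExpand_coeff_mul (R := K) 3 (tH3 K) (-1)
      have h3 : ((3 : ℕ) : ℤ) * (-1) = -3 := by norm_num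
      rw [h3] at this
      rw [this, coeff_tH3_neg_one]
    · intro m hm
      by_cases hd : ((3 : ℕ) : ℤ) ∣ m
      · obtain ⟨m', rfl⟩ := hd
        rw [qExpand_coeff_mul]
        exact coeff_tH3_of_lt (by push_cast at hm; omega)
      · exact qExpand_coeff_of_not_dvd 3 _ hd
  have hx : tH3 K + 9 ≠ 0 := by
    intro h; rw [h] at h1; simp at h1
  have hy : qExpand K 3 (tH3 K) - 243 ≠ 0 := by
    intro h; rw [h] at h2; simp at h2
  have h3 : ((tH3 K + 9) * (qExpand K 3 (tH3 K) - 243)).order = -4 := by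
    rw [HahnSeries.order_mul hx hy, h1, h2]
    norm_num
  have h4 : (tH3 K + 9) * (qExpand K 3 (tH3 K) - 243) = HahnSeries.C (-2916 : K) := by
    rw [map_neg, ← ofNat_eq_C]
    linear_combination h0
  rw [h4] at h3
  have h5 : (HahnSeries.C (-2916 : K) : LaurentSeries K).order = 0 := by
    by_cases hc : (-2916 : K) = 0
    · rw [hc, map_zero, HahnSeries.order_zero]
    · exact HahnSeries.order_C
  rw [h5] at h3
  norm_num at h3

/-- `t₉ ∈ F_M` for `9 ∣ M`, over any field in which `3 ≠ 0`. -/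
theorem tH9_mem (h3 : (3 : K) ≠ 0) (M : ℕ) [NeZero M] (hM : 9 ∣ M) :
    tH9 K ∈ modularFunctionFieldFullC K M := by
  have ha : tH3 K ∈ modularFunctionFieldFullC K M :=
    tH3_mem K h3 M (Dvd.dvd.trans (by norm_num) hM)
  have hb : qExpand K 3 (tH3 K) ∈ modularFunctionFieldFullC K M :=
    qExpand_mem_full K (N := 3) (ℓ := 3) hM (tH3_mem K h3 3 dvd_rfl)
  have hn : ∀ n : ℕ, [n.AtLeastTwo] → (OfNat.ofNat n : LaurentSeries K) ∈
      modularFunctionFieldFullC K M := fun n _ => ofNat_mem _ n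
  have hA := tH3_tH9 K
  have hB := tH3'_tH9 K
  refine mem_of_linear (α := (tH3 K + 9) * (qExpand K 3 (tH3 K) - 243) + 2916)
    (β := -(qExpand K 3 (tH3 K) * (tH3 K + 9) ^ 2) - 1458 * tH3 K + 54 * qExpand K 3 (tH3 K))
    _ ?_ ?_ (alphaNine_ne_zero K) ?_
  · exact add_mem (mul_mem (add_mem ha (hn 9)) (sub_mem hb (hn 243))) (hn 2916)
  · exact add_mem (sub_mem (neg_mem (mul_mem hb (pow_mem (add_mem ha (hn 9)) 2)))
      (mul_mem (hn 1458) ha)) (mul_mem (hn 54) hb)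
  · linear_combination (-((tH3 K + 9) * tH9 K + 54)) * hA +
      (-((tH3 K + 9) ^ 2 - (tH3 K + 9) * tH9 K - 54)) * hB

end Fermat.Agent.P2.helper66
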