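import Mathlib
import Fermat.Agent.P2.helper43_TameBase
import Fermat.Agent.P2.helper66_HauptMem

/-!
# P2-[TAME-BASE] (helper43, task 586): `TameBaseStatement M A` for good pairs, UNCONDITIONAL

`tameBase : GoodPair M A → TameBaseStatement M A` (statement VERBATIM from
`helper29_Interface`), from `tameBase_four_of_mem` / `tameBase_nine_of_mem` and helper66's
membership theorems `tH4_mem`, `tH9_mem`.
-/

set_option autoImplicit false

namespace Fermat.Agent.P2.helper43

open Fermat.Agent.S18.helper19 Fermat.Agent.P2.helper29 Fermat.Agent.P2.helper66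

/-- **[TAME-BASE]** at levels divisible by `4`. -/
theorem tameBase_four (M : ℕ) [NeZero M] (A : ValuationSubring Kb) {ℓ : ℕ} [Fact ℓ.Prime]
    (hA : A.LiesOverPrime ℓ) (hℓM : ¬ ℓ ∣ M) (h4 : 4 ∣ M) : TameBaseStatement M A :=
  tameBase_four_of_mem M A hA hℓM h4
    (tH4_mem (kA A) (two_ne_zero_of_four_dvd M A hA hℓM h4) M h4)

/-- **[TAME-BASE]** at levels divisible by `9`. -/
theorem tameBase_nine (M : ℕ) [NeZero M] (A : ValuationSubring Kb) {ℓ : ℕ} [Fact ℓ.Prime]
    (hA : A.LiesOverPrime ℓ) (hℓM : ¬ ℓ ∣ M) (h9 : 9 ∣ M) : TameBaseStatement M A :=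
  tameBase_nine_of_mem M A hA hℓM h9
    (tH9_mem (kA A) (three_ne_zero_of_nine_dvd M A hA hℓM h9) M h9)

/-- **[TAME-BASE]** for good pairs. -/
theorem tameBase (M : ℕ) [NeZero M] (A : ValuationSubring Kb) (h : GoodPair M A) :
    TameBaseStatement M A := by
  obtain ⟨hM, ℓ, hℓ, hℓM, hA⟩ := h
  haveI : Fact ℓ.Prime := ⟨hℓ⟩
  rcases hM with h4 | h9
  · exact tameBase_four M A hA hℓM h4
  · exact tameBase_nine M A hA hℓM h9

end Fermat.Agent.P2.helper43
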