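import Fermat.Agent.P2.helper50_RootVRing
import Fermat.Agent.P2.helper50_RootVDefs

/-!
# P2 / ROOT-V (helper50), part 3: the theorem

* `thetaBasis N` : the basis `1, θ, …, θ^(n-1)` of `F_N` over `ℚ̄(j)`;
* `orthData` : the ring of `w`-integral functions and this basis satisfy the abstract
  hypotheses `OrthData` (orthonormality);
* `rootV` : **[ROOT-V]**, `RootVStatement M A` for every `A` lying over a prime not dividing `M`.
-/

set_option autoImplicit false
set_option linter.style.haveILetI false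
set_option linter.unusedSectionVars false
set_option linter.unusedVariables false

open ModularCurve Polynomial IntermediateField
open scoped IntermediateField.algebraAdjoinAdjoin

noncomputable section

namespace Fermat.Agent.P2.helper50

open Fermat.Agent.S24 Fermat.Agent.P2.helper81 Fermat.Agent.S18.helper19 Fermat.Agent.S28

attribute [local instance] algAX faithfulSMul_AX

section Basis

variable (N : ℕ) [NeZero N]

theorem thetaF_isIntegral : IsIntegral Kbar⟮xJ N⟯ (thetaF N) := by
  haveI := helper77.an_finiteDimensional N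
  exact IsIntegral.of_finite _ _

theorem natDegree_minpoly_thetaF :
    (minpoly Kbar⟮xJ N⟯ (thetaF N)).natDegree = degN N := by
  haveI := helper77.an_finiteDimensional N
  have htop : Kbar⟮xJ N⟯⟮thetaF N⟯ = ⊤ :=
    adjoin_simple_eq_top_of_pair (xJ N) (thetaF N) (adjoin_xJ_thetaF_eq_top N)
  rw [← IntermediateField.adjoin.finrank (thetaF_isIntegral N), htop,
    IntermediateField.finrank_top', finrank_xJ]

theorem linearIndependent_thetaF_pow :
    LinearIndependent Kbar⟮xJ N⟯ (fun i : Fin (degN N) => thetaF N ^ (i : ℕ)) := by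
  have h := linearIndependent_pow (K := Kbar⟮xJ N⟯) (thetaF N)
  have e : degN N = (minpoly Kbar⟮xJ N⟯ (thetaF N)).natDegree :=
    (natDegree_minpoly_thetaF N).symm
  exact h.comp (Fin.cast e) (Fin.cast_injective e)

/-- the basis `1, θ, …, θ^(n-1)` of `F_N` over `ℚ̄(j)` -/
def thetaBasis : Module.Basis (Fin (degN N)) Kbar⟮xJ N⟯ (FN N) :=
  haveI := helper77.an_finiteDimensional N
  haveI : Nonempty (Fin (degN N)) := ⟨⟨0, degN_pos N⟩⟩
  basisOfLinearIndependentOfCardEqFinrank (linearIndependent_thetaF_pow N)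
    (by rw [Fintype.card_fin, finrank_xJ])

theorem thetaBasis_apply (i : Fin (degN N)) : thetaBasis N i = thetaF N ^ (i : ℕ) := by
  haveI := helper77.an_finiteDimensional N
  haveI : Nonempty (Fin (degN N)) := ⟨⟨0, degN_pos N⟩⟩
  rw [thetaBasis, coe_basisOfLinearIndependentOfCardEqFinrank]

end Basis

section EvE

variable (A : ValuationSubring Kbar) (N : ℕ) [NeZero N]

/-- the structure map `A[X] → ℚ̄(j)`, `X ↦ j` -/
def evE : Polynomial A →+* Kbar⟮xJ N⟯ :=
  eval₂RingHom ((algebraMap Kbar Kbar⟮xJ N⟯).comp A.subtype) (AdjoinSimple.gen Kbar (xJ N))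

theorem algebraMap_evE (p : Polynomial A) :
    algebraMap Kbar⟮xJ N⟯ (FN N) (evE A N p) = evX A N p := by
  unfold evE evX
  rw [coe_eval₂RingHom, coe_eval₂RingHom, Polynomial.hom_eval₂]
  rfl

/-- the coercion `F_N → ℚ̄((q))` as a ring homomorphism -/
def vF : FN N →+* LaurentSeries Kbar := (modularFunctionFieldBar N).val.toRingHom

theorem vF_apply (f : FN N) : vF N f = (f : LaurentSeries Kbar) := rfl

theorem vF_injective : Function.Injective (vF N) := Subtype.val_injective

theorem vF_evX (p : Polynomial A) : vF N (evX A N p) = coeffMap A.subtype (aeval (jA A) p) :=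
  coe_evX A N p

theorem vF_thetaF : vF N (thetaF N) = coeffMap A.subtype (thetaA A N) := by
  rw [coeffMap_thetaA]
  exact coe_thetaF N

/-- comparison of coefficients in the basis `θ^i` -/
theorem coeff_of_repr (c : Fin (degN N) → Kbar⟮xJ N⟯) (s : Polynomial A)
    (G : Polynomial (Polynomial A)) (hdeg : G.natDegree < degN N)
    (h : evX A N s * ∑ i, c i • thetaBasis N i = aeval (thetaF N) G) (i : Fin (degN N)) :
    evE A N s * c i = evE A N (G.coeff i) := by
  have h1 : aeval (thetaF N) G = ∑ i : Fin (degN N), evE A N (G.coeff i) • thetaBasis N i := by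
    rw [Polynomial.aeval_eq_sum_range' hdeg, Finset.sum_range]
    refine Finset.sum_congr rfl fun k _ => ?_
    rw [thetaBasis_apply, Algebra.smul_def, Algebra.smul_def, algebraMap_evE]
    rfl
  have h2 : evX A N s * ∑ i, c i • thetaBasis N i =
      ∑ i : Fin (degN N), (evE A N s * c i) • thetaBasis N i := by
    rw [Finset.mul_sum]
    refine Finset.sum_congr rfl fun k _ => ?_
    rw [Algebra.smul_def, Algebra.smul_def, map_mul, algebraMap_evE, mul_assoc]
  rw [h1, h2] at h
  have h3 := congrArg (fun v => (thetaBasis N).repr v i) h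
  simp only [Module.Basis.repr_sum_self] at h3
  exact h3

end EvE

section Orth

variable (A : ValuationSubring Kbar) {ℓ : ℕ} [Fact ℓ.Prime] (hA : A.LiesOverPrime ℓ)
variable (N : ℕ) [NeZero N] (hℓN : ¬ ℓ ∣ N)

theorem thetaF_pow_mem_wRing (i : ℕ) : thetaF N ^ i ∈ wRing A N :=
  mem_wRing_of_incl A N _ (thetaA A N ^ i) (by
    rw [map_pow, coeffMap_thetaA, ← coe_thetaF N]
    rfl)

include hA hℓN in
/-- **orthonormality**: a combination `∑ cᵢ θ^i` with `w`-integral coefficients `cᵢ ∈ ℚ̄(j)`
which reduces to `0` has all its coefficients reducing to `0`. -/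
theorem wRed_coeff_eq_zero (c : Fin (degN N) → Kbar⟮xJ N⟯)
    (hc : ∀ i, algebraMap Kbar⟮xJ N⟯ (FN N) (c i) ∈ wRing A N)
    (hb : ∀ i, thetaBasis N i ∈ wRing A N)
    (h0 : ∑ i, wRed A N ⟨algebraMap Kbar⟮xJ N⟯ (FN N) (c i), hc i⟩ *
      wRed A N ⟨thetaBasis N i, hb i⟩ = 0) (i : Fin (degN N)) :
    wRed A N ⟨algebraMap Kbar⟮xJ N⟯ (FN N) (c i), hc i⟩ = 0 := by
  set f : FN N := ∑ i, c i • thetaBasis N i with hfdef
  have hf : f ∈ wRing A N := by
    refine Subring.sum_mem _ fun k _ => ?_
    rw [Algebra.smul_def]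
    exact Subring.mul_mem _ (hc k) (hb k)
  have hf0 : wRed A N ⟨f, hf⟩ = 0 := by
    have e : (⟨f, hf⟩ : wRing A N) =
        ∑ i, (⟨algebraMap Kbar⟮xJ N⟯ (FN N) (c i), hc i⟩ : wRing A N) * ⟨thetaBasis N i, hb i⟩ := by
      apply Subtype.ext
      have hsum := map_sum (wRing A N).subtype
        (fun i => (⟨algebraMap Kbar⟮xJ N⟯ (FN N) (c i), hc i⟩ : wRing A N) *
          ⟨thetaBasis N i, hb i⟩) Finset.univ
      refine Eq.trans (?_ : ∑ i, c i • thetaBasis N i = _) hsum.symm
      refine Finset.sum_congr rfl fun k _ => ?_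
      rw [Algebra.smul_def]
      rfl
    rw [e, map_sum]
    simp_rw [map_mul]
    exact h0
  obtain ⟨s, G, hs, hdeg, hrep⟩ :=
    exists_primitive_repr A hA N hℓN (f : LaurentSeries Kbar) f.2 hf
  have hs' : red A (aeval (jA A) s) ≠ 0 := (isGood_aeval A N s hs).2.2
  -- the reduction of `G` vanishes
  have h1 : wRed A N ⟨f, hf⟩ = red A (ev₂ (jA A) (thetaA A N) G) / red A (aeval (jA A) s) :=
    wRed_eq A N f hf _ _ hs' (by rw [← hrep]; exact mul_comm _ _)
  rw [hf0] at h1
  have h2 : red A (ev₂ (jA A) (thetaA A N) G) = 0 := by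
    rcases div_eq_zero_iff.mp h1.symm with h | h
    · exact h
    · exact absurd h hs'
  rw [red_ev₂] at h2
  have h3 : G.map (Polynomial.mapRingHom (IsLocalRing.residue A)) = 0 :=
    eq_zero_of_evBar_eq_zero A hA N hℓN _
      (lt_of_le_of_lt (Polynomial.natDegree_map_le) hdeg) h2
  have h4 : (G.coeff i).map (IsLocalRing.residue A) = 0 := by
    have := congrArg (fun P => P.coeff (i : ℕ)) h3
    simpa [Polynomial.coeff_map] using this
  -- the coefficient
  have hF : evX A N s * f = aeval (thetaF N) G := by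
    apply Subtype.ext
    rw [coe_aeval_thetaF, ← hrep, ← coe_evX A N s]
    rfl
  have h5 := coeff_of_repr A N c s G hdeg hF i
  have h6 : coeffMap A.subtype (aeval (jA A) (G.coeff i)) =
      ((algebraMap Kbar⟮xJ N⟯ (FN N) (c i) : FN N) : LaurentSeries Kbar) *
        coeffMap A.subtype (aeval (jA A) s) := by
    have := congrArg (algebraMap Kbar⟮xJ N⟯ (FN N)) h5
    rw [map_mul, algebraMap_evE, algebraMap_evE] at this
    have := congrArg (vF N) this
    rw [map_mul, vF_evX, vF_evX] at this
    rw [← this]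
    exact mul_comm _ _
  rw [wRed_eq A N _ (hc i) _ _ hs' h6, red_aeval, h4, map_zero, zero_div]

theorem thetaBasis_mem_wRing (i : Fin (degN N)) : thetaBasis N i ∈ wRing A N := by
  rw [thetaBasis_apply]
  exact thetaF_pow_mem_wRing A N i

include hA hℓN in
/-- the abstract hypotheses of orthonormality hold for `(wRing, wRed, θ^i)` -/
theorem orthData : OrthData (wRing A N) (wRed A N) (thetaBasis N) where
  val h := by
    have := mem_wRing_or_inv A hA N hℓN (algebraMap Kbar⟮xJ N⟯ (FN N) h)
    rwa [← map_inv₀] at this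
  ker h hh hinv := by
    refine wRed_eq_zero_of_inv_notMem A hA N hℓN _ hh ?_
    rwa [← map_inv₀]
  mem i := thetaBasis_mem_wRing A N i
  li c hc h0 i :=
    wRed_coeff_eq_zero A hA N hℓN c hc (fun i => thetaBasis_mem_wRing A N i) h0 i

end Orth

section Main

variable (A : ValuationSubring Kbar) {ℓ : ℕ} [Fact ℓ.Prime] (hA : A.LiesOverPrime ℓ)
variable (N : ℕ) [NeZero N] (hℓN : ¬ ℓ ∣ N)

/-- `ℚ̄[j]` is integrally closed in `ℚ̄(j)` -/
theorem exists_of_isIntegral_adjoin (x : Kbar⟮xJ N⟯)
    (hx : IsIntegral (Algebra.adjoin Kbar {xJ N}) x) :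
    ∃ r : Algebra.adjoin Kbar {xJ N}, algebraMap _ Kbar⟮xJ N⟯ r = x :=
  IsIntegrallyClosed.isIntegral_iff.mp hx

theorem vF_aeval_xJ (P : Polynomial Kbar) : vF N (aeval (xJ N) P) = aeval jK P := by
  have h := Polynomial.aeval_algHom_apply (modularFunctionFieldBar N).val (xJ N) P
  have h2 : (modularFunctionFieldBar N).val (xJ N) = jK := coe_xJ_eq N
  rw [h2] at h
  exact h.symm

include hA hℓN in
/-- the coefficients of the characteristic polynomial of an integral `w`-integral function are
polynomials in `j` with coefficients in `A` -/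
theorem exists_poly_charpoly_coeff (Hf : FN N) (hHw : Hf ∈ wRing A N)
    (hint : IsIntegral (Algebra.adjoin Kbar {xJ N}) Hf)
    (χ' : Polynomial (orthData A hA N hℓN).valSubring.toSubring)
    (hχ' : χ'.map (orthData A hA N hℓN).valSubring.toSubring.subtype =
      (Algebra.leftMulMatrix (thetaBasis N) Hf).charpoly) (i : ℕ) :
    ∃ p : Polynomial A,
      algebraMap Kbar⟮xJ N⟯ (FN N) ((Algebra.leftMulMatrix (thetaBasis N) Hf).charpoly.coeff i) =
        evX A N p := by
  haveI := helper77.an_finiteDimensional N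
  obtain ⟨r, hr⟩ := charpoly_coeff_mem_of_isIntegral Kbar (thetaBasis N)
    (exists_of_isIntegral_adjoin N) hint i
  have hrF : ∀ y : FN N, y ∈ Algebra.adjoin Kbar {xJ N} → ∃ P : Polynomial Kbar,
      aeval (xJ N) P = y := by
    intro y hy
    rw [Algebra.adjoin_singleton_eq_range_aeval] at hy
    exact hy
  obtain ⟨P, hP⟩ := hrF r r.2
  have hP' : aeval (xJ N) P = (r : FN N) := hP
  have h1 : algebraMap Kbar⟮xJ N⟯ (FN N)
      ((Algebra.leftMulMatrix (thetaBasis N) Hf).charpoly.coeff i) = aeval (xJ N) P := by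
    rw [← hr, hP']
    rfl
  have hw : helper29.IsWInt A N (aeval jK P) := by
    rw [← vF_aeval_xJ N, ← h1, ← hχ', Polynomial.coeff_map]
    exact (χ'.coeff i).2
  obtain ⟨p, hp⟩ := exists_poly_of_isWInt A N P hw
  refine ⟨p, ?_⟩
  apply vF_injective N
  rw [h1, vF_aeval_xJ, vF_apply, coe_evX', hp]

include hA hℓN in
/-- **[ROOT-V]** at a prime not dividing the level. -/
theorem rootV_of : RootVStatement N A := by
  intro H hH hint hred
  haveI := helper77.an_finiteDimensional N
  set Hf : FN N := ⟨coeffMap A.subtype H, hH⟩ with hHf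
  have hvH : vF N Hf = coeffMap A.subtype H := rfl
  have D := orthData A hA N hℓN
  have hHw : Hf ∈ wRing A N := mem_wRing_of_incl A N Hf H rfl
  have hH1 : wRed A N ⟨Hf, hHw⟩ = 1 := by
    rw [wRed_of_incl A N Hf H rfl]
    exact hred
  obtain ⟨χ', hχ', hχ1⟩ := (orthData A hA N hℓN).exists_charpoly hHw hH1
  set χ := (Algebra.leftMulMatrix (thetaBasis N) Hf).charpoly with hχ
  have hcoef := exists_poly_charpoly_coeff A hA N hℓN Hf hHw hint χ' hχ'
  choose p hp using hcoef
  set n := degN N with hn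
  have hdegχ : χ.natDegree = n := by
    rw [hχ, Matrix.charpoly_natDegree_eq_dim, Fintype.card_fin]
  -- Cayley-Hamilton
  have hCH : ∑ i ∈ Finset.range (n + 1), aeval (jA A) (p i) * H ^ i = 0 := by
    apply coeffMap_subtype_injective A
    have h1 := aeval_charpoly_leftMulMatrix (thetaBasis N) Hf
    rw [← hχ, Polynomial.aeval_eq_sum_range, hdegχ] at h1
    have h2 := congrArg (vF N) h1
    rw [map_sum, map_zero] at h2
    rw [map_sum, map_zero, ← h2]
    refine Finset.sum_congr rfl fun i _ => ?_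
    rw [Algebra.smul_def, hp i, map_mul, map_mul, map_pow, map_pow, vF_evX, hvH]
  rw [Finset.sum_range_succ', pow_zero, mul_one] at hCH
  -- the reduction of the constant coefficient
  have hp0 : (p 0).map (IsLocalRing.residue A) = (-1) ^ n := by
    have h1 : wRed A N ⟨algebraMap Kbar⟮xJ N⟯ (FN N) (χ.coeff 0),
        by rw [← hχ', Polynomial.coeff_map]; exact (χ'.coeff 0).2⟩ = (-1) ^ n := by
      have h2 : (χ'.map (orthData A hA N hℓN).rE).coeff 0 = (-1) ^ n := by
        rw [hχ1, Fintype.card_fin, Polynomial.coeff_zero_eq_eval_zero, Polynomial.eval_pow,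
          Polynomial.eval_sub, Polynomial.eval_X, Polynomial.eval_one, zero_sub]
      rw [Polynomial.coeff_map, OrthData.rE_apply] at h2
      rw [← h2]
      congr 2
      rw [← hχ', Polynomial.coeff_map]
      rfl
    have h3 : wRed A N ⟨algebraMap Kbar⟮xJ N⟯ (FN N) (χ.coeff 0),
        by rw [← hχ', Polynomial.coeff_map]; exact (χ'.coeff 0).2⟩ =
        red A (aeval (jA A) (p 0)) :=
      wRed_of_incl A N (algebraMap Kbar⟮xJ N⟯ (FN N) (χ.coeff 0)) (aeval (jA A) (p 0))
        ((congrArg (vF N) (hp 0)).trans (vF_evX A N (p 0))).symm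
    rw [h3, red_aeval] at h1
    apply transcendental_iff_injective.mp (transcendental_jBar A)
    rw [h1, map_pow, map_neg, map_one]
  refine ⟨(-1) ^ n * p 0, (-1) ^ (n + 1) * ∑ i ∈ Finset.range n, aeval (jA A) (p (i + 1)) * H ^ i,
    ?_, ?_, ?_, ?_⟩
  · rw [Polynomial.map_mul, Polynomial.map_pow, Polynomial.map_neg, Polynomial.map_one, hp0,
      ← mul_pow, neg_one_mul, neg_neg, one_pow]
  · have h1 := norm_eq_sign_charpoly_coeff (thetaBasis N) Hf
    rw [Fintype.card_fin, ← hχ] at h1
    rw [h1, map_mul, map_pow, map_neg, map_one, hp 0]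
    show vF N ((-1) ^ n * evX A N (p 0)) = _
    rw [map_mul, map_pow, map_neg, map_one, vF_evX]
    show _ = coeffMap A.subtype (aeval (jA A) ((-1) ^ n * p 0))
    rw [map_mul, map_pow, map_neg, map_one, map_mul, map_pow, map_neg, map_one]
  · have h1 : (∑ i ∈ Finset.range n, aeval (jA A) (p (i + 1)) * H ^ i) * H =
        - aeval (jA A) (p 0) := by
      rw [Finset.sum_mul, eq_neg_iff_add_eq_zero, ← hCH]
      congr 1
      refine Finset.sum_congr rfl fun i _ => ?_
      rw [pow_succ, mul_assoc]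
    show _ = aeval (jA A) ((-1) ^ n * p 0)
    rw [mul_assoc, h1, map_mul, map_pow, map_neg, map_one, pow_succ]
    ring
  · have h1 : (∑ i ∈ Finset.range n, aeval (jA A) (p (i + 1)) * H ^ i) * H =
        - aeval (jA A) (p 0) := by
      rw [Finset.sum_mul, eq_neg_iff_add_eq_zero, ← hCH]
      congr 1
      refine Finset.sum_congr rfl fun i _ => ?_
      rw [pow_succ, mul_assoc]
    have h2 : ((-1) ^ (n + 1) * ∑ i ∈ Finset.range n, aeval (jA A) (p (i + 1)) * H ^ i) * H =
        aeval (jA A) ((-1) ^ n * p 0) := by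
      rw [mul_assoc, h1, map_mul, map_pow, map_neg, map_one, pow_succ]
      ring
    have h3 := congrArg (red A) h2
    have hredH : red A H = 1 := hred
    rw [map_mul, hredH, mul_one, red_aeval, Polynomial.map_mul, Polynomial.map_pow,
      Polynomial.map_neg, Polynomial.map_one, hp0, ← mul_pow, neg_one_mul, neg_neg, one_pow,
      map_one] at h3
    exact h3

end Main

/-- **[ROOT-V]** (`RootVStatement`, unconditional): for every `A` lying over a prime not
dividing the level. -/
theorem rootV (M : ℕ) [NeZero M] (A : ValuationSubring Kbar)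
    (h : helper29.PrimeToLevel M A) : RootVStatement M A := by
  obtain ⟨ℓ, hℓ, hℓM, hA⟩ := h
  haveI : Fact ℓ.Prime := ⟨hℓ⟩
  exact rootV_of A hA M hℓM

end Fermat.Agent.P2.helper50

end
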