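/-
P2-CORE (helper29, sub-coordinator): FINAL ASSEMBLY, third stage: everything from the two leaves

* `helper81.CuspRegStatement M A` (regularity of reductions at the cusps different from `∞`),
* `helper44.RootNStatement M m`   (the norm is `c * R(j) ^ m`, degree bound; characteristic `0`).
-/
import Mathlib
import Fermat.Agent.P2.helper29_Core
import Fermat.Agent.P2.helper50_RootV
import Fermat.Agent.P2.helper43_TameBaseFinal

set_option autoImplicit false
set_option synthInstance.maxHeartbeats 400000

noncomputable section

open HahnSeries IntermediateField AlgebraicCurve ModularCurve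
open Fermat.Agent.S18.helper19

namespace Fermat.Agent.P2.helper29

/-- The core leaves at a good pair from `CuspRegStatement`. -/
theorem coreLeaves_of_cuspReg (M : ℕ) [NeZero M] (A : ValuationSubring Kb) (h : GoodPair M A)
    (hC : helper81.CuspRegStatement M A) : CoreLeaves M A :=
  ⟨hC, helper43.tameBase M A h, helper50.rootV M A h.2⟩

/-- **OUT-1** (for S18) from the two remaining leaves. -/
theorem coreInj_of_cuspReg_rootN
    (hC : ∀ (M : ℕ) [NeZero M] (A : ValuationSubring Kb), GoodPair M A →
      helper81.CuspRegStatement M A)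
    (hN : ∀ (M : ℕ) [NeZero M] (m : ℕ), m ≠ 0 → helper44.RootNStatement M m) :
    CoreInjStatement :=
  coreInj_of_leaves (fun M _ A h => coreLeaves_of_cuspReg M A h (hC M A h)) hN

/-- **OUT-2** (for P3) from the two remaining leaves. -/
theorem p2Core_of_cuspReg_rootN (M p : ℕ) [NeZero M] (hM : 4 ∣ M ∨ 9 ∣ M) (hp : p.Prime)
    (hC : ∀ A : ValuationSubring Kb, GoodPair M A → helper81.CuspRegStatement M A)
    (hN : ∀ m : ℕ, m ≠ 0 → helper44.RootNStatement M m) :
    Fermat.Agent.P3.P2CoreStatement M p :=
  p2Core_of_coreLeaves M p hM hp (fun A h => coreLeaves_of_cuspReg M A h (hC A h)) hN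

end Fermat.Agent.P2.helper29

end
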