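/-
P2-CORE [ROOT-N] (helper98), abstract part (Mathlib only).

`A = K[x]` (given by an algebra isomorphism `e : K[X] ≃ₐ[K] A`), `K` algebraically closed,
`B` a Dedekind domain finite over `A`:

* `relNorm_prime` : the relative norm of a nonzero prime of `B` is generated by some `x - a`;
* `relNorm_eq_span` : the relative norm of a nonzero ideal `I` is generated by a monic polynomial
  of degree the number of prime factors of `I`;
* `intNorm_eq_const_mul_pow` : if `m` divides all multiplicities of the prime factors of `(H)`,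
  then `Norm H = c * R ^ m` with `R` monic and `m * deg R` = number of prime factors of `(H)`.
-/
import Mathlib

set_option autoImplicit false
set_option linter.unusedSectionVars false
set_option linter.style.haveILetI false
set_option linter.deprecated false

noncomputable section

namespace Fermat.Agent.P2.helper98

/-! ### Part 1: abstract norm computation over a polynomial ring -/

section Abstract

open Polynomial UniqueFactorizationMonoid

variable {K : Type*} [Field K] [IsAlgClosed K]
variable {A B : Type*} [CommRing A] [IsDedekindDomain A]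
  [CommRing B] [IsDedekindDomain B] [Algebra A B] [Module.Finite A B]
  [Module.IsTorsionFree A B] [Algebra K A] [Algebra K B] [IsScalarTower K A B]

theorem bijective_algebraMap_quot {S : Type*} [CommRing S] [Algebra K S]
    [Algebra.FiniteType K S]
    (P : Ideal S) [P.IsMaximal] : Function.Bijective (algebraMap K (S ⧸ P)) := by
  letI : Field (S ⧸ P) := Ideal.Quotient.field P
  haveI : Algebra.FiniteType K (S ⧸ P) :=
    Algebra.FiniteType.of_surjective (Ideal.Quotient.mkₐ K P) (Ideal.Quotient.mkₐ_surjective K P)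
  haveI : Module.Finite K (S ⧸ P) := finite_of_finite_type_of_isJacobsonRing K (S ⧸ P)
  haveI : Algebra.IsIntegral K (S ⧸ P) := inferInstance
  exact IsAlgClosed.algebraMap_bijective_of_isIntegral

theorem finiteType_of_algEquiv (e : K[X] ≃ₐ[K] A) : Algebra.FiniteType K A :=
  Algebra.FiniteType.of_surjective (e : K[X] →ₐ[K] A) e.surjective

theorem finiteType_top (e : K[X] ≃ₐ[K] A) : Algebra.FiniteType K B :=
  haveI := finiteType_of_algEquiv e
  Algebra.FiniteType.trans (R := K) (S := A) (A := B) inferInstance inferInstance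

theorem inertiaDeg_eq_one_of_isMaximal (e : K[X] ≃ₐ[K] A) (P : Ideal B) [P.IsMaximal]
    (p : Ideal A) [p.IsMaximal] [P.LiesOver p] :
    P.inertiaDeg A = 1 := by
  rw [Ideal.inertiaDeg_eq_of_isMaximal p P]
  letI : Field (A ⧸ p) := Ideal.Quotient.field _
  haveI := finiteType_top (B := B) e
  have hb : Function.Bijective (algebraMap K (B ⧸ P)) := bijective_algebraMap_quot P
  have hb' : Function.Bijective (algebraMap (A ⧸ p) (B ⧸ P)) := by
    refine ⟨(algebraMap (A ⧸ p) (B ⧸ P)).injective, fun y => ?_⟩
    obtain ⟨c, hc⟩ := hb.2 y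
    refine ⟨algebraMap K _ c, ?_⟩
    rw [← hc, ← IsScalarTower.algebraMap_apply]
  rw [← Module.finrank_self (A ⧸ p)]
  exact ((AlgEquiv.ofBijective (Algebra.ofId _ _) hb').toLinearEquiv.finrank_eq).symm

/-- maximal ideals of `K[x]` are generated by `x - a` -/
theorem exists_eq_span_of_isMaximal (e : K[X] ≃ₐ[K] A) (p : Ideal A) [p.IsMaximal] :
    ∃ a : K, p = Ideal.span {e (X - C a)} := by
  haveI := finiteType_of_algEquiv e
  obtain ⟨a, ha⟩ := (bijective_algebraMap_quot (K := K) p).2 (Ideal.Quotient.mk p (e X))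
  refine ⟨a, ?_⟩
  have hmem : e (X - C a) ∈ p := by
    rw [map_sub, ← Ideal.Quotient.eq, ← ha, ← algebraMap_eq, e.commutes,
      IsScalarTower.algebraMap_apply K A (A ⧸ p)]
    rfl
  have hirr : Irreducible (e (X - C a)) :=
    (MulEquiv.irreducible_iff e.toMulEquiv).mpr (irreducible_X_sub_C a)
  haveI : IsPrincipalIdealRing A := IsPrincipalIdealRing.of_surjective (e : K[X] →+* A) e.surjective
  have hmax : (Ideal.span {e (X - C a)}).IsMaximal :=
    PrincipalIdealRing.isMaximal_of_irreducible hirr
  symm
  apply hmax.eq_of_le (Ideal.IsMaximal.ne_top ‹_›)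
  rw [Ideal.span_le, Set.singleton_subset_iff]
  exact hmem

variable [PerfectField (FractionRing A)]

/-- the relative norm of a nonzero prime is generated by `x - a` -/
theorem relNorm_prime (e : K[X] ≃ₐ[K] A) (P : Ideal B) (hP : P.IsPrime) (hP0 : P ≠ ⊥) :
    ∃ a : K, Ideal.relNorm A P = Ideal.span {e (X - C a)} := by
  haveI : P.IsMaximal := hP.isMaximal hP0
  haveI : (P.under A).IsMaximal := Ideal.IsMaximal.under A P
  haveI : P.LiesOver (P.under A) := ⟨rfl⟩
  obtain ⟨a, ha⟩ := exists_eq_span_of_isMaximal e (P.under A)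
  refine ⟨a, ?_⟩
  rw [Ideal.relNorm_eq_pow_of_isMaximal P (P.under A), inertiaDeg_eq_one_of_isMaximal e P
    (P.under A), pow_one, ha]

/-- the relative norm of a nonzero ideal is generated by a monic polynomial whose degree is the
number of prime factors of the ideal -/
theorem relNorm_eq_span (e : K[X] ≃ₐ[K] A) (I : Ideal B) (hI : I ≠ ⊥) :
    ∃ R : K[X], R.Monic ∧ Ideal.relNorm A I = Ideal.span {e R} ∧
      R.natDegree = Multiset.card (normalizedFactors I) := by
  classical
  revert hI
  refine UniqueFactorizationMonoid.induction_on_prime I ?_ ?_ ?_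
  · intro h
    exact absurd rfl h
  · intro J hJ _
    have hJ1 : J = 1 := by
      rw [Ideal.one_eq_top]
      exact Ideal.isUnit_iff.mp hJ
    subst hJ1
    refine ⟨1, monic_one, ?_, ?_⟩
    · rw [map_one, map_one, Ideal.one_eq_top, Ideal.span_singleton_one]
    · rw [normalizedFactors_one, natDegree_one, Multiset.card_zero]
  · intro J P hJ hP ih _
    have hJ' : J ≠ ⊥ := hJ
    obtain ⟨R, hR, hRn, hRd⟩ := ih hJ'
    have hP0 : P ≠ ⊥ := hP.ne_zero
    have hPp : P.IsPrime := (Ideal.prime_iff_isPrime hP0).mp hP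
    obtain ⟨a, ha⟩ := relNorm_prime e P hPp hP0
    refine ⟨(X - C a) * R, (monic_X_sub_C a).mul hR, ?_, ?_⟩
    · rw [map_mul, map_mul, ha, hRn, Ideal.span_singleton_mul_span_singleton]
    · rw [normalizedFactors_mul hP.ne_zero hJ, Multiset.card_add,
        normalizedFactors_irreducible hP.irreducible, normalize_eq, Multiset.card_singleton,
        ((monic_X_sub_C a).natDegree_mul hR), natDegree_X_sub_C, hRd]

/-- **abstract (N-a)**: if all multiplicities of the prime factors of `(H)` are divisible by `m`
then the norm of `H` is a constant times an `m`-th power of a monic polynomial, whose degree is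
determined by the number of prime factors of `(H)`. -/
theorem intNorm_eq_const_mul_pow (e : K[X] ≃ₐ[K] A) (H : B) (hH : H ≠ 0) (m : ℕ) (hm : m ≠ 0)
    (hdiv : ∀ P ∈ normalizedFactors (Ideal.span ({H} : Set B)),
      m ∣ Multiset.count P (normalizedFactors (Ideal.span ({H} : Set B)))) :
    ∃ (c : K) (R : K[X]), c ≠ 0 ∧ R.Monic ∧ Algebra.intNorm A B H = e (C c * R ^ m) ∧
      m * R.natDegree = Multiset.card (normalizedFactors (Ideal.span ({H} : Set B))) := by
  classical
  have hs0 : Ideal.span ({H} : Set B) ≠ ⊥ := by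
    rw [Ne, Ideal.span_singleton_eq_bot]
    exact hH
  obtain ⟨u, hu⟩ := Multiset.exists_smul_of_dvd_count _ hdiv
  have hprod : Ideal.span ({H} : Set B) = u.prod ^ m := by
    conv_lhs => rw [← Ideal.prod_normalizedFactors_eq_self hs0, hu, Multiset.prod_nsmul]
  have hI0 : u.prod ≠ ⊥ := by
    intro h
    apply hs0
    rw [hprod, h, ← Ideal.zero_eq_bot, zero_pow hm]
  obtain ⟨R, hR, hRn, hRd⟩ := relNorm_eq_span e u.prod hI0
  have h1 : Ideal.span ({Algebra.intNorm A B H} : Set A) = Ideal.span {(e R) ^ m} := by
    rw [← Ideal.relNorm_singleton, hprod, map_pow, hRn, Ideal.span_singleton_pow]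
  rw [Ideal.span_singleton_eq_span_singleton] at h1
  obtain ⟨v, hv⟩ := h1.symm
  have hvu : IsUnit (e.symm (v : A)) := v.isUnit.map e.symm
  obtain ⟨c, hc, hcv⟩ := Polynomial.isUnit_iff.mp hvu
  refine ⟨c, R, hc.ne_zero, hR, ?_, ?_⟩
  · rw [← hv, map_mul, map_pow, hcv, e.apply_symm_apply, mul_comm]
  · rw [hRd, hprod, normalizedFactors_pow, Multiset.card_nsmul]

end Abstract

end Fermat.Agent.P2.helper98
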