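/-
P2-CORE [ROOT-N] (helper98): norm facts for BLUEPRINT P2 v1, section 2 (a), (b).

General function field `F / K` (`K` algebraically closed of characteristic `0`, `x : F`
transcendental, `F` finite over `K(x)`), `B` = integral closure of `K[x]` in `F`:

* `isIntegral_of_regular` (N-0): `H` regular at all places where `x` is regular => `H ∈ B`;
* `norm_eq_const_mul_pow` (N-a), (N-b): if moreover `m` divides all orders of `H` at these places
  then `Norm_{F/K(x)} H = c * R(x) ^ m` with `R` monic and
  `m * deg R = - (sum of the orders of H at the poles of x)`;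
* `exists_cofactor` (N-c): `U' = Norm H / H` is integral over `K[x]`.

Modular function field `F_M` over `ℚ̄(j)`:

* `rootN_ff`, `rootN`: for `H ∈ L(n ∞)` with divisor divisible by `m`: `Norm H = c * R(j) ^ m`,
  `m * deg R ≤ - ord_q H ≤ n`, `Norm H = H * U` with `U` integral over `ℚ̄[j]`.
-/
import Mathlib
import Fermat.Agent.S24.helper75_FFCore2
import Fermat.Agent.S24.helper77_Degree
import Fermat.Agent.P2.helper29_Infty
import Fermat.Agent.P2.helper98_RootNAbs

set_option autoImplicit false
set_option linter.unusedSectionVars false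
set_option linter.style.haveILetI false
set_option linter.deprecated false

open AlgebraicCurve IntermediateField IsDedekindDomain
open scoped IntermediateField.algebraAdjoinAdjoin
open Fermat.Agent.S24 Fermat.Agent.S24.helper75
open Fermat.Agent.S18.helper19 Fermat.Agent.P2.helper29 ModularCurve

noncomputable section

namespace Fermat.Agent.P2.helper98

/-! ### Part 0: orders at the places of a Dedekind chart -/

section Bridge

open WithZero UniqueFactorizationMonoid

variable {K F : Type*} [Field K] [Field F] [Algebra K F]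
variable {R : Type*} [CommRing R] [IsDedekindDomain R] [Algebra R F] [IsFractionRing R F]
  [Algebra K R] [IsScalarTower K R F]

/-- the order of an element of the chart at the place of a prime is the multiplicity of the
prime in the principal ideal -/
theorem ord_eq_count (P : HeightOneSpectrum R) (r : R) (hr : r ≠ 0) :
    (Place.ofHeightOneSpectrum (K := K) (F := F) P).ord (algebraMap R F r)
      = (Multiset.count P.asIdeal (normalizedFactors (Ideal.span ({r} : Set R))) : ℤ) := by
  classical
  rw [ofHeightOneSpectrum_ord, HeightOneSpectrum.valuation_of_algebraMap,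
    P.intValuation_if_neg hr, log_exp, neg_neg]
  have h0 : (Ideal.span ({r} : Set R)) ≠ 0 := by
    rw [Ne, Ideal.zero_eq_bot, Ideal.span_singleton_eq_bot]
    exact hr
  rw [Ideal.count_associates_factors_eq h0 P.isPrime P.ne_bot]

/-- every element of the chart is regular at the places of the chart -/
theorem ord_nonneg_of_chart (P : HeightOneSpectrum R) (r : R) :
    0 ≤ (Place.ofHeightOneSpectrum (K := K) (F := F) P).ord (algebraMap R F r) := by
  apply place_ord_nonneg_of_mem
  rw [Place.ofHeightOneSpectrum_toValuationSubring, Valuation.mem_valuationSubring_iff]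
  exact P.valuation_le_one r

/-- an element which is regular at all places of the chart lies in the chart -/
theorem mem_range_of_regular (f : F)
    (h : ∀ P : HeightOneSpectrum R, 0 ≤ (Place.ofHeightOneSpectrum (K := K) (F := F) P).ord f) :
    f ∈ (algebraMap R F).range := by
  apply HeightOneSpectrum.mem_integers_of_valuation_le_one F f
  intro P
  have h1 := place_mem_of_ord_nonneg _ (h P)
  rwa [Place.ofHeightOneSpectrum_toValuationSubring, Valuation.mem_valuationSubring_iff] at h1

/-- membership in a prime of the chart in terms of the order at its place -/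
theorem mem_asIdeal_iff (P : HeightOneSpectrum R) (r : R) :
    r ∈ P.asIdeal ↔
      r = 0 ∨ 0 < (Place.ofHeightOneSpectrum (K := K) (F := F) P).ord (algebraMap R F r) := by
  classical
  rcases eq_or_ne r 0 with rfl | hr
  · simp
  have h0 : (Ideal.span ({r} : Set R)) ≠ ⊥ := by
    rw [Ne, Ideal.span_singleton_eq_bot]
    exact hr
  rw [ord_eq_count (K := K) (F := F) P r hr, Nat.cast_pos, Multiset.count_pos,
    Ideal.mem_normalizedFactors_iff h0]
  constructor
  · intro h
    right
    exact ⟨P.isPrime, (Ideal.span_singleton_le_iff_mem _).mpr h⟩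
  · rintro (h | ⟨-, h⟩)
    · exact absurd h hr
    · exact (Ideal.span_singleton_le_iff_mem _).mp h

/-- the place determines the prime of the chart -/
theorem ofHeightOneSpectrum_injective :
    Function.Injective
      (Place.ofHeightOneSpectrum (K := K) (F := F) : HeightOneSpectrum R → Place K F) := by
  intro P Q h
  apply HeightOneSpectrum.ext
  ext r
  rw [mem_asIdeal_iff (K := K) (F := F) P r, mem_asIdeal_iff (K := K) (F := F) Q r, h]

/-- the orders of `r` at a finite set of places of the chart containing all zeros of `r` add up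
to the number of prime factors of `(r)` -/
theorem sum_ord_chart (r : R) (hr : r ≠ 0) (T : Finset (Place K F))
    (hT : ∀ v ∈ T, ∃ P : HeightOneSpectrum R, Place.ofHeightOneSpectrum (K := K) P = v)
    (hT' : ∀ P : HeightOneSpectrum R,
      (Place.ofHeightOneSpectrum (K := K) (F := F) P).ord (algebraMap R F r) ≠ 0 →
        Place.ofHeightOneSpectrum (K := K) P ∈ T) :
    ∑ v ∈ T, v.ord (algebraMap R F r)
      = (Multiset.card (normalizedFactors (Ideal.span ({r} : Set R))) : ℤ) := by
  classical
  set s := normalizedFactors (Ideal.span ({r} : Set R)) with hs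
  have h0 : (Ideal.span ({r} : Set R)) ≠ ⊥ := by
    rw [Ne, Ideal.span_singleton_eq_bot]
    exact hr
  have hprime : ∀ P ∈ s.toFinset, P.IsPrime ∧ P ≠ ⊥ := by
    intro P hP
    rw [Multiset.mem_toFinset] at hP
    have h1 : Prime P := prime_of_normalized_factor P hP
    exact ⟨(Ideal.prime_iff_isPrime h1.ne_zero).mp h1, h1.ne_zero⟩
  rw [← Multiset.toFinset_sum_count_eq s, Nat.cast_sum, ← Finset.sum_filter_ne_zero]
  symm
  refine Finset.sum_bij
    (fun P hP => Place.ofHeightOneSpectrum (K := K) (F := F)
      (⟨P, (hprime P hP).1, (hprime P hP).2⟩ : HeightOneSpectrum R)) ?_ ?_ ?_ ?_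
  · intro P hP
    have hcount : Multiset.count P s ≠ 0 := by
      rw [Multiset.mem_toFinset] at hP
      exact (Multiset.count_pos.mpr hP).ne'
    have hord := ord_eq_count (K := K) (F := F)
      (⟨P, (hprime P hP).1, (hprime P hP).2⟩ : HeightOneSpectrum R) r hr
    have hne : (Place.ofHeightOneSpectrum (K := K) (F := F)
        (⟨P, (hprime P hP).1, (hprime P hP).2⟩ : HeightOneSpectrum R)).ord (algebraMap R F r)
          ≠ 0 := by
      rw [hord]
      exact_mod_cast hcount
    rw [Finset.mem_filter]
    exact ⟨hT' _ hne, hne⟩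
  · intro P hP Q hQ h
    have := ofHeightOneSpectrum_injective (K := K) (F := F) h
    exact congrArg HeightOneSpectrum.asIdeal this
  · intro v hv
    rw [Finset.mem_filter] at hv
    obtain ⟨P, rfl⟩ := hT v hv.1
    have hord := ord_eq_count (K := K) (F := F) P r hr
    have hmem : P.asIdeal ∈ s.toFinset := by
      rw [Multiset.mem_toFinset, ← Multiset.count_pos]
      have h2 := hv.2
      rw [hord] at h2
      have : Multiset.count P.asIdeal s ≠ 0 := by exact_mod_cast h2
      omega
    exact ⟨P.asIdeal, hmem, rfl⟩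
  · intro P hP
    exact (ord_eq_count (K := K) (F := F)
      (⟨P, (hprime P hP).1, (hprime P hP).2⟩ : HeightOneSpectrum R) r hr).symm

end Bridge

/-! ### Part 2: the function field case -/

section Concrete

open Polynomial UniqueFactorizationMonoid

variable {K F : Type*} [Field K] [Field F] [Algebra K F] [IsAlgClosed K] [CharZero K]

/-- `K[X] ≃ K[x]` -/
def polyEquiv (x : F) (hx : Transcendental K x) : K[X] ≃ₐ[K] polyRing (K := K) x :=
  Polynomial.algEquivOfTranscendental K x hx

theorem coe_polyEquiv (x : F) (hx : Transcendental K x) (q : K[X]) :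
    ((polyEquiv x hx q : polyRing (K := K) x) : F) = aeval x q := by
  simp [polyEquiv, Polynomial.algEquivOfTranscendental]

theorem perfectField_fractionRing_polyRing (x : F) :
    PerfectField (FractionRing (polyRing (K := K) x)) := by
  haveI : CharZero (polyRing (K := K) x) :=
    charZero_of_injective_algebraMap (algebraMap K (polyRing (K := K) x)).injective
  haveI : CharZero (FractionRing (polyRing (K := K) x)) :=
    charZero_of_injective_algebraMap
      (IsFractionRing.injective (polyRing (K := K) x) (FractionRing (polyRing (K := K) x)))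
  exact PerfectField.ofCharZero

variable (x : F) (hx : Transcendental K x) [FiniteDimensional K⟮x⟯ F]

/-- the places of the chart `B` are regular for `x` -/
theorem ord_x_nonneg_chart (P : HeightOneSpectrum (intClosure (K := K) x)) :
    0 ≤ (Place.ofHeightOneSpectrum (K := K) (F := F) P).ord x :=
  ord_nonneg_of_chart (K := K) (F := F) P (xS x)

/-- a function regular at all places where `x` is regular lies in the integral closure of
`K[x]` -/
theorem exists_intClosure_of_regular (H : F)
    (hreg : ∀ P : Place K F, 0 ≤ P.ord x → 0 ≤ P.ord H) :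
    ∃ Hb : intClosure (K := K) x, (Hb : F) = H := by
  obtain ⟨Hb, hHb⟩ := mem_range_of_regular (K := K) (R := intClosure (K := K) x) H
    (fun P => hreg _ (ord_x_nonneg_chart x P))
  exact ⟨Hb, hHb⟩

/-- **(N-0)** a function regular at all places where `x` is regular is integral over `K[x]`. -/
theorem isIntegral_of_regular (_hx : Transcendental K x) (H : F)
    (hreg : ∀ P : Place K F, 0 ≤ P.ord x → 0 ≤ P.ord H) :
    IsIntegral (polyRing (K := K) x) H := by
  obtain ⟨Hb, rfl⟩ := exists_intClosure_of_regular x H hreg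
  exact Hb.2

/-- the norm of an element of `B`, computed in `F` -/
theorem algebraMap_norm_eq (Hb : intClosure (K := K) x) :
    algebraMap K⟮x⟯ F (Algebra.norm K⟮x⟯ (Hb : F))
      = ((Algebra.intNorm (polyRing (K := K) x) (intClosure (K := K) x) Hb :
          polyRing (K := K) x) : F) := by
  have h3 := Algebra.algebraMap_intNorm (A := polyRing (K := K) x) (K := K⟮x⟯) (L := F)
    (B := intClosure (K := K) x) Hb
  have h4 : algebraMap (intClosure (K := K) x) F Hb = (Hb : F) := rfl
  rw [h4] at h3
  rw [← h3, ← IsScalarTower.algebraMap_apply]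
  rfl

/-- the degree of a principal divisor, as a sum over its support -/
theorem sum_support_ord_eq_zero (_hx : Transcendental K x) (H : F) (D : Divisor K F)
    (hD : ∀ v : Place K F, D v = v.ord H) (hD0 : Divisor.degree D = 0) :
    ∑ v ∈ D.support, v.ord H = 0 := by
  rw [← hD0]
  show _ = (Finsupp.liftAddHom fun v : Place K F => AddMonoidHom.mulRight (v.deg : ℤ)) D
  rw [Finsupp.liftAddHom_apply, Finsupp.sum]
  refine Finset.sum_congr rfl fun v _ => ?_
  rw [AddMonoidHom.mulRight_apply, helper82.ff_deg_eq_one x _hx v, Nat.cast_one, mul_one, hD v]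

/-- **(N-b)** the number of prime factors of `(H)` in `B` is minus the sum of the orders of `H`
at the poles of `x`. -/
theorem card_normalizedFactors_eq (Hb : intClosure (K := K) x) (hHb : Hb ≠ 0) :
    (Multiset.card (normalizedFactors (Ideal.span ({Hb} : Set (intClosure (K := K) x)))) : ℤ)
      = - ∑ P ∈ (ff_finite_poles x hx).toFinset, P.ord (Hb : F) := by
  classical
  have hH : (Hb : F) ≠ 0 := fun h => hHb (Subtype.ext h)
  obtain ⟨D, hD, hD0⟩ := (ff_hasPrincipalDivisors x hx).exists_divisor (Hb : F) hH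
  have hsum := sum_support_ord_eq_zero x hx (Hb : F) D hD hD0
  rw [← Finset.sum_filter_add_sum_filter_not D.support (fun v : Place K F => 0 ≤ v.ord x)]
    at hsum
  have h1 : ∑ v ∈ D.support.filter (fun v : Place K F => 0 ≤ v.ord x), v.ord (Hb : F)
      = (Multiset.card (normalizedFactors (Ideal.span ({Hb} : Set (intClosure (K := K) x))))
          : ℤ) := by
    refine sum_ord_chart (K := K) (F := F) (R := intClosure (K := K) x) Hb hHb _ ?_ ?_
    · intro v hv
      rw [Finset.mem_filter] at hv
      exact ⟨heightOneOfPlace x v (place_mem_of_ord_nonneg v hv.2),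
        ofHeightOneSpectrum_heightOneOfPlace x v _⟩
    · intro P hP
      rw [Finset.mem_filter, Finsupp.mem_support_iff, hD]
      exact ⟨hP, ord_x_nonneg_chart x P⟩
  have h2 : ∑ v ∈ D.support.filter (fun v : Place K F => ¬ 0 ≤ v.ord x), v.ord (Hb : F)
      = ∑ P ∈ (ff_finite_poles x hx).toFinset, P.ord (Hb : F) := by
    refine Finset.sum_subset ?_ ?_
    · intro v hv
      rw [Finset.mem_filter] at hv
      rw [Set.Finite.mem_toFinset]
      show v.ord x < 0
      omega
    · intro v hv hv'
      rw [Set.Finite.mem_toFinset] at hv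
      have hv1 : v.ord x < 0 := hv
      rw [Finset.mem_filter, not_and_or] at hv'
      rcases hv' with h | h
      · rw [Finsupp.mem_support_iff, not_not, hD] at h
        exact h
      · exact absurd (not_le.mpr hv1) h
  rw [h1, h2] at hsum
  omega

/-- **(N-a) + (N-b)**, general function field: if `H ≠ 0` is regular at all places where `x` is
regular and all its orders at these places are divisible by `m`, then the norm of `H` to `K(x)`
is `c * R(x) ^ m` with `R` monic, and `m * deg R` is minus the sum of the orders of `H` at the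
poles of `x`. -/
theorem norm_eq_const_mul_pow (H : F) (hH : H ≠ 0)
    (hreg : ∀ P : Place K F, 0 ≤ P.ord x → 0 ≤ P.ord H)
    (m : ℕ) (hm : m ≠ 0) (hdiv : ∀ P : Place K F, 0 ≤ P.ord x → (m : ℤ) ∣ P.ord H) :
    ∃ (c : K) (R : Polynomial K), c ≠ 0 ∧ R.Monic ∧
      algebraMap K⟮x⟯ F (Algebra.norm K⟮x⟯ H)
        = algebraMap K F c * (Polynomial.aeval x R) ^ m ∧
      ((m * R.natDegree : ℕ) : ℤ) = - ∑ P ∈ (ff_finite_poles x hx).toFinset, P.ord H := by
  classical
  haveI : PerfectField (FractionRing (polyRing (K := K) x)) :=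
    perfectField_fractionRing_polyRing x
  obtain ⟨Hb, rfl⟩ := exists_intClosure_of_regular x H hreg
  have hHb0 : Hb ≠ 0 := by
    rintro rfl
    exact hH rfl
  have hdiv' : ∀ P ∈ normalizedFactors (Ideal.span ({Hb} : Set (intClosure (K := K) x))),
      m ∣ Multiset.count P (normalizedFactors (Ideal.span ({Hb} : Set (intClosure (K := K) x))))
      := by
    intro P hP
    have h1 : Prime P := prime_of_normalized_factor P hP
    have h2 := hdiv (Place.ofHeightOneSpectrum (K := K) (F := F)
      (⟨P, (Ideal.prime_iff_isPrime h1.ne_zero).mp h1, h1.ne_zero⟩ :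
        HeightOneSpectrum (intClosure (K := K) x))) (ord_x_nonneg_chart x _)
    have h3 := ord_eq_count (K := K) (F := F)
      (⟨P, (Ideal.prime_iff_isPrime h1.ne_zero).mp h1, h1.ne_zero⟩ :
        HeightOneSpectrum (intClosure (K := K) x)) Hb hHb0
    have h4 : algebraMap (intClosure (K := K) x) F Hb = (Hb : F) := rfl
    rw [h4] at h3
    rw [h3] at h2
    exact Int.natCast_dvd_natCast.mp h2
  obtain ⟨c, R, hc, hR, hN, hdeg⟩ :=
    intNorm_eq_const_mul_pow (polyEquiv x hx) Hb hHb0 m hm hdiv'
  refine ⟨c, R, hc, hR, ?_, ?_⟩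
  · rw [algebraMap_norm_eq, hN, coe_polyEquiv, map_mul, map_pow, aeval_C]
  · rw [hdeg]
    exact card_normalizedFactors_eq x hx Hb hHb0

/-- **(N-c)** the cofactor `U' = Norm H / H` of an integral `H` is integral. -/
theorem exists_cofactor (_hx : Transcendental K x) (H : F)
    (hH : IsIntegral (polyRing (K := K) x) H) :
    ∃ U : F, IsIntegral (polyRing (K := K) x) U ∧
      H * U = algebraMap K⟮x⟯ F (Algebra.norm K⟮x⟯ H) := by
  obtain ⟨Ub, hUb⟩ := Algebra.dvd_algebraMap_intNorm_self (polyRing (K := K) x)
    (intClosure (K := K) x) (⟨H, hH⟩ : intClosure (K := K) x)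
  refine ⟨(Ub : F), Ub.2, ?_⟩
  have h1 := algebraMap_norm_eq x (⟨H, hH⟩ : intClosure (K := K) x)
  have h2 := congrArg (fun b : intClosure (K := K) x => (b : F)) hUb
  simp only [MulMemClass.coe_mul] at h2
  rw [h1, ← h2]
  rfl

end Concrete

/-! ### Part 3: the modular function field -/

section Modular

open Polynomial

/-- the `q`-expansion of the norm of `H` from `F_M` to `ℚ̄(j)` -/
def normSeries (M : ℕ) (H : FF M) : LaurentSeries Kb :=
  ((algebraMap Kb⟮xJ M⟯ (FF M) (Algebra.norm Kb⟮xJ M⟯ H) : FF M) : LaurentSeries Kb)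

theorem coe_xJ_eq_jqModC (M : ℕ) : ((xJ M : FF M) : LaurentSeries Kb) = jqModC Kb := by
  show Jd 1 = _
  rw [helper17.Jd_eq, qExpand_one_apply]

theorem xJ_eq_jElt (M : ℕ) [NeZero M] : xJ M = jElt M :=
  Subtype.ext (coe_xJ_eq_jqModC M)

theorem order_xJ (M : ℕ) : ((xJ M : FF M) : LaurentSeries Kb).order = -1 := by
  rw [coe_xJ_eq_jqModC, order_jqModC]

theorem xJ_ne_zero (M : ℕ) : xJ M ≠ 0 := by
  intro h
  have h1 := order_xJ M
  rw [h] at h1
  simp at h1

theorem coe_aeval_xJ (M : ℕ) (R : Polynomial Kb) :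
    ((aeval (xJ M) R : FF M) : LaurentSeries Kb) = aeval (jqModC Kb) R := by
  rw [← coe_xJ_eq_jqModC M]
  exact (Polynomial.aeval_algHom_apply (FF M).val (xJ M) R).symm

/-- at a place at infinity `j` has a pole -/
theorem ord_xJ_neg_of_isInfty {M : ℕ} {P : Place Kb (FF M)} (hP : IsInfty P) :
    P.ord (xJ M) < 0 := by
  rw [hP _ (xJ_ne_zero M), order_xJ]
  norm_num

/-- **[ROOT-N]**, function field form. -/
theorem rootN_ff (M : ℕ) [NeZero M] (m : ℕ) (hm : m ≠ 0) (H : FF M) (hH0 : H ≠ 0)
    (hreg : ∀ P : Place Kb (FF M), ¬ IsInfty P → 0 ≤ P.ord H)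
    (hdiv : ∀ P : Place Kb (FF M), (m : ℤ) ∣ P.ord H) :
    ∃ (c : Kb) (R : Polynomial Kb) (U : FF M), c ≠ 0 ∧ R.Monic ∧
      algebraMap Kb⟮xJ M⟯ (FF M) (Algebra.norm Kb⟮xJ M⟯ H)
        = algebraMap Kb (FF M) c * (aeval (xJ M) R) ^ m ∧
      ((m * R.natDegree : ℕ) : ℤ) ≤ -(H : LaurentSeries Kb).order ∧
      IsIntegral (polyRing (K := Kb) (xJ M)) U ∧
      H * U = algebraMap Kb⟮xJ M⟯ (FF M) (Algebra.norm Kb⟮xJ M⟯ H) := by
  classical
  have hx : Transcendental Kb (xJ M) := helper77.an_transcendental M
  haveI : FiniteDimensional Kb⟮xJ M⟯ (FF M) := helper77.an_finiteDimensional M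
  have hreg' : ∀ P : Place Kb (FF M), 0 ≤ P.ord (xJ M) → 0 ≤ P.ord H := by
    intro P hP
    by_cases hinf : IsInfty P
    · have := ord_xJ_neg_of_isInfty hinf
      omega
    · exact hreg P hinf
  obtain ⟨c, R, hc, hR, hN, hdeg⟩ := norm_eq_const_mul_pow (xJ M) hx H hH0 hreg' m hm
    (fun P _ => hdiv P)
  obtain ⟨U, hU, hHU⟩ := exists_cofactor (xJ M) hx H (isIntegral_of_regular (xJ M) hx H hreg')
  refine ⟨c, R, U, hc, hR, hN, ?_, hU, hHU⟩
  rw [hdeg, neg_le_neg_iff]
  have hinf : IsInfty (inftyBar M) := isInfty_inftyBar M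
  have hmem : inftyBar M ∈ (ff_finite_poles (xJ M) hx).toFinset := by
    rw [Set.Finite.mem_toFinset]
    exact ord_xJ_neg_of_isInfty hinf
  have hsplit := Finset.add_sum_erase (ff_finite_poles (xJ M) hx).toFinset
    (fun P : Place Kb (FF M) => P.ord H) hmem
  have hnn : 0 ≤ ∑ P ∈ ((ff_finite_poles (xJ M) hx).toFinset).erase (inftyBar M), P.ord H := by
    refine Finset.sum_nonneg fun P hP => ?_
    rw [Finset.mem_erase] at hP
    exact hreg P (fun h => hP.1 (IsInfty.unique _ h hinf))
  have hord : (inftyBar M).ord H = (H : LaurentSeries Kb).order := hinf H hH0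
  rw [← hsplit, hord]
  exact le_add_of_nonneg_right hnn

/-- **[ROOT-N]**: for `H ∈ L(n ∞)`, `H ≠ 0`, with divisor divisible by `m`: the norm `N` of `H`
to `ℚ̄(j)` is `c * R(j) ^ m` with `R` monic, `m * deg R ≤ -ord_q H ≤ n`, and `N = H * U` with `U`
integral over `ℚ̄[j]`. -/
theorem rootN (M : ℕ) [NeZero M] (m : ℕ) (hm : m ≠ 0) (H : LaurentSeries Kb) (n : ℤ)
    (hL : InL (FF M) n H) (hH0 : H ≠ 0) (hdiv : DivDvd M m H) :
    ∃ (c : Kb) (R : Polynomial Kb) (U : LaurentSeries Kb), c ≠ 0 ∧ R.Monic ∧
      normSeries M ⟨H, hL.1⟩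
        = algebraMap Kb (LaurentSeries Kb) c * (Polynomial.aeval (jqModC Kb) R) ^ m ∧
      ((m * R.natDegree : ℕ) : ℤ) ≤ -H.order ∧ -H.order ≤ n ∧
      (∃ hU : U ∈ FF M, IsIntegral (polyRing (K := Kb) (xJ M)) (⟨U, hU⟩ : FF M)) ∧
      H * U = normSeries M ⟨H, hL.1⟩ := by
  obtain ⟨hf, hreg, hcoeff⟩ := hL
  have hf0 : (⟨H, hf⟩ : FF M) ≠ 0 := fun h => hH0 (congrArg Subtype.val h)
  obtain ⟨c, R, U, hc, hR, hN, hdeg, hU, hHU⟩ :=
    rootN_ff M m hm ⟨H, hf⟩ hf0 hreg (fun P => hdiv hf P)
  refine ⟨c, R, (U : LaurentSeries Kb), hc, hR, ?_, hdeg, ?_, ⟨U.2, hU⟩, ?_⟩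
  · have h1 := congrArg (fun f : FF M => (f : LaurentSeries Kb)) hN
    simp only [MulMemClass.coe_mul, SubmonoidClass.coe_pow] at h1
    rw [coe_aeval_xJ] at h1
    exact h1
  · have := (coeff_eq_zero_iff_le_order hH0).mp hcoeff
    omega
  · have h1 := congrArg (fun f : FF M => (f : LaurentSeries Kb)) hHU
    simp only [MulMemClass.coe_mul] at h1
    exact h1

end Modular

end Fermat.Agent.P2.helper98
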