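import Mathlib
import Fermat.Agent.P2.helper98_RootN
import Fermat.Agent.P2.helper44_RootFinal

/-!
# P2 [ROOT] (helper44): `RootNStatement` is a theorem, `RootStatement` from [ROOT-V] alone

* `rootNStatement M m (hm : m ≠ 0) : RootNStatement M m` (from helper98's `rootN` and
  `isIntegral_of_regular`).
* `rootStatement_of_rootV` : `RootVStatement M A → RootStatement M A m` for `m` invertible in `A`.
-/

set_option autoImplicit false

open Polynomial ModularCurve IntermediateField
open Fermat.Agent.S18.helper19 Fermat.Agent.P2.helper29 Fermat.Agent.S24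

noncomputable section

namespace Fermat.Agent.P2.helper44

/-- **[ROOT-N]** in the form consumed by the assembly: unconditional. -/
theorem rootNStatement (M : ℕ) [NeZero M] (m : ℕ) (hm : m ≠ 0) : RootNStatement M m := by
  intro H n hL hH0 hdiv
  have hx : Transcendental Kb (xJ M) := helper77.an_transcendental M
  have : FiniteDimensional Kb⟮xJ M⟯ (FF M) := helper77.an_finiteDimensional M
  refine ⟨helper98.isIntegral_of_regular (xJ M) hx (⟨H, hL.1⟩ : FF M)
    (fun P hP => inL_regular M hL P hP), ?_⟩
  obtain ⟨c, R, U, -, -, h1, h2, -, -, -⟩ := helper98.rootN M m hm H n hL hH0 hdiv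
  exact ⟨c, R, h1, h2⟩

/-- **[ROOT]** from [ROOT-V] alone. -/
theorem rootStatement_of_rootV (M : ℕ) [NeZero M] (A : ValuationSubring Kb) (m : ℕ)
    (hm : IsUnit ((m : ℕ) : A)) (hV : helper50.RootVStatement M A) : RootStatement M A m := by
  have hm0 : m ≠ 0 := by
    rintro rfl
    rw [Nat.cast_zero] at hm
    exact not_isUnit_zero hm
  exact rootStatement_of_rootV_rootN M A m hm hV (rootNStatement M m hm0)

end Fermat.Agent.P2.helper44

end
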