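/-
P2-CORE (helper29, sub-coordinator): FINAL ASSEMBLY, fourth stage: everything from the single leaf
`helper81.CuspRegStatement M A` (regularity of reductions at the cusps different from `∞`).
-/
import Mathlib
import Fermat.Agent.P2.helper29_Core2
import Fermat.Agent.P2.helper44_RootNFinal

set_option autoImplicit false
set_option synthInstance.maxHeartbeats 400000

noncomputable section

open HahnSeries IntermediateField AlgebraicCurve ModularCurve
open Fermat.Agent.S18.helper19

namespace Fermat.Agent.P2.helper29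

/-- **(INJ)** at a good pair from `CuspRegStatement`. -/
theorem inj_of_cuspReg {M : ℕ} [NeZero M] {A : ValuationSubring Kb} {ℓ : ℕ}
    (hM : 4 ∣ M ∨ 9 ∣ M) (hℓ : ℓ.Prime) (hℓM : ¬ ℓ ∣ M) (hA : A.LiesOverPrime ℓ)
    (hC : helper81.CuspRegStatement M A) (m : ℕ) (hm : ¬ ℓ ∣ m) : InjStatement M A m :=
  inj_of_coreLeaves hM hℓ hℓM hA (coreLeaves_of_cuspReg M A ⟨hM, ℓ, hℓ, hℓM, hA⟩ hC)
    (fun m hm => helper44.rootNStatement M m hm) m hm

/-- **OUT-1** (for S18) from `CuspRegStatement`. -/
theorem coreInj_of_cuspReg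
    (hC : ∀ (M : ℕ) [NeZero M] (A : ValuationSubring Kb), GoodPair M A →
      helper81.CuspRegStatement M A) :
    CoreInjStatement :=
  coreInj_of_cuspReg_rootN hC (fun M _ m hm => helper44.rootNStatement M m hm)

/-- **OUT-2** (for P3) from `CuspRegStatement`. -/
theorem p2Core_of_cuspReg (M p : ℕ) [NeZero M] (hM : 4 ∣ M ∨ 9 ∣ M) (hp : p.Prime)
    (hC : ∀ A : ValuationSubring Kb, GoodPair M A → helper81.CuspRegStatement M A) :
    Fermat.Agent.P3.P2CoreStatement M p :=
  p2Core_of_cuspReg_rootN M p hM hp hC (fun m hm => helper44.rootNStatement M m hm)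

end Fermat.Agent.P2.helper29

end
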