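/-
P2-CORE (helper29): the modular wrapper of [ROOT-N].

`NormPowAt M` is the general norm statement (`Norm_{F/K(x)} H = c * R(x) ^ m`, with the degree of
`R` given by the orders of `H` at the poles of `x`) for `K = ℚ̄`, `F = F_M`, `x = j`.
`rootN_of_normPow : NormPowAt M → ∀ m ≠ 0, helper44.RootNStatement M m`.
-/
import Mathlib
import Fermat.Agent.P2.helper44_RootFinal
import Fermat.Agent.P2.helper81_ValInt
import Fermat.Agent.S24.helper75_FFCore2
import Fermat.Agent.S24.helper77_Degree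

set_option autoImplicit false
set_option synthInstance.maxHeartbeats 400000

noncomputable section

open HahnSeries IntermediateField AlgebraicCurve ModularCurve Polynomial
open Fermat.Agent.S18.helper19 Fermat.Agent.S24

namespace Fermat.Agent.P2.helper29

/-- The general norm statement of [ROOT-N] at `K = ℚ̄`, `F = F_M`, `x = j`. -/
def NormPowAt (M : ℕ) [NeZero M] : Prop :=
  haveI := helper77.an_finiteDimensional M
  ∀ (H : FN M), H ≠ 0 → (∀ P : Place Kb (FN M), 0 ≤ P.ord (xJ M) → 0 ≤ P.ord H) →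
    ∀ m : ℕ, m ≠ 0 → (∀ P : Place Kb (FN M), 0 ≤ P.ord (xJ M) → (m : ℤ) ∣ P.ord H) →
    ∃ (c : Kb) (R : Polynomial Kb), c ≠ 0 ∧ R.Monic ∧
      algebraMap Kb⟮xJ M⟯ (FN M) (Algebra.norm Kb⟮xJ M⟯ H) =
        algebraMap Kb (FN M) c * (Polynomial.aeval (xJ M) R) ^ m ∧
      ((m * R.natDegree : ℕ) : ℤ) =
        - ∑ P ∈ (helper75.ff_finite_poles (xJ M) (helper77.an_transcendental M)).toFinset,
            P.ord H

theorem coe_aeval_xJ (M : ℕ) [NeZero M] (R : Polynomial Kb) :
    ((Polynomial.aeval (xJ M) R : FN M) : LaurentSeries Kb) =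
      Polynomial.aeval (jqModC Kb) R := by
  have h := Polynomial.aeval_algHom_apply (FF M).val (xJ M) R
  have h2 : (FF M).val (xJ M) = jqModC Kb := helper81.coe_xJ_eq M
  rw [h2] at h
  exact h.symm

/-- **[ROOT-N]** from the general norm statement. -/
theorem rootN_of_normPow (M : ℕ) [NeZero M] (hNP : NormPowAt M) (m : ℕ) (hm : m ≠ 0) :
    helper44.RootNStatement M m := by
  classical
  haveI := helper77.an_finiteDimensional M
  intro H n hL hH0 hdiv
  have hH0' : (⟨H, hL.1⟩ : FN M) ≠ 0 := fun h => hH0 (congrArg Subtype.val h)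
  refine ⟨helper81.isIntegral_of_forall_place (xJ M) _
    (fun P hP => helper44.inL_regular M hL P hP), ?_⟩
  obtain ⟨c, R, -, -, hnorm, hdeg⟩ := hNP ⟨H, hL.1⟩ hH0'
    (fun P hP => helper44.inL_regular M hL P hP) m hm (fun P _ => hdiv hL.1 P)
  refine ⟨c, R, ?_, ?_⟩
  · have h1 : ((algebraMap Kb⟮xJ M⟯ (FN M) (Algebra.norm Kb⟮xJ M⟯ (⟨H, hL.1⟩ : FN M)) : FN M) :
        LaurentSeries Kb) =
        ((algebraMap Kb (FN M) c * (Polynomial.aeval (xJ M) R) ^ m : FN M) :
          LaurentSeries Kb) := congrArg Subtype.val hnorm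
    rw [h1]
    push_cast
    rw [coe_aeval_xJ]
  · rw [hdeg]
    set S := (helper75.ff_finite_poles (xJ M) (helper77.an_transcendental M)).toFinset with hS
    have hInf := isInfty_inftyBar M
    have hmem : inftyBar M ∈ S := by
      rw [hS, Set.Finite.mem_toFinset, Set.mem_ofPred_eq, helper44.ord_xJ_of_isInfty M _ hInf]
      norm_num
    have hord : (inftyBar M).ord (⟨H, hL.1⟩ : FN M) = H.order := hInf ⟨H, hL.1⟩ hH0'
    have hnn : ∀ P ∈ S, P ≠ inftyBar M → 0 ≤ P.ord (⟨H, hL.1⟩ : FN M) := by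
      intro P _ hP
      exact hL.2.1 P (fun hPI => hP (IsInfty.unique _ hPI hInf))
    have hsum : H.order ≤ ∑ P ∈ S, P.ord (⟨H, hL.1⟩ : FN M) := by
      rw [← Finset.add_sum_erase S _ hmem, hord]
      have : 0 ≤ ∑ P ∈ S.erase (inftyBar M), P.ord (⟨H, hL.1⟩ : FN M) :=
        Finset.sum_nonneg (fun P hP => hnn P (Finset.mem_of_mem_erase hP)
          (Finset.ne_of_mem_erase hP))
      linarith
    linarith

end Fermat.Agent.P2.helper29

end
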