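import Mathlib
import Fermat.Prelude.Def_ModularCurve_GenusNumerics

/-!
# P2 [GEN] numerics (helper32): the genus formula at good levels

For `4 ∣ M` or `9 ∣ M` there are no elliptic points: `nuTwo M = nuThree M = 0`, hence
`genusFormula M = 1 + ψ(M)/12 - cuspCount M / 2`, i.e. `12 (g - 1) = ψ(M) - 6 cuspCount M`.
-/

set_option autoImplicit false

namespace Fermat.Agent.P2.helper32

open ModularCurve

theorem nuTwo_eq_zero_of_dvd {d M : ℕ} (h : d ∣ M) (hd : ∀ y : ZMod d, y ^ 2 + 1 ≠ 0) :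
    nuTwo M = 0 := by
  have : IsEmpty {x : ZMod M // x ^ 2 + 1 = 0} :=
    ⟨fun x => hd (ZMod.castHom h (ZMod d) x.1) (by
      have := congrArg (ZMod.castHom h (ZMod d)) x.2
      simpa only [map_add, map_pow, map_one, map_zero] using this)⟩
  exact Nat.card_of_isEmpty

theorem nuThree_eq_zero_of_dvd {d M : ℕ} (h : d ∣ M) (hd : ∀ y : ZMod d, y ^ 2 + y + 1 ≠ 0) :
    nuThree M = 0 := by
  have : IsEmpty {x : ZMod M // x ^ 2 + x + 1 = 0} :=
    ⟨fun x => hd (ZMod.castHom h (ZMod d) x.1) (by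
      have := congrArg (ZMod.castHom h (ZMod d)) x.2
      simpa only [map_add, map_pow, map_one, map_zero] using this)⟩
  exact Nat.card_of_isEmpty

theorem nuTwo_eq_zero_of_four_dvd {M : ℕ} (h : 4 ∣ M) : nuTwo M = 0 :=
  nuTwo_eq_zero_of_dvd h (by decide)

theorem nuTwo_eq_zero_of_three_dvd {M : ℕ} (h : 3 ∣ M) : nuTwo M = 0 :=
  nuTwo_eq_zero_of_dvd h (by decide)

theorem nuThree_eq_zero_of_two_dvd {M : ℕ} (h : 2 ∣ M) : nuThree M = 0 :=
  nuThree_eq_zero_of_dvd h (by decide)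

theorem nuThree_eq_zero_of_nine_dvd {M : ℕ} (h : 9 ∣ M) : nuThree M = 0 :=
  nuThree_eq_zero_of_dvd h (by decide)

/-- at good levels there are no elliptic points of order `2`. -/
theorem nuTwo_eq_zero_of_good {M : ℕ} (h : 4 ∣ M ∨ 9 ∣ M) : nuTwo M = 0 := by
  rcases h with h | h
  · exact nuTwo_eq_zero_of_four_dvd h
  · exact nuTwo_eq_zero_of_three_dvd (Dvd.dvd.trans (by norm_num) h)

/-- at good levels there are no elliptic points of order `3`. -/
theorem nuThree_eq_zero_of_good {M : ℕ} (h : 4 ∣ M ∨ 9 ∣ M) : nuThree M = 0 := by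
  rcases h with h | h
  · exact nuThree_eq_zero_of_two_dvd (Dvd.dvd.trans (by norm_num) h)
  · exact nuThree_eq_zero_of_nine_dvd h

/-- the genus formula at good levels. -/
theorem genusFormula_of_good {M : ℕ} (h : 4 ∣ M ∨ 9 ∣ M) :
    genusFormula M = 1 + (dedekindPsi M : ℚ) / 12 - (cuspCount M : ℚ) / 2 := by
  simp [genusFormula, nuTwo_eq_zero_of_good h, nuThree_eq_zero_of_good h]

/-- `12 (g - 1) = ψ(M) - 6 c(M)` at good levels. -/
theorem twelve_mul_genusFormula_sub_one {M : ℕ} (h : 4 ∣ M ∨ 9 ∣ M) :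
    12 * (genusFormula M - 1) = (dedekindPsi M : ℚ) - 6 * (cuspCount M : ℚ) := by
  rw [genusFormula_of_good h]; ring

/-- integer form: if the genus formula is the natural number `g` then
`ψ(M) = 12 g - 12 + 6 c(M)`. -/
theorem dedekindPsi_eq_of_genus {M : ℕ} (h : 4 ∣ M ∨ 9 ∣ M) {g : ℕ}
    (hg : (g : ℚ) = genusFormula M) :
    (dedekindPsi M : ℤ) = 12 * (g : ℤ) - 12 + 6 * (cuspCount M : ℤ) := by
  have h1 := twelve_mul_genusFormula_sub_one h
  rw [← hg] at h1
  have h2 : ((dedekindPsi M : ℤ) : ℚ) = ((12 * (g : ℤ) - 12 + 6 * (cuspCount M : ℤ) : ℤ) : ℚ) := by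
    push_cast
    linarith
  exact_mod_cast h2

/-- Hurwitz form: `2 g - 2 = ψ(M)/6 - c(M)`, written without division. -/
theorem six_mul_two_genus_sub_two {M : ℕ} (h : 4 ∣ M ∨ 9 ∣ M) {g : ℕ}
    (hg : (g : ℚ) = genusFormula M) :
    6 * (2 * (g : ℤ) - 2) = (dedekindPsi M : ℤ) - 6 * (cuspCount M : ℤ) := by
  rw [dedekindPsi_eq_of_genus h hg]; ring

end Fermat.Agent.P2.helper32
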