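/-
helper39, P2-[RH-DW] part (L): Birkhoff / Dedekind-Weber factorisation.

For a field `K` over `k` with a discrete valuation `v` "at infinity" (trivial on `k`, residue
field `k`, `v t = exp 1`), every `P ∈ GL_n(K)` can be written as `U⁻¹ · diag(t^{d_i}) · W` with
`U ∈ GL_n(k[t])` and `W ∈ GL_n(O_v)`.
-/
import Mathlib

set_option linter.unusedSectionVars false

namespace Fermat.Agent.P2.helper39

open WithZero Polynomial

/-- A discrete valuation `v` of `K` "at infinity" relative to `t`: trivial on the constants,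
`v t = exp 1` and residue field `k`. -/
structure InftyData (k : Type*) {K : Type*} [Field k] [Field K] [Algebra k K]
    (v : Valuation K ℤᵐ⁰) (t : K) : Prop where
  const : ∀ c : k, c ≠ 0 → v (algebraMap k K c) = 1
  unif : v t = exp (1 : ℤ)
  res : ∀ x : K, v x ≤ 1 → ∃ c : k, v (x - algebraMap k K c) < 1

section Basic

variable {k K : Type*} [Field k] [Field K] [Algebra k K] {v : Valuation K ℤᵐ⁰} {t : K}

theorem InftyData.t_ne_zero (h : InftyData k v t) : t ≠ 0 := by
  intro h0
  have := h.unif
  rw [h0, map_zero] at this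
  exact exp_ne_zero this.symm

theorem InftyData.v_zpow (h : InftyData k v t) (m : ℤ) : v (t ^ m) = exp m := by
  rw [map_zpow₀, h.unif, ← WithZero.exp_zsmul]
  simp

theorem InftyData.v_const_le (h : InftyData k v t) (c : k) : v (algebraMap k K c) ≤ 1 := by
  rcases eq_or_ne c 0 with rfl | hc
  · simp
  · exact (h.const c hc).le

theorem le_exp_sub_one_of_lt {x : ℤᵐ⁰} {a : ℤ} (h : x < exp a) : x ≤ exp (a - 1) := by
  rcases eq_or_ne x 0 with rfl | hx
  · exact zero_le
  · rw [← exp_log hx] at h ⊢
    rw [exp_lt_exp] at h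
    rw [exp_le_exp]
    omega

end Basic

section RowNorm

variable {K : Type*} [Field K] (v : Valuation K ℤᵐ⁰)
variable {ι : Type*} [Fintype ι] [DecidableEq ι]

/-- The norm of the `i`-th row of `Q`. -/
noncomputable def rowNorm (Q : Matrix ι ι K) (i : ι) : ℤᵐ⁰ :=
  Finset.univ.sup fun j => v (Q i j)

/-- The degree of the `i`-th row of `Q`. -/
noncomputable def rowDeg (Q : Matrix ι ι K) (i : ι) : ℤ := log (rowNorm v Q i)

theorem le_rowNorm (Q : Matrix ι ι K) (i j : ι) : v (Q i j) ≤ rowNorm v Q i :=
  Finset.le_sup (f := fun j => v (Q i j)) (Finset.mem_univ j)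

theorem rowNorm_ne_zero {Q : Matrix ι ι K} (hQ : Q.det ≠ 0) (i : ι) : rowNorm v Q i ≠ 0 := by
  intro h0
  apply hQ
  apply Matrix.det_eq_zero_of_row_eq_zero i
  intro j
  have := le_rowNorm v Q i j
  rw [h0] at this
  exact (map_eq_zero v).mp (le_antisymm this zero_le)

theorem rowNorm_eq_exp {Q : Matrix ι ι K} (hQ : Q.det ≠ 0) (i : ι) :
    rowNorm v Q i = exp (rowDeg v Q i) :=
  (exp_log (rowNorm_ne_zero v hQ i)).symm

theorem v_le_exp_rowDeg {Q : Matrix ι ι K} (hQ : Q.det ≠ 0) (i j : ι) :
    v (Q i j) ≤ exp (rowDeg v Q i) := by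
  rw [← rowNorm_eq_exp v hQ]
  exact le_rowNorm v Q i j

/-- The determinant of a matrix with integral entries is integral. -/
theorem v_det_le_one (W : Matrix ι ι K) (hW : ∀ i j, v (W i j) ≤ 1) : v W.det ≤ 1 := by
  rw [Matrix.det_apply]
  apply Valuation.map_sum_le
  intro σ _
  have h1 : v (Equiv.Perm.sign σ • ∏ i, W (σ i) i) = v (∏ i, W (σ i) i) := by
    rcases Int.units_eq_one_or (Equiv.Perm.sign σ) with h | h
    · rw [h, one_smul]
    · rw [h, Units.neg_smul, one_smul, Valuation.map_neg]
  rw [h1, map_prod]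
  exact Finset.prod_le_one' fun i _ => hW (σ i) i

end RowNorm

section Normalise

variable {k K : Type*} [Field k] [Field K] [Algebra k K] {v : Valuation K ℤᵐ⁰} {t : K}
variable {ι : Type*} [Fintype ι] [DecidableEq ι]

/-- The normalised matrix `diag(t^{-d_i}) Q`. -/
noncomputable def normalise (v : Valuation K ℤᵐ⁰) (t : K) (Q : Matrix ι ι K) : Matrix ι ι K :=
  Matrix.diagonal (fun i => t ^ (-rowDeg v Q i)) * Q

theorem normalise_apply (Q : Matrix ι ι K) (i j : ι) :
    normalise v t Q i j = t ^ (-rowDeg v Q i) * Q i j := by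
  rw [normalise, Matrix.diagonal_mul]

theorem diagonal_mul_normalise (h : InftyData k v t) (Q : Matrix ι ι K) :
    Matrix.diagonal (fun i => t ^ rowDeg v Q i) * normalise v t Q = Q := by
  rw [normalise, ← Matrix.mul_assoc, Matrix.diagonal_mul_diagonal]
  have : (fun i => t ^ rowDeg v Q i * t ^ (-rowDeg v Q i)) = fun _ => (1 : K) := by
    funext i
    rw [← zpow_add₀ h.t_ne_zero, add_neg_cancel, zpow_zero]
  rw [this, Matrix.diagonal_one, Matrix.one_mul]

theorem v_normalise_le (h : InftyData k v t) {Q : Matrix ι ι K} (hQ : Q.det ≠ 0) (i j : ι) :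
    v (normalise v t Q i j) ≤ 1 := by
  rw [normalise_apply, map_mul, h.v_zpow]
  calc exp (-rowDeg v Q i) * v (Q i j)
      ≤ exp (-rowDeg v Q i) * exp (rowDeg v Q i) :=
        mul_le_mul_right (v_le_exp_rowDeg v hQ i j) _
    _ = 1 := by rw [← exp_add, neg_add_cancel, exp_zero]

theorem det_normalise (Q : Matrix ι ι K) :
    (normalise v t Q).det = (∏ i, t ^ (-rowDeg v Q i)) * Q.det := by
  rw [normalise, Matrix.det_mul, Matrix.det_diagonal]

theorem v_det_normalise (h : InftyData k v t) (Q : Matrix ι ι K) :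
    v (normalise v t Q).det = exp (-∑ i, rowDeg v Q i) * v Q.det := by
  rw [det_normalise, map_mul, map_prod]
  congr 1
  simp_rw [h.v_zpow]
  rw [← Finset.sum_neg_distrib]
  induction (Finset.univ : Finset ι) using Finset.induction_on with
  | empty => simp
  | insert a s ha ih => rw [Finset.prod_insert ha, Finset.sum_insert ha, exp_add, ih]

/-- Hadamard's inequality. -/
theorem v_det_le (h : InftyData k v t) {Q : Matrix ι ι K} (hQ : Q.det ≠ 0) :
    v Q.det ≤ exp (∑ i, rowDeg v Q i) := by
  have h1 := v_det_le_one v (normalise v t Q) (v_normalise_le h hQ)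
  rw [v_det_normalise h] at h1
  calc v Q.det = exp (∑ i, rowDeg v Q i) * (exp (-∑ i, rowDeg v Q i) * v Q.det) := by
        rw [← mul_assoc, ← exp_add, add_neg_cancel, exp_zero, one_mul]
    _ ≤ exp (∑ i, rowDeg v Q i) * 1 := mul_le_mul_right h1 _
    _ = _ := mul_one _

end Normalise


section Residue

variable {k K : Type*} [Field k] [Field K] [Algebra k K] {v : Valuation K ℤᵐ⁰} {t : K}
variable {ι : Type*} [Fintype ι] [DecidableEq ι]

theorem mem_maximalIdeal_iff_v_lt_one (a : v.valuationSubring) :
    a ∈ IsLocalRing.maximalIdeal v.valuationSubring ↔ v (a : K) < 1 := by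
  have hint := Valuation.valuationSubring.integers v
  rw [IsLocalRing.mem_maximalIdeal, mem_nonunits_iff, hint.isUnit_iff_valuation_eq_one]
  have hle : v (a : K) ≤ 1 := (Valuation.mem_valuationSubring_iff v _).mp a.2
  constructor
  · intro h
    exact lt_of_le_of_ne hle h
  · intro h
    exact h.ne

/-- If an integral matrix has non-unit determinant, some nontrivial constant combination of its
rows is divisible by the uniformiser. -/
theorem exists_const_combination (h : InftyData k v t) (W : Matrix ι ι K)
    (hW : ∀ i j, v (W i j) ≤ 1) (hdet : v W.det < 1) :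
    ∃ c : ι → k, c ≠ 0 ∧ ∀ j, v (∑ i, algebraMap k K (c i) * W i j) < 1 := by
  classical
  have memO : ∀ x : K, v x ≤ 1 → x ∈ v.valuationSubring :=
    fun x hx => (Valuation.mem_valuationSubring_iff v x).mpr hx
  let WO : Matrix ι ι v.valuationSubring := fun i j => ⟨W i j, memO _ (hW i j)⟩
  have hWO : (v.valuationSubring.subtype).mapMatrix WO = W := by
    ext i j
    rfl
  have hdetO : ((WO.det : v.valuationSubring) : K) = W.det := by
    rw [← hWO]
    exact RingHom.map_det (v.valuationSubring.subtype) WO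
  have hdetmem : WO.det ∈ IsLocalRing.maximalIdeal v.valuationSubring := by
    rw [mem_maximalIdeal_iff_v_lt_one, hdetO]
    exact hdet
  -- the residue matrix
  let res := IsLocalRing.residue v.valuationSubring
  have hres0 : (res.mapMatrix WO).det = 0 := by
    rw [← RingHom.map_det]
    exact (IsLocalRing.residue_eq_zero_iff _).mpr hdetmem
  obtain ⟨cb, hcb0, hcb⟩ := Matrix.exists_vecMul_eq_zero_iff.mpr hres0
  -- lifting the residues to constants
  let constO : k → v.valuationSubring := fun c => ⟨algebraMap k K c, memO _ (h.v_const_le c)⟩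
  have hlift : ∀ xb : IsLocalRing.ResidueField v.valuationSubring, ∃ c : k, res (constO c) = xb := by
    intro xb
    obtain ⟨x, rfl⟩ := IsLocalRing.residue_surjective xb
    obtain ⟨c, hc⟩ := h.res (x : K) ((Valuation.mem_valuationSubring_iff v _).mp x.2)
    refine ⟨c, ?_⟩
    have : x - constO c ∈ IsLocalRing.maximalIdeal v.valuationSubring := by
      rw [mem_maximalIdeal_iff_v_lt_one]
      exact hc
    have h2 := (IsLocalRing.residue_eq_zero_iff _).mpr this
    rw [map_sub, sub_eq_zero] at h2
    exact h2.symm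
  choose lift hliftspec using hlift
  let c : ι → k := fun i => if cb i = 0 then 0 else lift (cb i)
  have hc : ∀ i, res (constO (c i)) = cb i := by
    intro i
    by_cases hi : cb i = 0
    · have h0 : constO 0 = 0 := by
        apply Subtype.ext
        simp [constO]
      simp only [c, hi, if_true, h0, map_zero]
    · simp only [c, hi, if_false]
      exact hliftspec _
  refine ⟨c, ?_, ?_⟩
  · intro hc0
    apply hcb0
    funext i
    have := hc i
    rw [hc0] at this
    have h0 : constO 0 = 0 := by
      apply Subtype.ext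
      simp [constO]
    simp only [Pi.zero_apply, h0, map_zero] at this
    exact this.symm
  · intro j
    have hy : (∑ i, algebraMap k K (c i) * W i j) =
        ((∑ i, constO (c i) * WO i j : v.valuationSubring) : K) := by
      rw [AddSubmonoidClass.coe_finsetSum]
      rfl
    rw [hy, ← mem_maximalIdeal_iff_v_lt_one, ← IsLocalRing.residue_eq_zero_iff]
    rw [map_sum]
    have := congrFun hcb j
    simp only [Matrix.vecMul, dotProduct, Pi.zero_apply, RingHom.mapMatrix_apply,
      Matrix.map_apply] at this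
    rw [← this]
    refine Finset.sum_congr rfl fun i _ => ?_
    rw [map_mul, hc i]

end Residue


section Reduce

variable {k K : Type*} [Field k] [Field K] [Algebra k K] {v : Valuation K ℤᵐ⁰} {t : K}
variable {ι : Type*} [Fintype ι] [DecidableEq ι]

theorem det_one_updateRow {R : Type*} [CommRing R] (j : ι) (a : ι → R) :
    ((1 : Matrix ι ι R).updateRow j a).det = a j := by
  have h := Matrix.det_updateRow_sum (1 : Matrix ι ι R) j a
  have h2 : (∑ k, a k • (1 : Matrix ι ι R) k) = a := by
    funext i
    simp [Finset.sum_apply, Matrix.one_apply]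
  rw [h2, Matrix.det_one, smul_eq_mul, mul_one] at h
  exact h

/-- One reduction step: if Hadamard's inequality is strict, a unimodular polynomial row
operation decreases the sum of the row degrees. -/
theorem exists_reduce (h : InftyData k v t) (Q : Matrix ι ι K) (hQ : Q.det ≠ 0)
    (hlt : v Q.det < exp (∑ i, rowDeg v Q i)) :
    ∃ U : Matrix ι ι k[X], IsUnit U.det ∧
      v ((U.map (aeval t)) * Q).det = v Q.det ∧
      ∑ i, rowDeg v ((U.map (aeval t)) * Q) i ≤ ∑ i, rowDeg v Q i - 1 := by
  classical
  have hW := v_normalise_le h hQ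
  have hdetW : v (normalise v t Q).det < 1 := by
    rw [v_det_normalise h]
    calc exp (-∑ i, rowDeg v Q i) * v Q.det
        < exp (-∑ i, rowDeg v Q i) * exp (∑ i, rowDeg v Q i) :=
          mul_lt_mul_of_pos_left hlt exp_pos
      _ = 1 := by rw [← exp_add, neg_add_cancel, exp_zero]
  obtain ⟨c, hc0, hc⟩ := exists_const_combination h (normalise v t Q) hW hdetW
  -- the support of `c`
  have hs : (Finset.univ.filter fun i => c i ≠ 0).Nonempty := by
    by_contra hne
    rw [Finset.not_nonempty_iff_eq_empty] at hne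
    apply hc0
    funext i
    show c i = 0
    by_contra hi
    have : i ∈ (Finset.univ.filter fun i => c i ≠ 0) := by simpa using hi
    rw [hne] at this
    simp at this
  obtain ⟨j₀, hj₀, hmax⟩ := Finset.exists_max_image _ (rowDeg v Q) hs
  have hcj₀ : c j₀ ≠ 0 := by simpa using hj₀
  have hmax' : ∀ i, c i ≠ 0 → rowDeg v Q i ≤ rowDeg v Q j₀ := fun i hi =>
    hmax i (by simp [hi])
  -- the row operation
  let a : ι → k[X] := fun i => C (c i) * X ^ (rowDeg v Q j₀ - rowDeg v Q i).toNat
  have ha : ∀ i, aeval t (a i) = algebraMap k K (c i) * t ^ (rowDeg v Q j₀ - rowDeg v Q i) := by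
    intro i
    simp only [a, map_mul, aeval_C, map_pow, aeval_X]
    by_cases hi : c i = 0
    · simp [hi]
    · rw [← zpow_natCast, Int.toNat_of_nonneg (sub_nonneg.mpr (hmax' i hi))]
  let U : Matrix ι ι k[X] := (1 : Matrix ι ι k[X]).updateRow j₀ a
  have hUdet : U.det = C (c j₀) := by
    rw [det_one_updateRow]
    simp [a]
  have hUmap : U.map (aeval t) = (1 : Matrix ι ι K).updateRow j₀ (fun i => aeval t (a i)) := by
    rw [Matrix.map_updateRow]
    congr 1
    ext i j
    simp [Matrix.one_apply]
  -- the new row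
  let r : ι → K := fun j => ∑ i, aeval t (a i) * Q i j
  have hUQ : U.map (aeval t) * Q = Q.updateRow j₀ r := by
    rw [hUmap, Matrix.updateRow_mul, Matrix.one_mul]
    rfl
  have hr : ∀ j, v (r j) < exp (rowDeg v Q j₀) := by
    intro j
    have h1 : r j = t ^ rowDeg v Q j₀ * ∑ i, algebraMap k K (c i) * normalise v t Q i j := by
      simp only [r]
      rw [Finset.mul_sum]
      refine Finset.sum_congr rfl fun i _ => ?_
      rw [ha, normalise_apply, sub_eq_add_neg, zpow_add₀ h.t_ne_zero]
      ring
    rw [h1, map_mul, h.v_zpow]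
    calc exp (rowDeg v Q j₀) * v (∑ i, algebraMap k K (c i) * normalise v t Q i j)
        < exp (rowDeg v Q j₀) * 1 := mul_lt_mul_of_pos_left (hc j) exp_pos
      _ = _ := mul_one _
  have hdet : (U.map (aeval t) * Q).det = algebraMap k K (c j₀) * Q.det := by
    rw [Matrix.det_mul]
    congr 1
    have := (RingHom.map_det (aeval t : k[X] →ₐ[k] K).toRingHom U).symm
    rw [RingHom.mapMatrix_apply] at this
    erw [this]
    rw [hUdet]
    simp
  have hdet0 : (U.map (aeval t) * Q).det ≠ 0 := by
    rw [hdet]
    exact mul_ne_zero (by simpa using hcj₀) hQ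
  refine ⟨U, ?_, ?_, ?_⟩
  · rw [hUdet]
    exact Polynomial.isUnit_C.mpr (isUnit_iff_ne_zero.mpr hcj₀)
  · rw [hdet, map_mul, h.const _ hcj₀, one_mul]
  · -- row degrees
    have hne : ∀ i, i ≠ j₀ → rowDeg v (U.map (aeval t) * Q) i = rowDeg v Q i := by
      intro i hi
      rw [hUQ]
      simp only [rowDeg, rowNorm, Matrix.updateRow_ne hi]
    have hj : rowDeg v (U.map (aeval t) * Q) j₀ ≤ rowDeg v Q j₀ - 1 := by
      have hn0 := rowNorm_ne_zero v hdet0 j₀
      have hlt' : rowNorm v (U.map (aeval t) * Q) j₀ < exp (rowDeg v Q j₀) := by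
        rw [hUQ]
        simp only [rowNorm, Matrix.updateRow_self]
        rw [Finset.sup_lt_iff (by exact exp_pos)]
        intro j _
        exact hr j
      have h3 : rowDeg v (U.map (aeval t) * Q) j₀ < rowDeg v Q j₀ :=
        (log_lt_iff_lt_exp hn0).mpr hlt'
      omega
    rw [← Finset.add_sum_erase _ _ (Finset.mem_univ j₀),
      ← Finset.add_sum_erase _ (rowDeg v Q) (Finset.mem_univ j₀)]
    have hrest : ∑ i ∈ Finset.univ.erase j₀, rowDeg v (U.map (aeval t) * Q) i =
        ∑ i ∈ Finset.univ.erase j₀, rowDeg v Q i :=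
      Finset.sum_congr rfl fun i hi => hne i (Finset.ne_of_mem_erase hi)
    rw [hrest]
    omega

end Reduce


section Main

variable {k K : Type*} [Field k] [Field K] [Algebra k K] {v : Valuation K ℤᵐ⁰} {t : K}
variable {ι : Type*} [Fintype ι] [DecidableEq ι]

theorem exists_birkhoff_of_eq (h : InftyData k v t) (Q : Matrix ι ι K) (hQ : Q.det ≠ 0)
    (heq : v Q.det = exp (∑ i, rowDeg v Q i)) :
    ∃ (U : Matrix ι ι k[X]) (d : ι → ℤ) (W : Matrix ι ι K),
      IsUnit U.det ∧ (∀ i j, v (W i j) ≤ 1) ∧ v W.det = 1 ∧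
      U.map (aeval t) * Q = Matrix.diagonal (fun i => t ^ d i) * W := by
  refine ⟨1, rowDeg v Q, normalise v t Q, by simp, v_normalise_le h hQ, ?_, ?_⟩
  · rw [v_det_normalise h, heq, ← exp_add, neg_add_cancel, exp_zero]
  · rw [diagonal_mul_normalise h, Matrix.map_one _ (map_zero _) (map_one _), Matrix.one_mul]

theorem exists_birkhoff_aux (h : InftyData k v t) (N : ℕ) :
    ∀ Q : Matrix ι ι K, Q.det ≠ 0 → ∑ i, rowDeg v Q i - log (v Q.det) ≤ N →
    ∃ (U : Matrix ι ι k[X]) (d : ι → ℤ) (W : Matrix ι ι K),
      IsUnit U.det ∧ (∀ i j, v (W i j) ≤ 1) ∧ v W.det = 1 ∧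
      U.map (aeval t) * Q = Matrix.diagonal (fun i => t ^ d i) * W := by
  induction N with
  | zero =>
    intro Q hQ hN
    have hv0 : v Q.det ≠ 0 := (Valuation.ne_zero_iff v).mpr hQ
    have hle := v_det_le h hQ
    have hge : exp (∑ i, rowDeg v Q i) ≤ v Q.det := by
      rw [← exp_log hv0, exp_le_exp]
      simp only [Nat.cast_zero] at hN
      omega
    exact exists_birkhoff_of_eq h Q hQ (le_antisymm hle hge)
  | succ N ih =>
    intro Q hQ hN
    have hv0 : v Q.det ≠ 0 := (Valuation.ne_zero_iff v).mpr hQ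
    by_cases heq : v Q.det = exp (∑ i, rowDeg v Q i)
    · exact exists_birkhoff_of_eq h Q hQ heq
    · have hlt : v Q.det < exp (∑ i, rowDeg v Q i) := lt_of_le_of_ne (v_det_le h hQ) heq
      obtain ⟨U₁, hU₁, hdet₁, hsum₁⟩ := exists_reduce h Q hQ hlt
      have hQ₁ : (U₁.map (aeval t) * Q).det ≠ 0 := by
        rw [← Valuation.ne_zero_iff v, hdet₁]
        exact hv0
      have hN₁ : ∑ i, rowDeg v (U₁.map (aeval t) * Q) i - log (v (U₁.map (aeval t) * Q).det)
          ≤ N := by
        rw [hdet₁]
        push_cast at hN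
        omega
      obtain ⟨U₂, d, W, hU₂, hW, hWdet, hfac⟩ := ih _ hQ₁ hN₁
      refine ⟨U₂ * U₁, d, W, ?_, hW, hWdet, ?_⟩
      · rw [Matrix.det_mul]
        exact hU₂.mul hU₁
      · rw [Matrix.map_mul, Matrix.mul_assoc, hfac]

/-- **Birkhoff / Dedekind-Weber factorisation.** -/
theorem exists_birkhoff (h : InftyData k v t) (P : Matrix ι ι K) (hP : P.det ≠ 0) :
    ∃ (U : Matrix ι ι k[X]) (d : ι → ℤ) (W : Matrix ι ι K),
      IsUnit U.det ∧ (∀ i j, v (W i j) ≤ 1) ∧ v W.det = 1 ∧
      U.map (aeval t) * P = Matrix.diagonal (fun i => t ^ d i) * W := by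
  have hv0 : v P.det ≠ 0 := (Valuation.ne_zero_iff v).mpr hP
  have hle := v_det_le h hP
  have h0 : 0 ≤ ∑ i, rowDeg v P i - log (v P.det) := by
    rw [← exp_log hv0, exp_le_exp] at hle
    omega
  refine exists_birkhoff_aux h (∑ i, rowDeg v P i - log (v P.det)).toNat P hP ?_
  rw [Int.toNat_of_nonneg h0]

end Main


section RatFuncInfty

variable (k : Type*) [Field k]

theorem inftyData_ratFunc [DecidableEq (RatFunc k)] :
    InftyData k (RatFunc.inftyValuation k) (RatFunc.X : RatFunc k) where
  const c hc := by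
    rw [RatFunc.algebraMap_eq_C]
    exact RatFunc.inftyValuation.C k hc
  unif := RatFunc.inftyValuation.X k
  res x hx := by
    rcases eq_or_ne x 0 with rfl | hx0
    · exact ⟨0, by simp⟩
    rw [RatFunc.inftyValuation_apply, RatFunc.inftyValuation_of_nonzero k hx0,
      ← exp_zero (M := ℤ), exp_le_exp] at hx
    rcases lt_or_eq_of_le hx with hlt | heq
    · refine ⟨0, ?_⟩
      rw [map_zero, sub_zero, RatFunc.inftyValuation_apply,
        RatFunc.inftyValuation_of_nonzero k hx0, ← exp_zero (M := ℤ), exp_lt_exp]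
      exact hlt
    · -- degree zero
      refine ⟨x.num.leadingCoeff, ?_⟩
      set y := x - algebraMap k (RatFunc k) x.num.leadingCoeff with hy
      rcases eq_or_ne y 0 with hy0 | hy0
      · rw [hy0, map_zero]
        exact zero_lt_one
      rw [RatFunc.inftyValuation_apply, RatFunc.inftyValuation_of_nonzero k hy0,
        ← exp_zero (M := ℤ), exp_lt_exp]
      have hnum0 : x.num ≠ 0 := RatFunc.num_ne_zero hx0
      have hden0 : x.denom ≠ 0 := RatFunc.denom_ne_zero x
      have hdeg : (x.num.natDegree : ℤ) = x.denom.natDegree := by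
        have := heq
        rw [RatFunc.intDegree] at this
        omega
      have hyeq : y = algebraMap k[X] (RatFunc k) (x.num - C x.num.leadingCoeff * x.denom) /
          algebraMap k[X] (RatFunc k) x.denom := by
        rw [hy, map_sub, map_mul, sub_div, RatFunc.num_div_denom,
          mul_div_assoc, div_self (by simpa using hden0), mul_one, RatFunc.algebraMap_C,
          RatFunc.algebraMap_eq_C]
      have hp0 : x.num - C x.num.leadingCoeff * x.denom ≠ 0 := by
        intro h0
        apply hy0
        rw [hyeq, h0, map_zero, zero_div]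
      have hlt : (x.num - C x.num.leadingCoeff * x.denom).degree < x.num.degree := by
        apply Polynomial.degree_sub_lt_left
        · rw [Polynomial.degree_C_mul (by simpa using hnum0),
            Polynomial.degree_eq_natDegree hnum0, Polynomial.degree_eq_natDegree hden0]
          exact_mod_cast hdeg
        · exact hnum0
        · rw [Polynomial.leadingCoeff_mul, Polynomial.leadingCoeff_C,
            (RatFunc.monic_denom x).leadingCoeff, mul_one]
      have hlt' : (x.num - C x.num.leadingCoeff * x.denom).natDegree < x.num.natDegree :=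
        Polynomial.natDegree_lt_natDegree hp0 hlt
      have hp0' : algebraMap k[X] (RatFunc k) (x.num - C x.num.leadingCoeff * x.denom) ≠ 0 :=
        (map_ne_zero_iff _ (IsFractionRing.injective k[X] (RatFunc k))).mpr hp0
      have hden0' : algebraMap k[X] (RatFunc k) x.denom ≠ 0 :=
        (map_ne_zero_iff _ (IsFractionRing.injective k[X] (RatFunc k))).mpr hden0
      rw [hyeq, RatFunc.intDegree_div hp0' hden0',
        RatFunc.intDegree_polynomial, RatFunc.intDegree_polynomial]
      omega

end RatFuncInfty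

section Transport

variable {k K K' : Type*} [Field k] [Field K] [Field K'] [Algebra k K] [Algebra k K']

theorem InftyData.comap {v : Valuation K ℤᵐ⁰} {t : K} (h : InftyData k v t) (e : K' ≃ₐ[k] K) :
    InftyData k (v.comap (e : K' →+* K)) (e.symm t) where
  const c hc := by
    rw [Valuation.comap_apply]
    simpa using h.const c hc
  unif := by
    rw [Valuation.comap_apply]
    simpa using h.unif
  res x hx := by
    rw [Valuation.comap_apply] at hx
    obtain ⟨c, hc⟩ := h.res _ hx
    refine ⟨c, ?_⟩
    rw [Valuation.comap_apply]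
    simpa using hc

end Transport

end Fermat.Agent.P2.helper39
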