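import Mathlib

/-!
# P2 / ROOT-V (helper50), abstract part: norms and reduction for an orthonormal basis

Setting: `F / E` a finite extension of fields, `Ow ⊆ F` a subring ("`w`-integral elements") with
a ring homomorphism `rw : Ow → Ft` ("reduction") into a field, such that
`O_E = Ow ∩ E` is a valuation ring of `E` whose non-units reduce to `0`, and an `E`-basis `b`
of `F` consisting of elements of `Ow` whose reductions are linearly independent over the
reduction of `O_E`.

* `OrthData.coeff_mem` : ORTHONORMALITY, `∑ cᵢ bᵢ ∈ Ow → cᵢ ∈ O_E`;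
* `OrthData.leftMulMatrix_mem`, `OrthData.rw_leftMulMatrix` : the matrix of multiplication by
  `H ∈ Ow` has entries in `O_E`, and reduces to the identity if `rw H = 1`;
* `OrthData.exists_charpoly` : the characteristic polynomial of `H` has coefficients in `O_E` and
  reduces to `(X - 1) ^ n`;
* `aeval_charpoly_leftMulMatrix` : Cayley-Hamilton in `F`;
* `charpoly_coeff_mem_of_isIntegral` : the coefficients of the characteristic polynomial of an
  integral element lie in the (integrally closed) base.
-/

set_option autoImplicit false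
set_option linter.unusedSectionVars false
set_option linter.unusedVariables false

namespace Fermat.Agent.P2.helper50

open Module Polynomial

section Orth

variable {E F Ft : Type*} [Field E] [Field F] [Algebra E F] [Field Ft]
  (Ow : Subring F) (rw : Ow →+* Ft)

/-- The abstract hypotheses of orthonormality. -/
structure OrthData {ι : Type*} [Fintype ι] (b : Basis ι E F) : Prop where
  val : ∀ h : E, algebraMap E F h ∈ Ow ∨ algebraMap E F h⁻¹ ∈ Ow
  ker : ∀ (h : E) (hh : algebraMap E F h ∈ Ow), algebraMap E F h⁻¹ ∉ Ow →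
    rw ⟨algebraMap E F h, hh⟩ = 0
  mem : ∀ i, b i ∈ Ow
  li : ∀ (c : ι → E) (hc : ∀ i, algebraMap E F (c i) ∈ Ow),
    ∑ i, rw ⟨algebraMap E F (c i), hc i⟩ * rw ⟨b i, mem i⟩ = 0 →
      ∀ i, rw ⟨algebraMap E F (c i), hc i⟩ = 0

variable {Ow rw}
variable {ι : Type*} [Fintype ι] {b : Basis ι E F}

/-- the valuation ring `O_E = Ow ∩ E` -/
def OrthData.valSubring (D : OrthData Ow rw b) : ValuationSubring E where
  toSubring := Ow.comap (algebraMap E F)
  mem_or_inv_mem' := fun x => D.val x

lemma OrthData.mem_valSubring (D : OrthData Ow rw b) {h : E} :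
    h ∈ D.valSubring ↔ algebraMap E F h ∈ Ow := Iff.rfl

/-- reduction of a sum `∑ cᵢ bᵢ` with integral coefficients -/
lemma OrthData.rw_sum (D : OrthData Ow rw b) (c : ι → E)
    (hc : ∀ i, algebraMap E F (c i) ∈ Ow) (hf : ∑ i, c i • b i ∈ Ow) :
    rw ⟨∑ i, c i • b i, hf⟩ = ∑ i, rw ⟨algebraMap E F (c i), hc i⟩ * rw ⟨b i, D.mem i⟩ := by
  have e : (⟨∑ i, c i • b i, hf⟩ : Ow) =
      ∑ i, (⟨algebraMap E F (c i), hc i⟩ : Ow) * ⟨b i, D.mem i⟩ := by
    apply Subtype.ext
    rw [← Subring.coe_subtype, map_sum]
    refine Finset.sum_congr rfl fun i _ => ?_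
    rw [Algebra.smul_def]
    rfl
  rw [e, map_sum]
  simp_rw [map_mul]

/-- **Orthonormality**: the coefficients of a `w`-integral element are integral. -/
theorem OrthData.coeff_mem (D : OrthData Ow rw b) (c : ι → E) (hf : ∑ i, c i • b i ∈ Ow)
    (i : ι) : algebraMap E F (c i) ∈ Ow := by
  classical
  by_contra hi
  set V := D.valSubring with hV
  obtain ⟨i₀, -, hmax⟩ := Finset.exists_max_image (Finset.univ : Finset ι)
    (fun k => V.valuation (c k)) ⟨i, Finset.mem_univ i⟩
  have h1 : ¬ V.valuation (c i) ≤ 1 := by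
    rw [V.valuation_le_one_iff]
    exact hi
  have h2 : ¬ V.valuation (c i₀) ≤ 1 := fun h => h1 ((hmax i (Finset.mem_univ i)).trans h)
  have hi₀ : algebraMap E F (c i₀) ∉ Ow := by
    rw [V.valuation_le_one_iff] at h2
    exact h2
  have hc0 : c i₀ ≠ 0 := by
    intro h
    apply hi₀
    rw [h, map_zero]
    exact Ow.zero_mem
  have hv0 : V.valuation (c i₀) ≠ 0 := (Valuation.ne_zero_iff _).2 hc0
  have hinv : algebraMap E F (c i₀)⁻¹ ∈ Ow := (D.val (c i₀)).resolve_left hi₀
  have hdiv : ∀ k, algebraMap E F ((c i₀)⁻¹ * c k) ∈ Ow := by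
    intro k
    change (c i₀)⁻¹ * c k ∈ V
    rw [← V.valuation_le_one_iff, map_mul, map_inv₀]
    rw [inv_mul_le_iff₀ (zero_lt_iff.2 hv0), mul_one]
    exact hmax k (Finset.mem_univ k)
  -- the scaled element
  have hsum : ∑ k, ((c i₀)⁻¹ * c k) • b k = algebraMap E F (c i₀)⁻¹ * ∑ k, c k • b k := by
    rw [Finset.mul_sum]
    refine Finset.sum_congr rfl fun k _ => ?_
    rw [Algebra.smul_def, Algebra.smul_def, map_mul, mul_assoc]
  have hf' : ∑ k, ((c i₀)⁻¹ * c k) • b k ∈ Ow := by
    rw [hsum]
    exact Ow.mul_mem hinv hf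
  have hzero : rw ⟨∑ k, ((c i₀)⁻¹ * c k) • b k, hf'⟩ = 0 := by
    have e : (⟨∑ k, ((c i₀)⁻¹ * c k) • b k, hf'⟩ : Ow) =
        ⟨algebraMap E F (c i₀)⁻¹, hinv⟩ * ⟨∑ k, c k • b k, hf⟩ := Subtype.ext hsum
    rw [e, map_mul, D.ker (c i₀)⁻¹ hinv (by rwa [inv_inv]), zero_mul]
  rw [D.rw_sum _ hdiv hf'] at hzero
  have := D.li _ hdiv hzero i₀
  have e1 : (⟨algebraMap E F ((c i₀)⁻¹ * c i₀), hdiv i₀⟩ : Ow) = 1 := by
    apply Subtype.ext
    change algebraMap E F ((c i₀)⁻¹ * c i₀) = 1
    rw [inv_mul_cancel₀ hc0, map_one]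
  rw [e1, map_one] at this
  exact one_ne_zero this

variable [DecidableEq ι]

/-- the matrix of multiplication by a `w`-integral element has integral entries -/
theorem OrthData.leftMulMatrix_mem (D : OrthData Ow rw b) {H : F} (hH : H ∈ Ow) (i j : ι) :
    algebraMap E F (Algebra.leftMulMatrix b H i j) ∈ Ow := by
  refine D.coeff_mem (fun k => Algebra.leftMulMatrix b H k j) ?_ i
  have e : ∑ k, Algebra.leftMulMatrix b H k j • b k = H * b j := by
    simp_rw [Algebra.leftMulMatrix_eq_repr_mul]
    exact b.sum_repr (H * b j)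
  rw [e]
  exact Ow.mul_mem hH (D.mem j)

/-- ... and reduces to the identity matrix if `H` reduces to `1` -/
theorem OrthData.rw_leftMulMatrix (D : OrthData Ow rw b) {H : F} (hH : H ∈ Ow)
    (h1 : rw ⟨H, hH⟩ = 1) (i j : ι) :
    rw ⟨algebraMap E F (Algebra.leftMulMatrix b H i j), D.leftMulMatrix_mem hH i j⟩ =
      if i = j then 1 else 0 := by
  set m := Algebra.leftMulMatrix b H with hm
  have hδ : ∀ k, algebraMap E F (if k = j then (1 : E) else 0) ∈ Ow := by
    intro k
    split_ifs
    · rw [map_one]; exact Ow.one_mem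
    · rw [map_zero]; exact Ow.zero_mem
  have hc : ∀ k, algebraMap E F (m k j - if k = j then (1 : E) else 0) ∈ Ow := by
    intro k
    rw [map_sub]
    exact Ow.sub_mem (D.leftMulMatrix_mem hH k j) (hδ k)
  have e : ∑ k, (m k j - if k = j then (1 : E) else 0) • b k = H * b j - b j := by
    simp_rw [sub_smul, Finset.sum_sub_distrib]
    congr 1
    · simp_rw [hm, Algebra.leftMulMatrix_eq_repr_mul]
      exact b.sum_repr (H * b j)
    · simp
  have hf : ∑ k, (m k j - if k = j then (1 : E) else 0) • b k ∈ Ow := by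
    rw [e]
    exact Ow.sub_mem (Ow.mul_mem hH (D.mem j)) (D.mem j)
  have hzero : rw ⟨∑ k, (m k j - if k = j then (1 : E) else 0) • b k, hf⟩ = 0 := by
    have e' : (⟨∑ k, (m k j - if k = j then (1 : E) else 0) • b k, hf⟩ : Ow) =
        ⟨H, hH⟩ * ⟨b j, D.mem j⟩ - ⟨b j, D.mem j⟩ := Subtype.ext e
    rw [e', map_sub, map_mul, h1, one_mul, sub_self]
  rw [D.rw_sum _ hc hf] at hzero
  have h2 := D.li _ hc hzero i
  have e2 : (⟨algebraMap E F (m i j), D.leftMulMatrix_mem hH i j⟩ : Ow) =
      ⟨algebraMap E F (m i j - if i = j then (1 : E) else 0), hc i⟩ +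
        ⟨algebraMap E F (if i = j then (1 : E) else 0), hδ i⟩ := by
    apply Subtype.ext
    simp
  rw [e2, map_add, h2, zero_add]
  split_ifs with hij
  · have : (⟨algebraMap E F (1 : E), by rw [map_one]; exact Ow.one_mem⟩ : Ow) = 1 :=
      Subtype.ext (map_one _)
    rw [this, map_one]
  · have : (⟨algebraMap E F (0 : E), by rw [map_zero]; exact Ow.zero_mem⟩ : Ow) = 0 :=
      Subtype.ext (map_zero _)
    rw [this, map_zero]

/-- the inclusion `O_E → Ow` -/
def OrthData.inclE (D : OrthData Ow rw b) : D.valSubring.toSubring →+* Ow :=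
  (algebraMap E F).restrict D.valSubring.toSubring Ow fun _ hx => hx

/-- the reduction on `O_E` -/
def OrthData.rE (D : OrthData Ow rw b) : D.valSubring.toSubring →+* Ft := rw.comp D.inclE

lemma OrthData.rE_apply (D : OrthData Ow rw b) (h : D.valSubring.toSubring) :
    D.rE h = rw ⟨algebraMap E F (h : E), h.2⟩ := rfl

/-- **The characteristic polynomial of `H ≡ 1`** has coefficients in `O_E` and reduces to
`(X - 1) ^ n`. -/
theorem OrthData.exists_charpoly (D : OrthData Ow rw b) {H : F} (hH : H ∈ Ow)
    (h1 : rw ⟨H, hH⟩ = 1) :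
    ∃ χ : Polynomial D.valSubring.toSubring,
      χ.map D.valSubring.toSubring.subtype = (Algebra.leftMulMatrix b H).charpoly ∧
        χ.map D.rE = (X - 1) ^ Fintype.card ι := by
  let m' : Matrix ι ι D.valSubring.toSubring := fun i j =>
    ⟨Algebra.leftMulMatrix b H i j, D.leftMulMatrix_mem hH i j⟩
  refine ⟨m'.charpoly, ?_, ?_⟩
  · rw [← Matrix.charpoly_map]
    congr 1
  · rw [← Matrix.charpoly_map]
    have : m'.map D.rE = 1 := by
      ext i j
      rw [Matrix.map_apply, D.rE_apply, Matrix.one_apply]
      exact D.rw_leftMulMatrix hH h1 i j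
    rw [this, Matrix.charpoly_one]

end Orth

section CayleyHamilton

variable {E F : Type*} [Field E] [Field F] [Algebra E F]
  {ι : Type*} [Fintype ι] [DecidableEq ι] (b : Basis ι E F)

/-- Cayley-Hamilton for the multiplication by `H`. -/
theorem aeval_charpoly_leftMulMatrix (H : F) :
    aeval H (Algebra.leftMulMatrix b H).charpoly = 0 := by
  apply Algebra.leftMulMatrix_injective b
  rw [← Polynomial.aeval_algHom_apply, map_zero]
  exact Matrix.aeval_self_charpoly _

/-- the norm is `(-1) ^ n` times the constant coefficient of the characteristic polynomial -/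
theorem norm_eq_sign_charpoly_coeff (H : F) :
    Algebra.norm E H = (-1) ^ Fintype.card ι * (Algebra.leftMulMatrix b H).charpoly.coeff 0 := by
  rw [Algebra.norm_eq_matrix_det b, Matrix.det_eq_sign_charpoly_coeff]

/-- the characteristic polynomial at a scalar is the norm of `a - H` -/
theorem eval_charpoly_leftMulMatrix (H : F) (a : E) :
    (Algebra.leftMulMatrix b H).charpoly.eval a = Algebra.norm E (algebraMap E F a - H) := by
  rw [Matrix.eval_charpoly, Algebra.norm_eq_matrix_det b, map_sub, AlgHom.commutes]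
  rfl

end CayleyHamilton

section Interpolation

variable {K E : Type*} [Field K] [Field E] [Algebra K E]

/-- Lagrange basis polynomials with nodes in a subfield are defined over the subfield -/
theorem lagrange_basis_map {κ : Type*} [DecidableEq κ] (s : Finset κ) (v : κ → K) (i : κ) :
    Lagrange.basis s (fun k => algebraMap K E (v k)) i =
      (Lagrange.basis s v i).map (algebraMap K E) := by
  rw [Lagrange.basis, Lagrange.basis, Polynomial.map_prod]
  refine Finset.prod_congr rfl fun j _ => ?_
  rw [Lagrange.basisDivisor, Lagrange.basisDivisor, Polynomial.map_mul, Polynomial.map_sub,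
    Polynomial.map_X, Polynomial.map_C, Polynomial.map_C]
  congr 2
  rw [map_inv₀, map_sub]

/-- A polynomial over `E` whose values at the points of the infinite subfield `K` lie in a
`K`-subalgebra `P` has all its coefficients in `P`. -/
theorem coeff_mem_of_forall_eval_mem [Infinite K] (P : Subalgebra K E) (f : Polynomial E)
    (hf : ∀ a : K, f.eval (algebraMap K E a) ∈ P) (i : ℕ) : f.coeff i ∈ P := by
  classical
  let v : Fin (f.natDegree + 1) → K := fun k => Infinite.natEmbedding K (k : ℕ)
  have hv : Function.Injective v := fun a b hab =>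
    Fin.ext ((Infinite.natEmbedding K).injective hab)
  have hv' : Set.InjOn (fun k => algebraMap K E (v k))
      ((Finset.univ : Finset (Fin (f.natDegree + 1))) : Set (Fin (f.natDegree + 1))) :=
    fun a _ b _ hab => hv ((algebraMap K E).injective hab)
  have hdeg : f.degree < (Finset.univ : Finset (Fin (f.natDegree + 1))).card := by
    rw [Finset.card_univ, Fintype.card_fin]
    exact lt_of_le_of_lt Polynomial.degree_le_natDegree (by exact_mod_cast Nat.lt_succ_self _)
  have h := Lagrange.eq_interpolate hv' hdeg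
  rw [h, Lagrange.interpolate_apply, Polynomial.finsetSum_coeff]
  refine Subalgebra.sum_mem _ fun k _ => ?_
  rw [lagrange_basis_map, Polynomial.coeff_C_mul, Polynomial.coeff_map]
  exact P.mul_mem (hf (v k)) (P.algebraMap_mem _)

end Interpolation

section Integral

/-- the image of `R` in `E` as a `K`-subalgebra -/
def rangeSubalgebra (K R E : Type*) [Field K] [CommRing R] [Field E]
    [Algebra K R] [Algebra K E] [Algebra R E] [IsScalarTower K R E] : Subalgebra K E :=
  (IsScalarTower.toAlgHom K R E).range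

lemma mem_rangeSubalgebra {K R E : Type*} [Field K] [CommRing R] [Field E]
    [Algebra K R] [Algebra K E] [Algebra R E] [IsScalarTower K R E] {x : E} :
    x ∈ rangeSubalgebra K R E ↔ ∃ r : R, algebraMap R E r = x := Iff.rfl

/-- **The characteristic polynomial of an integral element** has coefficients in the
(integrally closed) base ring. -/
theorem charpoly_coeff_mem_of_isIntegral (K : Type*) {R E F : Type*} [Field K] [Infinite K]
    [CommRing R] [Field E] [Field F]
    [Algebra K R] [Algebra K E] [Algebra R E] [IsScalarTower K R E]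
    [Algebra E F] [Algebra R F] [IsScalarTower R E F]
    {ι : Type*} [Fintype ι] [DecidableEq ι] (b : Basis ι E F)
    (hcl : ∀ x : E, IsIntegral R x → ∃ r : R, algebraMap R E r = x)
    {H : F} (hH : IsIntegral R H) (i : ℕ) :
    ∃ r : R, algebraMap R E r = (Algebra.leftMulMatrix b H).charpoly.coeff i := by
  refine coeff_mem_of_forall_eval_mem (rangeSubalgebra K R E) _ (fun a => ?_) i
  rw [eval_charpoly_leftMulMatrix b H]
  refine hcl _ (Algebra.isIntegral_norm E ?_)
  refine IsIntegral.sub ?_ hH
  have e : algebraMap E F (algebraMap K E a) = algebraMap R F (algebraMap K R a) := by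
    rw [IsScalarTower.algebraMap_apply K R E, ← IsScalarTower.algebraMap_apply R E F]
  rw [e]
  exact isIntegral_algebraMap

end Integral

end Fermat.Agent.P2.helper50
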