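import Fermat.Agent.P2.helper81_ValScale
import Fermat.Agent.P2.helper50_RootVAbs

/-!
# P2 / ROOT-V (helper50), part 2: the ring of `w`-integral functions and its reduction

* `wRing A N` : the subring `{f | IsWInt A N f}` of `F_N`;
* `wRed A N : wRing A N →+* LaurentSeries (IsLocalRing.ResidueField A)` : the reduction `Y₁ / Y₂ ↦ red Y₁ / red Y₂`;
* `wRed_eq` : the reduction can be computed from any representation;
* `mem_wRing_or_inv`, `wRed_eq_zero_of_inv_notMem` : `wRing` is a valuation ring of `F_N` and the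
  kernel of `wRed` is its maximal ideal;
* `exists_poly_of_isWInt` : a polynomial in `j` over `ℚ̄` which is `w`-integral has
  coefficients in `A`.
-/

set_option autoImplicit false
set_option linter.style.haveILetI false
set_option linter.unusedSectionVars false
set_option linter.unusedVariables false

open ModularCurve Polynomial

noncomputable section

namespace Fermat.Agent.P2.helper50

open Fermat.Agent.S24 Fermat.Agent.P2.helper81 Fermat.Agent.S18.helper19 Fermat.Agent.S28

section Ring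

variable (A : ValuationSubring Kbar) (N : ℕ) [NeZero N]

/-- the subring of `w`-integral functions -/
def wRing : Subring (FN N) where
  carrier := {f | helper29.IsWInt A N (f : LaurentSeries Kbar)}
  zero_mem' := ⟨0, 1, by rw [map_zero]; exact zero_mem _, isGood_one, by simp⟩
  one_mem' := ⟨1, 1, by rw [map_one]; exact one_mem _, isGood_one, by simp⟩
  add_mem' := by
    rintro f g ⟨Y₁, Y₂, hY₁, hY₂, hf⟩ ⟨Z₁, Z₂, hZ₁, hZ₂, hg⟩
    refine ⟨Y₁ * Z₂ + Z₁ * Y₂, Y₂ * Z₂, ?_, hY₂.mul hZ₂, ?_⟩
    · rw [map_add, map_mul, map_mul]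
      exact add_mem (mul_mem hY₁ hZ₂.1) (mul_mem hZ₁ hY₂.1)
    · rw [map_add, map_mul, map_mul, map_mul, hf, hg]
      push_cast
      ring
  mul_mem' := by
    rintro f g ⟨Y₁, Y₂, hY₁, hY₂, hf⟩ ⟨Z₁, Z₂, hZ₁, hZ₂, hg⟩
    refine ⟨Y₁ * Z₁, Y₂ * Z₂, ?_, hY₂.mul hZ₂, ?_⟩
    · rw [map_mul]
      exact mul_mem hY₁ hZ₁
    · rw [map_mul, map_mul, hf, hg]
      push_cast
      ring
  neg_mem' := by
    rintro f ⟨Y₁, Y₂, hY₁, hY₂, hf⟩
    refine ⟨-Y₁, Y₂, ?_, hY₂, ?_⟩
    · rw [map_neg]
      exact neg_mem hY₁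
    · rw [map_neg, hf]
      push_cast
      ring

lemma mem_wRing {f : FN N} : f ∈ wRing A N ↔ helper29.IsWInt A N (f : LaurentSeries Kbar) :=
  Iff.rfl

/-- the numerator of the chosen representation -/
def wNum (f : wRing A N) : LaurentSeries A := Classical.choose f.2

/-- the denominator of the chosen representation -/
def wDen (f : wRing A N) : LaurentSeries A := Classical.choose (Classical.choose_spec f.2)

lemma wDen_isGood (f : wRing A N) : IsGood A N (wDen A N f) :=
  (Classical.choose_spec (Classical.choose_spec f.2)).2.1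

lemma wNum_eq (f : wRing A N) :
    coeffMap A.subtype (wNum A N f) =
      ((f : FN N) : LaurentSeries Kbar) * coeffMap A.subtype (wDen A N f) :=
  (Classical.choose_spec (Classical.choose_spec f.2)).2.2

/-- the reduction of a `w`-integral function -/
def wRedFun (f : wRing A N) : LaurentSeries (IsLocalRing.ResidueField A) :=
  red A (wNum A N f) / red A (wDen A N f)

/-- the reduction can be computed from any representation -/
theorem wRedFun_eq (f : wRing A N) (Y₁ Y₂ : LaurentSeries A)
    (hY₂ : red A Y₂ ≠ 0)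
    (h : coeffMap A.subtype Y₁ = ((f : FN N) : LaurentSeries Kbar) * coeffMap A.subtype Y₂) :
    wRedFun A N f = red A Y₁ / red A Y₂ := by
  have hd := (wDen_isGood A N f).2.2
  have e : wNum A N f * Y₂ = Y₁ * wDen A N f := by
    apply coeffMap_subtype_injective A
    rw [map_mul, map_mul, wNum_eq, h]
    ring
  have e' := congrArg (red A) e
  rw [map_mul, map_mul] at e'
  rw [wRedFun, div_eq_div_iff hd hY₂]
  exact e'

/-- the reduction as a ring homomorphism -/
def wRed : wRing A N →+* LaurentSeries (IsLocalRing.ResidueField A) where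
  toFun := wRedFun A N
  map_one' := by
    rw [wRedFun_eq A N 1 1 1 (by rw [map_one]; exact one_ne_zero) (by simp), map_one, div_one]
  map_zero' := by
    rw [wRedFun_eq A N 0 0 1 (by rw [map_one]; exact one_ne_zero) (by simp), map_zero, zero_div]
  map_mul' := by
    intro f g
    have hf := (wDen_isGood A N f).2.2
    have hg := (wDen_isGood A N g).2.2
    rw [wRedFun_eq A N (f * g) (wNum A N f * wNum A N g) (wDen A N f * wDen A N g)
      (by rw [map_mul]; exact mul_ne_zero hf hg)
      (by rw [map_mul, map_mul, wNum_eq, wNum_eq]; push_cast; ring)]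
    rw [map_mul, map_mul, wRedFun, wRedFun, div_mul_div_comm]
  map_add' := by
    intro f g
    have hf := (wDen_isGood A N f).2.2
    have hg := (wDen_isGood A N g).2.2
    rw [wRedFun_eq A N (f + g) (wNum A N f * wDen A N g + wNum A N g * wDen A N f)
      (wDen A N f * wDen A N g)
      (by rw [map_mul]; exact mul_ne_zero hf hg)
      (by rw [map_add, map_mul, map_mul, map_mul, wNum_eq, wNum_eq]; push_cast; ring)]
    rw [map_add, map_mul, map_mul, map_mul, wRedFun, wRedFun, div_add_div _ _ hf hg]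
    congr 1
    ring

/-- the reduction can be computed from any representation -/
theorem wRed_eq (f : FN N) (hf : f ∈ wRing A N) (Y₁ Y₂ : LaurentSeries A)
    (hY₂ : red A Y₂ ≠ 0)
    (h : coeffMap A.subtype Y₁ = (f : LaurentSeries Kbar) * coeffMap A.subtype Y₂) :
    wRed A N ⟨f, hf⟩ = red A Y₁ / red A Y₂ :=
  wRedFun_eq A N ⟨f, hf⟩ Y₁ Y₂ hY₂ h

/-- an integral series of `F_N` is `w`-integral -/
theorem mem_wRing_of_incl (f : FN N) (Y : LaurentSeries A)
    (h : coeffMap A.subtype Y = (f : LaurentSeries Kbar)) : f ∈ wRing A N :=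
  ⟨Y, 1, by rw [h]; exact f.2, isGood_one, by rw [h, map_one, mul_one]⟩

/-- ... and its reduction is the reduction of the series -/
theorem wRed_of_incl (f : FN N) (Y : LaurentSeries A)
    (h : coeffMap A.subtype Y = (f : LaurentSeries Kbar)) :
    wRed A N ⟨f, mem_wRing_of_incl A N f Y h⟩ = red A Y := by
  rw [wRed_eq A N f (mem_wRing_of_incl A N f Y h) Y 1 (by rw [map_one]; exact one_ne_zero)
    (by rw [h, map_one, mul_one]), map_one, div_one]

end Ring

section Val

variable (A : ValuationSubring Kbar) {ℓ : ℕ} [Fact ℓ.Prime] (hA : A.LiesOverPrime ℓ)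
variable (N : ℕ) [NeZero N] (hℓN : ¬ ℓ ∣ N)

lemma residue_eq_zero_of_not_isUnit {u : A} (hu : ¬ IsUnit u) : IsLocalRing.residue A u = 0 :=
  (IsLocalRing.residue_eq_zero_iff u).mpr ((IsLocalRing.mem_maximalIdeal u).mpr hu)

lemma algebraMap_mem_FF (c : Kbar) :
    algebraMap Kbar (LaurentSeries Kbar) c ∈ modularFunctionFieldBar N :=
  (modularFunctionFieldBar N).algebraMap_mem c

include hA hℓN in
/-- normal form of a nonzero function: `f = u Y₁ / Y₂` or `f⁻¹ = u Y₂ / Y₁` with `u ∈ 𝔪`,
`Y₁, Y₂` good. -/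
theorem exists_normal_form (f : FN N) (hf0 : f ≠ 0) :
    ∃ (u : A) (Y₁ Y₂ : LaurentSeries A), IsGood A N Y₁ ∧ IsGood A N Y₂ ∧
      (coeffMap A.subtype Y₂ * (f : LaurentSeries Kbar) =
          algebraMap Kbar (LaurentSeries Kbar) (u : Kbar) * coeffMap A.subtype Y₁ ∨
        (algebraMap Kbar (LaurentSeries Kbar) (u : Kbar) * coeffMap A.subtype Y₂ *
            (f : LaurentSeries Kbar) = coeffMap A.subtype Y₁ ∧ ¬ IsUnit u)) := by
  have hfL : (f : LaurentSeries Kbar) ≠ 0 := fun h0 => hf0 (Subtype.ext h0)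
  obtain ⟨c, c', s₁, G₁, hc, hc', hs₁, hdeg, hG₁, h⟩ :=
    exists_primitive_quot A hA N hℓN (f : LaurentSeries Kbar) f.2 hfL
  have hcK : (c : Kbar) ≠ 0 := fun h0 => hc (Subtype.ext h0)
  have hc'K : (c' : Kbar) ≠ 0 := fun h0 => hc' (Subtype.ext h0)
  have hcL : algebraMap Kbar (LaurentSeries Kbar) (c : Kbar) ≠ 0 := by
    rw [Ne, map_eq_zero]; exact hcK
  have hc'L : algebraMap Kbar (LaurentSeries Kbar) (c' : Kbar) ≠ 0 := by
    rw [Ne, map_eq_zero]; exact hc'K
  have hg₁ := isGood_ev₂ A hA N hℓN G₁ hdeg hG₁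
  have hg₂ := isGood_aeval A N s₁ hs₁
  have first : ∀ u : A, c' = c * u →
      coeffMap A.subtype (aeval (jA A) s₁) * (f : LaurentSeries Kbar) =
        algebraMap Kbar (LaurentSeries Kbar) (u : Kbar) *
          coeffMap A.subtype (ev₂ (jA A) (thetaA A N) G₁) := by
    intro u hu
    have hcu : ((c' : A) : Kbar) = (c : Kbar) * (u : Kbar) := by rw [hu]; rfl
    apply mul_left_cancel₀ hcL
    rw [← mul_assoc, h, hcu, map_mul]
    ring
  rcases ValuationRing.dvd_total c c' with ⟨u, hu⟩ | ⟨u, hu⟩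
  · exact ⟨u, _, _, hg₁, hg₂, Or.inl (first u hu)⟩
  · by_cases huu : IsUnit u
    · obtain ⟨v, rfl⟩ := huu
      refine ⟨((v⁻¹ : Aˣ) : A), _, _, hg₁, hg₂, Or.inl (first _ ?_)⟩
      rw [hu, mul_assoc, Units.mul_inv, mul_one]
    · refine ⟨u, _, _, hg₁, hg₂, Or.inr ⟨?_, huu⟩⟩
      have hcu : ((c : A) : Kbar) = (c' : Kbar) * (u : Kbar) := by rw [hu]; rfl
      apply mul_left_cancel₀ hc'L
      rw [← h, hcu, map_mul]
      ring

include hA hℓN in
/-- `wRing` is a valuation ring of `F_N` -/
theorem mem_wRing_or_inv (f : FN N) : f ∈ wRing A N ∨ f⁻¹ ∈ wRing A N := by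
  by_cases hf0 : f = 0
  · left
    rw [hf0]
    exact (wRing A N).zero_mem
  have hfL : (f : LaurentSeries Kbar) ≠ 0 := fun h0 => hf0 (Subtype.ext h0)
  obtain ⟨u, Y₁, Y₂, hY₁, hY₂, h | ⟨h, -⟩⟩ := exists_normal_form A hA N hℓN f hf0
  · left
    refine ⟨algebraMap A (LaurentSeries A) u * Y₁, Y₂, ?_, hY₂, ?_⟩
    · rw [map_mul, incl_algebraMap]
      exact mul_mem (algebraMap_mem_FF N _) hY₁.1
    · rw [map_mul, incl_algebraMap, ← h]
      exact mul_comm _ _
  · right
    refine ⟨algebraMap A (LaurentSeries A) u * Y₂, Y₁, ?_, hY₁, ?_⟩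
    · rw [map_mul, incl_algebraMap]
      exact mul_mem (algebraMap_mem_FF N _) hY₂.1
    · rw [map_mul, incl_algebraMap, ← h]
      push_cast
      field_simp

include hA hℓN in
/-- the kernel of `wRed` contains the non-units of `wRing` -/
theorem wRed_eq_zero_of_inv_notMem (f : FN N) (hf : f ∈ wRing A N) (hinv : f⁻¹ ∉ wRing A N) :
    wRed A N ⟨f, hf⟩ = 0 := by
  by_cases hf0 : f = 0
  · have : (⟨f, hf⟩ : wRing A N) = 0 := Subtype.ext hf0
    rw [this, map_zero]
  have hfL : (f : LaurentSeries Kbar) ≠ 0 := fun h0 => hf0 (Subtype.ext h0)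
  obtain ⟨u, Y₁, Y₂, hY₁, hY₂, h | ⟨h, -⟩⟩ := exists_normal_form A hA N hℓN f hf0
  · by_cases huu : IsUnit u
    · exfalso
      apply hinv
      obtain ⟨v, rfl⟩ := huu
      refine ⟨algebraMap A (LaurentSeries A) ((v⁻¹ : Aˣ) : A) * Y₂, Y₁, ?_, hY₁, ?_⟩
      · rw [map_mul, incl_algebraMap]
        exact mul_mem (algebraMap_mem_FF N _) hY₂.1
      · have hv : (((v⁻¹ : Aˣ) : A) : Kbar) * ((v : A) : Kbar) = 1 := by
          have h0 : (((v⁻¹ : Aˣ) : A) * (v : A) : A) = 1 := Units.inv_mul v
          have h1 := congrArg A.subtype h0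
          rw [map_mul, map_one] at h1
          exact h1
        have hvL : algebraMap Kbar (LaurentSeries Kbar) (((v⁻¹ : Aˣ) : A) : Kbar) *
            algebraMap Kbar (LaurentSeries Kbar) ((v : A) : Kbar) = 1 := by
          rw [← map_mul, hv, map_one]
        rw [map_mul, incl_algebraMap]
        push_cast
        have h2 : coeffMap A.subtype Y₁ =
            algebraMap Kbar (LaurentSeries Kbar) (((v⁻¹ : Aˣ) : A) : Kbar) *
              coeffMap A.subtype Y₂ * (f : LaurentSeries Kbar) := by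
          rw [mul_assoc, h, ← mul_assoc, hvL, one_mul]
        rw [h2]
        field_simp
    · rw [wRed_eq A N f hf (algebraMap A (LaurentSeries A) u * Y₁) Y₂ hY₂.2.2
        (by rw [map_mul, incl_algebraMap, ← h]; exact mul_comm _ _)]
      rw [map_mul, red_algebraMap, residue_eq_zero_of_not_isUnit A huu, map_zero, zero_mul,
        zero_div]
  · exfalso
    apply hinv
    refine ⟨algebraMap A (LaurentSeries A) u * Y₂, Y₁, ?_, hY₁, ?_⟩
    · rw [map_mul, incl_algebraMap]
      exact mul_mem (algebraMap_mem_FF N _) hY₂.1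
    · rw [map_mul, incl_algebraMap, ← h]
      push_cast
      field_simp

/-- **content**: a polynomial in `j` over `ℚ̄` which is `w`-integral has coefficients in `A` -/
theorem exists_poly_of_isWInt (P : Polynomial Kbar)
    (hw : helper29.IsWInt A N (aeval (jK) P)) :
    ∃ p : Polynomial A, p.map A.subtype = P := by
  by_cases hP : P = 0
  · exact ⟨0, by rw [hP, Polynomial.map_zero]⟩
  obtain ⟨b, hb, hQ⟩ := IsLocalization.integerNormalization_spec (nonZeroDivisors A) P
  set Q := IsLocalization.integerNormalization (nonZeroDivisors A) P with hQdef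
  have hb0 : b ≠ 0 := nonZeroDivisors.ne_zero hb
  have hQ0 : Q ≠ 0 := by
    rw [hQdef, Ne, IsFractionRing.integerNormalization_eq_zero_iff]
    exact hP
  have hQ' : Q.map A.subtype = C (b : Kbar) * P := by
    have : Q.map (algebraMap A Kbar) = b • P := hQ
    rw [Algebra.smul_def] at this
    exact this
  obtain ⟨c, Q₁, i, hc, hQ₁, hi⟩ := exists_scale₁ Q hQ0
  have hbK : (b : Kbar) ≠ 0 := fun h0 => hb0 (Subtype.ext h0)
  have hcK : (c : Kbar) ≠ 0 := fun h0 => hc (Subtype.ext h0)
  have hrel : C (b : Kbar) * P = C (c : Kbar) * Q₁.map A.subtype := by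
    rw [← hQ', hQ₁, Polynomial.map_mul, Polynomial.map_C]
    rfl
  have first : ∀ u : A, c = b * u → (C u * Q₁).map A.subtype = P := by
    intro u hu
    have hCb : (C (b : Kbar) : Polynomial Kbar) ≠ 0 := by
      rw [Ne, Polynomial.C_eq_zero]; exact hbK
    have hcu : ((c : A) : Kbar) = (b : Kbar) * (u : Kbar) := by rw [hu]; rfl
    have hmap : (C u * Q₁).map A.subtype = C (u : Kbar) * Q₁.map A.subtype := by
      rw [Polynomial.map_mul, Polynomial.map_C]
      rfl
    apply mul_left_cancel₀ hCb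
    rw [hrel, hmap, hcu, C_mul]
    ring
  rcases ValuationRing.dvd_total b c with ⟨u, hu⟩ | ⟨u, hu⟩
  · exact ⟨C u * Q₁, first u hu⟩
  · by_cases huu : IsUnit u
    · obtain ⟨v, rfl⟩ := huu
      refine ⟨C ((v⁻¹ : Aˣ) : A) * Q₁, first _ ?_⟩
      rw [hu, mul_assoc, Units.mul_inv, mul_one]
    · exfalso
      obtain ⟨Y₁, Y₂, hY₁, hY₂, hY⟩ := hw
      have hCc : (C (c : Kbar) : Polynomial Kbar) ≠ 0 := by
        rw [Ne, Polynomial.C_eq_zero]; exact hcK
      have hbu : ((b : A) : Kbar) = (c : Kbar) * (u : Kbar) := by rw [hu]; rfl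
      have h1 : C ((u : A) : Kbar) * P = Q₁.map A.subtype := by
        apply mul_left_cancel₀ hCc
        rw [← hrel, hbu, C_mul]
        ring
      have h2 : algebraMap Kbar (LaurentSeries Kbar) (u : Kbar) * aeval jK P =
          coeffMap A.subtype (aeval (jA A) Q₁) := by
        rw [helper25.coeffMap_aeval, coeffMap_jA, ← h1, map_mul, aeval_C]
      have h3 : algebraMap A (LaurentSeries A) u * Y₁ = aeval (jA A) Q₁ * Y₂ := by
        apply coeffMap_subtype_injective A
        rw [map_mul, map_mul, incl_algebraMap, ← h2]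
        have hY' : coeffMap A.subtype Y₁ = aeval jK P * coeffMap A.subtype Y₂ := hY
        rw [hY']
        ring
      have h4 := congrArg (red A) h3
      rw [map_mul, map_mul, red_algebraMap, residue_eq_zero_of_not_isUnit A huu, map_zero,
        zero_mul] at h4
      have h5 := (isGood_aeval A N Q₁ (map_ne_zero_of_coeff_eq_one _ Q₁ i hi)).2.2
      rcases mul_eq_zero.mp h4.symm with h6 | h6
      · exact h5 h6
      · exact hY₂.2.2 h6

end Val

end Fermat.Agent.P2.helper50

end
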