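import Mathlib
import Fermat.Agent.P2.helper43_TameAbs
import Fermat.Agent.P2.helper66_HauptMem

/-!
# P2-[TAME-BASE], instances (helper66, second prover): the hypotheses `helper43.TameHyp`
for the Hauptmoduln `t₄`, `t₉` over an arbitrary field.
-/

set_option autoImplicit false
set_option linter.unusedSectionVars false

noncomputable section

namespace Fermat.Agent.P2.helper66

open ModularCurve Polynomial IntermediateField AlgebraicCurve
open Fermat.Agent.S28.helper81 (order_eq_of_coeff transcendental_of_order_neg)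
open scoped Classical

variable (K : Type*) [Field K] (M : ℕ) [NeZero M]

/-- `j` as an element of the function field `F_M` over `K`. -/
abbrev jC : modularFunctionFieldFullC K M := ⟨jqModC K, jqModC_mem_full K M⟩

theorem order_jqModC : (jqModC K).order = -1 :=
  order_eq_of_coeff _ _ (by rw [coeff_jqModC_neg_one]; exact one_ne_zero)
    (fun _ hm => coeff_jqModC_of_lt K hm)

omit [NeZero M] in
theorem transcendental_jC : Transcendental K (jC K M) := by
  intro h
  have h1 : Transcendental K (jqModC K) :=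
    transcendental_of_order_neg _ (by rw [order_jqModC]; norm_num)
  exact h1 (IsAlgebraic.algHom (modularFunctionFieldFullC K M).val h)

/-! ### Level 4 -/

/-- `t₄` as an element of the function field `F_M`, `4 ∣ M`. -/
def t4C (h2 : (2 : K) ≠ 0) (hM : 4 ∣ M) : modularFunctionFieldFullC K M :=
  ⟨tH4 K, tH4_mem K h2 M hM⟩

/-- the numerator `(X² + 256 X + 4096)³` of `j` as a function of `t₄` -/
def N4 : K[X] := (X ^ 2 + 256 * X + 4096) ^ 3

/-- the multiplicities of the finite cusp values -/
def e4 : K → ℕ := fun a => if a = 0 then 4 else 1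

/-- the denominator `X⁴ (X + 16)` of `j` as a function of `t₄` -/
def D4 : K[X] := ∏ a ∈ ({0, -16} : Finset K), (X - C a) ^ e4 K a

variable {K}

theorem sixteen_ne_zero (h2 : (2 : K) ≠ 0) : (16 : K) ≠ 0 := by
  have : (16 : K) = 2 ^ 4 := by norm_num
  rw [this]
  exact pow_ne_zero 4 h2

theorem D4_eq (h2 : (2 : K) ≠ 0) : D4 K = X ^ 4 * (X + 16) := by
  have h16 := sixteen_ne_zero h2
  have hne : (0 : K) ≠ -16 := by
    intro h
    apply h16
    linear_combination h
  rw [D4, Finset.prod_pair hne]
  have e0 : e4 K 0 = 4 := by simp [e4]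
  have e1 : e4 K (-16) = 1 := by
    simp only [e4, neg_eq_zero, h16, if_false]
  rw [e0, e1]
  simp only [map_zero, sub_zero, map_neg, sub_neg_eq_add, pow_one]
  congr 2

theorem tameHyp_four (h2 : (2 : K) ≠ 0) (hM : 4 ∣ M) :
    helper43.TameHyp (jC K M) (t4C K M h2 hM) (N4 K) (D4 K) {0, -16} (e4 K) where
  hj := transcendental_jC K M
  hD := rfl
  he := by
    intro a _
    unfold e4
    split_ifs <;> norm_num
  hN := by
    intro a ha
    have h16 := sixteen_ne_zero h2
    rw [Finset.mem_insert, Finset.mem_singleton] at ha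
    rcases ha with rfl | rfl
    · simp only [N4, eval_pow, eval_add, eval_mul, eval_X, eval_ofNat]
      have : ((0 : K) ^ 2 + 256 * 0 + 4096) ^ 3 = 2 ^ 36 := by norm_num
      rw [this]
      exact pow_ne_zero 36 h2
    · simp only [N4, eval_pow, eval_add, eval_mul, eval_X, eval_ofNat]
      have : ((-16 : K) ^ 2 + 256 * (-16) + 4096) ^ 3 = 2 ^ 24 := by norm_num
      rw [this]
      exact pow_ne_zero 24 h2
  hdeg := by
    rw [D4_eq h2]
    have h1 : (X ^ 4 * (X + 16) : K[X]).natDegree = 5 := by compute_degree!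
    have h2' : (N4 K).natDegree = 6 := by
      unfold N4
      compute_degree!
    rw [h1, h2']
    norm_num
  hid := by
    apply Subtype.ext
    have hc : ∀ p : K[X], ((aeval (t4C K M h2 hM) p : modularFunctionFieldFullC K M) :
        LaurentSeries K) = aeval (tH4 K) p := fun p =>
      (Polynomial.aeval_algHom_apply (modularFunctionFieldFullC K M).val (t4C K M h2 hM) p).symm
    show jqModC K * ((aeval (t4C K M h2 hM) (D4 K) : modularFunctionFieldFullC K M) :
        LaurentSeries K) = ((aeval (t4C K M h2 hM) (N4 K) : modularFunctionFieldFullC K M) :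
        LaurentSeries K)
    rw [hc, hc, D4_eq h2, N4]
    simp only [map_mul, map_pow, map_add, aeval_X, map_ofNat]
    exact jq_tH4 K

/-! ### Level 9 -/

variable (K)

/-- `t₉` as an element of the function field `F_M`, `9 ∣ M`. -/
def t9C (h3 : (3 : K) ≠ 0) (hM : 9 ∣ M) : modularFunctionFieldFullC K M :=
  ⟨tH9 K, tH9_mem K h3 M hM⟩

/-- the numerator of `j` as a function of `t₉` -/
def N9 : K[X] := (X + 9) ^ 3 * (X ^ 3 + 243 * X ^ 2 + 2187 * X + 6561) ^ 3

/-- the multiplicities of the finite cusp values -/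
def e9 : K → ℕ := fun a => if a = 0 then 9 else 1

/-- the denominator `X⁹ (X² + 9 X + 27)` of `j` as a function of `t₉`; `a, b` are the roots of
`X² + 9 X + 27`. -/
def D9 (a b : K) : K[X] := ∏ c ∈ ({0, a, b} : Finset K), (X - C c) ^ e9 K c

variable {K}

section nine

variable (h3 : (3 : K) ≠ 0) {a b : K} (hs : a + b = -9) (hp : a * b = 27)
include h3 hs hp

theorem nine_a_ne_zero : a ≠ 0 := by
  rintro rfl
  have : (3 : K) ^ 3 = 0 := by linear_combination -hp
  exact h3 (pow_eq_zero_iff (by norm_num) |>.mp this)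

theorem nine_b_ne_zero : b ≠ 0 := by
  rintro rfl
  have : (3 : K) ^ 3 = 0 := by linear_combination -hp
  exact h3 (pow_eq_zero_iff (by norm_num) |>.mp this)

theorem nine_a_ne_b : a ≠ b := by
  rintro rfl
  have : (3 : K) ^ 3 = 0 := by linear_combination (2 * a - 9) * hs - 4 * hp
  exact h3 (pow_eq_zero_iff (by norm_num) |>.mp this)

theorem D9_eq : D9 K a b = X ^ 9 * (X ^ 2 + 9 * X + 27) := by
  have ha := nine_a_ne_zero h3 hs hp
  have hb := nine_b_ne_zero h3 hs hp
  have hab := nine_a_ne_b h3 hs hp
  have h0 : (0 : K) ∉ ({a, b} : Finset K) := by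
    simp only [Finset.mem_insert, Finset.mem_singleton, not_or]
    exact ⟨fun h => ha h.symm, fun h => hb h.symm⟩
  rw [D9, Finset.prod_insert h0, Finset.prod_pair hab]
  have e0 : e9 K 0 = 9 := by simp [e9]
  have e1 : e9 K a = 1 := by simp only [e9, ha, if_false]
  have e2 : e9 K b = 1 := by simp only [e9, hb, if_false]
  rw [e0, e1, e2]
  have hsC : (C a + C b : K[X]) = -9 := by
    rw [← map_add, hs, map_neg, map_ofNat]
  have hpC : (C a * C b : K[X]) = 27 := by
    rw [← map_mul, hp, map_ofNat]
  simp only [map_zero, sub_zero, pow_one]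
  linear_combination (-(X ^ 10 : K[X])) * hsC + (X ^ 9 : K[X]) * hpC

theorem N9_eval_a : (N9 K).eval a = (-b) ^ 3 * (27 * (a - b)) ^ 3 := by
  simp only [N9, eval_pow, eval_add, eval_mul, eval_X, eval_ofNat]
  have e1 : a + 9 = -b := by linear_combination hs
  have e2 : a ^ 3 + 243 * a ^ 2 + 2187 * a + 6561 = 27 * (a - b) := by
    linear_combination (a * (a + 234) + 27) * hs - (a + 234) * hp
  rw [e1, e2]

end nine

theorem tameHyp_nine (h3 : (3 : K) ≠ 0) (hM : 9 ∣ M) {a b : K} (hs : a + b = -9)
    (hp : a * b = 27) :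
    helper43.TameHyp (jC K M) (t9C K M h3 hM) (N9 K) (D9 K a b) {0, a, b} (e9 K) where
  hj := transcendental_jC K M
  hD := rfl
  he := by
    intro a _
    unfold e9
    split_ifs <;> norm_num
  hN := by
    intro c hc
    have ha := nine_a_ne_zero h3 hs hp
    have hb := nine_b_ne_zero h3 hs hp
    have hab := nine_a_ne_b h3 hs hp
    have h27 : (27 : K) ≠ 0 := by
      have : (27 : K) = 3 ^ 3 := by norm_num
      rw [this]
      exact pow_ne_zero 3 h3
    rw [Finset.mem_insert, Finset.mem_insert, Finset.mem_singleton] at hc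
    rcases hc with rfl | rfl | rfl
    · simp only [N9, eval_pow, eval_add, eval_mul, eval_X, eval_ofNat]
      have : ((0 : K) + 9) ^ 3 * ((0 : K) ^ 3 + 243 * 0 ^ 2 + 2187 * 0 + 6561) ^ 3 = 3 ^ 30 := by
        norm_num
      rw [this]
      exact pow_ne_zero 30 h3
    · rw [N9_eval_a h3 hs hp]
      exact mul_ne_zero (pow_ne_zero 3 (neg_ne_zero.mpr hb))
        (pow_ne_zero 3 (mul_ne_zero h27 (sub_ne_zero.mpr hab)))
    · rw [N9_eval_a h3 (a := c) (b := a) (by rw [add_comm]; exact hs)
        (by rw [mul_comm]; exact hp)]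
      exact mul_ne_zero (pow_ne_zero 3 (neg_ne_zero.mpr ha))
        (pow_ne_zero 3 (mul_ne_zero h27 (sub_ne_zero.mpr hab.symm)))
  hdeg := by
    rw [D9_eq h3 hs hp]
    have h1 : (X ^ 9 * (X ^ 2 + 9 * X + 27) : K[X]).natDegree = 11 := by compute_degree!
    have h2' : (N9 K).natDegree = 12 := by
      unfold N9
      compute_degree!
    rw [h1, h2']
    norm_num
  hid := by
    apply Subtype.ext
    have hc : ∀ p : K[X], ((aeval (t9C K M h3 hM) p : modularFunctionFieldFullC K M) :
        LaurentSeries K) = aeval (tH9 K) p := fun p =>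
      (Polynomial.aeval_algHom_apply (modularFunctionFieldFullC K M).val (t9C K M h3 hM) p).symm
    show jqModC K * ((aeval (t9C K M h3 hM) (D9 K a b) : modularFunctionFieldFullC K M) :
        LaurentSeries K) = ((aeval (t9C K M h3 hM) (N9 K) : modularFunctionFieldFullC K M) :
        LaurentSeries K)
    rw [hc, hc, D9_eq h3 hs hp, N9]
    simp only [map_mul, map_pow, map_add, aeval_X, map_ofNat]
    exact jq_tH9 K

end Fermat.Agent.P2.helper66
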