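import Mathlib
import Fermat.Agent.P2.helper66_TameInst
import Fermat.Agent.P2.helper29_Interface
import Fermat.Agent.P2.helper81_ValScale
import Fermat.Agent.P2.helper28_CuspBar
import Fermat.Agent.S24.helper77_Finrank
import Fermat.Agent.S24.helper37_IndexGamma0

/-!
# P2-[TAME-BASE] (helper66, second prover): `helper29.TameBaseStatement M A` for good pairs

`tameBase : GoodPair M A → TameBaseStatement M A`, from `helper43.TameHyp.tame_abs` applied to
the Hauptmodul `t₄` (if `4 ∣ M`) resp. `t₉` (if `9 ∣ M`).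
-/

set_option autoImplicit false
set_option synthInstance.maxHeartbeats 400000
set_option maxHeartbeats 1000000
set_option linter.style.haveILetI false

noncomputable section

namespace Fermat.Agent.P2.helper66

open ModularCurve Polynomial IntermediateField AlgebraicCurve
open Fermat.Agent.S18.helper19 (Kb kA FF FFb)
open Fermat.Agent.P2.helper29 (PrimeToLevel GoodPair TameBaseStatement jBar)
open scoped Classical

variable {M : ℕ} [NeZero M] {A : ValuationSubring Kb}

/-- `[F̃_M : k(j̃)] = ψ(M)`. -/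
theorem finrank_jBar {ℓ : ℕ} (hℓ : ℓ.Prime) (hA : A.LiesOverPrime ℓ) (hℓM : ¬ ℓ ∣ M) :
    Module.finrank (kA A)⟮jBar A M⟯ (FFb A M) = dedekindPsi M := by
  haveI : Fact ℓ.Prime := ⟨hℓ⟩
  have h1 := helper81.finrank_xBar_eq_finrank_xJ (N := M) A hA hℓM
  have h2 := Fermat.Agent.S24.helper77.an_finrank M
  have h3 := Fermat.Agent.S24.helper37.index_Gamma0 M (NeZero.ne M)
  exact h1.trans (h2.trans h3)

theorem natCast_kA_ne_zero {ℓ : ℕ} (hℓ : ℓ.Prime) (hA : A.LiesOverPrime ℓ) (m : ℕ)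
    (hm : ¬ ℓ ∣ m) : ((m : ℕ) : kA A) ≠ 0 := by
  haveI : Fact ℓ.Prime := ⟨hℓ⟩
  exact helper81.natCast_residueField_ne_zero A hA m hm

/-- **[TAME-BASE]** at levels divisible by `4`. -/
theorem tameBase_four (hM : 4 ∣ M) (h : PrimeToLevel M A) : TameBaseStatement M A := by
  obtain ⟨ℓ, hℓ, hℓM, hA⟩ := h
  haveI : Fact ℓ.Prime := ⟨hℓ⟩
  have hℓ2 : ¬ ℓ ∣ 2 := fun h2 => hℓM (h2.trans ((by norm_num : 2 ∣ 4).trans hM))
  have h2 : (2 : kA A) ≠ 0 := by
    have := natCast_kA_ne_zero hℓ hA 2 hℓ2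
    exact_mod_cast this
  have H := tameHyp_four (K := kA A) (M := M) h2 hM
  haveI : FiniteDimensional (kA A)⟮jC (kA A) M⟯ (modularFunctionFieldFullC (kA A) M) :=
    helper81.finiteDimensional_xBar A hA M hℓM
  haveI : Algebra.IsSeparable (kA A)⟮jC (kA A) M⟯ (modularFunctionFieldFullC (kA A) M) :=
    helper81.isSeparable_xBar A hA M hℓM
  obtain ⟨htr, hfd, hsep, hpoles, hdeg⟩ := H.tame_abs
  refine ⟨t4C (kA A) M h2 hM, {0, -16}, htr, hfd, hsep, hpoles, ?_⟩
  have hcard : ({0, -16} : Finset (kA A)).card = 2 := by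
    apply Finset.card_pair
    intro h
    apply sixteen_ne_zero h2
    linear_combination h
  have hN : (N4 (kA A)).natDegree = 6 := by
    unfold N4
    compute_degree!
  have hfr := finrank_jBar (M := M) hℓ hA hℓM
  rw [hN] at hdeg
  rw [hcard]
  have hfr' : (Module.finrank (kA A)⟮jC (kA A) M⟯ (modularFunctionFieldFullC (kA A) M) : ℤ) =
      (dedekindPsi M : ℤ) := by
    exact_mod_cast hfr
  rw [← hfr', ← hdeg]
  push_cast
  ring

/-- **[TAME-BASE]** at levels divisible by `9`. -/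
theorem tameBase_nine (hM : 9 ∣ M) (h : PrimeToLevel M A) : TameBaseStatement M A := by
  obtain ⟨ℓ, hℓ, hℓM, hA⟩ := h
  haveI : Fact ℓ.Prime := ⟨hℓ⟩
  have hℓ3 : ¬ ℓ ∣ 3 := fun h3 => hℓM (h3.trans ((by norm_num : 3 ∣ 9).trans hM))
  have h3 : (3 : kA A) ≠ 0 := by
    have := natCast_kA_ne_zero hℓ hA 3 hℓ3
    exact_mod_cast this
  -- the roots of `X² + 9 X + 27`
  obtain ⟨a, ha⟩ : ∃ a : kA A, a ^ 2 + 9 * a + 27 = 0 := by
    have hdeg : (X ^ 2 + 9 * X + 27 : (kA A)[X]).degree ≠ 0 := by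
      have : (X ^ 2 + 9 * X + 27 : (kA A)[X]).degree = 2 := by compute_degree!
      rw [this]
      norm_num
    obtain ⟨a, ha⟩ := IsAlgClosed.exists_root (X ^ 2 + 9 * X + 27 : (kA A)[X]) hdeg
    refine ⟨a, ?_⟩
    simpa using ha
  have hs : a + (-9 - a) = -9 := by ring
  have hp : a * (-9 - a) = 27 := by linear_combination -ha
  have H := tameHyp_nine (K := kA A) (M := M) h3 hM hs hp
  haveI : FiniteDimensional (kA A)⟮jC (kA A) M⟯ (modularFunctionFieldFullC (kA A) M) :=
    helper81.finiteDimensional_xBar A hA M hℓM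
  haveI : Algebra.IsSeparable (kA A)⟮jC (kA A) M⟯ (modularFunctionFieldFullC (kA A) M) :=
    helper81.isSeparable_xBar A hA M hℓM
  obtain ⟨htr, hfd, hsep, hpoles, hdeg⟩ := H.tame_abs
  refine ⟨t9C (kA A) M h3 hM, {0, a, -9 - a}, htr, hfd, hsep, hpoles, ?_⟩
  have hcard : ({0, a, -9 - a} : Finset (kA A)).card = 3 := by
    have h0 : (0 : kA A) ∉ ({a, -9 - a} : Finset (kA A)) := by
      simp only [Finset.mem_insert, Finset.mem_singleton, not_or]
      exact ⟨fun h => nine_a_ne_zero h3 hs hp h.symm, fun h => nine_b_ne_zero h3 hs hp h.symm⟩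
    rw [Finset.card_insert_of_notMem h0, Finset.card_pair (nine_a_ne_b h3 hs hp)]
  have hN : (N9 (kA A)).natDegree = 12 := by
    unfold N9
    compute_degree!
  have hfr := finrank_jBar (M := M) hℓ hA hℓM
  rw [hN] at hdeg
  rw [hcard]
  have hfr' : (Module.finrank (kA A)⟮jC (kA A) M⟯ (modularFunctionFieldFullC (kA A) M) : ℤ) =
      (dedekindPsi M : ℤ) := by
    exact_mod_cast hfr
  rw [← hfr', ← hdeg]
  push_cast
  ring

/-- **[TAME-BASE]** for good pairs. -/
theorem tameBase (h : GoodPair M A) : TameBaseStatement M A := by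
  rcases h.1 with h4 | h9
  · exact tameBase_four h4 h.2
  · exact tameBase_nine h9 h.2

end Fermat.Agent.P2.helper66
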