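import Mathlib
import Fermat.Agent.P2.helper29_Infty
import Fermat.Agent.P2.helper29_Assembly
import Fermat.Agent.P2.helper96_Gen
import Fermat.Agent.P2.helper74_InjPivot

/-!
# P2-[INJ-1] (helper74): the ideal step `IdealStepStatement M A m`

A function `h ≡ 1` whose divisor is `m D` can be changed by an `m`-th power `g ^ m`, `g ≡ 1`,
into a function regular off infinity.

Route: `Q₀ ∈ L(n₀ ∞ + D)` scaled to a unit of the Gauss valuation; the reduction of the lattice
of `Q₀ L(n ∞ - D) ⊆ L((n + n₀) ∞)` is `Q̃₀ L̃(n ∞̃)` by a dimension count (genus equality), hence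
contains `Q̃₀`.
-/

set_option autoImplicit false
set_option synthInstance.maxHeartbeats 200000

noncomputable section

open HahnSeries IntermediateField AlgebraicCurve ModularCurve
open Fermat.Agent.S18.helper19 Fermat.Agent.P2.helper29

namespace Fermat.Agent.P2.helper74

section GenericL

variable {K F : Type*} [Field K] [Field F] [Algebra K F]

theorem mem_L_mul {D₁ D₂ : Divisor K F} {f₁ f₂ : F} (h₁ : f₁ ∈ riemannRochSpace D₁)
    (h₂ : f₂ ∈ riemannRochSpace D₂) : f₁ * f₂ ∈ riemannRochSpace (D₁ + D₂) := by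
  rcases eq_or_ne f₁ 0 with rfl | h10
  · rw [zero_mul]; exact Submodule.zero_mem _
  rcases eq_or_ne f₂ 0 with rfl | h20
  · rw [mul_zero]; exact Submodule.zero_mem _
  rw [mem_L_iff' (mul_ne_zero h10 h20)]
  intro v
  have e1 := (mem_L_iff' h10).mp h₁ v
  have e2 := (mem_L_iff' h20).mp h₂ v
  rw [v.ord_mul h10 h20, Finsupp.add_apply]
  omega

theorem one_mem_L_zero : (1 : F) ∈ riemannRochSpace (0 : Divisor K F) := by
  rw [mem_L_iff' one_ne_zero]
  intro v
  rw [Place.ord_one]
  simp

theorem mem_L_pow {D : Divisor K F} {f : F} (h : f ∈ riemannRochSpace D) (m : ℕ) :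
    f ^ m ∈ riemannRochSpace (m • D) := by
  induction m with
  | zero =>
    rw [pow_zero, zero_smul]
    exact one_mem_L_zero
  | succ m ih =>
    rw [pow_succ, succ_nsmul]
    exact mem_L_mul ih h

theorem mem_L_of_ord_eq {z : F} (hz : z ≠ 0) {Z : Divisor K F} (hZ : ∀ v, Z v = -v.ord z) :
    z ∈ riemannRochSpace Z := by
  rw [mem_L_iff' hz]
  intro v
  rw [hZ]
  omega

end GenericL

section MulLin

variable {K : Type*} [Field K]

/-- multiplication by a fixed Laurent series, as a linear map -/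
def mulLin (y : LaurentSeries K) : LaurentSeries K →ₗ[K] LaurentSeries K where
  toFun x := x * y
  map_add' a b := add_mul a b y
  map_smul' c x := by
    show (c • x) * y = c • (x * y)
    rw [← HahnSeries.C_mul_eq_smul, ← HahnSeries.C_mul_eq_smul, mul_assoc]

@[simp] theorem mulLin_apply (y x : LaurentSeries K) : mulLin y x = x * y := rfl

theorem mulLin_injective {y : LaurentSeries K} (hy : y ≠ 0) : Function.Injective (mulLin y) :=
  fun _ _ h => mul_right_cancel₀ hy h

end MulLin

section Modular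

variable {M : ℕ} [NeZero M] {A : ValuationSubring Kb}

omit [NeZero M] in
theorem isGood_pow' {Y : LaurentSeries A} (h : IsGood A M Y) (k : ℕ) : IsGood A M (Y ^ k) := by
  induction k with
  | zero => rw [pow_zero]; exact isGood_one
  | succ k ih => rw [pow_succ]; exact IsGood.mul ih h

set_option maxHeartbeats 4000000 in
/-- **[INJ-1]** the ideal step. -/
theorem idealStepStatement_of (m : ℕ) (hm : m ≠ 0)
    (hSc : ScaleStatement M A) (hInt : IntegralityStatement M A) (hUE : RegRedStatement M A)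
    (hSb : RiemannSetting (kA A) (FFb A M)) (hGen : GenusEqStatement M A) :
    IdealStepStatement M A m := by
  classical
  intro h hh hh0 hdiv hred
  obtain ⟨g, hg, hgb⟩ := hGen
  have hS : RiemannSetting Kb (FF M) := helper96.riemannSetting_FF M
  have hmpos : 0 < m := Nat.pos_of_ne_zero hm
  have hmZ : (m : ℤ) ≠ 0 := by exact_mod_cast hm
  set P : Place Kb (FF M) := inftyBar M with hPdef
  have hP : IsInfty P := isInfty_inftyBar M
  set Q : Place (kA A) (FFb A M) := inftyC (kA A) M with hQdef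
  have hQ : IsInfty Q := isInfty_inftyC (kA A) M
  -- `h` as an element of `F`
  set hE : FF M := ⟨h, hh⟩ with hEdef
  have hE0 : hE ≠ 0 := fun e => hh0 (congrArg Subtype.val e)
  obtain ⟨Z, hZ, hZdeg⟩ := hS.principal.exists_divisor hE hE0
  have hZm : ∀ v, (m : ℤ) ∣ Z v := fun v => by rw [hZ]; exact hdiv hh v
  -- `D = Z / m`
  set D : Divisor Kb (FF M) := Z.mapRange (fun z => z / (m : ℤ)) (by simp) with hDdef
  have hDv : ∀ v, (m : ℤ) * D v = Z v := fun v => by
    rw [hDdef, Finsupp.mapRange_apply (hf := by simp)]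
    exact Int.mul_ediv_cancel' (hZm v)
  have hmD : m • D = Z := by
    ext v
    rw [Finsupp.smul_apply, nsmul_eq_mul]
    exact hDv v
  have hDdeg : Divisor.degree D = 0 := by
    have h1 : m • Divisor.degree D = 0 := by rw [← map_nsmul, hmD, hZdeg]
    rw [nsmul_eq_mul] at h1
    rcases mul_eq_zero.mp h1 with h2 | h2
    · exact absurd h2 hmZ
    · exact h2
  -- the multiplier `Q₀`
  set E₀ : Divisor Kb (FF M) := Finsupp.single P (g : ℤ) + D with hE₀def
  have hE₀deg : Divisor.degree E₀ = g := by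
    rw [hE₀def, map_add, Divisor.degree_single, hS.deg_one, hDdeg]
    simp
  have hE₀pos : 0 < ell E₀ := by
    have h1 := hg.1 E₀
    rw [hE₀deg] at h1
    have : (0 : ℤ) < ell E₀ := by linarith
    exact_mod_cast this
  obtain ⟨Q₀, hQ₀0, hQ₀⟩ := exists_ne_zero_of_ell_pos hE₀pos
  have hQ₀L0 : (Q₀ : LaurentSeries Kb) ≠ 0 := fun e => hQ₀0 (Subtype.ext e)
  obtain ⟨c, Y₁', Y₂', hc, hY₁', hY₂', hsc⟩ := hSc (Q₀ : LaurentSeries Kb) Q₀.2 hQ₀L0
  set Q₁ : FF M := algebraMap Kb (FF M) c⁻¹ * Q₀ with hQ₁def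
  have hQ₁ : Q₁ ∈ riemannRochSpace E₀ := by
    rw [hQ₁def, ← Algebra.smul_def]
    exact Submodule.smul_mem _ _ hQ₀
  have hQ₁0 : Q₁ ≠ 0 :=
    mul_ne_zero (by rw [Ne, map_eq_zero]; exact inv_ne_zero hc) hQ₀0
  set q₁ : LaurentSeries Kb := (Q₁ : LaurentSeries Kb) with hq₁def
  have hq₁0 : q₁ ≠ 0 := fun e => hQ₁0 (Subtype.ext e)
  have hq₁ : q₁ = algebraMap Kb (LaurentSeries Kb) c⁻¹ * (Q₀ : LaurentSeries Kb) := rfl
  have hsc' : incl A Y₁' = q₁ * incl A Y₂' := by
    have h1 : algebraMap Kb (LaurentSeries Kb) c⁻¹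
        * (algebraMap Kb (LaurentSeries Kb) c * incl A Y₁') = incl A Y₁' := by
      rw [← mul_assoc, ← map_mul, inv_mul_cancel₀ hc, map_one, one_mul]
    rw [← h1, hsc, hq₁]
    ring
  -- the reduction of `Q₁`
  set qb : LaurentSeries (kA A) := red A Y₁' * (red A Y₂')⁻¹ with hqbdef
  have hqb0 : qb ≠ 0 := mul_ne_zero hY₁'.2.2 (inv_ne_zero hY₂'.2.2)
  have hqbmem : qb ∈ FFb A M := (FFb A M).mul_mem hY₁'.2.1 ((FFb A M).inv_mem hY₂'.2.1)
  have hqbmul : qb * red A Y₂' = red A Y₁' := by
    rw [hqbdef, mul_assoc, inv_mul_cancel₀ hY₂'.2.2, mul_one]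
  obtain ⟨Y₁, Y₂, hY₁, hY₂, h12, hr12⟩ := hred
  -- `R = Q₁ ^ m * h`
  have hRmem : Q₁ ^ m * hE ∈ riemannRochSpace (Finsupp.single P ((m : ℤ) * g)) := by
    have h1 := mem_L_mul (mem_L_pow hQ₁ m)
      (mem_L_of_ord_eq hE0 (Z := -Z) (fun v => by rw [Finsupp.neg_apply, hZ]))
    have h2 : m • E₀ + -Z = Finsupp.single P ((m : ℤ) * g) := by
      ext v
      have := hDv v
      simp only [hE₀def, Finsupp.add_apply, Finsupp.smul_apply, Finsupp.neg_apply, nsmul_eq_mul,
        Finsupp.single_apply]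
      split_ifs <;> linarith
    rwa [h2] at h1
  set R : LaurentSeries Kb := q₁ ^ m * h with hRdef
  have hRL : InL (FF M) ((m : ℤ) * g) R :=
    (helper96.inL_iff_mem_L hP _ R).mpr ⟨(Q₁ ^ m * hE).2, hRmem⟩
  have hRW : IsWInt A M R := by
    refine ⟨Y₁' ^ m * Y₁, Y₂' ^ m * Y₂, ?_, ?_, ?_⟩
    · rw [map_mul, map_pow]
      exact (FF M).mul_mem ((FF M).pow_mem hY₁'.1 m) hY₁.1
    · exact IsGood.mul (isGood_pow' hY₂' m) hY₂
    · rw [map_mul, map_pow, map_mul, map_pow, hsc', h12, hRdef]
      ring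
  obtain ⟨YR, hYR⟩ := hInt _ R hRL hRW
  have hYRmul : YR * (Y₂' ^ m * Y₂) = Y₁' ^ m * Y₁ := by
    apply coeffMap_subtype_injective A
    rw [map_mul]
    show incl A YR * incl A (Y₂' ^ m * Y₂) = incl A (Y₁' ^ m * Y₁)
    rw [hYR, map_mul, map_pow, map_mul, map_pow, hsc', h12, hRdef]
    ring
  have hYRred : red A YR = qb ^ m := by
    have h1 := congrArg (red A) hYRmul
    rw [map_mul, map_mul, map_mul, map_pow, map_pow, hr12, ← hqbmul, mul_pow] at h1
    have h2 : red A Y₂' ^ m * red A Y₂ ≠ 0 :=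
      mul_ne_zero (pow_ne_zero m hY₂'.2.2) hY₂.2.2
    have h3 : red A YR * (red A Y₂' ^ m * red A Y₂) = qb ^ m * (red A Y₂' ^ m * red A Y₂) := by
      rw [h1]
      ring
    exact mul_right_cancel₀ h2 h3
  have hYRgood : IsGood A M YR := by
    refine ⟨?_, ?_, ?_⟩
    · show incl A YR ∈ FF M
      rw [hYR]
      exact hRL.1
    · show red A YR ∈ FFb A M
      rw [hYRred]
      exact (FFb A M).pow_mem hqbmem m
    · show red A YR ≠ 0
      rw [hYRred]
      exact pow_ne_zero m hqb0
  -- the choice of `n`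
  obtain ⟨c, hc⟩ := hg.2
  obtain ⟨cb, hcb⟩ := helper96.exists_finrank_LSub hSb hgb Q
  set n : ℤ := max (max c cb) 0 with hndef
  have hn0 : 0 ≤ n := le_max_right _ _
  have hnc : c ≤ n := le_trans (le_max_left _ _) (le_max_left _ _)
  have hncb : cb ≤ n := le_trans (le_max_right _ _) (le_max_left _ _)
  set En : Divisor Kb (FF M) := Finsupp.single P n - D with hEndef
  have hEndeg : Divisor.degree En = n := by
    rw [hEndef, map_sub, Divisor.degree_single, hS.deg_one, hDdeg]
    simp
  have hell : (ell En : ℤ) + g = n + 1 := by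
    have := hc En (by rw [hEndeg]; exact hnc)
    rw [hEndeg] at this
    exact this
  have hfrQ : (Module.finrank (kA A) (helper96.LSub Q n) : ℤ) + g = n + 1 := hcb n hncb
  -- the space `V = Q₁ L(n ∞ - D)`
  set T : FF M →ₗ[Kb] LaurentSeries Kb :=
    (helper96.valLin (FF M)).comp (LinearMap.mulLeft Kb Q₁) with hTdef
  have hTinj : Function.Injective T := by
    intro x y hxy
    have h1 : Q₁ * x = Q₁ * y := helper96.valLin_injective hxy
    exact mul_left_cancel₀ hQ₁0 h1
  have hTapply : ∀ x : FF M, T x = q₁ * (x : LaurentSeries Kb) := fun x => rfl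
  set V : Submodule Kb (LaurentSeries Kb) := (riemannRochSpace En).map T with hVdef
  have hVrank : Module.finrank Kb V = ell En :=
    (Submodule.equivMapOfInjective T hTinj _).finrank_eq.symm
  have hsum : E₀ + En = Finsupp.single P (n + g) := by
    rw [hE₀def, hEndef, add_comm n (g : ℤ), Finsupp.single_add]
    abel
  have hVle : V ≤ helper96.LSub P (n + g) := by
    rintro _ ⟨x, hx, rfl⟩
    have h1 := mem_L_mul hQ₁ hx
    rw [hsum] at h1
    exact ⟨Q₁ * x, h1, rfl⟩
  have hVL : ∀ u ∈ V, InL (FF M) (n + g) u := fun u hu =>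
    (helper96.mem_LSub_iff hP _ u).mp (hVle hu)
  have hfinL : Module.Finite Kb (helper96.LSub P (n + g)) := helper96.finite_LSub hS P _
  have hVfin : FiniteDimensional Kb V := Submodule.finiteDimensional_of_le hVle
  -- the key computation
  have key : ∀ X : LaurentSeries A, incl A X ∈ V →
      InL (FFb A M) n (red A X * qb⁻¹) ∧
        InL (FF M) ((m : ℤ) * n) ((incl A X * q₁⁻¹) ^ m * h⁻¹) := by
    intro X hX
    obtain ⟨x, hx, hxX⟩ := hX
    rw [hTapply] at hxX
    have hxq : incl A X * q₁⁻¹ = (x : LaurentSeries Kb) := by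
      rw [← hxX, mul_comm q₁, mul_assoc, mul_inv_cancel₀ hq₁0, mul_one]
    -- `u = x ^ m / h`
    have humem : x ^ m * hE⁻¹ ∈ riemannRochSpace (Finsupp.single P ((m : ℤ) * n)) := by
      have h1 := mem_L_mul (mem_L_pow hx m)
        (mem_L_of_ord_eq (inv_ne_zero hE0) (Z := Z)
          (fun v => by rw [Place.ord_inv, hZ, neg_neg]))
      have h2 : m • En + Z = Finsupp.single P ((m : ℤ) * n) := by
        ext v
        have := hDv v
        simp only [hEndef, Finsupp.add_apply, Finsupp.smul_apply, Finsupp.sub_apply,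
          nsmul_eq_mul, Finsupp.single_apply]
        split_ifs <;> linarith
      rwa [h2] at h1
    set u : LaurentSeries Kb := (x : LaurentSeries Kb) ^ m * h⁻¹ with hudef
    have huL : InL (FF M) ((m : ℤ) * n) u :=
      (helper96.inL_iff_mem_L hP _ u).mpr ⟨(x ^ m * hE⁻¹).2, humem⟩
    have hXm : incl A (X ^ m) = u * incl A YR := by
      rw [map_pow, ← hxX, hYR, hudef, hRdef, mul_pow]
      field_simp
    have huW : IsWInt A M u := by
      refine ⟨X ^ m, YR, ?_, hYRgood, hXm⟩
      rw [hXm]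
      exact (FF M).mul_mem huL.1 hYRgood.1
    obtain ⟨U, hU⟩ := hInt _ u huL huW
    have hXU : X ^ m = U * YR := by
      apply coeffMap_subtype_injective A
      rw [map_mul]
      show incl A (X ^ m) = incl A U * incl A YR
      rw [hXm, hU]
    have hUL : InL (FFb A M) ((m : ℤ) * n) (red A U) := hUE _ U (by rw [hU]; exact huL)
    have hXred : (red A X * qb⁻¹) ^ m = red A U := by
      have h1 := congrArg (red A) hXU
      rw [map_pow, map_mul, hYRred] at h1
      rw [mul_pow, h1, inv_pow, mul_assoc, mul_inv_cancel₀ (pow_ne_zero m hqb0), mul_one]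
    have hXmem : red A X ∈ FFb A M := by
      have h1 : InL (FF M) (n + g) (incl A X) := hVL _ ⟨x, hx, by rw [hTapply]; exact hxX⟩
      exact (hUE _ X h1).1
    refine ⟨InL.of_pow ((FFb A M).mul_mem hXmem ((FFb A M).inv_mem hqbmem)) hmpos ?_, ?_⟩
    · rw [hXred]
      exact hUL
    · rw [hxq]
      exact huL
  -- integral basis of `V`
  obtain ⟨G, hGV, -, -, hGred⟩ := exists_integral_basis A (IsLocalRing.residue A)
    helper96.isUnit_of_residue_ne_zero V
    (fun u hu hu0 => helper96.exists_scaled hSc hInt hP (n + g) u (hVle hu) hu0)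
  have hli : LinearIndependent (kA A) (fun i => red A (G i)) :=
    linearIndependent_coeffMap_of_forall A _ IsLocalRing.residue_surjective G hGred
  have hli' : LinearIndependent (kA A) (fun i => red A (G i) * qb⁻¹) :=
    hli.map' (mulLin qb⁻¹) (LinearMap.ker_eq_bot.mpr (mulLin_injective (inv_ne_zero hqb0)))
  have hmem : ∀ i, red A (G i) * qb⁻¹ ∈ helper96.LSub Q n := fun i =>
    (helper96.mem_LSub_iff hQ n _).mpr (key (G i) (hGV i)).1
  have hfinQ : Module.Finite (kA A) (helper96.LSub Q n) := helper96.finite_LSub hSb Q n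
  have hcard : Module.finrank Kb V = Module.finrank (kA A) (helper96.LSub Q n) := by
    have : (Module.finrank Kb V : ℤ) = Module.finrank (kA A) (helper96.LSub Q n) := by
      rw [hVrank]
      linarith
    exact_mod_cast this
  have hspan : Submodule.span (kA A) (Set.range fun i => red A (G i) * qb⁻¹)
      = helper96.LSub Q n := by
    apply Submodule.eq_of_le_of_finrank_eq
      (Submodule.span_le.mpr (by rintro _ ⟨i, rfl⟩; exact hmem i))
    rw [finrank_span_eq_card hli', Fintype.card_fin, hcard]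
  have h1mem : (1 : LaurentSeries (kA A)) ∈
      Submodule.span (kA A) (Set.range fun i => red A (G i) * qb⁻¹) := by
    rw [hspan]
    exact (helper96.mem_LSub_iff hQ n 1).mpr (InL.mono inL_one hn0)
  obtain ⟨cf, hcf⟩ := (Submodule.mem_span_range_iff_exists_fun _).mp h1mem
  choose a ha using fun i => IsLocalRing.residue_surjective (cf i)
  set X : LaurentSeries A := ∑ i, a i • G i with hXdef
  have hXV : incl A X ∈ V := by
    rw [hXdef]
    show coeffMap A.subtype (∑ i, a i • G i) ∈ V
    rw [coeffMap_subtype_sum]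
    exact Submodule.sum_mem _ (fun i _ => Submodule.smul_mem _ _ (hGV i))
  have hXred : red A X = qb := by
    have h1 : red A X = ∑ i, cf i • red A (G i) := by
      rw [hXdef, map_sum]
      refine Finset.sum_congr rfl fun i _ => ?_
      ext k
      simp [ha]
    have h2 : (∑ i, cf i • red A (G i)) * qb⁻¹ = 1 := by
      rw [← hcf, Finset.sum_mul]
      refine Finset.sum_congr rfl fun i _ => ?_
      exact (mulLin qb⁻¹).map_smul (cf i) (red A (G i))
    rw [h1]
    calc (∑ i, cf i • red A (G i))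
        = (∑ i, cf i • red A (G i)) * qb⁻¹ * qb := by
          rw [mul_assoc, inv_mul_cancel₀ hqb0, mul_one]
      _ = qb := by rw [h2, one_mul]
  -- conclusion
  have hXF : incl A X ∈ FF M := (hVL _ hXV).1
  have hX0 : incl A X ≠ 0 := by
    intro h0
    have h1 : X = 0 := coeffMap_subtype_injective A (h0.trans (map_zero _).symm)
    rw [h1, map_zero] at hXred
    exact hqb0 hXred.symm
  have hXgood : IsGood A M X := by
    refine ⟨hXF, ?_, ?_⟩
    · show red A X ∈ FFb A M
      rw [hXred]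
      exact hqbmem
    · show red A X ≠ 0
      rw [hXred]
      exact hqb0
  refine ⟨incl A X * q₁⁻¹, (FF M).mul_mem hXF ((FF M).inv_mem Q₁.2),
    mul_ne_zero hX0 (inv_ne_zero hq₁0), ?_, (m : ℤ) * n, (key X hXV).2⟩
  refine ⟨X * Y₂', Y₁', IsGood.mul hXgood hY₂', hY₁', ?_, ?_⟩
  · rw [map_mul, hsc']
    field_simp
  · rw [map_mul, hXred, hqbmul]

end Modular

end Fermat.Agent.P2.helper74

end
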