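import Mathlib
import Fermat.Agent.P2.helper74_IdealStep
import Fermat.Agent.P2.helper95_FFlInst

/-!
# P2-[INJ-1] (helper74): `IdealStepStatement M A m` from the valuation dictionary and genus
equality, for every `m` (the `RiemannSetting` of the special fibre field is discharged by
`helper95.riemannSetting_FFb`).
-/

set_option autoImplicit false
set_option synthInstance.maxHeartbeats 200000

noncomputable section

open HahnSeries IntermediateField AlgebraicCurve ModularCurve
open Fermat.Agent.S18.helper19 Fermat.Agent.P2.helper29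

namespace Fermat.Agent.P2.helper74

variable (M : ℕ) [NeZero M] (A : ValuationSubring Kb)

/-- the case `m = 0` of the ideal step -/
theorem idealStepStatement_zero : IdealStepStatement M A 0 := by
  intro h hh hh0 hdiv _
  refine ⟨1, (FF M).one_mem, one_ne_zero, isRedOne_one, 0, ?_⟩
  rw [pow_zero, one_mul]
  have hE0 : (⟨h, hh⟩ : FF M) ≠ 0 := fun e => hh0 (congrArg Subtype.val e)
  have hord : ∀ P : Place Kb (FF M), P.ord (⟨h, hh⟩ : FF M) = 0 := fun P => by
    have := hdiv hh P
    simpa using this
  have hinv : (⟨h⁻¹, (FF M).inv_mem hh⟩ : FF M) = (⟨h, hh⟩ : FF M)⁻¹ := rfl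
  refine ⟨(FF M).inv_mem hh, fun P _ => ?_, ?_⟩
  · rw [hinv, Place.ord_inv, hord]
    simp
  · have h1 := isInfty_inftyBar M (⟨h, hh⟩ : FF M)⁻¹ (inv_ne_zero hE0)
    rw [Place.ord_inv, hord, neg_zero] at h1
    have h2 : (h⁻¹ : LaurentSeries Kb).order = 0 := h1.symm
    rw [coeff_eq_zero_iff_le_order (inv_ne_zero hh0), h2]
    simp

/-- **[INJ-1]** the ideal step, from the valuation dictionary and genus equality. -/
theorem idealStepStatement (m : ℕ)
    (hSc : ScaleStatement M A) (hInt : IntegralityStatement M A) (hUE : RegRedStatement M A)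
    (hGen : GenusEqStatement M A) : IdealStepStatement M A m := by
  rcases Nat.eq_zero_or_pos m with rfl | hm
  · exact idealStepStatement_zero M A
  · exact idealStepStatement_of m hm.ne' hSc hInt hUE
      (Fermat.Agent.P2.helper95.riemannSetting_FFb M A) hGen

end Fermat.Agent.P2.helper74

end
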