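import Mathlib
import Fermat.Agent.P2.helper77_GenusFormula2
import Fermat.Agent.P2.helper18_DiscSideEq

/-!
# P2-[RH-EQ0-ASM] (helper77), final wiring: `GenusFormulaStatement M` UNCONDITIONAL

`helper18.disc_side_eq` (landed) is exactly `DiscSideEqStatement`; together with
`helper39.IsReducedBasis.inv` (wired in `helper77_GenusFormula2`) this gives

* `discSideEqStatement`   : `DiscSideEqStatement k F` for `k` algebraically closed of char. `0`;
* `hurwitz_eq_uncond`     : the Hurwitz EQUALITY in Riemann-genus form (char. `0`, tame);
* `genusFormulaStatement` : `helper29.GenusFormulaStatement M` for every `M ≠ 0`.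
-/

set_option autoImplicit false

namespace Fermat.Agent.P2.helper77

open AlgebraicCurve IntermediateField ModularCurve
open Fermat.Agent.S24 Fermat.Agent.S18.helper19

/-- **(H18)** is `helper18.disc_side_eq`. -/
theorem discSideEqStatement (k F : Type*) [Field k] [Field F] [Algebra k F] [IsAlgClosed k]
    [CharZero k] : DiscSideEqStatement k F := by
  intro t ht _ _ hs _ _ m w u d huw C Z hZ Zinf hZinf hunr
  have h := helper18.disc_side_eq (k := k) (F := F) t ht hs w u d huw C Z hZ Zinf hZinf hunr
  simpa [Fintype.card_fin] using h

/-- Hurwitz equality in Riemann-genus form, characteristic `0`, unconditional: for `t`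
transcendental with `F / k(t)` finite, `g` the Riemann genus and `B` a finite set of values
outside of which all zeros of `t - a` are simple. -/
theorem hurwitz_eq_uncond {k F : Type*} [Field k] [Field F] [Algebra k F] [IsAlgClosed k]
    [CharZero k] (t : F) (ht : Transcendental k t) [FiniteDimensional k⟮t⟯ F]
    (g : ℕ) (hg : helper74.HasRiemannGenus k F g) (B : Finset k)
    (hunr : ∀ (w : Place k F) (a : k), a ∉ B → 0 < w.ord (t - algebraMap k F a) →
      w.ord (t - algebraMap k F a) = 1) :
    2 * (g : ℤ) - 2 + 2 * (Module.finrank k⟮t⟯ F : ℤ)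
      = ∑ a ∈ B, ((Module.finrank k⟮t⟯ F : ℤ)
            - (Nat.card {w : Place k F // 0 < w.ord (t - algebraMap k F a)} : ℤ))
        + ((Module.finrank k⟮t⟯ F : ℤ) - (Nat.card {w : Place k F // w.ord t < 0} : ℤ)) :=
  hurwitz_eq_of_discSideEq (discSideEqStatement k F) t ht g hg B hunr

/-- **[RH-EQ0]**, unconditional: the Riemann genus of the function field of `X₀(M)` is the
classical genus formula. -/
theorem genusFormulaStatement (M : ℕ) [NeZero M] : helper29.GenusFormulaStatement M :=
  genusFormulaStatement_of_discSideEq M (discSideEqStatement Kb (FF M))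

end Fermat.Agent.P2.helper77
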