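import Mathlib
import Fermat.Agent.P2.helper81_ValConv
import Fermat.Agent.P2.helper28_CuspBar
import Fermat.Agent.P2.helper29_Infty

set_option autoImplicit false
set_option linter.style.haveILetI false
set_option linter.unusedSectionVars false
set_option synthInstance.maxHeartbeats 400000

open ModularCurve Polynomial

noncomputable section

namespace Fermat.Agent.P2.helper81

open Fermat.Agent.S24 Fermat.Agent.S28

section Generic

variable {N : ℕ} [NeZero N] (D : Fermat.Agent.S28.helper81.ConjData N) (S : Subring ℂ)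
  {k : Type} [Field k] (r : S →+* k)
  (hζ : Fermat.Agent.S28.helper81.zetaC N ∈ S) (hN : (N : ℂ)⁻¹ ∈ S)
  (hr : Function.Surjective r)

/-- polynomial expressions in `(j, Θ)` with coefficients in `S`, as elements of `GS` -/
def psiGS : Polynomial (Polynomial S) →+* helper28.GSr D S :=
  eval₂RingHom (eval₂RingHom (helper28.constGS D S) (helper28.JS D S hζ hN))
    (helper28.ThS D S hζ hN)

theorem Eb_comp_inner (i : D.I) :
    (helper28.Eb D S r i).comp
        (eval₂RingHom (helper28.constGS D S) (helper28.JS D S hζ hN)) =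
      (helper28.phik k N).comp (Polynomial.mapRingHom r) := by
  apply Polynomial.ringHom_ext
  · intro c
    simp only [RingHom.comp_apply, coe_eval₂RingHom, eval₂_C, coe_mapRingHom, map_C,
      RingHom.coe_coe, aeval_C]
    rw [helper28.Eb_constGS, helper93.algebraMap_laurent_eq_C]
  · simp only [RingHom.comp_apply, coe_eval₂RingHom, eval₂_X, coe_mapRingHom, map_X,
      RingHom.coe_coe, aeval_X]
    exact helper28.Eb_JS D S r hζ hN i

theorem Eb_psiGS (i : D.I) (P : Polynomial (Polynomial S)) :
    helper28.Eb D S r i (psiGS D S hζ hN P) =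
      eval₂ (helper28.phik k N) (helper28.Eb D S r i (helper28.ThS D S hζ hN))
        (P.map (Polynomial.mapRingHom r)) := by
  have h : (helper28.Eb D S r i).comp (psiGS D S hζ hN) =
      (eval₂RingHom (helper28.phik k N)
        (helper28.Eb D S r i (helper28.ThS D S hζ hN))).comp
        (Polynomial.mapRingHom (Polynomial.mapRingHom r)) := by
    apply Polynomial.ringHom_ext
    · intro p
      simp only [RingHom.comp_apply, psiGS, coe_eval₂RingHom, eval₂_C, coe_mapRingHom, map_C]
      exact RingHom.congr_fun (Eb_comp_inner D S r hζ hN i) p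
    · simp only [RingHom.comp_apply, psiGS, coe_eval₂RingHom, eval₂_X, coe_mapRingHom, map_X]
  exact RingHom.congr_fun h P

theorem coe_psiGS (P : Polynomial (Polynomial S)) :
    ((psiGS D S hζ hN P : helper28.GSr D S) : D.G) =
      eval₂ ((aeval D.J : Polynomial ℂ →ₐ[ℂ] D.G) : Polynomial ℂ →+* D.G) (D.Jd N)
        (P.map (Polynomial.mapRingHom S.subtype)) := by
  have h : (helper28.GSr D S).subtype.comp (psiGS D S hζ hN) =
      (eval₂RingHom ((aeval D.J : Polynomial ℂ →ₐ[ℂ] D.G) : Polynomial ℂ →+* D.G)
        (D.Jd N)).comp (Polynomial.mapRingHom (Polynomial.mapRingHom S.subtype)) := by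
    apply Polynomial.ringHom_ext
    · intro p
      simp only [RingHom.comp_apply, psiGS, coe_eval₂RingHom, eval₂_C, coe_mapRingHom, map_C]
      have h2 : (helper28.GSr D S).subtype.comp
          (eval₂RingHom (helper28.constGS D S) (helper28.JS D S hζ hN)) =
          ((aeval D.J : Polynomial ℂ →ₐ[ℂ] D.G) : Polynomial ℂ →+* D.G).comp
            (Polynomial.mapRingHom S.subtype) := by
        apply Polynomial.ringHom_ext
        · intro c
          simp only [RingHom.comp_apply, coe_eval₂RingHom, eval₂_C, coe_mapRingHom, map_C,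
            RingHom.coe_coe, aeval_C]
          rfl
        · simp only [RingHom.comp_apply, coe_eval₂RingHom, eval₂_X, coe_mapRingHom, map_X,
            RingHom.coe_coe, aeval_X]
          rfl
      exact RingHom.congr_fun h2 p
    · simp only [RingHom.comp_apply, psiGS, coe_eval₂RingHom, eval₂_X, coe_mapRingHom, map_X]
      rfl
  exact RingHom.congr_fun h P

theorem sigma_comp_aeval_jb (i : D.I) :
    (helper28.sigma D S r hζ hN hr i).comp
        ((aeval (helper28.jb k N) : Polynomial k →ₐ[k] helper28.FbT k N) :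
          Polynomial k →+* helper28.FbT k N) = helper28.phik k N := by
  apply Polynomial.ringHom_ext
  · intro c
    simp only [RingHom.comp_apply, RingHom.coe_coe, aeval_C]
    rw [helper28.sigma_algebraMap, helper93.algebraMap_laurent_eq_C]
  · simp only [RingHom.comp_apply, RingHom.coe_coe, aeval_X]
    exact helper28.sigma_jBar D S r hζ hN hr i

theorem sigma_evF (i : D.I) (Q : Polynomial (Polynomial k)) :
    helper28.sigma D S r hζ hN hr i (helper28.evF k N Q) =
      eval₂ (helper28.phik k N) (helper28.Eb D S r i (helper28.ThS D S hζ hN)) Q := by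
  rw [helper28.evF, Polynomial.hom_eval₂, sigma_comp_aeval_jb, helper28.sigma_thetaBar]

/-- the coset embedding of a polynomial expression is the reduced expansion of the
corresponding element of `GS` -/
theorem sigma_evF_map (i : D.I) (P : Polynomial (Polynomial S)) :
    helper28.sigma D S r hζ hN hr i
        (helper28.evF k N (P.map (Polynomial.mapRingHom r))) =
      helper28.Eb D S r i (psiGS D S hζ hN P) := by
  rw [sigma_evF, Eb_psiGS]


/-! ### The derivative of the characteristic polynomial at every coset -/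

theorem eval₂_derivative_PSb_eq_prod (i : D.I) :
    eval₂ (helper28.phik k N) (helper28.Eb D S r i (helper28.ThS D S hζ hN))
        (derivative (helper28.PSb D S r hζ hN)) =
      ∏ j ∈ Finset.univ.erase i,
        (helper28.Eb D S r i (helper28.ThS D S hζ hN) -
          helper28.Eb D S r j (helper28.ThS D S hζ hN)) := by
  classical
  rw [← Polynomial.eval_map, ← Polynomial.derivative_map, ← helper28.prod_Eb_ThS,
    Polynomial.derivative_prod_finset, Polynomial.eval_finsetSum]
  rw [Finset.sum_eq_single i]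
  · simp [Polynomial.eval_prod]
  · intro b _ hb
    rw [Polynomial.eval_mul, Polynomial.eval_prod]
    rw [Finset.prod_eq_zero (i := i) (Finset.mem_erase.mpr ⟨hb.symm, Finset.mem_univ _⟩)
      (by simp), zero_mul]
  · intro h
    exact absurd (Finset.mem_univ _) h

theorem order_prod_field {ι : Type*} (s : Finset ι) (f : ι → LaurentSeries k)
    (hf : ∀ b ∈ s, f b ≠ 0) :
    (∏ b ∈ s, f b) ≠ 0 ∧ (∏ b ∈ s, f b).order = ∑ b ∈ s, (f b).order := by
  classical
  induction s using Finset.induction_on with
  | empty => simp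
  | insert a s ha ih =>
    have iha := ih (fun b hb => hf b (Finset.mem_insert_of_mem hb))
    have hfa := hf a (Finset.mem_insert_self a s)
    rw [Finset.prod_insert ha, Finset.sum_insert ha]
    exact ⟨mul_ne_zero hfa iha.1, by rw [helper29.order_mul_field hfa iha.1, iha.2]⟩

include hN in
/-- the differences of the conjugates of `Θ` have the same order in every characteristic -/
theorem order_Eb_sub {i j : D.I} (hij : i ≠ j) :
    (helper28.Eb D S r i (helper28.ThS D S hζ hN) -
        helper28.Eb D S r j (helper28.ThS D S hζ hN)) ≠ 0 ∧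
    (helper28.Eb D S r i (helper28.ThS D S hζ hN) -
        helper28.Eb D S r j (helper28.ThS D S hζ hN)).order =
      -(((max (D.a i) (D.a j) : ℕ) : ℤ) ^ 2) := by
  set x := helper28.Eb D S r i (helper28.ThS D S hζ hN) with hx
  set y := helper28.Eb D S r j (helper28.ThS D S hζ hN) with hy
  have key : ∀ n : ℤ, (x - y).coeff n ≠ 0 → (∀ m < n, (x - y).coeff m = 0) →
      (x - y) ≠ 0 ∧ (x - y).order = n := by
    intro n h1 h2
    refine ⟨fun h0 => h1 (by rw [h0]; rfl), ?_⟩
    exact Fermat.Agent.S28.helper81.order_eq_of_coeff _ _ h1 h2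
  have hsq : ∀ a b : ℕ, a < b → -((b : ℤ) ^ 2) < -((a : ℤ) ^ 2) := by
    intro a b hab
    have h1 : (a : ℤ) < b := by exact_mod_cast hab
    have h0 : (0 : ℤ) ≤ a := by positivity
    nlinarith
  rcases lt_trichotomy (D.a i) (D.a j) with h | h | h
  · -- `a i < a j`
    rw [max_eq_right h.le]
    apply key
    · rw [HahnSeries.coeff_sub, helper28.Eb_ThS_coeff_low D S r hζ hN i _ (hsq _ _ h),
        helper28.Eb_ThS_coeff_lead, zero_sub, neg_ne_zero]
      exact helper28.r_zeta_pow_ne_zero S r hζ _
    · intro m hm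
      rw [HahnSeries.coeff_sub, helper28.Eb_ThS_coeff_low D S r hζ hN j m hm,
        helper28.Eb_ThS_coeff_low D S r hζ hN i m (hm.trans (hsq _ _ h)), sub_zero]
  · -- `a i = a j`
    rw [h, max_self]
    apply key
    · rw [HahnSeries.coeff_sub, helper28.Eb_ThS_coeff_lead]
      have h1 := helper28.Eb_ThS_coeff_lead D S r hζ hN i
      rw [h] at h1
      rw [h1, sub_ne_zero]
      have hne' : (helper28.zetaS S hζ) ^ D.m i ≠ (helper28.zetaS S hζ) ^ D.m j := by
        intro heq
        apply hij
        apply D.hm i j h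
        have := congrArg Subtype.val heq
        simpa [helper28.zetaS] using this
      refine helper93.map_ne_map_of_pow_eq_one r N
        (helper28.natCast_ne_zero_residue S r hN) ?_ ?_ hne'
      · rw [← pow_mul, mul_comm, pow_mul, helper28.zetaS_pow, one_pow]
      · rw [← pow_mul, mul_comm, pow_mul, helper28.zetaS_pow, one_pow]
    · intro m hm
      have hm' : m < -((D.a i : ℤ) ^ 2) := by rw [h]; exact hm
      rw [HahnSeries.coeff_sub, helper28.Eb_ThS_coeff_low D S r hζ hN j m hm,
        helper28.Eb_ThS_coeff_low D S r hζ hN i m hm', sub_zero]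
  · -- `a j < a i`
    rw [max_eq_left h.le]
    apply key
    · rw [HahnSeries.coeff_sub, helper28.Eb_ThS_coeff_low D S r hζ hN j _ (hsq _ _ h),
        helper28.Eb_ThS_coeff_lead, sub_zero]
      exact helper28.r_zeta_pow_ne_zero S r hζ _
    · intro m hm
      rw [HahnSeries.coeff_sub, helper28.Eb_ThS_coeff_low D S r hζ hN i m hm,
        helper28.Eb_ThS_coeff_low D S r hζ hN j m (hm.trans (hsq _ _ h)), sub_zero]

/-- the order of the different at the coset `i` (the same in every characteristic) -/
def nD (i : D.I) : ℤ :=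
  ∑ j ∈ Finset.univ.erase i, -(((max (D.a i) (D.a j) : ℕ) : ℤ) ^ 2)

include hN in
theorem order_eval₂_derivative_PSb (i : D.I) :
    eval₂ (helper28.phik k N) (helper28.Eb D S r i (helper28.ThS D S hζ hN))
        (derivative (helper28.PSb D S r hζ hN)) ≠ 0 ∧
    (eval₂ (helper28.phik k N) (helper28.Eb D S r i (helper28.ThS D S hζ hN))
        (derivative (helper28.PSb D S r hζ hN))).order = nD D i := by
  classical
  rw [eval₂_derivative_PSb_eq_prod]
  have h := order_prod_field (Finset.univ.erase i)
    (fun j => helper28.Eb D S r i (helper28.ThS D S hζ hN) -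
      helper28.Eb D S r j (helper28.ThS D S hζ hN))
    (fun j hj => (order_Eb_sub D S r hζ hN (Finset.mem_erase.mp hj).1.symm).1)
  refine ⟨h.1, ?_⟩
  rw [h.2, nD]
  apply Finset.sum_congr rfl
  intro j hj
  exact (order_Eb_sub D S r hζ hN (Finset.mem_erase.mp hj).1.symm).2

end Generic

/-! ### Laurent series: valuation, order and coefficients -/

section LaurentVal

open WithZero

variable {k : Type*} [Field k]

theorem valued_le_one_iff (x : LaurentSeries k) :
    (Valued.v x : ℤᵐ⁰) ≤ 1 ↔ ∀ n : ℤ, n < 0 → x.coeff n = 0 := by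
  have h := LaurentSeries.valuation_le_iff_coeff_lt_eq_zero k (D := 0) (f := x)
  rw [neg_zero, WithZero.exp_zero] at h
  exact h

theorem order_nonneg_of_coeff {x : LaurentSeries k} (h : ∀ n : ℤ, n < 0 → x.coeff n = 0) :
    0 ≤ x.order := by
  rcases eq_or_ne x 0 with rfl | hx
  · simp
  by_contra hlt
  exact (HahnSeries.coeff_order_eq_zero.not.mpr hx) (h _ (not_le.mp hlt))

theorem order_le_of_coeff_low {x : LaurentSeries k} (hx : x ≠ 0) {n : ℤ}
    (h : ∀ m : ℤ, m < n → x.coeff m = 0) : n ≤ x.order := by
  by_contra hlt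
  exact (HahnSeries.coeff_order_eq_zero.not.mpr hx) (h _ (not_le.mp hlt))

end LaurentVal

/-! ### The places `W i` and the coset embeddings -/

section Dict

open AlgebraicCurve WithZero

variable {N : ℕ} [NeZero N] (D : Fermat.Agent.S28.helper81.ConjData N) (S : Subring ℂ)
  {k : Type} [Field k] (r : S →+* k)
  (hζ : Fermat.Agent.S28.helper81.zetaC N ∈ S) (hN : (N : ℂ)⁻¹ ∈ S)
  (hr : Function.Surjective r)
variable (W : D.I → Place k (helper28.FbT k N))
  (h7 : ∀ i, (W i).toValuationSubring =
    ((Valued.v : Valuation (LaurentSeries k) ℤᵐ⁰).comap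
      (helper28.sigma D S r hζ hN hr i)).valuationSubring)

include h7 in
theorem mem_W_iff (i : D.I) (f : helper28.FbT k N) :
    f ∈ (W i).toValuationSubring ↔
      ∀ n : ℤ, n < 0 → (helper28.sigma D S r hζ hN hr i f).coeff n = 0 := by
  rw [h7 i, Valuation.mem_valuationSubring_iff, Valuation.comap_apply, valued_le_one_iff]

include h7 in
theorem ord_W_nonneg_iff (i : D.I) (f : helper28.FbT k N) :
    0 ≤ (W i).ord f ↔
      ∀ n : ℤ, n < 0 → (helper28.sigma D S r hζ hN hr i f).coeff n = 0 := by
  rw [← mem_W_iff D S r hζ hN hr W h7 i f]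
  exact (helper95.place_mem_iff_ord_nonneg (W i)).symm

/-- the test function `Θ̄ · j̄^(-N)`, of `q`-order `0` -/
def testF (k : Type) [Field k] (N : ℕ) [NeZero N] : helper28.FbT k N :=
  helper28.thetaBar k N * (helper28.tb k N) ^ N

theorem coe_tb : ((helper28.tb k N : helper28.FbT k N) : LaurentSeries k) = (jqModC k)⁻¹ := rfl

theorem testF_ne_zero : testF k N ≠ 0 := by
  have h1 : helper28.thetaBar k N ≠ 0 := by
    intro h0
    have h2 : ((helper28.thetaBar k N : helper28.FbT k N) : LaurentSeries k) = 0 := by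
      rw [h0]; rfl
    have h3 := Fermat.Agent.S28.helper81.order_qExpand_jqModC k N
    have h4 : qExpand k N (jqModC k) = 0 := h2
    rw [h4, HahnSeries.order_zero] at h3
    have hNpos : (0 : ℤ) < N := by exact_mod_cast Nat.pos_of_ne_zero (NeZero.ne N)
    omega
  have h2 : helper28.tb k N ≠ 0 := by
    rw [helper28.tb]
    apply inv_ne_zero
    intro h0
    have h3 : ((helper28.jb k N : helper28.FbT k N) : LaurentSeries k) = 0 := by
      rw [h0]; rfl
    have h4 : jqModC k = 0 := h3
    have h5 := helper29.order_jqModC (K := k)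
    rw [h4, HahnSeries.order_zero] at h5
    omega
  exact mul_ne_zero h1 (pow_ne_zero _ h2)

theorem order_coe_testF : ((testF k N : helper28.FbT k N) : LaurentSeries k).order = 0 := by
  have h0 : ((testF k N : helper28.FbT k N) : LaurentSeries k) =
      qExpand k N (jqModC k) * ((jqModC k)⁻¹) ^ N := rfl
  have hj : jqModC k ≠ 0 := by
    intro h4
    have h5 := helper29.order_jqModC (K := k)
    rw [h4, HahnSeries.order_zero] at h5
    omega
  have hq : qExpand k N (jqModC k) ≠ 0 := by
    intro h4
    have h3 := Fermat.Agent.S28.helper81.order_qExpand_jqModC k N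
    rw [h4, HahnSeries.order_zero] at h3
    have hNpos : (0 : ℤ) < N := by exact_mod_cast Nat.pos_of_ne_zero (NeZero.ne N)
    omega
  rw [h0, helper29.order_mul_field hq (pow_ne_zero _ (inv_ne_zero hj)), HahnSeries.order_pow,
    helper29.order_inv_field, helper29.order_jqModC,
    Fermat.Agent.S28.helper81.order_qExpand_jqModC]
  simp

include hN in
theorem order_sigma_testF (i : D.I) :
    (helper28.sigma D S r hζ hN hr i (testF k N)).order =
      -((D.a i : ℤ) ^ 2) + (N : ℤ) * N := by
  have hq : qExpand k N (jqModC k) ≠ 0 := by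
    intro h4
    have h3 := Fermat.Agent.S28.helper81.order_qExpand_jqModC k N
    rw [h4, HahnSeries.order_zero] at h3
    have hNpos : (0 : ℤ) < N := by exact_mod_cast Nat.pos_of_ne_zero (NeZero.ne N)
    omega
  have hΘ : helper28.Eb D S r i (helper28.ThS D S hζ hN) ≠ 0 := by
    intro h0
    have h1 := helper28.Eb_ThS_coeff_lead D S r hζ hN i
    rw [h0] at h1
    exact helper28.r_zeta_pow_ne_zero S r hζ _ (h1.symm.trans (by simp))
  rw [testF, map_mul, map_pow, helper28.sigma_thetaBar, helper28.sigma_tb,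
    helper29.order_mul_field hΘ (pow_ne_zero _ (inv_ne_zero hq)), HahnSeries.order_pow,
    helper29.order_inv_field, helper28.Eb_ThS_order,
    Fermat.Agent.S28.helper81.order_qExpand_jqModC]
  simp

include h7 hN in
/-- only the identity coset induces the place at infinity -/
theorem eq_i₀_of_isInfty (i : D.I) (hi : helper29.IsInfty (W i)) : i = D.i₀ := by
  have hf0 : testF k N ≠ 0 := testF_ne_zero
  have h1 : (W i).ord (testF k N) = 0 := by
    rw [hi (testF k N) hf0, order_coe_testF]
  have h2 : (W i).ord (testF k N)⁻¹ = 0 := by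
    rw [Place.ord_inv, h1, neg_zero]
  have h3 := (ord_W_nonneg_iff D S r hζ hN hr W h7 i (testF k N)).mp h1.ge
  have h4 := (ord_W_nonneg_iff D S r hζ hN hr W h7 i (testF k N)⁻¹).mp h2.ge
  have h5 := order_nonneg_of_coeff h3
  have h6 := order_nonneg_of_coeff h4
  rw [map_inv₀, helper29.order_inv_field] at h6
  have h8 := order_sigma_testF D S r hζ hN hr i
  have h9 : ((D.a i : ℤ)) ^ 2 = (N : ℤ) * N := by omega
  have h10 : (D.a i) ^ 2 = N ^ 2 := by
    have : ((D.a i : ℤ)) ^ 2 = ((N : ℤ)) ^ 2 := by rw [h9]; ring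
    exact_mod_cast this
  exact D.ha₀ i (Nat.pow_left_injective (by norm_num) h10)

include h7 hN in
theorem isInfty_W_i₀
    (h2 : ∀ w : Place k (helper28.FbT k N), 0 < w.ord (helper28.tb k N) → ∃ i, W i = w) :
    helper29.IsInfty (W D.i₀) := by
  have hQ := helper29.isInfty_inftyC k N
  have htb0 : helper28.tb k N ≠ 0 := by
    intro h0
    have h1 : ((helper28.tb k N : helper28.FbT k N) : LaurentSeries k) = 0 := by
      rw [h0]; rfl
    have h3 := helper29.order_jInvC k N
    have h4 : ((helper29.jInvC k N : modularFunctionFieldFullC k N) : LaurentSeries k) = 0 := h1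
    rw [h4, HahnSeries.order_zero] at h3
    omega
  have h1 : 0 < (helper29.inftyC k N).ord (helper28.tb k N) := by
    rw [hQ (helper28.tb k N) htb0]
    have h3 := helper29.order_jInvC k N
    have h4 : ((helper28.tb k N : helper28.FbT k N) : LaurentSeries k).order = 1 := h3
    omega
  obtain ⟨i, hi⟩ := h2 _ h1
  have hi' : helper29.IsInfty (W i) := by rw [hi]; exact hQ
  have := eq_i₀_of_isInfty D S r hζ hN hr W h7 i hi'
  rw [← this]
  exact hi'

include h7 hN in
/-- **regularity off infinity in terms of the coset expansions** -/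
theorem coeff_sigma_of_regular (i : D.I) (hi : i ≠ D.i₀) (f : helper28.FbT k N)
    (hf : ∀ P : Place k (helper28.FbT k N), ¬ helper29.IsInfty P → 0 ≤ P.ord f) :
    ∀ n : ℤ, n < 0 → (helper28.sigma D S r hζ hN hr i f).coeff n = 0 :=
  (ord_W_nonneg_iff D S r hζ hN hr W h7 i f).mp
    (hf (W i) (fun h => hi (eq_i₀_of_isInfty D S r hζ hN hr W h7 i h)))

end Dict

/-! ### The coefficient rings `ι(A) ⊆ ι(ℚ̄) ⊆ ℂ` -/

section Coeff

/-- the image of `ℚ̄` in `ℂ` -/
def SK : Subring ℂ := (helper28.iotaK).range

/-- `ℚ̄ ≃ ι(ℚ̄)` -/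
def eSK : Kbar ≃+* SK :=
  RingEquiv.ofBijective (helper28.iotaK).rangeRestrict
    ⟨fun _ _ h => (helper28.iotaK).injective (congrArg Subtype.val h),
      (helper28.iotaK).rangeRestrict_surjective⟩

theorem coe_eSK (a : Kbar) : ((eSK a : SK) : ℂ) = helper28.iotaK a := rfl

/-- the "reduction" map in characteristic `0` -/
def rK : SK →+* Kbar := (eSK.symm : SK →+* Kbar)

theorem rK_surjective : Function.Surjective rK := eSK.symm.surjective

theorem rK_injective : Function.Injective rK := eSK.symm.injective

theorem rK_eSK (a : Kbar) : rK (eSK a) = a := eSK.symm_apply_apply a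

variable (A : ValuationSubring Kbar)

theorem SA_le_SK : helper28.SA A ≤ SK := by
  rintro x ⟨a, -, rfl⟩
  exact ⟨a, rfl⟩

theorem zetaC_mem_SK (M : ℕ) [NeZero M] : Fermat.Agent.S28.helper81.zetaC M ∈ SK :=
  SA_le_SK ⊤ (helper28.zetaC_mem_SA ⊤ M)

theorem natCast_inv_mem_SK (M : ℕ) : ((M : ℂ))⁻¹ ∈ SK :=
  ⟨((M : Kbar))⁻¹, by simp⟩

/-- `A → ι(A)` -/
def eA : A →+* helper28.SA A := (helper28.eSA A).toRingHom

/-- `A → ι(ℚ̄)` -/
def eKA : A →+* SK := (eSK : Kbar →+* SK).comp A.subtype

theorem rA_comp_eA : (helper28.rA A).comp (eA A) = IsLocalRing.residue A := by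
  ext a
  show IsLocalRing.residue A ((helper28.eSA A).symm (helper28.eSA A a)) = _
  rw [RingEquiv.symm_apply_apply]

theorem rK_comp_eKA : rK.comp (eKA A) = A.subtype := by
  ext a
  exact rK_eSK _

theorem subtype_comp_eA :
    (helper28.SA A).subtype.comp (eA A) = SK.subtype.comp (eKA A) := by
  ext a
  rfl

end Coeff

/-! ### Identification of the characteristic polynomials -/

section Ident

open AlgebraicCurve

variable (A : ValuationSubring Kbar) {ℓ : ℕ} [Fact ℓ.Prime] (hA : A.LiesOverPrime ℓ)
variable (M : ℕ) [NeZero M] (hℓM : ¬ ℓ ∣ M)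

/-- **(I)** the two descriptions of the function field in characteristic `0` agree -/
theorem ff_eq_fullC : modularFunctionFieldBar M = modularFunctionFieldFullC Kbar M := by
  apply le_antisymm
  · rw [modularFunctionFieldBar_eq_adjoin_pair, IntermediateField.adjoin_le_iff]
    rintro y (rfl | rfl)
    · exact jqModC_mem_full Kbar M
    · exact jqModCd_mem_full Kbar M dvd_rfl
  · rw [modularFunctionFieldFullC, IntermediateField.adjoin_le_iff]
    rintro x ⟨d, hne, hdvd, rfl⟩
    haveI := hne
    rw [← helper17.Jd_eq]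
    exact Jd_mem M d hdvd

theorem coe_evF {k : Type} [Field k] (N : ℕ) [NeZero N] (Q : Polynomial (Polynomial k)) :
    ((helper28.evF k N Q : helper28.FbT k N) : LaurentSeries k) =
      ev₂ (jqModC k) (qExpand k N (jqModC k)) Q :=
  algHom_ev₂ (modularFunctionFieldFullC k N).val (helper28.jb k N) (helper28.thetaBar k N) Q

/-- the characteristic polynomial of `Θ̄` in characteristic `ℓ` -/
abbrev PSbA : Polynomial (Polynomial (kA A)) :=
  helper28.PSb (helper28.conjX M) (helper28.SA A) (helper28.rA A) (helper28.zetaC_mem_SA A M)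
    (helper28.natCast_inv_mem_SA A (Fact.out : ℓ.Prime) hA M hℓM)

/-- the characteristic polynomial of `Θ` in characteristic `0` -/
abbrev PSbK : Polynomial (Polynomial Kbar) :=
  helper28.PSb (helper28.conjX M) SK rK (zetaC_mem_SK M) (natCast_inv_mem_SK M)

theorem PSbA_eq_phiBar : PSbA A hA M hℓM = phiBar A hA M hℓM := by
  have hPm : (PSbA A hA M hℓM).Monic := helper28.PSb_monic _ _ _ _ _
  have hPirr : Irreducible (PSbA A hA M hℓM) :=
    helper28.PS_irreducible _ _ (helper28.rA A) _ _ (helper28.rA_surjective A)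
  have hP0 : ev₂ (jBar A) (thetaBar A M) (PSbA A hA M hℓM) = 0 := by
    have h := coe_evF (k := kA A) M (PSbA A hA M hℓM)
    rw [helper28.evF_PSb] at h
    exact h.symm
  have hdvd : phiBar A hA M hℓM ∣ PSbA A hA M hℓM :=
    dvd_of_ev₂_eq_zero (jBar A) (thetaBar A M) (transcendental_jBar A) _
      (phiBar_monic A hA M hℓM) (phiBar_irreducible A hA M hℓM) (phiBar_root A hA M hℓM) _ hP0
  exact (Polynomial.eq_of_monic_of_associated (phiBar_monic A hA M hℓM) hPm
    ((phiBar_irreducible A hA M hℓM).associated_of_dvd hPirr hdvd)).symm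

include hA hℓM in
theorem card_conjX : Fintype.card (helper28.conjX M).I = degN M := by
  rw [← helper28.PSb_natDegree (helper28.conjX M) (helper28.SA A) (helper28.rA A)
    (helper28.zetaC_mem_SA A M) (helper28.natCast_inv_mem_SA A (Fact.out : ℓ.Prime) hA M hℓM)]
  have h := congrArg Polynomial.natDegree (PSbA_eq_phiBar A hA M hℓM)
  rw [phiBar_natDegree] at h
  exact h

theorem PSbK_eq :
    PSbK M = (PhiA A M hA hℓM).map (Polynomial.mapRingHom A.subtype) := by
  have hPm : (PSbK M).Monic := helper28.PSb_monic _ _ _ _ _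
  have hPirr : Irreducible (PSbK M) :=
    helper28.PS_irreducible _ _ rK _ _ rK_surjective
  have hP0 : ev₂ jK (thetaK M) (PSbK M) = 0 := by
    have h := coe_evF (k := Kbar) M (PSbK M)
    rw [helper28.evF_PSb] at h
    exact h.symm
  have hΦm : ((PhiA A M hA hℓM).map (Polynomial.mapRingHom A.subtype)).Monic :=
    (PhiA_monic A M hA hℓM).map _
  have hΦ0 : ev₂ jK (thetaK M) ((PhiA A M hA hℓM).map (Polynomial.mapRingHom A.subtype)) = 0 := by
    have h := congrArg (coeffMap A.subtype) (PhiA_root A M hA hℓM)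
    rw [ev₂_apply, helper25.coeffMap_eval₂_aeval, map_zero, ModularCurve.coeffMap_qExpand,
      ModularCurve.coeffMap_jqModC] at h
    exact h
  have hdvd : PSbK M ∣ (PhiA A M hA hℓM).map (Polynomial.mapRingHom A.subtype) :=
    dvd_of_ev₂_eq_zero jK (thetaK M) transcendental_jK _ hPm hPirr hP0 _ hΦ0
  have hdeg : (PSbK M).natDegree ≤
      ((PhiA A M hA hℓM).map (Polynomial.mapRingHom A.subtype)).natDegree := by
    rw [(PhiA_monic A M hA hℓM).natDegree_map, PhiA_natDegree, helper28.PSb_natDegree,
      card_conjX A hA M hℓM]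
  exact Polynomial.eq_of_monic_of_dvd_of_natDegree_le hΦm hPm (by
    -- `Φ_K ∣ PSbK` from `PSbK ∣ Φ_K` and equal degrees
    obtain ⟨Q, hQ⟩ := hdvd
    have hQm : Q.Monic := hPm.of_mul_monic_left (hQ ▸ hΦm)
    have hQdeg : Q.natDegree = 0 := by
      have h1 := congrArg Polynomial.natDegree hQ
      rw [hPm.natDegree_mul hQm, (PhiA_monic A M hA hℓM).natDegree_map, PhiA_natDegree,
        helper28.PSb_natDegree, card_conjX A hA M hℓM] at h1
      omega
    have hQ1 : Q = 1 := Polynomial.eq_one_of_monic_natDegree_zero hQm hQdeg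
    rw [hQ, hQ1, mul_one]) hdeg

end Ident

/-! ### The cusp side of `[VAL-UE]` -/

section Main

open AlgebraicCurve

variable (A : ValuationSubring Kbar) {ℓ : ℕ} [Fact ℓ.Prime] (hA : A.LiesOverPrime ℓ)
variable (M : ℕ) [NeZero M] (hℓM : ¬ ℓ ∣ M)

/-- coefficient transfer from characteristic `0` to characteristic `ℓ` -/
theorem coeff_EbA_eq_zero (g₁ : helper28.GSr (helper28.conjX M) (helper28.SA A))
    (g₂ : helper28.GSr (helper28.conjX M) SK)
    (h : (g₁ : (helper28.conjX M).G) = g₂) (i : (helper28.conjX M).I) (n : ℤ)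
    (h0 : (helper28.Eb (helper28.conjX M) SK rK i g₂).coeff n = 0) :
    (helper28.Eb (helper28.conjX M) (helper28.SA A) (helper28.rA A) i g₁).coeff n = 0 := by
  apply helper93.Ebar_coeff_eq_zero
  rw [h, ← helper93.ES_coeff]
  rw [helper93.Ebar_coeff] at h0
  have h1 : (helper93.ES (helper28.conjX M).E SK i g₂).coeff n = 0 :=
    rK_injective (by rw [h0, map_zero])
  rw [h1]
  rfl

theorem coe_psiGS_eq (G : Polynomial (Polynomial A)) :
    ((psiGS (helper28.conjX M) (helper28.SA A) (helper28.zetaC_mem_SA A M)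
        (helper28.natCast_inv_mem_SA A (Fact.out : ℓ.Prime) hA M hℓM)
        (G.map (Polynomial.mapRingHom (eA A))) :
        helper28.GSr (helper28.conjX M) (helper28.SA A)) : (helper28.conjX M).G) =
      ((psiGS (helper28.conjX M) SK (zetaC_mem_SK M) (natCast_inv_mem_SK M)
        (G.map (Polynomial.mapRingHom (eKA A))) :
        helper28.GSr (helper28.conjX M) SK) : (helper28.conjX M).G) := by
  rw [coe_psiGS, coe_psiGS, Fermat.Agent.S28.helper81.map_mapRingHom_comp,
    Fermat.Agent.S28.helper81.map_mapRingHom_comp, subtype_comp_eA]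

include hA hℓM in
/-- **the coset expansions of the reduction have no negative powers** -/
theorem coeff_sigmaA_of_inL (n : ℤ) (Y : LaurentSeries A)
    (hInL : helper29.InL (modularFunctionFieldBar M) n (coeffMap A.subtype Y))
    (hmem : red A Y ∈ modularFunctionFieldFullC (kA A) M)
    (i : (helper28.conjX M).I) (hi : i ≠ (helper28.conjX M).i₀) :
    ∀ m : ℤ, m < 0 →
      (helper28.sigma (helper28.conjX M) (helper28.SA A) (helper28.rA A)
        (helper28.zetaC_mem_SA A M)
        (helper28.natCast_inv_mem_SA A (Fact.out : ℓ.Prime) hA M hℓM)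
        (helper28.rA_surjective A) i ⟨red A Y, hmem⟩).coeff m = 0 := by
  classical
  have hint := exists_monic_of_inL M n _ hInL
  obtain ⟨G, -, hG⟩ := exists_euler_of_incl A hA M hℓM Y hInL.1 hint
  -- abbreviations
  have hζA := helper28.zetaC_mem_SA A M
  have hNA := helper28.natCast_inv_mem_SA A (Fact.out : ℓ.Prime) hA M hℓM
  set σA := helper28.sigma (helper28.conjX M) (helper28.SA A) (helper28.rA A) hζA hNA
    (helper28.rA_surjective A) i with hσA
  set σK := helper28.sigma (helper28.conjX M) SK rK (zetaC_mem_SK M) (natCast_inv_mem_SK M)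
    rK_surjective i with hσK
  -- characteristic `0`
  have hInL' : helper29.InL (modularFunctionFieldFullC Kbar M) n (coeffMap A.subtype Y) :=
    ff_eq_fullC M ▸ hInL
  obtain ⟨hfK, hregK, -⟩ := hInL'
  set fK : helper28.FbT Kbar M := ⟨coeffMap A.subtype Y, hfK⟩ with hfKdef
  obtain ⟨WK, dK, -, -, -, -, -, -, h7K, -⟩ :=
    helper28.cusp_dictionary (helper28.conjX M) SK rK (zetaC_mem_SK M) (natCast_inv_mem_SK M) rK_surjective
      (helper28.permT M) (helper28.zetaU M) rfl (helper28.conjX_rot M)
  have hcK : ∀ m : ℤ, m < 0 → (σK fK).coeff m = 0 :=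
    coeff_sigma_of_regular (helper28.conjX M) SK rK (zetaC_mem_SK M) (natCast_inv_mem_SK M) rK_surjective
      WK h7K i hi fK hregK
  have hEK : helper28.evF Kbar M (G.map (Polynomial.mapRingHom A.subtype)) =
      fK * helper28.evF Kbar M (derivative (PSbK M)) := by
    apply Subtype.ext
    rw [MulMemClass.coe_mul, coe_evF, coe_evF, PSbK_eq A hA M hℓM, Polynomial.derivative_map]
    have h := congrArg (coeffMap A.subtype) hG
    rw [map_mul, deltaA, ev₂_apply, ev₂_apply, helper25.coeffMap_eval₂_aeval,
      helper25.coeffMap_eval₂_aeval, ModularCurve.coeffMap_qExpand,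
      ModularCurve.coeffMap_jqModC] at h
    exact h
  have hGK : G.map (Polynomial.mapRingHom A.subtype) =
      (G.map (Polynomial.mapRingHom (eKA A))).map (Polynomial.mapRingHom rK) := by
    rw [Fermat.Agent.S28.helper81.map_mapRingHom_comp, rK_comp_eKA]
  have h1K := congrArg σK hEK
  rw [map_mul, hGK, hσK, sigma_evF_map, sigma_evF] at h1K
  obtain ⟨hΔK0, hΔKord⟩ := order_eval₂_derivative_PSb (helper28.conjX M) SK rK (zetaC_mem_SK M)
    (natCast_inv_mem_SK M) i
  -- the coefficients of the numerator below `nD i` vanish in characteristic `0`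
  have hlowK : ∀ m : ℤ, m < nD (helper28.conjX M) i →
      (helper28.Eb (helper28.conjX M) SK rK i (psiGS (helper28.conjX M) SK (zetaC_mem_SK M) (natCast_inv_mem_SK M)
        (G.map (Polynomial.mapRingHom (eKA A))))).coeff m = 0 := by
    intro m hm
    rw [h1K]
    by_cases hf0 : σK fK = 0
    · rw [hσK] at hf0
      rw [hf0, zero_mul]
      rfl
    · apply HahnSeries.coeff_eq_zero_of_lt_order
      rw [← hσK, helper29.order_mul_field hf0 hΔK0, hΔKord]
      have := order_nonneg_of_coeff hcK
      omega
  -- transfer to characteristic `ℓ`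
  have hlowA : ∀ m : ℤ, m < nD (helper28.conjX M) i →
      (helper28.Eb (helper28.conjX M) (helper28.SA A) (helper28.rA A) i
        (psiGS (helper28.conjX M) (helper28.SA A) hζA hNA
          (G.map (Polynomial.mapRingHom (eA A))))).coeff m = 0 := fun m hm =>
    coeff_EbA_eq_zero A M _ _ (coe_psiGS_eq A hA M hℓM G) i m (hlowK m hm)
  -- characteristic `ℓ`
  set y : helper28.FbT (kA A) M := ⟨red A Y, hmem⟩ with hy
  have hEA : helper28.evF (kA A) M (G.map (Polynomial.mapRingHom (IsLocalRing.residue A))) =
      y * helper28.evF (kA A) M (derivative (PSbA A hA M hℓM)) := by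
    apply Subtype.ext
    rw [MulMemClass.coe_mul, coe_evF, coe_evF, PSbA_eq_phiBar A hA M hℓM,
      ← PhiA_map_residue A M hA hℓM, Polynomial.derivative_map]
    have h := congrArg (red A) hG
    rw [map_mul, deltaA, ev₂_apply, ev₂_apply, helper25.coeffMap_eval₂_aeval,
      helper25.coeffMap_eval₂_aeval, ModularCurve.coeffMap_qExpand,
      ModularCurve.coeffMap_jqModC] at h
    exact h
  have hGA : G.map (Polynomial.mapRingHom (IsLocalRing.residue A)) =
      (G.map (Polynomial.mapRingHom (eA A))).map (Polynomial.mapRingHom (helper28.rA A)) := by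
    rw [Fermat.Agent.S28.helper81.map_mapRingHom_comp, rA_comp_eA]
  have h1A := congrArg σA hEA
  rw [map_mul, hGA, hσA, sigma_evF_map, sigma_evF] at h1A
  obtain ⟨hΔA0, hΔAord⟩ := order_eval₂_derivative_PSb (helper28.conjX M) (helper28.SA A) (helper28.rA A)
    hζA hNA i
  intro m hm
  by_cases hy0 : σA y = 0
  · rw [hσA] at hy0
    rw [hy0]
    rfl
  · apply HahnSeries.coeff_eq_zero_of_lt_order
    have hB0 : helper28.Eb (helper28.conjX M) (helper28.SA A) (helper28.rA A) i
        (psiGS (helper28.conjX M) (helper28.SA A) hζA hNA (G.map (Polynomial.mapRingHom (eA A)))) ≠ 0 := by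
      rw [h1A]
      exact mul_ne_zero (by rw [← hσA]; exact hy0) hΔA0
    have hB := order_le_of_coeff_low hB0 hlowA
    rw [h1A, ← hσA, helper29.order_mul_field hy0 hΔA0, hΔAord] at hB
    omega

/-- **[VAL-UE], cusp side**: the reduction of an element of `L(n∞)` with integral
`q`-expansion is regular at every place over `j̄ = ∞` other than the place at infinity. -/
theorem cuspRegStatement (M : ℕ) [NeZero M] (A : ValuationSubring Kbar)
    (h : helper29.PrimeToLevel M A) : CuspRegStatement M A := by
  obtain ⟨ℓ, hℓ, hℓM, hA⟩ := h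
  haveI : Fact ℓ.Prime := ⟨hℓ⟩
  intro n Y hInL hmem P hP hInf
  obtain ⟨W, d, -, h2, -, -, -, -, h7, -⟩ :=
    helper28.cusp_dictionary (helper28.conjX M) (helper28.SA A) (helper28.rA A)
      (helper28.zetaC_mem_SA A M) (helper28.natCast_inv_mem_SA A hℓ hA M hℓM)
      (helper28.rA_surjective A) (helper28.permT M) (helper28.zetaU M) rfl
      (helper28.conjX_rot M)
  have hPtb : 0 < P.ord (helper28.tb (kA A) M) := by
    have h1 : P.ord (helper28.tb (kA A) M) = -P.ord (helper29.jBar A M) := by
      rw [helper28.tb, Place.ord_inv]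
      rfl
    omega
  obtain ⟨i, rfl⟩ := h2 P hPtb
  have hi : i ≠ (helper28.conjX M).i₀ := by
    rintro rfl
    exact hInf (isInfty_W_i₀ (helper28.conjX M) (helper28.SA A) (helper28.rA A)
      (helper28.zetaC_mem_SA A M) (helper28.natCast_inv_mem_SA A hℓ hA M hℓM)
      (helper28.rA_surjective A) W h7 h2)
  exact (ord_W_nonneg_iff (helper28.conjX M) (helper28.SA A) (helper28.rA A)
      (helper28.zetaC_mem_SA A M) (helper28.natCast_inv_mem_SA A hℓ hA M hℓM)
      (helper28.rA_surjective A) W h7 i ⟨red A Y, hmem⟩).mpr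
    (coeff_sigmaA_of_inL A hA M hℓM n Y hInL hmem i hi)

/-- **[VAL-UE]**, unconditional: `helper29.RegRedStatement`. -/
theorem regRedStatement (M : ℕ) [NeZero M] (A : ValuationSubring Kbar)
    (h : helper29.PrimeToLevel M A) : helper29.RegRedStatement M A :=
  regRedStatement_of M A h (cuspRegStatement M A h)

/-- the form consumed by `helper29.coreInj_of_cuspReg` -/
theorem cuspRegStatement_of_goodPair (M : ℕ) [NeZero M] (A : ValuationSubring Kbar)
    (h : helper29.GoodPair M A) : CuspRegStatement M A :=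
  cuspRegStatement M A h.2

end Main

end Fermat.Agent.P2.helper81
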