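import Mathlib

/-!
# P2 (helper93): Zariski connectedness in Čech form

Abstract commutative algebra.  `B` is a commutative ring ("functions on the overlap"), `R₀ R₁`
are two subrings ("functions on the two charts"), `p ∈ R₀ ∩ R₁` plays the role of a uniformiser
of the base discrete valuation ring `A₀ ⊆ R₀ ∩ R₁`.

* `exists_idem_lift`   : idempotents mod `p` lift to idempotents mod `p ^ k` (Newton iteration).
* `sub_mem_of_idem`    : two idempotents mod `p ^ k` which agree mod `p` agree mod `p ^ k`.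
* `cech_connected`     : if `H⁰ = R₀ ∩ R₁ = A₀` and the `p`-power torsion of
  `H¹ = B / (R₀ + R₁)` is killed by `p ^ c`, then the special fibre has no nontrivial idempotent:
  a pair `(h₀, h₁) ∈ R₀ × R₁`, idempotent mod `p`, with `h₀ ≡ h₁ mod p B`, is trivial mod `p`.
* `span_of_charts`, `bounded_torsion_of_fg` : finite generation of `H¹` for a two-chart cover
  of the line, and the resulting bound on its `p`-power torsion.
-/

set_option autoImplicit false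

namespace Fermat.Agent.P2.helper93

variable {B : Type*} [CommRing B]

/-- Newton iteration for idempotents: lifting an idempotent mod `p` to an idempotent mod `p ^ k`
inside a subring `S`. -/
theorem exists_idem_lift (S : Subring B) (p : B) (hp : p ∈ S) (h₀ : B) (hh₀ : h₀ ∈ S)
    (hid : ∃ r ∈ S, h₀ ^ 2 - h₀ = p * r) (k : ℕ) (hk : 1 ≤ k) :
    ∃ a ∈ S, (∃ r ∈ S, a - h₀ = p * r) ∧ ∃ r ∈ S, a ^ 2 - a = p ^ k * r := by
  induction k, hk using Nat.le_induction with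
  | base =>
    obtain ⟨r, hr, e⟩ := hid
    exact ⟨h₀, hh₀, ⟨0, S.zero_mem, by ring⟩, r, hr, by rw [pow_one]; exact e⟩
  | succ k hk ih =>
    obtain ⟨a, ha, ⟨r₁, hr₁, e₁⟩, r, hr, e⟩ := ih
    obtain ⟨j, rfl⟩ : ∃ j, k = j + 1 := ⟨k - 1, by omega⟩
    have h2 : (2 : B) ∈ S := by
      have : (2 : B) = 1 + 1 := by norm_num
      rw [this]; exact S.add_mem S.one_mem S.one_mem
    have h3 : (3 : B) ∈ S := by
      have : (3 : B) = 2 + 1 := by norm_num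
      rw [this]; exact S.add_mem h2 S.one_mem
    have h4 : (4 : B) ∈ S := by
      have : (4 : B) = 2 + 2 := by norm_num
      rw [this]; exact S.add_mem h2 h2
    refine ⟨3 * a ^ 2 - 2 * a ^ 3, ?_, ⟨r₁ + p ^ j * r * (1 - 2 * a), ?_, ?_⟩,
      p ^ j * r ^ 2 * (4 * a ^ 2 - 4 * a - 3), ?_, ?_⟩
    · exact S.sub_mem (S.mul_mem h3 (S.pow_mem ha 2)) (S.mul_mem h2 (S.pow_mem ha 3))
    · exact S.add_mem hr₁ (S.mul_mem (S.mul_mem (S.pow_mem hp j) hr)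
        (S.sub_mem S.one_mem (S.mul_mem h2 ha)))
    · have : 3 * a ^ 2 - 2 * a ^ 3 - h₀ = (a - h₀) + (a ^ 2 - a) * (1 - 2 * a) := by ring
      rw [this, e₁, e]; ring
    · exact S.mul_mem (S.mul_mem (S.pow_mem hp j) (S.pow_mem hr 2))
        (S.sub_mem (S.sub_mem (S.mul_mem h4 (S.pow_mem ha 2)) (S.mul_mem h4 ha)) h3)
    · have : (3 * a ^ 2 - 2 * a ^ 3) ^ 2 - (3 * a ^ 2 - 2 * a ^ 3) =
          (a ^ 2 - a) ^ 2 * (4 * a ^ 2 - 4 * a - 3) := by ring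
      rw [this, e]; ring

/-- Two idempotents mod `p ^ k` which are congruent mod `p` are congruent mod `p ^ k`
(all quotients taken inside a subring `S`). -/
theorem sub_mem_of_idem (S : Subring B) (p a b : B) (hp : p ∈ S) (ha' : a ∈ S) (hb' : b ∈ S)
    (k : ℕ) (hk : 1 ≤ k)
    (ha : ∃ r ∈ S, a ^ 2 - a = p ^ k * r) (hb : ∃ r ∈ S, b ^ 2 - b = p ^ k * r)
    (hab : ∃ r ∈ S, a - b = p * r) : ∃ r ∈ S, a - b = p ^ k * r := by
  obtain ⟨ε, hεS, hε⟩ := ha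
  obtain ⟨δ, hδS, hδ⟩ := hb
  have h3 : (3 : B) ∈ S := by
    have : (3 : B) = 1 + 1 + 1 := by norm_num
    rw [this]; exact S.add_mem (S.add_mem S.one_mem S.one_mem) S.one_mem
  have key : ∀ j, 1 ≤ j → j ≤ k → ∃ r ∈ S, a - b = p ^ j * r := by
    intro j hj
    induction j, hj using Nat.le_induction with
    | base => intro _; obtain ⟨r, hrS, hr⟩ := hab; exact ⟨r, hrS, by rw [pow_one]; exact hr⟩
    | succ j hj ih =>
      intro hjk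
      obtain ⟨r, hrS, hr⟩ := ih (by omega)
      obtain ⟨m, rfl⟩ : ∃ m, k = j + 1 + m := ⟨k - (j + 1), by omega⟩
      obtain ⟨i, rfl⟩ : ∃ i, j = i + 1 := ⟨j - 1, by omega⟩
      refine ⟨-(p ^ m * (ε * (1 + a - 3 * b) + δ * (3 * a - 1 - b))) + p ^ (2 * i + 1) * r ^ 3,
        ?_, ?_⟩
      · refine S.add_mem (S.neg_mem (S.mul_mem (S.pow_mem hp m) (S.add_mem ?_ ?_)))
          (S.mul_mem (S.pow_mem hp _) (S.pow_mem hrS 3))
        · exact S.mul_mem hεS (S.sub_mem (S.add_mem S.one_mem ha') (S.mul_mem h3 hb'))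
        · exact S.mul_mem hδS (S.sub_mem (S.sub_mem (S.mul_mem h3 ha') S.one_mem) hb')
      have e3 : (a - b) ^ 3 - (a - b) =
          (a ^ 2 - a) * (1 + a - 3 * b) + (b ^ 2 - b) * (3 * a - 1 - b) := by ring
      have e4 : a - b = -((a - b) ^ 3 - (a - b)) + (a - b) ^ 3 := by ring
      rw [e4, e3, hε, hδ]
      have e5 : (a - b) ^ 3 = p ^ (i + 1 + 1) * (p ^ (2 * i + 1) * r ^ 3) := by
        rw [hr]; ring
      rw [e5]
      ring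
  exact key k hk le_rfl

/-- cancellation of a power of a non-zero-divisor -/
theorem pow_mul_cancel (p : B) (hp : ∀ b : B, p * b = 0 → b = 0) (n : ℕ) {x y : B}
    (h : p ^ n * x = p ^ n * y) : x = y := by
  induction n with
  | zero => simpa using h
  | succ n ih =>
    apply ih
    have : p * (p ^ n * x - p ^ n * y) = 0 := by
      have e : p * (p ^ n * x - p ^ n * y) = p ^ (n + 1) * x - p ^ (n + 1) * y := by ring
      rw [e, h, sub_self]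
    exact sub_eq_zero.mp (hp _ this)

/-- **Zariski connectedness, Čech form.**  `A₀ ⊆ R₀ ∩ R₁` is a subring in which every element is
either divisible by `p ^ n` or of the form `unit * p ^ a` with `a < n`. -/
theorem cech_connected (A₀ R₀ R₁ Bs : Subring B) (p : B) (hpA : p ∈ A₀)
    (hA₀ : A₀ ≤ R₀) (hA₁ : A₀ ≤ R₁) (h0B : R₀ ≤ Bs) (h1B : R₁ ≤ Bs)
    (hp : ∀ b : B, p * b = 0 → b = 0)
    (hA : ∀ α ∈ A₀, ∀ n : ℕ, (∃ β ∈ A₀, α = p ^ n * β) ∨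
      ∃ a < n, ∃ u ∈ A₀, ∃ v ∈ A₀, u * v = 1 ∧ α = u * p ^ a)
    (hH0 : ∀ x, x ∈ R₀ → x ∈ R₁ → x ∈ A₀)
    (c : ℕ) (hH1 : ∀ β ∈ Bs, ∀ n : ℕ, (∃ r₀ ∈ R₀, ∃ r₁ ∈ R₁, p ^ n * β = r₀ + r₁) →
      ∃ r₀ ∈ R₀, ∃ r₁ ∈ R₁, p ^ c * β = r₀ + r₁)
    (h₀ h₁ : B) (hh₀ : h₀ ∈ R₀) (hh₁ : h₁ ∈ R₁)
    (hid₀ : ∃ r ∈ R₀, h₀ ^ 2 - h₀ = p * r)
    (hid₁ : ∃ r ∈ R₁, h₁ ^ 2 - h₁ = p * r)
    (hdiff : ∃ b ∈ Bs, h₀ - h₁ = p * b) :
    (∃ r ∈ R₀, h₀ = p * r) ∨ (∃ r ∈ R₀, 1 - h₀ = p * r) := by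
  have hp0 : p ∈ R₀ := hA₀ hpA
  have hp1 : p ∈ R₁ := hA₁ hpA
  set k := c + 1 with hk
  obtain ⟨a, ha, ⟨ra, hra, ea⟩, ρ, hρ, eρ⟩ := exists_idem_lift R₀ p hp0 h₀ hh₀ hid₀ k (by omega)
  obtain ⟨b, hb, ⟨rb, hrb, eb⟩, σ, hσ, eσ⟩ := exists_idem_lift R₁ p hp1 h₁ hh₁ hid₁ k (by omega)
  obtain ⟨d, hdB, hd⟩ := hdiff
  obtain ⟨β, hβB, hβ⟩ : ∃ β ∈ Bs, a - b = p ^ k * β := by
    refine sub_mem_of_idem Bs p a b (h0B hp0) (h0B ha) (h1B hb) k (by omega) ⟨ρ, h0B hρ, eρ⟩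
      ⟨σ, h1B hσ, eσ⟩ ⟨ra + d - rb, Bs.sub_mem (Bs.add_mem (h0B hra) hdB) (h1B hrb), ?_⟩
    have : a - b = (a - h₀) + (h₀ - h₁) - (b - h₁) := by ring
    rw [this, ea, hd, eb]; ring
  obtain ⟨r₀, hr₀, r₁, hr₁, e⟩ := hH1 β hβB k ⟨a, ha, -b, R₁.neg_mem hb, by rw [← hβ]; ring⟩
  -- the global section
  have hx0 : p ^ c * a - p ^ k * r₀ ∈ R₀ :=
    R₀.sub_mem (R₀.mul_mem (R₀.pow_mem hp0 c) ha) (R₀.mul_mem (R₀.pow_mem hp0 k) hr₀)
  have hx1 : p ^ c * a - p ^ k * r₀ ∈ R₁ := by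
    have : p ^ c * a - p ^ k * r₀ = p ^ c * b + p ^ k * r₁ := by
      have e1 : p ^ c * a = p ^ c * b + p ^ c * (a - b) := by ring
      rw [e1, hβ]
      have e2 : p ^ c * (p ^ k * β) = p ^ k * (p ^ c * β) := by ring
      rw [e2, e]; ring
    rw [this]
    exact R₁.add_mem (R₁.mul_mem (R₁.pow_mem hp1 c) hb) (R₁.mul_mem (R₁.pow_mem hp1 k) hr₁)
  have hα := hH0 _ hx0 hx1
  rcases hA _ hα k with ⟨β', hβ', e'⟩ | ⟨j, hj, u, hu, v, hv, huv, e'⟩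
  · -- `a ∈ p R₀`
    left
    have e1 : p ^ c * a = p ^ c * (p * (r₀ + β')) := by
      have : p ^ c * a = (p ^ c * a - p ^ k * r₀) + p ^ k * r₀ := by ring
      rw [this, e', hk]; ring
    have e2 := pow_mul_cancel p hp c e1
    refine ⟨r₀ + β' - ra, R₀.sub_mem (R₀.add_mem hr₀ (hA₀ hβ')) hra, ?_⟩
    have : h₀ = a - (a - h₀) := by ring
    rw [this, ea, e2]; ring
  · -- `1 - a ∈ p R₀`
    right
    obtain ⟨i, hi⟩ : ∃ i, k = j + (i + 1) := ⟨k - j - 1, by omega⟩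
    have e1 : p ^ j * ((1 - a) * u) = p ^ j * (p ^ (i + 1) * (-(p ^ c * ρ) - (1 - a) * r₀)) := by
      have t1 : p ^ j * ((1 - a) * u) = (1 - a) * (u * p ^ j) := by ring
      have t2 : (1 - a) * (p ^ c * a - p ^ k * r₀) = -(p ^ c * (a ^ 2 - a)) -
          (1 - a) * (p ^ k * r₀) := by ring
      rw [t1, ← e', t2, eρ, hi]; ring
    have e2 := pow_mul_cancel p hp j e1
    have e3 : 1 - a = p * (v * (p ^ i * (-(p ^ c * ρ) - (1 - a) * r₀))) := by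
      calc 1 - a = ((1 - a) * u) * v := by rw [mul_assoc, huv, mul_one]
        _ = (p ^ (i + 1) * (-(p ^ c * ρ) - (1 - a) * r₀)) * v := by rw [e2]
        _ = p * (v * (p ^ i * (-(p ^ c * ρ) - (1 - a) * r₀))) := by ring
    refine ⟨v * (p ^ i * (-(p ^ c * ρ) - (1 - a) * r₀)) + ra, ?_, ?_⟩
    · refine R₀.add_mem (R₀.mul_mem (hA₀ hv) (R₀.mul_mem (R₀.pow_mem hp0 i) ?_)) hra
      exact R₀.sub_mem (R₀.neg_mem (R₀.mul_mem (R₀.pow_mem hp0 c) hρ))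
        (R₀.mul_mem (R₀.sub_mem R₀.one_mem ha) hr₀)
    · have : 1 - h₀ = (1 - a) + (a - h₀) := by ring
      rw [this, ea]
      nth_rewrite 1 [e3]
      ring

/-! ### finite generation of `H¹` and bounded torsion -/

/-- a subring `R ⊇ A₀` as an `A₀`-submodule -/
def subMod (A₀ R : Subring B) (h : A₀ ≤ R) : Submodule A₀ B where
  carrier := R
  add_mem' := R.add_mem
  zero_mem' := R.zero_mem
  smul_mem' := fun a _ hx => R.mul_mem (h a.2) hx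

@[simp] theorem mem_subMod (A₀ R : Subring B) (h : A₀ ≤ R) (x : B) :
    x ∈ subMod A₀ R h ↔ x ∈ R := Iff.rfl

theorem mem_sup_subMod (A₀ R₀ R₁ : Subring B) (hA₀ : A₀ ≤ R₀) (hA₁ : A₀ ≤ R₁) (x : B) :
    x ∈ subMod A₀ R₀ hA₀ ⊔ subMod A₀ R₁ hA₁ ↔ ∃ r₀ ∈ R₀, ∃ r₁ ∈ R₁, x = r₀ + r₁ := by
  rw [Submodule.mem_sup]
  constructor
  · rintro ⟨y, hy, z, hz, rfl⟩; exact ⟨y, hy, z, hz, rfl⟩
  · rintro ⟨y, hy, z, hz, rfl⟩; exact ⟨y, hy, z, hz, rfl⟩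

/-- If `Bs ⊆ span_{A₀} G + R₀ + R₁` for a finite set `G` (i.e. `H¹` is a finitely generated
`A₀`-module) and `A₀` is noetherian, then the `p`-power torsion of `H¹` is bounded. -/
theorem bounded_torsion_of_fg (A₀ R₀ R₁ Bs : Subring B) [IsNoetherianRing A₀]
    (hA₀ : A₀ ≤ R₀) (hA₁ : A₀ ≤ R₁) (p : B) (hpA : p ∈ A₀) (G : Set B) (hGfin : G.Finite)
    (hG : ∀ β ∈ Bs, ∃ g ∈ Submodule.span A₀ G, ∃ r₀ ∈ R₀, ∃ r₁ ∈ R₁,
      β = g + r₀ + r₁) :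
    ∃ c : ℕ, ∀ β ∈ Bs, ∀ n : ℕ, (∃ r₀ ∈ R₀, ∃ r₁ ∈ R₁, p ^ n * β = r₀ + r₁) →
      ∃ r₀ ∈ R₀, ∃ r₁ ∈ R₁, p ^ c * β = r₀ + r₁ := by
  classical
  set W : Submodule A₀ B := subMod A₀ R₀ hA₀ ⊔ subMod A₀ R₁ hA₁ with hW
  set N : Submodule A₀ B := Submodule.span A₀ G with hN
  have hpowA : ∀ n : ℕ, p ^ n ∈ A₀ := fun n => A₀.pow_mem hpA n
  have hsmul : ∀ (n : ℕ) (x : B), x ∈ W → p ^ n * x ∈ W := fun n x hx =>
    W.smul_mem (⟨p ^ n, hpowA n⟩ : A₀) hx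
  -- the chain of submodules of `N`
  let T : ℕ → Submodule A₀ N := fun k =>
    { carrier := {g | p ^ k * (g : B) ∈ W}
      add_mem' := by
        intro x y hx hy
        simp only [Set.mem_ofPred_eq, Submodule.coe_add, mul_add] at hx hy ⊢
        exact W.add_mem hx hy
      zero_mem' := by simp
      smul_mem' := by
        intro a x hx
        simp only [Set.mem_ofPred_eq, Submodule.coe_smul] at hx ⊢
        have : p ^ k * (a • (x : B)) = a • (p ^ k * (x : B)) := by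
          rw [Algebra.smul_def, Algebra.smul_def]; ring
        rw [this]
        exact W.smul_mem a hx }
  have hmono : Monotone T := by
    refine monotone_nat_of_le_succ fun k g hg => ?_
    show p ^ (k + 1) * (g : B) ∈ W
    have : p ^ (k + 1) * (g : B) = p ^ 1 * (p ^ k * (g : B)) := by ring
    rw [this]
    exact hsmul 1 _ hg
  have hNoeth : IsNoetherian A₀ N :=
    isNoetherian_of_fg_of_noetherian N (Submodule.fg_span hGfin)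
  obtain ⟨c, hc⟩ := monotone_stabilizes_iff_noetherian.mpr hNoeth ⟨T, hmono⟩
  refine ⟨c, fun β hβ n hn => ?_⟩
  obtain ⟨g, hg, r₀, hr₀, r₁, hr₁, rfl⟩ := hG β hβ
  have hr : r₀ + r₁ ∈ W := (mem_sup_subMod A₀ R₀ R₁ hA₀ hA₁ _).mpr ⟨r₀, hr₀, r₁, hr₁, rfl⟩
  have hgn : (⟨g, hg⟩ : N) ∈ T (max n c) := by
    apply hmono (le_max_left n c)
    show p ^ n * g ∈ W
    have h1 : p ^ n * (g + r₀ + r₁) ∈ W := (mem_sup_subMod A₀ R₀ R₁ hA₀ hA₁ _).mpr hn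
    have h2 : p ^ n * g = p ^ n * (g + r₀ + r₁) - p ^ n * (r₀ + r₁) := by ring
    rw [h2]
    exact W.sub_mem h1 (hsmul n _ hr)
  have hgc : (⟨g, hg⟩ : N) ∈ T c := by
    have := hc (max n c) (le_max_right n c)
    change T c = T (max n c) at this
    rw [this]; exact hgn
  have h3 : p ^ c * (g + r₀ + r₁) ∈ W := by
    have : p ^ c * (g + r₀ + r₁) = p ^ c * g + p ^ c * (r₀ + r₁) := by ring
    rw [this]
    exact W.add_mem hgc (hsmul c _ hr)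
  exact (mem_sup_subMod A₀ R₀ R₁ hA₀ hA₁ _).mp h3

/-- **`H¹` of a two-chart cover of the line is finitely generated.**  `R₀` is spanned over `A₀`
by `x ^ j * u` (`u ∈ U` finite), `Bs = R₀[1/x]`, `z = x⁻¹ ∈ R₁` and `z ^ m * u ∈ R₁`.  Then
`Bs ⊆ span_{A₀} {z ^ k * u : k < m, u ∈ U} + R₀ + R₁`. -/
theorem span_of_charts (A₀ R₀ R₁ Bs : Subring B) (hA₀ : A₀ ≤ R₀) (hA₁ : A₀ ≤ R₁)
    (x z : B) (hxz : x * z = 1) (hx : x ∈ R₀) (hz : z ∈ R₁) (U : Finset B)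
    (hU : ∀ u ∈ U, u ∈ R₀)
    (hspan : ∀ r ∈ R₀, r ∈ Submodule.span A₀ {y : B | ∃ j : ℕ, ∃ u ∈ U, y = x ^ j * u})
    (hB : ∀ β ∈ Bs, ∃ n : ℕ, x ^ n * β ∈ R₀) (m : ℕ) (hm : ∀ u ∈ U, z ^ m * u ∈ R₁) :
    ∀ β ∈ Bs, ∃ g ∈ Submodule.span A₀ {y : B | ∃ k < m, ∃ u ∈ U, y = z ^ k * u},
      ∃ r₀ ∈ R₀, ∃ r₁ ∈ R₁, β = g + r₀ + r₁ := by
  intro β hβ
  obtain ⟨n, hn⟩ := hB β hβ
  set G : Set B := {y : B | ∃ k < m, ∃ u ∈ U, y = z ^ k * u} with hGdef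
  set W : Submodule A₀ B :=
    Submodule.span A₀ G ⊔ (subMod A₀ R₀ hA₀ ⊔ subMod A₀ R₁ hA₁) with hW
  have hzx : ∀ i : ℕ, z ^ i * x ^ i = 1 := fun i => by
    rw [← mul_pow, mul_comm, hxz, one_pow]
  have hβ' : β = z ^ n * (x ^ n * β) := by
    rw [← mul_assoc, hzx, one_mul]
  -- every `z ^ n * (x ^ j * u)` lies in `W`
  have hgen : ∀ (j : ℕ) (u : B), u ∈ U → z ^ n * (x ^ j * u) ∈ W := by
    intro j u hu
    rcases le_or_gt n j with h | h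
    · -- in `R₀`
      obtain ⟨i, rfl⟩ : ∃ i, j = n + i := ⟨j - n, by omega⟩
      have : z ^ n * (x ^ (n + i) * u) = x ^ i * u := by
        rw [pow_add, mul_assoc, ← mul_assoc, hzx, one_mul]
      rw [this]
      exact Submodule.mem_sup_right (Submodule.mem_sup_left
        (R₀.mul_mem (R₀.pow_mem hx i) (hU u hu)))
    · obtain ⟨i, rfl⟩ : ∃ i, n = j + i := ⟨n - j, by omega⟩
      have e : z ^ (j + i) * (x ^ j * u) = z ^ i * u := by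
        have : z ^ (j + i) * (x ^ j * u) = z ^ i * (z ^ j * x ^ j) * u := by ring
        rw [this, hzx, mul_one]
      rw [e]
      rcases lt_or_ge i m with h' | h'
      · exact Submodule.mem_sup_left (Submodule.subset_span ⟨i, h', u, hu, rfl⟩)
      · obtain ⟨i', rfl⟩ : ∃ i', i = m + i' := ⟨i - m, by omega⟩
        have : z ^ (m + i') * u = z ^ i' * (z ^ m * u) := by ring
        rw [this]
        exact Submodule.mem_sup_right (Submodule.mem_sup_right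
          (R₁.mul_mem (R₁.pow_mem hz i') (hm u hu)))
  have hall : ∀ r ∈ Submodule.span A₀ {y : B | ∃ j : ℕ, ∃ u ∈ U, y = x ^ j * u},
      z ^ n * r ∈ W := by
    intro r hr
    induction hr using Submodule.span_induction with
    | mem y hy =>
      obtain ⟨j, u, hu, rfl⟩ := hy
      exact hgen j u hu
    | zero => simp
    | add y y' _ _ hy hy' => rw [mul_add]; exact W.add_mem hy hy'
    | smul a y _ hy =>
      have : z ^ n * (a • y) = a • (z ^ n * y) := by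
        rw [Algebra.smul_def, Algebra.smul_def]; ring
      rw [this]; exact W.smul_mem a hy
  have hβW : β ∈ W := by rw [hβ']; exact hall _ (hspan _ hn)
  obtain ⟨g, hg, w, hw, rfl⟩ := Submodule.mem_sup.mp hβW
  obtain ⟨r₀, hr₀, r₁, hr₁, rfl⟩ := (mem_sup_subMod A₀ R₀ R₁ hA₀ hA₁ w).mp hw
  exact ⟨g, hg, r₀, hr₀, r₁, hr₁, by ring⟩

/-- the generating set of `span_of_charts` is finite -/
theorem finite_chart_gens (z : B) (U : Finset B) (m : ℕ) :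
    {y : B | ∃ k < m, ∃ u ∈ U, y = z ^ k * u}.Finite := by
  have : {y : B | ∃ k < m, ∃ u ∈ U, y = z ^ k * u} ⊆
      (fun ku : ℕ × B => z ^ ku.1 * ku.2) '' ((Set.Iio m) ×ˢ (U : Set B)) := by
    rintro y ⟨k, hk, u, hu, rfl⟩
    exact ⟨(k, u), ⟨hk, hu⟩, rfl⟩
  exact (((Set.finite_Iio m).prod U.finite_toSet).image _).subset this

/-- **Čech connectedness for a two-chart cover of the line** (all hypotheses in chart form). -/
theorem cech_connected_charts (A₀ R₀ R₁ Bs : Subring B) [IsNoetherianRing A₀] (p : B)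
    (hpA : p ∈ A₀) (hA₀ : A₀ ≤ R₀) (hA₁ : A₀ ≤ R₁) (h0B : R₀ ≤ Bs) (h1B : R₁ ≤ Bs)
    (hp : ∀ b : B, p * b = 0 → b = 0)
    (hA : ∀ α ∈ A₀, ∀ n : ℕ, (∃ β ∈ A₀, α = p ^ n * β) ∨
      ∃ a < n, ∃ u ∈ A₀, ∃ v ∈ A₀, u * v = 1 ∧ α = u * p ^ a)
    (hH0 : ∀ x, x ∈ R₀ → x ∈ R₁ → x ∈ A₀)
    (x z : B) (hxz : x * z = 1) (hx : x ∈ R₀) (hz : z ∈ R₁) (U : Finset B)
    (hU : ∀ u ∈ U, u ∈ R₀)
    (hspan : ∀ r ∈ R₀, r ∈ Submodule.span A₀ {y : B | ∃ j : ℕ, ∃ u ∈ U, y = x ^ j * u})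
    (hB : ∀ β ∈ Bs, ∃ n : ℕ, x ^ n * β ∈ R₀) (m : ℕ) (hm : ∀ u ∈ U, z ^ m * u ∈ R₁)
    (h₀ h₁ : B) (hh₀ : h₀ ∈ R₀) (hh₁ : h₁ ∈ R₁)
    (hid₀ : ∃ r ∈ R₀, h₀ ^ 2 - h₀ = p * r)
    (hid₁ : ∃ r ∈ R₁, h₁ ^ 2 - h₁ = p * r)
    (hdiff : ∃ b ∈ Bs, h₀ - h₁ = p * b) :
    (∃ r ∈ R₀, h₀ = p * r) ∨ (∃ r ∈ R₀, 1 - h₀ = p * r) := by
  obtain ⟨c, hc⟩ := bounded_torsion_of_fg A₀ R₀ R₁ Bs hA₀ hA₁ p hpA _
    (finite_chart_gens z U m)
    (span_of_charts A₀ R₀ R₁ Bs hA₀ hA₁ x z hxz hx hz U hU hspan hB m hm)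
  exact cech_connected A₀ R₀ R₁ Bs p hpA hA₀ hA₁ h0B h1B hp hA hH0 c hc h₀ h₁ hh₀ hh₁
    hid₀ hid₁ hdiff

end Fermat.Agent.P2.helper93
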