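import Mathlib
import Fermat.Agent.P2.helper93_Cech

/-!
# P2 [INJ-FIN] (helper94): chart hypotheses of `cech_connected_charts` for integral closures

`B` is a field (a function field over a number field in the application), `A₀ ≤ B` a subring
(a discrete valuation ring), `x : B`.  The three chart rings are the integral closures in `B`
of `A₀[x]`, `A₀[x⁻¹]` and `A₀[x, x⁻¹]`:

* `chartRing A₀ S` : the integral closure in `B` of the subring generated by `A₀` and `S`;
* `chartRing_inter` (`hH0`)  : `R₀ ∩ R₁ = A₀` if `A₀` is integrally closed in `B`;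
* `exists_pow_mul_mem_chartRing` (`hB`) : for `β ∈ Bs` some `x ^ n * β` lies in `R₀`;
* `exists_pow_inv_mul_mem_chartRing` (`hm`) : for a finite `U ⊆ R₀` some `m` has
  `(x⁻¹) ^ m * u ∈ R₁` for all `u ∈ U`;
* `exists_finset_span_chartRing` (`hspan`) : `R₀` is spanned over `A₀` by `x ^ j * u`, `u ∈ U`
  finite, if `A₀` is a noetherian unique factorisation domain, `x` is transcendental over `A₀` and `B` is a
  finite separable extension of the fraction field of `A₀[x]`;
* `cech_connected_intClosure` : the conclusion of `helper93.cech_connected_charts` for these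
  charts, with no chart hypothesis left.
-/

set_option autoImplicit false
set_option linter.unusedSectionVars false
set_option linter.style.haveILetI false

noncomputable section

namespace Fermat.Agent.P2.helper94

open Polynomial

variable {B : Type*} [Field B]

/-- The chart ring: integral closure in `B` of the subring generated by `A₀` and `S`. -/
def chartRing (A₀ : Subring B) (S : Set B) : Subring B :=
  (integralClosure (Subring.closure ((A₀ : Set B) ∪ S)) B).toSubring

theorem mem_chartRing {A₀ : Subring B} {S : Set B} {b : B} :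
    b ∈ chartRing A₀ S ↔ IsIntegral (Subring.closure ((A₀ : Set B) ∪ S)) b := Iff.rfl

theorem closure_le_chartRing (A₀ : Subring B) (S : Set B) :
    Subring.closure ((A₀ : Set B) ∪ S) ≤ chartRing A₀ S := fun b hb =>
  mem_chartRing.mpr (isIntegral_algebraMap (R := Subring.closure ((A₀ : Set B) ∪ S))
    (A := B) (x := ⟨b, hb⟩))

theorem le_chartRing (A₀ : Subring B) (S : Set B) : A₀ ≤ chartRing A₀ S := fun _ hb =>
  closure_le_chartRing A₀ S (Subring.subset_closure (Or.inl hb))

theorem mem_chartRing_of_mem (A₀ : Subring B) {S : Set B} {s : B} (hs : s ∈ S) :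
    s ∈ chartRing A₀ S :=
  closure_le_chartRing A₀ S (Subring.subset_closure (Or.inr hs))

/-- An element integral over a subring `R ≤ R'` is integral over `R'`. -/
theorem isIntegral_of_le {R R' : Subring B} (h : R ≤ R') {b : B} (hb : IsIntegral R b) :
    IsIntegral R' b := by
  obtain ⟨p, hp, hpb⟩ := hb
  refine ⟨p.map (Subring.inclusion h), hp.map _, ?_⟩
  rw [eval₂_map]
  exact hpb

theorem chartRing_mono (A₀ : Subring B) {S T : Set B} (h : S ⊆ T) :
    chartRing A₀ S ≤ chartRing A₀ T := fun _ hb =>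
  mem_chartRing.mpr (isIntegral_of_le
    (Subring.closure_mono (Set.union_subset_union_right _ h)) (mem_chartRing.mp hb))

/-- The chart ring is contained in every valuation subring containing `A₀` and `S`. -/
theorem chartRing_le_valuationSubring (A₀ : Subring B) (S : Set B) (V : ValuationSubring B)
    (hA : A₀ ≤ V.toSubring) (hS : S ⊆ (V : Set B)) : chartRing A₀ S ≤ V.toSubring := by
  haveI : IsIntegrallyClosedIn V.toSubring B := inferInstanceAs (IsIntegrallyClosedIn V B)
  unfold chartRing
  rw [Subring.integralClosure_subring_le_iff]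
  intro b hb
  have : Subring.closure ((A₀ : Set B) ∪ S) ≤ V.toSubring :=
    Subring.closure_le.mpr (Set.union_subset hA hS)
  exact this hb

/-- **(hH0)** If `A₀` is integrally closed in `B`, the two charts intersect in `A₀`. -/
theorem chartRing_inter (A₀ : Subring B) (hcl : ∀ b : B, IsIntegral A₀ b → b ∈ A₀) (x : B)
    {t : B} (h0 : t ∈ chartRing A₀ {x}) (h1 : t ∈ chartRing A₀ {x⁻¹}) : t ∈ A₀ := by
  haveI : IsIntegrallyClosedIn A₀ B :=
    isIntegrallyClosedIn_iff.mpr ⟨Subtype.val_injective, fun {b} hb => ⟨⟨b, hcl b hb⟩, rfl⟩⟩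
  rw [Subring.eq_iInf_of_isIntegrallyClosedIn (R := A₀)]
  rw [Subring.mem_iInf]
  rintro ⟨V, hV⟩
  rcases V.mem_or_inv_mem x with hx | hx
  · exact chartRing_le_valuationSubring A₀ {x} V hV (Set.singleton_subset_iff.mpr hx) h0
  · exact chartRing_le_valuationSubring A₀ {x⁻¹} V hV (Set.singleton_subset_iff.mpr hx) h1

/-! ### Scaling integral elements: `hB` and `hm` -/

/-- Every element of `A₀[x, x⁻¹]` becomes an element of `A₀[x]` after multiplication by a
power of `x`. -/
theorem exists_pow_mul_mem_closure (A₀ : Subring B) (x : B) {s : B}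
    (hs : s ∈ Subring.closure ((A₀ : Set B) ∪ {x, x⁻¹})) :
    ∃ n : ℕ, ∀ k, n ≤ k → x ^ k * s ∈ Subring.closure ((A₀ : Set B) ∪ {x}) := by
  have hx : x ∈ Subring.closure ((A₀ : Set B) ∪ {x}) :=
    Subring.subset_closure (Or.inr rfl)
  have hxk : ∀ k : ℕ, x ^ k ∈ Subring.closure ((A₀ : Set B) ∪ {x}) := fun k =>
    Subring.pow_mem _ hx k
  induction hs using Subring.closure_induction with
  | mem s hs =>
    rcases hs with hs | hs | hs
    · exact ⟨0, fun k _ => Subring.mul_mem _ (hxk k) (Subring.subset_closure (Or.inl hs))⟩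
    · rw [hs]
      exact ⟨0, fun k _ => Subring.mul_mem _ (hxk k) hx⟩
    · rw [Set.mem_singleton_iff] at hs
      rw [hs]
      refine ⟨1, fun k hk => ?_⟩
      obtain ⟨j, rfl⟩ : ∃ j, k = j + 1 := ⟨k - 1, by omega⟩
      rcases eq_or_ne x 0 with h0 | h0
      · rw [h0, inv_zero, mul_zero]
        exact Subring.zero_mem _
      · rw [pow_succ, mul_assoc, mul_inv_cancel₀ h0, mul_one]
        exact hxk j
  | zero => exact ⟨0, fun k _ => by rw [mul_zero]; exact Subring.zero_mem _⟩
  | one => exact ⟨0, fun k _ => by rw [mul_one]; exact hxk k⟩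
  | add s t _ _ hs ht =>
    obtain ⟨n, hn⟩ := hs
    obtain ⟨n', hn'⟩ := ht
    refine ⟨max n n', fun k hk => ?_⟩
    rw [mul_add]
    exact Subring.add_mem _ (hn k (le_trans (le_max_left _ _) hk))
      (hn' k (le_trans (le_max_right _ _) hk))
  | neg s _ hs =>
    obtain ⟨n, hn⟩ := hs
    refine ⟨n, fun k hk => ?_⟩
    rw [mul_neg]
    exact Subring.neg_mem _ (hn k hk)
  | mul s t _ _ hs ht =>
    obtain ⟨n, hn⟩ := hs
    obtain ⟨n', hn'⟩ := ht
    refine ⟨n + n', fun k hk => ?_⟩
    obtain ⟨j, rfl⟩ : ∃ j, k = n + j := ⟨k - n, by omega⟩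
    have e : x ^ (n + j) * (s * t) = (x ^ n * s) * (x ^ j * t) := by
      rw [pow_add]; ring
    rw [e]
    exact Subring.mul_mem _ (hn n le_rfl) (hn' j (by omega))

/-- Scaling lemma: if every element of `R'` is moved into `R ≤ R'` by a power of `c ∈ R`, then
every element integral over `R'` is moved to an element integral over `R` by a power of `c`. -/
theorem exists_pow_mul_isIntegral {R R' : Subring B} (c : B) (_hc : c ∈ R)
    (hscale : ∀ s ∈ R', ∃ n : ℕ, ∀ k, n ≤ k → c ^ k * s ∈ R) {β : B} (hβ : IsIntegral R' β) :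
    ∃ n : ℕ, IsIntegral R (c ^ n * β) := by
  classical
  obtain ⟨p, hp, hpβ⟩ := hβ
  -- a uniform exponent for all coefficients
  choose! N hN using hscale
  set n : ℕ := (p.support.sup fun i => N (p.coeff i : B)) + 1 with hn
  have hcoef : ∀ i : ℕ, ∀ k, n ≤ k → c ^ k * (p.coeff i : B) ∈ R := by
    intro i k hk
    by_cases hi : i ∈ p.support
    · refine hN _ (p.coeff i).2 k (le_trans ?_ hk)
      have : N (p.coeff i : B) ≤ p.support.sup fun i => N (p.coeff i : B) :=
        Finset.le_sup (f := fun i => N (p.coeff i : B)) hi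
      omega
    · rw [Polynomial.notMem_support_iff.mp hi]
      simp [R.zero_mem]
  set P : B[X] := p.map R'.subtype with hP
  have hPm : P.Monic := hp.map _
  have hPβ : eval₂ (RingHom.id B) β P = 0 := by
    rw [hP, eval₂_map]
    exact hpβ
  set Q : B[X] := P.scaleRoots (c ^ n) with hQ
  have hQm : Q.Monic := (monic_scaleRoots_iff _).mpr hPm
  have hQβ : eval₂ (RingHom.id B) (c ^ n * β) Q = 0 := by
    have := scaleRoots_eval₂_mul (p := P) (RingHom.id B) β (c ^ n)
    rw [RingHom.id_apply] at this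
    rw [hQ, this, hPβ, mul_zero]
  have hQc : (↑Q.coeffs : Set B) ⊆ R := by
    intro a ha
    obtain ⟨i, -, rfl⟩ := Polynomial.mem_coeffs_iff.mp (by simpa using ha)
    rw [hQ, coeff_scaleRoots]
    rcases lt_trichotomy i P.natDegree with hi | hi | hi
    · have e : P.coeff i * (c ^ n) ^ (P.natDegree - i) =
          c ^ (n * (P.natDegree - i)) * (p.coeff i : B) := by
        rw [hP, coeff_map, ← pow_mul, mul_comm]
        rfl
      rw [e]
      refine hcoef i _ ?_
      have : 1 ≤ P.natDegree - i := by omega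
      calc n = n * 1 := (mul_one n).symm
        _ ≤ n * (P.natDegree - i) := Nat.mul_le_mul_left n this
    · rw [hi, Nat.sub_self, pow_zero, mul_one, coeff_natDegree, hPm.leadingCoeff]
      exact R.one_mem
    · rw [coeff_eq_zero_of_natDegree_lt hi, zero_mul]
      exact R.zero_mem
  refine ⟨n, Q.toSubring R hQc, (monic_toSubring Q R hQc).mpr hQm, ?_⟩
  have e : eval₂ (algebraMap R B) (c ^ n * β) (Q.toSubring R hQc) =
      eval₂ (RingHom.id B) (c ^ n * β) ((Q.toSubring R hQc).map R.subtype) := by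
    rw [eval₂_map]
    rfl
  rw [e, map_toSubring, hQβ]

/-- **(hB)** every element of `Bs` (integral over `A₀[x, x⁻¹]`) is moved into `R₀` (integral
over `A₀[x]`) by a power of `x`. -/
theorem exists_pow_mul_mem_chartRing (A₀ : Subring B) (x : B) {β : B}
    (hβ : β ∈ chartRing A₀ ({x, x⁻¹} : Set B)) :
    ∃ n : ℕ, x ^ n * β ∈ chartRing A₀ ({x} : Set B) := by
  have hx : x ∈ Subring.closure ((A₀ : Set B) ∪ {x}) := Subring.subset_closure (Or.inr rfl)
  have h2 : IsIntegral (Subring.closure ((A₀ : Set B) ∪ {x, x⁻¹})) β := hβ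
  obtain ⟨n, hn⟩ := exists_pow_mul_isIntegral (R := Subring.closure ((A₀ : Set B) ∪ {x}))
    (R' := Subring.closure ((A₀ : Set B) ∪ {x, x⁻¹})) x hx
    (fun _ hs => exists_pow_mul_mem_closure A₀ x hs) h2
  exact ⟨n, hn⟩

theorem chartRing_pair_inv (A₀ : Subring B) (x : B) :
    chartRing A₀ ({x⁻¹, (x⁻¹)⁻¹} : Set B) = chartRing A₀ ({x, x⁻¹} : Set B) := by
  rw [inv_inv, Set.pair_comm]

/-- **(hm)** for a finite subset `U` of `Bs` there is a uniform `m` with
`(x⁻¹) ^ m * u ∈ R₁` for all `u ∈ U`. -/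
theorem exists_pow_inv_mul_mem_chartRing (A₀ : Subring B) (x : B) (U : Finset B)
    (hU : ∀ u ∈ U, u ∈ chartRing A₀ ({x, x⁻¹} : Set B)) :
    ∃ m : ℕ, ∀ u ∈ U, (x⁻¹) ^ m * u ∈ chartRing A₀ ({x⁻¹} : Set B) := by
  classical
  have hz : x⁻¹ ∈ chartRing A₀ ({x⁻¹} : Set B) :=
    mem_chartRing_of_mem A₀ (Set.mem_singleton _)
  have h1 : ∀ u : B, u ∈ U → ∃ n : ℕ, (x⁻¹) ^ n * u ∈ chartRing A₀ ({x⁻¹} : Set B) := by
    intro u hu
    have h2 : u ∈ chartRing A₀ ({x⁻¹, (x⁻¹)⁻¹} : Set B) := by
      rw [chartRing_pair_inv]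
      exact hU u hu
    exact exists_pow_mul_mem_chartRing A₀ x⁻¹ h2
  induction U using Finset.induction_on with
  | empty => exact ⟨0, fun u hu => absurd hu (Finset.notMem_empty u)⟩
  | insert a U ha ih =>
    obtain ⟨m, hm⟩ := ih (fun u hu => hU u (Finset.mem_insert_of_mem hu))
      (fun u hu => h1 u (Finset.mem_insert_of_mem hu))
    obtain ⟨n, hn⟩ := h1 a (Finset.mem_insert_self a U)
    refine ⟨m + n, fun u hu => ?_⟩
    rcases Finset.mem_insert.mp hu with rfl | hu'
    · have e : (x⁻¹) ^ (m + n) * u = (x⁻¹) ^ m * ((x⁻¹) ^ n * u) := by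
        rw [pow_add, mul_assoc]
      rw [e]
      exact Subring.mul_mem _ (Subring.pow_mem _ hz m) hn
    · have e : (x⁻¹) ^ (m + n) * u = (x⁻¹) ^ n * ((x⁻¹) ^ m * u) := by
        rw [pow_add]; ring
      rw [e]
      exact Subring.mul_mem _ (Subring.pow_mem _ hz n) (hm u hu')

/-! ### Finiteness of the integral closure: `hspan` -/
/-- the subring generated by `A₀` and `x` is the range of evaluation at `x` -/
theorem closure_eq_adjoin (A₀ : Subring B) (x : B) :
    Subring.closure ((A₀ : Set B) ∪ {x}) = (Algebra.adjoin A₀ ({x} : Set B)).toSubring := by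
  rw [Algebra.adjoin_eq_ring_closure]
  congr 2
  ext b
  constructor
  · intro hb
    exact ⟨⟨b, hb⟩, rfl⟩
  · rintro ⟨a, rfl⟩
    exact a.2

/-- every element of `A₀[x]` is a polynomial in `x` -/
theorem exists_aeval_eq_of_mem_closure (A₀ : Subring B) (x : B) {c : B}
    (hc : c ∈ Subring.closure ((A₀ : Set B) ∪ {x})) : ∃ p : A₀[X], aeval x p = c := by
  rw [closure_eq_adjoin, Subalgebra.mem_toSubring, Algebra.adjoin_singleton_eq_range_aeval] at hc
  exact hc

/-- the ring isomorphism `A₀[X] ≃ A₀[x]` for transcendental `x` -/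
def polyEquivClosure (A₀ : Subring B) (x : B) (hx : Transcendental A₀ x) :
    A₀[X] ≃+* Subring.closure ((A₀ : Set B) ∪ {x}) :=
  (Polynomial.algEquivOfTranscendental A₀ x hx).toRingEquiv.trans
    (RingEquiv.subringCongr (closure_eq_adjoin A₀ x).symm)

/-- `B` is finite over the fraction field of `R` if it is generated as a field by `R` and
finitely many elements algebraic over `R`. -/
theorem finiteDimensional_fractionRing (R : Subring B) (S : Finset B)
    (hS : ∀ s ∈ S, IsAlgebraic R s)
    (hgen : Subfield.closure ((R : Set B) ∪ S) = ⊤) :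
    letI : Algebra (FractionRing R) B := FractionRing.liftAlgebra R B
    FiniteDimensional (FractionRing R) B := by
  letI : Algebra (FractionRing R) B := FractionRing.liftAlgebra R B
  haveI : IsScalarTower R (FractionRing R) B := FractionRing.isScalarTower_liftAlgebra R B
  have hint : ∀ s ∈ (S : Set B), IsIntegral (FractionRing R) s := by
    intro s hs
    have h1 : IsAlgebraic (FractionRing R) s :=
      IsAlgebraic.extendScalars (IsFractionRing.injective R (FractionRing R)) (hS s hs)
    exact h1.isIntegral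
  haveI : FiniteDimensional (FractionRing R) (IntermediateField.adjoin (FractionRing R) (S : Set B)) :=
    IntermediateField.finiteDimensional_adjoin hint
  have htop : IntermediateField.adjoin (FractionRing R) (S : Set B) = ⊤ := by
    rw [eq_top_iff]
    intro b _
    have h2 : Subfield.closure ((R : Set B) ∪ S) ≤
        (IntermediateField.adjoin (FractionRing R) (S : Set B)).toSubfield := by
      rw [Subfield.closure_le]
      rintro c (hc | hc)
      · have : c = algebraMap (FractionRing R) B (algebraMap R (FractionRing R) ⟨c, hc⟩) := by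
          rw [← IsScalarTower.algebraMap_apply]
          rfl
        rw [this]
        exact (IntermediateField.adjoin (FractionRing R) (S : Set B)).algebraMap_mem _
      · exact IntermediateField.subset_adjoin _ _ hc
    have h3 : b ∈ Subfield.closure ((R : Set B) ∪ S) := by rw [hgen]; trivial
    exact h2 h3
  rw [htop] at this
  exact LinearEquiv.finiteDimensional
    (IntermediateField.topEquiv (F := FractionRing R) (E := B)).toLinearEquiv

/-- The integral closure of `A₀[x]` in `B` is a finite `A₀[x]`-module. -/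
theorem finite_integralClosure (A₀ : Subring B) [IsNoetherianRing A₀]
    [UniqueFactorizationMonoid A₀] [CharZero B] (x : B) (hx : Transcendental A₀ x)
    (S : Finset B) (hS : ∀ s ∈ S, IsAlgebraic (Subring.closure ((A₀ : Set B) ∪ {x})) s)
    (hgen : Subfield.closure (((Subring.closure ((A₀ : Set B) ∪ {x}) : Subring B) : Set B) ∪ S)
      = ⊤) :
    Module.Finite (Subring.closure ((A₀ : Set B) ∪ {x}))
      (integralClosure (Subring.closure ((A₀ : Set B) ∪ {x})) B) := by
  set R := Subring.closure ((A₀ : Set B) ∪ {x}) with hR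
  haveI : IsNoetherianRing R := isNoetherianRing_of_ringEquiv _ (polyEquivClosure A₀ x hx)
  haveI : IsIntegrallyClosed R := IsIntegrallyClosed.of_equiv (polyEquivClosure A₀ x hx)
  letI : Algebra (FractionRing R) B := FractionRing.liftAlgebra R B
  haveI : IsScalarTower R (FractionRing R) B := FractionRing.isScalarTower_liftAlgebra R B
  haveI : FiniteDimensional (FractionRing R) B := finiteDimensional_fractionRing R S hS hgen
  haveI : CharZero (FractionRing R) := inferInstance
  haveI : Algebra.IsSeparable (FractionRing R) B := inferInstance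
  exact IsIntegralClosure.finite R (FractionRing R) B (integralClosure R B)

/-- the `A₀`-span of the elements `x ^ j * u`, `u ∈ U`, is stable under multiplication by
`A₀[x]` -/
theorem mul_mem_span_pow_mul (A₀ : Subring B) (x : B) (U : Finset B) {c w : B}
    (hc : c ∈ Subring.closure ((A₀ : Set B) ∪ {x}))
    (hw : w ∈ Submodule.span A₀ {y : B | ∃ j : ℕ, ∃ u ∈ U, y = x ^ j * u}) :
    c * w ∈ Submodule.span A₀ {y : B | ∃ j : ℕ, ∃ u ∈ U, y = x ^ j * u} := by
  set W := Submodule.span A₀ {y : B | ∃ j : ℕ, ∃ u ∈ U, y = x ^ j * u} with hW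
  have hx : ∀ w ∈ W, x * w ∈ W := by
    intro w hw
    induction hw using Submodule.span_induction with
    | mem y hy =>
      obtain ⟨j, u, hu, rfl⟩ := hy
      exact Submodule.subset_span ⟨j + 1, u, hu, by rw [pow_succ]; ring⟩
    | zero => rw [mul_zero]; exact W.zero_mem
    | add y z _ _ hy hz => rw [mul_add]; exact W.add_mem hy hz
    | smul a y _ hy =>
      have : x * (a • y) = a • (x * y) := by
        rw [Algebra.smul_def, Algebra.smul_def]; ring
      rw [this]
      exact W.smul_mem a hy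
  induction hc using Subring.closure_induction generalizing w with
  | mem c hc =>
    rcases hc with hc | hc
    · exact W.smul_mem (⟨c, hc⟩ : A₀) hw
    · rw [Set.mem_singleton_iff.mp hc]
      exact hx w hw
  | zero => rw [zero_mul]; exact W.zero_mem
  | one => rw [one_mul]; exact hw
  | add c d _ _ hc hd => rw [add_mul]; exact W.add_mem (hc hw) (hd hw)
  | neg c _ hc => rw [neg_mul]; exact W.neg_mem (hc hw)
  | mul c d _ _ hc hd => rw [mul_assoc]; exact hc (hd hw)

/-- **(hspan)** `R₀` is spanned over `A₀` by the elements `x ^ j * u`, `u ∈ U`, for a finite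
subset `U` of `R₀`. -/
theorem exists_finset_span_chartRing (A₀ : Subring B) [IsNoetherianRing A₀]
    [UniqueFactorizationMonoid A₀] [CharZero B] (x : B) (hx : Transcendental A₀ x)
    (S : Finset B) (hS : ∀ s ∈ S, IsAlgebraic (Subring.closure ((A₀ : Set B) ∪ {x})) s)
    (hgen : Subfield.closure (((Subring.closure ((A₀ : Set B) ∪ {x}) : Subring B) : Set B) ∪ S)
      = ⊤) :
    ∃ U : Finset B, (∀ u ∈ U, u ∈ chartRing A₀ ({x} : Set B)) ∧
      ∀ r ∈ chartRing A₀ ({x} : Set B),
        r ∈ Submodule.span A₀ {y : B | ∃ j : ℕ, ∃ u ∈ U, y = x ^ j * u} := by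
  classical
  have hfin := finite_integralClosure A₀ x hx S hS hgen
  obtain ⟨T, hT⟩ := hfin.fg_top
  refine ⟨T.image Subtype.val, ?_, ?_⟩
  · intro u hu
    obtain ⟨t, -, rfl⟩ := Finset.mem_image.mp hu
    exact t.2
  · intro r hr
    have hmem : (⟨r, hr⟩ : integralClosure (Subring.closure ((A₀ : Set B) ∪ {x})) B) ∈
        Submodule.span (Subring.closure ((A₀ : Set B) ∪ {x})) (T : Set _) := by
      rw [hT]; trivial
    have key : ∀ z : integralClosure (Subring.closure ((A₀ : Set B) ∪ {x})) B,
        z ∈ Submodule.span (Subring.closure ((A₀ : Set B) ∪ {x})) (T : Set _) →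
        (z : B) ∈ Submodule.span A₀
          {y : B | ∃ j : ℕ, ∃ u ∈ T.image Subtype.val, y = x ^ j * u} := by
      intro z hz
      induction hz using Submodule.span_induction with
      | mem t ht =>
        exact Submodule.subset_span ⟨0, t, Finset.mem_image.mpr ⟨t, ht, rfl⟩, by
          rw [pow_zero, one_mul]⟩
      | zero => exact Submodule.zero_mem _
      | add y z _ _ hy hz => exact Submodule.add_mem _ hy hz
      | smul c y _ hy => exact mul_mem_span_pow_mul A₀ x _ c.2 hy
    exact key _ hmem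

theorem polyEquivClosure_C (A₀ : Subring B) (x : B) (hx : Transcendental A₀ x) (a : A₀) :
    ((polyEquivClosure A₀ x hx (C a) : Subring.closure ((A₀ : Set B) ∪ {x})) : B) = a := by
  show ((Polynomial.algEquivOfTranscendental A₀ x hx (C a) :
    Algebra.adjoin A₀ ({x} : Set B)) : B) = a
  rw [algEquivOfTranscendental_apply, aeval_C]
  rfl

/-- a non-unit of `A₀` stays a non-unit in `A₀[x]`, `x` transcendental -/
theorem not_isUnit_closure (A₀ : Subring B) (x : B) (hx : Transcendental A₀ x) {π : B}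
    (hπA : π ∈ A₀) (hπ : ¬ IsUnit (⟨π, hπA⟩ : A₀)) :
    ¬ IsUnit (⟨π, Subring.subset_closure (Or.inl hπA)⟩ :
      Subring.closure ((A₀ : Set B) ∪ {x})) := by
  intro h
  have e : polyEquivClosure A₀ x hx (C ⟨π, hπA⟩) =
      ⟨π, Subring.subset_closure (Or.inl hπA)⟩ :=
    Subtype.ext (polyEquivClosure_C A₀ x hx ⟨π, hπA⟩)
  rw [← e] at h
  have h2 : IsUnit (C (⟨π, hπA⟩ : A₀)) := by
    have := h.map (polyEquivClosure A₀ x hx).symm
    simpa using this
  exact hπ (Polynomial.isUnit_C.mp h2)

/-- **`1 ∉ π R₀`**: a non-unit `π` of `A₀` is not a unit of the chart ring `R₀`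
(`x` transcendental over `A₀`). -/
theorem one_notMem_mul_chartRing (A₀ : Subring B) (x : B) (hx : Transcendental A₀ x) {π : B}
    (hπA : π ∈ A₀) (hπ : ¬ IsUnit (⟨π, hπA⟩ : A₀)) :
    ¬ ∃ r ∈ chartRing A₀ ({x} : Set B), (1 : B) = π * r := by
  rintro ⟨r, hr, e⟩
  set R := Subring.closure ((A₀ : Set B) ∪ {x}) with hR
  set πR : R := ⟨π, Subring.subset_closure (Or.inl hπA)⟩ with hπR
  have hnu : ¬ IsUnit πR := not_isUnit_closure A₀ x hx hπA hπ
  obtain ⟨P, hP, hπP⟩ := exists_max_ideal_of_mem_nonunits (mem_nonunits_iff.mpr hnu)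
  haveI := hP
  have hker : RingHom.ker (algebraMap R (integralClosure R B)) ≤ P := by
    intro c hc
    have h0 : c = 0 := by
      have : (algebraMap R (integralClosure R B)) c = 0 := hc
      have h1 : ((algebraMap R (integralClosure R B) c : integralClosure R B) : B) = 0 := by
        rw [this]; rfl
      exact Subtype.ext h1
    rw [h0]
    exact P.zero_mem
  obtain ⟨Q, hQ, hQP⟩ := Ideal.exists_ideal_over_maximal_of_isIntegral
    (S := integralClosure R B) P hker
  have hπQ : algebraMap R (integralClosure R B) πR ∈ Q := by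
    have : πR ∈ Q.comap (algebraMap R (integralClosure R B)) := by rw [hQP]; exact hπP
    exact this
  have h1 : (1 : integralClosure R B) ∈ Q := by
    have e2 : (1 : integralClosure R B) =
        algebraMap R (integralClosure R B) πR * ⟨r, hr⟩ := by
      apply Subtype.ext
      exact e
    rw [e2]
    exact Q.mul_mem_right _ hπQ
  exact hQ.ne_top ((Ideal.eq_top_iff_one Q).mpr h1)

/-- the elementwise discrete-valuation-ring property `hA` of `helper93.cech_connected` -/
theorem hA_of_dvr (A₀ : Subring B) [IsDiscreteValuationRing A₀] {π : B} (hπA : π ∈ A₀)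
    (hπ : Irreducible (⟨π, hπA⟩ : A₀)) :
    ∀ α ∈ A₀, ∀ n : ℕ, (∃ β ∈ A₀, α = π ^ n * β) ∨
      ∃ a < n, ∃ u ∈ A₀, ∃ v ∈ A₀, u * v = 1 ∧ α = u * π ^ a := by
  intro α hα n
  rcases eq_or_ne (⟨α, hα⟩ : A₀) 0 with h0 | h0
  · left
    refine ⟨0, A₀.zero_mem, ?_⟩
    rw [mul_zero]
    exact congrArg Subtype.val h0
  · obtain ⟨a, u, hu⟩ := IsDiscreteValuationRing.eq_unit_mul_pow_irreducible h0 hπ
    have hu' : α = (u : A₀) * π ^ a := by
      have := congrArg Subtype.val hu
      simpa using this
    rcases lt_or_ge a n with h | h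
    · right
      refine ⟨a, h, ((u : A₀) : B), (u : A₀).2, ((u⁻¹ : (A₀)ˣ) : A₀), ((u⁻¹ : (A₀)ˣ) : A₀).2,
        ?_, hu'⟩
      have h1 : ((u : A₀) * ((u⁻¹ : (A₀)ˣ) : A₀) : A₀) = 1 := Units.mul_inv u
      have h2 := congrArg (Subtype.val : A₀ → B) h1
      rwa [Subring.coe_mul, Subring.coe_one] at h2
    · left
      obtain ⟨j, rfl⟩ : ∃ j, a = n + j := ⟨a - n, by omega⟩
      refine ⟨(u : A₀) * π ^ j, A₀.mul_mem (u : A₀).2 (A₀.pow_mem hπA j), ?_⟩
      rw [hu', pow_add]
      ring

/-- **Čech connectedness for the integral-closure charts** of a function field `B` over a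
discrete valuation ring `A₀ ≤ B` (uniformiser `π`): `R₀`, `R₁`, `Bs` are the integral closures
of `A₀[x]`, `A₀[x⁻¹]`, `A₀[x, x⁻¹]` in `B`.  A pair `(h₀, h₁) ∈ R₀ × R₁` of idempotents mod `π`
which agree mod `π Bs` is trivial mod `π`. -/
theorem cech_connected_intClosure (A₀ : Subring B) [IsDiscreteValuationRing A₀] [CharZero B]
    (hcl : ∀ b : B, IsIntegral A₀ b → b ∈ A₀)
    {π : B} (hπA : π ∈ A₀) (hπ : Irreducible (⟨π, hπA⟩ : A₀))
    (x : B) (hx : Transcendental A₀ x)
    (S : Finset B) (hS : ∀ s ∈ S, IsAlgebraic (Subring.closure ((A₀ : Set B) ∪ {x})) s)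
    (hgen : Subfield.closure (((Subring.closure ((A₀ : Set B) ∪ {x}) : Subring B) : Set B) ∪ S)
      = ⊤)
    (h₀ h₁ : B) (hh₀ : h₀ ∈ chartRing A₀ ({x} : Set B))
    (hh₁ : h₁ ∈ chartRing A₀ ({x⁻¹} : Set B))
    (hid₀ : ∃ r ∈ chartRing A₀ ({x} : Set B), h₀ ^ 2 - h₀ = π * r)
    (hid₁ : ∃ r ∈ chartRing A₀ ({x⁻¹} : Set B), h₁ ^ 2 - h₁ = π * r)
    (hdiff : ∃ b ∈ chartRing A₀ ({x, x⁻¹} : Set B), h₀ - h₁ = π * b) :
    (∃ r ∈ chartRing A₀ ({x} : Set B), h₀ = π * r) ∨
      (∃ r ∈ chartRing A₀ ({x} : Set B), 1 - h₀ = π * r) := by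
  have hx0 : x ≠ 0 := by
    rintro rfl
    exact hx (isAlgebraic_zero)
  have hπ0 : π ≠ 0 := by
    rintro rfl
    exact hπ.ne_zero rfl
  obtain ⟨U, hU, hspan⟩ := exists_finset_span_chartRing A₀ x hx S hS hgen
  have h01 : chartRing A₀ ({x} : Set B) ≤ chartRing A₀ ({x, x⁻¹} : Set B) :=
    chartRing_mono A₀ (by intro y hy; exact Or.inl hy)
  have h11 : chartRing A₀ ({x⁻¹} : Set B) ≤ chartRing A₀ ({x, x⁻¹} : Set B) :=
    chartRing_mono A₀ (by intro y hy; exact Or.inr hy)
  obtain ⟨m, hm⟩ := exists_pow_inv_mul_mem_chartRing A₀ x U (fun u hu => h01 (hU u hu))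
  exact helper93.cech_connected_charts A₀ (chartRing A₀ ({x} : Set B))
    (chartRing A₀ ({x⁻¹} : Set B)) (chartRing A₀ ({x, x⁻¹} : Set B)) π hπA
    (le_chartRing A₀ _) (le_chartRing A₀ _) h01 h11
    (fun b hb => (mul_eq_zero.mp hb).resolve_left hπ0)
    (hA_of_dvr A₀ hπA hπ)
    (fun t ht0 ht1 => chartRing_inter A₀ hcl x ht0 ht1)
    x x⁻¹ (mul_inv_cancel₀ hx0) (mem_chartRing_of_mem A₀ (Set.mem_singleton _))
    (mem_chartRing_of_mem A₀ (Set.mem_singleton _)) U hU hspan
    (fun β hβ => exists_pow_mul_mem_chartRing A₀ x hβ) m hm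
    h₀ h₁ hh₀ hh₁ hid₀ hid₁ hdiff

end Fermat.Agent.P2.helper94

end
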