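import Mathlib
import Fermat.Agent.P2.helper95_FFl
import Fermat.Agent.P2.helper93_NormEmb

/-!
# P2 CUSP (C3), abstract core (helper95)

Setting: `k` a field, `F / k` a field, `y ∈ F` transcendental with `F / k(y)` finite separable,
and a family `σ : ι → (F →+* k((s)))` of `[F : k(y)]` pairwise distinct `k`-embeddings with the
same value `σ i y = Y` of POSITIVE order.

* `embSubring τ` : the valuation subring `{f | 0 ≤ order (τ f)}` of `F` of an embedding `τ`.
* `exists_induced_of_zero` : every place `Q` of `F` with `0 < Q.ord y` is induced by one of the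
  embeddings: `f ∈ O_Q ↔ 0 ≤ order (σ i f)`.
* `exists_induced_of_pole` : the same for the poles of `x` (`σ i x = X` of negative order).
* `exists_place_of_emb` : conversely every such embedding induces a place.

Proof of the main statement: `B` = integral closure of `k[y]` in `F` (Dedekind), `𝔓_i` = centre
of `σ i` on `B`.  If the centre `𝔓_Q` of `Q` is none of the `𝔓_i`, prime avoidance gives
`f ∈ 𝔓_Q` with `order (σ i f) = 0` for all `i`; then `N f = ∏ σ i f` has order `0`, but
`N f ∈ 𝔓_Q ∩ k[y] = (y)` has positive order.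
-/

set_option autoImplicit false
set_option linter.unusedSectionVars false
set_option linter.unusedVariables false
set_option linter.style.haveILetI false
set_option linter.deprecated false

namespace Fermat.Agent.P2.helper95

open AlgebraicCurve IntermediateField IsDedekindDomain
open scoped IntermediateField.algebraAdjoinAdjoin

noncomputable section

section LaurentOrder

variable {k : Type*} [Field k]

theorem ls_order_mul {x y : LaurentSeries k} (hx : x ≠ 0) (hy : y ≠ 0) :
    (x * y).order = x.order + y.order := by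
  have h := HahnSeries.orderTop_mul x y
  rw [← HahnSeries.order_eq_orderTop_of_ne_zero (mul_ne_zero hx hy),
    ← HahnSeries.order_eq_orderTop_of_ne_zero hx,
    ← HahnSeries.order_eq_orderTop_of_ne_zero hy, ← WithTop.coe_add] at h
  exact WithTop.coe_injective h

theorem ls_order_inv (x : LaurentSeries k) : (x⁻¹).order = -x.order := by
  rcases eq_or_ne x 0 with rfl | hx
  · simp
  · have h := ls_order_mul hx (inv_ne_zero hx)
    rw [mul_inv_cancel₀ hx, HahnSeries.order_one] at h
    linarith

theorem ls_order_algebraMap (a : k) : (algebraMap k (LaurentSeries k) a).order = 0 := by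
  have h1 : algebraMap k (PowerSeries k) a = PowerSeries.C a := by
    simp
  have h2 : algebraMap k (LaurentSeries k) a = HahnSeries.single 0 a := by
    rw [HahnSeries.algebraMap_apply', h1, HahnSeries.ofPowerSeries_C]
    rfl
  rw [h2]
  rcases eq_or_ne a 0 with rfl | ha
  · simp
  · exact HahnSeries.order_single ha

theorem ls_order_pow {x : LaurentSeries k} (hx : x ≠ 0) (n : ℕ) :
    (x ^ n).order = n * x.order := by
  induction n with
  | zero => simp [HahnSeries.order_one]
  | succ n ih =>
    rw [pow_succ, ls_order_mul (pow_ne_zero n hx) hx, ih]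
    push_cast
    ring

/-- a finite product of Laurent series of order `0` is nonzero of order `0` -/
theorem ls_order_prod_eq_zero {ι : Type*} (s : Finset ι) (g : ι → LaurentSeries k)
    (h : ∀ i ∈ s, g i ≠ 0 ∧ (g i).order = 0) :
    (∏ i ∈ s, g i) ≠ 0 ∧ (∏ i ∈ s, g i).order = 0 := by
  refine Finset.prod_induction g (fun z => z ≠ 0 ∧ z.order = 0) ?_ ?_ h
  · rintro a b ⟨ha, ha'⟩ ⟨hb, hb'⟩
    exact ⟨mul_ne_zero ha hb, by rw [ls_order_mul ha hb, ha', hb', add_zero]⟩
  · exact ⟨one_ne_zero, HahnSeries.order_one⟩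

end LaurentOrder

section EmbSubring

variable {k F : Type*} [Field k] [Field F]

/-- the valuation subring of `F` of the functions whose expansion has no pole -/
def embSubring (τ : F →+* LaurentSeries k) : ValuationSubring F where
  carrier := {f | 0 ≤ (τ f).order}
  mul_mem' := by
    intro x y hx hy
    simp only [Set.mem_setOf_eq] at hx hy ⊢
    rcases eq_or_ne x 0 with rfl | hx0
    · simp
    rcases eq_or_ne y 0 with rfl | hy0
    · simp
    rw [map_mul, ls_order_mul (map_ne_zero_iff τ τ.injective |>.mpr hx0)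
      (map_ne_zero_iff τ τ.injective |>.mpr hy0)]
    exact add_nonneg hx hy
  one_mem' := by
    simp only [Set.mem_setOf_eq, map_one, HahnSeries.order_one, le_refl]
  add_mem' := by
    intro x y hx hy
    simp only [Set.mem_setOf_eq] at hx hy ⊢
    rw [map_add]
    rcases eq_or_ne (τ x + τ y) 0 with h0 | h0
    · rw [h0, HahnSeries.order_zero]
    · exact le_trans (le_min hx hy) (HahnSeries.min_order_le_order_add h0)
  zero_mem' := by
    simp only [Set.mem_setOf_eq, map_zero, HahnSeries.order_zero, le_refl]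
  neg_mem' := by
    intro x hx
    simp only [Set.mem_setOf_eq] at hx ⊢
    rw [map_neg, HahnSeries.order_neg]
    exact hx
  mem_or_inv_mem' := by
    intro x
    simp only [Set.mem_setOf_eq]
    rcases le_total 0 (τ x).order with h | h
    · exact Or.inl h
    · right
      rw [map_inv₀, ls_order_inv]
      linarith

theorem mem_embSubring (τ : F →+* LaurentSeries k) {f : F} :
    f ∈ embSubring τ ↔ 0 ≤ (τ f).order := Iff.rfl

theorem emb_order_mul (τ : F →+* LaurentSeries k) {f g : F} (hf : f ≠ 0) (hg : g ≠ 0) :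
    (τ (f * g)).order = (τ f).order + (τ g).order := by
  rw [map_mul, ls_order_mul ((map_ne_zero_iff τ τ.injective).mpr hf)
    ((map_ne_zero_iff τ τ.injective).mpr hg)]

theorem emb_order_inv (τ : F →+* LaurentSeries k) (f : F) :
    (τ f⁻¹).order = -(τ f).order := by
  rw [map_inv₀, ls_order_inv]

theorem emb_order_pow (τ : F →+* LaurentSeries k) {f : F} (hf : f ≠ 0) (n : ℕ) :
    (τ (f ^ n)).order = n * (τ f).order := by
  rw [map_pow, ls_order_pow ((map_ne_zero_iff τ τ.injective).mpr hf)]

/-- membership in the maximal ideal of `embSubring τ` -/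
theorem mem_maximalIdeal_embSubring (τ : F →+* LaurentSeries k) (a : embSubring τ) :
    a ∈ IsLocalRing.maximalIdeal (embSubring τ) ↔ a = 0 ∨ 0 < (τ (a : F)).order := by
  rw [IsLocalRing.mem_maximalIdeal, mem_nonunits_iff]
  constructor
  · intro h
    by_contra hcon
    rw [not_or, not_lt] at hcon
    apply h
    have ha0 : (a : F) ≠ 0 := fun h0 => hcon.1 (Subtype.ext h0)
    have h0 : (τ (a : F)).order = 0 := le_antisymm hcon.2 a.2
    have hinv : (a : F)⁻¹ ∈ embSubring τ := by
      rw [mem_embSubring, emb_order_inv, h0, neg_zero]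
    refine IsUnit.of_mul_eq_one (⟨(a : F)⁻¹, hinv⟩ : embSubring τ) ?_
    apply Subtype.ext
    show (a : F) * (a : F)⁻¹ = 1
    exact mul_inv_cancel₀ ha0
  · rintro (h | h) hu
    · rw [h] at hu
      exact not_isUnit_zero hu
    · obtain ⟨u, rfl⟩ := hu
      have h1 : ((u : embSubring τ) : F) * (((u⁻¹ : (embSubring τ)ˣ) : embSubring τ) : F) = 1 := by
        have h := Units.mul_inv u
        exact congrArg (fun z : embSubring τ => (z : F)) h
      have hu0 : ((u : embSubring τ) : F) ≠ 0 := left_ne_zero_of_mul_eq_one h1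
      have hv0 : (((u⁻¹ : (embSubring τ)ˣ) : embSubring τ) : F) ≠ 0 :=
        right_ne_zero_of_mul_eq_one h1
      have h2 := emb_order_mul τ hu0 hv0
      rw [h1, map_one, HahnSeries.order_one] at h2
      have h4 : 0 ≤ (τ (((u⁻¹ : (embSubring τ)ˣ) : embSubring τ) : F)).order :=
        ((u⁻¹ : (embSubring τ)ˣ) : embSubring τ).2
      omega

end EmbSubring

section Centre

variable {k F : Type*} [Field k] [Field F] [Algebra k F]
variable (y : F) [FiniteDimensional k⟮y⟯ F] [Algebra.IsSeparable k⟮y⟯ F]
variable (τ : F →+* LaurentSeries k)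

theorem polyRing_mem_emb (hτk : ∀ c : k, 0 ≤ (τ (algebraMap k F c)).order)
    (hτy : 0 ≤ (τ y).order) (r : polyRing (K := k) y) : (r : F) ∈ embSubring τ := by
  let Ow : Subalgebra k F :=
    { (embSubring τ).toSubring with
      algebraMap_mem' := fun c => hτk c }
  have h : polyRing (K := k) y ≤ Ow := Algebra.adjoin_le (by
    rintro z (rfl : z = y)
    exact hτy)
  exact h r.2

theorem intClosure_mem_emb (hτk : ∀ c : k, 0 ≤ (τ (algebraMap k F c)).order)
    (hτy : 0 ≤ (τ y).order) (s : intClosure (K := k) y) : (s : F) ∈ embSubring τ := by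
  have hR : ∀ r : polyRing (K := k) y, algebraMap (polyRing (K := k) y) F r
      ∈ (embSubring τ).toSubring := fun r => polyRing_mem_emb y τ hτk hτy r
  let _ : Algebra (polyRing (K := k) y) (embSubring τ) :=
    ((algebraMap (polyRing (K := k) y) F).codRestrict (embSubring τ).toSubring hR).toAlgebra
  have : IsScalarTower (polyRing (K := k) y) (embSubring τ) F :=
    IsScalarTower.of_algebraMap_eq fun f => rfl
  have hs : IsIntegral (embSubring τ) (s : F) := (s.2 : IsIntegral _ (s : F)).tower_top
  obtain ⟨z, hz⟩ := IsIntegrallyClosed.isIntegral_iff.mp hs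
  exact hz ▸ z.2

/-- The inclusion of the integral closure of `k[y]` into the valuation ring of an embedding
at which `y` is integral. -/
def inclEmb (hτk : ∀ c : k, 0 ≤ (τ (algebraMap k F c)).order)
    (hτy : 0 ≤ (τ y).order) : intClosure (K := k) y →+* embSubring τ where
  toFun s := ⟨(s : F), intClosure_mem_emb y τ hτk hτy s⟩
  map_one' := rfl
  map_mul' _ _ := rfl
  map_zero' := rfl
  map_add' _ _ := rfl

/-- The centre on the integral closure of `k[y]` of an embedding. -/
def primeOfEmb (hτk : ∀ c : k, 0 ≤ (τ (algebraMap k F c)).order)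
    (hτy : 0 ≤ (τ y).order) : Ideal (intClosure (K := k) y) :=
  Ideal.comap (inclEmb y τ hτk hτy) (IsLocalRing.maximalIdeal (embSubring τ))

instance primeOfEmb_isPrime (hτk : ∀ c : k, 0 ≤ (τ (algebraMap k F c)).order)
    (hτy : 0 ≤ (τ y).order) : (primeOfEmb y τ hτk hτy).IsPrime :=
  Ideal.comap_isPrime _ _

theorem mem_primeOfEmb (hτk : ∀ c : k, 0 ≤ (τ (algebraMap k F c)).order)
    (hτy : 0 ≤ (τ y).order) (s : intClosure (K := k) y) :
    s ∈ primeOfEmb y τ hτk hτy ↔ s = 0 ∨ 0 < (τ (s : F)).order := by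
  rw [primeOfEmb, Ideal.mem_comap, mem_maximalIdeal_embSubring]
  constructor
  · rintro (h | h)
    · left
      have := congrArg Subtype.val h
      exact Subtype.ext this
    · exact Or.inr h
  · rintro (h | h)
    · left
      rw [h, map_zero]
    · exact Or.inr h

theorem order_eq_zero_of_not_mem_primeOfEmb (hτk : ∀ c : k, 0 ≤ (τ (algebraMap k F c)).order)
    (hτy : 0 ≤ (τ y).order) {s : intClosure (K := k) y} (hs : s ∉ primeOfEmb y τ hτk hτy) :
    (s : F) ≠ 0 ∧ (τ (s : F)).order = 0 := by
  rw [mem_primeOfEmb, not_or, not_lt] at hs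
  exact ⟨fun h => hs.1 (Subtype.ext h),
    le_antisymm hs.2 (intClosure_mem_emb y τ hτk hτy s)⟩

theorem embSubring_ne_top (hτy : 0 < (τ y).order) : embSubring τ ≠ ⊤ := by
  intro htop
  have h : y⁻¹ ∈ embSubring τ := htop ▸ ValuationSubring.mem_top _
  rw [mem_embSubring, emb_order_inv] at h
  omega

/-- If a place and an embedding have the same centre on the integral closure of `k[y]`, the
place is induced by the embedding. -/
theorem toValuationSubring_eq_embSubring (hτk : ∀ c : k, 0 ≤ (τ (algebraMap k F c)).order)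
    (hτy : 0 < (τ y).order) (Q : Place k F) (hQ : y ∈ Q.toValuationSubring)
    (h : primeOfPlace y Q hQ = primeOfEmb y τ hτk hτy.le) :
    Q.toValuationSubring = embSubring τ := by
  have hQ' := ofHeightOneSpectrum_heightOneOfPlace y Q hQ
  rw [← hQ', Place.ofHeightOneSpectrum_toValuationSubring]
  haveI : Ring.KrullDimLE 1 ((heightOneOfPlace y Q hQ).valuation F).valuationSubring := by
    have h1 : ((heightOneOfPlace y Q hQ).valuation F).valuationSubring = Q.toValuationSubring := by
      rw [← Place.ofHeightOneSpectrum_toValuationSubring (K := k), hQ']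
    rw [h1]
    infer_instance
  refine ValuationSubring.eq_of_le_of_ne_top _ ?_ (embSubring_ne_top y τ hτy)
  intro f hf
  rw [Valuation.mem_valuationSubring_iff] at hf
  obtain ⟨n, d, hnd⟩ := (heightOneOfPlace y Q hQ).exists_primeCompl_mul_eq_of_integer f hf
  have hd : (d : intClosure (K := k) y) ∉ primeOfEmb y τ hτk hτy.le := by
    rw [← h]
    exact d.2
  obtain ⟨hd0, hdord⟩ := order_eq_zero_of_not_mem_primeOfEmb y τ hτk hτy.le hd
  have hn : 0 ≤ (τ ((n : intClosure (K := k) y) : F)).order :=
    intClosure_mem_emb y τ hτk hτy.le n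
  have hf' : f = ((n : intClosure (K := k) y) : F) * ((d : intClosure (K := k) y) : F)⁻¹ := by
    have : f * ((d : intClosure (K := k) y) : F) = ((n : intClosure (K := k) y) : F) := hnd
    rw [← this]
    field_simp
  rcases eq_or_ne ((n : intClosure (K := k) y) : F) 0 with hn0 | hn0
  · rw [hf', hn0, zero_mul]
    exact zero_mem _
  rw [mem_embSubring, hf', emb_order_mul τ hn0 (inv_ne_zero hd0), emb_order_inv, hdord]
  omega

end Centre

section Main

open Ideal

variable {k F : Type*} [Field k] [Field F] [Algebra k F]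
variable {y : F} [FiniteDimensional k⟮y⟯ F] [Algebra.IsSeparable k⟮y⟯ F]
variable {ι : Type*} [Fintype ι] (σ : ι → (F →+* LaurentSeries k))

/-- all the embeddings agree on `k(y)` -/
theorem emb_eq_on_adjoin
    (hconst : ∀ i c, σ i (algebraMap k F c) = algebraMap k (LaurentSeries k) c)
    (Y : LaurentSeries k) (hY : ∀ i, σ i y = Y) (i j : ι) (z : k⟮y⟯) :
    σ i (z : F) = σ j (z : F) := by
  let E : IntermediateField k F :=
    (RingHom.eqLocusField (σ i) (σ j)).toIntermediateField (fun c => by
      show σ i _ = σ j _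
      rw [hconst, hconst])
  have hyE : y ∈ E := by
    show σ i y = σ j y
    rw [hY, hY]
  have hle : k⟮y⟯ ≤ E :=
    IntermediateField.adjoin_le_iff.mpr (Set.singleton_subset_iff.mpr hyE)
  exact hle z.2

theorem emb_const_nonneg
    (hconst : ∀ i c, σ i (algebraMap k F c) = algebraMap k (LaurentSeries k) c) (i : ι)
    (c : k) : 0 ≤ (σ i (algebraMap k F c)).order := by
  rw [hconst, ls_order_algebraMap]

/-- **Norm step**: an element of the centre of a zero `Q` of `y` lies in the centre of one of
the embeddings. -/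
theorem exists_mem_primeOfEmb (hy : Transcendental k y) (hσ : Function.Injective σ)
    (hconst : ∀ i c, σ i (algebraMap k F c) = algebraMap k (LaurentSeries k) c)
    (Y : LaurentSeries k) (hY : ∀ i, σ i y = Y) (hYord : 0 < Y.order)
    (hcard : Fintype.card ι = Module.finrank k⟮y⟯ F)
    (Q : Place k F) (hQ : 0 < Q.ord y) (f : intClosure (K := k) y)
    (hf : f ∈ primeOfPlace y Q (mem_of_ord_pos Q hQ)) :
    ∃ i, f ∈ primeOfEmb y (σ i) (emb_const_nonneg σ hconst i) (by rw [hY i]; exact hYord.le) := by
  by_contra hcon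
  push Not at hcon
  have hyi : ∀ i, 0 ≤ (σ i y).order := fun i => by rw [hY i]; exact hYord.le
  have hord : ∀ i, (f : F) ≠ 0 ∧ (σ i (f : F)).order = 0 := fun i =>
    order_eq_zero_of_not_mem_primeOfEmb y (σ i) (emb_const_nonneg σ hconst i) (hyi i) (hcon i)
  -- the index set is nonempty
  have hpos : 0 < Fintype.card ι := by
    rw [hcard]
    exact Module.finrank_pos
  obtain ⟨i₀⟩ := Fintype.card_pos_iff.mp hpos
  -- the integral norm
  set N : polyRing (K := k) y :=
    Algebra.intNorm (polyRing (K := k) y) (intClosure (K := k) y) f with hN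
  have hdvd : f ∣ algebraMap (polyRing (K := k) y) (intClosure (K := k) y) N :=
    Algebra.dvd_algebraMap_intNorm_self _ _ f
  have hNmem : algebraMap (polyRing (K := k) y) (intClosure (K := k) y) N
      ∈ primeOfPlace y Q (mem_of_ord_pos Q hQ) := Ideal.mem_of_dvd _ hdvd hf
  have hNunder : N ∈ (primeOfPlace y Q (mem_of_ord_pos Q hQ)).under (polyRing (K := k) y) :=
    hNmem
  rw [primeOfPlace_under hy Q hQ, pX, Ideal.mem_span_singleton] at hNunder
  obtain ⟨r, hr⟩ := hNunder
  -- the norm as a product over the embeddings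
  have hnorm : algebraMap (polyRing (K := k) y) k⟮y⟯ N
      = Algebra.norm k⟮y⟯ (algebraMap (intClosure (K := k) y) F f) :=
    Algebra.algebraMap_intNorm (L := F) f
  let σ₀ : k⟮y⟯ →+* LaurentSeries k := (σ i₀).comp (algebraMap k⟮y⟯ F)
  have hcomp : ∀ i, (σ i).comp (algebraMap k⟮y⟯ F) = σ₀ := by
    intro i
    ext z : 1
    exact emb_eq_on_adjoin σ hconst Y hY i i₀ z
  have hprod := Fermat.Agent.P2.helper93.norm_eq_prod_of_embeddings σ₀ σ hσ hcomp hcard
    (algebraMap (intClosure (K := k) y) F f)
  rw [← hnorm] at hprod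
  have hleft : σ₀ (algebraMap (polyRing (K := k) y) k⟮y⟯ N) = σ i₀ ((N : polyRing (K := k) y) : F) :=
    rfl
  rw [hleft] at hprod
  obtain ⟨hp0, hpord⟩ := ls_order_prod_eq_zero Finset.univ
    (fun i => σ i (algebraMap (intClosure (K := k) y) F f)) (fun i _ => by
      refine ⟨?_, (hord i).2⟩
      exact (map_ne_zero_iff (σ i) (σ i).injective).mpr (hord i).1)
  rw [← hprod] at hp0 hpord
  -- but the norm is divisible by `y`
  have hNF : ((N : polyRing (K := k) y) : F) = y * ((r : polyRing (K := k) y) : F) := by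
    rw [hr]
    rfl
  have hN0 : ((N : polyRing (K := k) y) : F) ≠ 0 := fun h => hp0 (by rw [h, map_zero])
  have hy0 : y ≠ 0 := fun h => hy (h ▸ isAlgebraic_zero)
  have hr0 : ((r : polyRing (K := k) y) : F) ≠ 0 := by
    intro h
    apply hN0
    rw [hNF, h, mul_zero]
  have hrord : 0 ≤ (σ i₀ ((r : polyRing (K := k) y) : F)).order :=
    polyRing_mem_emb y (σ i₀) (emb_const_nonneg σ hconst i₀) (hyi i₀) r
  rw [hNF, emb_order_mul (σ i₀) hy0 hr0, hY i₀] at hpord
  omega

/-- **(C3), abstract form, zeros**: every zero of `y` is induced by one of the embeddings. -/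
theorem exists_induced_of_zero (hy : Transcendental k y) (hσ : Function.Injective σ)
    (hconst : ∀ i c, σ i (algebraMap k F c) = algebraMap k (LaurentSeries k) c)
    (Y : LaurentSeries k) (hY : ∀ i, σ i y = Y) (hYord : 0 < Y.order)
    (hcard : Fintype.card ι = Module.finrank k⟮y⟯ F)
    (Q : Place k F) (hQ : 0 < Q.ord y) :
    ∃ i, ∀ f : F, f ∈ Q.toValuationSubring ↔ 0 ≤ (σ i f).order := by
  classical
  have hyi : ∀ i, 0 < (σ i y).order := fun i => by rw [hY i]; exact hYord
  have hpos : 0 < Fintype.card ι := by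
    rw [hcard]
    exact Module.finrank_pos
  obtain ⟨i₀⟩ := Fintype.card_pos_iff.mp hpos
  have hsub : ((primeOfPlace y Q (mem_of_ord_pos Q hQ) : Ideal (intClosure (K := k) y)) :
      Set (intClosure (K := k) y)) ⊆ ⋃ i ∈ ((Finset.univ : Finset ι) : Set ι),
        ((primeOfEmb y (σ i) (emb_const_nonneg σ hconst i) (hyi i).le :
          Ideal (intClosure (K := k) y)) : Set (intClosure (K := k) y)) := by
    intro f hf
    obtain ⟨i, hi⟩ := exists_mem_primeOfEmb σ hy hσ hconst Y hY hYord hcard Q hQ f hf
    exact Set.mem_biUnion (Finset.mem_coe.mpr (Finset.mem_univ i)) hi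
  obtain ⟨i, -, hle⟩ := (Ideal.subset_union_prime (s := Finset.univ)
    (f := fun i => primeOfEmb y (σ i) (emb_const_nonneg σ hconst i) (hyi i).le) i₀ i₀
    (fun i _ _ _ => primeOfEmb_isPrime y (σ i) _ _)).mp hsub
  have hmax : (primeOfPlace y Q (mem_of_ord_pos Q hQ)).IsMaximal :=
    (primeOfPlace_isPrime y Q _).isMaximal (primeOfPlace_ne_bot y Q _)
  have heq : primeOfPlace y Q (mem_of_ord_pos Q hQ)
      = primeOfEmb y (σ i) (emb_const_nonneg σ hconst i) (hyi i).le :=
    hmax.eq_of_le (primeOfEmb_isPrime y (σ i) _ _).ne_top hle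
  have hV := toValuationSubring_eq_embSubring y (σ i) (emb_const_nonneg σ hconst i) (hyi i) Q
    (mem_of_ord_pos Q hQ) heq
  refine ⟨i, fun f => ?_⟩
  rw [hV]
  exact Iff.rfl

end Main

section PlaceOfEmb

open Ideal

variable {k F : Type*} [Field k] [Field F] [Algebra k F]
variable {y : F} [FiniteDimensional k⟮y⟯ F] [Algebra.IsSeparable k⟮y⟯ F]
variable (τ : F →+* LaurentSeries k)

theorem xS_mem_primeOfEmb (hτk : ∀ c : k, 0 ≤ (τ (algebraMap k F c)).order)
    (hτy : 0 < (τ y).order) : xS y ∈ primeOfEmb y τ hτk hτy.le :=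
  (mem_primeOfEmb y τ hτk hτy.le _).mpr (Or.inr hτy)

theorem primeOfEmb_under (hy : Transcendental k y)
    (hτk : ∀ c : k, 0 ≤ (τ (algebraMap k F c)).order) (hτy : 0 < (τ y).order) :
    (primeOfEmb y τ hτk hτy.le).under (polyRing (K := k) y) = pX y := by
  have hmax := pX_isMaximal hy
  symm
  apply hmax.eq_of_le
  · exact (Ideal.IsPrime.under _ _).ne_top
  · rw [pX, Ideal.span_le, Set.singleton_subset_iff]
    exact xS_mem_primeOfEmb τ hτk hτy

theorem primeOfEmb_mem_primesOver (hy : Transcendental k y)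
    (hτk : ∀ c : k, 0 ≤ (τ (algebraMap k F c)).order) (hτy : 0 < (τ y).order) :
    primeOfEmb y τ hτk hτy.le ∈ Ideal.primesOver (pX (K := k) y) (intClosure (K := k) y) :=
  ⟨primeOfEmb_isPrime y τ hτk hτy.le, ⟨(primeOfEmb_under τ hy hτk hτy).symm⟩⟩

/-- the place of `F` induced by an embedding `τ : F → k((s))` at which `y` vanishes -/
def placeOfEmb (hy : Transcendental k y)
    (hτk : ∀ c : k, 0 ≤ (τ (algebraMap k F c)).order) (hτy : 0 < (τ y).order) : Place k F :=
  placeOfPrimeOver hy (primeOfEmb y τ hτk hτy.le) (primeOfEmb_mem_primesOver τ hy hτk hτy)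

theorem placeOfEmb_ord_pos (hy : Transcendental k y)
    (hτk : ∀ c : k, 0 ≤ (τ (algebraMap k F c)).order) (hτy : 0 < (τ y).order) :
    0 < (placeOfEmb τ hy hτk hτy).ord y :=
  placeOfPrimeOver_ord_pos hy _ _

theorem placeOfEmb_toValuationSubring (hy : Transcendental k y)
    (hτk : ∀ c : k, 0 ≤ (τ (algebraMap k F c)).order) (hτy : 0 < (τ y).order) :
    (placeOfEmb τ hy hτk hτy).toValuationSubring = embSubring τ :=
  toValuationSubring_eq_embSubring y τ hτk hτy _
    (mem_of_ord_pos _ (placeOfEmb_ord_pos τ hy hτk hτy))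
    (primeOfPlace_placeOfPrimeOver hy _ _)

theorem mem_placeOfEmb (hy : Transcendental k y)
    (hτk : ∀ c : k, 0 ≤ (τ (algebraMap k F c)).order) (hτy : 0 < (τ y).order) (f : F) :
    f ∈ (placeOfEmb τ hy hτk hτy).toValuationSubring ↔ 0 ≤ (τ f).order := by
  rw [placeOfEmb_toValuationSubring]
  exact Iff.rfl

theorem placeOfEmb_ord_nonneg_iff (hy : Transcendental k y)
    (hτk : ∀ c : k, 0 ≤ (τ (algebraMap k F c)).order) (hτy : 0 < (τ y).order) (f : F) :
    0 ≤ (placeOfEmb τ hy hτk hτy).ord f ↔ 0 ≤ (τ f).order := by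
  rw [← place_mem_iff_ord_nonneg, mem_placeOfEmb]

/-- a place whose valuation ring is the one of the embedding is `placeOfEmb` -/
theorem eq_placeOfEmb (hy : Transcendental k y)
    (hτk : ∀ c : k, 0 ≤ (τ (algebraMap k F c)).order) (hτy : 0 < (τ y).order)
    (Q : Place k F) (hQ : ∀ f : F, f ∈ Q.toValuationSubring ↔ 0 ≤ (τ f).order) :
    Q = placeOfEmb τ hy hτk hτy := by
  apply Place.ext
  ext f
  rw [hQ f, mem_placeOfEmb]

/-- the order of the expansion is a positive multiple of the order at the induced place -/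
theorem exists_order_eq_mul_ord (hy : Transcendental k y)
    (hτk : ∀ c : k, 0 ≤ (τ (algebraMap k F c)).order) (hτy : 0 < (τ y).order) :
    ∃ e : ℤ, 0 < e ∧ ∀ f : F, f ≠ 0 → (τ f).order = e * (placeOfEmb τ hy hτk hτy).ord f := by
  set P := placeOfEmb τ hy hτk hτy with hP
  obtain ⟨ϖ, hϖ⟩ := IsDiscreteValuationRing.exists_irreducible P.toValuationSubring
  have hϖ0 : (ϖ : F) ≠ 0 := by
    simpa [ne_eq, ZeroMemClass.coe_eq_zero] using hϖ.ne_zero
  have hord : P.ord (ϖ : F) = 1 := P.ord_coe_irreducible hϖ
  have hunit : ∀ g : F, g ≠ 0 → P.ord g = 0 → (τ g).order = 0 := by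
    intro g hg0 hg
    have h1 : 0 ≤ (τ g).order := (placeOfEmb_ord_nonneg_iff τ hy hτk hτy g).mp hg.ge
    have h2 : 0 ≤ (τ g⁻¹).order :=
      (placeOfEmb_ord_nonneg_iff τ hy hτk hτy g⁻¹).mp (by rw [P.ord_inv, hg, neg_zero])
    rw [emb_order_inv] at h2
    omega
  have hepos : 0 < (τ (ϖ : F)).order := by
    have h1 : 0 ≤ (τ (ϖ : F)).order := (mem_placeOfEmb τ hy hτk hτy _).mp ϖ.2
    rcases h1.lt_or_eq with h | h
    · exact h
    · exfalso
      have h2 : 0 ≤ P.ord (ϖ : F)⁻¹ := by
        rw [placeOfEmb_ord_nonneg_iff, emb_order_inv, ← h, neg_zero]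
      rw [P.ord_inv, hord] at h2
      omega
  refine ⟨(τ (ϖ : F)).order, hepos, fun f hf => ?_⟩
  -- `f = u ϖ ^ n` with `u` of order `0`
  set n := P.ord f with hn
  have hzp : ∀ m : ℤ, (τ ((ϖ : F) ^ m)).order = m * (τ (ϖ : F)).order := by
    intro m
    rcases m with m | m
    · have h := emb_order_pow τ hϖ0 m
      rw [Int.ofNat_eq_natCast, zpow_natCast]
      exact h
    · rw [Int.negSucc_eq, zpow_neg, emb_order_inv]
      have h := emb_order_pow τ hϖ0 (m + 1)
      rw [← zpow_natCast] at h
      push_cast at h ⊢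
      rw [h]
      ring
  have hg0 : f * ((ϖ : F) ^ n)⁻¹ ≠ 0 := mul_ne_zero hf (inv_ne_zero (zpow_ne_zero _ hϖ0))
  have hgord : P.ord (f * ((ϖ : F) ^ n)⁻¹) = 0 := by
    rw [P.ord_mul hf (inv_ne_zero (zpow_ne_zero _ hϖ0)), P.ord_inv, P.ord_zpow, hord]
    omega
  have h3 := hunit _ hg0 hgord
  rw [emb_order_mul τ hf (inv_ne_zero (zpow_ne_zero _ hϖ0)), emb_order_inv, hzp] at h3
  linarith

end PlaceOfEmb

section Poles

variable {k F : Type*} [Field k] [Field F] [Algebra k F]

theorem adjoin_inv_eq' (x : F) : k⟮x⁻¹⟯ = k⟮x⟯ := by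
  apply le_antisymm
  · exact IntermediateField.adjoin_le_iff.mpr (Set.singleton_subset_iff.mpr
      (inv_mem (IntermediateField.mem_adjoin_simple_self k x)))
  · refine IntermediateField.adjoin_le_iff.mpr (Set.singleton_subset_iff.mpr ?_)
    have h := inv_mem (IntermediateField.mem_adjoin_simple_self k x⁻¹)
    rwa [inv_inv] at h

theorem inv_instances (x : F) [FiniteDimensional k⟮x⟯ F] [Algebra.IsSeparable k⟮x⟯ F] :
    FiniteDimensional k⟮x⁻¹⟯ F ∧ Algebra.IsSeparable k⟮x⁻¹⟯ F ∧
      Module.finrank k⟮x⁻¹⟯ F = Module.finrank k⟮x⟯ F := by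
  rw [adjoin_inv_eq']
  exact ⟨inferInstance, inferInstance, rfl⟩

theorem transcendental_inv {x : F} (hx : Transcendental k x) : Transcendental k x⁻¹ := by
  intro h
  apply hx
  have := h.inv
  rwa [inv_inv] at this

variable {x : F} [FiniteDimensional k⟮x⟯ F] [Algebra.IsSeparable k⟮x⟯ F]
variable {ι : Type*} [Fintype ι] (σ : ι → (F →+* LaurentSeries k))

/-- **(C3), abstract form**: if `σ` is a family of `[F : k(x)]` pairwise distinct
`k`-embeddings `F → k((s))` with the same value `σ i x = X` of negative order, then every pole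
`Q` of `x` is induced by one of the `σ i`. -/
theorem exists_induced_of_pole (hx : Transcendental k x) (hσ : Function.Injective σ)
    (hconst : ∀ i c, σ i (algebraMap k F c) = algebraMap k (LaurentSeries k) c)
    (X : LaurentSeries k) (hX : ∀ i, σ i x = X) (hXord : X.order < 0)
    (hcard : Fintype.card ι = Module.finrank k⟮x⟯ F)
    (Q : Place k F) (hQ : Q.ord x < 0) :
    ∃ i, ∀ f : F, f ∈ Q.toValuationSubring ↔ 0 ≤ (σ i f).order := by
  obtain ⟨hfd, hsep, hrk⟩ := inv_instances (k := k) x
  refine exists_induced_of_zero (y := x⁻¹) σ (transcendental_inv hx) hσ hconst X⁻¹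
    (fun i => by rw [map_inv₀, hX i]) (by rw [ls_order_inv]; omega) (by rw [hcard, hrk]) Q
    (by rw [Q.ord_inv]; omega)

/-- **regularity criterion**: a function whose expansions have no pole is regular at all the
poles of `x`. -/
theorem ord_nonneg_of_forall_order_nonneg (hx : Transcendental k x)
    (hσ : Function.Injective σ)
    (hconst : ∀ i c, σ i (algebraMap k F c) = algebraMap k (LaurentSeries k) c)
    (X : LaurentSeries k) (hX : ∀ i, σ i x = X) (hXord : X.order < 0)
    (hcard : Fintype.card ι = Module.finrank k⟮x⟯ F)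
    (f : F) (hf : ∀ i, 0 ≤ (σ i f).order) (Q : Place k F) (hQ : Q.ord x < 0) :
    0 ≤ Q.ord f := by
  obtain ⟨i, hi⟩ := exists_induced_of_pole σ hx hσ hconst X hX hXord hcard Q hQ
  exact place_ord_nonneg_of_mem Q ((hi f).mpr (hf i))

/-- the place induced by the embedding `σ i` (a pole of `x`) -/
def polePlace (hx : Transcendental k x)
    (hconst : ∀ i c, σ i (algebraMap k F c) = algebraMap k (LaurentSeries k) c)
    (X : LaurentSeries k) (hX : ∀ i, σ i x = X) (hXord : X.order < 0) (i : ι) : Place k F :=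
  haveI := (inv_instances (k := k) x).1
  haveI := (inv_instances (k := k) x).2.1
  placeOfEmb (y := x⁻¹) (σ i) (transcendental_inv hx) (emb_const_nonneg σ hconst i)
    (by rw [map_inv₀, hX i, ls_order_inv]; omega)

theorem mem_polePlace (hx : Transcendental k x)
    (hconst : ∀ i c, σ i (algebraMap k F c) = algebraMap k (LaurentSeries k) c)
    (X : LaurentSeries k) (hX : ∀ i, σ i x = X) (hXord : X.order < 0) (i : ι) (f : F) :
    f ∈ (polePlace σ hx hconst X hX hXord i).toValuationSubring ↔ 0 ≤ (σ i f).order := by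
  haveI := (inv_instances (k := k) x).1
  haveI := (inv_instances (k := k) x).2.1
  exact mem_placeOfEmb (y := x⁻¹) (σ i) _ _ _ f

theorem polePlace_ord_nonneg_iff (hx : Transcendental k x)
    (hconst : ∀ i c, σ i (algebraMap k F c) = algebraMap k (LaurentSeries k) c)
    (X : LaurentSeries k) (hX : ∀ i, σ i x = X) (hXord : X.order < 0) (i : ι) (f : F) :
    0 ≤ (polePlace σ hx hconst X hX hXord i).ord f ↔ 0 ≤ (σ i f).order := by
  rw [← place_mem_iff_ord_nonneg, mem_polePlace]

theorem polePlace_ord_neg (hx : Transcendental k x)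
    (hconst : ∀ i c, σ i (algebraMap k F c) = algebraMap k (LaurentSeries k) c)
    (X : LaurentSeries k) (hX : ∀ i, σ i x = X) (hXord : X.order < 0) (i : ι) :
    (polePlace σ hx hconst X hX hXord i).ord x < 0 := by
  by_contra h
  push Not at h
  have := (polePlace_ord_nonneg_iff σ hx hconst X hX hXord i x).mp h
  rw [hX i] at this
  omega

/-- the order of the expansion is a positive multiple of the order at the induced place -/
theorem exists_order_eq_mul_polePlace (hx : Transcendental k x)
    (hconst : ∀ i c, σ i (algebraMap k F c) = algebraMap k (LaurentSeries k) c)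
    (X : LaurentSeries k) (hX : ∀ i, σ i x = X) (hXord : X.order < 0) (i : ι) :
    ∃ e : ℤ, 0 < e ∧ ∀ f : F, f ≠ 0 →
      (σ i f).order = e * (polePlace σ hx hconst X hX hXord i).ord f := by
  haveI := (inv_instances (k := k) x).1
  haveI := (inv_instances (k := k) x).2.1
  exact exists_order_eq_mul_ord (y := x⁻¹) (σ i) _ _ _

/-- every pole of `x` is one of the `polePlace`s -/
theorem exists_eq_polePlace (hx : Transcendental k x) (hσ : Function.Injective σ)
    (hconst : ∀ i c, σ i (algebraMap k F c) = algebraMap k (LaurentSeries k) c)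
    (X : LaurentSeries k) (hX : ∀ i, σ i x = X) (hXord : X.order < 0)
    (hcard : Fintype.card ι = Module.finrank k⟮x⟯ F)
    (Q : Place k F) (hQ : Q.ord x < 0) :
    ∃ i, Q = polePlace σ hx hconst X hX hXord i := by
  obtain ⟨i, hi⟩ := exists_induced_of_pole σ hx hσ hconst X hX hXord hcard Q hQ
  refine ⟨i, ?_⟩
  apply Place.ext
  ext f
  rw [hi f, mem_polePlace]

/-- two embeddings with the same regular functions induce the same place -/
theorem polePlace_eq_of_forall (hx : Transcendental k x)
    (hconst : ∀ i c, σ i (algebraMap k F c) = algebraMap k (LaurentSeries k) c)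
    (X : LaurentSeries k) (hX : ∀ i, σ i x = X) (hXord : X.order < 0) {i j : ι}
    (h : ∀ f : F, 0 ≤ (σ i f).order ↔ 0 ≤ (σ j f).order) :
    polePlace σ hx hconst X hX hXord i = polePlace σ hx hconst X hX hXord j := by
  apply Place.ext
  ext f
  rw [mem_polePlace, mem_polePlace, h f]

/-- **count**: if the embeddings are grouped into classes `c : ι → κ` such that embeddings in
the same class have the same regular functions, `x` has at most `|κ|` poles. -/
theorem exists_finset_poles (hx : Transcendental k x) (hσ : Function.Injective σ)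
    (hconst : ∀ i c, σ i (algebraMap k F c) = algebraMap k (LaurentSeries k) c)
    (X : LaurentSeries k) (hX : ∀ i, σ i x = X) (hXord : X.order < 0)
    (hcard : Fintype.card ι = Module.finrank k⟮x⟯ F)
    {κ : Type*} [Fintype κ] (c : ι → κ)
    (hc : ∀ i j, c i = c j → ∀ f : F, 0 ≤ (σ i f).order ↔ 0 ≤ (σ j f).order) :
    ∃ T : Finset (Place k F), (∀ Q : Place k F, Q.ord x < 0 ↔ Q ∈ T) ∧
      T.card ≤ Fintype.card κ := by
  classical
  refine ⟨Finset.univ.image (polePlace σ hx hconst X hX hXord), fun Q => ⟨fun hQ => ?_, ?_⟩, ?_⟩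
  · obtain ⟨i, hi⟩ := exists_eq_polePlace σ hx hσ hconst X hX hXord hcard Q hQ
    exact Finset.mem_image.mpr ⟨i, Finset.mem_univ i, hi.symm⟩
  · intro hQ
    obtain ⟨i, -, rfl⟩ := Finset.mem_image.mp hQ
    exact polePlace_ord_neg σ hx hconst X hX hXord i
  · have hpos : 0 < Fintype.card ι := by
      rw [hcard]
      exact Module.finrank_pos
    obtain ⟨i₀⟩ := Fintype.card_pos_iff.mp hpos
    let g : κ → Place k F := fun a =>
      if h : ∃ i, c i = a then polePlace σ hx hconst X hX hXord h.choose
      else polePlace σ hx hconst X hX hXord i₀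
    have himg : Finset.univ.image (polePlace σ hx hconst X hX hXord)
        ⊆ Finset.univ.image g := by
      intro P hP
      obtain ⟨i, -, rfl⟩ := Finset.mem_image.mp hP
      refine Finset.mem_image.mpr ⟨c i, Finset.mem_univ _, ?_⟩
      have hex : ∃ j, c j = c i := ⟨i, rfl⟩
      show (if h : ∃ j, c j = c i then polePlace σ hx hconst X hX hXord h.choose
        else polePlace σ hx hconst X hX hXord i₀) = _
      rw [dif_pos hex]
      exact polePlace_eq_of_forall σ hx hconst X hX hXord (hc _ _ hex.choose_spec)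
    calc (Finset.univ.image (polePlace σ hx hconst X hX hXord)).card
        ≤ (Finset.univ.image g).card := Finset.card_le_card himg
      _ ≤ (Finset.univ : Finset κ).card := Finset.card_image_le
      _ = Fintype.card κ := Finset.card_univ

/-- the elements of a group acting on the index set which preserve the regular functions of
the embeddings form a subgroup -/
def regStab {G : Type*} [Group G] [MulAction G ι] : Subgroup G where
  carrier := {g | ∀ (i : ι) (f : F), 0 ≤ (σ (g • i) f).order ↔ 0 ≤ (σ i f).order}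
  mul_mem' := by
    intro a b ha hb i f
    rw [mul_smul, ha (b • i) f, hb i f]
  one_mem' := by
    intro i f
    rw [one_smul]
  inv_mem' := by
    intro a ha i f
    have h := ha (a⁻¹ • i) f
    rw [smul_inv_smul] at h
    exact h.symm

theorem mem_regStab {G : Type*} [Group G] [MulAction G ι] (g : G) :
    g ∈ regStab (G := G) σ ↔
      ∀ (i : ι) (f : F), 0 ≤ (σ (g • i) f).order ↔ 0 ≤ (σ i f).order := Iff.rfl

/-- **count, orbit form**: if a group `G` acts on the index set and preserves the regular
functions of the embeddings, `x` has at most as many poles as there are `G`-orbits. -/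
theorem exists_finset_poles_orbit (hx : Transcendental k x) (hσ : Function.Injective σ)
    (hconst : ∀ i c, σ i (algebraMap k F c) = algebraMap k (LaurentSeries k) c)
    (X : LaurentSeries k) (hX : ∀ i, σ i x = X) (hXord : X.order < 0)
    (hcard : Fintype.card ι = Module.finrank k⟮x⟯ F)
    {G : Type*} [Group G] [MulAction G ι]
    (hG : ∀ (g : G) (i : ι) (f : F), 0 ≤ (σ (g • i) f).order ↔ 0 ≤ (σ i f).order) :
    ∃ T : Finset (Place k F), (∀ Q : Place k F, Q.ord x < 0 ↔ Q ∈ T) ∧
      T.card ≤ Nat.card (MulAction.orbitRel.Quotient G ι) := by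
  classical
  haveI : Fintype (MulAction.orbitRel.Quotient G ι) := Fintype.ofFinite _
  obtain ⟨T, hT, hTc⟩ := exists_finset_poles σ hx hσ hconst X hX hXord hcard
    (κ := MulAction.orbitRel.Quotient G ι) (fun i => Quotient.mk'' i) (by
      intro i j hij f
      have h : (MulAction.orbitRel G ι) i j := Quotient.eq''.mp hij
      rw [MulAction.orbitRel_apply] at h
      obtain ⟨g, rfl⟩ := h
      exact hG g j f)
  refine ⟨T, hT, ?_⟩
  rw [Nat.card_eq_fintype_card]
  exact hTc

/-- **count, cyclic form**: it suffices that ONE element `t` preserves the regular functions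
of the embeddings; then `x` has at most as many poles as there are `⟨t⟩`-orbits. -/
theorem exists_finset_poles_zpowers (hx : Transcendental k x) (hσ : Function.Injective σ)
    (hconst : ∀ i c, σ i (algebraMap k F c) = algebraMap k (LaurentSeries k) c)
    (X : LaurentSeries k) (hX : ∀ i, σ i x = X) (hXord : X.order < 0)
    (hcard : Fintype.card ι = Module.finrank k⟮x⟯ F)
    {G : Type*} [Group G] [MulAction G ι] (t : G)
    (ht : ∀ (i : ι) (f : F), 0 ≤ (σ (t • i) f).order ↔ 0 ≤ (σ i f).order) :
    ∃ T : Finset (Place k F), (∀ Q : Place k F, Q.ord x < 0 ↔ Q ∈ T) ∧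
      T.card ≤ Nat.card (MulAction.orbitRel.Quotient (Subgroup.zpowers t) ι) := by
  have hle : Subgroup.zpowers t ≤ regStab (G := G) σ :=
    (Subgroup.zpowers_le).mpr ((mem_regStab σ t).mpr ht)
  exact exists_finset_poles_orbit σ hx hσ hconst X hX hXord hcard
    (G := Subgroup.zpowers t) (fun g i f => (mem_regStab σ (g : G)).mp (hle g.2) i f)

end Poles

end

end Fermat.Agent.P2.helper95
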