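/-
P2-[GEN] (helper96): final wiring of genus equality and `SurjRedStatement`.

Inputs still open (hypotheses of `genusEq` / `surjRed`): `RegRedStatement`, `TameBaseStatement`,
`CuspBarStatement`, `GenusFormulaStatement`.  Everything else is wired:
`helper29.inftyStatement`, `helper81.scaleStatement`, `helper81.integralityStatement`,
`helper95.riemannSetting_FFb`, `helper95.riemannBar`, `helper74.riemannStatement`,
`helper39.hurwitz_inequality_fibres`, `helper68.genusLeBar_of`.
-/
import Mathlib
import Fermat.Agent.P2.helper96_Gen
import Fermat.Agent.P2.helper68_GenB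
import Fermat.Agent.P2.helper39_Hurwitz
import Fermat.Agent.P2.helper95_FFlInst
import Fermat.Agent.P2.helper29_Infty
import Fermat.Agent.P2.helper81_ValInt
import Fermat.Agent.P2.helper74_RieInst

set_option autoImplicit false
set_option synthInstance.maxHeartbeats 400000

noncomputable section

open HahnSeries IntermediateField AlgebraicCurve ModularCurve
open Fermat.Agent.S18.helper19 Fermat.Agent.P2.helper29

namespace Fermat.Agent.P2.helper96

/-- The Hurwitz inequality in count form holds over every algebraically closed field. -/
theorem hurwitzCount (k F : Type*) [Field k] [Field F] [Algebra k F] [IsAlgClosed k] :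
    HurwitzCount k F := by
  intro t ht hfd hsep g hg C Z Zinf hZ hZinf
  exact helper39.hurwitz_inequality_fibres t ht hg C Z hZ Zinf hZinf

/-- The Hurwitz inequality in count form for the special fibre field. -/
theorem hurwitzCount_FFb (M : ℕ) [NeZero M] (A : ValuationSubring Kb) :
    HurwitzCount (kA A) (FFb A M) :=
  haveI : IsAlgClosed (kA A) := helper95.isAlgClosed_residueField A
  hurwitzCount (kA A) (FFb A M)

variable (M : ℕ) [NeZero M] (A : ValuationSubring Kb)

/-- **[GEN-A]** `g̃ ≤ g` for every level `M` and every `A` over a prime not dividing `M`. -/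
theorem genusBarLe (h : PrimeToLevel M A) (hReg : RegRedStatement M A) :
    GenusBarLeStatement M A :=
  genusBarLe_of (inftyStatement M A) (helper81.scaleStatement M A h)
    (helper81.integralityStatement M A h) hReg (helper95.riemannSetting_FFb M A)

/-- **[GEN-B]** `g ≤ g̃` at good levels. -/
theorem genusLeBar (hM : 4 ∣ M ∨ 9 ∣ M) (hT : TameBaseStatement M A)
    (hC : CuspBarStatement M A) (hF : GenusFormulaStatement M) : GenusLeBarStatement M A :=
  helper68.genusLeBar_of M A hM hT hC hF (hurwitzCount_FFb M A)

/-- **[GEN]** genus equality for good pairs. -/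
theorem genusEq (hG : GoodPair M A) (hReg : RegRedStatement M A)
    (hT : TameBaseStatement M A) (hC : CuspBarStatement M A) (hF : GenusFormulaStatement M) :
    GenusEqStatement M A :=
  genusEq_of (helper74.riemannStatement (M := M)) (helper95.riemannBar M A)
    (genusBarLe M A hG.2 hReg) (genusLeBar M A hG.1 hT hC hF)

/-- **[SURJ]** surjectivity of the reduction `L(n ∞) → L(n ∞̃)` (large `n`) for good pairs. -/
theorem surjRed (hG : GoodPair M A) (hReg : RegRedStatement M A)
    (hT : TameBaseStatement M A) (hC : CuspBarStatement M A) (hF : GenusFormulaStatement M) :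
    SurjRedStatement M A :=
  surjRed_of (inftyStatement M A) (helper81.scaleStatement M A hG.2)
    (helper81.integralityStatement M A hG.2) hReg (helper95.riemannSetting_FFb M A)
    (genusEq M A hG hReg hT hC hF)

end Fermat.Agent.P2.helper96

end
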