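/-
P2-[GEN] (helper96): final wiring, version 2: `GenusFormulaStatement` (helper77) and
`CuspBarStatement` (helper28) are unconditional, so genus equality and `SurjRedStatement` for
good pairs depend only on `RegRedStatement` and `TameBaseStatement`.
-/
import Mathlib
import Fermat.Agent.P2.helper96_GenFinal
import Fermat.Agent.P2.helper28_CuspBar
import Fermat.Agent.P2.helper77_GenusFormula3

set_option autoImplicit false
set_option synthInstance.maxHeartbeats 400000

noncomputable section

open HahnSeries IntermediateField AlgebraicCurve ModularCurve
open Fermat.Agent.S18.helper19 Fermat.Agent.P2.helper29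

namespace Fermat.Agent.P2.helper96

variable (M : ℕ) [NeZero M] (A : ValuationSubring Kb)

/-- **[GEN-B]** `g ≤ g̃` at good pairs, from `TameBaseStatement` only. -/
theorem genusLeBar_of_tameBase (hG : GoodPair M A) (hT : TameBaseStatement M A) :
    GenusLeBarStatement M A :=
  genusLeBar M A hG.1 hT (helper28.cuspBarStatement hG.2) (helper77.genusFormulaStatement M)

/-- **[GEN]** genus equality for good pairs, from `RegRedStatement` and `TameBaseStatement`. -/
theorem genusEq_of_regRed_tameBase (hG : GoodPair M A) (hReg : RegRedStatement M A)
    (hT : TameBaseStatement M A) : GenusEqStatement M A :=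
  genusEq M A hG hReg hT (helper28.cuspBarStatement hG.2) (helper77.genusFormulaStatement M)

/-- **[SURJ]** for good pairs, from `RegRedStatement` and `TameBaseStatement`. -/
theorem surjRed_of_regRed_tameBase (hG : GoodPair M A) (hReg : RegRedStatement M A)
    (hT : TameBaseStatement M A) : SurjRedStatement M A :=
  surjRed M A hG hReg hT (helper28.cuspBarStatement hG.2) (helper77.genusFormulaStatement M)

end Fermat.Agent.P2.helper96

end
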