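import Mathlib
import Fermat.Agent.P2.helper93_Cech

/-!
# P2-[INJ-2'] (helper96): the Kummer–Čech lemma

Abstract end of the Kummer-form injectivity statement (INJ), on top of the Čech connectedness
lemma `helper93.cech_connected`.

Setting: `B` a commutative ring, `A₀ ≤ R₀, R₁ ≤ Bs` subrings ("constants", "two charts",
"overlap"), `p ∈ B` ("uniformiser"), `n` invertible in `A₀`, `ζ ∈ A₀` an `n`-th root of unity
such that `ζ ^ j - 1` is a unit of `A₀` for `0 < j < n`.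

* `IsCechConnected R₀ R₁ Bs p` : the conclusion of the Čech lemma, as a property.
* `kummer_cech` : if `Y₁ ∈ R₀`, `Y₂ ∈ R₁`, `Y₁ ^ n ≡ 1 mod p R₀`, `Y₂ ^ n ≡ 1 mod p R₁`,
  `Y₁ ≡ Y₂ mod p Bs` and `1 ∉ p R₀`, then `Y₁ ≡ ζ ^ i mod p R₀` for some `i < n`.
* `kummer_cech_no_aut` : in this situation there is no ring endomorphism `σ` of `B` with
  `σ R₀ ⊆ R₀`, `σ p = p`, `σ ζ = ζ`, `σ Y₁ = ω Y₁`, `ω - 1` a unit of `A₀`.
* `isCechConnected_of_charts` : `helper93.cech_connected_charts` in this language.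
-/

set_option autoImplicit false

open Finset

namespace Fermat.Agent.P2.helper96

variable {B : Type*} [CommRing B]

/-- `X ∈ p R` -/
def PDvd (R : Subring B) (p X : B) : Prop := ∃ r ∈ R, X = p * r

theorem PDvd.add {R : Subring B} {p X Y : B} (hX : PDvd R p X) (hY : PDvd R p Y) :
    PDvd R p (X + Y) := by
  obtain ⟨r, hr, rfl⟩ := hX
  obtain ⟨s, hs, rfl⟩ := hY
  exact ⟨r + s, R.add_mem hr hs, by ring⟩

theorem PDvd.sub {R : Subring B} {p X Y : B} (hX : PDvd R p X) (hY : PDvd R p Y) :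
    PDvd R p (X - Y) := by
  obtain ⟨r, hr, rfl⟩ := hX
  obtain ⟨s, hs, rfl⟩ := hY
  exact ⟨r - s, R.sub_mem hr hs, by ring⟩

theorem PDvd.mul_left {R : Subring B} {p X : B} (hX : PDvd R p X) {c : B} (hc : c ∈ R) :
    PDvd R p (c * X) := by
  obtain ⟨r, hr, rfl⟩ := hX
  exact ⟨c * r, R.mul_mem hc hr, by ring⟩

theorem PDvd.mul_right {R : Subring B} {p X : B} (hX : PDvd R p X) {c : B} (hc : c ∈ R) :
    PDvd R p (X * c) := by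
  obtain ⟨r, hr, rfl⟩ := hX
  exact ⟨r * c, R.mul_mem hr hc, by ring⟩

theorem PDvd.mono {R R' : Subring B} (h : R ≤ R') {p X : B} (hX : PDvd R p X) :
    PDvd R' p X := by
  obtain ⟨r, hr, rfl⟩ := hX
  exact ⟨r, h hr, rfl⟩

theorem PDvd.zero (R : Subring B) (p : B) : PDvd R p 0 := ⟨0, R.zero_mem, by ring⟩

theorem PDvd.sum {R : Subring B} {p : B} {ι : Type*} (s : Finset ι) (f : ι → B)
    (h : ∀ i ∈ s, PDvd R p (f i)) : PDvd R p (∑ i ∈ s, f i) := by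
  classical
  induction s using Finset.induction_on with
  | empty => simpa using PDvd.zero R p
  | insert a s ha ih =>
    rw [Finset.sum_insert ha]
    exact (h a (Finset.mem_insert_self a s)).add
      (ih fun i hi => h i (Finset.mem_insert_of_mem hi))

/-- The conclusion of the Čech connectedness lemma, as a property of `(R₀, R₁, Bs, p)`. -/
def IsCechConnected (R₀ R₁ Bs : Subring B) (p : B) : Prop :=
  ∀ h₀ h₁ : B, h₀ ∈ R₀ → h₁ ∈ R₁ → (∃ r ∈ R₀, h₀ ^ 2 - h₀ = p * r) →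
    (∃ r ∈ R₁, h₁ ^ 2 - h₁ = p * r) → (∃ b ∈ Bs, h₀ - h₁ = p * b) →
    (∃ r ∈ R₀, h₀ = p * r) ∨ (∃ r ∈ R₀, 1 - h₀ = p * r)

/-- `helper93.cech_connected_charts`, repackaged. -/
theorem isCechConnected_of_charts (A₀ R₀ R₁ Bs : Subring B) [IsNoetherianRing A₀] (p : B)
    (hpA : p ∈ A₀) (hA₀ : A₀ ≤ R₀) (hA₁ : A₀ ≤ R₁) (h0B : R₀ ≤ Bs) (h1B : R₁ ≤ Bs)
    (hp : ∀ b : B, p * b = 0 → b = 0)
    (hA : ∀ α ∈ A₀, ∀ n : ℕ, (∃ β ∈ A₀, α = p ^ n * β) ∨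
      ∃ a < n, ∃ u ∈ A₀, ∃ v ∈ A₀, u * v = 1 ∧ α = u * p ^ a)
    (hH0 : ∀ x, x ∈ R₀ → x ∈ R₁ → x ∈ A₀)
    (x z : B) (hxz : x * z = 1) (hx : x ∈ R₀) (hz : z ∈ R₁) (U : Finset B)
    (hU : ∀ u ∈ U, u ∈ R₀)
    (hspan : ∀ r ∈ R₀, r ∈ Submodule.span A₀ {y : B | ∃ j : ℕ, ∃ u ∈ U, y = x ^ j * u})
    (hB : ∀ β ∈ Bs, ∃ n : ℕ, x ^ n * β ∈ R₀) (m : ℕ) (hm : ∀ u ∈ U, z ^ m * u ∈ R₁) :
    IsCechConnected R₀ R₁ Bs p :=
  fun h₀ h₁ hh₀ hh₁ hid₀ hid₁ hdiff =>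
    helper93.cech_connected_charts A₀ R₀ R₁ Bs p hpA hA₀ hA₁ h0B h1B hp hA hH0 x z hxz hx hz U
      hU hspan hB m hm h₀ h₁ hh₀ hh₁ hid₀ hid₁ hdiff

/-! ## Polynomial identities for the idempotents `e(W) = n⁻¹ ∑_{j<n} W^j` -/

section Identities

variable (n : ℕ)

/-- `∑_{j<n} W^j` -/
def gsum (W : B) : B := ∑ j ∈ range n, W ^ j

/-- `∑_{j<n} ∑_{k<j} W^k` -/
def gsum2 (W : B) : B := ∑ j ∈ range n, ∑ k ∈ range j, W ^ k

theorem sub_one_mul_gsum (W : B) : (W - 1) * gsum n W = W ^ n - 1 :=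
  mul_geom_sum W n

theorem gsum_sub_eq (W : B) : gsum n W - n = (W - 1) * gsum2 n W := by
  unfold gsum gsum2
  rw [Finset.mul_sum]
  have : ((n : ℕ) : B) = ∑ _j ∈ range n, (1 : B) := by simp
  rw [this, ← Finset.sum_sub_distrib]
  refine Finset.sum_congr rfl fun j _ => ?_
  rw [mul_geom_sum]

theorem gsum_sq (W : B) : gsum n W ^ 2 - n * gsum n W = (W ^ n - 1) * gsum2 n W := by
  have h1 := gsum_sub_eq n W
  have h2 := sub_one_mul_gsum n W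
  calc gsum n W ^ 2 - n * gsum n W = gsum n W * (gsum n W - n) := by ring
    _ = gsum n W * ((W - 1) * gsum2 n W) := by rw [h1]
    _ = ((W - 1) * gsum n W) * gsum2 n W := by ring
    _ = (W ^ n - 1) * gsum2 n W := by rw [h2]

/-- `e² - e = n⁻² (Wⁿ - 1) T` -/
theorem idem_identity (ninv : B) (hn : (n : B) * ninv = 1) (W : B) :
    (ninv * gsum n W) ^ 2 - ninv * gsum n W = (W ^ n - 1) * (ninv ^ 2 * gsum2 n W) := by
  have h := gsum_sq n W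
  calc (ninv * gsum n W) ^ 2 - ninv * gsum n W
      = ninv ^ 2 * gsum n W ^ 2 - ((n : B) * ninv) * (ninv * gsum n W) := by rw [hn]; ring
    _ = ninv ^ 2 * (gsum n W ^ 2 - n * gsum n W) := by ring
    _ = (W ^ n - 1) * (ninv ^ 2 * gsum2 n W) := by rw [h]; ring

/-- `(W - 1) e(W) = n⁻¹ (Wⁿ - 1)` -/
theorem sub_one_mul_idem (ninv : B) (W : B) :
    (W - 1) * (ninv * gsum n W) = ninv * (W ^ n - 1) := by
  rw [← sub_one_mul_gsum n W]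
  ring

/-- `∑_{k<j} Y₁^k Y₂^(j-1-k)` -/
def gsumTwo (j : ℕ) (Y₁ Y₂ : B) : B := ∑ k ∈ range j, Y₁ ^ k * Y₂ ^ (j - 1 - k)

theorem gsum_sub_gsum (ω Y₁ Y₂ : B) :
    gsum n (ω * Y₁) - gsum n (ω * Y₂) =
      (Y₁ - Y₂) * ∑ j ∈ range n, ω ^ j * gsumTwo j Y₁ Y₂ := by
  unfold gsum gsumTwo
  rw [← Finset.sum_sub_distrib, Finset.mul_sum]
  refine Finset.sum_congr rfl fun j _ => ?_
  have h := Commute.geom_sum₂_mul (Commute.all Y₁ Y₂) j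
  rw [mul_pow, mul_pow, ← mul_sub, ← h]
  ring

/-- the sum of all the idempotents is `1` -/
theorem sum_idem (hn0 : 0 < n) (ninv : B) (hn : (n : B) * ninv = 1) (ζ : B) (hζ : ζ ^ n = 1)
    (hζu : ∀ j, 0 < j → j < n → ∃ u : B, (ζ ^ j - 1) * u = 1) (Y : B) :
    ∑ i ∈ range n, ninv * gsum n (ζ ^ i * Y) = 1 := by
  rw [← Finset.mul_sum]
  have hswap : ∑ i ∈ range n, gsum n (ζ ^ i * Y) =
      ∑ j ∈ range n, Y ^ j * ∑ i ∈ range n, (ζ ^ j) ^ i := by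
    unfold gsum
    rw [Finset.sum_comm]
    refine Finset.sum_congr rfl fun j _ => ?_
    rw [Finset.mul_sum]
    refine Finset.sum_congr rfl fun i _ => ?_
    rw [mul_pow, ← pow_mul, ← pow_mul, mul_comm i j]
    ring
  have hinner : ∀ j ∈ range n, Y ^ j * ∑ i ∈ range n, (ζ ^ j) ^ i =
      if j = 0 then (n : B) else 0 := by
    intro j hj
    rw [Finset.mem_range] at hj
    split_ifs with h0
    · subst h0
      simp
    · obtain ⟨u, hu⟩ := hζu j (Nat.pos_of_ne_zero h0) hj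
      have h1 : (ζ ^ j - 1) * ∑ i ∈ range n, (ζ ^ j) ^ i = 0 := by
        rw [mul_geom_sum, ← pow_mul, mul_comm, pow_mul, hζ, one_pow, sub_self]
      have h2 : ∑ i ∈ range n, (ζ ^ j) ^ i = 0 := by
        calc ∑ i ∈ range n, (ζ ^ j) ^ i
            = ((ζ ^ j - 1) * u) * ∑ i ∈ range n, (ζ ^ j) ^ i := by rw [hu, one_mul]
          _ = u * ((ζ ^ j - 1) * ∑ i ∈ range n, (ζ ^ j) ^ i) := by ring
          _ = 0 := by rw [h1, mul_zero]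
      rw [h2, mul_zero]
  rw [hswap, Finset.sum_congr rfl hinner, Finset.sum_ite_eq' (range n) 0 (fun _ => (n : B)),
    if_pos (Finset.mem_range.mpr hn0), mul_comm, hn]

end Identities

/-! ## The Kummer–Čech lemma -/

section Main

variable (A₀ R₀ R₁ Bs : Subring B) (p : B)

theorem gsum_mem {R : Subring B} (n : ℕ) {W : B} (hW : W ∈ R) : gsum n W ∈ R :=
  R.sum_mem fun j _ => R.pow_mem hW j

theorem gsum2_mem {R : Subring B} (n : ℕ) {W : B} (hW : W ∈ R) : gsum2 n W ∈ R :=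
  R.sum_mem fun j _ => R.sum_mem fun k _ => R.pow_mem hW k

theorem gsumTwo_mem {R : Subring B} (j : ℕ) {Y₁ Y₂ : B} (h₁ : Y₁ ∈ R) (h₂ : Y₂ ∈ R) :
    gsumTwo j Y₁ Y₂ ∈ R :=
  R.sum_mem fun k _ => R.mul_mem (R.pow_mem h₁ k) (R.pow_mem h₂ _)

/-- **Kummer–Čech lemma.** -/
theorem kummer_cech (hA₀ : A₀ ≤ R₀) (hA₁ : A₀ ≤ R₁) (h0B : R₀ ≤ Bs) (h1B : R₁ ≤ Bs)
    (hcech : IsCechConnected R₀ R₁ Bs p)
    (n : ℕ) (hn0 : 0 < n) (ninv : B) (hninv : ninv ∈ A₀) (hn : (n : B) * ninv = 1)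
    (ζ : B) (hζA : ζ ∈ A₀) (hζ : ζ ^ n = 1)
    (hζu : ∀ j, 0 < j → j < n → ∃ u ∈ A₀, (ζ ^ j - 1) * u = 1)
    (Y₁ Y₂ : B) (hY₁ : Y₁ ∈ R₀) (hY₂ : Y₂ ∈ R₁)
    (h1 : ∃ r ∈ R₀, Y₁ ^ n - 1 = p * r) (h2 : ∃ r ∈ R₁, Y₂ ^ n - 1 = p * r)
    (hdiff : ∃ b ∈ Bs, Y₁ - Y₂ = p * b)
    (hunit : ¬ ∃ r ∈ R₀, (1 : B) = p * r) :
    ∃ i < n, ∃ r ∈ R₀, Y₁ - ζ ^ i = p * r := by
  have h1' : PDvd R₀ p (Y₁ ^ n - 1) := h1
  have h2' : PDvd R₁ p (Y₂ ^ n - 1) := h2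
  have hd' : PDvd Bs p (Y₁ - Y₂) := hdiff
  have hpowζ : ∀ i : ℕ, (ζ ^ i) ^ n = 1 := fun i => by
    rw [← pow_mul, mul_comm, pow_mul, hζ, one_pow]
  have hWn : ∀ (i : ℕ) (Y : B), (ζ ^ i * Y) ^ n - 1 = Y ^ n - 1 := fun i Y => by
    rw [mul_pow, hpowζ, one_mul]
  -- the Čech alternative for every idempotent
  have key : ∀ i : ℕ, PDvd R₀ p (ninv * gsum n (ζ ^ i * Y₁)) ∨
      PDvd R₀ p (1 - ninv * gsum n (ζ ^ i * Y₁)) := by
    intro i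
    have hW₁ : ζ ^ i * Y₁ ∈ R₀ := R₀.mul_mem (R₀.pow_mem (hA₀ hζA) i) hY₁
    have hW₂ : ζ ^ i * Y₂ ∈ R₁ := R₁.mul_mem (R₁.pow_mem (hA₁ hζA) i) hY₂
    refine hcech _ _ (R₀.mul_mem (hA₀ hninv) (gsum_mem n hW₁))
      (R₁.mul_mem (hA₁ hninv) (gsum_mem n hW₂)) ?_ ?_ ?_
    · rw [idem_identity n ninv hn, hWn]
      exact h1'.mul_right (R₀.mul_mem (R₀.pow_mem (hA₀ hninv) 2) (gsum2_mem n hW₁))
    · rw [idem_identity n ninv hn, hWn]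
      exact h2'.mul_right (R₁.mul_mem (R₁.pow_mem (hA₁ hninv) 2) (gsum2_mem n hW₂))
    · have e : ninv * gsum n (ζ ^ i * Y₁) - ninv * gsum n (ζ ^ i * Y₂) =
          (Y₁ - Y₂) * (ninv * ∑ j ∈ range n, (ζ ^ i) ^ j * gsumTwo j Y₁ Y₂) := by
        rw [← mul_sub, gsum_sub_gsum]
        ring
      rw [e]
      refine hd'.mul_right (Bs.mul_mem (h0B (hA₀ hninv)) (Bs.sum_mem fun j _ => ?_))
      exact Bs.mul_mem (Bs.pow_mem (Bs.pow_mem (h0B (hA₀ hζA)) i) j)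
        (gsumTwo_mem j (h0B hY₁) (h1B hY₂))
  by_contra hcon
  push Not at hcon
  -- every idempotent is `≡ 0`
  have hall : ∀ i ∈ range n, PDvd R₀ p (ninv * gsum n (ζ ^ i * Y₁)) := by
    intro i hi
    rw [Finset.mem_range] at hi
    rcases key i with h | h
    · exact h
    · exfalso
      -- `ζ^i Y₁ - 1 ∈ p R₀`
      have hW₁ : ζ ^ i * Y₁ ∈ R₀ := R₀.mul_mem (R₀.pow_mem (hA₀ hζA) i) hY₁
      have h3 : PDvd R₀ p (ζ ^ i * Y₁ - 1) := by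
        have e : ζ ^ i * Y₁ - 1 = (ζ ^ i * Y₁ - 1) * (1 - ninv * gsum n (ζ ^ i * Y₁)) +
            ninv * (Y₁ ^ n - 1) := by
          have := sub_one_mul_idem n ninv (ζ ^ i * Y₁)
          rw [hWn] at this
          rw [← this]
          ring
        rw [e]
        exact (h.mul_left (R₀.sub_mem hW₁ R₀.one_mem)).add (h1'.mul_left (hA₀ hninv))
      -- multiply by `ζ^(n-i)`
      rcases Nat.eq_zero_or_pos i with h0 | hpos
      · subst h0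
        obtain ⟨r, hr, er⟩ := h3
        refine hcon 0 hn0 r hr ?_
        rw [← er]
        simp
      · have hlt : n - i < n := by omega
        have hζi : ζ ^ (n - i) * ζ ^ i = 1 := by
          rw [← pow_add, Nat.sub_add_cancel hi.le, hζ]
        obtain ⟨r, hr, er⟩ := h3.mul_left (R₀.pow_mem (hA₀ hζA) (n - i))
        refine hcon (n - i) hlt r hr ?_
        rw [← er]
        calc Y₁ - ζ ^ (n - i) = (ζ ^ (n - i) * ζ ^ i) * Y₁ - ζ ^ (n - i) := by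
              rw [hζi, one_mul]
          _ = ζ ^ (n - i) * (ζ ^ i * Y₁ - 1) := by ring
  apply hunit
  have hs := sum_idem n hn0 ninv hn ζ hζ
    (fun j hj hjn => by obtain ⟨u, -, hu⟩ := hζu j hj hjn; exact ⟨u, hu⟩) Y₁
  have := PDvd.sum (range n) (fun i => ninv * gsum n (ζ ^ i * Y₁)) hall
  rw [hs] at this
  exact this

/-- **Kummer–Čech, Galois form**: a Kummer generator `Y₁` of the special fibre cannot be moved by
an automorphism. -/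
theorem kummer_cech_no_aut (hA₀ : A₀ ≤ R₀) (hA₁ : A₀ ≤ R₁) (h0B : R₀ ≤ Bs) (h1B : R₁ ≤ Bs)
    (hcech : IsCechConnected R₀ R₁ Bs p)
    (n : ℕ) (hn0 : 0 < n) (ninv : B) (hninv : ninv ∈ A₀) (hn : (n : B) * ninv = 1)
    (ζ : B) (hζA : ζ ∈ A₀) (hζ : ζ ^ n = 1)
    (hζu : ∀ j, 0 < j → j < n → ∃ u ∈ A₀, (ζ ^ j - 1) * u = 1)
    (Y₁ Y₂ : B) (hY₁ : Y₁ ∈ R₀) (hY₂ : Y₂ ∈ R₁)
    (h1 : ∃ r ∈ R₀, Y₁ ^ n - 1 = p * r) (h2 : ∃ r ∈ R₁, Y₂ ^ n - 1 = p * r)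
    (hdiff : ∃ b ∈ Bs, Y₁ - Y₂ = p * b)
    (hunit : ¬ ∃ r ∈ R₀, (1 : B) = p * r)
    (σ : B →+* B) (hσR : ∀ r ∈ R₀, σ r ∈ R₀) (hσp : σ p = p) (hσζ : σ ζ = ζ)
    (ω : B) (hωu : ∃ u ∈ A₀, (ω - 1) * u = 1) (hσY : σ Y₁ = ω * Y₁) : False := by
  obtain ⟨i, -, r, hr, er⟩ := kummer_cech A₀ R₀ R₁ Bs p hA₀ hA₁ h0B h1B hcech n hn0 ninv hninv
    hn ζ hζA hζ hζu Y₁ Y₂ hY₁ hY₂ h1 h2 hdiff hunit
  obtain ⟨u, hu, eu⟩ := hωu
  have e2 : ω * Y₁ - ζ ^ i = p * σ r := by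
    have := congrArg σ er
    rwa [map_sub, map_mul, map_pow, hσY, hσζ, hσp] at this
  have e3 : Y₁ = p * (u * (σ r - r)) := by
    calc Y₁ = ((ω - 1) * u) * Y₁ := by rw [eu, one_mul]
      _ = u * ((ω * Y₁ - ζ ^ i) - (Y₁ - ζ ^ i)) := by ring
      _ = p * (u * (σ r - r)) := by rw [e2, er]; ring
  have hY : PDvd R₀ p Y₁ := ⟨_, R₀.mul_mem (hA₀ hu) (R₀.sub_mem (hσR r hr) hr), e3⟩
  obtain ⟨k, rfl⟩ : ∃ k, n = k + 1 := ⟨n - 1, by omega⟩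
  have hYn : PDvd R₀ p (Y₁ ^ (k + 1)) := by
    rw [pow_succ]
    exact hY.mul_left (R₀.pow_mem hY₁ k)
  apply hunit
  have h1' : PDvd R₀ p (Y₁ ^ (k + 1) - 1) := h1
  have := hYn.sub h1'
  rwa [sub_sub_cancel] at this

end Main

end Fermat.Agent.P2.helper96
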