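/-
P2-CORE [ROOT-N] (helper98), addendum: the `q`-order of a polynomial in a series of order `-1`.

* `order_aeval` : for `f` of order `-1` and `R ≠ 0`, `(aeval f R).order = - deg R`;
* `order_aeval_jqModC`, `order_normSeries_eq` : the instances for `j` and for the norm of
  [ROOT-N].
-/
import Mathlib
import Fermat.Agent.P2.helper98_RootN

set_option autoImplicit false
set_option linter.unusedSectionVars false

open HahnSeries Polynomial
open Fermat.Agent.S24 Fermat.Agent.S18.helper19 Fermat.Agent.P2.helper29 ModularCurve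

noncomputable section

namespace Fermat.Agent.P2.helper98

section Order

variable {K : Type*} [Field K]

theorem order_pow_field {x : LaurentSeries K} (hx : x ≠ 0) (n : ℕ) :
    (x ^ n).order = n * x.order := by
  induction n with
  | zero => simp
  | succ k ih =>
    rw [pow_succ, order_mul_field (pow_ne_zero k hx) hx, ih]
    push_cast
    ring

theorem order_add_eq_right_of_lt {x y : LaurentSeries K} (hy : y ≠ 0)
    (h : x = 0 ∨ y.order < x.order) : (x + y).order = y.order := by
  rcases h with rfl | h
  · rw [zero_add]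
  rcases eq_or_ne x 0 with rfl | hx
  · rw [zero_add]
  have hlt : y.orderTop < x.orderTop := by
    rw [← order_eq_orderTop_of_ne_zero hx, ← order_eq_orderTop_of_ne_zero hy]
    exact_mod_cast h
  have h1 := HahnSeries.orderTop_add_eq_right hlt
  have hxy : x + y ≠ 0 := by
    intro h0
    rw [h0, HahnSeries.orderTop_zero] at h1
    exact hy (HahnSeries.orderTop_eq_top.mp h1.symm)
  rw [← order_eq_orderTop_of_ne_zero hxy, ← order_eq_orderTop_of_ne_zero hy] at h1
  exact_mod_cast h1

theorem order_monomial_aeval {f : LaurentSeries K} (hf : f.order = -1) (d : ℕ) {a : K}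
    (ha : a ≠ 0) : (aeval f (monomial d a)).order = -(d : ℤ) := by
  have hf0 : f ≠ 0 := by
    rintro rfl
    simp at hf
  have ha' : algebraMap K (LaurentSeries K) a ≠ 0 := by
    rw [Ne, map_eq_zero_iff _ (algebraMap K (LaurentSeries K)).injective]
    exact ha
  rw [aeval_monomial, order_mul_field ha' (pow_ne_zero d hf0), order_algebraMap,
    order_pow_field hf0, hf]
  ring

theorem aeval_monomial_ne_zero {f : LaurentSeries K} (hf : f.order = -1) (d : ℕ) {a : K}
    (ha : a ≠ 0) : aeval f (monomial d a) ≠ 0 := by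
  have hf0 : f ≠ 0 := by
    rintro rfl
    simp at hf
  have ha' : algebraMap K (LaurentSeries K) a ≠ 0 := by
    rw [Ne, map_eq_zero_iff _ (algebraMap K (LaurentSeries K)).injective]
    exact ha
  rw [aeval_monomial]
  exact mul_ne_zero ha' (pow_ne_zero d hf0)

/-- the order of a polynomial in a series of order `-1` -/
theorem order_aeval {f : LaurentSeries K} (hf : f.order = -1) (R : K[X]) (hR : R ≠ 0) :
    aeval f R ≠ 0 ∧ (aeval f R).order = -(R.natDegree : ℤ) := by
  induction hd : R.natDegree using Nat.strong_induction_on generalizing R with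
  | _ d ih =>
    have hlc : R.leadingCoeff ≠ 0 := leadingCoeff_ne_zero.mpr hR
    have hsplit := R.eraseLead_add_monomial_natDegree_leadingCoeff
    have hm0 := aeval_monomial_ne_zero hf R.natDegree hlc
    have hmo := order_monomial_aeval hf R.natDegree hlc
    have key : R.eraseLead = 0 ∨
        (aeval f (monomial R.natDegree R.leadingCoeff)).order < (aeval f R.eraseLead).order := by
      by_cases he : R.eraseLead = 0
      · exact Or.inl he
      · right
        have hlt : R.eraseLead.natDegree < d := by
          rcases R.eraseLead_natDegree_lt_or_eraseLead_eq_zero with h | h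
          · rw [← hd]; exact h
          · exact absurd h he
        obtain ⟨-, h2⟩ := ih _ hlt R.eraseLead he rfl
        rw [h2, hmo, hd]
        omega
    have key' : aeval f R.eraseLead = 0 ∨
        (aeval f (monomial R.natDegree R.leadingCoeff)).order < (aeval f R.eraseLead).order := by
      rcases key with h | h
      · left; rw [h, map_zero]
      · exact Or.inr h
    have hsum : aeval f R = aeval f R.eraseLead + aeval f (monomial R.natDegree R.leadingCoeff) := by
      rw [← map_add, hsplit]
    have hord := order_add_eq_right_of_lt hm0 key'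
    rw [← hsum, hmo, hd] at hord
    refine ⟨?_, hord⟩
    intro h0
    rcases key' with h | h
    · rw [hsum, h, zero_add] at h0
      exact hm0 h0
    · have hlt : (aeval f (monomial R.natDegree R.leadingCoeff)).orderTop
          < (aeval f R.eraseLead).orderTop := by
        have hx : aeval f R.eraseLead ≠ 0 := by
          intro hx
          rw [hsum, hx, zero_add] at h0
          exact hm0 h0
        rw [← order_eq_orderTop_of_ne_zero hx, ← order_eq_orderTop_of_ne_zero hm0]
        exact_mod_cast h
      have h1 := HahnSeries.orderTop_add_eq_right hlt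
      rw [← hsum, h0, HahnSeries.orderTop_zero] at h1
      exact hm0 (HahnSeries.orderTop_eq_top.mp h1.symm)

end Order

section Modular

theorem order_aeval_jqModC (R : Polynomial Kb) (hR : R ≠ 0) :
    (aeval (jqModC Kb) R).order = -(R.natDegree : ℤ) :=
  (order_aeval (order_jqModC Kb) R hR).2

theorem aeval_jqModC_ne_zero (R : Polynomial Kb) (hR : R ≠ 0) : aeval (jqModC Kb) R ≠ 0 :=
  (order_aeval (order_jqModC Kb) R hR).1

/-- the order of `c * R(j) ^ m` -/
theorem order_const_mul_pow (c : Kb) (hc : c ≠ 0) (R : Polynomial Kb) (hR : R.Monic) (m : ℕ) :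
    (algebraMap Kb (LaurentSeries Kb) c * (aeval (jqModC Kb) R) ^ m).order
      = -((m * R.natDegree : ℕ) : ℤ) := by
  have hR0 : R ≠ 0 := hR.ne_zero
  have hc' : algebraMap Kb (LaurentSeries Kb) c ≠ 0 := by
    rw [Ne, map_eq_zero_iff _ (algebraMap Kb (LaurentSeries Kb)).injective]
    exact hc
  rw [order_mul_field hc' (pow_ne_zero m (aeval_jqModC_ne_zero R hR0)), order_algebraMap,
    order_pow_field (aeval_jqModC_ne_zero R hR0), order_aeval_jqModC R hR0]
  push_cast
  ring

/-- **[ROOT-N]** with the orders at infinity: in addition to `rootN`, the cofactor `U = N / H`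
is nonzero and `ord_q U = - ord_q H - m * deg R ≥ 0`. -/
theorem rootN_order (M : ℕ) [NeZero M] (m : ℕ) (hm : m ≠ 0) (H : LaurentSeries Kb) (n : ℤ)
    (hL : InL (FF M) n H) (hH0 : H ≠ 0) (hdiv : DivDvd M m H) :
    ∃ (c : Kb) (R : Polynomial Kb) (U : LaurentSeries Kb), c ≠ 0 ∧ R.Monic ∧
      normSeries M ⟨H, hL.1⟩
        = algebraMap Kb (LaurentSeries Kb) c * (Polynomial.aeval (jqModC Kb) R) ^ m ∧
      ((m * R.natDegree : ℕ) : ℤ) ≤ -H.order ∧ -H.order ≤ n ∧
      (∃ hU : U ∈ FF M, IsIntegral (helper75.polyRing (K := Kb) (xJ M)) (⟨U, hU⟩ : FF M)) ∧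
      H * U = normSeries M ⟨H, hL.1⟩ ∧
      U ≠ 0 ∧ U.order = -H.order - ((m * R.natDegree : ℕ) : ℤ) ∧ 0 ≤ U.order := by
  obtain ⟨c, R, U, hc, hR, hN, hdeg, hn, hU, hHU⟩ := rootN M m hm H n hL hH0 hdiv
  have hN0 : algebraMap Kb (LaurentSeries Kb) c * (Polynomial.aeval (jqModC Kb) R) ^ m ≠ 0 := by
    have hc' : algebraMap Kb (LaurentSeries Kb) c ≠ 0 := by
      rw [Ne, map_eq_zero_iff _ (algebraMap Kb (LaurentSeries Kb)).injective]
      exact hc
    exact mul_ne_zero hc' (pow_ne_zero m (aeval_jqModC_ne_zero R hR.ne_zero))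
  have hU0 : U ≠ 0 := by
    rintro rfl
    rw [mul_zero, hN] at hHU
    exact hN0 hHU.symm
  have hord : U.order = -H.order - ((m * R.natDegree : ℕ) : ℤ) := by
    have h1 := order_mul_field hH0 hU0
    rw [hHU, hN, order_const_mul_pow c hc R hR m] at h1
    omega
  refine ⟨c, R, U, hc, hR, hN, hdeg, hn, hU, hHU, hU0, hord, ?_⟩
  omega

end Modular

end Fermat.Agent.P2.helper98
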